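import Fermat.Agent.Igusa.LatticeHyp
import Fermat.Prelude.Def_ModularCurve_X0ModL

/-!
The place of a field of Laurent series given by the order in `q`.
-/

set_option autoImplicit false

noncomputable section

open AlgebraicCurve ModularCurve HahnSeries

namespace FermatLib.Igusa

variable {K : Type*} [Field K] (F : IntermediateField K (LaurentSeries K))

theorem order_mul_series {x y : LaurentSeries K} (hx : x ≠ 0) (hy : y ≠ 0) :
    (x * y).order = x.order + y.order :=
  HahnSeries.order_mul hx hy

theorem order_inv_series (x : LaurentSeries K) : x⁻¹.order = -x.order := by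
  rcases eq_or_ne x 0 with rfl | hx
  · simp
  have h := order_mul_series hx (inv_ne_zero hx)
  rw [mul_inv_cancel₀ hx, HahnSeries.order_one] at h
  omega

theorem order_pow_series (x : LaurentSeries K) (n : ℕ) : (x ^ n).order = n * x.order := by
  rw [HahnSeries.order_pow, nsmul_eq_mul]

theorem order_zpow_series {x : LaurentSeries K} (n : ℤ) : (x ^ n).order = n * x.order := by
  obtain ⟨m, rfl | rfl⟩ := n.eq_nat_or_neg
  · rw [zpow_natCast, order_pow_series]
  · rw [zpow_neg, zpow_natCast, order_inv_series, order_pow_series, neg_mul]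

/-- Elements of nonnegative order. -/
def orderValuationSubring : ValuationSubring F where
  carrier := {x | 0 ≤ (x : LaurentSeries K).order}
  zero_mem' := by simp
  one_mem' := by simp
  mul_mem' := by
    intro x y hx hy
    simp only [Set.mem_ofPred_eq, MulMemClass.coe_mul] at *
    rcases eq_or_ne (x : LaurentSeries K) 0 with h | h
    · simp [h]
    rcases eq_or_ne (y : LaurentSeries K) 0 with h' | h'
    · simp [h']
    rw [order_mul_series h h']
    omega
  add_mem' := by
    intro x y hx hy
    simp only [Set.mem_ofPred_eq, AddMemClass.coe_add] at *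
    rcases eq_or_ne ((x : LaurentSeries K) + y) 0 with h | h
    · simp [h]
    exact le_trans (le_min hx hy) (HahnSeries.min_order_le_order_add h)
  neg_mem' := by
    intro x hx
    simpa using hx
  mem_or_inv_mem' x := by
    simp only [Set.mem_ofPred_eq]
    rw [IntermediateField.coe_inv, order_inv_series]
    omega

@[simp]
theorem mem_orderValuationSubring {x : F} :
    x ∈ orderValuationSubring F ↔ 0 ≤ (x : LaurentSeries K).order := Iff.rfl

theorem isUnit_orderValuationSubring {x : orderValuationSubring F}
    (hx : ((x : F) : LaurentSeries K).order = 0) (h0 : (x : F) ≠ 0) : IsUnit x := by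
  refine IsUnit.of_mul_eq_one (⟨(x : F)⁻¹, ?_⟩ : orderValuationSubring F)
    (Subtype.ext (mul_inv_cancel₀ h0))
  rw [mem_orderValuationSubring, IntermediateField.coe_inv, order_inv_series, hx]
  simp

theorem order_eq_zero_of_isUnit {u : (orderValuationSubring F)ˣ} :
    (((u : orderValuationSubring F) : F) : LaurentSeries K).order = 0 := by
  have h1 := (u : orderValuationSubring F).2
  have h2 := ((u⁻¹ : (orderValuationSubring F)ˣ) : orderValuationSubring F).2
  rw [mem_orderValuationSubring] at h1 h2
  have h : ((u : orderValuationSubring F) : F) *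
      (((u⁻¹ : (orderValuationSubring F)ˣ) : orderValuationSubring F) : F) = 1 :=
    congrArg Subtype.val u.mul_inv
  rw [eq_inv_of_mul_eq_one_right h, IntermediateField.coe_inv, order_inv_series] at h2
  omega

/-- A field of Laurent series containing a series of order `-1` has the place `q = 0`. -/
theorem exists_isOrderPlace {x₀ : F} (hx₀ : (x₀ : LaurentSeries K).order = -1) :
    ∃ P : Place K F, IsOrderPlace F P := by
  have hx0 : x₀ ≠ 0 := fun h => by simp [h] at hx₀
  let t : orderValuationSubring F := ⟨x₀⁻¹, by
    rw [mem_orderValuationSubring, IntermediateField.coe_inv, order_inv_series, hx₀]; simp⟩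
  have ht : ((t : F) : LaurentSeries K).order = 1 := by
    show (((x₀⁻¹ : F)) : LaurentSeries K).order = 1
    rw [IntermediateField.coe_inv, order_inv_series, hx₀]
    simp
  have ht0 : (t : F) ≠ 0 := inv_ne_zero hx0
  have key : ∀ (x : orderValuationSubring F) (n : ℕ), (x : F) ≠ 0 →
      ((x : F) : LaurentSeries K).order = n → ∃ u : (orderValuationSubring F)ˣ, x = u * t ^ n := by
    intro x n hx hn
    have hdiv : (0 : ℤ) = (((x : F) / (t : F) ^ n : F) : LaurentSeries K).order := by
      rw [IntermediateField.coe_div, IntermediateField.coe_pow, div_eq_mul_inv,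
        order_mul_series (by simpa using hx)
          (inv_ne_zero (pow_ne_zero _ (by simpa using ht0))),
        order_inv_series, order_pow_series, ht, hn]
      ring
    have hu := isUnit_orderValuationSubring F (x := ⟨(x : F) / (t : F) ^ n, hdiv.le⟩) hdiv.symm
      (div_ne_zero hx (pow_ne_zero _ ht0))
    refine ⟨hu.unit, Subtype.ext ?_⟩
    push_cast
    rw [hu.unit_spec]
    exact (div_mul_cancel₀ _ (pow_ne_zero _ ht0)).symm
  have hpir : IsPrincipalIdealRing (orderValuationSubring F) := by
    refine ⟨fun I => ?_⟩
    by_cases hI : I = ⊥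
    · exact hI ▸ bot_isPrincipal
    obtain ⟨y, hyI, hy⟩ := Submodule.exists_mem_ne_zero_of_ne_bot hI
    classical
    have hex : ∃ n : ℕ, ∃ z ∈ I, z ≠ 0 ∧ ((z : F) : LaurentSeries K).order = n :=
      ⟨_, y, hyI, hy, (Int.toNat_of_nonneg y.2).symm⟩
    obtain ⟨z, hzI, hz, hzn⟩ := Nat.find_spec hex
    refine ⟨⟨t ^ Nat.find hex, le_antisymm (fun w hw => ?_) ?_⟩⟩
    · rcases eq_or_ne w 0 with rfl | hw0
      · exact zero_mem _
      have hmin : Nat.find hex ≤ ((w : F) : LaurentSeries K).order.toNat :=
        Nat.find_le ⟨w, hw, hw0, (Int.toNat_of_nonneg w.2).symm⟩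
      obtain ⟨u, hu⟩ := key w _ (by simpa using hw0) (Int.toNat_of_nonneg w.2).symm
      rw [hu]
      exact Ideal.mem_span_singleton.mpr (dvd_mul_of_dvd_right (pow_dvd_pow _ hmin) _)
    · refine (Ideal.span_singleton_le_iff_mem I).mpr ?_
      obtain ⟨u, hu⟩ := key z _ (by simpa using hz) hzn
      have := I.mul_mem_left ((u⁻¹ : (orderValuationSubring F)ˣ) : orderValuationSubring F) hzI
      rwa [hu, Units.inv_mul_cancel_left] at this
  let P : Place K F :=
    { toValuationSubring := orderValuationSubring F
      algebraMap_mem' := fun a => by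
        rw [mem_orderValuationSubring]
        show 0 ≤ (algebraMap K (LaurentSeries K) a).order
        rw [algebraMap_laurentSeries_eq_single]
        rcases eq_or_ne a 0 with rfl | ha
        · simp
        · rw [HahnSeries.order_single ha]
      ne_top' := fun h => by
        have : x₀ ∈ orderValuationSubring F := by rw [h]; exact ValuationSubring.mem_top _
        rw [mem_orderValuationSubring, hx₀] at this
        omega
      isPrincipalIdealRing' := hpir }
  have hirr : Irreducible (t : P.toValuationSubring) := by
    refine ⟨fun hu => ?_, fun a b hab => ?_⟩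
    · have := order_eq_zero_of_isUnit F (u := hu.unit)
      rw [hu.unit_spec, ht] at this
      omega
    · have ha := a.2
      have hb := b.2
      rw [mem_orderValuationSubring] at ha hb
      have hab' : (t : F) = (a : F) * (b : F) := congrArg Subtype.val hab
      have ha0 : (a : F) ≠ 0 := fun h => ht0 (by rw [hab', h, zero_mul])
      have hb0 : (b : F) ≠ 0 := fun h => ht0 (by rw [hab', h, mul_zero])
      have := ht
      rw [hab', MulMemClass.coe_mul, order_mul_series (by simpa using ha0) (by simpa using hb0)]
        at this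
      rcases ha.eq_or_lt with h | h
      · exact Or.inl (isUnit_orderValuationSubring F h.symm ha0)
      · exact Or.inr (isUnit_orderValuationSubring F (by omega) hb0)
  refine ⟨P, fun x => ?_⟩
  rcases eq_or_ne x 0 with rfl | hx
  · simp
  obtain ⟨u, hu⟩ := P.exists_unit_mul_zpow hx hirr
  conv_rhs => rw [hu]
  have hu0 : ((u : P.toValuationSubring) : F) ≠ 0 := by
    intro h
    exact hx (by rw [hu, h, zero_mul])
  rw [MulMemClass.coe_mul, order_mul_series (by simpa using hu0)
    (by simpa using zpow_ne_zero _ ht0)]
  have hz : (((t : F) ^ P.ord x : F) : LaurentSeries K) =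
      ((t : F) : LaurentSeries K) ^ P.ord x := map_zpow₀ F.val _ _
  rw [hz, order_eq_zero_of_isUnit F, order_zpow_series, ht]
  ring

/-- `j(q)` has order `-1`. -/
theorem order_jqModC (K : Type*) [Field K] : (jqModC K).order = -1 := by
  have h1 : (jqModC K).coeff (-1) ≠ 0 := by
    rw [coeff_jqModC_neg_one]
    exact one_ne_zero
  refine le_antisymm (HahnSeries.order_le_of_coeff_ne_zero h1) ?_
  by_contra h
  exact mt HahnSeries.coeff_order_eq_zero.mp (jqModC_ne_zero_of_nontrivial K)
    (coeff_jqModC_of_lt K (not_le.mp h))

theorem exists_isOrderPlace_fullC (K : Type*) [Field K] (N : ℕ) :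
    ∃ P : Place K (modularFunctionFieldFullC K N), IsOrderPlace _ P :=
  exists_isOrderPlace _ (x₀ := ⟨jqModC K, jqModC_mem_full K N⟩) (order_jqModC K)

theorem exists_isOrderPlace_baseChange (L : Type*) [Field L] [Algebra ℚ L] (N : ℕ) :
    ∃ P : Place L (laurentBaseChange L (modularFunctionFieldFull N)), IsOrderPlace _ P := by
  have hj : coeffEmb L jq = jqModC L := by
    rw [coeffEmb, ← jqModC_rat, coeffMap_jqModC]
  refine exists_isOrderPlace _ (x₀ := ⟨coeffEmb L jq,
    coeffEmb_mem_laurentBaseChange L ?_⟩) (hj.symm ▸ order_jqModC L :)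
  have := jqd_mem_full N (one_dvd N)
  rwa [qExpand_one_apply] at this

end FermatLib.Igusa
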