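import Fermat.Agent.Igusa.CongruenceJacobian
import Fermat.Agent.Curve.RiemannRoch

/-!
The Eichler-Shimura congruence relation for the reduction of `J₀(N)` modulo `ℓ ∤ N`:
for any place reduction (no further property of the reduction map is used).
-/

set_option autoImplicit false
set_option linter.style.haveILetI false
set_option synthInstance.maxHeartbeats 400000

noncomputable section

open ModularCurve AlgebraicCurve

namespace FermatLib.Igusa

local notation "Qbar" => AlgebraicClosure ℚ

variable {A : ValuationSubring Qbar} {N : ℕ} [NeZero N]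

theorem exists_riemannInequalityAt_bar :
    ∃ g : ℕ, RiemannInequalityAt Qbar (modularFunctionFieldBar N) g := by
  haveI := FermatLib.Modular.Corr.isFunctionFieldOne_fieldBar Qbar N
  exact ⟨_, riemannInequalityAt_of_equation (FermatLib.Curve.riemannEquation _ _)⟩

/-- Inertia is invisible after reduction. -/
theorem red_inertia_smul (h : ReductionInputsModL A N) (σ : Qbar ≃ₐ[ℚ] Qbar)
    (hσ : σ ∈ A.inertiaSubgroupIn ℚ) (x : JZero N) :
    reductionModL A N (σ • x) = reductionModL A N x := by
  obtain ⟨g, hR⟩ := exists_riemannInequalityAt_bar (N := N)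
  exact reductionModL_inertia_smul hR h σ hσ x

/-- The decomposition group preserves the kernel of reduction. -/
theorem red_decomposition_smul_eq_zero (h : ReductionInputsModL A N) (σ : Qbar ≃ₐ[ℚ] Qbar)
    (hσ : σ ∈ A.decompositionSubgroup ℚ) {x : JZero N} (hx : reductionModL A N x = 0) :
    reductionModL A N (σ • x) = 0 := by
  obtain ⟨g, hR⟩ := exists_riemannInequalityAt_bar (N := N)
  exact reductionModL_decomposition_smul_eq_zero hR h σ hσ hx

/-- The Eichler-Shimura relation after reduction, for every point. -/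
theorem red_eichlerShimura (h : ReductionInputsModL A N) {ℓ : ℕ} (hℓ : ℓ.Prime) (hℓN : ¬ ℓ ∣ N)
    (hA : A.LiesOverPrime ℓ) (σ : Qbar ≃ₐ[ℚ] Qbar) (hσ : A.IsFrobeniusAt σ ℓ) (x : JZero N) :
    letI := heckeModuleBar N
    reductionModL A N (σ • σ • x - heckeGen ⟨ℓ, hℓ⟩ • (σ • x) + ℓ • x) = 0 := by
  obtain ⟨g, hR⟩ := exists_riemannInequalityAt_bar (N := N)
  letI := heckeModuleBar N
  refine Eq.trans ?_ (reductionModL_eichlerShimura hR h hℓ hℓN hA σ hσ x)
  exact congrArg (fun z => reductionModL A N (σ • σ • x - z + ℓ • x))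
    (heckeModuleBar_heckeGen_smul (FermatLib.Modular.heckeOperatorsCommuteBar N) _ (σ • x))

end FermatLib.Igusa
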