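import Fermat.Prelude.Def_ModularCurve_ReductionModL

/-!
Laurent series with coefficients in a valuation ring: the value and reduction maps, scaling,
divisibility by constants and the archimedean property used for limit arguments.
-/

set_option autoImplicit false

noncomputable section

open ModularCurve HahnSeries IsLocalRing

namespace FermatLib.Igusa

variable {L : Type*} [Field L] (A : ValuationSubring L)

/-- A Laurent series over `A`, read over `L`. -/
def latVal : LaurentSeries A →+* LaurentSeries L := coeffMap A.subtype

variable {A} {k : Type*} [Field k] (π : A →+* k)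

/-- A Laurent series over `A`, reduced along `π`. -/
def latRed : LaurentSeries A →+* LaurentSeries k := coeffMap π

@[simp] theorem latVal_coeff (y : LaurentSeries A) (i : ℤ) :
    (latVal A y).coeff i = (y.coeff i : L) := rfl

@[simp] theorem latRed_coeff (y : LaurentSeries A) (i : ℤ) :
    (latRed π y).coeff i = π (y.coeff i) := rfl

theorem latVal_injective : Function.Injective (latVal A) := fun x y h => by
  ext i
  have := congrArg (fun z => z.coeff i) h
  simpa using this

theorem latVal_single (i : ℤ) (a : A) :
    latVal A (single i a) = single i (a : L) := coeffMap_single _ _ _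

theorem latRed_single (i : ℤ) (a : A) :
    latRed π (single i a) = single i (π a) := coeffMap_single _ _ _

theorem laurent_smul_eq (c : L) (x : LaurentSeries L) : c • x = single (0 : ℤ) c * x := by
  ext i
  rw [HahnSeries.coeff_single_mul, sub_zero]
  simp

theorem smul_latVal (a : A) (y : LaurentSeries A) :
    (a : L) • latVal A y = latVal A (single (0 : ℤ) a * y) := by
  rw [map_mul, latVal_single, laurent_smul_eq]

theorem exists_latVal_eq {x : LaurentSeries L} (h : ∀ i, x.coeff i ∈ A) :
    ∃ y : LaurentSeries A, latVal A y = x := by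
  refine ⟨⟨fun i => ⟨x.coeff i, h i⟩, ?_⟩, HahnSeries.ext rfl⟩
  refine x.isPWO_support.mono fun i hi => ?_
  rw [Function.mem_support] at hi
  rw [HahnSeries.mem_support]
  intro h0
  exact hi (Subtype.ext (by simpa using h0))

variable {π}

theorem map_eq_zero_iff_mem_maximalIdeal (hπ : Function.Surjective π) (a : A) :
    π a = 0 ↔ a ∈ maximalIdeal A := by
  rw [← IsLocalRing.ker_eq_maximalIdeal π hπ, RingHom.mem_ker]

/-- `single 0 a` divides `y` iff `a` divides all coefficients. -/
theorem single_dvd_iff (a : A) (y : LaurentSeries A) :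
    single (0 : ℤ) a ∣ y ↔ ∀ i, a ∣ y.coeff i := by
  rcases eq_or_ne a 0 with rfl | ha
  · constructor
    · rintro h i
      rw [map_zero, zero_dvd_iff] at h
      simp [h]
    · intro h
      have : y = 0 := by
        ext i
        simpa using zero_dvd_iff.mp (h i)
      simp [this]
  constructor
  · rintro ⟨z, rfl⟩ i
    rw [HahnSeries.coeff_single_mul, sub_zero]
    exact dvd_mul_right _ _
  · intro h
    choose z hz using h
    refine ⟨⟨z, y.isPWO_support.mono fun i hi => ?_⟩, ?_⟩
    · rw [Function.mem_support] at hi
      rw [HahnSeries.mem_support, hz i]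
      exact mul_ne_zero ha hi
    · ext i
      rw [HahnSeries.coeff_single_mul, sub_zero]
      exact congrArg Subtype.val (hz i)

theorem exists_dvd_of_forall_mem_maximalIdeal (s : Finset A) {ε : A} (hε : ε ∈ maximalIdeal A)
    (hε0 : ε ≠ 0) (hs : ∀ a ∈ s, a ∈ maximalIdeal A) :
    ∃ p : A, p ∈ maximalIdeal A ∧ p ≠ 0 ∧ p ∣ ε ∧ ∀ a ∈ s, p ∣ a := by
  classical
  induction s using Finset.induction_on with
  | empty => exact ⟨ε, hε, hε0, dvd_rfl, by simp⟩
  | insert a s _ ih =>
    obtain ⟨p, hp, hp0, hpε, hps⟩ := ih fun b hb => hs b (Finset.mem_insert_of_mem hb)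
    rcases ValuationRing.dvd_total p a with h | h
    · refine ⟨p, hp, hp0, hpε, fun b hb => ?_⟩
      rcases Finset.mem_insert.mp hb with rfl | hb
      exacts [h, hps b hb]
    · refine ⟨a, hs a (Finset.mem_insert_self a s), ?_, h.trans hpε, ?_⟩
      · rintro rfl
        exact hp0 (zero_dvd_iff.mp h)
      · intro b hb
        rcases Finset.mem_insert.mp hb with rfl | hb
        exacts [dvd_rfl, h.trans (hps b hb)]

/-- Powers of a non-unit eventually stop dividing a given nonzero element. -/
def IsRankOneLike (A : ValuationSubring L) : Prop :=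
  ∀ p : A, p ∈ maximalIdeal A → p ≠ 0 → ∀ c : A, c ≠ 0 → ∃ t : ℕ, ¬ p ^ t ∣ c

end FermatLib.Igusa
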