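import Mathlib
import Fermat.Prelude.Def_AlgebraicCurve_DivisorClassGroup
import Fermat.Prelude.Def_AlgebraicCurve_Repartitions

/-!
Elementary consequences of the Riemann-Roch equality in large degree for a function field
all of whose places have degree one.
-/

set_option autoImplicit false
set_option linter.style.haveILetI false

noncomputable section

open AlgebraicCurve

namespace FermatLib.Igusa

variable {K F : Type*} [Field K] [Field F] [Algebra K F]

/-- `F` is a function field of genus `g` over `K` with all places rational, seen through the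
facts needed for constant reductions. -/
structure RRField (K F : Type*) [Field K] [Field F] [Algebra K F] (g : ℕ) : Prop where
  deg_one : ∀ v : Place K F, v.deg = 1
  nonempty_place : Nonempty (Place K F)
  principal : HasPrincipalDivisors K F
  finite_space : ∀ D : Divisor K F, Module.Finite K (riemannRochSpace D)
  finrank_space : ∀ D : Divisor K F, 2 * (g : ℤ) - 1 ≤ Divisor.degree D →
    (Module.finrank K (riemannRochSpace D) : ℤ) = Divisor.degree D + 1 - g

/-- `c` is the value of `f` at the place `v`. -/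
def HasValueAt (v : Place K F) (f : F) (c : K) : Prop :=
  f = algebraMap K F c ∨ 0 < v.ord (f - algebraMap K F c)

/-- Constants have order zero everywhere. -/
theorem ord_algebraMap (v : Place K F) (c : K) : v.ord (algebraMap K F c) = 0 := by
  rcases eq_or_ne c 0 with rfl | hc
  · simp
  · have hu : IsUnit (algebraMap K v.toValuationSubring c) := (Ne.isUnit hc).map _
    have := v.ord_coe_unit hu.unit
    simpa using this

theorem ord_add_ge (v : Place K F) {f h : F} {n : ℤ} (hf : f = 0 ∨ n ≤ v.ord f)
    (hh : h = 0 ∨ n ≤ v.ord h) : f + h = 0 ∨ n ≤ v.ord (f + h) := by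
  have hf' := (v.adicValuation_le_exp_iff (f := f) (n := -n)).mpr (by simpa using hf)
  have hh' := (v.adicValuation_le_exp_iff (f := h) (n := -n)).mpr (by simpa using hh)
  have := (v.adicValuation_le_exp_iff (f := f + h) (n := -n)).mp
    ((Valuation.map_add _ _ _).trans (max_le hf' hh'))
  simpa using this

theorem ord_pow (v : Place K F) (f : F) (m : ℕ) : v.ord (f ^ m) = m * v.ord f := by
  simpa using v.ord_zpow f (m : ℤ)

theorem ord_neg (v : Place K F) (f : F) : v.ord (-f) = v.ord f := by
  simp [Place.ord]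

theorem degree_nonneg {D : Divisor K F} (h : 0 ≤ D) : 0 ≤ Divisor.degree D := by
  classical
  show 0 ≤ Finsupp.liftAddHom _ D
  rw [Finsupp.liftAddHom_apply]
  exact Finset.sum_nonneg fun v _ =>
    mul_nonneg (Finsupp.le_def.mp h v) (Int.natCast_nonneg _)

theorem degree_mono {D E : Divisor K F} (h : D ≤ E) : Divisor.degree D ≤ Divisor.degree E := by
  have := degree_nonneg (sub_nonneg.mpr h : (0 : Divisor K F) ≤ E - D)
  rw [map_sub] at this
  omega

theorem riemannRochSpace_mono {D E : Divisor K F} (h : D ≤ E) :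
    riemannRochSpace D ≤ riemannRochSpace E := fun f hf => by
  rw [mem_riemannRochSpace_iff] at hf ⊢
  intro v
  exact (hf v).imp id fun hv => le_trans (neg_le_neg (Finsupp.le_def.mp h v)) hv

theorem one_mem_riemannRochSpace {D : Divisor K F} (h : 0 ≤ D) :
    (1 : F) ∈ riemannRochSpace D := by
  rw [mem_riemannRochSpace_iff]
  intro v
  refine Or.inr ?_
  have := Finsupp.le_def.mp h v
  simp only [Finsupp.coe_zero, Pi.zero_apply] at this
  simp only [Place.ord_one]
  omega

theorem mul_mem_riemannRochSpace {D E : Divisor K F} {f h : F} (hf : f ∈ riemannRochSpace D)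
    (hh : h ∈ riemannRochSpace E) : f * h ∈ riemannRochSpace (D + E) := by
  rw [mem_riemannRochSpace_iff] at hf hh ⊢
  intro v
  rcases eq_or_ne f 0 with rfl | hf0
  · simp
  rcases eq_or_ne h 0 with rfl | hh0
  · simp
  right
  have h1 := (hf v).resolve_left hf0
  have h2 := (hh v).resolve_left hh0
  rw [v.ord_mul hf0 hh0, Finsupp.add_apply]
  omega

theorem eq_single_of_degree_eq_one (hdeg : ∀ v : Place K F, v.deg = 1) {E : Divisor K F}
    (hE : 0 ≤ E) (h1 : Divisor.degree E = 1) : ∃ Q, E = Finsupp.single Q 1 := by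
  classical
  have hne : E ≠ 0 := by
    rintro rfl
    simp at h1
  obtain ⟨Q, hQ⟩ := Finsupp.ne_iff.mp hne
  simp only [Finsupp.coe_zero, Pi.zero_apply] at hQ
  have hQ1 : 1 ≤ E Q := by
    have h := Finsupp.le_def.mp hE Q
    simp only [Finsupp.coe_zero, Pi.zero_apply] at h
    omega
  have hle : Finsupp.single Q (1 : ℤ) ≤ E := by
    rw [Finsupp.le_def]
    intro v
    rcases eq_or_ne Q v with rfl | hne'
    · rwa [Finsupp.single_eq_same]
    · rw [Finsupp.single_eq_of_ne (Ne.symm hne')]
      simpa using Finsupp.le_def.mp hE v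
  refine ⟨Q, ?_⟩
  set R := E - Finsupp.single Q (1 : ℤ) with hR
  have hR0 : 0 ≤ R := sub_nonneg.mpr hle
  have hRdeg : Divisor.degree R = 0 := by
    rw [hR, map_sub, Divisor.degree_single, hdeg, h1]
    simp
  by_contra hne''
  obtain ⟨v, hv⟩ := Finsupp.ne_iff.mp (show R ≠ 0 from sub_ne_zero.mpr hne'')
  simp only [Finsupp.coe_zero, Pi.zero_apply] at hv
  have hv0 := Finsupp.le_def.mp hR0 v
  simp only [Finsupp.coe_zero, Pi.zero_apply] at hv0
  have hle' : Finsupp.single v (1 : ℤ) ≤ R := by
    rw [Finsupp.le_def]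
    intro w
    rcases eq_or_ne v w with rfl | hne'
    · rw [Finsupp.single_eq_same]; omega
    · rw [Finsupp.single_eq_of_ne (Ne.symm hne')]
      simpa using Finsupp.le_def.mp hR0 w
  have := degree_mono hle'
  rw [hRdeg, Divisor.degree_single, hdeg] at this
  simp at this

theorem HasValueAt.of_eq (v : Place K F) (c : K) : HasValueAt v (algebraMap K F c) c := Or.inl rfl

theorem HasValueAt.unique {v : Place K F} {f : F} {c c' : K} (h : HasValueAt v f c)
    (h' : HasValueAt v f c') : c = c' := by
  by_contra hne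
  have hx : ∀ d : K, HasValueAt v f d →
      f - algebraMap K F d = 0 ∨ (1 : ℤ) ≤ v.ord (f - algebraMap K F d) := by
    intro d hd
    rcases hd with h | h
    · exact Or.inl (sub_eq_zero.mpr h)
    · exact Or.inr h
  have h2 : -(f - algebraMap K F c') = 0 ∨ (1 : ℤ) ≤ v.ord (-(f - algebraMap K F c')) := by
    rcases hx c' h' with h | h
    · exact Or.inl (by simp [h])
    · exact Or.inr (by rwa [ord_neg])
  have h3 := ord_add_ge v (hx c h) h2
  rw [show f - algebraMap K F c + -(f - algebraMap K F c') = algebraMap K F (c' - c) by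
    rw [map_sub]; ring] at h3
  rcases h3 with h3 | h3
  · exact hne (sub_eq_zero.mp ((map_eq_zero _).mp h3)).symm
  · rw [ord_algebraMap] at h3; omega

theorem HasValueAt.ord_nonneg {v : Place K F} {f : F} {c : K} (h : HasValueAt v f c) :
    f = 0 ∨ 0 ≤ v.ord f := by
  have h2 : algebraMap K F c = 0 ∨ (0 : ℤ) ≤ v.ord (algebraMap K F c) :=
    Or.inr (ord_algebraMap v c).ge
  rcases h with h | h
  · rwa [h]
  · simpa using ord_add_ge v (Or.inr h.le) h2

theorem exists_hasValueAt {v : Place K F} (hdeg : v.deg = 1) {f : F}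
    (hf : f = 0 ∨ 0 ≤ v.ord f) : ∃ c, HasValueAt v f c := by
  rcases eq_or_ne f 0 with rfl | hf0
  · exact ⟨0, Or.inl (map_zero _).symm⟩
  have hfO : f ∈ v.toValuationSubring := by
    obtain ⟨π, hπ⟩ := IsDiscreteValuationRing.exists_irreducible v.toValuationSubring
    obtain ⟨u, hu⟩ := v.exists_unit_mul_zpow hf0 hπ
    rw [hu, show v.ord f = ((v.ord f).toNat : ℤ) from
      (Int.toNat_of_nonneg (hf.resolve_left hf0)).symm, zpow_natCast]
    exact mul_mem (u : v.toValuationSubring).2 (pow_mem π.2 _)
  obtain ⟨c, hc⟩ := (finrank_eq_one_iff_of_nonzero' (1 : v.ResidueField) one_ne_zero).mp hdeg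
    (IsLocalRing.residue _ ⟨f, hfO⟩)
  refine ⟨c, ?_⟩
  rcases eq_or_ne f (algebraMap K F c) with heq | hne
  · exact Or.inl heq
  right
  set w : v.toValuationSubring := ⟨f, hfO⟩ - algebraMap K v.toValuationSubring c with hw
  have hwF : (w : F) = f - algebraMap K F c := rfl
  have hres : IsLocalRing.residue _ w = 0 := by
    rw [hw, map_sub, ← hc, Algebra.smul_def, mul_one]
    exact sub_self _
  have hnu : ¬ IsUnit w := fun hu => by
    have := (IsLocalRing.residue_eq_zero_iff _).mp hres
    exact (IsLocalRing.mem_maximalIdeal _).mp this hu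
  have h1 : v.adicValuation (w : F) ≠ 1 := fun h => hnu ((v.adicValuation_coe_eq_one_iff w).mp h)
  have h2 := v.adicValuation_le_one_of_mem w.2
  rw [hwF] at h1 h2
  have h3 := (v.adicValuation_le_one_iff.mp h2).resolve_left (sub_ne_zero.mpr hne)
  rw [v.adicValuation_eq_exp_neg_ord (sub_ne_zero.mpr hne)] at h1
  have : v.ord (f - algebraMap K F c) ≠ 0 := fun h => h1 (by simp [h])
  omega

/-- If one of two functions has exact order `n` at `v`, so has all but one combination. -/
theorem subsingleton_combination {v : Place K F} {n : ℤ} {f h : F}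
    (hex : ¬ (f = 0 ∨ n + 1 ≤ v.ord f) ∨ ¬ (h = 0 ∨ n + 1 ≤ v.ord h)) :
    {t : K | f + algebraMap K F t * h = 0 ∨ n + 1 ≤ v.ord (f + algebraMap K F t * h)}.Subsingleton := by
  intro t ht t' ht'
  by_contra hne
  have hscale : ∀ (a : K) (x : F), (x = 0 ∨ n + 1 ≤ v.ord x) →
      (algebraMap K F a * x = 0 ∨ n + 1 ≤ v.ord (algebraMap K F a * x)) := by
    intro a x hx
    rcases eq_or_ne a 0 with rfl | ha
    · simp
    rcases eq_or_ne x 0 with rfl | hx0
    · simp
    right
    rw [v.ord_mul (by simpa using ha) hx0, ord_algebraMap]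
    simpa using hx.resolve_left hx0
  have h1 := ord_add_ge v ht (hscale (-1) _ ht')
  rw [show f + algebraMap K F t * h + algebraMap K F (-1) * (f + algebraMap K F t' * h)
    = algebraMap K F (t - t') * h by rw [map_sub, map_neg, map_one]; ring] at h1
  have hh : h = 0 ∨ n + 1 ≤ v.ord h := by
    have := hscale (t - t')⁻¹ _ h1
    rwa [← mul_assoc, ← map_mul, inv_mul_cancel₀ (sub_ne_zero.mpr hne), map_one, one_mul] at this
  have hf := ord_add_ge v ht (hscale (-t) _ hh)
  rw [show f + algebraMap K F t * h + algebraMap K F (-t) * h = f by rw [map_neg]; ring] at hf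
  exact hex.elim (fun e => e hf) (fun e => e hh)

/-- A subspace contains a single element attaining finitely many maximal pole orders at once. -/
theorem exists_forall_exact [Infinite K] (V : Submodule K F) (e : Place K F → ℤ)
    (s : Finset (Place K F))
    (hs : ∀ v ∈ s, ∃ f ∈ V, ¬ (f = 0 ∨ e v + 1 ≤ v.ord f)) :
    ∃ f ∈ V, ∀ v ∈ s, ¬ (f = 0 ∨ e v + 1 ≤ v.ord f) := by
  classical
  induction s using Finset.induction with
  | empty => exact ⟨0, V.zero_mem, by simp⟩
  | insert Q s hQ ih =>
    obtain ⟨f, hfV, hf⟩ := ih fun v hv => hs v (Finset.mem_insert_of_mem hv)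
    obtain ⟨h, hhV, hh⟩ := hs Q (Finset.mem_insert_self Q s)
    have hfin : (⋃ v ∈ (↑(insert Q s) : Set (Place K F)),
        {t : K | f + algebraMap K F t * h = 0 ∨ e v + 1 ≤ v.ord (f + algebraMap K F t * h)}).Finite := by
      refine (insert Q s).finite_toSet.biUnion fun v hv => ?_
      refine (subsingleton_combination ?_).finite
      rcases Finset.mem_insert.mp hv with rfl | hv
      · exact Or.inr hh
      · exact Or.inl (hf v hv)
    obtain ⟨t, ht⟩ := hfin.exists_notMem
    refine ⟨f + algebraMap K F t * h,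
      V.add_mem hfV (by rw [← Algebra.smul_def]; exact V.smul_mem t hhV), fun v hv hcon => ht ?_⟩
    exact Set.mem_biUnion (Finset.mem_coe.mpr hv) hcon

/-- The functions `u` are independent over the polynomials in `f`. -/
def PolyIndependent (K : Type*) {F : Type*} [Field K] [Field F] [Algebra K F] {ι : Type*}
    (f : F) (u : ι → F) : Prop :=
  LinearIndependent K fun p : ℕ × ι => f ^ p.1 * u p.2

theorem polyIndependent_of_forall {ι : Type*} [Fintype ι] {f : F} {u : ι → F}
    (h : ∀ (t : ℕ) (c : ℕ → ι → K),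
        ∑ a ∈ Finset.range t, f ^ a * (∑ i, c a i • u i) = 0 → ∀ a < t, ∀ i, c a i = 0) :
    PolyIndependent K f u := by
  classical
  rw [PolyIndependent, linearIndependent_iff']
  intro s c hc p hp
  set t := s.sup Prod.fst + 1 with ht
  have hlt : ∀ q ∈ s, q.1 < t := fun q hq => Nat.lt_succ_of_le (Finset.le_sup (f := Prod.fst) hq)
  have hsub : s ⊆ Finset.range t ×ˢ Finset.univ := fun q hq =>
    Finset.mem_product.mpr ⟨Finset.mem_range.mpr (hlt q hq), Finset.mem_univ _⟩
  have hsum : ∑ a ∈ Finset.range t, f ^ a *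
      (∑ i, (if (a, i) ∈ s then c (a, i) else 0) • u i) = 0 := by
    simp only [Finset.mul_sum, mul_smul_comm]
    rw [← Finset.sum_product' (Finset.range t) Finset.univ
      (fun a i => (if (a, i) ∈ s then c (a, i) else 0) • (f ^ a * u i)), ← hc]
    refine (Finset.sum_subset hsub fun q _ hq => ?_).symm.trans
      (Finset.sum_congr rfl fun q hq => ?_)
    · rw [if_neg hq, zero_smul]
    · rw [if_pos hq]
  have h2 := h t _ hsum p.1 (hlt p hp) p.2
  rwa [if_pos hp] at h2

theorem eq_of_le_of_degree_eq (hdeg : ∀ v : Place K F, v.deg = 1) {D E : Divisor K F}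
    (h : D ≤ E) (hd : Divisor.degree D = Divisor.degree E) : D = E := by
  classical
  by_contra hne
  obtain ⟨v, hv⟩ := Finsupp.ne_iff.mp (sub_ne_zero.mpr (Ne.symm hne))
  have hvpos := Finsupp.le_def.mp h v
  rw [Finsupp.sub_apply, Finsupp.coe_zero, Pi.zero_apply] at hv
  have hle : Finsupp.single v (1 : ℤ) ≤ E - D := by
    rw [Finsupp.le_def]
    intro w
    rcases eq_or_ne v w with rfl | hne'
    · rw [Finsupp.single_eq_same, Finsupp.sub_apply]; omega
    · rw [Finsupp.single_eq_of_ne (Ne.symm hne'), Finsupp.sub_apply]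
      have := Finsupp.le_def.mp h w
      omega
  have := degree_mono hle
  rw [map_sub, hd, Divisor.degree_single, hdeg] at this
  simp at this

/-- The pole part of a divisor. -/
def negPart' (D : Divisor K F) : Divisor K F := D.mapRange (fun n => max (-n) 0) (by simp)

@[simp] theorem negPart'_apply (D : Divisor K F) (v : Place K F) :
    negPart' D v = max (-D v) 0 := Finsupp.mapRange_apply

theorem negPart'_nonneg (D : Divisor K F) : 0 ≤ negPart' D := by
  rw [Finsupp.le_def]
  intro v
  simp

theorem mem_negPart' {f : F} {D : Divisor K F} (hD : ∀ v, D v = v.ord f) :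
    f ∈ riemannRochSpace (negPart' D) := by
  rw [mem_riemannRochSpace_iff]
  intro v
  right
  rw [negPart'_apply, hD]
  omega

theorem mul_mem_iff_mem_add {f h : F} (hf : f ≠ 0) {D Df : Divisor K F}
    (hDf : ∀ v, Df v = v.ord f) :
    f * h ∈ riemannRochSpace D ↔ h ∈ riemannRochSpace (D + Df) := by
  rw [mem_riemannRochSpace_iff, mem_riemannRochSpace_iff]
  refine forall_congr' fun v => ?_
  rcases eq_or_ne h 0 with rfl | hh
  · simp
  rw [v.ord_mul hf hh, Finsupp.add_apply, hDf]
  simp only [mul_eq_zero, hf, hh, false_or]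
  omega

namespace RRField

variable {g : ℕ} (hF : RRField K F g)
include hF

theorem exists_div {f : F} (hf : f ≠ 0) :
    ∃ D : Divisor K F, (∀ v, D v = v.ord f) ∧ Divisor.degree D = 0 :=
  hF.principal.exists_divisor f hf

theorem degree_div {f : F} (hf : f ≠ 0) {D : Divisor K F} (hD : ∀ v, D v = v.ord f) :
    Divisor.degree D = 0 := by
  obtain ⟨E, hE, hE0⟩ := hF.exists_div hf
  have : D = E := Finsupp.ext fun v => by rw [hD, hE]
  rwa [this]

theorem finrank_le_of_le {D : Divisor K F} {n : ℤ} (hn : Divisor.degree D ≤ n)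
    (hn' : 2 * (g : ℤ) - 1 ≤ n) :
    (Module.finrank K (riemannRochSpace D) : ℤ) ≤ n + 1 - g := by
  obtain ⟨Q⟩ := hF.nonempty_place
  set E := D + Finsupp.single Q (n - Divisor.degree D) with hE
  have hle : D ≤ E := le_add_of_nonneg_right (Finsupp.single_nonneg.mpr (by omega))
  have hdeg : Divisor.degree E = n := by
    rw [hE, map_add, Divisor.degree_single, hF.deg_one]
    simp
  have := hF.finrank_space E (by omega)
  haveI := hF.finite_space E
  have h2 := Submodule.finrank_mono (riemannRochSpace_mono (K := K) (F := F) hle)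
  omega

theorem exists_ord_eq {D : Divisor K F} (hD : 2 * (g : ℤ) ≤ Divisor.degree D) (Q : Place K F) :
    ∃ f ∈ riemannRochSpace D, f ≠ 0 ∧ Q.ord f = -D Q := by
  by_contra hcon
  push Not at hcon
  set E := D - Finsupp.single Q 1 with hE
  have hdeg : Divisor.degree E = Divisor.degree D - 1 := by
    rw [hE, map_sub, Divisor.degree_single, hF.deg_one]
    simp
  have hle : riemannRochSpace D ≤ riemannRochSpace E := by
    intro f hf
    rw [mem_riemannRochSpace_iff]
    intro v
    rcases eq_or_ne f 0 with rfl | hf0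
    · exact Or.inl rfl
    right
    have h1 := ((mem_riemannRochSpace_iff.mp hf) v).resolve_left hf0
    rw [hE, Finsupp.sub_apply]
    rcases eq_or_ne Q v with rfl | hne
    · have h2 := hcon f hf hf0
      rw [Finsupp.single_eq_same]
      omega
    · rw [Finsupp.single_eq_of_ne (Ne.symm hne)]
      omega
  haveI := hF.finite_space E
  have h3 := Submodule.finrank_mono hle
  have h4 := hF.finrank_space D (by omega)
  have h5 := hF.finrank_space E (by omega)
  omega

theorem exists_eq_algebraMap {f : F} (hf : f ∈ riemannRochSpace (0 : Divisor K F)) :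
    ∃ c, f = algebraMap K F c := by
  obtain ⟨Q⟩ := hF.nonempty_place
  rw [mem_riemannRochSpace_iff] at hf
  have hpos : ∀ v : Place K F, f = 0 ∨ 0 ≤ v.ord f := fun v => by simpa using hf v
  obtain ⟨c, hc⟩ := exists_hasValueAt (hF.deg_one Q) (hpos Q)
  rcases hc with hc | hc
  · exact ⟨c, hc⟩
  have hne : f - algebraMap K F c ≠ 0 := fun h => by simp [h] at hc
  obtain ⟨D, hD, hD0⟩ := hF.exists_div hne
  have h2 : Finsupp.single Q (1 : ℤ) ≤ D := by
    rw [Finsupp.le_def]
    intro v
    rcases eq_or_ne Q v with rfl | hne'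
    · rw [Finsupp.single_eq_same, hD]; omega
    · rw [Finsupp.single_eq_of_ne (Ne.symm hne'), hD]
      have h := ord_add_ge v (hpos v)
        (Or.inr (ord_algebraMap v (-c)).ge : algebraMap K F (-c) = 0 ∨ _)
      rw [show f + algebraMap K F (-c) = f - algebraMap K F c by rw [map_neg]; ring] at h
      exact h.resolve_left hne
  have := degree_mono h2
  rw [hD0, Divisor.degree_single, hF.deg_one] at this
  simp at this

/-- If `f` has pole divisor `E`, there are `deg E` functions in `L(C + E)` that are
independent over the polynomials in `f`. -/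
theorem exists_poly_independent {f : F} (hf : f ≠ 0) {E : Divisor K F} (hE : 0 ≤ E)
    (hexact : ∀ v, E v ≠ 0 → v.ord f = -E v) {C : Divisor K F}
    (hCdeg : 2 * (g : ℤ) - 1 ≤ Divisor.degree C) :
    ∃ u : Fin (Divisor.degree E).toNat → F, (∀ i, u i ∈ riemannRochSpace (C + E)) ∧
      ∀ (t : ℕ) (c : ℕ → Fin (Divisor.degree E).toNat → K),
        ∑ a ∈ Finset.range t, f ^ a * (∑ i, c a i • u i) = 0 →
          ∀ a < t, ∀ i, c a i = 0 := by
  classical
  have hdE := degree_nonneg hE
  haveI := hF.finite_space C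
  haveI := hF.finite_space (C + E)
  set p := (riemannRochSpace C).comap (riemannRochSpace (C + E)).subtype with hp
  have hle : riemannRochSpace C ≤ riemannRochSpace (C + E) :=
    riemannRochSpace_mono (le_add_of_nonneg_right hE)
  have hrk : Module.finrank K ((riemannRochSpace (C + E)) ⧸ p) = (Divisor.degree E).toNat := by
    have h1 := Submodule.finrank_quotient_add_finrank p
    have h2 : Module.finrank K p = Module.finrank K (riemannRochSpace C) :=
      (Submodule.comapSubtypeEquivOfLe hle).finrank_eq
    have h3 := hF.finrank_space C hCdeg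
    have h4 := hF.finrank_space (C + E) (by rw [map_add]; omega)
    rw [map_add] at h4
    omega
  let b := (Module.finBasis K ((riemannRochSpace (C + E)) ⧸ p)).reindex (finCongr hrk)
  choose w hw using fun i => Submodule.Quotient.mk_surjective p (b i)
  refine ⟨fun i => (w i : F), fun i => (w i).2, ?_⟩
  have hindep : ∀ c : Fin (Divisor.degree E).toNat → K,
      (∑ i, c i • (w i : F)) ∈ riemannRochSpace C → ∀ i, c i = 0 := by
    intro c hc
    have hmk : Submodule.Quotient.mk (p := p) (∑ i, c i • w i) = 0 := by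
      rw [Submodule.Quotient.mk_eq_zero, hp, Submodule.mem_comap]
      simpa [map_sum] using hc
    rw [← Submodule.mkQ_apply, map_sum] at hmk
    simp only [map_smul, Submodule.mkQ_apply, hw] at hmk
    exact Fintype.linearIndependent_iff.mp b.linearIndependent c hmk
  intro t
  induction t with
  | zero => simp
  | succ t ih =>
    intro c hsum
    rw [Finset.sum_range_succ] at hsum
    suffices htop : ∀ i, c t i = 0 by
      have hrest : ∑ a ∈ Finset.range t, f ^ a * (∑ i, c a i • (w i : F)) = 0 := by
        simpa [htop] using hsum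
      intro a ha i
      rcases Nat.lt_succ_iff_lt_or_eq.mp ha with ha | rfl
      · exact ih c hrest a ha i
      · exact htop i
    refine hindep _ ?_
    set T := ∑ i, c t i • (w i : F) with hT
    have hTmem : T ∈ riemannRochSpace (C + E) :=
      Submodule.sum_mem _ fun i _ => Submodule.smul_mem _ _ (w i).2
    rw [mem_riemannRochSpace_iff]
    intro v
    rcases eq_or_ne (E v) 0 with hv0 | hv0
    · simpa [hv0] using (mem_riemannRochSpace_iff.mp hTmem v)
    rcases eq_or_ne T 0 with hT0 | hT0
    · exact Or.inl hT0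
    right
    have hbound : ∀ s ≤ t, (∑ a ∈ Finset.range s, f ^ a * (∑ i, c a i • (w i : F))) = 0 ∨
        -C v - t * E v ≤ v.ord (∑ a ∈ Finset.range s, f ^ a * (∑ i, c a i • (w i : F))) := by
      intro s hs
      induction s with
      | zero => simp
      | succ s ihs =>
        rw [Finset.sum_range_succ]
        refine ord_add_ge v (ihs (by omega)) ?_
        set S := ∑ i, c s i • (w i : F) with hS
        rcases eq_or_ne S 0 with hS0 | hS0
        · exact Or.inl (by simp [hS0])
        right
        have hSmem : S ∈ riemannRochSpace (C + E) :=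
          Submodule.sum_mem _ fun i _ => Submodule.smul_mem _ _ (w i).2
        have h1 := (mem_riemannRochSpace_iff.mp hSmem v).resolve_left hS0
        rw [Finsupp.add_apply] at h1
        rw [v.ord_mul (pow_ne_zero _ hf) hS0, ord_pow, hexact v hv0]
        have hEv := Finsupp.le_def.mp hE v
        simp only [Finsupp.coe_zero, Pi.zero_apply] at hEv
        nlinarith
    have h2 : f ^ t * T = 0 ∨ -C v - t * E v ≤ v.ord (f ^ t * T) := by
      have h := eq_neg_of_add_eq_zero_right hsum
      rw [h, ord_neg]
      exact (hbound t le_rfl).imp (fun h' => by rw [h', neg_zero]) id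
    have h3 := h2.resolve_left (mul_ne_zero (pow_ne_zero _ hf) hT0)
    rw [v.ord_mul (pow_ne_zero _ hf) hT0, ord_pow, hexact v hv0] at h3
    nlinarith

theorem exists_polyIndependent {f : F} (hf : f ≠ 0) {E : Divisor K F} (hE : 0 ≤ E)
    (hexact : ∀ v, E v ≠ 0 → v.ord f = -E v) :
    ∃ u : Fin (Divisor.degree E).toNat → F, PolyIndependent K f u := by
  obtain ⟨Q⟩ := hF.nonempty_place
  obtain ⟨u, -, hu⟩ := hF.exists_poly_independent hf hE hexact
    (C := Finsupp.single Q (2 * (g : ℤ))) (by rw [Divisor.degree_single, hF.deg_one]; simp)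
  exact ⟨u, polyIndependent_of_forall hu⟩

theorem exists_bound {ι : Type*} [Finite ι] (u : ι → F) (m : ℕ) :
    ∃ D : Divisor K F, 0 ≤ D ∧ (m : ℤ) ≤ Divisor.degree D ∧
      ∀ i, u i ∈ riemannRochSpace D := by
  classical
  haveI := Fintype.ofFinite ι
  obtain ⟨Q⟩ := hF.nonempty_place
  have hdiv : ∀ i, ∃ D : Divisor K F, 0 ≤ D ∧ u i ∈ riemannRochSpace D := by
    intro i
    rcases eq_or_ne (u i) 0 with h0 | h0
    · exact ⟨0, le_rfl, by simp [h0]⟩
    · obtain ⟨D, hD, -⟩ := hF.exists_div h0
      exact ⟨negPart' D, negPart'_nonneg D, mem_negPart' hD⟩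
  choose D hD0 hDu using hdiv
  have hsum : 0 ≤ ∑ i, D i := Finset.sum_nonneg fun i _ => hD0 i
  have hQ : (0 : Divisor K F) ≤ Finsupp.single Q (m : ℤ) :=
    Finsupp.single_nonneg.mpr (Int.natCast_nonneg _)
  refine ⟨Finsupp.single Q (m : ℤ) + ∑ i, D i, add_nonneg hQ hsum, ?_, fun i => ?_⟩
  · rw [map_add, Divisor.degree_single, hF.deg_one]
    have := degree_nonneg hsum
    simp
    simpa using this
  · exact riemannRochSpace_mono ((Finset.single_le_sum (fun j _ => hD0 j) (Finset.mem_univ i)).trans
      (le_add_of_nonneg_left hQ)) (hDu i)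

/-- A family independent over the polynomials in `f` has at most as many members as `f` has
poles. -/
theorem card_le_degree {f : F} {D : Divisor K F} (hD : 0 ≤ D) (hf : f ∈ riemannRochSpace D)
    {ι : Type*} [Fintype ι] {u : ι → F} (hu : PolyIndependent K f u) :
    (Fintype.card ι : ℤ) ≤ Divisor.degree D := by
  obtain ⟨C, hC0, hCdeg, hCu⟩ := hF.exists_bound u (2 * g)
  by_contra hcon
  have hn := degree_nonneg hD
  set t := (Divisor.degree C).toNat + 1 with ht
  have hCn := degree_nonneg hC0
  haveI := hF.finite_space (C + t • D)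
  have hpow : ∀ a : ℕ, f ^ a ∈ riemannRochSpace (a • D) := by
    intro a
    induction a with
    | zero => simpa using one_mem_riemannRochSpace (K := K) (F := F) le_rfl
    | succ a ih => rw [pow_succ, succ_nsmul]; exact mul_mem_riemannRochSpace ih hf
  have hmem : ∀ p : Fin (t + 1) × ι, f ^ (p.1 : ℕ) * u p.2 ∈ riemannRochSpace (C + t • D) := by
    intro p
    rw [add_comm]
    exact mul_mem_riemannRochSpace
      (riemannRochSpace_mono (nsmul_le_nsmul_left hD (Nat.lt_succ_iff.mp p.1.2)) (hpow _)) (hCu _)
  have hli : LinearIndependent K fun p : Fin (t + 1) × ι =>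
      (⟨_, hmem p⟩ : riemannRochSpace (C + t • D)) := by
    refine LinearIndependent.of_comp (riemannRochSpace (C + t • D)).subtype ?_
    exact LinearIndependent.comp hu (fun p : Fin (t + 1) × ι => ((p.1 : ℕ), p.2)) fun p q h =>
      Prod.ext (Fin.ext (congrArg Prod.fst h)) (congrArg Prod.snd h :)
  have h1 := hli.fintype_card_le_finrank
  have hdegsum : Divisor.degree (C + t • D) = Divisor.degree C + t * Divisor.degree D := by
    rw [map_add, map_nsmul, nsmul_eq_mul]
  have htn : (0 : ℤ) ≤ t * Divisor.degree D := by positivity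
  have h2 := hF.finrank_space (C + t • D) (by rw [hdegsum]; push_cast at hCdeg; omega)
  rw [hdegsum] at h2
  rw [Fintype.card_prod, Fintype.card_fin] at h1
  have h1' : ((t + 1 : ℕ) : ℤ) * Fintype.card ι ≤
      Module.finrank K (riemannRochSpace (C + t • D)) := by exact_mod_cast h1
  have h3 : (Divisor.degree D + 1) ≤ (Fintype.card ι : ℤ) := by omega
  have h4 : (((t + 1 : ℕ) : ℤ)) * (Divisor.degree D + 1) ≤ ((t + 1 : ℕ) : ℤ) * Fintype.card ι :=
    mul_le_mul_of_nonneg_left h3 (Int.natCast_nonneg _)
  have h5 : (((t + 1 : ℕ) : ℤ)) * (Divisor.degree D + 1) =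
      t * Divisor.degree D + t + Divisor.degree D + 1 := by push_cast; ring
  omega

theorem le_of_riemannRochSpace_le {D E : Divisor K F} (hD : 2 * (g : ℤ) ≤ Divisor.degree D)
    (h : riemannRochSpace D ≤ riemannRochSpace E) : D ≤ E := by
  rw [Finsupp.le_def]
  intro v
  obtain ⟨f, hf, hf0, hord⟩ := hF.exists_ord_eq hD v
  have := ((mem_riemannRochSpace_iff.mp (h hf)) v).resolve_left hf0
  omega

/-- The smallest divisor bounding the poles of a finite family, attained. -/
theorem exists_polar (s : Finset F) :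
    ∃ E : Divisor K F, 0 ≤ E ∧ (∀ f ∈ s, f ∈ riemannRochSpace E) ∧
      ∀ v, E v ≠ 0 → ∃ f ∈ s, f ≠ 0 ∧ v.ord f = -E v := by
  classical
  induction s using Finset.induction with
  | empty => exact ⟨0, le_rfl, by simp, by simp⟩
  | insert f s hf ih =>
    obtain ⟨E, hE0, hEs, hEx⟩ := ih
    rcases eq_or_ne f 0 with rfl | hf0
    · refine ⟨E, hE0, ?_, fun v hv => ?_⟩
      · intro x hx
        rcases Finset.mem_insert.mp hx with rfl | hx
        · exact Submodule.zero_mem _
        · exact hEs x hx
      · obtain ⟨x, hx, hx'⟩ := hEx v hv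
        exact ⟨x, Finset.mem_insert_of_mem hx, hx'⟩
    obtain ⟨D, hD, -⟩ := hF.exists_div hf0
    refine ⟨E ⊔ negPart' D, hE0.trans le_sup_left, ?_, fun v hv => ?_⟩
    · intro x hx
      rcases Finset.mem_insert.mp hx with rfl | hx
      · exact riemannRochSpace_mono le_sup_right (mem_negPart' hD)
      · exact riemannRochSpace_mono le_sup_left (hEs x hx)
    · rw [Finsupp.sup_apply, negPart'_apply, hD] at hv ⊢
      have hEv := Finsupp.le_def.mp hE0 v
      simp only [Finsupp.coe_zero, Pi.zero_apply] at hEv
      by_cases hle : E v < -v.ord f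
      · exact ⟨f, Finset.mem_insert_self _ _, hf0, by omega⟩
      · obtain ⟨x, hx, hx0, hxv⟩ := hEx v (by omega)
        exact ⟨x, Finset.mem_insert_of_mem hx, hx0, by omega⟩

end RRField

end FermatLib.Igusa
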