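import Mathlib
import Fermat.Agent.Igusa.RRField

/-!
Constant reductions of function fields: a valuation ring of `F` above a valuation ring `A` of the
constants, with a residue homomorphism onto the reduced function field, in which every finite
dimensional space has, up to a unit factor, a basis with independent reductions.
-/

set_option autoImplicit false
set_option linter.style.haveILetI false

noncomputable section

open AlgebraicCurve

namespace FermatLib.Igusa

variable {L F k Fb : Type*} [Field L] [Field F] [Algebra L F] [Field k] [Field Fb] [Algebra k Fb]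

/-- A constant reduction of `F/L` along `π : A →+* k` with reduced field `Fb/k`. -/
structure ConstantReduction (A : ValuationSubring L) (π : A →+* k) (F Fb : Type*) [Field F]
    [Algebra L F] [Field Fb] [Algebra k Fb] where
  ring : Subring F
  red : ring →+* Fb
  surjective_res : Function.Surjective π
  isUnit_of_res_ne_zero : ∀ a : A, π a ≠ 0 → IsUnit a
  res_eq_zero : ∀ a : A, ¬ IsUnit a → π a = 0
  algebraMap_mem : ∀ a : A, algebraMap L F (a : L) ∈ ring
  red_algebraMap : ∀ a : A, red ⟨algebraMap L F (a : L), algebraMap_mem a⟩ = algebraMap k Fb (π a)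
  surjective_red : Function.Surjective red
  inv_mem : ∀ f : ring, red f ≠ 0 → (f : F)⁻¹ ∈ ring
  exists_normed : ∀ s : Finset F, ∃ (u : ring) (n : ℕ) (e : Fin n → ring), red u ≠ 0 ∧
    LinearIndependent k (fun i => red (e i)) ∧
      ∀ f ∈ s, (u : F) * f ∈ Submodule.span L (Set.range fun i => (e i : F))

variable {A : ValuationSubring L} {π : A →+* k}

namespace ConstantReduction

variable (R : ConstantReduction A π F Fb)

/-- Scaling a nonzero finite family of constants so that one becomes `1` and all are integral. -/
theorem exists_scale_coeffs {ι : Type*} [Fintype ι] (A : ValuationSubring L) {c : ι → L}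
    (hc : ∃ i, c i ≠ 0) :
    ∃ i₀, c i₀ ≠ 0 ∧ ∀ i, (c i₀)⁻¹ * c i ∈ A := by
  classical
  obtain ⟨i, hi⟩ := hc
  obtain ⟨i₀, -, hmax⟩ := Finset.exists_max_image Finset.univ (fun j => A.valuation (c j))
    ⟨i, Finset.mem_univ i⟩
  have hne : c i₀ ≠ 0 := fun h => by
    have h1 := hmax i (Finset.mem_univ i)
    rw [h, map_zero, le_zero_iff] at h1
    exact (Valuation.ne_zero_iff _).mpr hi h1
  refine ⟨i₀, hne, fun j => ?_⟩
  rw [← A.valuation_le_one_iff, map_mul, map_inv₀]
  exact inv_mul_le_one_of_le₀ (hmax j (Finset.mem_univ j)) zero_le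

/-- Multiplication by an integral constant stays in the ring. -/
def constMul (a : A) (f : R.ring) : R.ring := ⟨algebraMap L F (a : L), R.algebraMap_mem a⟩ * f

@[simp] theorem coe_constMul (a : A) (f : R.ring) :
    (R.constMul a f : F) = algebraMap L F (a : L) * f := rfl

@[simp] theorem red_constMul (a : A) (f : R.ring) :
    R.red (R.constMul a f) = π a • R.red f := by
  rw [constMul, map_mul, R.red_algebraMap, Algebra.smul_def]

/-- Functions with independent reductions are independent. -/
theorem linearIndependent_of_red {ι : Type*} {v : ι → R.ring}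
    (h : LinearIndependent k fun i => R.red (v i)) :
    LinearIndependent L fun i => (v i : F) := by
  classical
  rw [linearIndependent_iff'] at h ⊢
  intro s c hc
  by_contra hcon
  push Not at hcon
  obtain ⟨i, his, hi⟩ := hcon
  obtain ⟨i₀, hi₀, hA⟩ := exists_scale_coeffs A (c := fun j : s => c j) ⟨⟨i, his⟩, hi⟩
  set a : s → A := fun j => ⟨(c i₀)⁻¹ * c j, hA j⟩ with ha
  have hzero : (∑ j : s, R.constMul (a j) (v j)) = 0 := by
    apply Subtype.ext
    rw [AddSubmonoidClass.coe_finsetSum, ZeroMemClass.coe_zero]
    simp only [coe_constMul, ha, map_mul]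
    rw [Finset.sum_coe_sort s fun j => algebraMap L F (c i₀)⁻¹ * algebraMap L F (c j) * (v j : F)]
    simp only [mul_assoc, ← Finset.mul_sum]
    rw [show ∑ j ∈ s, algebraMap L F (c j) * (v j : F) = 0 by
      simpa only [Algebra.smul_def] using hc, mul_zero]
  have h2 := congrArg R.red hzero
  simp only [map_sum, red_constMul, map_zero] at h2
  rw [Finset.univ_eq_attach] at h2
  have h3 := h s (fun j => if hj : j ∈ s then π (a ⟨j, hj⟩) else 0) (by
    rw [← Finset.sum_attach]
    simpa using h2) i₀ i₀.2
  rw [dif_pos i₀.2, show a ⟨i₀, i₀.2⟩ = 1 from Subtype.ext (inv_mul_cancel₀ hi₀)] at h3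
  simp at h3

/-- The reduction of a subspace. -/
def redSpace (W : Submodule L F) : Submodule k Fb where
  carrier := {x | ∃ f : R.ring, (f : F) ∈ W ∧ R.red f = x}
  zero_mem' := ⟨0, by simp, map_zero _⟩
  add_mem' := by
    rintro x y ⟨f, hf, rfl⟩ ⟨h, hh, rfl⟩
    exact ⟨f + h, by simpa using W.add_mem hf hh, map_add _ _ _⟩
  smul_mem' := by
    rintro c x ⟨f, hf, rfl⟩
    obtain ⟨a, rfl⟩ := R.surjective_res c
    exact ⟨R.constMul a f, by simpa [← Algebra.smul_def] using W.smul_mem (a : L) hf,
      red_constMul R a f⟩

theorem mem_redSpace {W : Submodule L F} {x : Fb} :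
    x ∈ R.redSpace W ↔ ∃ f : R.ring, (f : F) ∈ W ∧ R.red f = x := Iff.rfl

theorem red_mem_redSpace {W : Submodule L F} {f : R.ring} (hf : (f : F) ∈ W) :
    R.red f ∈ R.redSpace W := ⟨f, hf, rfl⟩

theorem finiteDimensional_redSpace (W : Submodule L F) [FiniteDimensional L W] :
    FiniteDimensional k (R.redSpace W) ∧
      Module.finrank k (R.redSpace W) ≤ Module.finrank L W := by
  have hbound : ∀ s : Finset (R.redSpace W),
      LinearIndependent k (fun i : s => (i : R.redSpace W)) → s.card ≤ Module.finrank L W := by
    intro s hs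
    choose f hfW hf using fun i : s => R.mem_redSpace.mp (i : R.redSpace W).2
    have h1 : LinearIndependent k fun i : s => R.red (f i) := by
      simp only [hf]
      exact hs.map' (R.redSpace W).subtype (Submodule.ker_subtype _)
    have h2 := R.linearIndependent_of_red h1
    have h3 : LinearIndependent L fun i : s => (⟨(f i : F), hfW i⟩ : W) :=
      LinearIndependent.of_comp W.subtype h2
    simpa using h3.fintype_card_le_finrank
  have hrank : Module.rank k (R.redSpace W) ≤ Module.finrank L W :=
    rank_le hbound
  have hfin : Module.Finite k (R.redSpace W) :=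
    Module.rank_lt_aleph0_iff.mp (hrank.trans_lt (Cardinal.natCast_lt_aleph0 (n := _)))
  refine ⟨hfin, ?_⟩
  exact Module.finrank_le_of_rank_le hrank

theorem exists_mul_unit_inv (u : R.ring) (hu : R.red u ≠ 0) :
    ∃ w : R.ring, (w : F) = (u : F)⁻¹ ∧ R.red w = (R.red u)⁻¹ := by
  refine ⟨⟨_, R.inv_mem u hu⟩, rfl, eq_inv_of_mul_eq_one_left ?_⟩
  rw [← map_mul, ← map_one R.red]
  refine congrArg _ (Subtype.ext ?_)
  exact inv_mul_cancel₀ (fun h => hu (by rw [show u = 0 from Subtype.ext h, map_zero]))

theorem finrank_le_redSpace_of_span {n : ℕ} {e : Fin n → R.ring}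
    (he : LinearIndependent k fun i => R.red (e i)) :
    ∀ (d : ℕ) (W : Submodule L F), W ≤ Submodule.span L (Set.range fun i => (e i : F)) →
      Module.finrank L W = d → ∃ w : Fin d → R.ring,
        (∀ i, (w i : F) ∈ W) ∧ LinearIndependent k fun i => R.red (w i) := by
  intro d
  induction d with
  | zero => exact fun W _ _ => ⟨Fin.elim0, fun i => i.elim0, linearIndependent_empty_type⟩
  | succ d ih =>
    intro W hW hd
    haveI : FiniteDimensional L W :=
      Module.finite_of_finrank_eq_succ hd
    have hbot : W ≠ ⊥ := fun h => by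
      rw [h, finrank_bot] at hd
      omega
    obtain ⟨x, hxW, hx0⟩ := Submodule.exists_mem_ne_zero_of_ne_bot hbot
    have heL := R.linearIndependent_of_red he
    obtain ⟨c, hc⟩ := (Submodule.mem_span_range_iff_exists_fun L).mp (hW hxW)
    obtain ⟨i₀, hi₀, hA⟩ := exists_scale_coeffs A (c := c) (by
      by_contra hcon
      push Not at hcon
      exact hx0 (by simp [← hc, hcon]))
    set a : Fin n → A := fun i => ⟨(c i₀)⁻¹ * c i, hA i⟩ with ha
    set y : R.ring := ∑ i, R.constMul (a i) (e i) with hy
    have hyF : (y : F) = (c i₀)⁻¹ • x := by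
      rw [hy, AddSubmonoidClass.coe_finsetSum, ← hc, Finset.smul_sum]
      refine Finset.sum_congr rfl fun i _ => ?_
      rw [coe_constMul, ← Algebra.smul_def, smul_smul]
    -- the coordinate functional at `i₀`
    set S := Submodule.span L (Set.range fun i => (e i : F)) with hS
    set b := Module.Basis.span heL with hb
    set φ : W →ₗ[L] L := (b.coord i₀).comp (Submodule.inclusion hW) with hφ
    set W' := (LinearMap.ker φ).map W.subtype with hW'
    have hW'le : W' ≤ W := Submodule.map_subtype_le _ _
    have hcoord : ∀ z (hz : z ∈ W) (c' : Fin n → L), ∑ i, c' i • (e i : F) = z →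
        φ ⟨z, hz⟩ = c' i₀ := by
      intro z hz c' hc'
      have : Submodule.inclusion hW ⟨z, hz⟩ = ∑ i, c' i • b i := by
        apply Subtype.ext
        rw [AddSubmonoidClass.coe_finsetSum, Submodule.coe_inclusion]
        simp [hb, Module.Basis.span_apply, hc']
      rw [hφ, LinearMap.comp_apply, this]
      simp [Finsupp.single_apply]
    have hφx : φ ⟨x, hxW⟩ = c i₀ := hcoord x hxW c hc
    have hφne : φ ≠ 0 := fun h => hi₀ (by rw [← hφx, h]; rfl)
    have hd' : Module.finrank L W' = d := by
      rw [hW', (Submodule.equivMapOfInjective _ W.injective_subtype _).symm.finrank_eq]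
      have h1 := Module.Dual.finrank_ker_add_one_of_ne_zero hφne
      omega
    obtain ⟨w, hwW, hw⟩ := ih W' (hW'le.trans hW) hd'
    refine ⟨Fin.cons y w, ?_, ?_⟩
    · intro i
      refine Fin.cases ?_ ?_ i
      · simpa [hyF] using W.smul_mem _ hxW
      · intro j; simpa using hW'le (hwW j)
    · rw [show (fun i => R.red (Fin.cons (α := fun _ => R.ring) y w i)) =
          Fin.cons (α := fun _ => Fb) (R.red y) fun i => R.red (w i) from
        funext fun i => Fin.cases (by simp) (fun j => by simp) i, linearIndependent_finCons]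
      refine ⟨hw, fun hmem => ?_⟩
      have hsub : Submodule.span k (Set.range fun i => R.red (w i)) ≤
          Submodule.span k ((fun i => R.red (e i)) '' {i | i ≠ i₀}) := by
        rw [Submodule.span_le]
        rintro _ ⟨j, rfl⟩
        obtain ⟨c', hc'⟩ := (Submodule.mem_span_range_iff_exists_fun L).mp
          (hW (hW'le (hwW j)))
        obtain ⟨z, hz, hzj⟩ := Submodule.mem_map.mp (hwW j)
        have hc'0 : c' i₀ = 0 := by
          rw [← hcoord _ z.2 c' (hc'.trans hzj.symm)]
          exact LinearMap.mem_ker.mp hz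
        have hc'A : ∀ i, c' i ∈ A := by
          intro i
          by_contra hiA
          obtain ⟨i₁, hi₁, hA₁⟩ := exists_scale_coeffs A (c := c') ⟨i, fun h => hiA (h ▸ A.zero_mem)⟩
          set a' : Fin n → A := fun l => ⟨(c' i₁)⁻¹ * c' l, hA₁ l⟩
          have hinv : (c' i₁)⁻¹ ∈ A := by
            rcases A.mem_or_inv_mem (c' i₁) with hm | hm
            · exact absurd (by simpa [hi₁] using mul_mem hm (hA₁ i)) hiA
            · exact hm
          have hnu : ¬ IsUnit (⟨(c' i₁)⁻¹, hinv⟩ : A) := by
            intro hu
            obtain ⟨v, hv⟩ := hu.exists_right_inv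
            have : c' i₁ = v := by
              have h := congrArg (fun q : A => (q : L)) hv
              simp only [MulMemClass.coe_mul, OneMemClass.coe_one] at h
              field_simp at h
              exact h.symm
            exact hiA (by simpa [hi₁] using mul_mem (this ▸ v.2 : c' i₁ ∈ A) (hA₁ i))
          have heq : R.constMul ⟨(c' i₁)⁻¹, hinv⟩ (w j) = ∑ l, R.constMul (a' l) (e l) := by
            apply Subtype.ext
            rw [AddSubmonoidClass.coe_finsetSum, coe_constMul, ← hc', Finset.mul_sum]
            refine Finset.sum_congr rfl fun l _ => ?_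
            rw [coe_constMul, Algebra.smul_def, ← mul_assoc, ← map_mul]
          have h2 := congrArg R.red heq
          simp only [red_constMul, map_sum, R.res_eq_zero _ hnu, zero_smul] at h2
          have h3 := (Fintype.linearIndependent_iff.mp he) _ h2.symm i₁
          rw [show a' i₁ = 1 from Subtype.ext (inv_mul_cancel₀ hi₁)] at h3
          simp at h3
        have heq : w j = ∑ l, R.constMul ⟨c' l, hc'A l⟩ (e l) := by
          apply Subtype.ext
          rw [AddSubmonoidClass.coe_finsetSum, ← hc']
          simp [Algebra.smul_def]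
        rw [SetLike.mem_coe]
        simp only
        rw [heq, map_sum]
        refine Submodule.sum_mem _ fun l _ => ?_
        rw [red_constMul]
        rcases eq_or_ne l i₀ with rfl | hl
        · simp [show (⟨c' l, hc'A l⟩ : A) = 0 from Subtype.ext hc'0]
        · exact Submodule.smul_mem _ _ (Submodule.subset_span ⟨l, hl, rfl⟩)
      have h1 := hsub hmem
      rw [hy, map_sum, ← Finset.add_sum_erase _ _ (Finset.mem_univ i₀)] at h1
      rw [show a i₀ = 1 from Subtype.ext (inv_mul_cancel₀ hi₀), red_constMul] at h1
      simp only [red_constMul, map_one, one_smul] at h1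
      have h2 : ∀ l ∈ Finset.univ.erase i₀, π (a l) • R.red (e l) ∈
          Submodule.span k ((fun i => R.red (e i)) '' {i | i ≠ i₀}) := fun l hl =>
        Submodule.smul_mem _ _ (Submodule.subset_span ⟨l, Finset.ne_of_mem_erase hl, rfl⟩)
      rw [Submodule.add_mem_iff_left _ (Submodule.sum_mem _ h2)] at h1
      exact he.notMem_span_image (s := {i | i ≠ i₀}) (by simp) h1

theorem finrank_redSpace (W : Submodule L F) [FiniteDimensional L W] :
    Module.finrank k (R.redSpace W) = Module.finrank L W := by
  classical
  refine le_antisymm (R.finiteDimensional_redSpace W).2 ?_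
  obtain ⟨u, n, e, hu, he, hspan⟩ := R.exists_normed
    (Finset.univ.image fun i => ((Module.finBasis L W i : W) : F))
  have hu0 : (u : F) ≠ 0 := fun h => hu (by rw [show u = 0 from Subtype.ext h, map_zero])
  set m := LinearMap.mulLeft L (u : F) with hm
  have hinj : Function.Injective m := fun a b h => mul_left_cancel₀ hu0 h
  have hle : W.map m ≤ Submodule.span L (Set.range fun i => (e i : F)) := by
    rintro _ ⟨x, hx, rfl⟩
    obtain ⟨cs, hcs⟩ : ∃ cs : Fin (Module.finrank L W) → L,
        ∑ i, cs i • ((Module.finBasis L W i : W) : F) = x := by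
      refine ⟨(Module.finBasis L W).repr ⟨x, hx⟩, ?_⟩
      have := congrArg W.subtype ((Module.finBasis L W).sum_repr ⟨x, hx⟩)
      simpa only [map_sum, map_smul, Submodule.subtype_apply] using this
    rw [← hcs, map_sum]
    refine Submodule.sum_mem _ fun i _ => ?_
    rw [map_smul]
    exact Submodule.smul_mem _ _ (hspan _ (Finset.mem_image_of_mem _ (Finset.mem_univ i)))
  obtain ⟨w, hwW, hw⟩ := R.finrank_le_redSpace_of_span he _ (W.map m) hle
    (Submodule.equivMapOfInjective m hinj W).symm.finrank_eq
  obtain ⟨v, hv, hv'⟩ := R.exists_mul_unit_inv u hu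
  have hmem : ∀ i, ((v * w i : R.ring) : F) ∈ W := fun i => by
    obtain ⟨x, hx, hxe⟩ := hwW i
    rw [MulMemClass.coe_mul, hv, ← hxe, hm, LinearMap.mulLeft_apply, ← mul_assoc,
      inv_mul_cancel₀ hu0, one_mul]
    exact hx
  haveI := (R.finiteDimensional_redSpace W).1
  have hli : LinearIndependent k fun i => R.red (v * w i) := by
    have h := hw.map' (LinearMap.mulLeft k (R.red v))
      (LinearMap.ker_eq_bot.mpr fun a b h => mul_left_cancel₀ (by rw [hv']; exact inv_ne_zero hu) h)
    simpa [Function.comp_def] using h
  have h4 : LinearIndependent k fun i =>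
      (⟨R.red (v * w i), R.red_mem_redSpace (hmem i)⟩ : R.redSpace W) :=
    LinearIndependent.of_comp (R.redSpace W).subtype hli
  simpa using h4.fintype_card_le_finrank

theorem exists_smul_red_ne_zero {f : F} (hf : f ≠ 0) :
    ∃ (c : L) (h : R.ring), c ≠ 0 ∧ (h : F) = c • f ∧ R.red h ≠ 0 := by
  haveI : FiniteDimensional L (Submodule.span L {f}) := FiniteDimensional.span_of_finite L
    (Set.finite_singleton f)
  have h1 := R.finrank_redSpace (Submodule.span L {f})
  rw [finrank_span_singleton hf] at h1
  obtain ⟨x, hx, hx0⟩ := Submodule.exists_mem_ne_zero_of_ne_bot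
    (p := R.redSpace (Submodule.span L {f})) (fun hb => by rw [hb, finrank_bot] at h1; omega)
  obtain ⟨h, hh, rfl⟩ := R.mem_redSpace.mp hx
  obtain ⟨c, hc⟩ := Submodule.mem_span_singleton.mp hh
  refine ⟨c, h, fun hc0 => hx0 ?_, hc.symm, hx0⟩
  rw [show h = 0 from Subtype.ext (by rw [← hc, hc0, zero_smul]; rfl), map_zero]

theorem coe_ne_zero {f : R.ring} (hf : R.red f ≠ 0) : (f : F) ≠ 0 :=
  fun h => hf (by rw [show f = 0 from Subtype.ext h, map_zero])

end ConstantReduction

end FermatLib.Igusa
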