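import Mathlib
import Fermat.Agent.Igusa.ConstantReduction

/-!
The map on places induced by a constant reduction preserving the genus (Deuring): divisors of
functions and Riemann-Roch spaces reduce as expected.
-/

set_option autoImplicit false
set_option linter.style.haveILetI false

noncomputable section

open AlgebraicCurve

namespace FermatLib.Igusa

variable {L F k Fb : Type*} [Field L] [Field F] [Algebra L F] [Field k] [Field Fb] [Algebra k Fb]
variable {A : ValuationSubring L} {π : A →+* k}

theorem mapDomain_mono {α β : Type*} (r : α → β) {D E : α →₀ ℤ} (h : D ≤ E) :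
    Finsupp.mapDomain r D ≤ Finsupp.mapDomain r E := by
  classical
  have h0 : ∀ G : α →₀ ℤ, 0 ≤ G → 0 ≤ Finsupp.mapDomain r G := by
    intro G hG
    rw [Finsupp.mapDomain, Finsupp.sum]
    exact Finset.sum_nonneg fun a _ =>
      Finsupp.single_nonneg.mpr (Finsupp.le_def.mp hG a)
  have := h0 (E - D) (sub_nonneg.mpr h)
  rwa [Finsupp.mapDomain_sub, sub_nonneg] at this

theorem one_le_mapDomain_apply {α β : Type*} (r : α → β) (D : α →₀ ℤ) {a : α}
    (ha : 1 ≤ D a) (h : ∀ b, r b = r a → 0 ≤ D b) : 1 ≤ Finsupp.mapDomain r D (r a) := by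
  classical
  rw [Finsupp.mapDomain, Finsupp.sum, Finsupp.finsetSum_apply]
  have hmem : a ∈ D.support := Finsupp.mem_support_iff.mpr (by omega)
  refine le_trans ?_ (Finset.single_le_sum (fun b _ => ?_) hmem)
  · rwa [Finsupp.single_eq_same]
  · rcases eq_or_ne (r b) (r a) with hb | hb
    · rw [hb, Finsupp.single_eq_same]; exact h b hb
    · rw [Finsupp.single_eq_of_ne (Ne.symm hb)]

theorem degree_mapDomain {gF gB : ℕ} (hF : RRField L F gF) (hB : RRField k Fb gB)
    (r : Place L F → Place k Fb) (D : Divisor L F) :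
    Divisor.degree (Finsupp.mapDomain r D) = Divisor.degree D := by
  induction D using Finsupp.induction with
  | zero => simp
  | single_add P n D _ _ ih =>
    rw [Finsupp.mapDomain_add, map_add, map_add, ih, Finsupp.mapDomain_single,
      Divisor.degree_single, Divisor.degree_single, hF.deg_one, hB.deg_one]

namespace ConstantReduction

variable (R : ConstantReduction A π F Fb) {g : ℕ}

/-- The reduction map of places: integral functions with nonzero reduction reduce their
divisors. -/
def IsReduction (r : Place L F → Place k Fb) : Prop :=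
  ∀ (f : R.ring), R.red f ≠ 0 → ∀ D : Divisor L F, (∀ P, D P = P.ord (f : F)) →
    ∀ Q, Finsupp.mapDomain r D Q = Q.ord (R.red f)

/-- `E` is the reduced divisor of the effective divisor `D`. -/
def IsImage (D : Divisor L F) (E : Divisor k Fb) : Prop :=
  0 ≤ E ∧ Divisor.degree E = Divisor.degree D ∧
    R.redSpace (riemannRochSpace D) = riemannRochSpace E

/-- Reduction does not increase the number of poles of a function. -/
theorem degree_le_of_exact (hF : RRField L F g) (hB : RRField k Fb g) {f : R.ring}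
    {D : Divisor L F} (hD : 0 ≤ D) (hf : (f : F) ∈ riemannRochSpace D) {E : Divisor k Fb}
    (hE : 0 ≤ E) (hexact : ∀ Q, E Q ≠ 0 → R.red f ≠ 0 ∧ Q.ord (R.red f) = -E Q) :
    Divisor.degree E ≤ Divisor.degree D := by
  rcases eq_or_ne E 0 with rfl | hE0
  · simpa using degree_nonneg hD
  obtain ⟨Q, hQ⟩ := Finsupp.ne_iff.mp hE0
  obtain ⟨u, hu⟩ := hB.exists_polyIndependent (hexact Q (by simpa using hQ)).1 hE
    (fun v hv => (hexact v hv).2)
  choose ũ hũ using fun i => R.surjective_red (u i)
  have hli : PolyIndependent L (f : F) fun i => (ũ i : F) := by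
    have h := R.linearIndependent_of_red
      (v := fun p : ℕ × Fin (Divisor.degree E).toNat => f ^ p.1 * ũ p.2)
      (by simpa [map_mul, map_pow, hũ, PolyIndependent] using hu)
    simpa [PolyIndependent] using h
  have := hF.card_le_degree hD hf hli
  have := degree_nonneg hE
  simp only [Fintype.card_fin] at *
  omega

theorem exists_isImage [Infinite k] (hF : RRField L F g) (hB : RRField k Fb g)
    {D : Divisor L F} (hD : 0 ≤ D) (hdeg : 2 * (g : ℤ) ≤ Divisor.degree D) :
    ∃ E, R.IsImage D E := by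
  classical
  haveI := hF.finite_space D
  obtain ⟨hfin, -⟩ := R.finiteDimensional_redSpace (riemannRochSpace D)
  set V := R.redSpace (riemannRochSpace D) with hV
  obtain ⟨E, hE0, hEs, hEx⟩ := hB.exists_polar
    (Finset.univ.image fun i => ((Module.finBasis k V i : V) : Fb))
  have hle : V ≤ riemannRochSpace E := by
    intro x hx
    have h := congrArg V.subtype ((Module.finBasis k V).sum_repr ⟨x, hx⟩)
    simp only [map_sum, map_smul, Submodule.subtype_apply] at h
    rw [← h]
    exact Submodule.sum_mem _ fun i _ => Submodule.smul_mem _ _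
      (hEs _ (Finset.mem_image_of_mem _ (Finset.mem_univ i)))
  obtain ⟨x, hxV, hx⟩ := exists_forall_exact V (fun v => -E v) E.support (by
    intro v hv
    obtain ⟨y, hy, hy0, hyv⟩ := hEx v (Finsupp.mem_support_iff.mp hv)
    obtain ⟨i, -, rfl⟩ := Finset.mem_image.mp hy
    exact ⟨_, (Module.finBasis k V i).2, by push Not; exact ⟨hy0, by omega⟩⟩)
  obtain ⟨f, hf, rfl⟩ := R.mem_redSpace.mp hxV
  have hdE : Divisor.degree E ≤ Divisor.degree D := by
    refine R.degree_le_of_exact hF hB hD hf hE0 fun v hv => ?_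
    have h := hx v (Finsupp.mem_support_iff.mpr hv)
    push Not at h
    refine ⟨h.1, ?_⟩
    have h2 := ((mem_riemannRochSpace_iff.mp (hle hxV)) v).resolve_left h.1
    omega
  haveI := hB.finite_space E
  have hrk : (Module.finrank k V : ℤ) = Divisor.degree D + 1 - g := by
    rw [hV, R.finrank_redSpace]
    exact hF.finrank_space D (by omega)
  have hmono := Submodule.finrank_mono hle
  have hdeq : Divisor.degree E = Divisor.degree D := by
    by_contra hne
    have := hB.finrank_le_of_le (D := E) (n := Divisor.degree D - 1) (by omega) (by omega)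
    omega
  refine ⟨E, hE0, hdeq, Submodule.eq_of_le_of_finrank_le hle ?_⟩
  have := hB.finrank_space E (by omega)
  rw [← hV]
  omega

variable {R}

theorem IsImage.unique (hB : RRField k Fb g) {D : Divisor L F}
    (hdeg : 2 * (g : ℤ) ≤ Divisor.degree D) {E E' : Divisor k Fb}
    (h : R.IsImage D E) (h' : R.IsImage D E') : E = E' :=
  le_antisymm (hB.le_of_riemannRochSpace_le (by rw [h.2.1]; omega) (by rw [← h.2.2, ← h'.2.2]))
    (hB.le_of_riemannRochSpace_le (by rw [h'.2.1]; omega) (by rw [← h.2.2, ← h'.2.2]))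

theorem IsImage.add (hB : RRField k Fb g) {D D' : Divisor L F}
    (hdeg : 2 * (g : ℤ) ≤ Divisor.degree D) (hdeg' : 2 * (g : ℤ) ≤ Divisor.degree D')
    {E E' E'' : Divisor k Fb} (h : R.IsImage D E) (h' : R.IsImage D' E')
    (h'' : R.IsImage (D + D') E'') : E'' = E + E' := by
  refine (eq_of_le_of_degree_eq hB.deg_one ?_ (by rw [map_add, h.2.1, h'.2.1, h''.2.1, map_add])).symm
  rw [Finsupp.le_def]
  intro v
  obtain ⟨x, hx, hx0, hxv⟩ := hB.exists_ord_eq (by rw [h.2.1]; omega : 2 * (g : ℤ) ≤ Divisor.degree E) v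
  obtain ⟨y, hy, hy0, hyv⟩ := hB.exists_ord_eq (by rw [h'.2.1]; omega : 2 * (g : ℤ) ≤ Divisor.degree E') v
  rw [← h.2.2] at hx
  rw [← h'.2.2] at hy
  obtain ⟨f, hf, rfl⟩ := R.mem_redSpace.mp hx
  obtain ⟨f', hf', rfl⟩ := R.mem_redSpace.mp hy
  have hmem := R.red_mem_redSpace (f := f * f') (W := riemannRochSpace (D + D'))
    (by simpa using mul_mem_riemannRochSpace hf hf')
  rw [h''.2.2, map_mul] at hmem
  have h3 := ((mem_riemannRochSpace_iff.mp hmem) v).resolve_left (mul_ne_zero hx0 hy0)
  rw [v.ord_mul hx0 hy0] at h3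
  rw [Finsupp.add_apply]
  omega

variable (R)

theorem isImage_nsmul [Infinite k] (hF : RRField L F g) (hB : RRField k Fb g)
    {D : Divisor L F} (hD : 0 ≤ D) (hdeg : 2 * (g : ℤ) ≤ Divisor.degree D) {E : Divisor k Fb}
    (h : R.IsImage D E) : ∀ m : ℕ, R.IsImage ((m + 1) • D) ((m + 1) • E) := by
  intro m
  induction m with
  | zero => simpa using h
  | succ m ih =>
    have hm : 2 * (g : ℤ) ≤ Divisor.degree ((m + 1) • D) := by
      rw [map_nsmul, nsmul_eq_mul]
      push_cast
      nlinarith [degree_nonneg hD]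
    obtain ⟨E'', hE''⟩ := R.exists_isImage hF hB (D := (m + 1) • D + D)
      (add_nonneg (nsmul_nonneg hD _) hD) (by rw [map_add]; have := degree_nonneg hD; omega)
    have := ih.add hB hm hdeg h hE''
    rw [succ_nsmul, succ_nsmul _ (m + 1), ← this]
    exact hE''

theorem exists_isImage_single [Infinite k] (hF : RRField L F g) (hB : RRField k Fb g)
    (P : Place L F) : ∃ Q : Place k Fb,
      R.IsImage ((2 * g + 1) • Finsupp.single P 1) ((2 * g + 1) • Finsupp.single Q 1) := by
  set N := 2 * g + 1 with hN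
  set S : Divisor L F := Finsupp.single P 1 with hS
  have hS0 : 0 ≤ S := Finsupp.single_nonneg.mpr zero_le_one
  have hSd : ∀ m : ℕ, Divisor.degree (m • S) = m := by
    intro m
    rw [map_nsmul, hS, Divisor.degree_single, hF.deg_one]
    simp
  obtain ⟨E₁, h₁⟩ := R.exists_isImage hF hB (nsmul_nonneg hS0 N) (by rw [hSd]; omega)
  obtain ⟨E₂, h₂⟩ := R.exists_isImage hF hB (nsmul_nonneg hS0 (N + 1)) (by rw [hSd]; omega)
  have e1 := R.isImage_nsmul hF hB (nsmul_nonneg hS0 N) (by rw [hSd]; omega) h₁ N
  have e2 := R.isImage_nsmul hF hB (nsmul_nonneg hS0 (N + 1)) (by rw [hSd]; omega) h₂ (2 * g)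
  rw [← hN, ← mul_nsmul', mul_comm N (N + 1)] at e2
  rw [← mul_nsmul'] at e1
  have heq : (N + 1) • E₁ = N • E₂ := e1.unique hB (by rw [hSd, hN]; push_cast; nlinarith) e2
  have hEd : E₁ = N • (E₂ - E₁) := by
    rw [nsmul_sub, ← heq, succ_nsmul, add_sub_cancel_left]
  have hpos : 0 ≤ E₂ - E₁ := by
    rw [Finsupp.le_def]
    intro v
    have h := Finsupp.le_def.mp h₁.1 v
    rw [hEd] at h
    simp only [Finsupp.coe_zero, Pi.zero_apply, Finsupp.smul_apply, nsmul_eq_mul] at h ⊢
    exact nonneg_of_mul_nonneg_right h (by rw [hN]; push_cast; omega)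
  obtain ⟨Q, hQ⟩ := eq_single_of_degree_eq_one hB.deg_one hpos (by
    rw [map_sub, h₁.2.1, h₂.2.1, hSd, hSd]; push_cast; ring)
  exact ⟨Q, by rw [← hQ, ← hEd]; exact h₁⟩

/-- The reduced place of a place. -/
def placeMap [Infinite k] (hF : RRField L F g) (hB : RRField k Fb g) (P : Place L F) :
    Place k Fb :=
  (R.exists_isImage_single hF hB P).choose

theorem isImage_single [Infinite k] (hF : RRField L F g) (hB : RRField k Fb g) (P : Place L F) :
    R.IsImage ((2 * g + 1) • Finsupp.single P 1)
      ((2 * g + 1) • Finsupp.single (R.placeMap hF hB P) 1) :=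
  (R.exists_isImage_single hF hB P).choose_spec

theorem isImage_mapDomain_nsmul [Infinite k] (hF : RRField L F g) (hB : RRField k Fb g) :
    ∀ (d : ℕ) (D : Divisor L F), 0 ≤ D → Divisor.degree D = d + 1 →
      R.IsImage ((2 * g + 1) • D) ((2 * g + 1) • Finsupp.mapDomain (R.placeMap hF hB) D) := by
  classical
  intro d
  induction d with
  | zero =>
    intro D hD hd
    obtain ⟨P, rfl⟩ := eq_single_of_degree_eq_one hF.deg_one hD (by simpa using hd)
    rw [Finsupp.mapDomain_single]
    exact R.isImage_single hF hB P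
  | succ d ih =>
    intro D hD hd
    have hne : D ≠ 0 := by
      rintro rfl
      simp at hd
      omega
    obtain ⟨P, hP⟩ := Finsupp.ne_iff.mp hne
    simp only [Finsupp.coe_zero, Pi.zero_apply] at hP
    set D' := D - Finsupp.single P 1 with hD'
    have hD'0 : 0 ≤ D' := by
      rw [Finsupp.le_def]
      intro v
      have hv := Finsupp.le_def.mp hD v
      simp only [Finsupp.coe_zero, Pi.zero_apply] at hv ⊢
      rw [hD', Finsupp.sub_apply]
      rcases eq_or_ne P v with rfl | hne'
      · rw [Finsupp.single_eq_same]; omega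
      · rw [Finsupp.single_eq_of_ne (Ne.symm hne')]; omega
    have hd' : Divisor.degree D' = d + 1 := by
      rw [hD', map_sub, hd, Divisor.degree_single, hF.deg_one]
      push_cast; ring
    have hDeq : D = D' + Finsupp.single P 1 := (sub_add_cancel D _).symm
    have hdg : ∀ G : Divisor L F, 1 ≤ Divisor.degree G →
        2 * (g : ℤ) ≤ Divisor.degree ((2 * g + 1) • G) := by
      intro G hG
      rw [map_nsmul, nsmul_eq_mul]
      push_cast
      nlinarith
    obtain ⟨E, hE⟩ := R.exists_isImage hF hB (nsmul_nonneg hD (2 * g + 1)) (hdg D (by omega))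
    have hE' := hE
    rw [hDeq, nsmul_add] at hE'
    have := (ih D' hD'0 hd').add hB (hdg D' (by omega))
      (hdg _ (by rw [Divisor.degree_single, hF.deg_one]; simp)) (R.isImage_single hF hB P) hE'
    rw [hDeq, Finsupp.mapDomain_add, Finsupp.mapDomain_single, nsmul_add, nsmul_add, ← this]
    exact hE'

/-- Effective divisors of large degree: the Riemann-Roch space reduces onto that of the reduced
divisor. -/
theorem isImage_mapDomain [Infinite k] (hF : RRField L F g) (hB : RRField k Fb g)
    {D : Divisor L F} (hD : 0 ≤ D) (hdeg : 2 * (g : ℤ) ≤ Divisor.degree D)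
    (hpos : 1 ≤ Divisor.degree D) :
    R.IsImage D (Finsupp.mapDomain (R.placeMap hF hB) D) := by
  obtain ⟨E, hE⟩ := R.exists_isImage hF hB hD hdeg
  have h1 := R.isImage_nsmul hF hB hD hdeg hE (2 * g)
  have h2 := R.isImage_mapDomain_nsmul hF hB (Divisor.degree D - 1).toNat D hD (by omega)
  have h3 := h1.unique hB (by rw [map_nsmul, nsmul_eq_mul]; push_cast; nlinarith) h2
  have : E = Finsupp.mapDomain (R.placeMap hF hB) D := by
    refine Finsupp.ext fun v => ?_
    have h4 := congrArg (fun G : Divisor k Fb => G v) h3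
    simp only [Finsupp.smul_apply, nsmul_eq_mul] at h4
    exact mul_left_cancel₀ (by positivity) h4
  rwa [← this]

/-- The reduced place map reduces divisors of integral functions. -/
theorem isReduction_placeMap [Infinite k] (hF : RRField L F g) (hB : RRField k Fb g) :
    R.IsReduction (R.placeMap hF hB) := by
  intro f hf Df hDf Q
  set r := R.placeMap hF hB with hr
  have hf0 := R.coe_ne_zero hf
  obtain ⟨Db, hDb, hDb0⟩ := hB.exists_div hf
  have hDf0 := hF.degree_div hf0 hDf
  obtain ⟨P₀⟩ := hF.nonempty_place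
  set D := negPart' Df + Finsupp.single P₀ (2 * (g : ℤ) + 1) with hD
  have hS0 : (0 : Divisor L F) ≤ Finsupp.single P₀ (2 * (g : ℤ) + 1) :=
    Finsupp.single_nonneg.mpr (by omega)
  have hD0 : 0 ≤ D := add_nonneg (negPart'_nonneg _) hS0
  have hdeg : 2 * (g : ℤ) + 1 ≤ Divisor.degree D := by
    rw [hD, map_add, Divisor.degree_single, hF.deg_one]
    have := degree_nonneg (negPart'_nonneg Df)
    push_cast
    omega
  have hD'0 : 0 ≤ D + Df := by
    rw [Finsupp.le_def]
    intro v
    have h := Finsupp.le_def.mp hS0 v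
    simp only [Finsupp.coe_zero, Pi.zero_apply] at h ⊢
    rw [Finsupp.add_apply, hD, Finsupp.add_apply, negPart'_apply]
    omega
  have hI := R.isImage_mapDomain hF hB hD0 (by omega) (by omega)
  have hI' := R.isImage_mapDomain hF hB hD'0 (by rw [map_add, hDf0]; omega)
    (by rw [map_add, hDf0]; omega)
  have hE : R.IsImage (D + Df) (Finsupp.mapDomain r (D + Df)) := hI'
  have hspace : riemannRochSpace (Finsupp.mapDomain r D + Db) =
      riemannRochSpace (Finsupp.mapDomain r (D + Df)) := by
    rw [← hI'.2.2]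
    refine SetLike.ext fun x => ⟨fun hx => ?_, ?_⟩
    · rw [← mul_mem_iff_mem_add hf hDb, ← hI.2.2] at hx
      obtain ⟨y, hy, hye⟩ := R.mem_redSpace.mp hx
      obtain ⟨w, hw, hw'⟩ := R.exists_mul_unit_inv f hf
      refine R.mem_redSpace.mpr ⟨w * y, ?_, by rw [map_mul, hw', hye, inv_mul_cancel_left₀ hf]⟩
      rw [← mul_mem_iff_mem_add hf0 hDf, MulMemClass.coe_mul, hw, mul_inv_cancel_left₀ hf0]
      exact hy
    · rintro ⟨y, hy, rfl⟩
      rw [← mul_mem_iff_mem_add hf hDb, ← hI.2.2, ← map_mul]
      refine R.red_mem_redSpace ?_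
      rw [MulMemClass.coe_mul, mul_mem_iff_mem_add hf0 hDf]
      exact hy
  have hdm := fun G => degree_mapDomain hF hB r G
  have h2 : Finsupp.mapDomain r D + Db = Finsupp.mapDomain r (D + Df) :=
    le_antisymm
      (hB.le_of_riemannRochSpace_le (by rw [map_add, hdm, hDb0]; omega) hspace.le)
      (hB.le_of_riemannRochSpace_le (by rw [hdm, map_add, hDf0]; omega) hspace.ge)
  rw [Finsupp.mapDomain_add (v₁ := D), add_right_inj] at h2
  rw [← h2, hDb]

theorem exists_isReduction [Infinite k] (hF : RRField L F g) (hB : RRField k Fb g) :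
    ∃ r, R.IsReduction r :=
  ⟨_, R.isReduction_placeMap hF hB⟩

theorem IsReduction.redSpace_le (hF : RRField L F g) {r : Place L F → Place k Fb}
    (hr : R.IsReduction r) (D : Divisor L F) :
    R.redSpace (riemannRochSpace D) ≤ riemannRochSpace (Finsupp.mapDomain r D) := by
  rintro x ⟨f, hf, rfl⟩
  rw [mem_riemannRochSpace_iff]
  intro v
  refine or_iff_not_imp_left.mpr fun hx => ?_
  obtain ⟨Df, hDf, -⟩ := hF.exists_div (R.coe_ne_zero hx)
  have hle : -D ≤ Df := by
    rw [Finsupp.le_def]
    intro P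
    rw [Finsupp.neg_apply, hDf]
    exact ((mem_riemannRochSpace_iff.mp hf) P).resolve_left (R.coe_ne_zero hx)
  have h2 := Finsupp.le_def.mp (mapDomain_mono r hle) v
  have hneg : Finsupp.mapDomain r (-D) = -Finsupp.mapDomain r D :=
    map_neg (Finsupp.mapDomain.addMonoidHom r) D
  rwa [hr f hx Df hDf, hneg, Finsupp.neg_apply] at h2

/-- Riemann-Roch lattices reduce onto the Riemann-Roch spaces of the reduced divisors. -/
theorem IsReduction.redSpace_eq (hF : RRField L F g) (hB : RRField k Fb g)
    {r : Place L F → Place k Fb} (hr : R.IsReduction r) {D : Divisor L F}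
    (hdeg : 2 * (g : ℤ) - 1 ≤ Divisor.degree D) :
    R.redSpace (riemannRochSpace D) = riemannRochSpace (Finsupp.mapDomain r D) := by
  haveI := hF.finite_space D
  haveI := hB.finite_space (Finsupp.mapDomain r D)
  refine Submodule.eq_of_le_of_finrank_le (IsReduction.redSpace_le R hF hr D) ?_
  have h1 := hF.finrank_space D hdeg
  have h2 := hB.finrank_space (Finsupp.mapDomain r D) (by rw [degree_mapDomain hF hB]; exact hdeg)
  rw [degree_mapDomain hF hB] at h2
  rw [R.finrank_redSpace]
  omega

/-- Values: away from the fibres meeting poles, reduction commutes with evaluation. -/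
theorem IsReduction.exists_value (hF : RRField L F g) {r : Place L F → Place k Fb}
    (hr : R.IsReduction r) (f : R.ring) (P : Place L F)
    (hP : ∀ P', r P' = r P → (f : F) = 0 ∨ 0 ≤ P'.ord (f : F)) :
    ∃ a : A, HasValueAt P (f : F) (a : L) ∧ HasValueAt (r P) (R.red f) (π a) := by
  obtain ⟨c, hc⟩ := exists_hasValueAt (hF.deg_one P) (hP P rfl)
  have key : ∀ (h : R.ring), R.red h ≠ 0 → (h : F) = 0 ∨ 0 < P.ord (h : F) →
      (∀ P', r P' = r P → (h : F) = 0 ∨ 0 ≤ P'.ord (h : F)) → 0 < (r P).ord (R.red h) := by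
    intro h hh hPh hfib
    have h0 := R.coe_ne_zero hh
    obtain ⟨Dh, hDh, -⟩ := hF.exists_div h0
    have := one_le_mapDomain_apply r Dh (a := P) (by rw [hDh]; have := hPh.resolve_left h0; omega)
      fun b hb => by rw [hDh]; exact (hfib b hb).resolve_left h0
    rw [hr h hh Dh hDh] at this
    omega
  by_cases hcA : c ∈ A
  · refine ⟨⟨c, hcA⟩, hc, ?_⟩
    set h : R.ring := f - ⟨algebraMap L F c, R.algebraMap_mem ⟨c, hcA⟩⟩ with hh
    have hred : R.red h = R.red f - algebraMap k Fb (π ⟨c, hcA⟩) := by
      rw [hh, map_sub]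
      exact congrArg _ (R.red_algebraMap ⟨c, hcA⟩)
    rcases eq_or_ne (R.red h) 0 with h0 | h0
    · exact Or.inl (sub_eq_zero.mp (hred ▸ h0))
    right
    rw [← hred]
    refine key h h0 ?_ fun P' hP' => ?_
    · exact hc.imp (fun e => by simp [hh, e]) fun e => by simpa [hh] using e
    · have h1 := ord_add_ge P' (hP P' hP')
        (Or.inr (ord_algebraMap P' (-c)).ge : algebraMap L F (-c) = 0 ∨ _)
      simpa [hh, sub_eq_add_neg] using h1
  exfalso
  have hc0 : c ≠ 0 := fun h => hcA (h ▸ A.zero_mem)
  have hinv : c⁻¹ ∈ A := (A.mem_or_inv_mem c).resolve_left hcA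
  have hnu : ¬ IsUnit (⟨c⁻¹, hinv⟩ : A) := by
    intro hu
    obtain ⟨w, hw⟩ := hu.exists_right_inv
    refine hcA ?_
    have h := congrArg (fun q : A => (q : L)) hw
    simp only [MulMemClass.coe_mul, OneMemClass.coe_one] at h
    have : c = w := by field_simp at h; exact h.symm
    exact this ▸ w.2
  set h : R.ring := R.constMul ⟨c⁻¹, hinv⟩ f - 1 with hh
  have hred : R.red h = -1 := by
    rw [hh, map_sub, red_constMul, R.res_eq_zero _ hnu, zero_smul, map_one, zero_sub]
  have hhF : (h : F) = algebraMap L F c⁻¹ * ((f : F) - algebraMap L F c) := by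
    rw [mul_sub, ← map_mul, inv_mul_cancel₀ hc0, map_one]
    simp [hh]
  have hcinv : algebraMap L F c⁻¹ ≠ 0 := by simpa using hc0
  have hscale : ∀ (v : Place L F) (x : F) (n : ℤ), x = 0 ∨ n ≤ v.ord x →
      algebraMap L F c⁻¹ * x = 0 ∨ n ≤ v.ord (algebraMap L F c⁻¹ * x) := by
    intro v x n hx
    rcases eq_or_ne x 0 with rfl | hx0
    · simp
    · right
      rw [v.ord_mul hcinv hx0, ord_algebraMap]
      simpa using hx.resolve_left hx0
  have h2 := key h (by rw [hred]; simp) (by
      rw [hhF]
      rcases hc with e | e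
      · exact Or.inl (by rw [e, sub_self, mul_zero])
      · rcases hscale P _ 1 (Or.inr e) with e' | e'
        · exact Or.inl e'
        · exact Or.inr e')
    fun P' hP' => by
      rw [hhF, sub_eq_add_neg, ← map_neg]
      exact hscale P' _ 0 (ord_add_ge P' (hP P' hP') (Or.inr (ord_algebraMap P' (-c)).ge))
  rw [hred, ord_neg, Place.ord_one] at h2
  omega

/-- If no poles are lost under reduction, the pole divisor reduces to the pole divisor. -/
theorem IsReduction.mapDomain_negPart (hF : RRField L F g) (hB : RRField k Fb g)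
    {r : Place L F → Place k Fb} (hr : R.IsReduction r) (f : R.ring) (hf : R.red f ≠ 0)
    {D : Divisor L F} (hD : ∀ P, D P = P.ord (f : F)) {Db : Divisor k Fb}
    (hDb : ∀ Q, Db Q = Q.ord (R.red f))
    (hdeg : Divisor.degree (negPart' D) ≤ Divisor.degree (negPart' Db)) :
    Finsupp.mapDomain r (negPart' D) = negPart' Db := by
  have hpos : 0 ≤ D + negPart' D := by
    rw [Finsupp.le_def]
    intro v
    simp only [Finsupp.coe_zero, Pi.zero_apply, Finsupp.add_apply, negPart'_apply]
    omega
  have hge : negPart' Db ≤ Finsupp.mapDomain r (negPart' D) := by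
    rw [Finsupp.le_def]
    intro v
    have h1 := Finsupp.le_def.mp (mapDomain_mono r hpos) v
    have h2 := Finsupp.le_def.mp (mapDomain_mono r (negPart'_nonneg D)) v
    rw [Finsupp.mapDomain_zero, Finsupp.coe_zero, Pi.zero_apply] at h1 h2
    rw [Finsupp.mapDomain_add, Finsupp.add_apply, hr f hf D hD v] at h1
    rw [negPart'_apply, hDb]
    omega
  refine (eq_of_le_of_degree_eq hB.deg_one hge ?_).symm
  have := degree_mono hge
  rw [degree_mapDomain hF hB] at this ⊢
  omega

end ConstantReduction

end FermatLib.Igusa
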