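import Mathlib
import Fermat.Agent.Igusa.PlaceMap
import Fermat.Agent.Igusa.LaurentLattice

/-!
The place at the origin of a constant reduction inside Laurent series: the reduced place of the
origin is the origin, and integral functions regular near it have integral expansions.
-/

set_option autoImplicit false
set_option linter.style.haveILetI false

noncomputable section

open AlgebraicCurve HahnSeries

namespace FermatLib.Igusa

variable {L F k Fb : Type*} [Field L] [Field F] [Algebra L F] [Field k] [Field Fb] [Algebra k Fb]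
variable {A : ValuationSubring L} {π : A →+* k}

/-- A constant reduction compatible with expansions at an origin `P₀`, `Q₀`, with coordinate
`tt`, invertible among integral series. -/
structure SeriesPoint (R : ConstantReduction A π F Fb) (ιF : F →+* LaurentSeries L)
    (ιB : Fb →+* LaurentSeries k) (P₀ : Place L F) (Q₀ : Place k Fb) (tt : R.ring) : Prop where
  constF : ∀ c : L, ιF (algebraMap L F c) = single 0 c
  constB : ∀ c : k, ιB (algebraMap k Fb c) = single 0 c
  ordF : ∀ x : F, P₀.ord x = (ιF x).order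
  ordB : ∀ x : Fb, Q₀.ord x = (ιB x).order
  compat : ∀ (f : R.ring) (y : LaurentSeries A), ιF (f : F) = latVal A y →
    ιB (R.red f) = latRed π y
  order_t : (ιF (tt : F)).order = 1
  lead_t : (ιF (tt : F)).coeff 1 = 1
  series_t : ∃ y, ιF (tt : F) = latVal A y
  series_inv_t : ∃ y, ιF ((tt : F)⁻¹) = latVal A y

theorem coeff_order_ne_zero' {R : Type*} [Zero R] {x : LaurentSeries R} (hx : x ≠ 0) :
    x.coeff x.order ≠ 0 := fun h => hx (HahnSeries.coeff_order_eq_zero.mp h)

theorem le_mapDomain_apply {α β : Type*} (r : α → β) (D : α →₀ ℤ) {a : α} {n : ℤ}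
    (ha : n ≤ D a) (h : ∀ b, r b = r a → 0 ≤ D b) : n ≤ Finsupp.mapDomain r D (r a) := by
  classical
  rcases eq_or_ne (D a) 0 with h0 | h0
  · refine le_trans (h0 ▸ ha) ?_
    rw [Finsupp.mapDomain, Finsupp.sum, Finsupp.finsetSum_apply]
    refine Finset.sum_nonneg fun b _ => ?_
    rcases eq_or_ne (r b) (r a) with hb | hb
    · rw [hb, Finsupp.single_eq_same]; exact h b hb
    · rw [Finsupp.single_eq_of_ne (Ne.symm hb)]
  rw [Finsupp.mapDomain, Finsupp.sum, Finsupp.finsetSum_apply]
  refine le_trans ?_ (Finset.single_le_sum (fun b _ => ?_) (Finsupp.mem_support_iff.mpr h0))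
  · rwa [Finsupp.single_eq_same]
  · rcases eq_or_ne (r b) (r a) with hb | hb
    · rw [hb, Finsupp.single_eq_same]; exact h b hb
    · rw [Finsupp.single_eq_of_ne (Ne.symm hb)]

/-- Regularity on the fibre of the place map over `Q`. -/
def RegularOver (r : Place L F → Place k Fb) (Q : Place k Fb) (f : F) : Prop :=
  ∀ P, r P = Q → f = 0 ∨ 0 ≤ P.ord f

theorem RegularOver.add {r : Place L F → Place k Fb} {Q : Place k Fb} {f h : F}
    (hf : RegularOver r Q f) (hh : RegularOver r Q h) : RegularOver r Q (f + h) :=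
  fun P hP => ord_add_ge P (hf P hP) (hh P hP)

theorem RegularOver.mul {r : Place L F → Place k Fb} {Q : Place k Fb} {f h : F}
    (hf : RegularOver r Q f) (hh : RegularOver r Q h) : RegularOver r Q (f * h) := by
  intro P hP
  rcases eq_or_ne f 0 with rfl | hf0
  · exact Or.inl (zero_mul h)
  rcases eq_or_ne h 0 with rfl | hh0
  · exact Or.inl (mul_zero f)
  right
  rw [P.ord_mul hf0 hh0]
  exact add_nonneg ((hf P hP).resolve_left hf0) ((hh P hP).resolve_left hh0)

theorem RegularOver.const {r : Place L F → Place k Fb} {Q : Place k Fb} (c : L) :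
    RegularOver r Q (algebraMap L F c) :=
  fun P _ => Or.inr (ord_algebraMap P c).ge

theorem RegularOver.neg {r : Place L F → Place k Fb} {Q : Place k Fb} {f : F}
    (hf : RegularOver r Q f) : RegularOver r Q (-f) :=
  fun P hP => (hf P hP).imp (fun h => by simp [h]) fun h => by rwa [ord_neg]

theorem RegularOver.pow {r : Place L F → Place k Fb} {Q : Place k Fb} {f : F}
    (hf : RegularOver r Q f) (n : ℕ) : RegularOver r Q (f ^ n) := by
  induction n with
  | zero => simpa using RegularOver.const (r := r) (Q := Q) (1 : L)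
  | succ n ih => rw [pow_succ]; exact ih.mul hf

theorem coeff_pow_of_order_one {K : Type*} [Field K] {x : LaurentSeries K} (ho : x.order = 1)
    (hl : x.coeff 1 = 1) (n : ℕ) :
    (x ^ n).coeff (n : ℤ) = 1 ∧ ∀ i : ℤ, i < n → (x ^ n).coeff i = 0 := by
  have hord : (x ^ n).order = n := by rw [HahnSeries.order_pow, ho]; simp
  refine ⟨?_, fun i hi => HahnSeries.coeff_eq_zero_of_lt_order (by rw [hord]; exact hi)⟩
  induction n with
  | zero => simp
  | succ n ih =>
    have hx : x ≠ 0 := fun h => by simp [h] at ho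
    have hn : (x ^ n).order = n := by rw [HahnSeries.order_pow, ho]; simp
    have h := HahnSeries.coeff_mul_order_add_order (x ^ n) x
    rw [HahnSeries.leadingCoeff_eq, HahnSeries.leadingCoeff_eq, hn, ho, ih hn, hl, mul_one] at h
    rw [pow_succ]
    exact_mod_cast h

namespace SeriesPoint

variable {R : ConstantReduction A π F Fb} {ιF : F →+* LaurentSeries L}
  {ιB : Fb →+* LaurentSeries k} {P₀ : Place L F} {Q₀ : Place k Fb} {tt : R.ring}
variable (S : SeriesPoint R ιF ιB P₀ Q₀ tt)
include S

theorem t_ne_zero : (tt : F) ≠ 0 := fun h => by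
  have := S.order_t
  simp [h] at this

theorem ord_t : P₀.ord (tt : F) = 1 := by rw [S.ordF, S.order_t]

theorem red_t_ne_zero : R.red tt ≠ 0 := by
  intro h
  obtain ⟨y, hy⟩ := S.series_t
  have h2 := S.compat tt y hy
  have h1 : (1 : L) = (y.coeff 1 : L) := by rw [← S.lead_t, hy, latVal_coeff]
  have h3 := congrArg (fun z : LaurentSeries k => z.coeff 1) h2
  rw [h, map_zero] at h3
  simp only [HahnSeries.coeff_zero, latRed_coeff] at h3
  rw [show y.coeff 1 = 1 from Subtype.ext h1.symm, map_one] at h3
  exact one_ne_zero h3.symm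

/-- Polynomials in the coordinate with integral coefficients. -/
def truncation (_ : SeriesPoint R ιF ιB P₀ Q₀ tt) (a : ℕ → A) (m : ℕ) : R.ring :=
  ∑ i ∈ Finset.range m, R.constMul (a i) (tt ^ i)

theorem coe_truncation (a : ℕ → A) (m : ℕ) :
    (S.truncation a m : F) = ∑ i ∈ Finset.range m, algebraMap L F (a i : L) * (tt : F) ^ i := by
  rw [truncation, AddSubmonoidClass.coe_finsetSum]
  simp

theorem series_truncation (a : ℕ → A) (m : ℕ) :
    ∃ y, ιF (S.truncation a m : F) = latVal A y := by
  obtain ⟨y, hy⟩ := S.series_t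
  refine ⟨∑ i ∈ Finset.range m, single 0 (a i) * y ^ i, ?_⟩
  rw [coe_truncation S, map_sum, map_sum]
  refine Finset.sum_congr rfl fun i _ => ?_
  rw [map_mul, map_mul, map_pow, map_pow, S.constF, hy, latVal_single]

theorem regularOver_truncation {r : Place L F → Place k Fb} {Q : Place k Fb}
    (ht : RegularOver r Q (tt : F)) (a : ℕ → A) (m : ℕ) :
    RegularOver r Q (S.truncation a m : F) := by
  induction m with
  | zero => intro P _; exact Or.inl (by simp [truncation])
  | succ m ih =>
    rw [coe_truncation S, Finset.sum_range_succ, ← coe_truncation S]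
    exact ih.add ((RegularOver.const _).mul (ht.pow m))

/-- An integral power series is a truncation plus higher terms. -/
theorem exists_truncation {f : F} {y : LaurentSeries A} (hy : ιF f = latVal A y)
    (hneg : ∀ i : ℤ, i < 0 → (ιF f).coeff i = 0) :
    ∀ m : ℕ, ∃ a : ℕ → A, ∀ i : ℤ, i < m → (ιF (f - S.truncation a m)).coeff i = 0 := by
  intro m
  induction m with
  | zero => exact ⟨fun _ => 0, fun i hi => by simpa [truncation] using hneg i (by simpa using hi)⟩
  | succ m ih =>
    obtain ⟨a, ha⟩ := ih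
    obtain ⟨yT, hyT⟩ := S.series_truncation a m
    set c : A := y.coeff m - yT.coeff m with hc
    refine ⟨Function.update a m c, fun i hi => ?_⟩
    have hT : (S.truncation (Function.update a m c) (m + 1) : F) =
        (S.truncation a m : F) + algebraMap L F (c : L) * (tt : F) ^ m := by
      rw [coe_truncation S, coe_truncation S, Finset.sum_range_succ, Function.update_self]
      congr 1
      exact Finset.sum_congr rfl fun l hl => by
        rw [Function.update_of_ne (Finset.mem_range.mp hl).ne]
    rw [hT, ← sub_sub, map_sub, map_mul, map_pow, S.constF, HahnSeries.coeff_sub,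
      HahnSeries.coeff_single_mul, sub_zero]
    obtain ⟨hlead, hlow⟩ := coeff_pow_of_order_one S.order_t S.lead_t m
    rcases lt_or_eq_of_le (show i ≤ (m : ℤ) by push_cast at hi; omega) with hlt | rfl
    · rw [ha i hlt, hlow i hlt, mul_zero, sub_zero]
    · rw [hlead, mul_one, map_sub, HahnSeries.coeff_sub, hy, hyT, latVal_coeff, latVal_coeff, hc]
      push_cast
      ring

variable {r : Place L F → Place k Fb}

/-- Stage one: at the reduced origin, orders of reduced integral power series regular on the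
fibre are proportional to their orders. -/
theorem ord_red_eq_mul {g : ℕ} (hF : RRField L F g) (hr : R.IsReduction r)
    (ht : RegularOver r (r P₀) (tt : F)) (f : R.ring) (hred : R.red f ≠ 0)
    {y : LaurentSeries A} (hy : ιF (f : F) = latVal A y)
    (hneg : ∀ i : ℤ, i < 0 → (ιF (f : F)).coeff i = 0) (hf : RegularOver r (r P₀) (f : F)) :
    (r P₀).ord (R.red f) = (r P₀).ord (R.red tt) * Q₀.ord (R.red f) := by
  classical
  set Q := r P₀ with hQ
  set e := Q.ord (R.red tt) with he
  have key : ∀ h : R.ring, R.red h ≠ 0 → RegularOver r Q (h : F) → ∀ n : ℤ,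
      n ≤ P₀.ord (h : F) → n ≤ Q.ord (R.red h) := by
    intro h hh hreg n hn
    obtain ⟨Dh, hDh, -⟩ := hF.exists_div (R.coe_ne_zero hh)
    rw [← hr h hh Dh hDh Q]
    exact le_mapDomain_apply r Dh (by rw [hDh]; exact hn) fun P hP => by
      rw [hDh]; exact (hreg P hP).resolve_left (R.coe_ne_zero hh)
  have he1 : 1 ≤ e := key tt S.red_t_ne_zero ht 1 S.ord_t.ge
  have hi0 : 0 ≤ Q₀.ord (R.red f) := by
    rw [S.ordB]
    by_contra hlt
    push Not at hlt
    have hne : ιB (R.red f) ≠ 0 := fun h => hred (ιB.injective (h.trans (map_zero ιB).symm))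
    refine coeff_order_ne_zero' hne ?_
    rw [S.compat f y hy, latRed_coeff]
    have := hneg _ hlt
    rw [hy, latVal_coeff] at this
    rw [← S.compat f y hy, show y.coeff (ιB (R.red f)).order = 0 from Subtype.ext this, map_zero]
  set i := (Q₀.ord (R.red f)).toNat with hi
  have hii : (i : ℤ) = Q₀.ord (R.red f) := Int.toNat_of_nonneg hi0
  set m := (e * i).toNat + i + 1 with hm
  obtain ⟨a, ha⟩ := S.exists_truncation hy hneg m
  set T := S.truncation a m with hT
  obtain ⟨yT, hyT⟩ := S.series_truncation a m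
  have hyd : ιF ((f - T : R.ring) : F) = latVal A (y - yT) := by
    rw [AddSubgroupClass.coe_sub, map_sub, map_sub, hy, hyT]
  have hdiff : ∀ l : ℤ, l < m → (ιB (R.red f - R.red T)).coeff l = 0 := by
    intro l hl
    rw [← map_sub R.red, S.compat _ _ hyd, latRed_coeff]
    have h1 := ha l hl
    rw [← AddSubgroupClass.coe_sub, hyd, latVal_coeff] at h1
    rw [show (y - yT).coeff l = 0 from Subtype.ext h1, map_zero]
  -- the expansion of the reduced truncation
  have hTred : R.red T = ∑ l ∈ Finset.range m, π (a l) • R.red tt ^ l := by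
    rw [hT, truncation, map_sum]
    simp only [ConstantReduction.red_constMul, map_pow]
  obtain ⟨yt, hyt⟩ := S.series_t
  have htB := S.compat tt yt hyt
  have hto : (ιB (R.red tt)).order = 1 ∧ (ιB (R.red tt)).coeff 1 = 1 := by
    have hl1 : yt.coeff 1 = 1 := Subtype.ext (by
      rw [← latVal_coeff, ← hyt, S.lead_t]; rfl)
    have hc1 : (ιB (R.red tt)).coeff 1 = 1 := by rw [htB, latRed_coeff, hl1, map_one]
    refine ⟨le_antisymm (HahnSeries.order_le_of_coeff_ne_zero (by rw [hc1]; exact one_ne_zero)) ?_,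
      hc1⟩
    by_contra hlt
    push Not at hlt
    have hne : ιB (R.red tt) ≠ 0 := fun h => by simp [h] at hc1
    refine coeff_order_ne_zero' hne ?_
    rw [htB, latRed_coeff]
    have h1 : (yt.coeff (ιB (R.red tt)).order : L) = 0 := by
      rw [← latVal_coeff, ← hyt]
      exact HahnSeries.coeff_eq_zero_of_lt_order (by rw [S.order_t]; exact hlt)
    rw [← htB, show yt.coeff (ιB (R.red tt)).order = 0 from Subtype.ext h1, map_zero]
  have hcoef : ∀ n < m, ∀ (hlow : ∀ l < n, π (a l) = 0),
      (ιB (R.red T)).coeff (n : ℤ) = π (a n) := by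
    intro n hn hlow
    rw [hTred, map_sum, HahnSeries.coeff_sum, Finset.sum_eq_single n]
    · rw [Algebra.smul_def, map_mul, S.constB, map_pow, HahnSeries.coeff_single_zero_mul,
        (coeff_pow_of_order_one hto.1 hto.2 n).1, mul_one]
    · intro l hl hne
      rcases lt_or_gt_of_ne hne with h | h
      · simp [hlow l h]
      · rw [Algebra.smul_def, map_mul, S.constB, map_pow, HahnSeries.coeff_single_zero_mul,
          (coeff_pow_of_order_one hto.1 hto.2 l).2 n (by exact_mod_cast h), mul_zero]
    · intro h; exact absurd (Finset.mem_range.mpr hn) h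
  have hBf : ∀ n < m, (ιB (R.red T)).coeff (n : ℤ) = (ιB (R.red f)).coeff (n : ℤ) := by
    intro n hn
    have := hdiff n (by exact_mod_cast hn)
    rw [map_sub, HahnSeries.coeff_sub, sub_eq_zero] at this
    exact this.symm
  have him : i < m := by omega
  have hlow : ∀ l < i, π (a l) = 0 := by
    intro l
    induction l using Nat.strong_induction_on with
    | _ l ih =>
      intro hl
      rw [← hcoef l (hl.trans him) fun l' hl' => ih l' hl' (hl'.trans hl), hBf l (hl.trans him)]
      exact HahnSeries.coeff_eq_zero_of_lt_order (by rw [← S.ordB, ← hii]; exact_mod_cast hl)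
  have htop : π (a i) ≠ 0 := by
    rw [← hcoef i him hlow, hBf i him, hii, S.ordB]
    exact coeff_order_ne_zero' fun h => hred (ιB.injective (h.trans (map_zero ιB).symm))
  -- orders at `Q`
  have hsmall : ∀ n, i < n → (∑ l ∈ Finset.Ico (i + 1) n, π (a l) • R.red tt ^ l = 0 ∨
      e * i + 1 ≤ Q.ord (∑ l ∈ Finset.Ico (i + 1) n, π (a l) • R.red tt ^ l)) := by
    intro n hn
    induction n with
    | zero => omega
    | succ n ihn =>
      rcases eq_or_lt_of_le (Nat.lt_succ_iff.mp hn) with rfl | hlt
      · simp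
      rw [Finset.sum_Ico_succ_top (by omega : i + 1 ≤ n)]
      refine ord_add_ge Q (ihn hlt) ?_
      rcases eq_or_ne (π (a n)) 0 with h0 | h0
      · exact Or.inl (by simp [h0])
      right
      rw [Algebra.smul_def, Q.ord_mul (by simpa using h0) (pow_ne_zero n S.red_t_ne_zero),
        ord_algebraMap, zero_add, ord_pow, ← he]
      have : (i : ℤ) + 1 ≤ n := by exact_mod_cast hlt
      nlinarith
  have hTsplit : R.red T = π (a i) • R.red tt ^ i +
      ∑ l ∈ Finset.Ico (i + 1) m, π (a l) • R.red tt ^ l := by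
    rw [hTred, Finset.range_eq_Ico, ← Finset.sum_Ico_consecutive _ (Nat.zero_le i) him.le,
      Finset.sum_eq_sum_Ico_succ_bot him, Finset.sum_eq_zero, zero_add]
    intro l hl
    rw [hlow l (Finset.mem_Ico.mp hl).2, zero_smul]
  set tail := ∑ l ∈ Finset.Ico (i + 1) m, π (a l) • R.red tt ^ l with htail
  have hrest : R.red f - R.red T = 0 ∨ e * i + 1 ≤ Q.ord (R.red f - R.red T) := by
    rcases eq_or_ne (R.red f - R.red T) 0 with h0 | h0
    · exact Or.inl h0
    right
    rw [← map_sub R.red] at h0 ⊢
    have hreg : RegularOver r Q ((f - T : R.ring) : F) := by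
      rw [AddSubgroupClass.coe_sub, sub_eq_add_neg]
      exact hf.add (S.regularOver_truncation ht a m).neg
    have hP : (m : ℤ) ≤ P₀.ord ((f - T : R.ring) : F) := by
      rw [S.ordF]
      by_contra hlt
      push Not at hlt
      refine coeff_order_ne_zero'
        (fun h => R.coe_ne_zero h0 (ιF.injective (h.trans (map_zero ιF).symm))) ?_
      rw [AddSubgroupClass.coe_sub]
      exact ha _ (by rwa [AddSubgroupClass.coe_sub] at hlt)
    have h2 := key (f - T) h0 hreg m hP
    have : (m : ℤ) ≥ e * i + 1 := by rw [hm]; push_cast; omega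
    omega
  set lead := π (a i) • R.red tt ^ i with hlead
  have hleadord : Q.ord lead = e * i := by
    rw [hlead, Algebra.smul_def, Q.ord_mul (by simpa using htop) (pow_ne_zero i S.red_t_ne_zero),
      ord_algebraMap, zero_add, ord_pow, ← he, mul_comm]
  have hlead0 : lead ≠ 0 := smul_ne_zero htop (pow_ne_zero i S.red_t_ne_zero)
  have hsum : R.red f = lead + (tail + (R.red f - R.red T)) := by rw [hTsplit]; ring
  have hE := ord_add_ge Q (hsmall m him) hrest
  rw [← hii]
  refine le_antisymm ?_ ?_
  · -- a larger order would force the leading term to have it too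
    by_contra hgt
    push Not at hgt
    have h1 : R.red f = 0 ∨ e * i + 1 ≤ Q.ord (R.red f) := Or.inr (by omega)
    have h2 : -(tail + (R.red f - R.red T)) = 0 ∨
        e * i + 1 ≤ Q.ord (-(tail + (R.red f - R.red T))) :=
      hE.imp (fun h => by rw [h, neg_zero]) fun h => by rwa [ord_neg]
    have h3 := ord_add_ge Q h1 h2
    rw [show R.red f + -(tail + (R.red f - R.red T)) = lead by rw [hTsplit]; ring] at h3
    have := h3.resolve_left hlead0
    omega
  · have h1 := ord_add_ge Q (Or.inr hleadord.ge : lead = 0 ∨ e * (i : ℤ) ≤ Q.ord lead)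
      (hE.imp id fun h => by omega)
    rw [← hsum] at h1
    exact h1.resolve_left hred

/-- The reduced origin is the origin of the reduced field. -/
theorem ord_eq_of_generated {g : ℕ} (hF : RRField L F g) (hr : R.IsReduction r)
    (ht : RegularOver r (r P₀) (tt : F))
    (hgen : ∀ x : Fb, x ≠ 0 → ∃ f h : R.ring, R.red f ≠ 0 ∧ R.red h ≠ 0 ∧
      x = R.red f / R.red h ∧
      (∀ w ∈ ({f, h} : Set R.ring), (∃ y, ιF (w : F) = latVal A y) ∧
        (∀ i : ℤ, i < 0 → (ιF (w : F)).coeff i = 0) ∧ RegularOver r (r P₀) (w : F))) :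
    ∀ x : Fb, (r P₀).ord x = Q₀.ord x := by
  set Q := r P₀ with hQ
  set e := Q.ord (R.red tt) with he
  have hall : ∀ x : Fb, Q.ord x = e * Q₀.ord x := by
    intro x
    rcases eq_or_ne x 0 with rfl | hx
    · simp
    obtain ⟨f, h, hf, hh, rfl, hw⟩ := hgen x hx
    obtain ⟨⟨y, hy⟩, hn, hreg⟩ := hw f (by simp)
    obtain ⟨⟨y', hy'⟩, hn', hreg'⟩ := hw h (by simp)
    rw [div_eq_mul_inv, Q.ord_mul hf (inv_ne_zero hh), Q.ord_inv, Q₀.ord_mul hf (inv_ne_zero hh),
      Q₀.ord_inv, S.ord_red_eq_mul hF hr ht f hf hy hn hreg,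
      S.ord_red_eq_mul hF hr ht h hh hy' hn' hreg']
    ring
  obtain ⟨ϖ, hϖ⟩ := IsDiscreteValuationRing.exists_irreducible Q.toValuationSubring
  have h1 := hall (ϖ : Fb)
  rw [Q.ord_coe_irreducible hϖ] at h1
  have he1 : e = 1 := by
    obtain ⟨Dt, hDt, -⟩ := hF.exists_div (R.coe_ne_zero S.red_t_ne_zero)
    have h := le_mapDomain_apply r Dt (a := P₀) (n := 1) (by rw [hDt, S.ord_t])
      fun P hP => by rw [hDt]; exact (ht P hP).resolve_left S.t_ne_zero
    rw [hr tt S.red_t_ne_zero Dt hDt, ← hQ, ← he] at h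
    exact le_antisymm (Int.le_of_dvd one_pos ⟨_, h1⟩) h
  intro x
  rw [hall x, he1, one_mul]

/-- Stage two: functions with poles over the origin only at the origin have integral
expansions. -/
theorem exists_series {g : ℕ} (hF : RRField L F g) (hr : R.IsReduction r) (h₀ : r P₀ = Q₀)
    (ht : RegularOver r Q₀ (tt : F)) (f : R.ring)
    (hf : ∀ P, r P = Q₀ → P ≠ P₀ → (f : F) = 0 ∨ 0 ≤ P.ord (f : F)) :
    ∃ y, ιF (f : F) = latVal A y := by
  classical
  have ht0 : ∀ P, r P = Q₀ → P ≠ P₀ → P.ord (tt : F) = 0 := by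
    intro P hP hne
    obtain ⟨Dt, hDt, -⟩ := hF.exists_div S.t_ne_zero
    obtain ⟨yt, hyt⟩ := S.series_t
    have hQt : Q₀.ord (R.red tt) ≤ 1 := by
      rw [S.ordB]
      refine HahnSeries.order_le_of_coeff_ne_zero ?_
      rw [S.compat tt yt hyt, latRed_coeff,
        show yt.coeff 1 = 1 from Subtype.ext (by rw [← latVal_coeff, ← hyt, S.lead_t]; rfl)]
      simp
    have h0 := (ht P hP).resolve_left S.t_ne_zero
    by_contra hne0
    set D' := Dt - Finsupp.single P₀ 1 with hD'
    have h1 := le_mapDomain_apply r D' (a := P) (n := 1)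
      (by rw [hD', Finsupp.sub_apply, Finsupp.single_eq_of_ne hne, hDt]; omega) (fun b hb => by
        rw [hD', Finsupp.sub_apply, hDt]
        rcases eq_or_ne b P₀ with rfl | hb0
        · rw [Finsupp.single_eq_same, S.ord_t]; omega
        · rw [Finsupp.single_eq_of_ne hb0]
          have := (ht b (hb.trans hP)).resolve_left S.t_ne_zero
          omega)
    rw [hD', Finsupp.mapDomain_sub, Finsupp.mapDomain_single, hP, h₀, Finsupp.sub_apply,
      Finsupp.single_eq_same, hr tt S.red_t_ne_zero Dt hDt] at h1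
    omega
  rcases eq_or_ne (f : F) 0 with hf0 | hf0
  · exact ⟨0, by rw [hf0, map_zero, map_zero]⟩
  set n := (-P₀.ord (f : F)).toNat with hn
  set f' : R.ring := f * tt ^ n with hf'
  have hreg' : RegularOver r Q₀ (f' : F) := by
    intro P hP
    right
    rw [hf', Subring.coe_mul, SubmonoidClass.coe_pow,
      P.ord_mul hf0 (pow_ne_zero n S.t_ne_zero), ord_pow]
    rcases eq_or_ne P P₀ with rfl | hne
    · rw [S.ord_t]; omega
    · rw [ht0 P hP hne, mul_zero, add_zero]; exact (hf P hP hne).resolve_left hf0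
  have hstep : ∀ h : R.ring, RegularOver r Q₀ (h : F) → ∃ (a : A) (h' : R.ring),
      RegularOver r Q₀ (h' : F) ∧ (h : F) = algebraMap L F (a : L) + (tt : F) * h' := by
    intro h hh
    obtain ⟨a, ha, -⟩ := ConstantReduction.IsReduction.exists_value R hF hr h P₀
      (fun P hP => hh P (hP.trans h₀))
    refine ⟨a, (h - ⟨_, R.algebraMap_mem a⟩) * ⟨_, R.inv_mem tt S.red_t_ne_zero⟩, ?_, ?_⟩
    · intro P hP
      rw [Subring.coe_mul, AddSubgroupClass.coe_sub]
      show ((h : F) - algebraMap L F (a : L)) * (tt : F)⁻¹ = 0 ∨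
        0 ≤ P.ord (((h : F) - algebraMap L F (a : L)) * (tt : F)⁻¹)
      rcases eq_or_ne ((h : F) - algebraMap L F (a : L)) 0 with h0 | h0
      · exact Or.inl (by rw [h0, zero_mul])
      right
      rw [P.ord_mul h0 (inv_ne_zero S.t_ne_zero), P.ord_inv]
      rcases eq_or_ne P P₀ with rfl | hne
      · rcases ha with ha | ha
        · exact absurd (sub_eq_zero.mpr ha) h0
        · rw [S.ord_t]; omega
      · rw [ht0 P hP hne, neg_zero, add_zero]
        have h2 := (hh.add ((RegularOver.const (a : L)).neg) P hP)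
        rw [← sub_eq_add_neg] at h2
        exact h2.resolve_left h0
    · rw [Subring.coe_mul, AddSubgroupClass.coe_sub]
      show _ = _ + (tt : F) * (((h : F) - algebraMap L F (a : L)) * (tt : F)⁻¹)
      field_simp [S.t_ne_zero]
      ring
  have hexp : ∀ m : ℕ, ∃ (a : ℕ → A) (h : R.ring), RegularOver r Q₀ (h : F) ∧
      (f' : F) = (S.truncation a m : F) + (tt : F) ^ m * h := by
    intro m
    induction m with
    | zero => exact ⟨fun _ => 0, f', hreg', by simp [truncation]⟩
    | succ m ih =>
      obtain ⟨a, h, hh, heq⟩ := ih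
      obtain ⟨c, h', hh', heq'⟩ := hstep h hh
      refine ⟨Function.update a m c, h', hh', ?_⟩
      rw [heq, heq', coe_truncation S, coe_truncation S, Finset.sum_range_succ,
        Function.update_self, Finset.sum_congr rfl (fun l hl => by
          rw [Function.update_of_ne (Finset.mem_range.mp hl).ne] :
          ∀ l ∈ Finset.range m, algebraMap L F (Function.update a m c l : L) * (tt : F) ^ l =
            algebraMap L F (a l : L) * (tt : F) ^ l)]
      ring
  have hcoeff : ∀ l : ℤ, (ιF (f' : F)).coeff l ∈ A := by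
    intro l
    obtain ⟨a, h, hh, heq⟩ := hexp (l + 1).toNat
    obtain ⟨yT, hyT⟩ := S.series_truncation a (l + 1).toNat
    rw [heq, map_add, map_mul, map_pow, HahnSeries.coeff_add, hyT, latVal_coeff]
    rcases eq_or_ne (h : F) 0 with h0 | h0
    · simp [h0]
    rw [HahnSeries.coeff_eq_zero_of_lt_order (x := ιF (tt : F) ^ (l + 1).toNat * ιF (h : F)),
      add_zero]
    · exact SetLike.coe_mem _
    rw [HahnSeries.order_mul (pow_ne_zero _ fun e => S.t_ne_zero (ιF.injective
      (e.trans (map_zero ιF).symm))) (fun e => h0 (ιF.injective (e.trans (map_zero ιF).symm))),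
      HahnSeries.order_pow, S.order_t, ← S.ordF]
    have := (hh P₀ h₀).resolve_left h0
    simp
    omega
  obtain ⟨y', hy'⟩ := exists_latVal_eq (A := A) hcoeff
  obtain ⟨yi, hyi⟩ := S.series_inv_t
  refine ⟨y' * yi ^ n, ?_⟩
  rw [map_mul, map_pow, hy', ← hyi, hf', Subring.coe_mul, SubmonoidClass.coe_pow, map_mul,
    map_pow, mul_assoc, ← mul_pow, ← map_mul, mul_inv_cancel₀ S.t_ne_zero, map_one, one_pow,
    mul_one]

end SeriesPoint

end FermatLib.Igusa
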