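import Mathlib
import Fermat.Prelude.Def_ModularCurve_ReductionModL
import Fermat.Agent.Igusa.ConstantReduction

/-!
The Gauss reduction of the function field of `X₀(N)`: ratios of expansions with coefficients
in `A` and nonzero reduced denominator.
-/

set_option autoImplicit false
set_option linter.style.haveILetI false

noncomputable section

open AlgebraicCurve ModularCurve IntermediateField

namespace FermatLib.Igusa

section JTranscendental

theorem transcendental_jqModC (K : Type*) [Field K] : Transcendental K (jqModC K) := by
  rw [transcendental_iff]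
  intro p hp
  by_contra hp0
  have h := congrArg (fun x : LaurentSeries K => x.coeff (-(p.natDegree : ℤ))) hp
  simp only [Polynomial.aeval_eq_sum_range, HahnSeries.coeff_sum, HahnSeries.coeff_zero] at h
  rw [Finset.sum_range_succ] at h
  rw [Finset.sum_eq_zero (fun i hi => by
    rw [Algebra.smul_def, algebraMap_laurentSeries_eq_single, HahnSeries.coeff_single_zero_mul,
      coeff_jqModC_pow_of_lt K (by have := Finset.mem_range.mp hi; omega), mul_zero])] at h
  rw [zero_add, Algebra.smul_def, algebraMap_laurentSeries_eq_single,
    HahnSeries.coeff_single_zero_mul, coeff_jqModC_pow_self, mul_one] at h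
  exact hp0 (Polynomial.leadingCoeff_eq_zero.mp h)

end JTranscendental

section BaseChange

variable (L : Type*) [Field L] [Algebra ℚ L] (N : ℕ)

theorem coeffEmb_qExpand_jq (d : ℕ) [NeZero d] :
    coeffEmb L (qExpand ℚ d jq) = qExpand L d (jqModC L) := by
  rw [coeffEmb, ← jqModC_rat, coeffMap_qExpand, coeffMap_jqModC]

/-- The base-changed function field is generated by the expansions `j (q ^ d)`. -/
theorem laurentBaseChange_full_eq :
    laurentBaseChange L (modularFunctionFieldFull N) =
      IntermediateField.adjoin L (divisorExpansionsC L N) := by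
  refine le_antisymm ?_ ?_
  · rw [laurentBaseChange, adjoin_le_iff]
    rintro _ ⟨x, hx, rfl⟩
    have hle : modularFunctionFieldFull N ≤
        ((IntermediateField.adjoin L (divisorExpansionsC L N)).toSubfield.comap
          (coeffEmb L)).toIntermediateField (fun q => by
            show coeffEmb L (algebraMap ℚ (LaurentSeries ℚ) q) ∈
              IntermediateField.adjoin L (divisorExpansionsC L N)
            rw [algebraMap_laurentSeries_eq_single, coeffEmb, coeffMap_single,
              ← algebraMap_laurentSeries_eq_single]
            exact (IntermediateField.adjoin L _).algebraMap_mem _) := by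
      rw [modularFunctionFieldFull, adjoin_le_iff]
      rintro _ ⟨d, hne, hd, rfl⟩
      show coeffEmb L (qExpand ℚ d jq) ∈ IntermediateField.adjoin L _
      rw [coeffEmb_qExpand_jq]
      exact subset_adjoin L _ ⟨d, hne, hd, rfl⟩
    exact hle hx
  · rw [adjoin_le_iff]
    rintro _ ⟨d, hne, hd, rfl⟩
    show qExpand L d (jqModC L) ∈ laurentBaseChange L (modularFunctionFieldFull N)
    rw [← coeffEmb_qExpand_jq]
    exact coeffEmb_mem_laurentBaseChange L (jqd_mem_full N hd)

end BaseChange

section Gauss

variable {L : Type*} [Field L] [Algebra ℚ L] (A : ValuationSubring L)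
variable {k : Type*} [Field k] (π : A →+* k) (N : ℕ)

/-- Expansions with coefficients in `A` lying in both function fields. -/
def integralSeries : Subring (LaurentSeries A) :=
  (laurentBaseChange L (modularFunctionFieldFull N)).toSubfield.toSubring.comap (coeffMap A.subtype) ⊓
    (modularFunctionFieldFullC k N).toSubfield.toSubring.comap (coeffMap π)

theorem mem_integralSeries {y : LaurentSeries A} :
    y ∈ integralSeries A π N ↔
      coeffMap A.subtype y ∈ laurentBaseChange L (modularFunctionFieldFull N) ∧
        coeffMap π y ∈ modularFunctionFieldFullC k N := Iff.rfl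

theorem qExpand_jqModC_mem {d : ℕ} [NeZero d] (hd : d ∣ N) :
    qExpand A d (jqModC A) ∈ integralSeries A π N := by
  rw [mem_integralSeries, coeffMap_qExpand, coeffMap_qExpand, coeffMap_jqModC, coeffMap_jqModC,
    ← coeffEmb_qExpand_jq]
  exact ⟨coeffEmb_mem_laurentBaseChange L (jqd_mem_full N hd), jqModCd_mem_full k N hd⟩

theorem single_zero_mem (a : A) : HahnSeries.single 0 a ∈ integralSeries A π N := by
  rw [mem_integralSeries, coeffMap_single, coeffMap_single,
    ← algebraMap_laurentSeries_eq_single, ← algebraMap_laurentSeries_eq_single]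
  exact ⟨IntermediateField.algebraMap_mem _ _, IntermediateField.algebraMap_mem _ _⟩

/-- The expansion in `L((q))` of an integral series, as a function. -/
def genericFun : integralSeries A π N →+* laurentBaseChange L (modularFunctionFieldFull N) where
  toFun y := ⟨coeffMap A.subtype y, y.2.1⟩
  map_one' := Subtype.ext (map_one (coeffMap A.subtype))
  map_mul' y z := Subtype.ext (map_mul (coeffMap A.subtype) (y : LaurentSeries A) z)
  map_zero' := Subtype.ext (map_zero (coeffMap A.subtype))
  map_add' y z := Subtype.ext (map_add (coeffMap A.subtype) (y : LaurentSeries A) z)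

/-- The reduction of an integral series, as a function on the reduced curve. -/
def specialFun : integralSeries A π N →+* modularFunctionFieldFullC k N where
  toFun y := ⟨coeffMap π y, y.2.2⟩
  map_one' := Subtype.ext (map_one (coeffMap π))
  map_mul' y z := Subtype.ext (map_mul (coeffMap π) (y : LaurentSeries A) z)
  map_zero' := Subtype.ext (map_zero (coeffMap π))
  map_add' y z := Subtype.ext (map_add (coeffMap π) (y : LaurentSeries A) z)

@[simp] theorem coe_genericFun (y : integralSeries A π N) :
    (genericFun A π N y : LaurentSeries L) = coeffMap A.subtype y := rfl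

@[simp] theorem coe_specialFun (y : integralSeries A π N) :
    (specialFun A π N y : LaurentSeries k) = coeffMap π y := rfl

theorem genericFun_injective : Function.Injective (genericFun A π N) := fun y z h => by
  apply Subtype.ext
  ext i
  exact congrArg (fun x : laurentBaseChange L (modularFunctionFieldFull N) =>
    (x : LaurentSeries L).coeff i) h

/-- The ring of Gauss-integral functions. -/
def gaussRing : Subring (laurentBaseChange L (modularFunctionFieldFull N)) where
  carrier := {f | ∃ y z : integralSeries A π N,
    specialFun A π N z ≠ 0 ∧ f * genericFun A π N z = genericFun A π N y}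
  one_mem' := ⟨1, 1, by simp, by simp⟩
  zero_mem' := ⟨0, 1, by simp, by simp⟩
  mul_mem' := by
    rintro f g ⟨y, z, hz, h⟩ ⟨y', z', hz', h'⟩
    refine ⟨y * y', z * z', by simp [map_mul, hz, hz'], ?_⟩
    rw [map_mul, map_mul, mul_mul_mul_comm, h, h']
  add_mem' := by
    rintro f g ⟨y, z, hz, h⟩ ⟨y', z', hz', h'⟩
    refine ⟨y * z' + y' * z, z * z', by simp [map_mul, hz, hz'], ?_⟩
    rw [map_add, map_mul, map_mul, map_mul, ← h, ← h']
    ring
  neg_mem' := by
    rintro f ⟨y, z, hz, h⟩
    exact ⟨-y, z, hz, by rw [neg_mul, h, map_neg]⟩

/-- The value of the reduction on a representation as a ratio. -/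
theorem ratio_red_eq {f : laurentBaseChange L (modularFunctionFieldFull N)}
    {y z y' z' : integralSeries A π N} (hz : specialFun A π N z ≠ 0)
    (hz' : specialFun A π N z' ≠ 0) (h : f * genericFun A π N z = genericFun A π N y)
    (h' : f * genericFun A π N z' = genericFun A π N y') :
    specialFun A π N y / specialFun A π N z = specialFun A π N y' / specialFun A π N z' := by
  have : y * z' = y' * z := genericFun_injective A π N (by
    rw [map_mul, map_mul, ← h, ← h']
    ring)
  rw [div_eq_div_iff hz hz', ← map_mul, ← map_mul, this]

/-- A chosen ratio. -/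
def gaussRedFun (f : gaussRing A π N) : modularFunctionFieldFullC k N :=
  specialFun A π N f.2.choose / specialFun A π N f.2.choose_spec.choose

theorem gaussRedFun_eq (f : gaussRing A π N) {y z : integralSeries A π N}
    (hz : specialFun A π N z ≠ 0)
    (h : (f : laurentBaseChange L (modularFunctionFieldFull N)) * genericFun A π N z =
      genericFun A π N y) :
    gaussRedFun A π N f = specialFun A π N y / specialFun A π N z :=
  ratio_red_eq A π N f.2.choose_spec.choose_spec.1 hz f.2.choose_spec.choose_spec.2 h

theorem genericFun_mem_gaussRing (y : integralSeries A π N) :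
    genericFun A π N y ∈ gaussRing A π N :=
  ⟨y, 1, by simp, by simp⟩

/-- The reduction homomorphism on Gauss-integral functions. -/
def gaussRed : gaussRing A π N →+* modularFunctionFieldFullC k N where
  toFun := gaussRedFun A π N
  map_one' := by rw [gaussRedFun_eq A π N 1 (y := 1) (z := 1) (by simp) (by simp)]; simp
  map_zero' := by rw [gaussRedFun_eq A π N 0 (y := 0) (z := 1) (by simp) (by simp)]; simp
  map_mul' f g := by
    obtain ⟨y, z, hz, h⟩ := f.2
    obtain ⟨y', z', hz', h'⟩ := g.2
    rw [gaussRedFun_eq A π N f hz h, gaussRedFun_eq A π N g hz' h',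
      gaussRedFun_eq A π N (f * g) (y := y * y') (z := z * z') (by simp [map_mul, hz, hz'])
        (by rw [Subring.coe_mul, map_mul, map_mul, mul_mul_mul_comm, h, h']), map_mul, map_mul,
      div_mul_div_comm]
  map_add' f g := by
    obtain ⟨y, z, hz, h⟩ := f.2
    obtain ⟨y', z', hz', h'⟩ := g.2
    rw [gaussRedFun_eq A π N f hz h, gaussRedFun_eq A π N g hz' h',
      gaussRedFun_eq A π N (f + g) (y := y * z' + y' * z) (z := z * z')
        (by simp [map_mul, hz, hz'])
        (by rw [Subring.coe_add, map_add, map_mul, map_mul, map_mul, ← h, ← h']; ring),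
      div_add_div _ _ hz hz', map_add, map_mul, map_mul, map_mul,
      mul_comm (specialFun A π N z) (specialFun A π N y')]

theorem gaussRed_eq (f : gaussRing A π N) {y z : integralSeries A π N}
    (hz : specialFun A π N z ≠ 0)
    (h : (f : laurentBaseChange L (modularFunctionFieldFull N)) * genericFun A π N z =
      genericFun A π N y) :
    gaussRed A π N f = specialFun A π N y / specialFun A π N z :=
  gaussRedFun_eq A π N f hz h

@[simp] theorem gaussRed_genericFun (y : integralSeries A π N) :
    gaussRed A π N ⟨genericFun A π N y, genericFun_mem_gaussRing A π N y⟩ =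
      specialFun A π N y := by
  rw [gaussRed_eq A π N _ (y := y) (z := 1) (by simp) (by simp), map_one, div_one]

theorem gaussRing_inv_mem (f : gaussRing A π N) (hf : gaussRed A π N f ≠ 0) :
    (f : laurentBaseChange L (modularFunctionFieldFull N))⁻¹ ∈ gaussRing A π N := by
  obtain ⟨y, z, hz, h⟩ := f.2
  rw [gaussRed_eq A π N f hz h, div_ne_zero_iff] at hf
  refine ⟨z, y, hf.1, ?_⟩
  have hf0 : (f : laurentBaseChange L (modularFunctionFieldFull N)) ≠ 0 := fun h0 => by
    rw [h0, zero_mul, eq_comm, ← map_zero (genericFun A π N)] at h
    exact hf.1 (by rw [genericFun_injective A π N h, map_zero])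
  rw [← h, ← mul_assoc, inv_mul_cancel₀ hf0, one_mul]

theorem algebraMap_eq_genericFun (a : A) :
    algebraMap L (laurentBaseChange L (modularFunctionFieldFull N)) (a : L) =
      genericFun A π N ⟨HahnSeries.single 0 a, single_zero_mem A π N a⟩ := by
  apply Subtype.ext
  rw [coe_genericFun, coeffMap_single]
  exact algebraMap_laurentSeries_eq_single L (a : L)

theorem specialFun_single (a : A) :
    specialFun A π N ⟨HahnSeries.single 0 a, single_zero_mem A π N a⟩ =
      algebraMap k (modularFunctionFieldFullC k N) (π a) := by
  apply Subtype.ext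
  rw [coe_specialFun, coeffMap_single]
  exact (algebraMap_laurentSeries_eq_single k (π a)).symm

theorem gaussRed_surjective (hπ : Function.Surjective π) :
    Function.Surjective (gaussRed A π N) := by
  intro x
  suffices hle : modularFunctionFieldFullC k N ≤
      IntermediateField.adjoin k (Set.range fun f => ((gaussRed A π N f :
        modularFunctionFieldFullC k N) : LaurentSeries k)) by
    have hclosed : ∀ z ∈ IntermediateField.adjoin k (Set.range fun f => ((gaussRed A π N f :
        modularFunctionFieldFullC k N) : LaurentSeries k)),
        ∃ f, ((gaussRed A π N f : modularFunctionFieldFullC k N) : LaurentSeries k) = z := by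
      intro z hz
      induction hz using IntermediateField.adjoin_induction with
      | mem z hz => exact hz
      | algebraMap c =>
        obtain ⟨a, rfl⟩ := hπ c
        refine ⟨⟨genericFun A π N ⟨HahnSeries.single 0 a, single_zero_mem A π N a⟩,
          genericFun_mem_gaussRing A π N _⟩, ?_⟩
        rw [gaussRed_genericFun, specialFun_single]
        rfl
      | add z w _ _ hz hw =>
        obtain ⟨f, hf⟩ := hz
        obtain ⟨g, hg⟩ := hw
        exact ⟨f + g, by rw [map_add, IntermediateField.coe_add, hf, hg]⟩
      | inv z _ hz =>
        obtain ⟨f, hf⟩ := hz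
        rcases eq_or_ne (gaussRed A π N f) 0 with h0 | h0
        · exact ⟨0, by rw [← hf, h0, map_zero]; simp⟩
        refine ⟨⟨_, gaussRing_inv_mem A π N f h0⟩, ?_⟩
        rw [← hf, ← IntermediateField.coe_inv]
        refine congrArg _ (eq_inv_of_mul_eq_one_left ?_)
        rw [← map_mul, ← map_one (gaussRed A π N)]
        refine congrArg _ (Subtype.ext ?_)
        exact inv_mul_cancel₀ (fun h => h0 (by rw [show f = 0 from Subtype.ext h, map_zero]))
      | mul z w _ _ hz hw =>
        obtain ⟨f, hf⟩ := hz
        obtain ⟨g, hg⟩ := hw
        exact ⟨f * g, by rw [map_mul, IntermediateField.coe_mul, hf, hg]⟩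
    obtain ⟨f, hf⟩ := hclosed _ (hle x.2)
    exact ⟨f, Subtype.ext hf⟩
  refine adjoin_le_iff.mpr ?_
  rintro _ ⟨d, hne, hd, rfl⟩
  refine subset_adjoin k _ ⟨⟨_, genericFun_mem_gaussRing A π N ⟨_, qExpand_jqModC_mem A π N hd⟩⟩, ?_⟩
  show ((gaussRed A π N _ : modularFunctionFieldFullC k N) : LaurentSeries k) = _
  rw [gaussRed_genericFun, coe_specialFun, coeffMap_qExpand, coeffMap_jqModC]

end Gauss

end FermatLib.Igusa
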