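import Mathlib
import Fermat.Agent.Igusa.RRField
import Fermat.Agent.Igusa.GaussReduction

/-!
When the degree over the `j`-line is preserved, the Gauss reduction is a constant reduction.
-/

set_option autoImplicit false
set_option linter.style.haveILetI false

noncomputable section

open AlgebraicCurve ModularCurve IntermediateField

namespace FermatLib.Igusa

section Generic

variable {K F : Type*} [Field K] [Field F] [Algebra K F]

/-- A common denominator for finitely many elements of `K(x)`. -/
theorem exists_common_denom {x : F} (hx : Transcendental K x) {ι : Type*} [Fintype ι]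
    (c : ι → IntermediateField.adjoin K {x}) :
    ∃ (b : Polynomial K) (p : ι → Polynomial K), b ≠ 0 ∧
      ∀ i, Polynomial.aeval x b * (c i : F) = Polynomial.aeval x (p i) := by
  classical
  have h1 : ∀ i, ∃ b p : Polynomial K, b ≠ 0 ∧
      Polynomial.aeval x b * (c i : F) = Polynomial.aeval x p := by
    intro i
    obtain ⟨r, s, hrs⟩ := (IntermediateField.mem_adjoin_simple_iff K (c i : F)).mp (c i).2
    rcases eq_or_ne s 0 with rfl | hs
    · exact ⟨1, 0, one_ne_zero, by simp [hrs]⟩
    refine ⟨s, r, hs, ?_⟩
    rw [hrs, mul_div_cancel₀ _ fun h => hs (transcendental_iff.mp hx s h)]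
  choose b p hb hbp using h1
  refine ⟨∏ i, b i, fun i => (∏ j ∈ Finset.univ.erase i, b j) * p i,
    Finset.prod_ne_zero_iff.mpr fun i _ => hb i, fun i => ?_⟩
  rw [← Finset.mul_prod_erase _ _ (Finset.mem_univ i), map_mul, map_mul,
    mul_comm (Polynomial.aeval x (b i)), mul_assoc, hbp i]

theorem sum_aeval_mul_eq_zero {x : F} {ι : Type*} [Fintype ι] {m : ι → F}
    (hm : PolyIndependent K x m) (p : ι → Polynomial K)
    (h : ∑ i, Polynomial.aeval x (p i) * m i = 0) : ∀ i, p i = 0 := by
  classical
  obtain ⟨D, hD⟩ : ∃ D, ∀ i, (p i).natDegree < D :=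
    ⟨Finset.univ.sup (fun i => (p i).natDegree) + 1, fun i => Nat.lt_succ_of_le
      (Finset.le_sup (f := fun i => (p i).natDegree) (Finset.mem_univ i))⟩
  have h2 : ∑ q ∈ Finset.range D ×ˢ (Finset.univ : Finset ι),
      (p q.2).coeff q.1 • (x ^ q.1 * m q.2) = 0 := by
    rw [Finset.sum_product' (Finset.range D) Finset.univ
      (fun a i => (p i).coeff a • (x ^ a * m i)), Finset.sum_comm, ← h]
    refine Finset.sum_congr rfl fun i _ => ?_
    rw [Polynomial.aeval_eq_sum_range' (hD i), Finset.sum_mul]
    exact Finset.sum_congr rfl fun a _ => (smul_mul_assoc _ _ _).symm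
  intro i
  ext a
  rw [Polynomial.coeff_zero]
  rcases lt_or_ge a D with ha | ha
  · exact linearIndependent_iff'.mp hm _ _ h2 (a, i)
      (Finset.mem_product.mpr ⟨Finset.mem_range.mpr ha, Finset.mem_univ i⟩)
  · exact Polynomial.coeff_eq_zero_of_natDegree_lt ((hD i).trans_le ha)

theorem linearIndependent_adjoin_of_polyIndependent {x : F} (hx : Transcendental K x)
    {ι : Type*} [Fintype ι] {m : ι → F} (hm : PolyIndependent K x m) :
    LinearIndependent (IntermediateField.adjoin K {x}) m := by
  rw [Fintype.linearIndependent_iff]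
  intro c hc i
  obtain ⟨b, p, hb, hbp⟩ := exists_common_denom hx c
  have hp := sum_aeval_mul_eq_zero hm p (by
    simp only [← hbp, mul_assoc, ← Finset.mul_sum]
    rw [show ∑ j, (c j : F) * m j = 0 from hc, mul_zero])
  have h := hbp i
  rw [hp i, map_zero, mul_eq_zero] at h
  exact Subtype.ext (h.resolve_left fun h' => hb (transcendental_iff.mp hx b h'))

theorem polyIndependent_of_linearIndependent_adjoin {x : F} (hx : Transcendental K x)
    {ι : Type*} {m : ι → F} (hm : LinearIndependent (IntermediateField.adjoin K {x}) m) :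
    PolyIndependent K x m := by
  set xK : IntermediateField.adjoin K {x} := ⟨x, mem_adjoin_simple_self K x⟩
  have hpow : LinearIndependent K fun a : ℕ => xK ^ a := by
    rw [linearIndependent_iff']
    intro s c hc a ha
    have h := transcendental_iff.mp hx (∑ i ∈ s, Polynomial.C (c i) * Polynomial.X ^ i) (by
      have h' := congrArg (fun z : IntermediateField.adjoin K {x} => (z : F)) hc
      simp only [AddSubmonoidClass.coe_finsetSum, ZeroMemClass.coe_zero] at h'
      rw [map_sum, ← h']
      refine Finset.sum_congr rfl fun i _ => ?_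
      simp [Algebra.smul_def, xK])
    have h2 := congrArg (fun q : Polynomial K => q.coeff a) h
    simpa [Polynomial.finsetSum_coeff, ha] using h2
  exact linearIndependent_smul hpow hm

end Generic

section Gauss

set_option synthInstance.maxHeartbeats 400000

variable {L : Type*} [Field L] [Algebra ℚ L] (A : ValuationSubring L)
variable {k : Type*} [Field k] (π : A →+* k) (N : ℕ)

theorem jqModC_mem_integralSeries : jqModC A ∈ integralSeries A π N := by
  have h := qExpand_jqModC_mem A π N (d := 1) (one_dvd N)
  rwa [qExpand_one_apply] at h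

/-- `j` as an integral series. -/
def jInt : integralSeries A π N := ⟨jqModC A, jqModC_mem_integralSeries A π N⟩

theorem coe_genericFun_jInt : (genericFun A π N (jInt A π N) : LaurentSeries L) = jqModC L := by
  rw [coe_genericFun]
  exact coeffMap_jqModC A.subtype

theorem coe_specialFun_jInt : (specialFun A π N (jInt A π N) : LaurentSeries k) = jqModC k := by
  rw [coe_specialFun]
  exact coeffMap_jqModC π

theorem transcendental_genericFun_jInt : Transcendental L (genericFun A π N (jInt A π N)) := by
  rw [← transcendental_algebraMap_iff (A := LaurentSeries L) Subtype.val_injective]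
  show Transcendental L (genericFun A π N (jInt A π N) : LaurentSeries L)
  rw [coe_genericFun_jInt]
  exact transcendental_jqModC L

theorem transcendental_specialFun_jInt : Transcendental k (specialFun A π N (jInt A π N)) := by
  rw [← transcendental_algebraMap_iff (A := LaurentSeries k) Subtype.val_injective]
  show Transcendental k (specialFun A π N (jInt A π N) : LaurentSeries k)
  rw [coe_specialFun_jInt]
  exact transcendental_jqModC k

/-- The hypothesis that reduction preserves the degree over the `j`-line. -/
structure DegreeInput (M : ℕ) : Prop where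
  pos : 0 < M
  finrank_generic : Module.finrank (IntermediateField.adjoin L {genericFun A π N (jInt A π N)})
    (laurentBaseChange L (modularFunctionFieldFull N)) = M
  finrank_special : Module.finrank (IntermediateField.adjoin k {specialFun A π N (jInt A π N)})
    (modularFunctionFieldFullC k N) = M

end Gauss

section Abstract

/- `S` is a ring of integral series inside the generic field `F` and mapping to the special field
`Fb`; `jj : S` is the coordinate. -/
variable {L F k Fb S : Type*} [Field L] [Field F] [Algebra L F] [Field k] [Field Fb] [Algebra k Fb]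
  [CommRing S] {A : ValuationSubring L} {π : A →+* k} (gf : S →+* F) (sf : S →+* Fb)
  (cst : A → S) (hgc : ∀ a : A, gf (cst a) = algebraMap L F (a : L))
  (hsc : ∀ a : A, sf (cst a) = algebraMap k Fb (π a)) (hgi : Function.Injective gf)

include hgc hsc hgi in
theorem linearIndependent_of_special {ι : Type*} {v : ι → S}
    (h : LinearIndependent k fun i => sf (v i)) :
    LinearIndependent L fun i => gf (v i) := by
  classical
  rw [linearIndependent_iff'] at h ⊢
  intro s c hc
  by_contra hcon
  push Not at hcon
  obtain ⟨i, his, hi⟩ := hcon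
  obtain ⟨i₀, hi₀, hA⟩ := ConstantReduction.exists_scale_coeffs A (c := fun j : s => c j)
    ⟨⟨i, his⟩, hi⟩
  set a : s → A := fun j => ⟨(c i₀)⁻¹ * c j, hA j⟩ with ha
  have hzero : ∑ j : s, cst (a j) * v j = 0 := by
    refine hgi ?_
    rw [map_sum, map_zero]
    simp only [map_mul, hgc, ha]
    rw [Finset.sum_coe_sort s fun j => algebraMap L F (c i₀)⁻¹ * algebraMap L F (c j) * gf (v j)]
    simp only [mul_assoc, ← Finset.mul_sum]
    rw [show ∑ j ∈ s, algebraMap L F (c j) * gf (v j) = 0 by
      simpa only [Algebra.smul_def] using hc, mul_zero]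
  have h2 := congrArg sf hzero
  simp only [map_sum, map_mul, map_zero, hsc, ← Algebra.smul_def] at h2
  rw [Finset.univ_eq_attach] at h2
  have h3 := h s (fun j => if hj : j ∈ s then π (a ⟨j, hj⟩) else 0) (by
    rw [← Finset.sum_attach]
    simpa using h2) i₀ i₀.2
  rw [dif_pos i₀.2, show a ⟨i₀, i₀.2⟩ = 1 from Subtype.ext (inv_mul_cancel₀ hi₀)] at h3
  simp at h3

include hgc hsc hgi in
/-- A basis over the coordinate line of integral elements with independent reductions. -/
theorem exists_integral_basis {jj : S} (hsurj : ∀ x : Fb, ∃ y z, sf z ≠ 0 ∧ x = sf y / sf z)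
    (htL : Transcendental L (gf jj)) (htk : Transcendental k (sf jj)) {M : ℕ} (hM : 0 < M)
    (hL : Module.finrank (IntermediateField.adjoin L {gf jj}) F = M)
    (hk : Module.finrank (IntermediateField.adjoin k {sf jj}) Fb = M) :
    ∃ m : Fin M → S, PolyIndependent k (sf jj) (fun i => sf (m i)) ∧
      Submodule.span (IntermediateField.adjoin L {gf jj}) (Set.range fun i => gf (m i)) = ⊤ := by
  classical
  set K' := IntermediateField.adjoin k {sf jj} with hK'
  haveI : FiniteDimensional K' Fb := Module.finite_of_finrank_pos (by rw [hk]; exact hM)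
  set Rg : Set Fb := Set.range sf with hRg
  have hspan : Submodule.span K' Rg = ⊤ := by
    have hclos : (Submonoid.closure Rg : Set Fb) = Rg := by
      have : Rg = (MonoidHom.mrange (sf : S →* Fb) : Set Fb) := by
        ext x; simp [hRg]
      rw [this, Submonoid.closure_eq]
    rw [← hclos, ← Algebra.adjoin_eq_span, Algebra.toSubmodule_eq_top, eq_top_iff]
    intro x _
    obtain ⟨y, z, hz, rfl⟩ := hsurj x
    rw [div_eq_mul_inv]
    refine mul_mem (Algebra.subset_adjoin ⟨y, rfl⟩) ?_
    exact Subalgebra.inv_mem_of_algebraic (K := K') (A := Algebra.adjoin K' Rg)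
      (x := ⟨sf z, Algebra.subset_adjoin ⟨z, rfl⟩⟩) (Algebra.IsAlgebraic.isAlgebraic _)
  obtain ⟨b, hbsub, hbspan, hbli⟩ := exists_linearIndependent K' Rg
  haveI : Fintype b := (hbli.setFinite).fintype
  have hcard : Fintype.card b = M := by
    rw [← hk, ← finrank_top K', ← hspan, ← hbspan,
      finrank_span_set_eq_card hbli, Set.toFinset_card]
  let e : Fin M ≃ b := (Fintype.equivFinOfCardEq hcard).symm
  choose m hm using fun i : Fin M => hbsub (e i).2
  have hpi : PolyIndependent k (sf jj) (fun i => sf (m i)) := by
    simp only [hm]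
    exact polyIndependent_of_linearIndependent_adjoin htk (hbli.comp e e.injective)
  refine ⟨m, hpi, ?_⟩
  have hgen : PolyIndependent L (gf jj) (fun i => gf (m i)) := by
    have h := linearIndependent_of_special gf sf cst hgc hsc hgi
      (v := fun p : ℕ × Fin M => jj ^ p.1 * m p.2)
      (by simpa [map_mul, map_pow, PolyIndependent] using hpi)
    simpa [map_mul, map_pow, PolyIndependent] using h
  haveI : Nonempty (Fin M) := ⟨⟨0, hM⟩⟩
  exact (linearIndependent_adjoin_of_polyIndependent htL hgen).span_eq_top_of_card_eq_finrank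
    (by rw [Fintype.card_fin, hL])

include hgc hsc in
theorem exists_normed_aux {jj : S} (htL : Transcendental L (gf jj)) (htk : Transcendental k (sf jj))
    {M : ℕ} {m : Fin M → S} (hpi : PolyIndependent k (sf jj) (fun i => sf (m i)))
    (hspan : Submodule.span (IntermediateField.adjoin L {gf jj}) (Set.range fun i => gf (m i)) = ⊤)
    (s : Finset F) :
    ∃ (u : S) (n : ℕ) (e : Fin n → S),
      sf u ≠ 0 ∧ LinearIndependent k (fun i => sf (e i)) ∧
        ∀ f ∈ s, gf u * f ∈ Submodule.span L (Set.range fun i => gf (e i)) := by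
  classical
  set x := gf jj with hx
  choose c hc using fun f : s => (Submodule.mem_span_range_iff_exists_fun _).mp
    (hspan.ge (Submodule.mem_top (x := (f : F))))
  obtain ⟨b, p, hb, hbp⟩ := exists_common_denom htL fun q : s × Fin M => c q.1 q.2
  obtain ⟨i₀, hi₀, hA⟩ := ConstantReduction.exists_scale_coeffs A
    (c := fun i : Fin (b.natDegree + 1) => b.coeff i)
    ⟨Fin.last _, by simpa using Polynomial.leadingCoeff_ne_zero.mpr hb⟩
  set t : L := (b.coeff i₀)⁻¹ with ht
  set u : S := ∑ i : Fin (b.natDegree + 1), cst ⟨_, hA i⟩ * jj ^ (i : ℕ) with hu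
  have huF : gf u = algebraMap L F t * Polynomial.aeval x b := by
    rw [Polynomial.aeval_eq_sum_range, Finset.mul_sum, ← Fin.sum_univ_eq_sum_range
      (fun i => algebraMap L F t * (b.coeff i • x ^ i)), hu, map_sum]
    refine Finset.sum_congr rfl fun i _ => ?_
    rw [map_mul, map_pow, hgc, map_mul, Algebra.smul_def, mul_assoc]
  have hu0 : sf u ≠ 0 := by
    intro h0
    rw [hu, map_sum] at h0
    simp only [map_mul, map_pow, hsc, ← Algebra.smul_def] at h0
    have h1 := transcendental_iff.mp htk
      (∑ i : Fin (b.natDegree + 1), Polynomial.C (π ⟨_, hA i⟩) * Polynomial.X ^ (i : ℕ))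
      (by rw [map_sum]; simpa [Algebra.smul_def] using h0)
    have h2 := congrArg (fun q : Polynomial k => q.coeff (i₀ : ℕ)) h1
    simp only [Polynomial.finsetSum_coeff, Polynomial.coeff_C_mul_X_pow,
      Polynomial.coeff_zero] at h2
    rw [Finset.sum_eq_single i₀ (fun j _ hj => if_neg fun h => hj (Fin.ext h.symm))
      (fun h => absurd (Finset.mem_univ _) h), if_pos rfl,
      show (⟨_, hA i₀⟩ : A) = 1 from Subtype.ext (inv_mul_cancel₀ hi₀), map_one] at h2
    exact one_ne_zero h2
  set G : ℕ × Fin M → F := fun q => x ^ q.1 * gf (m q.2) with hG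
  have hpoly : ∀ (q : Polynomial L) (i : Fin M),
      Polynomial.aeval x q * gf (m i) ∈ Submodule.span L (Set.range G) := by
    intro q i
    rw [Polynomial.aeval_eq_sum_range, Finset.sum_mul]
    refine Submodule.sum_mem _ fun a _ => ?_
    rw [smul_mul_assoc]
    exact Submodule.smul_mem _ _ (Submodule.subset_span ⟨(a, i), rfl⟩)
  have hmem : ∀ f : s, gf u * f ∈ Submodule.span L (Set.range G) := by
    intro f
    rw [huF, mul_assoc, ← Algebra.smul_def, ← hc f, Finset.mul_sum]
    refine Submodule.smul_mem _ _ (Submodule.sum_mem _ fun i _ => ?_)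
    rw [show (c f i • gf (m i)) = (c f i : F) * gf (m i) from rfl, ← mul_assoc, hbp (f, i)]
    exact hpoly _ _
  choose T hTsub hT using fun f : s => Submodule.mem_span_finite_of_mem_span (hmem f)
  set Z := (Finset.univ.biUnion T) with hZ
  have hpick : ∀ z ∈ Z, ∃ q, G q = z := by
    intro z hz
    obtain ⟨f, -, hf⟩ := Finset.mem_biUnion.mp hz
    exact hTsub f hf
  choose q hq using hpick
  set e : Fin Z.card → ℕ × Fin M := fun i => q _ (Z.equivFin.symm i).2 with he
  refine ⟨u, Z.card, fun i => jj ^ (e i).1 * m (e i).2, hu0, ?_, fun f hf => ?_⟩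
  · have hinj : Function.Injective e := by
      intro i j hij
      apply Z.equivFin.symm.injective
      apply Subtype.ext
      rw [← hq _ (Z.equivFin.symm i).2, ← hq _ (Z.equivFin.symm j).2]
      exact congrArg G hij
    have h := LinearIndependent.comp hpi e hinj
    simpa [map_mul, map_pow, Function.comp_def] using h
  · refine Submodule.span_mono ?_ (hT ⟨f, hf⟩)
    intro z hz
    have hzZ : z ∈ Z := Finset.mem_biUnion.mpr ⟨⟨f, hf⟩, Finset.mem_univ _, hz⟩
    refine ⟨Z.equivFin ⟨z, hzZ⟩, ?_⟩
    simp only [map_mul, map_pow, he, Equiv.symm_apply_apply]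
    exact hq z hzZ

end Abstract

section Instance

variable {L : Type*} [Field L] [Algebra ℚ L] {A : ValuationSubring L}
variable {k : Type*} [Field k] {π : A →+* k} {N : ℕ}

theorem exists_normed_gaussRing (hπ : Function.Surjective π) {M : ℕ} (hd : DegreeInput A π N M)
    (s : Finset (laurentBaseChange L (modularFunctionFieldFull N))) :
    ∃ (u : gaussRing A π N) (n : ℕ) (e : Fin n → gaussRing A π N),
      gaussRed A π N u ≠ 0 ∧ LinearIndependent k (fun i => gaussRed A π N (e i)) ∧
        ∀ f ∈ s, (u : laurentBaseChange L (modularFunctionFieldFull N)) * f ∈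
          Submodule.span L (Set.range fun i =>
            ((e i : gaussRing A π N) : laurentBaseChange L (modularFunctionFieldFull N))) := by
  have hgc := fun a : A => (algebraMap_eq_genericFun A π N a).symm
  have hsc := specialFun_single A π N
  have hsurj : ∀ x, ∃ y z, specialFun A π N z ≠ 0 ∧
      x = specialFun A π N y / specialFun A π N z := by
    intro x
    obtain ⟨f, rfl⟩ := gaussRed_surjective A π N hπ x
    obtain ⟨y, z, hz, h⟩ := f.2
    exact ⟨y, z, hz, gaussRed_eq A π N f hz h⟩
  obtain ⟨m, hpi, hspan⟩ := exists_integral_basis (genericFun A π N) (specialFun A π N) _ hgc hsc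
    (genericFun_injective A π N) hsurj (transcendental_genericFun_jInt A π N)
    (transcendental_specialFun_jInt A π N) hd.pos hd.finrank_generic hd.finrank_special
  obtain ⟨u, n, e, hu, he, hs⟩ := exists_normed_aux (genericFun A π N) (specialFun A π N) _ hgc hsc
    (transcendental_genericFun_jInt A π N) (transcendental_specialFun_jInt A π N) hpi hspan s
  refine ⟨⟨_, genericFun_mem_gaussRing A π N u⟩, n,
    fun i => ⟨_, genericFun_mem_gaussRing A π N (e i)⟩, ?_, ?_, hs⟩
  · rwa [gaussRed_genericFun]
  · simpa only [gaussRed_genericFun] using he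

/-- The Gauss constant reduction of `X₀(N)`. -/
def gaussReduction (hres : ∀ a : A, ¬ IsUnit a → π a = 0) (hunit : ∀ a : A, π a ≠ 0 → IsUnit a)
    (hπ : Function.Surjective π) {M : ℕ} (hd : DegreeInput A π N M) :
    ConstantReduction A π (laurentBaseChange L (modularFunctionFieldFull N))
      (modularFunctionFieldFullC k N) where
  ring := gaussRing A π N
  red := gaussRed A π N
  surjective_res := hπ
  isUnit_of_res_ne_zero := hunit
  res_eq_zero := hres
  algebraMap_mem a := by rw [algebraMap_eq_genericFun A π N]; exact genericFun_mem_gaussRing A π N _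
  red_algebraMap a := by
    rw [← specialFun_single A π N, ← gaussRed_genericFun A π N]
    exact congrArg _ (Subtype.ext (algebraMap_eq_genericFun A π N a))
  surjective_red := gaussRed_surjective A π N hπ
  inv_mem := gaussRing_inv_mem A π N
  exists_normed := exists_normed_gaussRing hπ hd

end Instance

end FermatLib.Igusa
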