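import Mathlib
import Fermat.Prelude.Def_FLTPrelim_Ramification
import Fermat.Agent.Igusa.PlaceMap
import Fermat.Agent.Igusa.GaussBasis

/-!
Place reduction for `X₀(N)`: the inputs of the frozen `reductionModL`, from the preservation of
degree and genus.
-/

set_option autoImplicit false
set_option linter.style.haveILetI false
set_option synthInstance.maxHeartbeats 400000

noncomputable section

open AlgebraicCurve ModularCurve

namespace FermatLib.Igusa

section General

variable {L : Type*} [Field L] [Algebra ℚ L] {A : ValuationSubring L}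
variable {k : Type*} [Field k] {π : A →+* k} {N : ℕ}
variable (hres : ∀ a : A, ¬ IsUnit a → π a = 0) (hunit : ∀ a : A, π a ≠ 0 → IsUnit a)
variable (hπ : Function.Surjective π) {M : ℕ} (hd : DegreeInput A π N M) {g : ℕ}

include hres hunit hπ hd in
theorem exists_ratio_of_fun {f : laurentBaseChange L (modularFunctionFieldFull N)} (hf : f ≠ 0) :
    ∃ (c : L) (y z : integralSeries A π N), c ≠ 0 ∧ specialFun A π N y ≠ 0 ∧
      specialFun A π N z ≠ 0 ∧ c • f * genericFun A π N z = genericFun A π N y := by
  obtain ⟨c, h, hc, hh, hred⟩ := (gaussReduction hres hunit hπ hd).exists_smul_red_ne_zero hf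
  obtain ⟨y, z, hz, hyz⟩ := h.2
  have e := gaussRed_eq A π N h hz hyz
  have hred' : gaussRed A π N h ≠ 0 := hred
  rw [e, div_ne_zero_iff] at hred'
  exact ⟨c, y, z, hc, hred'.1, hz, by rw [← hyz, hh]⟩

include hres hunit hπ hd in
/-- Every principal divisor is a difference of divisors of integral functions. -/
theorem principalGeneratedByIntegral_of_degree
    (hF : RRField L (laurentBaseChange L (modularFunctionFieldFull N)) g) :
    PrincipalGeneratedByIntegral A π N := by
  rintro D ⟨f, hf, hD⟩
  obtain ⟨c, y, z, hc, hy, hz, h⟩ := exists_ratio_of_fun hres hunit hπ hd hf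
  have hne : ∀ w : integralSeries A π N, specialFun A π N w ≠ 0 → genericFun A π N w ≠ 0 := by
    intro w hw h0
    rw [← map_zero (genericFun A π N)] at h0
    exact hw (by rw [genericFun_injective A π N h0, map_zero])
  have hmem : ∀ w : integralSeries A π N, specialFun A π N w ≠ 0 →
      ∃ E ∈ integralPrincipalDivisors A π N, ∀ P, E P = P.ord (genericFun A π N w) := by
    intro w hw
    obtain ⟨E, hE, -⟩ := hF.exists_div (hne w hw)
    exact ⟨E, ⟨(w : LaurentSeries A), w.2.1, w.2.2,
      fun h0 => hw (Subtype.ext h0), hE⟩, hE⟩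
  obtain ⟨Dy, hDy, hy'⟩ := hmem y hy
  obtain ⟨Dz, hDz, hz'⟩ := hmem z hz
  have hDeq : D = Dy - Dz := by
    refine Finsupp.ext fun P => ?_
    have hcf : c • f ≠ 0 := smul_ne_zero hc hf
    have := congrArg P.ord h
    rw [P.ord_mul hcf (hne z hz), Algebra.smul_def, P.ord_mul (by simpa using hc) hf,
      ord_algebraMap, zero_add] at this
    rw [Finsupp.sub_apply, hy', hz', hD]
    omega
  rw [hDeq]
  exact AddSubgroup.sub_mem _ (AddSubgroup.subset_closure hDy) (AddSubgroup.subset_closure hDz)

include hres hunit hπ hd in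
/-- The frozen notion of place reduction is the one of the Gauss constant reduction. -/
theorem isPlaceReductionAlong_iff
    (hF : RRField L (laurentBaseChange L (modularFunctionFieldFull N)) g)
    (hB : RRField k (modularFunctionFieldFullC k N) g)
    {r : Place L (laurentBaseChange L (modularFunctionFieldFull N)) →
      Place k (modularFunctionFieldFullC k N)} :
    IsPlaceReductionAlong A π N r ↔ (gaussReduction hres hunit hπ hd).IsReduction r := by
  constructor
  · rintro ⟨-, hr⟩ f hf D hD Q
    obtain ⟨y, z, hz, h⟩ := f.2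
    have e := gaussRed_eq A π N f hz h
    have hf' : gaussRed A π N f ≠ 0 := hf
    rw [e, div_ne_zero_iff] at hf'
    have hne : ∀ w : integralSeries A π N, specialFun A π N w ≠ 0 → genericFun A π N w ≠ 0 := by
      intro w hw h0
      rw [← map_zero (genericFun A π N)] at h0
      exact hw (by rw [genericFun_injective A π N h0, map_zero])
    obtain ⟨Dy, hDy, -⟩ := hF.exists_div (hne y hf'.1)
    obtain ⟨Dz, hDz, -⟩ := hF.exists_div (hne z hz)
    have hy : Finsupp.mapDomain r Dy Q = Q.ord (specialFun A π N y) :=
      hr (y : LaurentSeries A) y.2.1 y.2.2 (fun h0 => hf'.1 (Subtype.ext h0)) Dy hDy Q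
    have hz' : Finsupp.mapDomain r Dz Q = Q.ord (specialFun A π N z) :=
      hr (z : LaurentSeries A) z.2.1 z.2.2 (fun h0 => hz (Subtype.ext h0)) Dz hDz Q
    have hf0 : (f : laurentBaseChange L (modularFunctionFieldFull N)) ≠ 0 := by
      intro h0
      rw [h0, zero_mul] at h
      exact hne y hf'.1 h.symm
    have hDeq : D = Dy - Dz := by
      refine Finsupp.ext fun P => ?_
      rw [Finsupp.sub_apply, hDy, hDz, hD, ← h, P.ord_mul hf0 (hne z hz)]
      ring
    show _ = Q.ord (gaussRed A π N f)
    rw [e, div_eq_mul_inv, Q.ord_mul hf'.1 (inv_ne_zero hz), Q.ord_inv, hDeq,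
      Finsupp.mapDomain_sub, Finsupp.sub_apply, hy, hz']
    ring
  · intro hr
    refine ⟨fun P => by rw [hB.deg_one, hF.deg_one], fun y hy hyk hne D hD Q => ?_⟩
    have hne' : gaussRed A π N ⟨genericFun A π N ⟨y, hy, hyk⟩, genericFun_mem_gaussRing A π N _⟩
        = (⟨coeffMap π y, hyk⟩ : modularFunctionFieldFullC k N) :=
      gaussRed_genericFun A π N ⟨y, hy, hyk⟩
    have h := hr ⟨_, genericFun_mem_gaussRing A π N ⟨y, hy, hyk⟩⟩
      (by
        show gaussRed A π N _ ≠ 0
        exact hne'.trans_ne fun h0 => hne (congrArg Subtype.val h0)) D hD Q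
    rw [h]
    exact congrArg Q.ord hne'

include hres hunit hπ hd in
/-- The reduction inputs hold when degree and genus are preserved. -/
theorem reductionInputsAlong_of_degree_of_genus [Infinite k]
    (hF : RRField L (laurentBaseChange L (modularFunctionFieldFull N)) g)
    (hB : RRField k (modularFunctionFieldFullC k N) g) : ReductionInputsAlong A π N := by
  obtain ⟨r, hr⟩ := (gaussReduction hres hunit hπ hd).exists_isReduction hF hB
  exact ⟨r, (isPlaceReductionAlong_iff hres hunit hπ hd hF hB).mpr hr,
    principalGeneratedByIntegral_of_degree hres hunit hπ hd hF⟩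

end General

section ModL

variable (A : ValuationSubring (AlgebraicClosure ℚ)) {N M g : ℕ}

theorem residue_eq_zero_of_not_isUnit (a : A) (ha : ¬ IsUnit a) : IsLocalRing.residue A a = 0 :=
  (IsLocalRing.residue_eq_zero_iff a).mpr ((IsLocalRing.mem_maximalIdeal a).mpr ha)

theorem isUnit_of_residue_ne_zero (a : A) (ha : IsLocalRing.residue A a ≠ 0) : IsUnit a :=
  not_not.mp fun h => ha (residue_eq_zero_of_not_isUnit A a h)

/-- The residue field of a valuation ring of an algebraically closed field is algebraically
closed. -/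
theorem isAlgClosed_residueField : IsAlgClosed (IsLocalRing.ResidueField A) := by
  refine IsAlgClosed.of_exists_root _ fun p hp hirr => ?_
  obtain ⟨q, hq, hdeg, hqm⟩ := Polynomial.lifts_and_natDegree_eq_and_monic
    (f := IsLocalRing.residue A) (p := p) ((Polynomial.lifts_iff_coeff_lifts _).mpr fun n =>
      IsLocalRing.residue_surjective _) hp
  obtain ⟨x, hx⟩ := IsAlgClosed.exists_root (q.map (algebraMap A (AlgebraicClosure ℚ))) (by
    rw [Polynomial.degree_eq_natDegree (hqm.map _).ne_zero, hqm.natDegree_map, hdeg]
    exact_mod_cast (hirr.natDegree_pos).ne')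
  have hxA : x ∈ A := by
    rcases A.mem_or_inv_mem x with h | h
    · exact h
    · exact IsIntegrallyClosed.isIntegral_iff.mp
        (⟨q, hqm, by rwa [Polynomial.IsRoot, Polynomial.eval_map] at hx⟩ :
          IsIntegral A x) |>.elim fun a ha => ha ▸ a.2
  refine ⟨IsLocalRing.residue A ⟨x, hxA⟩, ?_⟩
  rw [← hq, Polynomial.eval_map, Polynomial.eval₂_at_apply]
  have h0 : q.eval (⟨x, hxA⟩ : A) = 0 := by
    apply Subtype.val_injective
    rw [Polynomial.IsRoot, Polynomial.eval_map] at hx
    show algebraMap A (AlgebraicClosure ℚ) (q.eval ⟨x, hxA⟩) = 0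
    rw [← Polynomial.eval₂_at_apply]
    exact hx
  rw [h0, map_zero]

theorem infinite_residueField : Infinite (IsLocalRing.ResidueField A) :=
  haveI := isAlgClosed_residueField A
  inferInstance

/-- `ReductionInputsModL` from preservation of degree and genus. -/
theorem reductionInputsModL_of_degree_of_genus
    (hd : DegreeInput A (IsLocalRing.residue A) N M)
    (hF : RRField (AlgebraicClosure ℚ) (modularFunctionFieldBar N) g)
    (hB : RRField (IsLocalRing.ResidueField A)
      (modularFunctionFieldFullC (IsLocalRing.ResidueField A) N) g) :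
    ReductionInputsModL A N :=
  haveI := infinite_residueField A
  reductionInputsAlong_of_degree_of_genus (residue_eq_zero_of_not_isUnit A)
    (isUnit_of_residue_ne_zero A) IsLocalRing.residue_surjective hd hF hB

end ModL

end FermatLib.Igusa
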