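import Mathlib
import Fermat.Agent.Igusa.OrderPlace

/-!
Uniqueness of the place given by the order in `q`.
-/

set_option autoImplicit false

noncomputable section

open AlgebraicCurve HahnSeries

namespace FermatLib.Igusa

variable {K : Type*} [Field K] (F : IntermediateField K (LaurentSeries K))

theorem coe_ne_zero_of_ne_zero {x : F} (hx : x ≠ 0) : (x : LaurentSeries K) ≠ 0 :=
  fun h => hx (Subtype.ext h)

theorem order_inv' {x : LaurentSeries K} (hx : x ≠ 0) : (x⁻¹).order = -x.order := by
  have h := HahnSeries.order_mul hx (inv_ne_zero hx)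
  rw [mul_inv_cancel₀ hx, HahnSeries.order_one] at h
  omega

variable {F}

theorem IsOrderPlace.unique {P P' : Place K F} (h : IsOrderPlace F P) (h' : IsOrderPlace F P') :
    P = P' := by
  refine Place.ext (SetLike.ext fun x => ?_)
  have key : ∀ {v : Place K F}, x ∈ v.toValuationSubring ↔ x = 0 ∨ 0 ≤ v.ord x := by
    intro v
    refine ⟨fun hm => v.adicValuation_le_one_iff.mp (v.adicValuation_le_one_of_mem hm), fun hle => ?_⟩
    rcases hle with rfl | hle
    · exact zero_mem _
    rcases eq_or_ne x 0 with rfl | hx
    · exact zero_mem _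
    obtain ⟨π, hπ⟩ := IsDiscreteValuationRing.exists_irreducible v.toValuationSubring
    obtain ⟨u, hu⟩ := v.exists_unit_mul_zpow hx hπ
    rw [hu, show v.ord x = ((v.ord x).toNat : ℤ) from (Int.toNat_of_nonneg hle).symm, zpow_natCast]
    exact mul_mem (u : v.toValuationSubring).2 (pow_mem π.2 _)
  rw [key, key, h x, h' x]

end FermatLib.Igusa
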