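import Mathlib
import Fermat.Agent.Igusa.GaussPlaces
import Fermat.Agent.Igusa.CuspSeries
import Fermat.Agent.Igusa.OrderPlaceUnique

/-!
The cusp at infinity under place reduction, and the lattices of functions with poles there.
-/

set_option autoImplicit false
set_option linter.style.haveILetI false
set_option synthInstance.maxHeartbeats 400000

noncomputable section

open AlgebraicCurve ModularCurve HahnSeries

namespace FermatLib.Igusa

section Abstract

variable {L F k Fb : Type*} [Field L] [Field F] [Algebra L F] [Field k] [Field Fb] [Algebra k Fb]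
variable {A : ValuationSubring L} {π : A →+* k} {R : ConstantReduction A π F Fb} {g : ℕ}

/-- A function with at most `M` poles whose reduction has at least `M` keeps its poles and
zeros apart under reduction. -/
theorem ord_sign_of_degree (hF : RRField L F g) (hB : RRField k Fb g) {r : Place L F → Place k Fb}
    (hr : R.IsReduction r) (x : R.ring) (hx : R.red x ≠ 0) {M : ℕ}
    {ι : Type*} [Fintype ι] {u : ι → Fb} (hu : PolyIndependent k (R.red x) u)
    (hcard : Fintype.card ι = M)
    (hle : ∀ v : Fin (M + 1) → F, ¬ PolyIndependent L (x : F) v) (P : Place L F) :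
    (P.ord (x : F) < 0 → (r P).ord (R.red x) < 0) ∧
      (0 < P.ord (x : F) → 0 < (r P).ord (R.red x)) := by
  have hx0 := R.coe_ne_zero hx
  obtain ⟨D, hD, -⟩ := hF.exists_div hx0
  obtain ⟨Db, hDb, -⟩ := hB.exists_div hx
  have h1 : Divisor.degree (negPart' D) ≤ M := by
    by_contra hcon
    push Not at hcon
    obtain ⟨v, hv⟩ := hF.exists_polyIndependent hx0 (negPart'_nonneg D) (fun w hw => by
      rw [negPart'_apply, hD] at hw ⊢
      omega)
    have hle' : M + 1 ≤ (Divisor.degree (negPart' D)).toNat := by omega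
    exact hle (v ∘ Fin.castLE hle') (LinearIndependent.comp hv
      (fun p : ℕ × Fin (M + 1) => (p.1, Fin.castLE hle' p.2)) fun p q h =>
        Prod.ext (congrArg Prod.fst h :) (Fin.castLE_injective hle' (congrArg Prod.snd h :)))
  have h2 : (M : ℤ) ≤ Divisor.degree (negPart' Db) := by
    rw [← hcard]
    exact hB.card_le_degree (negPart'_nonneg Db) (mem_negPart' hDb) hu
  have h := ConstantReduction.IsReduction.mapDomain_negPart R hF hB hr x hx hD hDb (by omega)
  refine ⟨fun hP => ?_, fun hP => ?_⟩
  · have h3 := le_mapDomain_apply r (negPart' D) (a := P) (n := 1)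
      (by rw [negPart'_apply, hD]; omega) fun b _ => by rw [negPart'_apply]; omega
    rw [h, negPart'_apply, hDb] at h3
    omega
  · have h3 := le_mapDomain_apply r (D + negPart' D) (a := P) (n := 1)
      (by rw [Finsupp.add_apply, negPart'_apply, hD]; omega)
      fun b _ => by rw [Finsupp.add_apply, negPart'_apply]; omega
    rw [Finsupp.mapDomain_add, Finsupp.add_apply, h, hr x hx D hD, negPart'_apply, hDb] at h3
    omega

/-- An element integral over the polynomials in `x`: its poles are bounded by those of `x`. -/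
theorem ord_ge_of_integral (P : Place L F) {x z : F} (n D : ℕ) (c : ℕ → Polynomial L)
    (hD : ∀ i < n, (c i).natDegree ≤ D)
    (h : z ^ n + ∑ i ∈ Finset.range n, Polynomial.aeval x (c i) * z ^ i = 0) :
    z = 0 ∨ (D : ℤ) * min (P.ord x) 0 ≤ P.ord z := by
  refine or_iff_not_imp_left.mpr fun hz => ?_
  by_contra hlt
  push Not at hlt
  set b := (D : ℤ) * min (P.ord x) 0 with hb
  have hb0 : b ≤ 0 := mul_nonpos_of_nonneg_of_nonpos (Int.natCast_nonneg D) (min_le_right _ _)
  have haeval : ∀ i < n, Polynomial.aeval x (c i) = 0 ∨ b ≤ P.ord (Polynomial.aeval x (c i)) := by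
    intro i hi
    rw [Polynomial.aeval_eq_sum_range' (Nat.lt_succ_of_le (hD i hi))]
    refine Finset.sum_induction _ (fun w => w = 0 ∨ b ≤ P.ord w)
      (fun u v hu hv => ord_add_ge P hu hv) (Or.inl rfl) fun l hl => ?_
    rcases eq_or_ne ((c i).coeff l) 0 with hc | hc
    · exact Or.inl (by simp [hc])
    rcases eq_or_ne (x ^ l) 0 with hxl | hxl
    · exact Or.inl (by simp [hxl])
    right
    rw [Algebra.smul_def, P.ord_mul (by simpa using hc) hxl, ord_algebraMap, zero_add, ord_pow]
    have hl' : (l : ℤ) ≤ D := by exact_mod_cast Nat.lt_succ_iff.mp (Finset.mem_range.mp hl)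
    have h0 : min (P.ord x) 0 ≤ P.ord x := min_le_left _ _
    have h1 : min (P.ord x) 0 ≤ 0 := min_le_right _ _
    rw [hb]
    nlinarith
  have hsum : ∑ i ∈ Finset.range n, Polynomial.aeval x (c i) * z ^ i = 0 ∨
      n * P.ord z + 1 ≤ P.ord (∑ i ∈ Finset.range n, Polynomial.aeval x (c i) * z ^ i) := by
    refine Finset.sum_induction _ (fun w => w = 0 ∨ n * P.ord z + 1 ≤ P.ord w)
      (fun u v hu hv => ord_add_ge P hu hv) (Or.inl rfl) fun i hi => ?_
    have hi' := Finset.mem_range.mp hi
    rcases eq_or_ne (Polynomial.aeval x (c i)) 0 with h0 | h0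
    · exact Or.inl (by rw [h0, zero_mul])
    right
    rw [P.ord_mul h0 (pow_ne_zero i hz), ord_pow]
    have h2 := (haeval i hi').resolve_left h0
    have h3 : (i : ℤ) + 1 ≤ n := by exact_mod_cast hi'
    nlinarith
  have hzn := eq_neg_of_add_eq_zero_left h
  rcases hsum with hs | hs
  · exact pow_ne_zero n hz (by rw [hzn, hs, neg_zero])
  · have h4 := congrArg P.ord hzn
    rw [ord_pow, ord_neg] at h4
    omega

end Abstract

section JInverse

variable (S : Type*) [CommRing S]

/-- The inverse of the expansion of `j`. -/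
def jqInvModC : LaurentSeries S :=
  HahnSeries.single (1 : ℤ) 1 * HahnSeries.ofPowerSeries ℤ S
    ((jNum.map (Int.castRingHom S)).invOfUnit 1)

theorem jqModC_mul_jqInvModC : jqModC S * jqInvModC S = 1 := by
  rw [jqModC, jqInvModC, mul_mul_mul_comm, HahnSeries.single_mul_single, ← map_mul,
    PowerSeries.mul_invOfUnit _ _ (by
      rw [← PowerSeries.coeff_zero_eq_constantCoeff, PowerSeries.coeff_map,
        PowerSeries.coeff_zero_eq_constantCoeff, constantCoeff_jNum, map_one, Units.val_one])]
  simp

theorem coeff_one_jqInvModC : (jqInvModC S).coeff 1 = 1 := by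
  rw [jqInvModC, HahnSeries.coeff_single_mul, one_mul, sub_self,
    show (0 : ℤ) = ((0 : ℕ) : ℤ) from rfl, HahnSeries.ofPowerSeries_apply_coeff,
    PowerSeries.coeff_zero_eq_constantCoeff, PowerSeries.constantCoeff_invOfUnit]
  simp

theorem order_qExpand {K : Type*} [Field K] (d : ℕ) [NeZero d] (x : LaurentSeries K) :
    (qExpand K d x).order = d * x.order := by
  rcases eq_or_ne x 0 with rfl | hx
  · simp
  refine le_antisymm (HahnSeries.order_le_of_coeff_ne_zero (by
    rw [qExpand_coeff_mul]; exact coeff_order_ne_zero' hx)) ?_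
  have hx' : qExpand K d x ≠ 0 := fun h => hx (qExpand_injective d (h.trans (map_zero _).symm))
  have h := coeff_order_ne_zero' hx'
  by_cases hd : (d : ℤ) ∣ (qExpand K d x).order
  · obtain ⟨m, hm⟩ := hd
    rw [hm, qExpand_coeff_mul] at h
    rw [hm]
    exact mul_le_mul_of_nonneg_left (HahnSeries.order_le_of_coeff_ne_zero h) (Int.natCast_nonneg d)
  · exact absurd (qExpand_coeff_of_not_dvd d x hd) h

end JInverse

end FermatLib.Igusa
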