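import Mathlib
import Fermat.Agent.Igusa.CuspReduction

/-!
`SmoothLattice` for `X₀(N)`: the cusp at infinity reduces to itself and the lattices of functions
with poles only there reduce onto the corresponding spaces.
-/

set_option autoImplicit false
set_option linter.style.haveILetI false
set_option synthInstance.maxHeartbeats 400000

noncomputable section

open AlgebraicCurve ModularCurve HahnSeries

namespace FermatLib.Igusa

variable {L : Type*} [Field L] [Algebra ℚ L] {A : ValuationSubring L}
variable {k : Type*} [Field k] {π : A →+* k} {N : ℕ}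

theorem coeffMap_jqInvModC_mem {S : Type*} [CommRing S] {K : Type*} [Field K] (f : S →+* K)
    (F₀ : IntermediateField K (LaurentSeries K)) (h : coeffMap f (jqModC S) ∈ F₀) :
    coeffMap f (jqInvModC S) ∈ F₀ := by
  have hm : coeffMap f (jqModC S) * coeffMap f (jqInvModC S) = 1 := by
    rw [← map_mul, jqModC_mul_jqInvModC, map_one]
  rw [eq_inv_of_mul_eq_one_right hm]
  exact inv_mem h

theorem jqInvModC_mem_integralSeries : jqInvModC A ∈ integralSeries A π N :=
  (mem_integralSeries A π N).mpr
    ⟨coeffMap_jqInvModC_mem A.subtype (laurentBaseChange L (modularFunctionFieldFull N))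
        (jqModC_mem_integralSeries A π N).1,
      coeffMap_jqInvModC_mem π (modularFunctionFieldFullC k N)
        (jqModC_mem_integralSeries A π N).2⟩

/-- `1 / j` as an integral series. -/
def tInt : integralSeries A π N := ⟨jqInvModC A, jqInvModC_mem_integralSeries⟩

theorem jInt_mul_tInt : jInt A π N * tInt = 1 := Subtype.ext (jqModC_mul_jqInvModC A)

theorem order_genericFun_jInt :
    (genericFun A π N (jInt A π N) : LaurentSeries L).order = -1 := by
  rw [coe_genericFun_jInt, order_jqModC]

theorem order_specialFun_jInt :
    (specialFun A π N (jInt A π N) : LaurentSeries k).order = -1 := by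
  rw [coe_specialFun_jInt, order_jqModC]

theorem genericFun_tInt : genericFun A π N tInt = (genericFun A π N (jInt A π N))⁻¹ :=
  eq_inv_of_mul_eq_one_right (by rw [← map_mul, jInt_mul_tInt, map_one])

theorem specialFun_tInt : specialFun A π N tInt = (specialFun A π N (jInt A π N))⁻¹ :=
  eq_inv_of_mul_eq_one_right (by rw [← map_mul, jInt_mul_tInt, map_one])

theorem order_genericFun_tInt :
    (genericFun A π N tInt : LaurentSeries L).order = 1 := by
  have h0 : (genericFun A π N (jInt A π N) : LaurentSeries L) ≠ 0 := fun h => by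
    have := order_genericFun_jInt (A := A) (π := π) (N := N)
    simp [h] at this
  rw [genericFun_tInt, IntermediateField.coe_inv, order_inv' h0, order_genericFun_jInt, neg_neg]

theorem order_specialFun_tInt :
    (specialFun A π N tInt : LaurentSeries k).order = 1 := by
  have h0 : (specialFun A π N (jInt A π N) : LaurentSeries k) ≠ 0 := fun h => by
    have := order_specialFun_jInt (A := A) (π := π) (N := N)
    simp [h] at this
  rw [specialFun_tInt, IntermediateField.coe_inv, order_inv' h0, order_specialFun_jInt, neg_neg]

variable (L N) in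
/-- The cusp at infinity of the generic field. -/
def cuspInf : Place L (laurentBaseChange L (modularFunctionFieldFull N)) :=
  (exists_isOrderPlace_baseChange L N).choose

variable (k N) in
/-- The cusp at infinity of the reduced field. -/
def cuspInfRed : Place k (modularFunctionFieldFullC k N) :=
  (exists_isOrderPlace_fullC k N).choose

theorem isOrderPlace_cuspInf : IsOrderPlace _ (cuspInf L N) :=
  (exists_isOrderPlace_baseChange L N).choose_spec

theorem isOrderPlace_cuspInfRed : IsOrderPlace _ (cuspInfRed k N) :=
  (exists_isOrderPlace_fullC k N).choose_spec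

variable (hres : ∀ a : A, ¬ IsUnit a → π a = 0) (hunit : ∀ a : A, π a ≠ 0 → IsUnit a)
variable (hπ : Function.Surjective π) {M : ℕ} (hd : DegreeInput A π N M) {g : ℕ}

/-- `1 / j` in the Gauss ring. -/
def tGauss : (gaussReduction hres hunit hπ hd).ring :=
  ⟨genericFun A π N tInt, genericFun_mem_gaussRing A π N tInt⟩

theorem seriesPoint_gauss :
    SeriesPoint (gaussReduction hres hunit hπ hd)
      (laurentBaseChange L (modularFunctionFieldFull N)).val.toRingHom
      (modularFunctionFieldFullC k N).val.toRingHom (cuspInf L N) (cuspInfRed k N)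
      (tGauss hres hunit hπ hd) where
  constF c := algebraMap_laurentSeries_eq_single L c
  constB c := algebraMap_laurentSeries_eq_single k c
  ordF := isOrderPlace_cuspInf
  ordB := isOrderPlace_cuspInfRed
  compat f y hy := by
    obtain ⟨y', z, hz, h⟩ := f.2
    have hy' : ((f : laurentBaseChange L (modularFunctionFieldFull N)) : LaurentSeries L) =
      coeffMap A.subtype y := hy
    have hmul : y * (z : LaurentSeries A) = y' := by
      refine latVal_injective (A := A) ?_
      have h2 := congrArg Subtype.val h
      rw [IntermediateField.coe_mul, hy', coe_genericFun, coe_genericFun] at h2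
      rw [map_mul]
      exact h2
    have h3 := congrArg (coeffMap π) hmul
    rw [map_mul] at h3
    have e := gaussRed_eq A π N f hz h
    show ((gaussRed A π N f : modularFunctionFieldFullC k N) : LaurentSeries k) = coeffMap π y
    rw [e, IntermediateField.coe_div, coe_specialFun, coe_specialFun, ← h3]
    exact mul_div_cancel_right₀ _ fun h0 => hz (Subtype.ext h0)
  order_t := order_genericFun_tInt
  lead_t := by
    show (coeffMap A.subtype (jqInvModC A)).coeff 1 = 1
    rw [coeffMap_coeff, coeff_one_jqInvModC, map_one]
  series_t := ⟨_, rfl⟩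
  series_inv_t := ⟨jqModC A, by
    show ((genericFun A π N tInt)⁻¹ : laurentBaseChange L (modularFunctionFieldFull N)).1 = _
    rw [genericFun_tInt, inv_inv]
    rfl⟩

include hd in
theorem ord_sign_jInt (hF : RRField L (laurentBaseChange L (modularFunctionFieldFull N)) g)
    (hB : RRField k (modularFunctionFieldFullC k N) g)
    {r : Place L (laurentBaseChange L (modularFunctionFieldFull N)) →
      Place k (modularFunctionFieldFullC k N)}
    (hr : (gaussReduction hres hunit hπ hd).IsReduction r)
    (P : Place L (laurentBaseChange L (modularFunctionFieldFull N))) :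
    (P.ord (genericFun A π N (jInt A π N)) < 0 →
        (r P).ord (specialFun A π N (jInt A π N)) < 0) ∧
      (0 < P.ord (genericFun A π N (jInt A π N)) →
        0 < (r P).ord (specialFun A π N (jInt A π N))) := by
  classical
  have hsurj : ∀ x, ∃ y z, specialFun A π N z ≠ 0 ∧
      x = specialFun A π N y / specialFun A π N z := by
    intro x
    obtain ⟨f, rfl⟩ := gaussRed_surjective A π N hπ x
    obtain ⟨y, z, hz, h⟩ := f.2
    exact ⟨y, z, hz, gaussRed_eq A π N f hz h⟩
  obtain ⟨m, hpi, -⟩ := exists_integral_basis (genericFun A π N) (specialFun A π N) _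
    (fun a : A => (algebraMap_eq_genericFun A π N a).symm) (specialFun_single A π N)
    (genericFun_injective A π N) hsurj (transcendental_genericFun_jInt A π N)
    (transcendental_specialFun_jInt A π N) hd.pos hd.finrank_generic hd.finrank_special
  have hred : (gaussReduction hres hunit hπ hd).red
      ⟨genericFun A π N (jInt A π N), genericFun_mem_gaussRing A π N _⟩ =
      specialFun A π N (jInt A π N) := gaussRed_genericFun A π N _
  have h0 : specialFun A π N (jInt A π N) ≠ 0 := fun h => by
    have := order_specialFun_jInt (A := A) (π := π) (N := N)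
    simp [h] at this
  have h := ord_sign_of_degree hF hB hr
    ⟨genericFun A π N (jInt A π N), genericFun_mem_gaussRing A π N _⟩ (hred.trans_ne h0)
    (u := fun i => specialFun A π N (m i)) (by rw [hred]; exact hpi) (Fintype.card_fin M)
    (fun v hv => by
      haveI : FiniteDimensional
          (IntermediateField.adjoin L {genericFun A π N (jInt A π N)})
          (laurentBaseChange L (modularFunctionFieldFull N)) :=
        Module.finite_of_finrank_pos (by rw [hd.finrank_generic]; exact hd.pos)
      have h' := (linearIndependent_adjoin_of_polyIndependent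
        (transcendental_genericFun_jInt A π N) hv).fintype_card_le_finrank
      rw [hd.finrank_generic, Fintype.card_fin] at h'
      omega) P
  rwa [hred] at h

include hd in
theorem regularOver_tGauss (hF : RRField L (laurentBaseChange L (modularFunctionFieldFull N)) g)
    (hB : RRField k (modularFunctionFieldFullC k N) g)
    {r : Place L (laurentBaseChange L (modularFunctionFieldFull N)) →
      Place k (modularFunctionFieldFullC k N)}
    (hr : (gaussReduction hres hunit hπ hd).IsReduction r) :
    RegularOver r (r (cuspInf L N)) (genericFun A π N tInt) := by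
  intro P hP
  right
  rw [genericFun_tInt, P.ord_inv]
  by_contra hlt
  push Not at hlt
  have h1 := (ord_sign_jInt hres hunit hπ hd hF hB hr P).2 (by omega)
  have h2 := (ord_sign_jInt hres hunit hπ hd hF hB hr (cuspInf L N)).1 (by
    rw [isOrderPlace_cuspInf, order_genericFun_jInt]; omega)
  rw [hP] at h1
  omega

/-- `j (q ^ d)` as an integral series. -/
def jdInt (d : ℕ) [NeZero d] (hd' : d ∣ N) : integralSeries A π N :=
  ⟨qExpand A d (jqModC A), qExpand_jqModC_mem A π N hd'⟩

theorem exists_shifted_jdInt [NeZero N]
    (hpoly : ∀ (d : ℕ) [NeZero d], d ∣ N → Nonempty (ModularPolynomialData d))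
    {d : ℕ} [NeZero d] (hd' : d ∣ N) :
    ∃ D : ℕ, d ≤ D ∧ ∀ P : Place L (laurentBaseChange L (modularFunctionFieldFull N)),
      0 ≤ P.ord (genericFun A π N (tInt (N := N))) →
        genericFun A π N (jdInt d hd') = 0 ∨
          0 ≤ P.ord (genericFun A π N (jdInt d hd' * tInt ^ D)) := by
  classical
  obtain ⟨data⟩ := hpoly d hd'
  set x := genericFun A π N (jInt A π N) with hx
  set z := genericFun A π N (jdInt (π := π) d hd') with hz
  set φ : Polynomial ℤ →+* laurentBaseChange L (modularFunctionFieldFull N) :=
    Polynomial.eval₂RingHom (Int.castRingHom _) x with hφ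
  have hcomp : (algebraMap (laurentBaseChange L (modularFunctionFieldFull N)) (LaurentSeries L)).comp φ = (coeffEmb L).comp evalAtJ := by
    refine Polynomial.ringHom_ext' (Subsingleton.elim _ _) ?_
    show ((φ Polynomial.X : laurentBaseChange L (modularFunctionFieldFull N)) : LaurentSeries L) = coeffEmb L (evalAtJ Polynomial.X)
    rw [evalAtJ_X, hφ, Polynomial.coe_eval₂RingHom, Polynomial.eval₂_X, hx, coe_genericFun_jInt,
      coeffEmb, ← jqModC_rat, coeffMap_jqModC]
  have hroot : data.Φ.eval₂ φ z = 0 := by
    apply Subtype.val_injective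
    show algebraMap (laurentBaseChange L (modularFunctionFieldFull N)) (LaurentSeries L) (data.Φ.eval₂ φ z) = 0
    rw [Polynomial.hom_eval₂, hcomp]
    have : algebraMap (laurentBaseChange L (modularFunctionFieldFull N)) (LaurentSeries L) z = coeffEmb L (jqN d) := by
      show (z : LaurentSeries L) = _
      rw [hz, coe_genericFun, jqN, coeffEmb_qExpand_jq]
      show coeffMap A.subtype (qExpand A d (jqModC A)) = _
      rw [coeffMap_qExpand, coeffMap_jqModC]
    rw [this, ← Polynomial.hom_eval₂, data.eval_eq_zero, map_zero]
  set n := data.Φ.natDegree with hn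
  set D₀ := (Finset.range n).sup (fun i => (data.Φ.coeff i).natDegree) with hD₀
  refine ⟨max D₀ d, le_max_right _ _, fun P hP => ?_⟩
  set c : ℕ → Polynomial L := fun i => (data.Φ.coeff i).map (Int.castRingHom L) with hc
  have hφc : ∀ i, φ (data.Φ.coeff i) = Polynomial.aeval x (c i) := by
    intro i
    rw [hφ, Polynomial.coe_eval₂RingHom, hc, Polynomial.aeval_def, Polynomial.eval₂_map]
    congr 1
    exact Subsingleton.elim _ _
  have hsum : z ^ n + ∑ i ∈ Finset.range n, Polynomial.aeval x (c i) * z ^ i = 0 := by
    rw [← hroot, Polynomial.eval₂_eq_sum_range, ← hn, Finset.sum_range_succ,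
      show data.Φ.coeff n = 1 from data.monic.coeff_natDegree, map_one, one_mul, add_comm]
    congr 1
    exact Finset.sum_congr rfl fun i _ => by rw [hφc]
  have hdeg : ∀ i < n, (c i).natDegree ≤ max D₀ d := fun i hi =>
    Polynomial.natDegree_map_le.trans ((Finset.le_sup (f := fun i => (data.Φ.coeff i).natDegree)
      (Finset.mem_range.mpr hi)).trans (le_max_left _ _))
  rcases ord_ge_of_integral P n (max D₀ d) c hdeg hsum with h0 | h0
  · exact Or.inl h0
  rcases eq_or_ne z 0 with hz0 | hz0
  · exact Or.inl hz0
  right
  have ht : genericFun A π N (tInt (N := N)) = x⁻¹ := genericFun_tInt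
  rw [ht, P.ord_inv] at hP
  have hx0 : x ≠ 0 := fun h => by
    have := order_genericFun_jInt (A := A) (π := π) (N := N)
    rw [← hx, h] at this
    simp at this
  rw [map_mul, map_pow, ht, ← hz, P.ord_mul hz0 (pow_ne_zero _ (inv_ne_zero hx0)), ord_pow,
    P.ord_inv]
  rw [min_eq_left (by omega)] at h0
  linarith

/-- Integral power series regular over `Q`. -/
def regularSeries (r : Place L (laurentBaseChange L (modularFunctionFieldFull N)) →
      Place k (modularFunctionFieldFullC k N)) (Q : Place k (modularFunctionFieldFullC k N)) :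
    Subring (integralSeries A π N) where
  carrier := {y | (∀ i : ℤ, i < 0 → ((y : LaurentSeries A)).coeff i = 0) ∧
    RegularOver r Q (genericFun A π N y)}
  one_mem' := ⟨fun i hi => by
      show (1 : LaurentSeries A).coeff i = 0
      rw [HahnSeries.coeff_one, if_neg hi.ne],
    fun P _ => Or.inr (by simp)⟩
  zero_mem' := ⟨fun i _ => rfl, fun P _ => Or.inl (map_zero _)⟩
  add_mem' {y z} hy hz := ⟨fun i hi => by
      show ((y : LaurentSeries A) + z).coeff i = 0
      rw [HahnSeries.coeff_add, hy.1 i hi, hz.1 i hi, add_zero],
    by rw [map_add]; exact hy.2.add hz.2⟩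
  neg_mem' {y} hy := ⟨fun i hi => by
      show (-(y : LaurentSeries A)).coeff i = 0
      rw [HahnSeries.coeff_neg, hy.1 i hi, neg_zero],
    by rw [map_neg]; exact hy.2.neg⟩
  mul_mem' {y z} hy hz := ⟨fun i hi => by
      show ((y : LaurentSeries A) * z).coeff i = 0
      rw [HahnSeries.coeff_mul]
      refine Finset.sum_eq_zero fun ij hij => ?_
      obtain ⟨-, -, h3⟩ := Finset.mem_antidiagonal.mp hij
      rcases lt_or_ge ij.1 0 with h | h
      · rw [hy.1 _ h, zero_mul]
      · rw [hz.1 ij.2 (by omega), mul_zero],
    by rw [map_mul]; exact hy.2.mul hz.2⟩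

/-- Ratios of elements of a subring, closed up to a subfield. -/
theorem exists_ratio_of_mem_adjoin {S E : Type*} [CommRing S] [Field E] {K : Type*} [Field K]
    [Algebra K E] (sf : S →+* E) (G : Subring S)
    (hconst : ∀ c : K, ∃ y ∈ G, sf y = algebraMap K E c) {X : Set E}
    (hX : ∀ x ∈ X, ∃ y z, y ∈ G ∧ z ∈ G ∧ sf z ≠ 0 ∧ x = sf y / sf z) {x : E}
    (hx : x ∈ IntermediateField.adjoin K X) :
    ∃ y z, y ∈ G ∧ z ∈ G ∧ sf z ≠ 0 ∧ x = sf y / sf z := by
  induction hx using IntermediateField.adjoin_induction with
  | mem x hx => exact hX x hx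
  | algebraMap c =>
    obtain ⟨y, hy, hyc⟩ := hconst c
    exact ⟨y, 1, hy, G.one_mem, by simp, by rw [hyc, map_one, div_one]⟩
  | add x x' _ _ h h' =>
    obtain ⟨y, z, hy, hz, hz0, rfl⟩ := h
    obtain ⟨y', z', hy', hz', hz0', rfl⟩ := h'
    exact ⟨y * z' + z * y', z * z', G.add_mem (G.mul_mem hy hz') (G.mul_mem hz hy'),
      G.mul_mem hz hz', by rw [map_mul]; exact mul_ne_zero hz0 hz0',
      by rw [map_add, map_mul, map_mul, map_mul, div_add_div _ _ hz0 hz0']⟩
  | inv x _ h =>
    obtain ⟨y, z, hy, hz, hz0, rfl⟩ := h
    rcases eq_or_ne (sf y) 0 with h0 | h0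
    · exact ⟨y, z, hy, hz, hz0, by simp [h0]⟩
    · exact ⟨z, y, hz, hy, h0, by rw [inv_div]⟩
  | mul x x' _ _ h h' =>
    obtain ⟨y, z, hy, hz, hz0, rfl⟩ := h
    obtain ⟨y', z', hy', hz', hz0', rfl⟩ := h'
    exact ⟨y * y', z * z', G.mul_mem hy hy', G.mul_mem hz hz',
      by rw [map_mul]; exact mul_ne_zero hz0 hz0', by rw [map_mul, map_mul, div_mul_div_comm]⟩

theorem coeff_eq_zero_of_order_genericFun {y : integralSeries A π N}
    (h : 0 ≤ (genericFun A π N y : LaurentSeries L).order) {i : ℤ} (hi : i < 0) :
    (y : LaurentSeries A).coeff i = 0 :=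
  Subtype.ext ((coeffMap_coeff A.subtype (y : LaurentSeries A) i).symm.trans
    (HahnSeries.coeff_eq_zero_of_lt_order (lt_of_lt_of_le hi h)))

include hπ in
theorem exists_regular_ratio [NeZero N]
    (hpoly : ∀ (d : ℕ) [NeZero d], d ∣ N → Nonempty (ModularPolynomialData d))
    {r : Place L (laurentBaseChange L (modularFunctionFieldFull N)) →
      Place k (modularFunctionFieldFullC k N)} {Q : Place k (modularFunctionFieldFullC k N)}
    (ht : RegularOver r Q (genericFun A π N tInt)) (x : modularFunctionFieldFullC k N) :
    ∃ y z, y ∈ regularSeries r Q ∧ z ∈ regularSeries r Q ∧ specialFun A π N z ≠ 0 ∧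
      x = specialFun A π N y / specialFun A π N z := by
  have ht0 : specialFun A π N (tInt (A := A) (π := π) (N := N)) ≠ 0 := fun h => by
    have := order_specialFun_tInt (A := A) (π := π) (N := N)
    simp [h] at this
  have htg : genericFun A π N (tInt (A := A) (π := π) (N := N)) ≠ 0 := fun h => by
    have := order_genericFun_tInt (A := A) (π := π) (N := N)
    simp [h] at this
  have htmem : (tInt : integralSeries A π N) ∈ regularSeries r Q :=
    ⟨fun i hi => coeff_eq_zero_of_order_genericFun (by rw [order_genericFun_tInt]; omega) hi, ht⟩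
  obtain ⟨y, z, hy, hz, hz0, hyz⟩ := exists_ratio_of_mem_adjoin
    ((modularFunctionFieldFullC k N).val.toRingHom.comp (specialFun A π N)) (regularSeries r Q)
    (X := divisorExpansionsC k N) (fun c => by
      obtain ⟨a, rfl⟩ := hπ c
      refine ⟨⟨HahnSeries.single 0 a, single_zero_mem A π N a⟩, ⟨fun i hi => ?_, ?_⟩, ?_⟩
      · exact HahnSeries.coeff_single_of_ne hi.ne
      · rw [← algebraMap_eq_genericFun]; exact RegularOver.const _
      · show ((specialFun A π N _ : modularFunctionFieldFullC k N) : LaurentSeries k) = _
        rw [specialFun_single]; rfl)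
    (fun w hw => by
      obtain ⟨d, hne, hd', rfl⟩ := hw
      obtain ⟨D, hdD, hD⟩ := exists_shifted_jdInt (A := A) (π := π) hpoly hd'
      refine ⟨jdInt d hd' * tInt ^ D, tInt ^ D,
        ⟨fun i hi => coeff_eq_zero_of_order_genericFun ?_ hi, ?_⟩,
        Subring.pow_mem _ htmem D, ?_, ?_⟩
      · have hjd : (genericFun A π N (jdInt (π := π) d hd') : LaurentSeries L) =
            qExpand L d (jqModC L) := by
          show coeffMap A.subtype (qExpand A d (jqModC A)) = _
          rw [coeffMap_qExpand, coeffMap_jqModC]
        have hjd0 : qExpand L d (jqModC L) ≠ 0 := fun h =>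
          jqModC_ne_zero_of_nontrivial L (qExpand_injective d (h.trans (map_zero _).symm))
        rw [map_mul, map_pow, IntermediateField.coe_mul, IntermediateField.coe_pow, hjd,
          HahnSeries.order_mul hjd0 (pow_ne_zero D (coe_ne_zero_of_ne_zero _ htg)),
          HahnSeries.order_pow, order_qExpand, order_jqModC, order_genericFun_tInt]
        have : (d : ℤ) ≤ D := by exact_mod_cast hdD
        simp
        omega
      · intro P hP
        rcases hD P ((ht P hP).resolve_left htg) with h' | h'
        · exact Or.inl (by rw [map_mul, h', zero_mul])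
        · exact Or.inr h'
      · rw [map_pow]; exact pow_ne_zero D fun h => ht0 (Subtype.ext h)
      · rw [map_mul, map_pow, mul_div_assoc]
        show qExpand k d (jqModC k) = coeffMap π (qExpand A d (jqModC A)) *
          (((specialFun A π N tInt : modularFunctionFieldFullC k N) : LaurentSeries k) ^ D /
            ((specialFun A π N tInt : modularFunctionFieldFullC k N) : LaurentSeries k) ^ D)
        rw [div_self (pow_ne_zero D fun h => ht0 (Subtype.ext h)), mul_one, coeffMap_qExpand,
          coeffMap_jqModC])
    x.2
  exact ⟨y, z, hy, hz, fun h => hz0 (congrArg Subtype.val h), Subtype.ext hyz⟩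

include hd in
/-- The cusp at infinity reduces to the cusp at infinity. -/
theorem map_cuspInf [NeZero N]
    (hpoly : ∀ (d : ℕ) [NeZero d], d ∣ N → Nonempty (ModularPolynomialData d))
    (hF : RRField L (laurentBaseChange L (modularFunctionFieldFull N)) g)
    (hB : RRField k (modularFunctionFieldFullC k N) g)
    {r : Place L (laurentBaseChange L (modularFunctionFieldFull N)) →
      Place k (modularFunctionFieldFullC k N)}
    (hr : (gaussReduction hres hunit hπ hd).IsReduction r) :
    r (cuspInf L N) = cuspInfRed k N := by
  have hS := seriesPoint_gauss hres hunit hπ hd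
  have ht := regularOver_tGauss hres hunit hπ hd hF hB hr
  have hQord := hS.ord_eq_of_generated hF hr ht fun x hx => by
    obtain ⟨y, z, hy, hz, hz0, rfl⟩ := exists_regular_ratio hπ hpoly ht x
    have hy0 : specialFun A π N y ≠ 0 := fun h => hx (by rw [h, zero_div])
    refine ⟨⟨genericFun A π N y, genericFun_mem_gaussRing A π N y⟩,
      ⟨genericFun A π N z, genericFun_mem_gaussRing A π N z⟩,
      (gaussRed_genericFun A π N y).trans_ne hy0, (gaussRed_genericFun A π N z).trans_ne hz0,
      (congrArg₂ (· / ·) (gaussRed_genericFun A π N y) (gaussRed_genericFun A π N z)).symm, ?_⟩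
    intro w hw
    have hser : ∀ u ∈ regularSeries r (r (cuspInf L N)),
        (∃ w', (genericFun A π N u : LaurentSeries L) = latVal A w') ∧
        (∀ i : ℤ, i < 0 → (genericFun A π N u : LaurentSeries L).coeff i = 0) ∧
        RegularOver r (r (cuspInf L N)) (genericFun A π N u) := fun u hu =>
      ⟨⟨_, rfl⟩, fun i hi => by rw [coe_genericFun, coeffMap_coeff, hu.1 i hi, map_zero], hu.2⟩
    rcases hw with rfl | rfl
    · exact hser y hy
    · exact hser z hz
  exact IsOrderPlace.unique (fun x => (hQord x).trans (isOrderPlace_cuspInfRed x))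
    isOrderPlace_cuspInfRed

include hres hunit hπ hd in
/-- The lattices at the cusp at infinity. -/
theorem smoothLattice_of_inputs [NeZero N] [Infinite k]
    (hpoly : ∀ (d : ℕ) [NeZero d], d ∣ N → Nonempty (ModularPolynomialData d))
    (hF : RRField L (laurentBaseChange L (modularFunctionFieldFull N)) g)
    (hB : RRField k (modularFunctionFieldFullC k N) g) :
    SmoothLattice π (laurentBaseChange L (modularFunctionFieldFull N))
      (modularFunctionFieldFullC k N) (cuspInf L N) (cuspInfRed k N) (2 * g) := by
  set R := gaussReduction hres hunit hπ hd with hR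
  obtain ⟨r, hr⟩ := R.exists_isReduction hF hB
  have hcusp := map_cuspInf hres hunit hπ hd hpoly hF hB hr
  have hS := seriesPoint_gauss hres hunit hπ hd
  have ht := regularOver_tGauss hres hunit hπ hd hF hB hr
  rw [hcusp] at ht
  have hser : ∀ (n : ℕ) (f : R.ring),
      (f : laurentBaseChange L (modularFunctionFieldFull N)) ∈ poleSpace (cuspInf L N) n →
      ∃ y, latVal A y = ((f : laurentBaseChange L (modularFunctionFieldFull N)) : LaurentSeries L) ∧
        latRed π y = ((R.red f : modularFunctionFieldFullC k N) : LaurentSeries k) := by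
    intro n f hf
    obtain ⟨y, hy⟩ := hS.exists_series hF hr hcusp ht f fun P hP hne => by
      refine ((mem_riemannRochSpace_iff.mp hf) P).imp id fun h => ?_
      rw [Finsupp.single_eq_of_ne hne, neg_zero] at h
      exact h
    exact ⟨y, hy.symm, (hS.compat f y hy).symm⟩
  refine ⟨hπ, isOrderPlace_cuspInf, isOrderPlace_cuspInfRed, ?_, ?_, ?_⟩
  · intro n x hx hx0
    obtain ⟨c, h, hc, hh, hred⟩ := R.exists_smul_red_ne_zero hx0
    obtain ⟨y, hy, hy'⟩ := hser n h (by rw [hh]; exact Submodule.smul_mem _ c hx)
    refine ⟨c, y, ?_, ?_, ?_⟩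
    · rw [hy, hh]; rw [Algebra.smul_def, IntermediateField.coe_mul, laurent_smul_eq,
        ← algebraMap_laurentSeries_eq_single]; rfl
    · rw [hy']; exact fun h0 => hred (Subtype.ext h0)
    · rw [hy']; exact SetLike.coe_mem _
  · intro n hn h hh
    have heq := ConstantReduction.IsReduction.redSpace_eq R hF hB hr
      (D := Finsupp.single (cuspInf L N) (n : ℤ)) (by
        rw [Divisor.degree_single, hF.deg_one]; push_cast; omega)
    rw [Finsupp.mapDomain_single, hcusp] at heq
    obtain ⟨f, hf, hfred⟩ := R.mem_redSpace.mp (heq.ge hh)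
    obtain ⟨y, hy, hy'⟩ := hser n f hf
    exact ⟨f, y, hf, hy, by rw [hy', hfred]⟩
  · intro n hn
    obtain ⟨h, hh, hh0, hord⟩ := hB.exists_ord_eq
      (D := Finsupp.single (cuspInfRed k N) (n : ℤ)) (by
        rw [Divisor.degree_single, hB.deg_one]; push_cast; omega) (cuspInfRed k N)
    refine ⟨h, hh, ?_⟩
    rw [Finsupp.single_eq_same, isOrderPlace_cuspInfRed] at hord
    rw [← hord]
    exact coeff_order_ne_zero' fun e => hh0 (Subtype.ext e)

end FermatLib.Igusa
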