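import Mathlib
import Fermat.Agent.Igusa.CuspLattice

/-!
The lattices at the cusp at infinity for reduction modulo a place of `ℚ̄`.
-/

set_option autoImplicit false
set_option synthInstance.maxHeartbeats 400000

noncomputable section

open AlgebraicCurve ModularCurve

namespace FermatLib.Igusa

/-- `SmoothLattice` modulo `ℓ` from preservation of degree and genus. -/
theorem exists_smoothLattice_of_degree_of_genus (A : ValuationSubring (AlgebraicClosure ℚ))
    {N M g : ℕ} [NeZero N]
    (hpoly : ∀ (d : ℕ) [NeZero d], d ∣ N → Nonempty (ModularPolynomialData d))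
    (hd : DegreeInput A (IsLocalRing.residue A) N M)
    (hF : RRField (AlgebraicClosure ℚ) (modularFunctionFieldBar N) g)
    (hB : RRField (IsLocalRing.ResidueField A)
      (modularFunctionFieldFullC (IsLocalRing.ResidueField A) N) g) :
    ∃ (Pinf : Place (AlgebraicClosure ℚ) (modularFunctionFieldBar N))
      (Qinf : Place (IsLocalRing.ResidueField A)
        (modularFunctionFieldFullC (IsLocalRing.ResidueField A) N)) (n₀ : ℕ),
      SmoothLattice (IsLocalRing.residue A) (modularFunctionFieldBar N)
        (modularFunctionFieldFullC (IsLocalRing.ResidueField A) N) Pinf Qinf n₀ :=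
  haveI := infinite_residueField A
  ⟨_, _, _, smoothLattice_of_inputs (residue_eq_zero_of_not_isUnit A)
    (isUnit_of_residue_ne_zero A) IsLocalRing.residue_surjective hd hpoly hF hB⟩

end FermatLib.Igusa
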