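import Fermat.Agent.Curve.RiemannRoch
import Fermat.Agent.Curve.PlaceExtras
import Fermat.Agent.Curve.PlaceConstruction
import Mathlib.RingTheory.LaurentSeries

/-!
Riemann-Roch spaces of multiples of a polar divisor, described by integrality, and transfer of
integrality between a field of Laurent series and the ambient field.
-/

set_option autoImplicit false
set_option synthInstance.maxHeartbeats 400000

noncomputable section

open AlgebraicCurve

namespace FermatLib.Igusa

variable {K F : Type*} [Field K] [Field F] [Algebra K F] [Curve.IsFunctionField K F]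

/-- A function regular wherever `x` is regular is integral over `K[x]`. -/
theorem isIntegral_adjoin_of_forall_pole (x : F) {f : F}
    (hf : ∀ v : Place K F, v.ord f < 0 → v.ord x < 0) :
    IsIntegral (Algebra.adjoin K {x}) f := by
  have hmem : f ∈ (integralClosure
      (Subring.closure (SetLike.coe (Algebra.adjoin K ({x} : Set F)))) F).toSubring := by
    rw [← iInf_valuationSubring_superset, Subring.mem_iInf]
    rintro ⟨W, hW⟩
    rcases eq_or_ne W ⊤ with rfl | hne
    · exact trivial
    rcases eq_or_ne f 0 with rfl | hf0
    · exact zero_mem _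
    have hxW : x ∈ W := hW (Algebra.self_mem_adjoin_singleton K x)
    let v := Curve.placeOfValuationSubring W (fun a => hW (Subalgebra.algebraMap_mem _ a)) hne
    show f ∈ v.toValuationSubring
    rw [Curve.mem_iff_ord_nonneg v hf0]
    by_contra hneg
    have hv := hf v (not_le.mp hneg)
    have := Curve.ord_nonneg_of_mem_place v (show x ∈ v.toValuationSubring from hxW)
    omega
  obtain ⟨p, hp, hpf⟩ := hmem
  have hcl : Subring.closure (SetLike.coe (Algebra.adjoin K ({x} : Set F))) ≤
      (Algebra.adjoin K {x}).toSubring := Subring.closure_le.mpr fun _ h => h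
  exact ⟨p.map (Subring.inclusion hcl), hp.map _, by rw [Polynomial.eval₂_map]; exact hpf⟩

omit [Curve.IsFunctionField K F] in
/-- An element integral over `K[x]` lies in every place containing `x`. -/
theorem mem_place_of_isIntegral_adjoin {x f : F} (v : Place K F)
    (hx : x ∈ v.toValuationSubring) (hf : IsIntegral (Algebra.adjoin K {x}) f) :
    f ∈ v.toValuationSubring := by
  refine Curve.mem_of_isIntegral v (fun r => ?_) hf
  show (r : F) ∈ _
  obtain ⟨r, hr⟩ := r
  induction hr using Algebra.adjoin_induction with
  | mem z hz => rw [Set.mem_singleton_iff] at hz; exact hz ▸ hx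
  | algebraMap c => exact v.algebraMap_mem' c
  | add a b _ _ ha hb => exact add_mem ha hb
  | mul a b _ _ ha hb => exact mul_mem ha hb

/-- `L(n (x)_∞)` consists of the `f` with `f` integral over `K[x]` and `f / x ^ n` over `K[1/x]`. -/
theorem mem_riemannRochSpace_polar_iff {x : F} (hx : x ≠ 0) (n : ℕ) (f : F) :
    f ∈ riemannRochSpace ((n : ℤ) • Curve.polarDivisor K x) ↔
      IsIntegral (Algebra.adjoin K {x}) f ∧
        IsIntegral (Algebra.adjoin K {x⁻¹}) (f / x ^ n) := by
  rcases eq_or_ne f 0 with rfl | hf
  · simp only [zero_mem, zero_div, true_iff]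
    exact ⟨isIntegral_zero, isIntegral_zero⟩
  have hdiv : ∀ v : Place K F, v.ord (f / x ^ n) = v.ord f - n * v.ord x := fun v => by
    rw [div_eq_mul_inv, v.ord_mul hf (inv_ne_zero (pow_ne_zero _ hx)), v.ord_inv, Curve.ord_pow]
    ring
  simp only [mem_riemannRochSpace_iff, or_iff_right hf, Finsupp.smul_apply,
    Curve.polarDivisor_apply, smul_eq_mul]
  constructor
  · intro h
    refine ⟨isIntegral_adjoin_of_forall_pole x fun v hv => ?_,
      isIntegral_adjoin_of_forall_pole x⁻¹ fun v hv => ?_⟩
    · by_contra hc
      have := h v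
      rw [max_eq_right (by omega), mul_zero] at this
      omega
    · rw [v.ord_inv]
      rw [hdiv] at hv
      by_contra hc
      have := h v
      rw [max_eq_left (by omega)] at this
      linarith
  · rintro ⟨h1, h2⟩ v
    rcases le_or_gt 0 (v.ord x) with hv | hv
    · rw [max_eq_right (by omega), mul_zero, neg_zero]
      exact Curve.ord_nonneg_of_mem_place v (mem_place_of_isIntegral_adjoin v
        ((Curve.mem_iff_ord_nonneg v hx).mpr hv) h1)
    · rw [max_eq_left (by omega)]
      have := Curve.ord_nonneg_of_mem_place v (mem_place_of_isIntegral_adjoin v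
        ((Curve.mem_iff_ord_nonneg v (inv_ne_zero hx)).mpr (by rw [v.ord_inv]; omega)) h2)
      rw [hdiv] at this
      linarith

omit [Curve.IsFunctionField K F] in
/-- Integrality over `K[x]` may be tested in an extension. -/
theorem isIntegral_adjoin_map_iff {E : Type*} [Field E] [Algebra K E] (φ : F →ₐ[K] E) {x f : F}
    {u w : E} (hu : φ x = u) (hw : φ f = w) :
    IsIntegral (Algebra.adjoin K {u}) w ↔ IsIntegral (Algebra.adjoin K {x}) f := by
  subst hu hw
  have hmap : (Algebra.adjoin K {x}).map φ = Algebra.adjoin K {φ x} := by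
    rw [AlgHom.map_adjoin, Set.image_singleton]
  let e := ((Algebra.adjoin K {x}).equivMapOfInjective φ φ.toRingHom.injective).trans
    (Subalgebra.equivOfEq _ _ hmap)
  constructor
  · rintro ⟨p, hp, hpf⟩
    refine ⟨p.map e.symm.toAlgHom.toRingHom, hp.map _, φ.toRingHom.injective ?_⟩
    rw [map_zero, Polynomial.eval₂_map, Polynomial.hom_eval₂]
    refine Eq.trans ?_ hpf
    congr 1
    ext r
    exact congrArg Subtype.val (e.apply_symm_apply r)
  · intro h
    exact h.map_of_comp_eq e.toAlgHom.toRingHom φ.toRingHom (RingHom.ext fun r => rfl)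

end FermatLib.Igusa
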