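import Fermat.Agent.Igusa.DegreeNorm
import Fermat.Agent.Modular.CoeffDescent
import Fermat.Prelude.Def_ModularCurve_X0ModL
import Mathlib.RingTheory.Valuation.LocalSubring
import Mathlib.Algebra.CharP.Algebra

/-!
# The reduced modular equation over prime fields
-/

set_option autoImplicit false

noncomputable section

open Function ModularCurve CongruenceSubgroup Polynomial
open scoped MatrixGroups

namespace FermatLib.Igusa

/-- A place of `ℂ` above `ℓ`, with `N`-th roots of unity and `N` invertible. -/
theorem exists_levelPlace (N ℓ : ℕ) [NeZero N] [Fact ℓ.Prime] (h : ¬ ℓ ∣ N) :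
    ∃ A : ValuationSubring ℂ, HasLevelZeta A.subtype N ∧ IsUnit (N : A) ∧
      CharP (IsLocalRing.ResidueField A) ℓ := by
  have hℓ : ℓ.Prime := Fact.out
  set e := (Int.castRingHom ℂ).rangeRestrict with he
  have hes : Surjective e := RingHom.rangeRestrict_surjective _
  set I : Ideal (Int.castRingHom ℂ).range := Ideal.span {e (ℓ : ℤ)} with hI
  have hne : I ≠ ⊤ := by
    rw [hI, Ne, Ideal.span_singleton_eq_top]
    intro hu
    obtain ⟨b, hb⟩ := isUnit_iff_exists_inv.mp hu
    obtain ⟨a, rfl⟩ := hes b
    have h1 : ((ℓ * a : ℤ) : ℂ) = 1 := by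
      simpa [he] using congrArg Subtype.val hb
    have h2 : (ℓ : ℤ) * a = 1 := by exact_mod_cast h1
    have := Int.natCast_dvd_natCast.mp (show (ℓ : ℤ) ∣ (1 : ℕ) from ⟨a, by rw [h2, Nat.cast_one]⟩)
    exact hℓ.ne_one (Nat.dvd_one.mp this)
  obtain ⟨A, -, hA⟩ := Ideal.image_subset_nonunits_valuationSubring I hne
  have hmem : ((ℓ : ℂ)) ∈ A.nonunits :=
    hA ⟨e (ℓ : ℤ), Ideal.mem_span_singleton_self _, by simp [he]⟩
  haveI hchar : CharP (IsLocalRing.ResidueField A) ℓ := by
    refine (CharP.charP_iff_prime_eq_zero hℓ).mpr ?_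
    rw [← map_natCast (IsLocalRing.residue A), IsLocalRing.residue_eq_zero_iff,
      IsLocalRing.mem_maximalIdeal]
    exact ValuationSubring.coe_mem_nonunits_iff.mp (by simpa using hmem)
  refine ⟨A, ⟨A.toSubring.subtype_injective, ⟨⟨zetaU N, ?_⟩, rfl⟩⟩, ?_, hchar⟩
  · rw [← A.valuation_le_one_iff]
    have h1 : A.valuation (zetaU N) ^ N = 1 := by
      rw [← map_pow, (isPrimitiveRoot_zetaU N).pow_eq_one, map_one]
    exact (pow_le_one_iff (NeZero.ne N)).mp h1.le
  · refine IsLocalRing.notMem_maximalIdeal.mp fun hm => ?_
    have h0 : ((N : ℕ) : IsLocalRing.ResidueField A) = 0 := by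
      rw [← map_natCast (IsLocalRing.residue A), IsLocalRing.residue_eq_zero_iff]; exact hm
    exact h ((CharP.cast_eq_zero_iff _ ℓ N).mp h0)

section Monomials

theorem laurent_smul_eq_algebraMap {k : Type*} [Field k] (c : k) (x : LaurentSeries k) :
    c • x = algebraMap k (LaurentSeries k) c * x := by
  ext i
  rw [algebraMap_laurentSeries_eq_single, HahnSeries.coeff_single_mul, sub_zero,
    HahnSeries.coeff_smul, smul_eq_mul]

variable (k : Type*) [Field k] (N : ℕ) [NeZero N]

/-- The monomial `j ^ i * (j_N) ^ m`, `m < ψ(N)`. -/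
def jMonomial (x : ℕ × Fin (dedekindPsi N)) : LaurentSeries k :=
  jqModC k ^ x.1 * jqNModC k N ^ (x.2 : ℕ)

/-- The three facts about the modular equation over `k`. -/
structure DegreeFacts : Prop where
  indep : LinearIndependent k (jMonomial k N)
  dep : jqNModC k N ^ dedekindPsi N ∈ Submodule.span k (Set.range (jMonomial k N))
  gen : ∀ (d : ℕ) (_ : NeZero d), d ∣ N → qExpand k d (jqModC k) ∈ modularFunctionFieldC k N

variable {k N}

theorem coeffMap_jMonomial {L : Type*} [Field L] (f : k →+* L) (x : ℕ × Fin (dedekindPsi N)) :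
    coeffMap f (jMonomial k N x) = jMonomial L N x := by
  rw [jMonomial, jMonomial, map_mul, map_pow, map_pow, coeffMap_jqModC', coeffMap_jqNModC]

theorem mem_span_of_coeffMap_mem_span {L : Type*} [Field L] [Algebra k L] {ι : Type*}
    (v : ι → LaurentSeries k) {x : LaurentSeries k}
    (hx : coeffMap (algebraMap k L) x ∈
      Submodule.span L (Set.range fun i => coeffMap (algebraMap k L) (v i))) :
    x ∈ Submodule.span k (Set.range v) := by
  obtain ⟨π, hπ⟩ : ∃ π : L →ₗ[k] k, π 1 = 1 := by
    obtain ⟨g, hg⟩ := LinearMap.exists_leftInverse_of_injective (Algebra.linearMap k L)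
      (LinearMap.ker_eq_bot.mpr (algebraMap k L).injective)
    exact ⟨g, by simpa using congrArg (fun f : k →ₗ[k] k => f 1) hg⟩
  obtain ⟨c, hc⟩ := (Finsupp.mem_span_range_iff_exists_finsupp).mp hx
  refine (Finsupp.mem_span_range_iff_exists_finsupp).mpr ⟨c.mapRange π (map_zero π), ?_⟩
  rw [Finsupp.sum_mapRange_index (by simp)]
  ext i
  have h := congrArg (fun z : LaurentSeries L => π (z.coeff i)) hc
  simp only [Finsupp.sum, HahnSeries.coeff_sum, map_sum, coeffMap_coeff] at h
  rw [show π (algebraMap k L (x.coeff i)) = x.coeff i by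
    rw [Algebra.algebraMap_eq_smul_one, map_smul, hπ, smul_eq_mul, mul_one]] at h
  rw [Finsupp.sum, HahnSeries.coeff_sum, ← h]
  refine Finset.sum_congr rfl fun j _ => ?_
  rw [laurent_smul_eq_algebraMap, laurent_smul_eq_algebraMap, algebraMap_laurentSeries_eq_single,
    algebraMap_laurentSeries_eq_single, HahnSeries.coeff_single_mul, HahnSeries.coeff_single_mul,
    sub_zero, coeffMap_coeff, mul_comm (c j), ← Algebra.smul_def, map_smul, smul_eq_mul, mul_comm]

/-- The facts descend along field extensions. -/
theorem DegreeFacts.descend {L : Type*} [Field L] [Algebra k L] (h : DegreeFacts L N) :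
    DegreeFacts k N where
  indep := by
    rw [linearIndependent_iff']
    intro s g hg i hi
    refine (algebraMap k L).injective ?_
    rw [map_zero]
    refine linearIndependent_iff'.mp h.indep s (fun i => algebraMap k L (g i)) ?_ i hi
    have h1 := congrArg (coeffMap (algebraMap k L)) hg
    rw [map_sum, map_zero] at h1
    rw [← h1]
    refine Finset.sum_congr rfl fun j _ => ?_
    rw [laurent_smul_eq_algebraMap, laurent_smul_eq_algebraMap, map_mul, coeffMap_jMonomial,
      algebraMap_laurentSeries_eq_single, algebraMap_laurentSeries_eq_single, coeffMap_single]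
  dep := by
    refine mem_span_of_coeffMap_mem_span (L := L) _ ?_
    simp only [map_pow, coeffMap_jqNModC, coeffMap_jMonomial]
    exact h.dep
  gen d hne hd := by
    refine Modular.mem_of_coeffMap_mem_adjoin (L := L) ?_
    rw [coeffMap_qExpand, coeffMap_jqModC']
    have hle : modularFunctionFieldC L N ≤ IntermediateField.adjoin L
        (⇑(coeffMap (algebraMap k L)) '' (modularFunctionFieldC k N : Set (LaurentSeries k))) := by
      refine IntermediateField.adjoin.mono L _ _ ?_
      rintro x (rfl | rfl)
      · exact ⟨_, jqModC_mem k N, coeffMap_jqModC' _⟩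
      · exact ⟨_, jqNModC_mem k N, coeffMap_jqNModC _ N⟩
    exact hle (h.gen d hne hd)

/-- The facts ascend along field extensions. -/
theorem DegreeFacts.ascend {L : Type*} [Field L] [Algebra k L] (h : DegreeFacts k N) :
    DegreeFacts L N where
  indep := by
    have := Modular.linearIndependent_coeffMap (L := L) h.indep
    simpa only [coeffMap_jMonomial] using this
  dep := by
    obtain ⟨c, hc⟩ := (Finsupp.mem_span_range_iff_exists_finsupp).mp h.dep
    have h1 := congrArg (coeffMap (algebraMap k L)) hc
    rw [map_pow, coeffMap_jqNModC, Finsupp.sum, map_sum] at h1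
    rw [← h1]
    refine Submodule.sum_mem _ fun i _ => ?_
    rw [laurent_smul_eq_algebraMap, map_mul, coeffMap_jMonomial, algebraMap_laurentSeries_eq_single,
      coeffMap_single, ← algebraMap_laurentSeries_eq_single, ← laurent_smul_eq_algebraMap]
    exact Submodule.smul_mem _ _ (Submodule.subset_span ⟨i, rfl⟩)
  gen d hne hd := by
    have hx := h.gen d hne hd
    have key : ∀ x ∈ modularFunctionFieldC k N,
        coeffMap (algebraMap k L) x ∈ modularFunctionFieldC L N := by
      intro x hx
      induction hx using IntermediateField.adjoin_induction with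
      | mem y hy =>
        rcases hy with rfl | rfl
        · rw [coeffMap_jqModC']; exact jqModC_mem L N
        · rw [coeffMap_jqNModC]; exact jqNModC_mem L N
      | algebraMap a =>
        rw [algebraMap_laurentSeries_eq_single, coeffMap_single,
          ← algebraMap_laurentSeries_eq_single]
        exact (modularFunctionFieldC L N).algebraMap_mem _
      | add x y _ _ hx hy => rw [map_add]; exact add_mem hx hy
      | inv x _ hx => rw [map_inv₀]; exact inv_mem hx
      | mul x y _ _ hx hy => rw [map_mul]; exact mul_mem hx hy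
    have h1 := key _ hx
    rwa [coeffMap_qExpand, coeffMap_jqModC'] at h1

end Monomials

section Core

variable {R : Type*} [CommRing R] {φ : R →+* ℂ} {N : ℕ} [NeZero N]
  {k : Type*} [Field k]

theorem qExpand_aeval_jqModC (P : Polynomial k) :
    qExpand k N (aeval (jqModC k) P) = evalJBar k N P := by
  rw [evalJBar_apply, ← qExpandAlgHomC_apply, ← aeval_algHom_apply, qExpandAlgHomC_apply]

theorem degreeFacts_of_levelRing (hR : HasLevelZeta φ N) (hN : IsUnit (N : R)) (π : R →+* k) :
    DegreeFacts k N := by
  classical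
  haveI : Fintype (Modular.Gamma0Coset N) := Fintype.ofFinite _
  have hψ : Fintype.card (Modular.Gamma0Coset N) = dedekindPsi N := by
    rw [← Nat.card_eq_fintype_card, Modular.card_gamma0Coset]
  obtain ⟨hint, hdeg⟩ := natDegree_minpoly_jTop hR hN π
  rw [hψ] at hdeg
  have hj := isLevelFixed_jLevel hR N (dvd_refl N)
  haveI hNN : NeZero (N * N) := ⟨mul_ne_zero (NeZero.ne N) (NeZero.ne N)⟩
  have hred : ∀ (d : ℕ) [NeZero d] (hd : d ∣ N),
      levelRed hR.injective π (jLevel hR d hd) = qExpand k N (qExpand k d (jqModC k)) := by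
    intro d _ hd
    haveI : NeZero (N * d) := ⟨mul_ne_zero (NeZero.ne N) (NeZero.ne d)⟩
    rw [levelRed, RingHom.comp_apply, levelExp_one_jLevel, coeffMap_qExpand, coeffMap_jqModC',
      qExpand_qExpand]
  have htop : jTop hR π = qExpand k N (jqNModC k N) := by
    rw [jTop, jRootBar, levelRed_cosetConj_one hR.injective π hj, hred]
    rfl
  refine ⟨?_, ?_, ?_⟩
  · rw [linearIndependent_iff']
    intro s g hg x hx
    set P : Fin (dedekindPsi N) → Polynomial k := fun m =>
      ∑ y ∈ s.filter (fun y => y.2 = m), C (g y) * X ^ y.1 with hP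
    have hsum : ∑ m, aeval (jqModC k) (P m) * jqNModC k N ^ (m : ℕ) = 0 := by
      rw [← hg, ← Finset.sum_fiberwise s Prod.snd]
      refine Finset.sum_congr rfl fun m _ => ?_
      rw [hP, map_sum, Finset.sum_mul]
      refine Finset.sum_congr rfl fun y hy => ?_
      rw [map_mul, map_pow, aeval_C, aeval_X, ← (Finset.mem_filter.mp hy).2, laurent_smul_eq_algebraMap,
        jMonomial, mul_assoc]
    have hind := linearIndependent_pow (K := IntermediateField.adjoin k {jBar k N}) (jTop hR π)
    rw [hdeg] at hind
    have hcoef : ∀ m, evalJBar k N (P m) = 0 := by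
      have hmem : ∀ m, evalJBar k N (P m) ∈ IntermediateField.adjoin k {jBar k N} := fun m =>
        IntermediateField.algebra_adjoin_le_adjoin k _
          (Polynomial.aeval_mem_adjoin_singleton k (jBar k N))
      intro m
      have h0 := Fintype.linearIndependent_iff.mp hind
        (fun m => (⟨_, hmem m⟩ : IntermediateField.adjoin k {jBar k N})) (by
          have h1 := congrArg (qExpand k N) hsum
          rw [map_sum, map_zero] at h1
          rw [← h1]
          refine Finset.sum_congr rfl fun i _ => ?_
          rw [map_mul, map_pow, qExpand_aeval_jqModC, ← htop]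
          rfl) m
      exact congrArg Subtype.val h0
    have hPx : P x.2 = 0 := aeval_jBar_injective k N (by
      rw [← evalJBar_apply, hcoef, map_zero])
    have := congrArg (fun Q : Polynomial k => Q.coeff x.1) hPx
    simp only [hP, finsetSum_coeff, coeff_C_mul, coeff_X_pow, coeff_zero, mul_ite, mul_one,
      mul_zero] at this
    rwa [Finset.sum_eq_single x, if_pos rfl] at this
    · intro y hy hne
      rw [if_neg]
      exact fun h => hne (Prod.ext h.symm (Finset.mem_filter.mp hy).2)
    · intro h
      exact absurd (by simp [hx]) h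
  · obtain ⟨Φ, hΦ, hnat, hmon⟩ := lifts_and_natDegree_eq_and_monic
      (exists_lift_of_map_smul_eq hR.injective π (map_conjPoly hj)) ((monic_conjPoly _).map _)
    rw [(monic_conjPoly _).natDegree_map, conjPoly, natDegree_finsetProd_X_sub_C_eq_card,
      Finset.card_univ, hψ] at hnat
    have hroot : Φ.eval₂ (evalJBar k N) (jTop hR π) = 0 := by
      rw [eval₂_eq_eval_map, hΦ, eval_map, conjPoly, eval₂_finsetProd]
      exact Finset.prod_eq_zero (Finset.mem_univ (QuotientGroup.mk 1)) (by simp [jTop, jRootBar])
    rw [eval₂_eq_sum_range, hnat, Finset.sum_range_succ, show Φ.coeff (dedekindPsi N) = 1 from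
      hnat ▸ hmon.coeff_natDegree, map_one, one_mul, add_eq_zero_iff_neg_eq, htop] at hroot
    have hq : jqNModC k N ^ dedekindPsi N =
        -∑ i ∈ Finset.range (dedekindPsi N), aeval (jqModC k) (Φ.coeff i) * jqNModC k N ^ i := by
      apply qExpand_injective (R := k) N
      rw [map_pow, map_neg, map_sum, ← hroot]
      congr 1
      refine Finset.sum_congr rfl fun i _ => ?_
      rw [map_mul, qExpand_aeval_jqModC, map_pow]
    rw [hq]
    refine Submodule.neg_mem _ (Submodule.sum_mem _ fun i hi => ?_)
    rw [aeval_eq_sum_range, Finset.sum_mul]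
    refine Submodule.sum_mem _ fun r _ => ?_
    rw [Algebra.smul_def, mul_assoc, ← laurent_smul_eq_algebraMap]
    exact Submodule.smul_mem _ _ (Submodule.subset_span
      (Set.mem_range.mpr ⟨(r, (⟨i, Finset.mem_range.mp hi⟩ : Fin (dedekindPsi N))), rfl⟩))
  · intro d hne hd
    have hd' := isLevelFixed_jLevel hR d hd
    have heval := eval_interpPoly (levelRed hR.injective π) (jLevel hR d hd)
      (jLevel hR N dvd_rfl) (QuotientGroup.mk 1)
    rw [levelRed_cosetConj_one hR.injective π hd', levelRed_cosetConj_one hR.injective π hj, hred,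
      hred] at heval
    obtain ⟨A, hA⟩ := (Polynomial.mem_lifts _).mp
      (exists_lift_of_map_smul_eq hR.injective π (map_interpPoly hd' hj))
    obtain ⟨D, hD⟩ := (Polynomial.mem_lifts _).mp
      (exists_lift_of_map_smul_eq hR.injective π (map_conjPoly hj))
    have hroots : (conjPoly (jLevel hR N dvd_rfl)).map (levelRed hR.injective π) =
        ∏ r, (X - C (jRootBar hR π r)) := by
      rw [conjPoly, Polynomial.map_prod]
      exact Finset.prod_congr rfl fun r _ => by simp [jRootBar]
    have hne' : ((conjPoly (jLevel hR N dvd_rfl)).map (levelRed hR.injective π)).derivative.eval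
        (qExpand k N (qExpand k N (jqModC k))) ≠ 0 := by
      have hsep : (∏ r, (X - C (jRootBar hR π r))).Separable :=
        separable_prod_X_sub_C_iff.mpr (injective_jRootBar hR hN π)
      rw [hroots, show qExpand k N (qExpand k N (jqModC k)) = jTop hR π by rw [htop]; rfl]
      refine hsep.eval₂_derivative_ne_zero (RingHom.id _) ?_
      rw [eval₂_id, eval_prod]
      exact Finset.prod_eq_zero (Finset.mem_univ (QuotientGroup.mk 1)) (by simp [jTop])
    rw [← hA, ← hD, derivative_map, eval_map, eval_map] at heval
    rw [← hD, derivative_map, eval_map] at hne'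
    have hval : ∀ Q : Polynomial (Polynomial k),
        Q.eval₂ (evalJBar k N) (qExpand k N (qExpand k N (jqModC k))) =
          qExpand k N (Q.eval₂ (aeval (jqModC k)).toRingHom (jqNModC k N)) := by
      intro Q
      rw [hom_eval₂]
      congr 1
      exact RingHom.ext fun P => (qExpand_aeval_jqModC P).symm
    rw [hval, hval, ← map_mul] at heval
    rw [hval] at hne'
    have h2 := qExpand_injective (R := k) N heval
    have hD0 : D.derivative.eval₂ (aeval (jqModC k)).toRingHom (jqNModC k N) ≠ 0 := fun h =>
      hne' (by rw [h, map_zero])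
    rw [eq_comm, ← eq_div_iff hD0] at h2
    rw [h2]
    have hmem : ∀ Q : Polynomial (Polynomial k),
        Q.eval₂ (aeval (jqModC k)).toRingHom (jqNModC k N) ∈ modularFunctionFieldC k N := by
      intro Q
      rw [eval₂_eq_sum_range]
      refine sum_mem fun i _ => mul_mem ?_ (pow_mem (jqNModC_mem k N) _)
      exact IntermediateField.algebra_adjoin_le_adjoin k _
        (Algebra.adjoin_mono (Set.singleton_subset_iff.mpr (Set.mem_insert _ _))
          (Polynomial.aeval_mem_adjoin_singleton k (jqModC k)))
    exact div_mem (hmem _) (hmem _)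

end Core

/-- The facts over every field in which `N` is invertible. -/
theorem degreeFacts (k : Type*) [Field k] (N : ℕ) [NeZero N] (hk : (N : k) ≠ 0) :
    DegreeFacts k N := by
  obtain ⟨p, hp⟩ := CharP.exists k
  rcases CharP.char_is_prime_or_zero k p with hprime | rfl
  · haveI := Fact.mk hprime
    have hpN : ¬ p ∣ N := fun h => hk ((CharP.cast_eq_zero_iff k p N).mpr h)
    obtain ⟨A, hA, hN, hchar⟩ := exists_levelPlace N p hpN
    letI : Algebra (ZMod p) (IsLocalRing.ResidueField A) := ZMod.algebra _ p
    letI : Algebra (ZMod p) k := ZMod.algebra _ p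
    have h1 := degreeFacts_of_levelRing hA hN (IsLocalRing.residue A)
    exact (h1.descend (k := ZMod p)).ascend
  · haveI := CharP.charP_to_charZero k
    have hz : HasLevelZeta (RingHom.id ℂ) N := ⟨injective_id, zetaU N, rfl⟩
    have h1 := degreeFacts_of_levelRing hz
      (isUnit_iff_ne_zero.mpr (Nat.cast_ne_zero.mpr (NeZero.ne N))) (RingHom.id ℂ)
    exact (h1.descend (k := ℚ)).ascend

end FermatLib.Igusa

end
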