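import Fermat.Prelude.Def_ModularCurve_X0ModL
import Fermat.Agent.Modular.Gamma0Coset
import Fermat.Agent.Igusa.DegreeCore

/-!
# The degree of `X₀(N)` over the `j`-line in characteristic prime to `N`

For every field `k` in which `N ≠ 0` the expansions `j(q)` and `j(q^N)` over `k` still satisfy no
relation of degree less than `ψ(N)` in the second variable, and all the `j(q^d)`, `d ∣ N`, lie in
the field generated by these two.
-/

set_option autoImplicit false

noncomputable section

open ModularCurve IntermediateField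

namespace FermatLib.Igusa

variable (k : Type*) [Field k] (N : ℕ) [NeZero N]

/-- No relation with polynomial coefficients in `j` and degree less than `ψ(N)` in `j(q^N)`. -/
theorem eq_zero_of_sum_aeval_mul_jqNModC_pow (hk : (N : k) ≠ 0)
    (P : Fin (dedekindPsi N) → Polynomial k)
    (h : ∑ m, Polynomial.aeval (jqModC k) (P m) * jqNModC k N ^ (m : ℕ) = 0) : P = 0 := by
  classical
  have hind := (degreeFacts k N hk).indep
  funext m
  ext i
  obtain ⟨B, hB⟩ : ∃ B : ℕ, ∀ m, (P m).natDegree < B :=
    ⟨Finset.univ.sup (fun m => (P m).natDegree) + 1, fun m =>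
      Nat.lt_succ_of_le (Finset.le_sup (f := fun m => (P m).natDegree) (Finset.mem_univ m))⟩
  by_cases hi : i < B
  · refine linearIndependent_iff'.mp hind (Finset.range B ×ˢ Finset.univ)
      (fun x => (P x.2).coeff x.1) ?_ (i, m)
      (Finset.mem_product.mpr ⟨Finset.mem_range.mpr hi, Finset.mem_univ m⟩)
    rw [Finset.sum_product_right, ← h]
    refine Finset.sum_congr rfl fun m _ => ?_
    rw [Polynomial.aeval_eq_sum_range' (hB m), Finset.sum_mul]
    refine Finset.sum_congr rfl fun r _ => ?_
    rw [jMonomial, laurent_smul_eq_algebraMap, Algebra.smul_def, mul_assoc]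
  · rw [Pi.zero_apply, Polynomial.coeff_zero]
    exact Polynomial.coeff_eq_zero_of_natDegree_lt (by have := hB m; omega)

theorem aeval_jqModC_injective :
    Function.Injective (Polynomial.aeval (R := k) (jqModC k)) := by
  simpa [jBar, qExpand_one_apply] using aeval_jBar_injective k 1

/-- The powers `j(q^N)^i`, `i < ψ(N)`, are independent over `k(j)`. -/
theorem linearIndependent_jqNModC_pow (hk : (N : k) ≠ 0) :
    LinearIndependent (adjoin k {jqModC k})
      (fun i : Fin (dedekindPsi N) => jqNModC k N ^ (i : ℕ)) := by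
  classical
  rw [Fintype.linearIndependent_iff]
  intro g hg
  have hfrac : ∀ i, ∃ r s : Polynomial k, s ≠ 0 ∧
      (g i : LaurentSeries k) * Polynomial.aeval (jqModC k) s =
        Polynomial.aeval (jqModC k) r := by
    intro i
    obtain ⟨r, s, hrs⟩ := (IntermediateField.mem_adjoin_simple_iff k _).mp (g i).2
    by_cases hs : Polynomial.aeval (jqModC k) s = 0
    · exact ⟨0, 1, one_ne_zero, by rw [hrs, hs, div_zero, zero_mul, map_zero]⟩
    · exact ⟨r, s, fun h => hs (by rw [h, map_zero]), by rw [hrs, div_mul_cancel₀ _ hs]⟩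
  choose r s hs hrs using hfrac
  have hP := eq_zero_of_sum_aeval_mul_jqNModC_pow k N hk
    (fun i => r i * ∏ t ∈ Finset.univ.erase i, s t) (by
      have h0 : (∑ i, (g i : LaurentSeries k) * jqNModC k N ^ (i : ℕ)) *
          Polynomial.aeval (jqModC k) (∏ t, s t) = 0 := by
        rw [show (∑ i, (g i : LaurentSeries k) * jqNModC k N ^ (i : ℕ)) = 0 from hg, zero_mul]
      rw [Finset.sum_mul] at h0
      rw [← h0]
      refine Finset.sum_congr rfl fun i _ => ?_
      rw [← Finset.mul_prod_erase Finset.univ s (Finset.mem_univ i), map_mul, map_mul, ← hrs i]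
      ring)
  intro i
  have hi := congrFun hP i
  rw [Pi.zero_apply, mul_eq_zero] at hi
  have hr : r i = 0 := hi.resolve_right (Finset.prod_ne_zero_iff.mpr fun t _ => hs t)
  have h1 := hrs i
  rw [hr, map_zero, mul_eq_zero] at h1
  refine Subtype.ext (h1.resolve_right fun h => hs i ?_)
  exact aeval_jqModC_injective k (by rw [h, map_zero])

/-- `j(q^N)` is a root of a monic polynomial of degree `ψ(N)` over `k[j]`. -/
theorem exists_modularEquation_modC (hk : (N : k) ≠ 0) :
    ∃ Φ : Polynomial (Polynomial k), Φ.Monic ∧ Φ.natDegree = dedekindPsi N ∧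
      Φ.eval₂ (Polynomial.aeval (jqModC k)).toRingHom (jqNModC k N) = 0 := by
  obtain ⟨c, hc⟩ := (Finsupp.mem_span_range_iff_exists_finsupp).mp (degreeFacts k N hk).dep
  set L : Polynomial (Polynomial k) := ∑ x ∈ c.support,
    Polynomial.C (Polynomial.C (c x) * Polynomial.X ^ x.1) * Polynomial.X ^ (x.2 : ℕ) with hL
  have hdeg : L.degree < (dedekindPsi N : WithBot ℕ) := by
    refine lt_of_le_of_lt (Polynomial.degree_sum_le _ _) ?_
    refine (Finset.sup_lt_iff (WithBot.bot_lt_coe _)).mpr fun x _ => ?_
    exact lt_of_le_of_lt (Polynomial.degree_C_mul_X_pow_le _ _) (WithBot.coe_lt_coe.mpr x.2.2)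
  refine ⟨Polynomial.X ^ dedekindPsi N - L, Polynomial.monic_X_pow_sub hdeg, ?_, ?_⟩
  · rw [Polynomial.natDegree_eq_of_degree_eq (Polynomial.degree_sub_eq_left_of_degree_lt
      (by rwa [Polynomial.degree_X_pow])), Polynomial.natDegree_X_pow]
  · rw [Polynomial.eval₂_sub, Polynomial.eval₂_X_pow, hL, Polynomial.eval₂_finsetSum, ← hc,
      Finsupp.sum, sub_eq_zero]
    refine Finset.sum_congr rfl fun x _ => ?_
    rw [Polynomial.eval₂_mul, Polynomial.eval₂_C, Polynomial.eval₂_X_pow, map_mul, map_pow,
      jMonomial, laurent_smul_eq_algebraMap]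
    simp only [AlgHom.toRingHom_eq_coe, RingHom.coe_coe, Polynomial.aeval_C, Polynomial.aeval_X]
    ring

theorem isIntegral_jqNModC (hk : (N : k) ≠ 0) :
    IsIntegral (adjoin k {jqModC k}) (jqNModC k N) := by
  obtain ⟨Φ, hΦ, -, h0⟩ := exists_modularEquation_modC k N hk
  let f : Polynomial k →ₐ[k] adjoin k {jqModC k} :=
    Polynomial.aeval (⟨jqModC k, mem_adjoin_simple_self k _⟩ : adjoin k {jqModC k})
  refine ⟨Φ.map f.toRingHom, hΦ.map _, ?_⟩
  rw [Polynomial.eval₂_map, ← h0]
  congr 1
  refine RingHom.ext fun P => ?_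
  exact (Polynomial.aeval_algHom_apply (adjoin k {jqModC k}).val _ P).symm

theorem natDegree_minpoly_jqNModC (hk : (N : k) ≠ 0) :
    (minpoly (adjoin k {jqModC k}) (jqNModC k N)).natDegree = dedekindPsi N := by
  have hint := isIntegral_jqNModC k N hk
  obtain ⟨Φ, hΦ, hnat, h0⟩ := exists_modularEquation_modC k N hk
  refine le_antisymm ?_ ?_
  · let f : Polynomial k →ₐ[k] adjoin k {jqModC k} :=
      Polynomial.aeval (⟨jqModC k, mem_adjoin_simple_self k _⟩ : adjoin k {jqModC k})
    have hz : Polynomial.aeval (jqNModC k N) (Φ.map f.toRingHom) = 0 := by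
      rw [Polynomial.aeval_def, Polynomial.eval₂_map, ← h0]
      congr 1
      refine RingHom.ext fun P => ?_
      exact (Polynomial.aeval_algHom_apply (adjoin k {jqModC k}).val _ P).symm
    rw [← hnat, ← hΦ.natDegree_map f.toRingHom]
    exact Polynomial.natDegree_le_natDegree (minpoly.min _ _ (hΦ.map _) hz)
  · by_contra! hlt
    set m := minpoly (adjoin k {jqModC k}) (jqNModC k N) with hm
    have h := Fintype.linearIndependent_iff.mp (linearIndependent_jqNModC_pow k N hk)
      (fun i => m.coeff i) (by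
        rw [Fin.sum_univ_eq_sum_range (fun i => m.coeff i • jqNModC k N ^ i),
          ← Polynomial.aeval_eq_sum_range' hlt]
        exact minpoly.aeval _ _) ⟨m.natDegree, hlt⟩
    exact (minpoly.monic hint).ne_zero (Polynomial.leadingCoeff_eq_zero.mp h)

theorem finrank_adjoin_jqModC_modularFunctionFieldC (hk : (N : k) ≠ 0) :
    Module.finrank (adjoin k {jqModC k})
      (adjoin (adjoin k {jqModC k}) {jqNModC k N}) = dedekindPsi N := by
  rw [adjoin.finrank (isIntegral_jqNModC k N hk), natDegree_minpoly_jqNModC k N hk]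

theorem modularFunctionFieldFullC_eq_modularFunctionFieldC (hk : (N : k) ≠ 0) :
    modularFunctionFieldFullC k N = modularFunctionFieldC k N := by
  refine le_antisymm ?_ (modularFunctionFieldC_le_full k N)
  rw [modularFunctionFieldFullC, adjoin_le_iff]
  rintro x ⟨d, hne, hdvd, rfl⟩
  exact (degreeFacts k N hk).gen d hne hdvd

theorem restrictScalars_adjoin_jqNModC (hk : (N : k) ≠ 0) :
    (adjoin (adjoin k {jqModC k}) {jqNModC k N}).restrictScalars k =
      modularFunctionFieldFullC k N := by
  rw [modularFunctionFieldFullC_eq_modularFunctionFieldC k N hk, adjoin_adjoin_left,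
    modularFunctionFieldC, Set.singleton_union]

/-- `[k(X₀(N)) : k(j)] = ψ(N)`. -/
theorem finrank_modularFunctionFieldFullC (hk : (N : k) ≠ 0) :
    Module.finrank (adjoin k {(⟨jqModC k, jqModC_mem_full k N⟩ : modularFunctionFieldFullC k N)})
      (modularFunctionFieldFullC k N) = dedekindPsi N := by
  rw [← finrank_adjoin_jqModC_modularFunctionFieldC k N hk]
  set x : modularFunctionFieldFullC k N := ⟨jqModC k, jqModC_mem_full k N⟩
  have hlift : IntermediateField.lift (adjoin k {x}) = adjoin k {jqModC k} :=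
    lift_adjoin_simple k _ x
  let i : adjoin k {x} ≃ₐ[k] adjoin k {jqModC k} :=
    (IntermediateField.liftAlgEquiv (adjoin k {x})).trans (equivOfEq hlift)
  let j : modularFunctionFieldFullC k N ≃+* adjoin (adjoin k {jqModC k}) {jqNModC k N} :=
    (equivOfEq (restrictScalars_adjoin_jqNModC k N hk).symm).toRingEquiv
  refine Algebra.finrank_eq_of_equiv_equiv i.toRingEquiv j ?_
  ext a : 1
  rfl

end FermatLib.Igusa

end
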