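import Mathlib
import Fermat.Prelude.Def_FLTPrelim_Ramification
import Fermat.Agent.Igusa.DegreeModL
import Fermat.Agent.Igusa.GaussPlaces
import Fermat.Agent.Modular.FieldCx

/-!
Preservation of the degree over the `j`-line under reduction at a prime not dividing the level.
-/

set_option autoImplicit false
set_option linter.style.haveILetI false
set_option synthInstance.maxHeartbeats 400000

noncomputable section

open AlgebraicCurve ModularCurve IntermediateField

namespace FermatLib.Igusa

theorem finrank_adjoin_of_coe_eq {K : Type*} [Field K] {E E' : IntermediateField K (LaurentSeries K)}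
    (h : E = E') (x : E) (x' : E') (hx : (x : LaurentSeries K) = x') :
    Module.finrank (adjoin K {x}) E = Module.finrank (adjoin K {x'}) E' := by
  subst h
  rw [show x = x' from Subtype.ext hx]

/-- The Gauss degree input over an arbitrary pair of fields in which `N` is invertible. -/
theorem degreeInput_of_ne_zero {L : Type*} [Field L] [Algebra ℚ L] (A : ValuationSubring L)
    {k : Type*} [Field k] (π : A →+* k) (N : ℕ) [NeZero N] (hk : (N : k) ≠ 0) :
    DegreeInput A π N (dedekindPsi N) := by
  haveI : CharZero L := algebraRat.charZero L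
  have hL : (N : L) ≠ 0 := Nat.cast_ne_zero.mpr (NeZero.ne N)
  have hgen : Module.finrank (adjoin L {genericFun A π N (jInt A π N)})
      (laurentBaseChange L (modularFunctionFieldFull N)) = dedekindPsi N := by
    rw [← finrank_modularFunctionFieldFullC L N hL]
    exact finrank_adjoin_of_coe_eq (laurentBaseChange_full_eq L N) _ _
      (coe_genericFun_jInt A π N)
  refine ⟨?_, hgen, ?_⟩
  · rw [dedekindPsi]
    refine Finset.sum_pos' (fun _ _ => Nat.zero_le _) ⟨1, Finset.mem_filter.mpr
      ⟨Nat.one_mem_divisors.mpr (NeZero.ne N), squarefree_one⟩, ?_⟩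
    rw [Nat.div_one]
    exact Nat.pos_of_ne_zero (NeZero.ne N)
  · rw [← finrank_modularFunctionFieldFullC k N hk]
    exact finrank_adjoin_of_coe_eq rfl _ _ (coe_specialFun_jInt A π N)

/-- Integer casts: `N` is invertible in the residue field of a place over `ℓ ∤ N`. -/
theorem natCast_residueField_ne_zero {ℓ : ℕ} [Fact ℓ.Prime] {N : ℕ} (hℓN : ¬ ℓ ∣ N)
    (A : ValuationSubring (AlgebraicClosure ℚ)) (hA : A.LiesOverPrime ℓ) :
    (N : IsLocalRing.ResidueField A) ≠ 0 := by
  have hℓ0 : (ℓ : IsLocalRing.ResidueField A) = 0 := by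
    rw [← map_natCast (IsLocalRing.residue A) ℓ]
    refine residue_eq_zero_of_not_isUnit A _ fun hu => ?_
    obtain ⟨h, hne⟩ := ValuationSubring.mem_nonunits_iff_exists_mem_maximalIdeal.mp hA
    exact (IsLocalRing.mem_maximalIdeal _).mp hne ((Subtype.ext (by simp) : (⟨_, h⟩ : A) = (ℓ : A)) ▸ hu)
  have hchar : CharP (IsLocalRing.ResidueField A) ℓ := by
    obtain ⟨p, hp⟩ := CharP.exists (IsLocalRing.ResidueField A)
    have hdvd : p ∣ ℓ := (CharP.cast_eq_zero_iff _ p ℓ).mp hℓ0
    rcases (Nat.dvd_prime (Fact.out : ℓ.Prime)).mp hdvd with rfl | rfl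
    · exact absurd rfl (CharP.char_ne_one (IsLocalRing.ResidueField A) 1)
    · exact hp
  exact fun h => hℓN ((CharP.cast_eq_zero_iff _ ℓ N).mp h)

/-- Degree preservation modulo `ℓ ∤ N`. -/
theorem degreeInput_modL {ℓ : ℕ} [Fact ℓ.Prime] (N : ℕ) [NeZero N] (hℓN : ¬ ℓ ∣ N)
    (A : ValuationSubring (AlgebraicClosure ℚ)) (hA : A.LiesOverPrime ℓ) :
    DegreeInput A (IsLocalRing.residue A) N (dedekindPsi N) :=
  degreeInput_of_ne_zero A _ N (natCast_residueField_ne_zero hℓN A hA)

/-- The modular equations needed by the lattice theorem. -/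
theorem nonempty_modularPolynomialData (d : ℕ) [NeZero d] :
    Nonempty (ModularPolynomialData d) :=
  ⟨Modular.modularPolynomialData d⟩

end FermatLib.Igusa
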