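import Fermat.Agent.Igusa.LevelAux

/-!
# Functions with a dominant pole at the cusp `∞`

For every large `e` there is a function whose expansion at `∞` starts with a unit in degree `-e`
and whose other conjugates have smaller poles. This gives faithfulness of the action on reduced
expansions, and lowers the pole orders of a lift without changing its reduction.
-/

set_option autoImplicit false
set_option linter.style.haveILetI false

noncomputable section

open Function ModularCurve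
open scoped MatrixGroups

namespace FermatLib.Igusa

variable {R : Type*} [CommRing R] {φ : R →+* ℂ} {n : ℕ} [NeZero n]

/-- `γ ∞` is the cusp `∞` of level `n`, up to sign. -/
def IsInftyClass (n : ℕ) (γ : SL(2, ℤ)) : Prop :=
  (n : ℤ) ∣ γ 1 0 ∧ ((n : ℤ) ∣ γ 0 0 - 1 ∨ (n : ℤ) ∣ γ 0 0 + 1)

variable (φ n) in
/-- The image of the translation. -/
def levelT : levelGroup φ n := toLevelGroup φ n ModularGroup.T

theorem levelT_zpow_smul (b : ℤ) (f : levelRing φ n) :
    levelT φ n ^ b • f = ModularGroup.T ^ b • f := by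
  rw [levelT, ← map_zpow, toLevelGroup_smul]

theorem levelT_pow_eq_one : levelT φ n ^ n = 1 := by
  rw [levelT, ← map_pow]
  have h : ModularGroup.T ^ n ∈ CongruenceSubgroup.Gamma n := by
    simpa [zpow_natCast] using CongruenceSubgroup.ModularGroup_T_pow_mem_Gamma n n dvd_rfl
  exact MonoidHom.mem_ker.mp (Gamma_le_ker_toLevelGroup φ n h)

theorem toLevelGroup_mem_zpowers {γ : SL(2, ℤ)} (h : IsInftyClass n γ) :
    toLevelGroup φ n γ ∈ Subgroup.zpowers (levelT φ n) := by
  suffices key : ∀ γ : SL(2, ℤ), (n : ℤ) ∣ γ 1 0 → (n : ℤ) ∣ γ 0 0 - 1 →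
      toLevelGroup φ n γ ∈ Subgroup.zpowers (levelT φ n) by
    obtain ⟨h10, h00 | h00⟩ := h
    · exact key γ h10 h00
    · have hneg : toLevelGroup φ n (-γ) = toLevelGroup φ n γ := by
        refine Subtype.ext (RingEquiv.ext fun f => ?_)
        show toLevelGroup φ n (-γ) • f = toLevelGroup φ n γ • f
        rw [toLevelGroup_smul, toLevelGroup_smul, show -γ = (-1 : SL(2, ℤ)) * γ by simp, mul_smul,
          neg_one_smul_levelRing]
      rw [← hneg]
      refine key (-γ) (by simpa using h10) ?_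
      have : (n : ℤ) ∣ -(γ 0 0 + 1) := dvd_neg.mpr h00
      simpa [neg_add, sub_eq_add_neg, add_comm] using this
  intro γ h10 h00
  have h11 : (n : ℤ) ∣ γ 1 1 - 1 := by
    have hdet := γ.2
    rw [Matrix.det_fin_two] at hdet
    have : (n : ℤ) ∣ γ 0 1 * γ 1 0 - γ 1 1 * (γ 0 0 - 1) :=
      dvd_sub (h10.mul_left _) (h00.mul_left _)
    rwa [show γ 0 1 * γ 1 0 - γ 1 1 * (γ 0 0 - 1) = γ 1 1 - 1 by linear_combination -hdet] at this
  have hm : γ * ModularGroup.T ^ (-γ 0 1) ∈ CongruenceSubgroup.Gamma n := by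
    rw [← ZMod.intCast_zmod_eq_zero_iff_dvd] at h10 h00 h11
    push_cast at h10 h00 h11
    rw [sub_eq_zero] at h00 h11
    simp [CongruenceSubgroup.Gamma_mem, Matrix.SpecialLinearGroup.coe_mul,
      ModularGroup.coe_T_zpow, Matrix.mul_apply, Fin.sum_univ_two, h10, h00, h11]
  refine ⟨γ 0 1, ?_⟩
  have h1 := MonoidHom.mem_ker.mp (Gamma_le_ker_toLevelGroup φ n hm)
  rw [map_mul, map_zpow, zpow_neg, mul_inv_eq_one] at h1
  exact h1.symm

section Translation

variable (hφ : Injective φ)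

theorem map_coeff_T_zpow_smul (b : ℤ) (f : levelRing φ n) (i : ℤ) :
    φ ((levelExp hφ 1 (ModularGroup.T ^ b • f)).coeff i) =
      φ ((levelExp hφ 1 f).coeff i) * zetaU n ^ (-b * i) := by
  rw [levelExp_smul, mul_one, ← zpow_neg, ← one_mul (ModularGroup.T ^ (-b)),
    levelExp_mul_T_coeff hφ 1 (-b) f i]

end Translation

variable (hR : IsLevelCoeff φ n)

/-- An auxiliary residue `κ` prime to `n`, different from `± 1`. -/
structure CuspParam (n : ℕ) (κ : ℤ) : Prop where
  coprime : IsCoprime κ (n : ℤ)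
  not_one : ¬ (n : ℤ) ∣ κ - 1
  not_neg_one : ¬ (n : ℤ) ∣ κ + 1
  three_le : 3 ≤ n

namespace CuspParam

variable {κ : ℤ} (C : CuspParam n κ)
include C

theorem not_dvd_one : ¬ (n : ℤ) ∣ 1 := fun h => by
  have := Int.le_of_dvd (by norm_num) h
  have := C.three_le
  omega

theorem isUnitPair_bottom : IsUnitPair n (0, 1) (0, κ) := by
  have hκ : ¬ (n : ℤ) ∣ κ := fun h => C.not_dvd_one <| by
    obtain ⟨u, v, huv⟩ := C.coprime
    rw [← huv]
    exact dvd_add (h.mul_left u) (dvd_mul_left _ v)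
  refine ⟨?_, ?_, ?_⟩
  · rintro (⟨-, h⟩ | ⟨-, h⟩) <;> exact C.not_dvd_one (by simpa using h)
  · rintro (⟨-, h⟩ | ⟨-, h⟩) <;> exact hκ (by simpa using h)
  · rintro (⟨-, h⟩ | ⟨-, h⟩)
    · exact C.not_one (by simpa [dvd_sub_comm] using h)
    · exact C.not_neg_one (by simpa [add_comm] using h)

theorem isUnitPair_top : IsUnitPair n (1, 0) (1, 1) := by
  refine ⟨?_, ?_, ?_⟩
  · rintro (⟨h, -⟩ | ⟨h, -⟩) <;> exact C.not_dvd_one (by simpa using h)
  · rintro (⟨h, -⟩ | ⟨h, -⟩) <;> exact C.not_dvd_one (by simpa using h)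
  · rintro (⟨-, h⟩ | ⟨-, h⟩) <;> exact C.not_dvd_one (by simpa using h)

end CuspParam

variable {κ : ℤ} (C : CuspParam n κ)

/-- The function with a dominant pole of order `n ^ 2 - 1` at `∞`. -/
def cuspFun : levelRing φ n :=
  sixthQuot hR C.isUnitPair_bottom ^ n * torsRatio hR C.isUnitPair_top C.isUnitPair_bottom

theorem exists_unitLead_cuspFun (γ : SL(2, ℤ)) :
    ∃ o : ℤ, UnitLead (levelExp hR.injective γ (cuspFun hR C)) o ∧ 1 - (n : ℤ) ^ 2 ≤ o ∧
      (o = 1 - (n : ℤ) ^ 2 → IsInftyClass n γ) ∧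
      (γ = 1 → o = 1 - (n : ℤ) ^ 2) := by
  have h3 := C.three_le
  have h := ((unitLead_sixthQuot hR C.isUnitPair_bottom γ).pow n).mul
    (unitLead_torsRatio hR C.isUnitPair_top C.isUnitPair_bottom γ)
  rw [← map_pow, ← map_mul] at h
  refine ⟨_, h, ?_⟩
  clear h
  set A := γ 0 0 with hA
  set c := γ 1 0 with hc
  simp only [torsOrd, vecMulSL, one_mul, zero_mul, add_zero, zero_add, ← hA, ← hc]
  set w := min (absMod n c) (absMod n (κ * c)) with hw
  set u := min (absMod n A) (absMod n (A + c)) with hu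
  have hu1 : 1 ≤ u ∨ 1 ≤ w := by
    rcases Nat.eq_zero_or_pos (absMod n c) with hc0 | hc0
    · left
      have hdc := absMod_eq_zero_iff.mp hc0
      have hdA : ¬ (n : ℤ) ∣ A := fun hdA => C.not_dvd_one <| by
        have hdet := γ.2
        rw [Matrix.det_fin_two] at hdet
        rw [← hdet]
        exact dvd_sub (hdA.mul_right _) (hdc.mul_left _)
      exact le_min (Nat.one_le_iff_ne_zero.mpr fun h => hdA (absMod_eq_zero_iff.mp h))
        (Nat.one_le_iff_ne_zero.mpr fun h => hdA ((dvd_add_left hdc).mp (absMod_eq_zero_iff.mp h)))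
    · right
      refine le_min hc0 (Nat.one_le_iff_ne_zero.mpr fun h => ?_)
      exact (Nat.pos_iff_ne_zero.mp hc0)
        (absMod_eq_zero_iff.mpr (C.coprime.symm.dvd_of_dvd_mul_left (absMod_eq_zero_iff.mp h)))
  have hn : (3 : ℤ) ≤ n := by exact_mod_cast h3
  refine ⟨?_, fun ho => ?_, ?_⟩
  · rcases hu1 with h1 | h1
    · nlinarith [Int.natCast_nonneg w]
    · nlinarith [Int.natCast_nonneg u, (show (1 : ℤ) ≤ w by exact_mod_cast h1)]
  · have hw0 : w = 0 := by
      by_contra hne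
      have h1 : (1 : ℤ) ≤ w := by exact_mod_cast Nat.one_le_iff_ne_zero.mpr hne
      nlinarith [Int.natCast_nonneg u]
    have hu' : u = 1 := by
      rw [hw0] at ho
      push_cast at ho
      have : (u : ℤ) = 1 := by linarith
      exact_mod_cast this
    have hdc : (n : ℤ) ∣ c := by
      rcases min_choice (absMod n c) (absMod n (κ * c)) with hmin | hmin
      · exact absMod_eq_zero_iff.mp (by rw [← hmin, ← hw, hw0])
      · exact C.coprime.symm.dvd_of_dvd_mul_left
          (absMod_eq_zero_iff.mp (by rw [← hmin, ← hw, hw0]))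
    refine ⟨hdc, ?_⟩
    have hA1 : absMod n A = 1 := by
      rw [hu] at hu'
      have heq : absMod n (A + c) = absMod n A := by
        rw [absMod, absMod, show ((A + c : ℤ) : ZMod n) = (A : ZMod n) by
          rw [Int.cast_add, (ZMod.intCast_zmod_eq_zero_iff_dvd _ _).mpr hdc, add_zero]]
      rwa [heq, min_self] at hu'
    rcases Int.natAbs_eq_iff.mp hA1 with h | h <;>
      have h' := congrArg (fun z : ℤ => (z : ZMod n)) h <;>
      simp only [ZMod.coe_valMinAbs, Int.cast_neg, Nat.cast_one] at h'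
    · exact Or.inl ((ZMod.intCast_zmod_eq_zero_iff_dvd _ _).mp (by rw [hA] at h'; simp [h']))
    · exact Or.inr ((ZMod.intCast_zmod_eq_zero_iff_dvd _ _).mp (by rw [hA] at h'; simp [h']))
  · rintro rfl
    have h0 : absMod n (0 : ℤ) = 0 := absMod_eq_zero_iff.mpr (dvd_zero _)
    have h1 : absMod n (1 : ℤ) = 1 := absMod_eq_of_natAbs (by omega) (Or.inl (by simp))
    simp only [hA, hc, hw, hu, Matrix.SpecialLinearGroup.coe_one, Matrix.one_apply_eq,
      Matrix.one_apply_ne (show (1 : Fin 2) ≠ 0 by decide), mul_zero, add_zero, h0, h1, min_self,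
      Nat.cast_zero, Nat.cast_one]
    ring

include hR C in
/-- For every large `e`, a function with leading unit in degree `-e` at `∞` only. -/
theorem exists_cuspElt {e : ℕ} (he : n ^ 3 ≤ e) :
    ∃ x : levelRing φ n, UnitLead (levelExp hR.injective 1 x) (-(e : ℤ)) ∧
      (∀ g : levelGroup φ n, ∀ i : ℤ, i < -(e : ℤ) →
        (levelExp hR.injective 1 (g • x)).coeff i = 0) ∧
      ∀ g : levelGroup φ n, g ∉ Subgroup.zpowers (levelT φ n) →
        (levelExp hR.injective 1 (g • x)).coeff (-(e : ℤ)) = 0 := by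
  have h3 := C.three_le
  -- `e = b (n² - 1) + c n` with `1 ≤ b ≤ n`
  obtain ⟨b, c, hb, hbc⟩ : ∃ b c : ℕ, 1 ≤ b ∧ (e : ℤ) = b * ((n : ℤ) ^ 2 - 1) + c * n := by
    obtain ⟨q, r, hr, hq⟩ : ∃ q r : ℕ, r < n ∧ e = n * q + r :=
      ⟨e / n, e % n, Nat.mod_lt _ (by omega), (Nat.div_add_mod e n).symm⟩
    refine ⟨n - r, q + 1 - (n - r) * n, by omega, ?_⟩
    have hle : (n - r) * n ≤ q + 1 := by
      have h1 : n * n < q + 1 + 1 := by
        by_contra hcon
        push Not at hcon
        nlinarith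
      have h2 : (n - r) * n ≤ n * n := Nat.mul_le_mul_right n (Nat.sub_le n r)
      omega
    rw [Nat.cast_sub hle, Nat.cast_mul, Nat.cast_sub hr.le, hq]
    push_cast
    ring
  refine ⟨cuspFun hR C ^ b * levelJ φ n ^ c, ?_⟩
  have hj : ∀ γ : SL(2, ℤ), UnitLead (levelExp hR.injective γ (levelJ φ n)) (-(n : ℤ)) := by
    intro γ
    rw [levelExp_levelJ]
    have := (leadsWith_jqModC R).expand n
    rw [mul_neg, mul_one] at this
    exact ⟨this.1, by rw [this.2]; exact isUnit_one⟩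
  have key : ∀ γ : SL(2, ℤ), ∃ o, UnitLead
      (levelExp hR.injective γ (cuspFun hR C ^ b * levelJ φ n ^ c)) o ∧ -(e : ℤ) ≤ o ∧
      (o = -(e : ℤ) → IsInftyClass n γ) ∧ (γ = 1 → o = -(e : ℤ)) := fun γ => by
    obtain ⟨o, ho, hle, heq, h1⟩ := exists_unitLead_cuspFun hR C γ
    refine ⟨(b : ℤ) * o + (c : ℤ) * -(n : ℤ), ?_, ?_, fun h => heq ?_, fun h => ?_⟩
    · rw [map_mul, map_pow, map_pow]
      exact (ho.pow b).mul ((hj γ).pow c)
    · rw [hbc]; nlinarith
    · rw [hbc] at h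
      have hb' : (1 : ℤ) ≤ b := by exact_mod_cast hb
      nlinarith
    · rw [h1 h, hbc]; ring
  refine ⟨?_, fun g i hi => ?_, fun g hg => ?_⟩
  · obtain ⟨o, ho, -, -, h1⟩ := key 1
    exact h1 rfl ▸ ho
  · obtain ⟨δ, rfl⟩ := toLevelGroup_surjective φ n g
    obtain ⟨o, ho, hle, -⟩ := key δ⁻¹
    rw [toLevelGroup_smul, levelExp_smul, mul_one]
    exact ho.1 i (hi.trans_le hle)
  · obtain ⟨δ, rfl⟩ := toLevelGroup_surjective φ n g
    obtain ⟨o, ho, hle, heq, -⟩ := key δ⁻¹
    rw [toLevelGroup_smul, levelExp_smul, mul_one]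
    refine ho.1 _ (lt_of_le_of_ne hle fun h => hg ?_)
    have := toLevelGroup_mem_zpowers (φ := φ) (heq h.symm)
    rwa [map_inv, inv_mem_iff] at this

variable {K : Type*} [Field K] (red : R →+* K)

include hR C in
/-- The action on reduced expansions is faithful. -/
theorem eq_one_of_forall_red_eq (g : levelGroup φ n)
    (h : ∀ x : levelRing φ n, coeffMap red (levelExp hR.injective 1 (g • x)) =
      coeffMap red (levelExp hR.injective 1 x)) : g = 1 := by
  obtain ⟨x, hx, -, hxg⟩ := exists_cuspElt hR C (e := n ^ 3 + 1) (Nat.le_succ _)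
  have h1 : red ((levelExp hR.injective 1 (g • x)).coeff (-((n ^ 3 + 1 : ℕ) : ℤ))) =
      red ((levelExp hR.injective 1 x).coeff (-((n ^ 3 + 1 : ℕ) : ℤ))) := by
    have h0 := congrArg (fun F : LaurentSeries K => F.coeff (-((n ^ 3 + 1 : ℕ) : ℤ))) (h x)
    simpa only [coeffMap_coeff] using h0
  have hne := (hx.2.map red).ne_zero
  by_cases hg : g ∈ Subgroup.zpowers (levelT φ n)
  · obtain ⟨b, rfl⟩ := hg
    rw [levelT_zpow_smul] at h1
    obtain ⟨z, hz, hunit⟩ := hR.exists_zeta
    obtain ⟨zu, hzu⟩ := exists_unit_zeta hR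
    obtain rfl : (zu : R) = z := hR.injective (hzu.trans hz.symm)
    have hmap : ∀ k : ℤ, φ ((zu ^ k : Rˣ) : R) = zetaU n ^ k := fun k => map_units_zpow hzu k
    have h2 : (levelExp hR.injective 1 (ModularGroup.T ^ b • x)).coeff
        (-((n ^ 3 + 1 : ℕ) : ℤ)) = (levelExp hR.injective 1 x).coeff (-((n ^ 3 + 1 : ℕ) : ℤ)) *
          ((zu ^ (b * ((n ^ 3 + 1 : ℕ) : ℤ)) : Rˣ) : R) := by
      apply hR.injective
      rw [map_mul, map_coeff_T_zpow_smul, hmap, neg_mul_neg]
    have hdvd : (n : ℤ) ∣ b * ((n ^ 3 + 1 : ℕ) : ℤ) := by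
      by_contra hd
      have hu : IsUnit (1 - ((zu ^ (b * ((n ^ 3 + 1 : ℕ) : ℤ)) : Rˣ) : R)) :=
        hunit _ hd _ (by rw [map_sub, map_one, hmap])
      refine (hu.map red).ne_zero ?_
      rw [h2, map_mul] at h1
      rw [map_sub, map_one, sub_eq_zero]
      exact (mul_left_cancel₀ hne (h1.trans (mul_one _).symm)).symm
    have hb : (n : ℤ) ∣ b := by
      have : (n : ℤ) ∣ b * ((n : ℤ) ^ 3) := (dvd_pow_self _ (by norm_num)).mul_left b
      push_cast at hdvd
      rw [mul_add, mul_one] at hdvd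
      exact (dvd_add_right this).mp hdvd
    obtain ⟨q, rfl⟩ := hb
    show levelT φ n ^ ((n : ℤ) * q) = 1
    rw [zpow_mul, zpow_natCast, levelT_pow_eq_one, one_zpow]
  · rw [hxg g hg, map_zero] at h1
    exact absurd h1.symm hne

include hR C in
/-- One step of lowering the poles without changing reductions. -/
theorem exists_sub_top (hn : IsUnit (n : R)) {H : Subgroup (levelGroup φ n)} {e : ℕ}
    (he : n ^ 3 ≤ e) {f : levelRing φ n} (hf : ∀ h ∈ H, h • f = f)
    (hlow : ∀ (γ : SL(2, ℤ)) (i : ℤ), i < -(e : ℤ) →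
      (levelExp hR.injective γ f).coeff i = 0)
    (hred : ∀ γ : SL(2, ℤ), red ((levelExp hR.injective γ f).coeff (-(e : ℤ))) = 0) :
    ∃ f' : levelRing φ n, (∀ h ∈ H, h • f' = f') ∧
      (∀ γ : SL(2, ℤ), coeffMap red (levelExp hR.injective γ f') =
        coeffMap red (levelExp hR.injective γ f)) ∧
      ∀ (γ : SL(2, ℤ)) (i : ℤ), i ≤ -(e : ℤ) → (levelExp hR.injective γ f').coeff i = 0 := by
  classical
  haveI := Fintype.ofFinite (levelGroup φ n)
  obtain ⟨x, hx, hxlow, hxtop⟩ := exists_cuspElt hR C he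
  set Z := Subgroup.zpowers (levelT φ n) with hZ
  have hτ : IsUnit (Nat.card Z : R) := by
    obtain ⟨d, hd⟩ : Nat.card Z ∣ n := by
      rw [hZ, Nat.card_zpowers]
      exact orderOf_dvd_of_pow_eq_one levelT_pow_eq_one
    have : IsUnit ((Nat.card Z : R) * (d : R)) := by rw [← Nat.cast_mul, ← hd]; exact hn
    exact isUnit_of_mul_isUnit_left this
  set a : levelGroup φ n → R := fun g =>
    (levelExp hR.injective 1 (g⁻¹ • f)).coeff (-(e : ℤ)) with ha
  set w : R := ((hx.2.unit⁻¹ : Rˣ) : R) * ((hτ.unit⁻¹ : Rˣ) : R) with hw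
  set D : levelRing φ n := ∑ g : levelGroup φ n, levelC φ n (a g * w) * g • x with hD
  have hsmulC : ∀ (g : levelGroup φ n) (s : R), g • levelC φ n s = levelC φ n s := fun g s => by
    obtain ⟨γ, rfl⟩ := toLevelGroup_surjective φ n g
    rw [toLevelGroup_smul, smul_levelC]
  have hDinv : ∀ h ∈ H, h • D = D := fun h hh => by
    rw [hD, Finset.smul_sum]
    refine Fintype.sum_equiv (Equiv.mulLeft h) _ _ fun g => ?_
    rw [smul_mul', hsmulC, ← mul_smul, Equiv.coe_mulLeft]
    simp only [ha, mul_inv_rev, mul_smul]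
    rw [hf _ (inv_mem hh)]
  have haker : ∀ g, red (a g) = 0 := fun g => by
    obtain ⟨δ, rfl⟩ := toLevelGroup_surjective φ n g
    rw [ha]
    dsimp only
    rw [← map_inv, toLevelGroup_smul, levelExp_one_smul]
    exact hred δ
  have hcoeff : ∀ (γ : SL(2, ℤ)) (i : ℤ), (levelExp hR.injective γ D).coeff i =
      ∑ g : levelGroup φ n, a g * w *
        (levelExp hR.injective 1 (((toLevelGroup φ n γ)⁻¹ * g) • x)).coeff i := fun γ i => by
    rw [← levelExp_one_smul hR.injective γ D, hD, Finset.smul_sum, map_sum, HahnSeries.coeff_sum]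
    refine Finset.sum_congr rfl fun g _ => ?_
    rw [← toLevelGroup_smul, map_inv, smul_mul', hsmulC, ← mul_smul, map_mul, levelExp_levelC,
      HahnSeries.coeff_single_mul, sub_zero]
  refine ⟨f - D, fun h hh => by rw [smul_sub, hf h hh, hDinv h hh], fun γ => ?_, fun γ i hi => ?_⟩
  · rw [map_sub, map_sub, sub_eq_self]
    ext i
    rw [coeffMap_coeff, hcoeff, map_sum]
    exact Finset.sum_eq_zero fun g _ => by rw [map_mul, map_mul, haker, zero_mul, zero_mul]
  · rw [map_sub, HahnSeries.coeff_sub, hcoeff]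
    rcases hi.lt_or_eq with hlt | rfl
    · rw [hlow γ i hlt, zero_sub, neg_eq_zero]
      exact Finset.sum_eq_zero fun g _ => by rw [hxlow _ _ hlt, mul_zero]
    rw [sub_eq_zero]
    set g₀ := toLevelGroup φ n γ with hg₀
    have hzero : ∀ g, g₀⁻¹ * g ∉ Z → a g * w *
        (levelExp hR.injective 1 ((g₀⁻¹ * g) • x)).coeff (-(e : ℤ)) = 0 := fun g hg => by
      rw [hxtop _ hg, mul_zero]
    have hterm : ∀ g, g₀⁻¹ * g ∈ Z → a g * w *
        (levelExp hR.injective 1 ((g₀⁻¹ * g) • x)).coeff (-(e : ℤ)) =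
        (levelExp hR.injective γ f).coeff (-(e : ℤ)) * ((hτ.unit⁻¹ : Rˣ) : R) := fun g hg => by
      obtain ⟨b, hb⟩ := hg
      have hg : g = g₀ * levelT φ n ^ b := by
        rw [show levelT φ n ^ b = g₀⁻¹ * g from hb, mul_inv_cancel_left]
      subst hg
      rw [inv_mul_cancel_left, levelT_zpow_smul, hw]
      simp only [ha, mul_inv_rev, mul_smul]
      rw [← zpow_neg, levelT_zpow_smul, hg₀, ← map_inv, toLevelGroup_smul]
      apply hR.injective
      simp only [map_mul, map_coeff_T_zpow_smul, levelExp_one_smul]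
      have hz : zetaU n ^ (- -b * -(e : ℤ)) * zetaU n ^ (-b * -(e : ℤ)) = 1 := by
        rw [← zpow_add₀ (zetaU_ne_zero n)]; simp
      have hu : φ ((hx.2.unit⁻¹ : Rˣ) : R) *
          φ ((levelExp hR.injective 1 x).coeff (-(e : ℤ))) = 1 := by
        rw [← map_mul, IsUnit.val_inv_mul, map_one]
      linear_combination (φ ((levelExp hR.injective γ f).coeff (-(e : ℤ))) *
        φ ((hτ.unit⁻¹ : Rˣ) : R)) * (hz * 1 + zetaU n ^ (- -b * -(e : ℤ)) *
          zetaU n ^ (-b * -(e : ℤ)) * hu)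
    rw [← Finset.sum_filter_add_sum_filter_not Finset.univ (fun g => g₀⁻¹ * g ∈ Z),
      Finset.sum_eq_zero fun g hg => hzero g (Finset.mem_filter.mp hg).2, add_zero,
      Finset.sum_congr rfl fun g hg => hterm g (Finset.mem_filter.mp hg).2, Finset.sum_const,
      nsmul_eq_mul]
    have hcard : (Finset.univ.filter fun g => g₀⁻¹ * g ∈ Z).card = Nat.card Z := by
      rw [Nat.card_eq_fintype_card, ← Finset.card_univ (α := Z)]
      exact Finset.card_bij' (fun g hg => ⟨g₀⁻¹ * g, (Finset.mem_filter.mp hg).2⟩)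
        (fun z _ => g₀ * z) (fun _ _ => Finset.mem_univ _)
        (fun z _ => Finset.mem_filter.mpr ⟨Finset.mem_univ _, by simp⟩)
        (fun g _ => by simp) (fun z _ => by simp)
    rw [hcard, mul_left_comm, IsUnit.mul_val_inv hτ, mul_one]

include hR C in
/-- Pole orders can be lowered to those of the reductions. -/
theorem exists_bounded_of_red_bounded (hn : IsUnit (n : R)) {H : Subgroup (levelGroup φ n)}
    {e₀ : ℕ} (he : n ^ 3 ≤ e₀) {f : levelRing φ n} (hf : ∀ h ∈ H, h • f = f)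
    (hred : ∀ (γ : SL(2, ℤ)) (i : ℤ), i < -(e₀ : ℤ) →
      red ((levelExp hR.injective γ f).coeff i) = 0) :
    ∃ f' : levelRing φ n, (∀ h ∈ H, h • f' = f') ∧
      (∀ γ : SL(2, ℤ), coeffMap red (levelExp hR.injective γ f') =
        coeffMap red (levelExp hR.injective γ f)) ∧
      ∀ (γ : SL(2, ℤ)) (i : ℤ), i < -(e₀ : ℤ) → (levelExp hR.injective γ f').coeff i = 0 := by
  suffices key : ∀ (d : ℕ) (f : levelRing φ n), (∀ h ∈ H, h • f = f) →
      (∀ (γ : SL(2, ℤ)) (i : ℤ), i < -(e₀ : ℤ) →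
        red ((levelExp hR.injective γ f).coeff i) = 0) →
      (∀ (γ : SL(2, ℤ)) (i : ℤ), i < -((e₀ + d : ℕ) : ℤ) →
        (levelExp hR.injective γ f).coeff i = 0) →
      ∃ f' : levelRing φ n, (∀ h ∈ H, h • f' = f') ∧
        (∀ γ : SL(2, ℤ), coeffMap red (levelExp hR.injective γ f') =
          coeffMap red (levelExp hR.injective γ f)) ∧
        ∀ (γ : SL(2, ℤ)) (i : ℤ), i < -(e₀ : ℤ) →
          (levelExp hR.injective γ f').coeff i = 0 by
    classical
    haveI := Fintype.ofFinite (levelGroup φ n)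
    refine key (Finset.univ.sup fun g : levelGroup φ n =>
      (levelExp hR.injective 1 (g • f)).order.natAbs) f hf hred fun γ i hi => ?_
    rw [← levelExp_one_smul hR.injective, ← toLevelGroup_smul]
    refine HahnSeries.coeff_eq_zero_of_lt_order (lt_of_lt_of_le hi ?_)
    have h1 := Finset.le_sup (f := fun g : levelGroup φ n =>
      (levelExp hR.injective 1 (g • f)).order.natAbs)
      (Finset.mem_univ (toLevelGroup φ n γ⁻¹))
    push_cast
    omega
  intro d
  induction d with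
  | zero => exact fun f hf _ hlow => ⟨f, hf, fun _ => rfl, fun γ i hi => hlow γ i (by simpa using hi)⟩
  | succ d ih =>
    intro f hf hred hlow
    obtain ⟨f₁, hf₁, hsame, hlow₁⟩ := exists_sub_top hR C red hn (e := e₀ + (d + 1)) (by omega) hf
      hlow fun γ => hred γ _ (by push_cast; omega)
    obtain ⟨f₂, hf₂, hsame₂, hlow₂⟩ := ih f₁ hf₁ (fun γ i hi => by
      have := congrArg (fun F : LaurentSeries K => F.coeff i) (hsame γ)
      simp only [coeffMap_coeff] at this
      rw [this]; exact hred γ i hi) (fun γ i hi => hlow₁ γ i (by push_cast at hi ⊢; omega))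
    exact ⟨f₂, hf₂, fun γ => (hsame₂ γ).trans (hsame γ), hlow₂⟩

end FermatLib.Igusa
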