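import Fermat.Agent.Igusa.LevelAux
import Fermat.Agent.Igusa.LevelCusp
import Fermat.Agent.Igusa.GaussPlaces
import Fermat.Prelude.Def_FLTPrelim_Ramification

/-!
# The auxiliary level and coefficient ring at a prime not dividing `N`
-/

set_option autoImplicit false
set_option linter.style.haveILetI false

noncomputable section

open Function

namespace FermatLib.Igusa

/-- A prime different from `ℓ`, at most `3`. -/
def auxPrime (ℓ : ℕ) : ℕ := if ℓ = 2 then 3 else 2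

theorem auxPrime_mem (ℓ : ℕ) : 2 ≤ auxPrime ℓ ∧ auxPrime ℓ ≤ 3 := by
  unfold auxPrime
  split_ifs <;> omega

/-- The auxiliary level `m ^ 3 * N`. -/
def auxLevel (ℓ N : ℕ) : ℕ := auxPrime ℓ ^ 3 * N

instance neZero_auxLevel (ℓ N : ℕ) [NeZero N] : NeZero (auxLevel ℓ N) :=
  ⟨mul_ne_zero (pow_ne_zero _ (by have := (auxPrime_mem ℓ).1; omega)) (NeZero.ne N)⟩

theorem dvd_auxLevel (ℓ N : ℕ) : N ∣ auxLevel ℓ N := dvd_mul_left _ _

theorem not_dvd_auxLevel {ℓ : ℕ} [hℓ : Fact ℓ.Prime] {N : ℕ} (hℓN : ¬ ℓ ∣ N) :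
    ¬ ℓ ∣ auxLevel ℓ N := by
  intro h
  rcases (Nat.Prime.dvd_mul hℓ.out).mp h with h | h
  · have h2 := (Nat.prime_dvd_prime_iff_eq hℓ.out
      (show (auxPrime ℓ).Prime by unfold auxPrime; split_ifs <;> norm_num)).mp
        (hℓ.out.dvd_of_dvd_pow h)
    unfold auxPrime at h2
    split_ifs at h2 <;> omega
  · exact hℓN h

theorem auxLevel_data (ℓ N : ℕ) [NeZero N] :
    AuxLevel (auxLevel ℓ N) (auxPrime ℓ) (auxPrime ℓ ^ 2 * N) ∧
      CuspParam (auxLevel ℓ N) (((auxPrime ℓ ^ 2 * N : ℕ) : ℤ) + 1) := by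
  obtain ⟨h2, h3⟩ := auxPrime_mem ℓ
  set m := auxPrime ℓ
  have hN : 1 ≤ N := Nat.one_le_iff_ne_zero.mpr (NeZero.ne N)
  set c := m ^ 2 * N with hc
  have hc4 : 4 ≤ c := by rw [hc]; nlinarith
  have hn : auxLevel ℓ N = m * c := by rw [auxLevel, hc]; ring
  have hlt : c + 2 < m * c := by nlinarith
  refine ⟨⟨hn, h2, h3, by omega⟩, ⟨?_, ?_, ?_, by rw [hn]; omega⟩⟩
  · have hdiv : ((auxLevel ℓ N : ℕ) : ℤ) ∣ (c : ℤ) * (c : ℤ) := by
      rw [← Nat.cast_mul, Int.natCast_dvd_natCast, hn]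
      exact mul_dvd_mul_right (Dvd.intro (m * N) (by rw [hc]; ring)) c
    have hcc : IsCoprime ((c : ℤ) + 1) ((c : ℤ) * c) := by
      have : IsCoprime ((c : ℤ) + 1) (c : ℤ) := ⟨1, -1, by ring⟩
      exact this.mul_right this
    exact hcc.of_isCoprime_of_dvd_right hdiv
  · rw [add_sub_cancel_right, Int.natCast_dvd_natCast, hn]
    intro h
    have := Nat.le_of_dvd (by omega) h
    omega
  · intro h
    have h' : ((m * c : ℕ) : ℤ) ∣ ((c + 2 : ℕ) : ℤ) := by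
      rw [← hn]; push_cast; rwa [add_assoc] at h
    have := Nat.le_of_dvd (by omega) (Int.natCast_dvd_natCast.mp h')
    omega

variable {ℓ : ℕ} [hℓ : Fact ℓ.Prime] (A : ValuationSubring (AlgebraicClosure ℚ))

/-- The residue characteristic. -/
theorem charP_residueField_of_lies (hA : A.LiesOverPrime ℓ) :
    CharP (IsLocalRing.ResidueField A) ℓ := by
  obtain ⟨p, hp⟩ := CharP.exists (IsLocalRing.ResidueField A)
  have hℓ0 : (ℓ : IsLocalRing.ResidueField A) = 0 := by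
    rw [← map_natCast (IsLocalRing.residue A) ℓ, IsLocalRing.residue_eq_zero_iff]
    obtain ⟨h, hne⟩ := ValuationSubring.mem_nonunits_iff_exists_mem_maximalIdeal.mp hA
    exact (Subtype.ext (by simp) : (⟨_, h⟩ : A) = (ℓ : A)) ▸ hne
  have hdvd : p ∣ ℓ := (CharP.cast_eq_zero_iff _ p ℓ).mp hℓ0
  rcases (Nat.dvd_prime hℓ.out).mp hdvd with rfl | rfl
  · exact absurd rfl (CharP.char_ne_one (IsLocalRing.ResidueField A) 1)
  · exact hp

/-- `A`, embedded in `ℂ`, is a coefficient ring of every level prime to `ℓ`. -/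
theorem isLevelCoeff_valuationSubring (hA : A.LiesOverPrime ℓ)
    (ι : AlgebraicClosure ℚ →+* ℂ) {n : ℕ} [NeZero n] (hℓn : ¬ ℓ ∣ n) :
    IsLevelCoeff (ι.comp A.subtype) n ∧ IsUnit (n : A) := by
  haveI := charP_residueField_of_lies A hA
  have hnu : IsUnit (n : A) := by
    rw [← IsLocalRing.notMem_maximalIdeal, ← IsLocalRing.residue_eq_zero_iff, map_natCast,
      CharP.cast_eq_zero_iff _ ℓ]
    exact hℓn
  have hinj : Injective (ι.comp A.subtype) := ι.injective.comp Subtype.val_injective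
  refine ⟨⟨hinj, ?_⟩, hnu⟩
  haveI : NeZero (n : AlgebraicClosure ℚ) := ⟨Nat.cast_ne_zero.mpr (NeZero.ne n)⟩
  obtain ⟨z₀, hz₀⟩ := HasEnoughRootsOfUnity.exists_primitiveRoot (AlgebraicClosure ℚ) n
  obtain ⟨i, -, hi⟩ := (hz₀.map_of_injective ι.injective).eq_pow_of_pow_eq_one
    ((isPrimitiveRoot_zetaU n).pow_eq_one)
  set z := z₀ ^ i with hz
  have hzι : ι z = zetaU n := by rw [hz, map_pow, hi]
  have hzp : IsPrimitiveRoot z n :=
    IsPrimitiveRoot.of_map_of_injective (hzι ▸ isPrimitiveRoot_zetaU n) ι.injective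
  have hzA : z ∈ A := by
    rw [← ValuationSubring.valuation_le_one_iff]
    by_contra hlt
    push Not at hlt
    have h1 := congrArg A.valuation hzp.pow_eq_one
    rw [map_pow, map_one] at h1
    exact (one_lt_pow₀ hlt (NeZero.ne n)).ne' h1
  refine ⟨⟨z, hzA⟩, hzι, fun a ha w hw => ?_⟩
  have hzA' : IsPrimitiveRoot (⟨z, hzA⟩ : A) n :=
    IsPrimitiveRoot.of_map_of_injective (f := A.subtype) hzp Subtype.val_injective
  obtain ⟨e, rfl⟩ := Nat.exists_eq_succ_of_ne_zero (NeZero.ne n)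
  have hprod : IsUnit (∏ b ∈ Finset.range e, (1 - (⟨z, hzA⟩ : A) ^ (b + 1))) := by
    rw [IsPrimitiveRoot.prod_one_sub_pow_eq_order hzA']
    simpa using hnu
  set b := (a % ((e + 1 : ℕ) : ℤ)).toNat with hb
  have hb0 : 0 ≤ a % ((e + 1 : ℕ) : ℤ) := Int.emod_nonneg _ (by omega)
  have hblt : a % ((e + 1 : ℕ) : ℤ) < ((e + 1 : ℕ) : ℤ) := Int.emod_lt_of_pos _ (by omega)
  have hbne : a % ((e + 1 : ℕ) : ℤ) ≠ 0 := fun h => ha (Int.dvd_of_emod_eq_zero h)
  have hwb : w = 1 - (⟨z, hzA⟩ : A) ^ b := by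
    apply hinj
    rw [hw, map_sub, map_one, map_pow, RingHom.comp_apply]
    show 1 - zetaU (e + 1) ^ a = 1 - ι z ^ b
    rw [hzι, ← zpow_natCast, hb, Int.toNat_of_nonneg hb0]
    congr 1
    nth_rw 1 [← Int.mul_ediv_add_emod a ((e + 1 : ℕ) : ℤ)]
    rw [zpow_add₀ (zetaU_ne_zero _), zpow_mul, zpow_natCast,
      (isPrimitiveRoot_zetaU (e + 1)).pow_eq_one, one_zpow, one_mul]
  rw [hwb]
  have hb1 : b - 1 < e := by omega
  have h1 := IsUnit.prod_iff.mp hprod (b - 1) (Finset.mem_range.mpr hb1)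
  rwa [Nat.sub_add_cancel (by omega)] at h1

end FermatLib.Igusa
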