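import Fermat.Agent.Igusa.LevelSpecial

/-!
# Reductions at the other cusps

If invariant functions satisfy no more relations over `k[j]` after reduction than before, an
invariant function whose reduction at `∞` vanishes reduces to zero at every cusp. Hence pole bounds
for the reduction at `∞`, expressed by integrality over `k[1/j]`, hold at every cusp.
-/

set_option autoImplicit false
set_option linter.style.haveILetI false
set_option maxHeartbeats 400000

noncomputable section

open Function Polynomial ModularCurve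
open scoped MatrixGroups

namespace FermatLib.Igusa

variable {k : Type*} [Field k] {n : ℕ} [NeZero n] {R : Type*} [CommRing R] {φ : R →+* ℂ}

variable (n) in
/-- At most `ψ` invariant functions are independent over `R[j]` after clearing, and `ψ` of their
reductions are independent over `k[j]`. -/
structure SpecialRank (hφ : Injective φ) (red : R →+* k) (H : Subgroup (levelGroup φ n))
    (ψ : ℕ) : Prop where
  dependent : ∀ t : Fin (ψ + 1) → levelRing φ n, (∀ i, ∀ h ∈ H, h • t i = t i) →
    ∃ P : Fin (ψ + 1) → R[X], (∃ i, (P i).map red ≠ 0) ∧ ∑ i, levelPoly φ n (P i) * t i = 0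
  independent : ∃ u : Fin ψ → levelRing φ n, (∀ i, ∀ h ∈ H, h • u i = u i) ∧
    ∀ P : Fin ψ → k[X], ∑ i, aeval (jSpecial k n) (P i) * specialRed hφ red (u i) = 0 →
      ∀ i, P i = 0

theorem coeffMap_levelExp_levelPoly_any (hφ : Injective φ) (red : R →+* k) (γ : SL(2, ℤ)) (P : R[X]) :
    coeffMap red (levelExp hφ γ (levelPoly φ n P)) = aeval (jSpecial k n) (P.map red) := by
  rw [← specialRed_levelPoly hφ red, specialRed, RingHom.comp_apply]
  congr 1
  obtain ⟨δ, rfl⟩ : ∃ δ, δ⁻¹ = γ := ⟨γ⁻¹, inv_inv γ⟩
  rw [← levelExp_one_smul hφ, inv_inv, ← toLevelGroup_smul, smul_levelPoly]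

variable {hφ : Injective φ} {red : R →+* k} {H : Subgroup (levelGroup φ n)} {ψ : ℕ}

/-- Vanishing of the reduction at `∞` implies vanishing at every cusp. -/
theorem SpecialRank.red_levelExp_eq_zero (hS : SpecialRank n hφ red H ψ) {f : levelRing φ n}
    (hf : ∀ h ∈ H, h • f = f) (h0 : specialRed hφ red f = 0) (γ : SL(2, ℤ)) :
    coeffMap red (levelExp hφ γ f) = 0 := by
  obtain ⟨u, hu, hind⟩ := hS.independent
  obtain ⟨P, ⟨i₀, hi₀⟩, hP⟩ := hS.dependent (Fin.snoc u f) fun i => by
    induction i using Fin.lastCases with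
    | last => simpa using hf
    | cast i => simpa using hu i
  rw [Fin.sum_univ_castSucc] at hP
  simp only [Fin.snoc_castSucc, Fin.snoc_last] at hP
  have h1 := congrArg (specialRed hφ red) hP
  simp only [map_add, map_sum, map_mul, map_zero, specialRed_levelPoly, h0, mul_zero,
    add_zero] at h1
  have hz := hind _ h1
  have hlast : (P (Fin.last ψ)).map red ≠ 0 := by
    induction i₀ using Fin.lastCases with
    | last => exact hi₀
    | cast i => exact absurd (hz i) hi₀
  have h2 := congrArg (fun x => coeffMap red (levelExp hφ γ x)) hP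
  simp only [map_add, map_sum, map_mul, map_zero, coeffMap_levelExp_levelPoly_any, hz, zero_mul,
    Finset.sum_const_zero, zero_add, mul_eq_zero] at h2
  exact h2.resolve_left fun h => hlast (jSpecial_injective n (h.trans (map_zero _).symm))

/-- Laurent series integral over `k[1/j]` have no negative coefficients. -/
theorem coeff_eq_zero_of_isIntegral_inv {x : LaurentSeries k}
    (hx : IsIntegral (Algebra.adjoin k {(jSpecial k n)⁻¹}) x) {i : ℤ} (hi : i < 0) :
    x.coeff i = 0 := by
  classical
  obtain ⟨h0, hord⟩ := order_jSpecial (k := k) n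
  have hinv : ∃ p : PowerSeries k, HahnSeries.ofPowerSeries ℤ k p = (jSpecial k n)⁻¹ := by
    obtain ⟨G, hG, hGu⟩ := (show UnitLead (jSpecial k n) (-(n : ℤ)) from
      ⟨fun i hi => HahnSeries.coeff_eq_zero_of_lt_order (hord ▸ hi),
        (hord ▸ HahnSeries.coeff_order_eq_zero.not.mpr h0 : _ ≠ (0 : k)).isUnit⟩).exists_inv
    rw [inv_eq_of_mul_eq_one_right hG]
    refine ⟨PowerSeries.mk fun j : ℕ => G.coeff (j + 0), ?_⟩
    conv_rhs => rw [eq_single_mul_mk G (m := 0) fun j hj => hGu.1 j (by omega)]
    simp
  have hmem : ∀ y ∈ Algebra.adjoin k {(jSpecial k n)⁻¹},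
      ∃ p : PowerSeries k, algebraMap (PowerSeries k) (LaurentSeries k) p = y := by
    intro y hy
    induction hy using Algebra.adjoin_induction with
    | mem y hy => rw [Set.mem_singleton_iff.mp hy]; exact hinv
    | algebraMap c =>
      refine ⟨PowerSeries.C c, ?_⟩
      rw [algebraMap_laurentSeries_eq_single]
      exact HahnSeries.ofPowerSeries_C c
    | add u v _ _ hu hv =>
      obtain ⟨p, rfl⟩ := hu
      obtain ⟨q, rfl⟩ := hv
      exact ⟨p + q, map_add _ _ _⟩
    | mul u v _ _ hu hv =>
      obtain ⟨p, rfl⟩ := hu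
      obtain ⟨q, rfl⟩ := hv
      exact ⟨p * q, map_mul _ _ _⟩
  obtain ⟨q, hq, hqx⟩ := hx
  obtain ⟨Q, hQ, -, hQm⟩ := lifts_and_natDegree_eq_and_monic
    (p := q.map (algebraMap (Algebra.adjoin k {(jSpecial k n)⁻¹}) (LaurentSeries k)))
    (f := algebraMap (PowerSeries k) (LaurentSeries k))
    ((lifts_iff_coeff_lifts _).mpr fun j => by
      rw [coeff_map]
      exact hmem _ (q.coeff j).2) (hq.map _)
  obtain ⟨p, rfl⟩ : ∃ p : PowerSeries k, algebraMap (PowerSeries k) (LaurentSeries k) p = x :=
    IsIntegrallyClosed.isIntegral_iff.mp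
      ⟨Q, hQm, by rw [← eval_map, hQ, eval_map]; exact hqx⟩
  exact ofPowerSeries_coeff_of_neg p hi

/-- Integrality of the reduction over `k[1/j]` bounds the reductions at all cusps. -/
theorem SpecialRank.red_coeff_eq_zero (hred : Surjective red) (hS : SpecialRank n hφ red H ψ)
    {f : levelRing φ n} (hf : ∀ h ∈ H, h • f = f) {m : ℕ}
    (hint : IsIntegral (Algebra.adjoin k {(jSpecial k n)⁻¹})
      (specialRed hφ red f / jSpecial k n ^ m))
    (γ : SL(2, ℤ)) {i : ℤ} (hi : i < -((n * m : ℕ) : ℤ)) :
    red ((levelExp hφ γ f).coeff i) = 0 := by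
  classical
  obtain ⟨h0, hord⟩ := order_jSpecial (k := k) n
  set jn := jSpecial k n with hjn
  set g := coeffMap red (levelExp hφ γ f) with hg
  have hgint : IsIntegral (Algebra.adjoin k {jn⁻¹}) (g / jn ^ m) := by
    obtain ⟨q, hq, hqx⟩ := hint
    refine ⟨q, hq, ?_⟩
    have hc : ∀ a, ∃ c : k[X], aeval jn⁻¹ c =
        (q.coeff a : LaurentSeries k) := fun a => by
      have h1 : (q.coeff a : LaurentSeries k) ∈ (aeval (R := k) jn⁻¹).range :=
        (Algebra.adjoin_singleton_eq_range_aeval k jn⁻¹).le (q.coeff a).2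
      exact h1
    choose c hc using hc
    set r := q.natDegree with hr
    set D := (Finset.range (r + 1)).sup (fun a => (c a).natDegree) with hD
    -- clear denominators
    set P : ℕ → k[X] := fun a =>
      ∑ b ∈ Finset.range (D + 1), C ((c a).coeff b) * X ^ (D - b + m * (r - a)) with hP
    have hP' : ∀ a ∈ Finset.range (r + 1), ∀ y : LaurentSeries k,
        (q.coeff a : LaurentSeries k) * (y / jn ^ m) ^ a * jn ^ (D + m * r) =
          aeval jn (P a) * y ^ a := by
      intro a ha y
      have hca : (c a).natDegree < D + 1 :=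
        Nat.lt_succ_iff.mpr (Finset.le_sup (f := fun a => (c a).natDegree) ha)
      rw [← hc a, aeval_eq_sum_range' hca, hP, map_sum, Finset.sum_mul, Finset.sum_mul,
        Finset.sum_mul]
      refine Finset.sum_congr rfl fun b hb => ?_
      rw [map_mul, aeval_C, map_pow, aeval_X, Algebra.smul_def, div_pow, inv_pow, ← pow_mul,
        mul_assoc, mul_assoc, mul_assoc]
      congr 1
      have hb' : b ≤ D := Nat.lt_succ_iff.mp (Finset.mem_range.mp hb)
      have ha' : a ≤ r := Nat.lt_succ_iff.mp (Finset.mem_range.mp ha)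
      have hexp : b + (m * a + (D - b + m * (r - a))) = D + m * r := by
        have : m * a + m * (r - a) = m * r := by rw [← mul_add, Nat.add_sub_cancel' ha']
        omega
      rw [← hexp, pow_add, pow_add]
      field_simp
    choose Pl hPl using fun a => map_surjective red hred (P a)
    set F : levelRing φ n := ∑ a ∈ Finset.range (r + 1), levelPoly φ n (Pl a) * f ^ a with hF
    have hFfix : ∀ h ∈ H, h • F = F := fun h hh => by
      rw [hF, Finset.smul_sum]
      exact Finset.sum_congr rfl fun a _ => by rw [smul_mul', smul_pow', smul_levelPoly, hf h hh]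
    have hsum : ∀ y : LaurentSeries k, eval₂ (algebraMap _ (LaurentSeries k)) (y / jn ^ m) q *
        jn ^ (D + m * r) = ∑ a ∈ Finset.range (r + 1), aeval jn (P a) * y ^ a := fun y => by
      rw [eval₂_eq_sum_range, Finset.sum_mul, ← hr]
      exact Finset.sum_congr rfl fun a ha => hP' a ha y
    have hF0 : specialRed hφ red F = 0 := by
      rw [hF, map_sum]
      refine Eq.trans (Finset.sum_congr rfl fun a _ => ?_)
        ((hsum (specialRed hφ red f)).symm.trans (by rw [hqx, zero_mul]))
      rw [map_mul, map_pow, specialRed_levelPoly, hPl]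
    have h1 := hS.red_levelExp_eq_zero hFfix hF0 γ
    rw [hF, map_sum, map_sum] at h1
    have h2 : eval₂ (algebraMap _ (LaurentSeries k)) (g / jn ^ m) q * jn ^ (D + m * r) = 0 := by
      rw [hsum g, ← h1]
      refine Finset.sum_congr rfl fun a _ => ?_
      rw [map_mul, map_mul, map_pow, map_pow, coeffMap_levelExp_levelPoly_any, hPl]
    exact (mul_eq_zero.mp h2).resolve_right (pow_ne_zero _ h0)
  have h3 : ∀ j < (0 : ℤ), (g / jn ^ m).coeff j = 0 := fun j hj =>
    coeff_eq_zero_of_isIntegral_inv hgint hj
  have h4 : ∀ j < -((n * m : ℕ) : ℤ), (jn ^ m).coeff j = 0 := fun j hj => by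
    refine HahnSeries.coeff_eq_zero_of_lt_order ?_
    rw [HahnSeries.order_pow, hjn, hord, nsmul_eq_mul, mul_neg]
    push_cast at hj
    linarith [mul_comm (m : ℤ) (n : ℤ)]
  have h5 : g.coeff i = 0 := by
    rw [← div_mul_cancel₀ g (pow_ne_zero m h0)]
    exact coeff_mul_of_lt h3 h4 (by simpa using hi)
  simpa [hg] using h5

end FermatLib.Igusa
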