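import Fermat.Agent.Igusa.LevelGeneric
import Fermat.Agent.Igusa.LevelSetup
import Fermat.Agent.Igusa.LevelSpecialBound
import Fermat.Agent.Igusa.DegreeInputModL

/-!
# Ranks of the invariants of `Γ₀(N)` before and after reduction
-/

set_option autoImplicit false
set_option linter.style.haveILetI false
set_option synthInstance.maxHeartbeats 400000

noncomputable section

open Function Polynomial ModularCurve

namespace FermatLib.Igusa

section Adjoin

/-- Integrality over `K[x]` is preserved by algebra maps. -/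
theorem isIntegral_adjoin_map {K S S' : Type*} [CommRing K] [CommRing S] [CommRing S']
    [Algebra K S] [Algebra K S'] (f : S →ₐ[K] S') {x y : S}
    (h : IsIntegral (Algebra.adjoin K {x}) y) : IsIntegral (Algebra.adjoin K {f x}) (f y) := by
  obtain ⟨q, hq, hqy⟩ := h
  have hle : ∀ a : Algebra.adjoin K {x}, f a ∈ Algebra.adjoin K {f x} := fun a => by
    rw [show Algebra.adjoin K ({f x} : Set S') = (Algebra.adjoin K {x}).map f by
      rw [AlgHom.map_adjoin, Set.image_singleton]]
    exact ⟨a, a.2, rfl⟩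
  let g : Algebra.adjoin K {x} →ₐ[K] Algebra.adjoin K {f x} :=
    (f.comp (Algebra.adjoin K {x}).val).codRestrict _ hle
  refine ⟨q.map g.toRingHom, hq.map _, ?_⟩
  rw [eval₂_map, show (algebraMap (Algebra.adjoin K {f x}) S').comp g.toRingHom =
      f.toRingHom.comp (algebraMap (Algebra.adjoin K {x}) S) from rfl]
  exact (hom_eval₂ q _ f.toRingHom y).symm.trans (by rw [hqy, map_zero])

end Adjoin

section Special

variable {k : Type*} [Field k] {R : Type*} [CommRing R] {φ : R →+* ℂ} {n N : ℕ} [NeZero n]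
  [NeZero N] (hR : HasLevelZeta φ n) (hN : N ∣ n) (red : R →+* k)

variable (φ n N) in
/-- The image of `Γ₀(N)`. -/
def levelGamma0 : Subgroup (levelGroup φ n) :=
  (CongruenceSubgroup.Gamma0 N).map (toLevelGroup φ n)

theorem smul_jLevel_levelGamma0 {d : ℕ} [NeZero d] (hd : d ∣ N) :
    ∀ h ∈ levelGamma0 φ n N,
      h • jLevel hR d (hd.trans hN) = jLevel hR d (hd.trans hN) := by
  rintro _ ⟨γ, hγ, rfl⟩
  rw [toLevelGroup_smul]
  exact Subtype.ext (funext fun τ => by
    rw [coe_levelSmul, coe_jLevel, Modular.jScaleFun_smul_of_mem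
      ((Int.natCast_dvd_natCast.mpr hd).trans
        (Modular.Gamma0_mem_iff_dvd.mp (inv_mem hγ)))])

theorem specialRed_jLevel {d : ℕ} [NeZero d] (hd : d ∣ n) :
    specialRed hR.injective red (jLevel hR d hd) = qExpand k n (qExpand k d (jqModC k)) := by
  haveI : NeZero (n * d) := ⟨mul_ne_zero (NeZero.ne n) (NeZero.ne d)⟩
  rw [specialRed, RingHom.comp_apply, levelExp_one_jLevel hR hd, coeffMap_qExpand,
    coeffMap_jqModC', ← qExpand_qExpand d n (jqModC k)]

include hR hN in
theorem qExpand_mem_adjoin_specialRed {h : LaurentSeries k}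
    (hh : h ∈ modularFunctionFieldFullC k N) :
    qExpand k n h ∈ IntermediateField.adjoin k
      (specialRed (n := n) hR.injective red ''
        {t : levelRing φ n | ∀ g ∈ levelGamma0 φ n N, g • t = t}) := by
  have h1 : qExpand k n h ∈ (modularFunctionFieldFullC k N).map (qExpandAlgHomC k n) :=
    ⟨h, hh, qExpandAlgHomC_apply k n h⟩
  rw [modularFunctionFieldFullC, IntermediateField.adjoin_map] at h1
  refine IntermediateField.adjoin.mono k _ _ ?_ h1
  rintro _ ⟨_, ⟨d, hd0, hd, rfl⟩, rfl⟩
  exact ⟨jLevel hR d (hd.trans hN), smul_jLevel_levelGamma0 hR hN hd,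
    (specialRed_jLevel hR red (hd.trans hN)).trans (qExpandAlgHomC_apply k n _).symm⟩

include hR hN in
theorem exists_independent (hk : (N : k) ≠ 0) :
    ∃ u : Fin (dedekindPsi N) → levelRing φ n,
      (∀ i, ∀ h ∈ levelGamma0 φ n N, h • u i = u i) ∧
      ∀ P : Fin (dedekindPsi N) → k[X],
        ∑ i, aeval (jSpecial k n) (P i) * specialRed hR.injective red (u i) = 0 →
          ∀ i, P i = 0 := by
  refine ⟨fun i => jLevel hR N hN ^ (i : ℕ), fun i h hh => ?_, fun P hP i => ?_⟩
  · rw [smul_pow', smul_jLevel_levelGamma0 hR hN dvd_rfl h hh]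
  · refine congrFun (eq_zero_of_sum_aeval_mul_jqNModC_pow k N hk P ?_) i
    refine qExpand_injective n ?_
    rw [map_zero, map_sum, ← hP]
    refine Finset.sum_congr rfl fun i _ => ?_
    rw [map_mul, map_pow, map_pow, aeval_jSpecial, specialRed_jLevel, jqNModC]

end Special

section Generic

variable (A : ValuationSubring (AlgebraicClosure ℚ)) (ι : AlgebraicClosure ℚ →+* ℂ)
variable (n N : ℕ) [NeZero n] [NeZero N] (hN : N ∣ n)

include hN in
theorem exists_dependent (hφ : Injective (ι.comp A.subtype))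
    (t : Fin (dedekindPsi N + 1) → levelRing (ι.comp A.subtype) n)
    (ht : ∀ i, ∀ h ∈ levelGamma0 (ι.comp A.subtype) n N, h • t i = t i) :
    ∃ P : Fin (dedekindPsi N + 1) → Polynomial A,
      (∃ i, (P i).map (IsLocalRing.residue A) ≠ 0) ∧
        ∑ i, levelPoly (ι.comp A.subtype) n (P i) * t i = 0 := by
  classical
  choose y hy hyF _hyi using fun i => exists_series_of_fixed A ι n N hN hφ (ht i)
  set F := laurentBaseChange (AlgebraicClosure ℚ) (modularFunctionFieldFull N)
  set jE := Modular.jElem (AlgebraicClosure ℚ) N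
  haveI := Modular.finiteDimensional_adjoin_jElem (AlgebraicClosure ℚ) N
  have hdep : ¬ LinearIndependent (IntermediateField.adjoin (AlgebraicClosure ℚ) {jE})
      (fun i => (⟨latVal A (y i), hyF i⟩ : F)) := fun hli => by
    have := hli.fintype_card_le_finrank
    rw [Fintype.card_fin, Modular.finrank_adjoin_jElem] at this
    omega
  obtain ⟨c, hc, i₁, hi₁⟩ := Fintype.not_linearIndependent_iff.mp hdep
  have hfrac : ∀ i, ∃ r s : Polynomial (AlgebraicClosure ℚ), aeval jE s ≠ 0 ∧
      (c i : F) * aeval jE s = aeval jE r := by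
    intro i
    obtain ⟨r, s, hrs⟩ :=
      (IntermediateField.mem_adjoin_simple_iff (AlgebraicClosure ℚ) (c i : F)).mp (c i).2
    by_cases hs : aeval jE s = 0
    · refine ⟨0, 1, by simp, ?_⟩
      rw [hrs, hs, div_zero, zero_mul, map_zero]
    · exact ⟨r, s, hs, by rw [hrs, div_mul_cancel₀ _ hs]⟩
  choose r s hs hrs using hfrac
  set Q : Fin (dedekindPsi N + 1) → Polynomial (AlgebraicClosure ℚ) :=
    fun i => r i * ∏ j ∈ Finset.univ.erase i, s j with hQ
  have hsum : ∑ i, aeval jE (Q i) * (⟨latVal A (y i), hyF i⟩ : F) = 0 := by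
    have h0 : (∑ i, c i • (⟨latVal A (y i), hyF i⟩ : F)) * aeval jE (∏ j, s j) = 0 := by
      rw [hc, zero_mul]
    rw [← h0, Finset.sum_mul]
    refine Finset.sum_congr rfl fun i _ => ?_
    rw [IntermediateField.smul_def, smul_eq_mul, hQ,
      ← Finset.mul_prod_erase Finset.univ s (Finset.mem_univ i), map_mul, map_mul, ← hrs i]
    ring
  have hQ0 : Q i₁ ≠ 0 := by
    intro h
    have h1 : aeval jE (Q i₁) = 0 := by rw [h, map_zero]
    rw [hQ, map_mul, ← hrs i₁, map_prod] at h1
    rcases mul_eq_zero.mp h1 with h2 | h2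
    · rcases mul_eq_zero.mp h2 with h3 | h3
      · exact hi₁ (Subtype.ext h3)
      · exact hs i₁ h3
    · exact Finset.prod_ne_zero_iff.mpr (fun j _ => hs j) h2
  set B := (Finset.univ.sup fun i => (Q i).natDegree) + 1 with hB
  have hQB : ∀ i, (Q i).natDegree < B := fun i =>
    Nat.lt_succ_of_le (Finset.le_sup (f := fun i => (Q i).natDegree) (Finset.mem_univ i))
  obtain ⟨z, hz, hzA⟩ := ConstantReduction.exists_scale_coeffs A
    (c := fun p : Fin (dedekindPsi N + 1) × Fin B => (Q p.1).coeff p.2)
    ⟨(i₁, ⟨(Q i₁).natDegree, hQB i₁⟩), leadingCoeff_ne_zero.mpr hQ0⟩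
  set u := ((Q z.1).coeff z.2)⁻¹ with hu
  have hlift : ∀ i, ∃ P : Polynomial A, P.map A.subtype = C u * Q i := fun i =>
    ⟨∑ b : Fin B, monomial (b : ℕ) ⟨u * (Q i).coeff b, hzA (i, b)⟩, by
      conv_rhs => rw [as_sum_range' (Q i) B (hQB i), Finset.mul_sum]
      rw [Polynomial.map_sum, ← Fin.sum_univ_eq_sum_range
        (fun b => C u * monomial b ((Q i).coeff b))]
      exact Finset.sum_congr rfl fun b _ => by rw [map_monomial, C_mul_monomial]; rfl⟩
  choose P hP using hlift
  refine ⟨P, ⟨z.1, fun h => ?_⟩, ?_⟩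
  · have h1 : (P z.1).coeff z.2 = 1 := Subtype.ext (by
      have := congrArg (fun q : Polynomial (AlgebraicClosure ℚ) => q.coeff z.2) (hP z.1)
      simp only [coeff_map, coeff_C_mul, hu] at this
      rw [inv_mul_cancel₀ hz] at this
      exact this)
    have h2 := congrArg (fun q : Polynomial _ => q.coeff z.2) h
    simp only [coeff_map, h1, map_one, coeff_zero] at h2
    exact one_ne_zero h2
  · refine levelExp_injective hφ 1 ?_
    rw [map_zero, map_sum]
    have hexp : ∀ i, levelExp hφ 1 (levelPoly (ι.comp A.subtype) n (P i) * t i) =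
        qExpand A n (eval₂ HahnSeries.C (jqModC A) (P i) * y i) := fun i => by
      rw [map_mul, map_mul, hy i, levelPoly, coe_eval₂RingHom, hom_eval₂, hom_eval₂,
        levelExp_levelJ]
      congr 2
      ext1 a
      rw [RingHom.comp_apply, RingHom.comp_apply, levelExp_levelC, qExpand_C, HahnSeries.C_apply]
    rw [Finset.sum_congr rfl fun i _ => hexp i, ← map_sum,
      map_eq_zero_iff _ (qExpand_injective n)]
    apply latVal_injective
    rw [map_zero, map_sum]
    have hval : ∀ i, latVal A (eval₂ HahnSeries.C (jqModC A) (P i) * y i) =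
        algebraMap (AlgebraicClosure ℚ) _ u *
          ((aeval jE (Q i) * (⟨latVal A (y i), hyF i⟩ : F) : F) :
            LaurentSeries (AlgebraicClosure ℚ)) := fun i => by
      have hcomp : (latVal A).comp (HahnSeries.C (Γ := ℤ) (R := A)) =
          (algebraMap (AlgebraicClosure ℚ) (LaurentSeries (AlgebraicClosure ℚ))).comp A.subtype := by
        ext1 a
        rw [RingHom.comp_apply, RingHom.comp_apply, HahnSeries.C_apply, latVal_single,
          algebraMap_laurentSeries_eq_single]
        rfl
      have hcoe : ((aeval jE (Q i) : F) : LaurentSeries (AlgebraicClosure ℚ)) =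
          aeval (coeffEmb (AlgebraicClosure ℚ) jq) (Q i) := Modular.coe_aeval_jElem _ N (Q i)
      rw [map_mul, hom_eval₂, hcomp, ← eval₂_map, hP, ← aeval_def, IntermediateField.coe_mul,
        hcoe, map_mul, aeval_C, ← mul_assoc]
      congr 3
      rw [latVal, coeffMap_jqModC', ← coeffMap_jqModC' (algebraMap ℚ (AlgebraicClosure ℚ))]
      rfl
    rw [Finset.sum_congr rfl fun i _ => hval i, ← Finset.mul_sum,
      ← AddSubmonoidClass.coe_finsetSum, hsum, ZeroMemClass.coe_zero, mul_zero]

/-- The rank hypothesis at a place of residue characteristic prime to `N`. -/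
theorem specialRank_valuationSubring (hR : HasLevelZeta (ι.comp A.subtype) n) (hN : N ∣ n)
    (hk : (N : IsLocalRing.ResidueField A) ≠ 0) :
    SpecialRank n hR.injective (IsLocalRing.residue A) (levelGamma0 (ι.comp A.subtype) n N)
      (dedekindPsi N) :=
  ⟨exists_dependent A ι n N hN hR.injective, exists_independent hR hN _ hk⟩

end Generic

end FermatLib.Igusa
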