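import Fermat.Agent.Igusa.DegreeInputModL
import Fermat.Agent.Igusa.LaurentLattice
import Fermat.Agent.Igusa.LevelLiftRank
import Fermat.Prelude.Def_GaloisRep_ComplexConjugation

/-!
# Lifting functions with poles at the cusps from the special fibre

For `ℓ ∤ N` and a place `A` of `ℚ̄` over `ℓ`, every function on the special fibre of `X₀(N)` that
is integral over `k[j]` and, after division by `j ^ m`, over `k[1/j]` is the reduction of such a
function of the generic fibre, as soon as `m` is large.
-/

set_option autoImplicit false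
set_option synthInstance.maxHeartbeats 400000

noncomputable section

open ModularCurve

namespace FermatLib.Igusa

theorem exists_lift_of_isIntegral {ℓ : ℕ} [Fact ℓ.Prime] (N : ℕ) [NeZero N] (hℓN : ¬ ℓ ∣ N)
    (A : ValuationSubring (AlgebraicClosure ℚ)) (hA : A.LiesOverPrime ℓ) :
    ∃ n₀ : ℕ, ∀ m : ℕ, n₀ ≤ m →
      ∀ h : LaurentSeries (IsLocalRing.ResidueField A),
        h ∈ modularFunctionFieldFullC (IsLocalRing.ResidueField A) N →
        IsIntegral (Algebra.adjoin (IsLocalRing.ResidueField A)
          {jqModC (IsLocalRing.ResidueField A)}) h →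
        IsIntegral (Algebra.adjoin (IsLocalRing.ResidueField A)
          {(jqModC (IsLocalRing.ResidueField A))⁻¹})
          (h / jqModC (IsLocalRing.ResidueField A) ^ m) →
        ∃ y : LaurentSeries A,
          latVal A y ∈ modularFunctionFieldBar N ∧
          IsIntegral (Algebra.adjoin (AlgebraicClosure ℚ) {jqModC (AlgebraicClosure ℚ)})
            (latVal A y) ∧
          IsIntegral (Algebra.adjoin (AlgebraicClosure ℚ) {(jqModC (AlgebraicClosure ℚ))⁻¹})
            (latVal A y / jqModC (AlgebraicClosure ℚ) ^ m) ∧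
          latRed (IsLocalRing.residue A) y = h := by
  set n := auxLevel ℓ N with hn
  haveI := isAlgClosed_residueField A
  haveI := charP_residueField_of_lies A hA
  set k := IsLocalRing.ResidueField A with hk
  set red := IsLocalRing.residue A with hred
  obtain ⟨L, C⟩ := auxLevel_data ℓ N
  let ι : AlgebraicClosure ℚ →+* ℂ := complexEmbedding.toRingHom
  have hℓn : ¬ ℓ ∣ n := not_dvd_auxLevel hℓN
  obtain ⟨hR, hnu⟩ := isLevelCoeff_valuationSubring A hA ι hℓn
  have hN : N ∣ n := dvd_auxLevel ℓ N
  have hR' : HasLevelZeta (ι.comp A.subtype) n :=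
    ⟨hR.injective, hR.exists_zeta.imp fun _ h => h.1⟩
  have hS := specialRank_valuationSubring A ι n N hR' hN (natCast_residueField_ne_zero hℓN A hA)
  refine ⟨n ^ 2, fun m hm h hh hint hinf => ?_⟩
  have hjn : qExpandAlgHomC k n (jqModC k) = jSpecial k n := qExpandAlgHomC_apply k n _
  have hintn : IsIntegral (Algebra.adjoin k {jSpecial k n}) (qExpand k n h) := by
    have h1 := isIntegral_adjoin_map (qExpandAlgHomC k n) hint
    rwa [hjn, qExpandAlgHomC_apply] at h1
  obtain ⟨t, ht, htz⟩ := exists_fixed_specialRed_eq hR L C IsLocalRing.residue_surjective hℓn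
    (levelGamma0 (ι.comp A.subtype) n N) (qExpand_mem_adjoin_specialRed hR' hN red hh) hintn
  have hinfn : IsIntegral (Algebra.adjoin k {(jSpecial k n)⁻¹})
      (specialRed hR.injective red t / jSpecial k n ^ m) := by
    have h1 := isIntegral_adjoin_map (qExpandAlgHomC k n) hinf
    rw [map_inv₀, map_div₀, map_pow, hjn, qExpandAlgHomC_apply] at h1
    rwa [htz]
  have hbound : n ^ 3 ≤ n * m := by
    rw [pow_succ']
    exact Nat.mul_le_mul_left n hm
  obtain ⟨f, hf, hsame, hlow⟩ := exists_bounded_of_red_bounded hR C red hnu hbound ht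
    fun γ i hi => hS.red_coeff_eq_zero IsLocalRing.residue_surjective ht hinfn γ hi
  obtain ⟨y, hy, hyF, hyj⟩ := exists_series_of_fixed A ι n N hN hR.injective hf
  refine ⟨y, hyF, hyj, isIntegral_div_of_bound A ι n hR.injective hlow hy, ?_⟩
  refine qExpand_injective n ?_
  rw [← htz, latRed, ← coeffMap_qExpand, ← hy]
  exact hsame 1

end FermatLib.Igusa
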