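import Fermat.Agent.Igusa.GenusCompare
import Fermat.Agent.Igusa.PolarIntegral
import Fermat.Agent.Igusa.SpecialLift
import Fermat.Agent.Igusa.CuspLatticeModL

/-!
The reduction inputs for `X₀(N)` modulo a prime not dividing the level: preservation of degree and
genus, hence `ReductionInputsModL` and a smooth lattice at the cusp at infinity.
-/

set_option autoImplicit false
set_option linter.style.haveILetI false
set_option synthInstance.maxHeartbeats 400000

noncomputable section

open AlgebraicCurve ModularCurve

namespace FermatLib.Igusa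

variable {ℓ : ℕ} [Fact ℓ.Prime] (N : ℕ) [NeZero N] (hℓN : ¬ ℓ ∣ N)
variable (A : ValuationSubring (AlgebraicClosure ℚ)) (hA : A.LiesOverPrime ℓ)

include hℓN hA in
/-- The functions of bounded pole order at the cusps lift from the special fibre. -/
theorem specialLiftInput_modL
    [Curve.IsFunctionField (AlgebraicClosure ℚ)
      (laurentBaseChange (AlgebraicClosure ℚ) (modularFunctionFieldFull N))]
    [Curve.IsFunctionField (IsLocalRing.ResidueField A)
      (modularFunctionFieldFullC (IsLocalRing.ResidueField A) N)] :
    SpecialLiftInput A (IsLocalRing.residue A) N := by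
  set π := IsLocalRing.residue A
  obtain ⟨n₀, hlift⟩ := exists_lift_of_isIntegral N hℓN A hA
  refine ⟨n₀, fun n hn h hh => ?_⟩
  have hjk : specialFun A π N (jInt A π N) ≠ 0 := fun h0 =>
    transcendental_specialFun_jInt A π N (by rw [h0]; exact isAlgebraic_zero)
  have hjL : genericFun A π N (jInt A π N) ≠ 0 := fun h0 =>
    transcendental_genericFun_jInt A π N (by rw [h0]; exact isAlgebraic_zero)
  obtain ⟨h1, h2⟩ := (mem_riemannRochSpace_polar_iff hjk n h).mp hh
  set φ := (modularFunctionFieldFullC (IsLocalRing.ResidueField A) N).val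
  set ψ := (laurentBaseChange (AlgebraicClosure ℚ) (modularFunctionFieldFull N)).val
  have hφ : φ (specialFun A π N (jInt A π N)) = jqModC (IsLocalRing.ResidueField A) :=
    coe_specialFun_jInt A π N
  have hψ : ψ (genericFun A π N (jInt A π N)) = jqModC (AlgebraicClosure ℚ) :=
    coe_genericFun_jInt A π N
  obtain ⟨y, hy, hy1, hy2, hyh⟩ := hlift n hn (φ h) h.2
    ((isIntegral_adjoin_map_iff φ hφ rfl).mpr h1)
    ((isIntegral_adjoin_map_iff φ (by rw [map_inv₀, hφ]) (by rw [map_div₀, map_pow, hφ])).mpr h2)
  have hred : coeffMap π y = (h : LaurentSeries _) := hyh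
  refine ⟨⟨y, (mem_integralSeries A π N).mpr ⟨hy, hred ▸ h.2⟩⟩, ?_, Subtype.ext hred⟩
  rw [mem_riemannRochSpace_polar_iff hjL]
  exact ⟨(isIntegral_adjoin_map_iff ψ hψ (w := latVal A y) rfl).mp hy1,
    (isIntegral_adjoin_map_iff ψ (u := (jqModC (AlgebraicClosure ℚ))⁻¹)
      (w := latVal A y / jqModC (AlgebraicClosure ℚ) ^ n) (by rw [map_inv₀, hψ])
      (by rw [map_div₀, map_pow, hψ]; rfl)).mp hy2⟩

include hℓN hA in
/-- The genus of `X₀(N)` is preserved modulo `ℓ ∤ N`. -/
theorem exists_rrField_modL :
    ∃ g : ℕ, RRField (AlgebraicClosure ℚ) (modularFunctionFieldBar N) g ∧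
      RRField (IsLocalRing.ResidueField A)
        (modularFunctionFieldFullC (IsLocalRing.ResidueField A) N) g := by
  haveI := isFunctionField_baseChange (degreeInput_modL N hℓN A hA)
  haveI := isFunctionField_fullC (degreeInput_modL N hℓN A hA)
  haveI := isAlgClosed_residueField A
  exact exists_rrField_of_lift (residue_eq_zero_of_not_isUnit A) (isUnit_of_residue_ne_zero A)
    IsLocalRing.residue_surjective (degreeInput_modL N hℓN A hA)
    (specialLiftInput_modL N hℓN A hA)

include hℓN hA in
/-- The inputs of `reductionModL` hold at every `ℓ ∤ N`. -/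
theorem reductionInputsModL : ReductionInputsModL A N := by
  obtain ⟨g, hF, hB⟩ := exists_rrField_modL N hℓN A hA
  exact reductionInputsModL_of_degree_of_genus A (degreeInput_modL N hℓN A hA) hF hB

include hℓN hA in
/-- A smooth lattice at the cusp at infinity modulo `ℓ ∤ N`. -/
theorem exists_smoothLattice :
    ∃ (Pinf : Place (AlgebraicClosure ℚ) (modularFunctionFieldBar N))
      (Qinf : Place (IsLocalRing.ResidueField A)
        (modularFunctionFieldFullC (IsLocalRing.ResidueField A) N)) (n₀ : ℕ),
      SmoothLattice (IsLocalRing.residue A) (modularFunctionFieldBar N)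
        (modularFunctionFieldFullC (IsLocalRing.ResidueField A) N) Pinf Qinf n₀ := by
  obtain ⟨g, hF, hB⟩ := exists_rrField_modL N hℓN A hA
  exact exists_smoothLattice_of_degree_of_genus A (fun d _ _ => nonempty_modularPolynomialData d)
    (degreeInput_modL N hℓN A hA) hF hB

end FermatLib.Igusa
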