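import Fermat.Agent.Igusa.LaurentLattice
import Fermat.Prelude.Def_FLTPrelim_Ramification

/-!
Valuation rings of an algebraic extension of `ℚ` over a prime have rank one.
-/

set_option autoImplicit false

noncomputable section

open IsLocalRing

namespace FermatLib.Igusa.LatAux

variable {L : Type*} [Field L] [Algebra ℚ L] [Algebra.IsAlgebraic ℚ L] (A : ValuationSubring L)

omit [Algebra ℚ L] [Algebra.IsAlgebraic ℚ L] in
theorem valuation_intCast_le_one (z : ℤ) : A.valuation (z : L) ≤ 1 :=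
  (A.valuation_le_one_iff _).mpr (intCast_mem A z)

omit [Algebra ℚ L] [Algebra.IsAlgebraic ℚ L] in
theorem valuation_eq_one_of_not_dvd {ℓ : ℕ} (hℓ : Nat.Prime ℓ)
    (hA : A.LiesOverPrime ℓ) {a : ℤ} (ha : ¬ (ℓ : ℤ) ∣ a) : A.valuation (a : L) = 1 := by
  refine le_antisymm (valuation_intCast_le_one A a) (not_lt.mp fun hlt => ?_)
  obtain ⟨x, y, hxy⟩ : IsCoprime a (ℓ : ℤ) :=
    ((Nat.prime_iff_prime_int.mp hℓ).coprime_iff_not_dvd.mpr ha).symm
  have hl : A.valuation ((ℓ : ℤ) : L) < 1 := by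
    rw [Int.cast_natCast]
    exact hA
  have h : A.valuation ((x : L) * (a : L) + (y : L) * ((ℓ : ℤ) : L)) < 1 := by
    refine Valuation.map_add_lt _ ?_ ?_ <;> rw [map_mul]
    · exact lt_of_le_of_lt (mul_le_of_le_one_left' (valuation_intCast_le_one A x)) hlt
    · exact lt_of_le_of_lt (mul_le_of_le_one_left' (valuation_intCast_le_one A y)) hl
  rw [← Int.cast_mul, ← Int.cast_mul, ← Int.cast_add, hxy, Int.cast_one, map_one] at h
  exact lt_irrefl _ h

omit [Algebra ℚ L] [Algebra.IsAlgebraic ℚ L] in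
theorem valuation_intCast_ge {ℓ : ℕ} (hℓ : Nat.Prime ℓ) (hA : A.LiesOverPrime ℓ) {a : ℤ}
    (ha : a ≠ 0) : ∃ e : ℕ, A.valuation ((ℓ : L)) ^ e ≤ A.valuation (a : L) := by
  obtain ⟨e, a', ha', rfl⟩ := WfDvdMonoid.max_power_factor ha
    (Nat.prime_iff_prime_int.mp hℓ).irreducible
  refine ⟨e, le_of_eq ?_⟩
  rw [Int.cast_mul, map_mul, valuation_eq_one_of_not_dvd A hℓ hA ha', mul_one,
    Int.cast_pow, map_pow, Int.cast_natCast]

theorem exists_intPoly (x : L) :
    ∃ p : Polynomial ℤ, p ≠ 0 ∧ Polynomial.aeval x p = 0 ∧ (x ≠ 0 → p.coeff 0 ≠ 0) := by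
  have halg : IsAlgebraic ℤ x :=
    (IsFractionRing.isAlgebraic_iff ℤ ℚ L).mpr (Algebra.IsAlgebraic.isAlgebraic x)
  by_cases hx : x = 0
  · obtain ⟨p, hp0, hp⟩ := halg
    exact ⟨p, hp0, hp, fun h => absurd hx h⟩
  · obtain ⟨p, hc, hp⟩ := halg.exists_nonzero_coeff_and_aeval_eq_zero
      (mem_nonZeroDivisors_of_ne_zero hx)
    exact ⟨p, fun e => hc (by rw [e, Polynomial.coeff_zero]), hp, fun _ => hc⟩

omit [Algebra ℚ L] [Algebra.IsAlgebraic ℚ L] in
theorem aeval_mem {x : L} (hx : x ∈ A) (q : Polynomial ℤ) : Polynomial.aeval x q ∈ A := by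
  rw [Polynomial.aeval_eq_sum_range]
  refine sum_mem fun i _ => ?_
  rw [zsmul_eq_mul]
  exact mul_mem (intCast_mem A _) (pow_mem hx i)

theorem exists_intCast_valuation_le {x : L} (hx : x ∈ A) (hx0 : x ≠ 0) :
    ∃ a : ℤ, a ≠ 0 ∧ A.valuation (a : L) ≤ A.valuation x := by
  obtain ⟨P, -, hP, hP0⟩ := exists_intPoly x
  refine ⟨P.coeff 0, hP0 hx0, ?_⟩
  have h : Polynomial.aeval x (Polynomial.X * P.divX + Polynomial.C (P.coeff 0)) = 0 := by
    rwa [Polynomial.X_mul_divX_add]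
  rw [map_add, map_mul, Polynomial.aeval_X, Polynomial.aeval_C, eq_intCast] at h
  have he : ((P.coeff 0 : ℤ) : L) = -(x * Polynomial.aeval x P.divX) := by linear_combination h
  rw [he, Valuation.map_neg, map_mul]
  exact mul_le_of_le_one_right' ((A.valuation_le_one_iff _).mpr (aeval_mem A hx _))

theorem exists_pow_valuation_le {ℓ : ℕ} (hℓ : Nat.Prime ℓ) (hA : A.LiesOverPrime ℓ) {x : L}
    (hx : A.valuation x < 1) (hx0 : x ≠ 0) :
    ∃ j : ℕ, A.valuation x ^ j ≤ A.valuation (ℓ : L) := by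
  classical
  obtain ⟨P₀, hP₀0, hP₀, -⟩ := exists_intPoly x
  have : CharZero L := charZero_of_injective_algebraMap (algebraMap ℚ L).injective
  set P := P₀.primPart with hPdef
  have hP : Polynomial.aeval x P = 0 := Polynomial.aeval_primPart_eq_zero hP₀0 hP₀
  have hPex : ∃ i, ¬ (ℓ : ℤ) ∣ P.coeff i := by
    by_contra h
    push Not at h
    exact (Nat.prime_iff_prime_int.mp hℓ).not_isUnit
      (P₀.isPrimitive_primPart _ (Polynomial.C_dvd_iff_dvd_coeff _ _ |>.mpr h))
  refine ⟨Nat.find hPex, le_of_not_gt fun hlt => ?_⟩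
  set j := Nat.find hPex with hj
  have hjspec : ¬ (ℓ : ℤ) ∣ P.coeff j := Nat.find_spec hPex
  have hjmem : j ∈ Finset.range (P.natDegree + 1) := by
    rw [Finset.mem_range, Nat.lt_succ_iff]
    refine Polynomial.le_natDegree_of_ne_zero fun e => hjspec ?_
    rw [e]
    exact dvd_zero _
  rw [Polynomial.aeval_eq_sum_range] at hP
  have hval : A.valuation (∑ i ∈ Finset.range (P.natDegree + 1), P.coeff i • x ^ i) =
      A.valuation x ^ j := by
    rw [A.valuation.map_sum_eq_of_lt (j := j) hjmem]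
    · rw [zsmul_eq_mul, map_mul, map_pow, valuation_eq_one_of_not_dvd A hℓ hA hjspec, one_mul]
    · intro i hi
      rw [Finset.mem_sdiff, Finset.mem_singleton] at hi
      rw [zsmul_eq_mul, zsmul_eq_mul, map_mul, map_mul, map_pow, map_pow,
        valuation_eq_one_of_not_dvd A hℓ hA hjspec, one_mul]
      rcases lt_or_gt_of_ne hi.2 with hij | hij
      · obtain ⟨b, hb⟩ : (ℓ : ℤ) ∣ P.coeff i := not_not.mp (Nat.find_min hPex hij)
        refine lt_of_le_of_lt ?_ hlt
        rw [hb, Int.cast_mul, Int.cast_natCast, map_mul, mul_assoc]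
        exact mul_le_of_le_one_right'
          (mul_le_one' (valuation_intCast_le_one A b) (pow_le_one₀ zero_le hx.le))
      · refine lt_of_le_of_lt (mul_le_of_le_one_left' (valuation_intCast_le_one A _)) ?_
        exact pow_lt_pow_right_of_lt_one₀ (zero_lt_iff.mpr (A.valuation.ne_zero_iff.mpr hx0))
          hx hij
  rw [hP, map_zero] at hval
  exact pow_ne_zero j (A.valuation.ne_zero_iff.mpr hx0) hval.symm

theorem isRankOneLike {ℓ : ℕ} (hℓ : Nat.Prime ℓ) (hA : A.LiesOverPrime ℓ) :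
    FermatLib.Igusa.IsRankOneLike A := by
  intro p hp hp0 c hc0
  have hp0' : (p : L) ≠ 0 := fun e => hp0 (Subtype.ext e)
  have hplt : A.valuation (p : L) < 1 := (A.valuation_lt_one_iff p).mp hp
  obtain ⟨a, ha, hac⟩ :=
    exists_intCast_valuation_le A c.2 (fun e => hc0 (Subtype.ext e))
  obtain ⟨e, he⟩ := valuation_intCast_ge A hℓ hA ha
  obtain ⟨j, hj⟩ := exists_pow_valuation_le A hℓ hA hplt hp0'
  refine ⟨j * e + 1, fun hdvd => ?_⟩
  obtain ⟨b, hb⟩ := hdvd
  have h1 : A.valuation (c : L) ≤ A.valuation (p : L) ^ (j * e + 1) := by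
    rw [hb, MulMemClass.coe_mul, SubmonoidClass.coe_pow, map_mul, map_pow]
    exact mul_le_of_le_one_right' (A.valuation_le_one b)
  have h2 : A.valuation (p : L) ^ (j * e) ≤ A.valuation (c : L) := by
    rw [pow_mul]
    exact (pow_le_pow_left₀ zero_le hj e).trans (he.trans hac)
  have h3 : A.valuation (p : L) ^ (j * e + 1) < A.valuation (p : L) ^ (j * e) :=
    pow_lt_pow_right_of_lt_one₀ (zero_lt_iff.mpr (A.valuation.ne_zero_iff.mpr hp0')) hplt
      (Nat.lt_succ_self _)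
  exact lt_irrefl _ (lt_of_le_of_lt (h2.trans h1) h3)

end FermatLib.Igusa.LatAux
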