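import Fermat.Agent.Igusa.TorsionInjectiveCore
import Fermat.Agent.Igusa.RankOne
import Fermat.Agent.Modular.PlaceBase

/-!
Reduction of `J₀(N)` modulo a place over a prime is injective on prime-to-`ℓ` torsion, given
the smoothness of the lattices at the cusp `∞`.
-/

set_option autoImplicit false
set_option synthInstance.maxHeartbeats 400000

noncomputable section

open AlgebraicCurve ModularCurve IsLocalRing

namespace FermatLib.Igusa

theorem natCast_mem_maximalIdeal (A : ValuationSubring (AlgebraicClosure ℚ)) {ℓ : ℕ}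
    (hA : A.LiesOverPrime ℓ) : (ℓ : A) ∈ maximalIdeal A := by
  refine (A.valuation_lt_one_iff _).mpr ?_
  push_cast
  exact hA

theorem natCast_residue_ne_zero_of_not_dvd (A : ValuationSubring (AlgebraicClosure ℚ)) {ℓ : ℕ}
    (hℓ : Nat.Prime ℓ) (hA : A.LiesOverPrime ℓ) {m : ℕ} (hm : ¬ ℓ ∣ m) :
    (m : ResidueField A) ≠ 0 := by
  intro h
  have hdvd : ¬ (ℓ : ℤ) ∣ (m : ℤ) := fun e => hm (Int.natCast_dvd_natCast.mp e)
  have h1 := LatAux.valuation_eq_one_of_not_dvd A hℓ hA hdvd
  rw [← map_natCast (residue A), residue_eq_zero_iff] at h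
  have h2 := (A.valuation_lt_one_iff _).mp h
  simp only [Int.cast_natCast] at h1
  push_cast at h2
  rw [h1] at h2
  exact lt_irrefl _ h2

/-- Reduction modulo `A` is injective on torsion of `J₀(N)` of order prime to `ℓ`, given a smooth
lattice at the cusp. -/
theorem eq_zero_of_reductionModL_eq_zero_of_smoothLattice {N : ℕ} [NeZero N] {ℓ : ℕ}
    (hℓ : Nat.Prime ℓ) {A : ValuationSubring (AlgebraicClosure ℚ)} (hA : A.LiesOverPrime ℓ)
    (h : ReductionInputsModL A N) {Pinf : Place (AlgebraicClosure ℚ) (modularFunctionFieldBar N)}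
    {Qinf : Place (ResidueField A) (modularFunctionFieldFullC (ResidueField A) N)} {n₀ : ℕ}
    (hS : SmoothLattice (residue A) (modularFunctionFieldBar N)
      (modularFunctionFieldFullC (ResidueField A) N) Pinf Qinf n₀)
    {m : ℕ} (hm : ¬ ℓ ∣ m) (z : JZero N) (hmz : m • z = 0) (hz : reductionModL A N z = 0) :
    z = 0 := by
  have : HasPrincipalDivisors (AlgebraicClosure ℚ) (modularFunctionFieldBar N) :=
    FermatLib.Modular.hasPrincipalDivisors_modularFunctionFieldOver N
  have hr := isPlaceReductionModL_placeReductionModL h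
  have H : LatticeReduction (residue A) (modularFunctionFieldBar N)
      (modularFunctionFieldFullC (ResidueField A) N) Pinf Qinf n₀ (placeReductionModL h) :=
    { hS with
      deg_one := FermatLib.Modular.deg_eq_one_modularFunctionFieldOver N
      map_deg := hr.1
      map_div := fun y hy hyk hne D hD Q => hr.2 y hy hyk hne D hD Q
      map_principal := fun D hD => hr.mapDomain_mem_principal h.choose_spec.2 hD }
  have : Algebra.IsAlgebraic ℚ (AlgebraicClosure ℚ) := AlgebraicClosure.isAlgebraic ℚ
  obtain ⟨D, rfl⟩ := Pic0.mk_surjective z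
  rw [reductionModL_mk h, Pic0.mk, QuotientAddGroup.eq_zero_iff,
    AddSubgroup.mem_addSubgroupOf] at hz
  rw [Pic0.mk, ← QuotientAddGroup.mk_nsmul, QuotientAddGroup.eq_zero_iff,
    AddSubgroup.mem_addSubgroupOf, AddSubgroupClass.coe_nsmul] at hmz
  rw [Pic0.mk, QuotientAddGroup.eq_zero_iff, AddSubgroup.mem_addSubgroupOf]
  refine H.isPrincipal_of_isPrincipal_map (natCast_mem_maximalIdeal A hA) (fun e => ?_)
    (LatAux.isRankOneLike A hℓ hA) (natCast_residue_ne_zero_of_not_dvd A hℓ hA hm) D.2 hmz hz
  exact hℓ.ne_zero (Nat.cast_eq_zero (R := AlgebraicClosure ℚ).mp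
    (by simpa using congrArg Subtype.val e))

end FermatLib.Igusa
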