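import Fermat.Prelude.Def_ModularCurve_ArithmeticGalois
import Fermat.Prelude.Def_ModularCurve_X0ModL
import Fermat.Prelude.Thm_ModularCurve_coeffMap_qExpand
import Fermat.Agent.Modular.FieldCx
import Fermat.Agent.Igusa.GaussReduction

/-!
The Atkin–Lehner involution at a prime `q` exactly dividing the level, as an automorphism of
`ℚ̄(X₀(q M))` exchanging `j(d τ)` and `j(q d τ)`, `d ∣ M`.
-/

set_option autoImplicit false
set_option linter.style.haveILetI false

noncomputable section

open UpperHalfPlane ModularCurve IntermediateField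
open scoped MatrixGroups

namespace FermatLib.Igusa.Mono

local notation "Qb" => AlgebraicClosure ℚ

variable {q : ℕ} [Fact q.Prime] {M : ℕ} [NeZero M]

variable (q M) in
/-- The divisors of `q M`. -/
abbrev LevelDiv : Type := {e : ℕ // e ∈ (q * M).divisors}

instance monoLevelDiv_neZero (e : LevelDiv q M) : NeZero (e : ℕ) :=
  ⟨(Nat.pos_of_mem_divisors e.2).ne'⟩

theorem monoLevel_ne_zero : q * M ≠ 0 :=
  Nat.mul_ne_zero (Fact.out : q.Prime).ne_zero (NeZero.ne M)

/-- `d ↔ q d` on the divisors of `q M`. -/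
def swapDiv (hqM : ¬ q ∣ M) (e : LevelDiv q M) : LevelDiv q M :=
  ⟨if q ∣ (e : ℕ) then (e : ℕ) / q else q * e, by
    have he := Nat.dvd_of_mem_divisors e.2
    refine Nat.mem_divisors.mpr ⟨?_, monoLevel_ne_zero⟩
    split_ifs with h
    · exact (Nat.div_dvd_of_dvd h).trans he
    · exact mul_dvd_mul_left q
        (((Fact.out : q.Prime).coprime_iff_not_dvd.mpr h).symm.dvd_of_dvd_mul_left he)⟩

variable (hqM : ¬ q ∣ M)

include hqM in
theorem monoLevel_cases (e : LevelDiv q M) :
    (¬ q ∣ (e : ℕ) ∧ (e : ℕ) ∣ M ∧ ((swapDiv hqM e : LevelDiv q M) : ℕ) = q * e) ∨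
      ∃ d, d ∣ M ∧ (e : ℕ) = q * d ∧ ((swapDiv hqM e : LevelDiv q M) : ℕ) = d := by
  have hq := (Fact.out : q.Prime)
  have he := Nat.dvd_of_mem_divisors e.2
  by_cases h : q ∣ (e : ℕ)
  · obtain ⟨d, hd⟩ := h
    refine Or.inr ⟨d, (Nat.mul_dvd_mul_iff_left hq.pos).mp (hd ▸ he), hd, ?_⟩
    show (if q ∣ (e : ℕ) then _ else _) = d
    rw [if_pos ⟨d, hd⟩, hd, Nat.mul_div_cancel_left _ hq.pos]
  · exact Or.inl ⟨h, (hq.coprime_iff_not_dvd.mpr h).symm.dvd_of_dvd_mul_left he, if_neg h⟩

theorem swapDiv_swapDiv (e : LevelDiv q M) : swapDiv hqM (swapDiv hqM e) = e := by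
  have hq := (Fact.out : q.Prime)
  apply Subtype.ext
  rcases monoLevel_cases hqM e with ⟨h, -, hs⟩ | ⟨d, hd, hed, hs⟩
  · show (if q ∣ _ then _ else _) = (e : ℕ)
    rw [hs, if_pos (dvd_mul_right q _), Nat.mul_div_cancel_left _ hq.pos]
  · show (if q ∣ _ then _ else _) = (e : ℕ)
    rw [hs, if_neg (fun h => hqM (h.trans hd)), hed]

open FermatLib.Modular in
include hqM in
/-- For every `τ` there is a point at which each `j(e τ)` takes the value of `j(e' τ)` at `τ`. -/
theorem exists_swap_point (τ : ℍ) :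
    ∃ w : ℍ, ∀ e : LevelDiv q M,
      jScaleFun e w = jScaleFun (swapDiv hqM e : LevelDiv q M) τ := by
  have hq := (Fact.out : q.Prime)
  obtain ⟨a, c, hac⟩ : IsCoprime (q : ℤ) (M : ℤ) :=
    Int.isCoprime_iff_gcd_eq_one.mpr (by
      rw [Int.gcd_natCast_natCast]; exact hq.coprime_iff_not_dvd.mpr hqM)
  let g : SL(2, ℤ) := ⟨!![(q : ℤ) * a, -c; (M : ℤ), 1], by
    rw [Matrix.det_fin_two_of]; linear_combination hac⟩
  have hqC : (q : ℂ) ≠ 0 := by exact_mod_cast hq.ne_zero
  have him : 0 < (((g • τ : ℍ) : ℂ) / (q : ℂ)).im := by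
    rw [Complex.div_natCast_im]
    exact div_pos (g • τ).im_pos (by exact_mod_cast hq.pos)
  have hden : (M : ℂ) * (τ : ℂ) + 1 ≠ 0 := fun h => by
    have h2 := congrArg Complex.im h
    simp [τ.im_pos.ne', NeZero.ne M] at h2
  refine ⟨UpperHalfPlane.mk _ him, fun e => ?_⟩
  rcases monoLevel_cases hqM e with ⟨-, ⟨m, hm⟩, hs⟩ | ⟨d, ⟨m, hm⟩, hed, hs⟩
  · haveI : NeZero (q * (e : ℕ)) := ⟨Nat.mul_ne_zero hq.ne_zero (NeZero.ne _)⟩
    rw [hs]
    let δ : SL(2, ℤ) := ⟨!![a, -((e : ℕ) : ℤ) * c; (m : ℤ), (q : ℤ)], by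
      rw [Matrix.det_fin_two_of]
      linear_combination hac + c * (by exact_mod_cast hm.symm : ((e : ℕ) : ℤ) * m = M)⟩
    rw [jScaleFun_apply, jScaleFun_apply,
      ← jFun_smul δ (ModularForm.heckeDiagMatrix (q * (e : ℕ)) • τ)]
    congr 1
    apply UpperHalfPlane.ext
    rw [ModularForm.coe_heckeDiagMatrix_smul (NeZero.ne (e : ℕ))]
    show ((e : ℕ) : ℂ) * (((g • τ : ℍ) : ℂ) / (q : ℂ)) = _
    rw [UpperHalfPlane.coe_specialLinearGroup_apply δ,
      ModularForm.coe_heckeDiagMatrix_smul (NeZero.ne (q * (e : ℕ)))]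
    rw [UpperHalfPlane.coe_specialLinearGroup_apply]
    simp only [algebraMap_int_eq, eq_intCast, g, δ, Matrix.of_apply, Matrix.cons_val',
      Matrix.cons_val_zero, Matrix.cons_val_one, Matrix.cons_val_fin_one, Complex.ofReal_intCast]
    push_cast
    have hmC : (M : ℂ) = ((e : ℕ) : ℂ) * (m : ℂ) := by exact_mod_cast hm
    rw [hmC]
    have h1 : ((e : ℕ) : ℂ) * (m : ℂ) * (τ : ℂ) + 1 ≠ 0 := by rw [← hmC]; exact hden
    field_simp
  · haveI : NeZero d := ⟨fun h => NeZero.ne M (by rw [hm, h, zero_mul])⟩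
    rw [hs]
    let δ : SL(2, ℤ) := ⟨!![(q : ℤ) * a, -(d : ℤ) * c; (m : ℤ), 1], by
      rw [Matrix.det_fin_two_of]
      linear_combination hac + c * (by exact_mod_cast hm.symm : (d : ℤ) * m = M)⟩
    rw [jScaleFun_apply, jScaleFun_apply, ← jFun_smul δ (ModularForm.heckeDiagMatrix d • τ)]
    congr 1
    apply UpperHalfPlane.ext
    rw [ModularForm.coe_heckeDiagMatrix_smul (NeZero.ne (e : ℕ))]
    show ((e : ℕ) : ℂ) * (((g • τ : ℍ) : ℂ) / (q : ℂ)) = _
    rw [UpperHalfPlane.coe_specialLinearGroup_apply δ,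
      ModularForm.coe_heckeDiagMatrix_smul (NeZero.ne d)]
    rw [UpperHalfPlane.coe_specialLinearGroup_apply, hed]
    simp only [algebraMap_int_eq, eq_intCast, g, δ, Matrix.of_apply, Matrix.cons_val',
      Matrix.cons_val_zero, Matrix.cons_val_one, Matrix.cons_val_fin_one, Complex.ofReal_intCast]
    push_cast
    have hmC : (M : ℂ) = (d : ℂ) * (m : ℂ) := by exact_mod_cast hm
    rw [hmC]
    have h1 : (d : ℂ) * (m : ℂ) * (τ : ℂ) + 1 ≠ 0 := by rw [← hmC]; exact hden
    field_simp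

variable (q M) in
/-- The generators `j(e τ)`. -/
def levelGen (e : LevelDiv q M) : LaurentSeries Qb := qExpand Qb e (jqModC Qb)

theorem coeffMap_levelGen {S : Type*} [Field S] (φ : Qb →+* S) (e : LevelDiv q M) :
    coeffMap φ (levelGen q M e) = qExpand S e (jqModC S) := by
  rw [levelGen, coeffMap_qExpand, coeffMap_jqModC]

theorem coeffMap_aeval_levelGen {S : Type*} [Field S] (φ : Qb →+* S)
    (r : LevelDiv q M → LevelDiv q M) (P : MvPolynomial (LevelDiv q M) Qb) :
    coeffMap φ (MvPolynomial.aeval (fun e => levelGen q M (r e)) P) =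
      MvPolynomial.aeval (fun e => qExpand S (r e : LevelDiv q M) (jqModC S))
        (MvPolynomial.map φ P) := by
  induction P using MvPolynomial.induction_on with
  | C a =>
    rw [MvPolynomial.aeval_C, MvPolynomial.map_C, MvPolynomial.aeval_C,
      algebraMap_laurentSeries_eq_single, algebraMap_laurentSeries_eq_single, coeffMap_single]
  | add p p' hp hp' => simp only [map_add, hp, hp']
  | mul_X p i hp =>
    simp only [map_mul, MvPolynomial.aeval_X, MvPolynomial.map_X, hp, coeffMap_levelGen]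

include hqM in
/-- Every polynomial relation between the generators survives the swap. -/
theorem aeval_swap_eq_zero {P : MvPolynomial (LevelDiv q M) Qb}
    (hP : MvPolynomial.aeval (levelGen q M) P = 0) :
    MvPolynomial.aeval (fun e => levelGen q M (swapDiv hqM e)) P = 0 := by
  haveI : Algebra.IsAlgebraic ℚ Qb := AlgebraicClosure.isAlgebraic ℚ
  let φ : Qb →+* ℂ := (IsAlgClosed.lift : Qb →ₐ[ℚ] ℂ).toRingHom
  have hj : coeffEmb ℂ jq = jqModC ℂ := by rw [← jqModC_rat, coeffEmb, coeffMap_jqModC]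
  have hgen : ∀ e : LevelDiv q M,
      qExpand ℂ (e : ℕ) (jqModC ℂ) = coeffEmb ℂ (qExpand ℚ (e : ℕ) jq) := fun e => by
    rw [FermatLib.Modular.coeffEmb_qExpand, hj]
  apply (map_eq_zero_iff _ (coeffMap φ).injective).mp
  rw [coeffMap_aeval_levelGen φ (swapDiv hqM) P]
  simp only [hgen]
  refine (FermatLib.Modular.aeval_qExpand_jq_eq_zero_iff
    (fun e : LevelDiv q M => ((swapDiv hqM e : LevelDiv q M) : ℕ)) _).mpr fun τ => ?_
  obtain ⟨w, hw⟩ := exists_swap_point hqM τ
  simp only [← hw]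
  refine (FermatLib.Modular.aeval_qExpand_jq_eq_zero_iff
    (fun e : LevelDiv q M => (e : ℕ)) _).mp ?_ w
  simp only [← hgen]
  have h := coeffMap_aeval_levelGen φ id P
  simp only [id_eq] at h
  rw [← h]
  exact (map_eq_zero_iff _ (coeffMap φ).injective).mpr hP

variable (q M) in
theorem modularFunctionFieldBar_eq_adjoin_range :
    modularFunctionFieldBar (q * M) = adjoin Qb (Set.range (levelGen q M)) := by
  rw [modularFunctionFieldBar, laurentBaseChange_full_eq]
  congr 1
  ext x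
  constructor
  · rintro ⟨d, hne, hd, rfl⟩
    exact ⟨⟨d, Nat.mem_divisors.mpr ⟨hd, monoLevel_ne_zero⟩⟩, rfl⟩
  · rintro ⟨e, rfl⟩
    exact ⟨e, monoLevelDiv_neZero e, Nat.dvd_of_mem_divisors e.2, rfl⟩

theorem levelGen_mem (e : LevelDiv q M) : levelGen q M e ∈ modularFunctionFieldBar (q * M) := by
  rw [modularFunctionFieldBar_eq_adjoin_range]
  exact subset_adjoin Qb _ ⟨e, rfl⟩

theorem aeval_levelGen_mem (r : LevelDiv q M → LevelDiv q M)
    (P : MvPolynomial (LevelDiv q M) Qb) :
    MvPolynomial.aeval (fun e => levelGen q M (r e)) P ∈ modularFunctionFieldBar (q * M) := by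
  induction P using MvPolynomial.induction_on with
  | C a => rw [MvPolynomial.aeval_C]; exact IntermediateField.algebraMap_mem _ _
  | add p p' hp hp' => rw [map_add]; exact add_mem hp hp'
  | mul_X p i hp => rw [map_mul, MvPolynomial.aeval_X]; exact mul_mem hp (levelGen_mem _)

/-- Representations of a function as a ratio of polynomials in the generators. -/
def IsRep (x : LaurentSeries Qb) (rs : MvPolynomial (LevelDiv q M) Qb ×
    MvPolynomial (LevelDiv q M) Qb) : Prop :=
  MvPolynomial.aeval (levelGen q M) rs.2 ≠ 0 ∧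
    x * MvPolynomial.aeval (levelGen q M) rs.2 = MvPolynomial.aeval (levelGen q M) rs.1

theorem exists_isRep (x : modularFunctionFieldBar (q * M)) :
    ∃ rs, IsRep (q := q) (M := M) (x : LaurentSeries Qb) rs := by
  have hx : (x : LaurentSeries Qb) ∈ adjoin Qb (Set.range (levelGen q M)) := by
    rw [← modularFunctionFieldBar_eq_adjoin_range]; exact x.2
  obtain ⟨r, s, hrs⟩ := (mem_adjoin_range_iff Qb (levelGen q M) _).mp hx
  rcases eq_or_ne (MvPolynomial.aeval (levelGen q M) s) 0 with h | h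
  · exact ⟨(0, 1), by simp, by rw [hrs, h, div_zero, zero_mul, map_zero]⟩
  · exact ⟨(r, s), h, by rw [hrs]; exact div_mul_cancel₀ _ h⟩

include hqM in
theorem aeval_swap_ne_zero {P : MvPolynomial (LevelDiv q M) Qb}
    (hP : MvPolynomial.aeval (levelGen q M) P ≠ 0) :
    MvPolynomial.aeval (fun e => levelGen q M (swapDiv hqM e)) P ≠ 0 := fun h => hP (by
  have h1 := aeval_swap_eq_zero hqM (P := MvPolynomial.rename (swapDiv hqM) P) (by
    rw [MvPolynomial.aeval_rename]; exact h)
  rw [MvPolynomial.aeval_rename] at h1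
  simpa [Function.comp_def, swapDiv_swapDiv] using h1)

/-- The value of the swap on a representation. -/
def swapVal (rs : MvPolynomial (LevelDiv q M) Qb × MvPolynomial (LevelDiv q M) Qb) :
    LaurentSeries Qb :=
  MvPolynomial.aeval (fun e => levelGen q M (swapDiv hqM e)) rs.1 /
    MvPolynomial.aeval (fun e => levelGen q M (swapDiv hqM e)) rs.2

theorem swapVal_eq {x : LaurentSeries Qb}
    {rs rs' : MvPolynomial (LevelDiv q M) Qb × MvPolynomial (LevelDiv q M) Qb}
    (h : IsRep x rs) (h' : IsRep x rs') : swapVal hqM rs = swapVal hqM rs' := by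
  have h0 : MvPolynomial.aeval (levelGen q M) (rs.1 * rs'.2 - rs'.1 * rs.2) = 0 := by
    rw [map_sub, map_mul, map_mul, ← h.2, ← h'.2]; ring
  have h1 := aeval_swap_eq_zero hqM h0
  rw [map_sub, map_mul, map_mul, sub_eq_zero] at h1
  rw [swapVal, swapVal, div_eq_div_iff (aeval_swap_ne_zero hqM h.1) (aeval_swap_ne_zero hqM h'.1)]
  exact h1

/-- The swap on functions, as a map. -/
def swapFun (x : modularFunctionFieldBar (q * M)) : modularFunctionFieldBar (q * M) :=
  ⟨swapVal hqM (exists_isRep x).choose,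
    div_mem (aeval_levelGen_mem _ _) (aeval_levelGen_mem _ _)⟩

theorem coe_swapFun {x : modularFunctionFieldBar (q * M)}
    {rs : MvPolynomial (LevelDiv q M) Qb × MvPolynomial (LevelDiv q M) Qb}
    (h : IsRep (x : LaurentSeries Qb) rs) :
    (swapFun hqM x : LaurentSeries Qb) = swapVal hqM rs :=
  swapVal_eq hqM (exists_isRep x).choose_spec h

/-- The Atkin–Lehner involution as an algebra endomorphism. -/
def swapHom : modularFunctionFieldBar (q * M) →ₐ[Qb] modularFunctionFieldBar (q * M) where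
  toFun := swapFun hqM
  map_one' := Subtype.ext (by
    rw [coe_swapFun hqM (rs := (1, 1)) ⟨by simp, by simp⟩]; simp [swapVal])
  map_zero' := Subtype.ext (by
    rw [coe_swapFun hqM (rs := (0, 1)) ⟨by simp, by simp⟩]; simp [swapVal])
  map_mul' x y := Subtype.ext (by
    obtain ⟨⟨r, s⟩, hx⟩ := exists_isRep x
    obtain ⟨⟨r', s'⟩, hy⟩ := exists_isRep y
    rw [IntermediateField.coe_mul, coe_swapFun hqM hx, coe_swapFun hqM hy,
      coe_swapFun hqM (rs := (r * r', s * s')) ⟨by simp [hx.1, hy.1], by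
        rw [IntermediateField.coe_mul, map_mul, map_mul, mul_mul_mul_comm, hx.2, hy.2]⟩]
    simp [swapVal, map_mul, div_mul_div_comm])
  map_add' x y := Subtype.ext (by
    obtain ⟨⟨r, s⟩, hx⟩ := exists_isRep x
    obtain ⟨⟨r', s'⟩, hy⟩ := exists_isRep y
    rw [IntermediateField.coe_add, coe_swapFun hqM hx, coe_swapFun hqM hy,
      coe_swapFun hqM (rs := (r * s' + r' * s, s * s')) ⟨by simp [hx.1, hy.1], by
        simp only [IntermediateField.coe_add, map_add, map_mul, ← hx.2, ← hy.2]; ring⟩]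
    simp only [swapVal, map_add, map_mul]
    rw [div_add_div _ _ (aeval_swap_ne_zero hqM hx.1) (aeval_swap_ne_zero hqM hy.1)]
    ring)
  commutes' a := Subtype.ext (by
    rw [coe_swapFun hqM (rs := (MvPolynomial.C a, 1)) ⟨by simp, by simp⟩]; simp [swapVal])

theorem coe_swapHom_gen (e : LevelDiv q M) :
    (swapHom hqM ⟨levelGen q M e, levelGen_mem e⟩ : LaurentSeries Qb) =
      levelGen q M (swapDiv hqM e) := by
  show (swapFun hqM _ : LaurentSeries Qb) = _
  rw [coe_swapFun hqM (rs := (MvPolynomial.X e, 1)) ⟨by simp, by simp⟩]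
  simp [swapVal]

theorem swapHom_swapHom (x : modularFunctionFieldBar (q * M)) :
    swapHom hqM (swapHom hqM x) = x := by
  apply Subtype.ext
  obtain ⟨⟨r, s⟩, hx⟩ := exists_isRep x
  have hr : ∀ P : MvPolynomial (LevelDiv q M) Qb,
      MvPolynomial.aeval (levelGen q M) (MvPolynomial.rename (swapDiv hqM) P) =
        MvPolynomial.aeval (fun e => levelGen q M (swapDiv hqM e)) P := fun P => by
    rw [MvPolynomial.aeval_rename]; rfl
  show (swapFun hqM (swapFun hqM x) : LaurentSeries Qb) = x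
  rw [coe_swapFun hqM (rs := (MvPolynomial.rename (swapDiv hqM) r,
    MvPolynomial.rename (swapDiv hqM) s)) ⟨by
      rw [hr]; exact aeval_swap_ne_zero hqM hx.1, by
      rw [hr, hr, coe_swapFun hqM hx]
      exact div_mul_cancel₀ _ (aeval_swap_ne_zero hqM hx.1)⟩]
  simp only [swapVal, MvPolynomial.aeval_rename, Function.comp_def, swapDiv_swapDiv]
  rw [← hx.2, mul_div_cancel_right₀ _ hx.1]

/-- The Atkin–Lehner involution `w_q`. -/
def monoSwap : modularFunctionFieldBar (q * M) ≃ₐ[Qb] modularFunctionFieldBar (q * M) :=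
  AlgEquiv.ofAlgHom (swapHom hqM) (swapHom hqM) (AlgHom.ext (swapHom_swapHom hqM))
    (AlgHom.ext (swapHom_swapHom hqM))

@[simp] theorem monoSwap_monoSwap (x : modularFunctionFieldBar (q * M)) :
    monoSwap hqM (monoSwap hqM x) = x :=
  swapHom_swapHom hqM x

/-- `w_q` on a generator. -/
theorem coe_monoSwap_of_eq {x : modularFunctionFieldBar (q * M)} {e : LevelDiv q M}
    (hx : (x : LaurentSeries Qb) = levelGen q M e) :
    (monoSwap hqM x : LaurentSeries Qb) = levelGen q M (swapDiv hqM e) := by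
  obtain rfl : x = ⟨levelGen q M e, levelGen_mem e⟩ := Subtype.ext hx
  exact coe_swapHom_gen hqM e

/-- `w_q` commutes with the action of Galois on coefficients. -/
theorem monoSwap_arithmeticGalois (σ : Qb ≃ₐ[ℚ] Qb) (x : modularFunctionFieldBar (q * M)) :
    monoSwap hqM (arithmeticGalois (modularFunctionFieldFull (q * M)) σ • x) =
      arithmeticGalois (modularFunctionFieldFull (q * M)) σ • monoSwap hqM x := by
  apply Subtype.ext
  obtain ⟨⟨r, s⟩, hx⟩ := exists_isRep x
  have hmap : ∀ (φ : LevelDiv q M → LevelDiv q M) (P : MvPolynomial (LevelDiv q M) Qb),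
      coeffMap (σ : Qb →+* Qb) (MvPolynomial.aeval (fun e => levelGen q M (φ e)) P) =
        MvPolynomial.aeval (fun e => levelGen q M (φ e)) (MvPolynomial.map (σ : Qb →+* Qb) P) :=
    fun φ P => coeffMap_aeval_levelGen _ φ P
  have hmap₀ : ∀ P : MvPolynomial (LevelDiv q M) Qb,
      coeffMap (σ : Qb →+* Qb) (MvPolynomial.aeval (levelGen q M) P) =
        MvPolynomial.aeval (levelGen q M) (MvPolynomial.map (σ : Qb →+* Qb) P) :=
    fun P => hmap id P
  rw [coe_arithmeticGalois_smul]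
  show (swapFun hqM _ : LaurentSeries Qb) = coeffMap _ (swapFun hqM x : LaurentSeries Qb)
  rw [coe_swapFun hqM hx, coe_swapFun hqM (rs := (MvPolynomial.map (σ : Qb →+* Qb) r,
    MvPolynomial.map (σ : Qb →+* Qb) s)) ⟨by
      rw [← hmap₀]; exact (map_ne_zero_iff _ (coeffMap (σ : Qb →+* Qb)).injective).mpr hx.1, by
      rw [coe_arithmeticGalois_smul, ← hmap₀, ← hmap₀, ← map_mul]
      exact congrArg _ hx.2⟩]
  simp only [swapVal, map_div₀, hmap]

end FermatLib.Igusa.Mono
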