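import Fermat.Agent.Igusa.DegreeInputModL
import Fermat.Agent.Curve.PoleDegree
import Fermat.Agent.Modular.CorrDegree
import Fermat.Prelude.Def_ModularCurve_ArithmeticGalois

/-!
Degrees of the pole divisors of `j` at level `q M` and of `j̄`, `j̄ ^ q` at level `M` modulo `q`:
`ψ(q M) = ψ(M) + q ψ(M)`.
-/

set_option autoImplicit false
set_option linter.style.haveILetI false
set_option synthInstance.maxHeartbeats 400000

noncomputable section

open AlgebraicCurve ModularCurve IntermediateField

namespace FermatLib.Igusa.Mono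

theorem mono_transcendental_of_coe_eq {K : Type*} [Field K]
    {E : IntermediateField K (LaurentSeries K)} {x : E}
    (hx : (x : LaurentSeries K) = jqModC K) : Transcendental K x := fun h => by
  refine transcendental_jqModC K ?_
  rw [← hx]
  exact (isAlgebraic_algHom_iff E.val E.val.injective).mpr h

/-- A field of level `N` has `[F : K(j)] = ψ(N)` and is a function field. -/
theorem mono_finrank_of_eq_full {K : Type*} [Field K] (N : ℕ) [NeZero N] (hN : (N : K) ≠ 0)
    {E : IntermediateField K (LaurentSeries K)} (hE : E = modularFunctionFieldFullC K N)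
    {x : E} (hx : (x : LaurentSeries K) = jqModC K) :
    Module.finrank (adjoin K {x}) E = dedekindPsi N ∧ Curve.IsFunctionField K E := by
  have h : Module.finrank (adjoin K {x}) E = dedekindPsi N := by
    rw [← finrank_modularFunctionFieldFullC K N hN]
    exact finrank_adjoin_of_coe_eq hE _ _ hx
  haveI : FiniteDimensional (adjoin K {x}) E :=
    Module.finite_of_finrank_pos (by rw [h]; exact Modular.dedekindPsi_pos)
  exact ⟨h, .of_transcendental (mono_transcendental_of_coe_eq hx)⟩

/-- The degree of a divisor of poles of `j` in a field of level `N`. -/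
theorem mono_degree_poles {K : Type*} [Field K] (N : ℕ) [NeZero N] (hN : (N : K) ≠ 0)
    {E : IntermediateField K (LaurentSeries K)} (hE : E = modularFunctionFieldFullC K N)
    {x : E} (hx : (x : LaurentSeries K) = jqModC K) {P : Divisor K E}
    (hP : ∀ v, P v = max (-v.ord x) 0) : Divisor.degree P = dedekindPsi N := by
  obtain ⟨h, hF⟩ := mono_finrank_of_eq_full N hN hE hx
  haveI := hF
  rw [show P = Curve.polarDivisor K x from Finsupp.ext fun v => by
      rw [hP, Curve.polarDivisor_apply],
    Curve.degree_polarDivisor (mono_transcendental_of_coe_eq hx), h]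

/-- The poles of a `q`-th power are `q` times the poles. -/
theorem mono_poles_pow {K F : Type*} [Field K] [Field F] [Algebra K F] {x : F} {q : ℕ}
    {P Q : Divisor K F} (hP : ∀ v, P v = max (-v.ord x) 0)
    (hQ : ∀ v, Q v = max (-v.ord (x ^ q)) 0) : Q = q • P := by
  refine Finsupp.ext fun v => ?_
  rw [Finsupp.smul_apply, hQ, hP, ord_pow, nsmul_eq_mul,
    mul_max_of_nonneg _ _ (Int.natCast_nonneg q)]
  ring_nf

/-- The poles of a positive power have the same support. -/
theorem mono_poles_pow_supp {K F : Type*} [Field K] [Field F] [Algebra K F] {x : F} {q : ℕ}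
    (hq : q ≠ 0) {P Q : Divisor K F} (hP : ∀ v, P v = max (-v.ord x) 0)
    (hQ : ∀ v, Q v = max (-v.ord (x ^ q)) 0) (v : Place K F) : P v = 0 ↔ Q v = 0 := by
  rw [mono_poles_pow hP hQ, Finsupp.smul_apply, nsmul_eq_mul, mul_eq_zero]
  simp [hq]

section Level

variable {L : Type*} [Field L] [Algebra ℚ L]

theorem mono_degree_poles_bar (N : ℕ) [NeZero N]
    {x : laurentBaseChange L (modularFunctionFieldFull N)}
    (hx : (x : LaurentSeries L) = jqModC L)
    {P : Divisor L (laurentBaseChange L (modularFunctionFieldFull N))}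
    (hP : ∀ v, P v = max (-v.ord x) 0) : Divisor.degree P = dedekindPsi N := by
  haveI : CharZero L := algebraRat.charZero L
  exact mono_degree_poles N (Nat.cast_ne_zero.mpr (NeZero.ne N))
    (laurentBaseChange_full_eq L N) hx hP

/-- The degree of a pole divisor of `j̄` is positive. -/
theorem mono_poles_ne_zero {K : Type*} [Field K] (M : ℕ) [NeZero M] (hM : (M : K) ≠ 0)
    {y : modularFunctionFieldFullC K M} (hy : (y : LaurentSeries K) = jqModC K)
    {P : Divisor K (modularFunctionFieldFullC K M)} (hP : ∀ v, P v = max (-v.ord y) 0) :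
    P ≠ 0 := by
  intro h
  have h' := mono_degree_poles M hM rfl hy hP
  rw [h, map_zero] at h'
  have := Modular.dedekindPsi_pos (N := M)
  omega

/-- **The degree of the pole divisor of `j` at level `q M` is the sum of those of `j̄` and
`j̄ ^ q` at level `M`.** -/
theorem mono_degree_poles_level {q M : ℕ} [Fact q.Prime] [NeZero M] (hqM : ¬ q ∣ M)
    {K : Type*} [Field K] (hM : (M : K) ≠ 0)
    {x : laurentBaseChange L (modularFunctionFieldFull (q * M))}
    (hx : (x : LaurentSeries L) = jqModC L)
    {Px : Divisor L (laurentBaseChange L (modularFunctionFieldFull (q * M)))}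
    (hPx : ∀ v, Px v = max (-v.ord x) 0)
    {y : modularFunctionFieldFullC K M} (hy : (y : LaurentSeries K) = jqModC K)
    {P₁ P₂ : Divisor K (modularFunctionFieldFullC K M)}
    (hP₁ : ∀ v, P₁ v = max (-v.ord y) 0) (hP₂ : ∀ v, P₂ v = max (-v.ord (y ^ q)) 0) :
    Divisor.degree Px = Divisor.degree P₁ + Divisor.degree P₂ := by
  haveI : NeZero (q * M) := ⟨Nat.mul_ne_zero (Fact.out : q.Prime).ne_zero (NeZero.ne M)⟩
  have hψ : dedekindPsi (q * M) = (q + 1) * dedekindPsi M := by
    rw [mul_comm q M, Modular.Corr.dedekindPsi_mul_prime M (Fact.out : q.Prime), if_neg hqM]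
  rw [mono_degree_poles_bar (q * M) hx hPx, mono_poles_pow hP₁ hP₂, map_nsmul,
    mono_degree_poles M hM rfl hy hP₁, hψ, nsmul_eq_mul]
  push_cast
  ring

end Level

end FermatLib.Igusa.Mono
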