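import Fermat.Agent.Igusa.MonoSwap
import Fermat.Agent.Igusa.MonoPoleBound
import Fermat.Agent.Igusa.PolarIntegral
import Fermat.Agent.Igusa.OrderPlace
import Fermat.Agent.Igusa.CuspReduction

/-!
Pole bounds between `j` and `j(q τ)` at every level divisible by `q`: their poles are the same, and
each pole order is at most `q` times the other.
-/

set_option autoImplicit false
set_option linter.style.haveILetI false
set_option synthInstance.maxHeartbeats 400000

noncomputable section

open AlgebraicCurve ModularCurve IntermediateField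

namespace FermatLib.Igusa.Mono

/-- An automorphism does not change the degree over a simple subfield. -/
theorem monoJ_finrank_adjoin_map {K F : Type*} [Field K] [Field F] [Algebra K F] (w : F ≃ₐ[K] F)
    (x : F) : Module.finrank (adjoin K {w x}) F = Module.finrank (adjoin K {x}) F := by
  have hmap : (adjoin K {x}).map (w : F →ₐ[K] F) = adjoin K {w x} := by
    rw [adjoin_map, Set.image_singleton]
    rfl
  let e : adjoin K {x} ≃ₐ[K] adjoin K {w x} :=
    (IntermediateField.equivMap (adjoin K {x}) (w : F →ₐ[K] F)).trans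
      (IntermediateField.equivOfEq hmap)
  refine (Algebra.finrank_eq_of_equiv_equiv e.toRingEquiv w.toRingEquiv ?_).symm
  ext a
  rfl

/-- Two functions of degree `q + 1` with the same poles, one of which has a simple pole where the
other has one of order `q`: the pole orders of the latter are at most `q` times the former's. -/
theorem monoJ_mem_rr_of_two_poles {K F : Type*} [Field K] [Field F] [Algebra K F]
    [Curve.IsFunctionField K F] (hd : ∀ v : Place K F, v.deg = 1) {q : ℕ} (hq : 1 ≤ q) {x y : F}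
    (hy : Divisor.degree (Curve.polarDivisor K y) = (q : ℤ) + 1)
    (hsupp : ∀ v : Place K F, v.ord y < 0 → v.ord x < 0) {P : Place K F} (hPx : P.ord x = -1)
    (hPy : P.ord y = -(q : ℤ)) :
    y ∈ riemannRochSpace ((q : ℤ) • Curve.polarDivisor K x) := by
  classical
  rw [mem_riemannRochSpace_iff]
  intro v
  right
  rw [Finsupp.smul_apply, Curve.polarDivisor_apply, smul_eq_mul]
  rcases le_or_gt 0 (v.ord y) with hv | hv
  · have : (0 : ℤ) ≤ (q : ℤ) * max (-v.ord x) 0 :=
      mul_nonneg (Int.natCast_nonneg q) (le_max_right _ _)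
    omega
  rcases eq_or_ne v P with rfl | hne
  · rw [hPx, hPy]; simp
  have hx := hsupp v hv
  have hsum : Finsupp.single v (-v.ord y) + Finsupp.single P (q : ℤ) ≤ Curve.polarDivisor K y := by
    rw [Finsupp.le_def]
    intro u
    rw [Finsupp.add_apply, Finsupp.single_apply, Finsupp.single_apply, Curve.polarDivisor_apply]
    split_ifs with h1 h2 h2
    · exact absurd (h1.trans h2.symm) hne
    · subst h1; omega
    · subst h2; omega
    · omega
  have h := Igusa.degree_mono hsum
  rw [map_add, Divisor.degree_single, Divisor.degree_single, hd, hd, hy] at h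
  have h1 : (q : ℤ) * 1 ≤ q * max (-v.ord x) 0 :=
    mul_le_mul_of_nonneg_left (le_max_of_le_left (by omega)) (Int.natCast_nonneg q)
  push_cast at h
  omega

section Series

variable (L : Type*) [Field L] [Algebra ℚ L]

/-- `j(d τ)` is integral over the polynomials in `j`. -/
theorem monoJ_isIntegral (d : ℕ) [NeZero d] :
    IsIntegral (Algebra.adjoin L ({jqModC L} : Set (LaurentSeries L)))
      (qExpand L d (jqModC L)) := by
  let data := Modular.modularPolynomialData d
  let g : Algebra.adjoin L ({jqModC L} : Set (LaurentSeries L)) :=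
    ⟨jqModC L, Algebra.self_mem_adjoin_singleton L _⟩
  refine ⟨data.Φ.map (Polynomial.aeval (R := ℤ) g).toRingHom, data.monic.map _, ?_⟩
  rw [Polynomial.eval₂_map]
  have h := congrArg (coeffEmb L) data.eval_eq_zero
  rw [Polynomial.hom_eval₂, map_zero, jqN, coeffEmb_qExpand_jq] at h
  rw [← h]
  congr 1
  refine Polynomial.ringHom_ext' (Subsingleton.elim _ _) ?_
  have hj : coeffEmb L jq = jqModC L := by rw [← jqModC_rat, coeffEmb, coeffMap_jqModC]
  simp [g, hj]

end Series

section Level

local notation "Qb" => AlgebraicClosure ℚ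

variable (q : ℕ) [Fact q.Prime] [NeZero q]

/-- Integrality form of the bounds, read off at level `q`. -/
theorem monoJ_integral_bounds :
    IsIntegral (Algebra.adjoin Qb ({jqModC Qb} : Set (LaurentSeries Qb)))
        (qExpand Qb q (jqModC Qb)) ∧
      IsIntegral (Algebra.adjoin Qb ({(jqModC Qb)⁻¹} : Set (LaurentSeries Qb)))
        (qExpand Qb q (jqModC Qb) / jqModC Qb ^ q) ∧
      IsIntegral (Algebra.adjoin Qb ({qExpand Qb q (jqModC Qb)} : Set (LaurentSeries Qb)))
        (jqModC Qb) ∧
      IsIntegral (Algebra.adjoin Qb ({(qExpand Qb q (jqModC Qb))⁻¹} : Set (LaurentSeries Qb)))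
        (jqModC Qb / qExpand Qb q (jqModC Qb) ^ q) := by
  have hq := (Fact.out : q.Prime)
  have hqM : ¬ q ∣ 1 := fun h => hq.one_lt.ne' (Nat.dvd_one.mp h)
  set F := modularFunctionFieldBar (q * 1)
  let e1 : LevelDiv q 1 := ⟨1, Nat.mem_divisors.mpr ⟨one_dvd _, monoLevel_ne_zero⟩⟩
  let eq' : LevelDiv q 1 := ⟨q, Nat.mem_divisors.mpr ⟨dvd_mul_right q 1, monoLevel_ne_zero⟩⟩
  let x : F := ⟨levelGen q 1 e1, levelGen_mem e1⟩
  let y : F := ⟨levelGen q 1 eq', levelGen_mem eq'⟩
  have hs : swapDiv hqM e1 = eq' := by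
    rcases monoLevel_cases hqM e1 with ⟨-, -, h⟩ | ⟨d, -, h, -⟩
    · exact Subtype.ext (h.trans (mul_one q))
    · exact absurd (Dvd.intro d h.symm) hqM
  have hwx : monoSwap hqM x = y := Subtype.ext (by rw [coe_monoSwap_of_eq hqM rfl, hs])
  have hwy : monoSwap hqM y = x := by rw [← hwx, monoSwap_monoSwap]
  have hxc : (x : LaurentSeries Qb) = jqModC Qb := qExpand_one_apply _
  have hyc : (y : LaurentSeries Qb) = qExpand Qb q (jqModC Qb) := rfl
  haveI : NeZero (q * 1) := ⟨Nat.mul_ne_zero hq.ne_zero one_ne_zero⟩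
  obtain ⟨hfin, hF⟩ := mono_finrank_of_eq_full (q * 1) (Nat.cast_ne_zero.mpr (NeZero.ne _))
    (laurentBaseChange_full_eq Qb (q * 1)) hxc
  haveI := hF
  have hx0 : x ≠ 0 := fun h => jqModC_ne_zero_of_nontrivial Qb (by rw [← hxc, h]; rfl)
  have hy0 : y ≠ 0 := by rw [← hwx]; simpa using hx0
  have hxy : IsIntegral (Algebra.adjoin Qb {x}) y :=
    (isIntegral_adjoin_map_iff F.val (show F.val x = jqModC Qb from hxc)
      (show F.val y = qExpand Qb q (jqModC Qb) from hyc)).mp (monoJ_isIntegral Qb q)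
  have hyx : IsIntegral (Algebra.adjoin Qb {y}) x :=
    (isIntegral_adjoin_map_iff (monoSwap hqM : F →ₐ[Qb] F) hwx hwy).mpr hxy
  obtain ⟨P, hP⟩ := exists_isOrderPlace_baseChange Qb (q * 1)
  have hψ : dedekindPsi (q * 1) = q + 1 := by
    rw [mul_one]
    simpa using Modular.Corr.dedekindPsi_mul_prime 1 hq |>.trans (by rw [if_neg hqM, dedekindPsi_one, mul_one])
  have htr : Transcendental Qb y := by
    rw [← hwx]
    exact fun h => mono_transcendental_of_coe_eq hxc
      ((isAlgebraic_algHom_iff (monoSwap hqM : F →ₐ[Qb] F) (monoSwap hqM).injective).mp h)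
  have hdy : Divisor.degree (Curve.polarDivisor Qb y) = (q : ℤ) + 1 := by
    rw [Curve.degree_polarDivisor htr, ← hwx, monoJ_finrank_adjoin_map, hfin, hψ]
    push_cast
    rfl
  have hsupp : ∀ v : Place Qb F, v.ord y < 0 → v.ord x < 0 := fun v hv => by
    by_contra hc
    have := Curve.ord_nonneg_of_mem_place v (mem_place_of_isIntegral_adjoin v
      ((Curve.mem_iff_ord_nonneg v hx0).mpr (not_lt.mp hc)) hxy)
    omega
  have hmem := monoJ_mem_rr_of_two_poles (Curve.deg_eq_one) hq.one_lt.le hdy hsupp (P := P)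
    (by rw [hP x, hxc, order_jqModC])
    (by rw [hP y, hyc, order_qExpand, order_jqModC, mul_neg, mul_one])
  have h2 := ((mem_riemannRochSpace_polar_iff hx0 q y).mp hmem).2
  have h4 : IsIntegral (Algebra.adjoin Qb {y⁻¹}) (x / y ^ q) :=
    (isIntegral_adjoin_map_iff (monoSwap hqM : F →ₐ[Qb] F) (x := x⁻¹) (f := y / x ^ q)
      (by rw [map_inv₀]; exact congrArg (·⁻¹) hwx)
      (by rw [map_div₀, map_pow]; exact congrArg₂ (fun a b => a / b ^ q) hwy hwx)).mpr h2
  refine ⟨monoJ_isIntegral Qb q, ?_, ?_, ?_⟩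
  · exact (isIntegral_adjoin_map_iff F.val (x := x⁻¹) (f := y / x ^ q)
      (by rw [map_inv₀]; exact congrArg (·⁻¹) hxc)
      (by rw [map_div₀, map_pow]; exact congrArg₂ (fun a b => a / b ^ q) hyc hxc)).mpr h2
  · exact (isIntegral_adjoin_map_iff F.val (show F.val y = _ from hyc)
      (show F.val x = _ from hxc)).mpr hyx
  · exact (isIntegral_adjoin_map_iff F.val (x := y⁻¹) (f := x / y ^ q)
      (by rw [map_inv₀]; exact congrArg (·⁻¹) hyc)
      (by rw [map_div₀, map_pow]; exact congrArg₂ (fun a b => a / b ^ q) hxc hyc)).mpr h4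

/-- **Pole bounds**: in any function field containing both, `j` and `j_q` have the same poles, and
each pole order is at most `q` times the other. -/
theorem monoJ_pole_bounds {F : IntermediateField Qb (LaurentSeries Qb)}
    {x y : F} (hxc : (x : LaurentSeries Qb) = jqModC Qb)
    (hyc : (y : LaurentSeries Qb) = qExpand Qb q (jqModC Qb)) (v : Place Qb F) :
    (v.ord x < 0 ↔ v.ord y < 0) ∧
      (v.ord x < 0 → (q : ℤ) * v.ord x ≤ v.ord y ∧ (q : ℤ) * v.ord y ≤ v.ord x) := by
  obtain ⟨i1, i2, i3, i4⟩ := monoJ_integral_bounds q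
  have hx0 : x ≠ 0 := fun h => jqModC_ne_zero_of_nontrivial Qb (by rw [← hxc, h]; rfl)
  have hy0 : y ≠ 0 := fun h => jqModC_ne_zero_of_nontrivial Qb
    (qExpand_injective q (by rw [← hyc, h, map_zero]; rfl))
  have key : ∀ {a b : F}, a ≠ 0 → b ≠ 0 → ∀ {α β : LaurentSeries Qb},
      (a : LaurentSeries Qb) = α → (b : LaurentSeries Qb) = β →
      IsIntegral (Algebra.adjoin Qb ({α} : Set (LaurentSeries Qb))) β →
      IsIntegral (Algebra.adjoin Qb ({α⁻¹} : Set (LaurentSeries Qb))) (β / α ^ q) →
      (v.ord b < 0 → v.ord a < 0) ∧ (v.ord a < 0 → (q : ℤ) * v.ord a ≤ v.ord b) := by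
    intro a b ha hb α β hα hβ h1 h2
    have h1' := (isIntegral_adjoin_map_iff F.val (show F.val a = α from hα)
      (show F.val b = β from hβ)).mp h1
    have h2' := (isIntegral_adjoin_map_iff F.val (x := a⁻¹) (f := b / a ^ q)
      (by rw [map_inv₀]; exact congrArg (·⁻¹) hα)
      (by rw [map_div₀, map_pow]; exact congrArg₂ (fun c d => c / d ^ q) hβ hα)).mp h2
    refine ⟨fun hv => ?_, fun hv => ?_⟩
    · by_contra hc
      have := Curve.ord_nonneg_of_mem_place v (mem_place_of_isIntegral_adjoin v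
        ((Curve.mem_iff_ord_nonneg v ha).mpr (not_lt.mp hc)) h1')
      omega
    · have := Curve.ord_nonneg_of_mem_place v (mem_place_of_isIntegral_adjoin v
        ((Curve.mem_iff_ord_nonneg v (inv_ne_zero ha)).mpr (by rw [v.ord_inv]; omega)) h2')
      rw [div_eq_mul_inv, v.ord_mul hb (inv_ne_zero (pow_ne_zero _ ha)), v.ord_inv, ord_pow] at this
      omega
  obtain ⟨s1, b1⟩ := key hx0 hy0 hxc hyc i1 i2
  obtain ⟨s2, b2⟩ := key hy0 hx0 hyc hxc i3 i4
  exact ⟨⟨s2, s1⟩, fun h => ⟨b1 h, b2 (s2 h)⟩⟩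

end Level

end FermatLib.Igusa.Mono
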