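import Fermat.Agent.Igusa.MonoModular
import Fermat.Agent.Igusa.SpecialLift
import Fermat.Agent.Igusa.MonoJBound

/-!
The glued pairs `(c, Φ c)` and `(Φ c, c)` lift to functions of level `q M` regular away from the
cusps: lift `c` to a function `y` of level `M` and take `y` and `w_q y = y(q τ)`.
-/

set_option autoImplicit false
set_option linter.style.haveILetI false
set_option synthInstance.maxHeartbeats 400000

noncomputable section

open AlgebraicCurve ModularCurve IntermediateField

namespace FermatLib.Igusa.Mono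

attribute [local instance 100000] monoLaurentModule monoLaurentSMul

local notation "Qb" => AlgebraicClosure ℚ

section Reg

variable {K F : Type*} [Field K] [Field F] [Algebra K F]

/-- A function regular away from the poles of `x` is bounded by some multiple of the poles. -/
theorem exists_mem_rr_of_reg [Curve.IsFunctionField K F] {x : F} {P : Divisor K F}
    (hP : ∀ v, P v = max (-v.ord x) 0) {f : F} (hf : f ∈ Reg P) :
    ∃ n : ℕ, f ∈ riemannRochSpace (n • P) := by
  classical
  refine ⟨P.support.sup fun v => (-v.ord f).toNat, ?_⟩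
  rw [mem_riemannRochSpace_iff]
  intro v
  rcases eq_or_ne (P v) 0 with h0 | h0
  · rcases hf v h0 with h | h
    · exact Or.inl h
    · exact Or.inr (by simp [h0, h])
  · right
    have h1 : (1 : ℤ) ≤ P v := by rw [hP] at h0 ⊢; omega
    have h2 : (-v.ord f).toNat ≤ P.support.sup fun v => (-v.ord f).toNat :=
      Finset.le_sup (f := fun v => (-v.ord f).toNat) (Finsupp.mem_support_iff.mpr h0)
    rw [Finsupp.smul_apply, nsmul_eq_mul]
    have h3 : ((P.support.sup fun v => (-v.ord f).toNat : ℕ) : ℤ) * 1 ≤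
        ((P.support.sup fun v => (-v.ord f).toNat : ℕ) : ℤ) * P v :=
      mul_le_mul_of_nonneg_left h1 (Int.natCast_nonneg _)
    have h4 := Int.self_le_toNat (-v.ord f)
    omega

/-- An integral element over `K[z]`, `z` regular away from the poles of `x`, is regular there. -/
theorem mem_reg_of_isIntegral {x z f : F} {P : Divisor K F}
    (hP : ∀ v, P v = max (-v.ord x) 0) (hx : x ≠ 0)
    (hz : IsIntegral (Algebra.adjoin K {x}) z) (hf : IsIntegral (Algebra.adjoin K {z}) f) :
    f ∈ Reg P := by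
  intro v hv
  rw [hP] at hv
  have hxv : x ∈ v.toValuationSubring := (Curve.mem_iff_ord_nonneg v hx).mpr (by omega)
  exact Or.inr (Curve.ord_nonneg_of_mem_place v
    (mem_place_of_isIntegral_adjoin v (mem_place_of_isIntegral_adjoin v hxv hz) hf))

end Reg

variable {q : ℕ} [Fact q.Prime] [NeZero q] {M : ℕ} [NeZero M] (hqM : ¬ q ∣ M)
  {A : ValuationSubring (AlgebraicClosure ℚ)}

local notation "kA" => IsLocalRing.ResidueField A
local notation "FqM" => modularFunctionFieldBar (q * M)
local notation "KbM" => modularFunctionFieldFullC (IsLocalRing.ResidueField A) M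

variable (q M) in
/-- Level `M` functions are level `q M` functions. -/
theorem monoLift_level_le : modularFunctionFieldBar M ≤ modularFunctionFieldBar (q * M) := by
  rw [modularFunctionFieldBar, laurentBaseChange_full_eq, adjoin_le_iff]
  rintro _ ⟨d, hne, hd, rfl⟩
  exact levelGen_mem ⟨d, Nat.mem_divisors.mpr ⟨hd.trans (dvd_mul_left M q), monoLevel_ne_zero⟩⟩

include hqM in
/-- `w_q` on level `M` functions is `u ↦ u ^ q`. -/
theorem coe_monoSwap_levelM {x : LaurentSeries Qb} (hx : x ∈ modularFunctionFieldBar M) :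
    (monoSwap hqM (⟨x, monoLift_level_le q M hx⟩ : FqM) : LaurentSeries Qb) = qExpand Qb q x := by
  let E : IntermediateField Qb (LaurentSeries Qb) := modularFunctionFieldBar M
  let φ : E →ₐ[Qb] LaurentSeries Qb :=
    (FqM).val.comp ((monoSwap hqM).toAlgHom.comp
      (IntermediateField.inclusion (monoLift_level_le q M)))
  let ψ : E →ₐ[Qb] LaurentSeries Qb := (qExpandAlgHomC Qb q).comp E.val
  have hE : E = adjoin Qb (divisorExpansionsC Qb M) := laurentBaseChange_full_eq Qb M
  have hx' : x ∈ adjoin Qb (divisorExpansionsC Qb M) := hE ▸ hx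
  suffices H : ∀ h : x ∈ E, φ ⟨x, h⟩ = ψ ⟨x, h⟩ from H hx
  clear hx
  induction hx' using IntermediateField.adjoin_induction with
  | mem z hz =>
    intro h
    obtain ⟨d, hne, hd, rfl⟩ := hz
    let e : LevelDiv q M :=
      ⟨d, Nat.mem_divisors.mpr ⟨hd.trans (dvd_mul_left M q), monoLevel_ne_zero⟩⟩
    show (monoSwap hqM _ : LaurentSeries Qb) = qExpand Qb q (qExpand Qb d (jqModC Qb))
    rw [coe_monoSwap_of_eq hqM (e := e) rfl, levelGen]
    rcases monoLevel_cases hqM e with ⟨-, -, hs⟩ | ⟨d', -, hed, -⟩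
    · haveI : NeZero (q * d) := ⟨Nat.mul_ne_zero (NeZero.ne q) (NeZero.ne d)⟩
      rw [qExpand_qExpand]
      exact qExpand_congr hs _
    · exact absurd ((Dvd.intro d' hed.symm).trans hd) hqM
  | algebraMap c => intro h; exact (φ.commutes c).trans (ψ.commutes c).symm
  | add z w hz hw ihz ihw =>
    intro h
    have hz' : z ∈ E := hE ▸ hz
    have hw' : w ∈ E := hE ▸ hw
    rw [show (⟨z + w, h⟩ : E) = ⟨z, hz'⟩ + ⟨w, hw'⟩ from rfl, map_add, map_add, ihz, ihw]
  | inv z hz ihz =>
    intro h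
    have hz' : z ∈ E := hE ▸ hz
    rw [show (⟨z⁻¹, h⟩ : E) = (⟨z, hz'⟩ : E)⁻¹ from rfl, map_inv₀, map_inv₀, ihz]
  | mul z w hz hw ihz ihw =>
    intro h
    have hz' : z ∈ E := hE ▸ hz
    have hw' : w ∈ E := hE ▸ hw
    rw [show (⟨z * w, h⟩ : E) = ⟨z, hz'⟩ * ⟨w, hw'⟩ from rfl, map_mul, map_mul, ihz, ihw]

variable (hA : A.LiesOverPrime q)

/-- Functions with `A`-integral series reduce coefficientwise. -/
theorem monoSheetInf_of_series {f : FqM} {Y : LaurentSeries A}
    (h : (f : LaurentSeries Qb) = latVal A Y) :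
    f ∈ (monoSheetInf hqM hA).W ∧
      ((monoSheetInf hqM hA).rd f : LaurentSeries kA) = latRed (IsLocalRing.residue A) Y := by
  obtain ⟨hm, hr⟩ := seriesSheet_rd_of_eq (ι := iotaInf q M) (π := IsLocalRing.residue A)
    monoResidue_eq_zero_iff (Fact.out : q.Prime) (monoResidue_natCast hA) (exists_fraction_inf hqM)
    (f := f) (y := Y) h
  exact ⟨hm, (coe_monoSheetInf_rd hqM hA f).trans hr⟩

variable [CharP (IsLocalRing.ResidueField A) q]

/-- **Lifting of glued pairs.** -/
theorem mono_lift_exists (c : KbM) (hc : c ∈ Reg (monoP₁ hqM hA)) : ∃ N : ℕ,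
    ((c, monoPhi kA q M c) : KbM × KbM) ∈ redSpace (monoSheetInf hqM hA) (monoSheetZero hqM hA)
        IsLocalRing.residue_surjective (riemannRochSpace (N • monoPx q M)) ∧
    ((monoPhi kA q M c, c) : KbM × KbM) ∈ redSpace (monoSheetInf hqM hA) (monoSheetZero hqM hA)
        IsLocalRing.residue_surjective (riemannRochSpace (N • monoPx q M)) := by
  haveI := monoSpecial_isFunctionField hqM hA
  haveI := monoLevel_isFunctionField q M
  obtain ⟨n₀, hn₀⟩ := exists_lift_of_isIntegral M hqM A hA
  have hj0 : jBarK M A ≠ 0 := fun h =>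
    jqModC_ne_zero_of_nontrivial kA (by rw [← coe_jBarK (M := M) (A := A), h]; rfl)
  -- `c` is bounded at the cusps
  obtain ⟨m, hm⟩ := exists_mem_rr_of_reg (monoP₁_apply hqM hA) hc
  have hP : monoP₁ hqM hA = Curve.polarDivisor kA (jBarK M A) := Finsupp.ext fun v => by
    rw [monoP₁_apply', Curve.polarDivisor_apply]
  have hm' : c ∈ riemannRochSpace (((max m n₀ : ℕ) : ℤ) • Curve.polarDivisor kA (jBarK M A)) := by
    rw [natCast_zsmul, ← hP]
    refine riemannRochSpace_mono (nsmul_le_nsmul_left ?_ (le_max_left m n₀)) hm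
    rw [Finsupp.le_def]
    intro v
    rw [monoP₁_apply]
    exact le_max_right _ _
  obtain ⟨hi1, hi2⟩ := (mem_riemannRochSpace_polar_iff hj0 _ c).mp hm'
  obtain ⟨Y, hYM, hYint, -, hYred⟩ := hn₀ _ (le_max_right m n₀) (c : LaurentSeries kA) c.2
    ((isIntegral_adjoin_map_iff (KbM).val (show (KbM).val (jBarK M A) = jqModC kA from rfl)
      (show (KbM).val c = (c : LaurentSeries kA) from rfl)).mpr hi1)
    ((isIntegral_adjoin_map_iff (KbM).val
      (show (KbM).val (jBarK M A)⁻¹ = (jqModC kA)⁻¹ from map_inv₀ _ _)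
      (show (KbM).val (c / jBarK M A ^ max m n₀) = (c : LaurentSeries kA) / jqModC kA ^ max m n₀
        by rw [map_div₀, map_pow]; rfl)).mpr hi2)
  -- the two lifts
  let f : FqM := ⟨latVal A Y, monoLift_level_le q M hYM⟩
  let g : FqM := monoSwap hqM f
  have hgser : (g : LaurentSeries Qb) = latVal A (qExpand A q Y) := by
    rw [latVal, coeffMap_qExpand]
    exact coe_monoSwap_levelM hqM hYM
  obtain ⟨hf1, hfr⟩ := monoSheetInf_of_series hqM hA (f := f) (Y := Y) rfl
  obtain ⟨hg1, hgr⟩ := monoSheetInf_of_series hqM hA hgser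
  have hfr' : (monoSheetInf hqM hA).rd f = c := Subtype.ext (hfr.trans hYred)
  have hgr' : (monoSheetInf hqM hA).rd g = monoPhi kA q M c := Subtype.ext (by
    rw [hgr, coe_monoPhi, latRed, coeffMap_qExpand]
    exact congrArg (qExpand kA q) hYred)
  have hf2 : f ∈ (monoSheetZero hqM hA).W := (monoSheetZero_mem_iff hqM hA f).mpr hg1
  have hg2 : g ∈ (monoSheetZero hqM hA).W := (monoSheetZero_mem_iff hqM hA g).mpr (by
    rw [monoSwap_monoSwap]; exact hf1)
  have hfi : Integral₂ (monoSheetInf hqM hA) (monoSheetZero hqM hA) f := ⟨hf1, hf2⟩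
  have hgi : Integral₂ (monoSheetInf hqM hA) (monoSheetZero hqM hA) g := ⟨hg1, hg2⟩
  -- regularity away from the cusps
  have hjf0 : jFq q M ≠ 0 := fun h =>
    jqModC_ne_zero_of_nontrivial Qb (by rw [← coe_jFq q M, h]; rfl)
  have hfint : IsIntegral (Algebra.adjoin Qb {jFq q M}) f :=
    (isIntegral_adjoin_map_iff (FqM).val (show (FqM).val (jFq q M) = jqModC Qb from coe_jFq q M)
      (show (FqM).val f = latVal A Y from rfl)).mp hYint
  have hgint : IsIntegral (Algebra.adjoin Qb {jqFq q M}) g :=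
    (isIntegral_adjoin_map_iff (monoSwap hqM : FqM →ₐ[Qb] FqM) (monoSwap_jFq hqM)
      (show (monoSwap hqM : FqM →ₐ[Qb] FqM) f = g from rfl)).mpr hfint
  have hjqint : IsIntegral (Algebra.adjoin Qb {jFq q M}) (jqFq q M) :=
    (isIntegral_adjoin_map_iff (FqM).val (show (FqM).val (jFq q M) = jqModC Qb from coe_jFq q M)
      (show (FqM).val (jqFq q M) = qExpand Qb q (jqModC Qb) from rfl)).mp (monoJ_isIntegral Qb q)
  have hjint : IsIntegral (Algebra.adjoin Qb {jFq q M}) (jFq q M) :=
    isIntegral_algebraMap (R := Algebra.adjoin Qb {jFq q M})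
      (x := ⟨jFq q M, Algebra.self_mem_adjoin_singleton Qb _⟩)
  obtain ⟨N₁, hN₁⟩ := exists_mem_rr_of_reg (monoPx_apply q M)
    (mem_reg_of_isIntegral (monoPx_apply q M) hjf0 hjint hfint)
  obtain ⟨N₂, hN₂⟩ := exists_mem_rr_of_reg (monoPx_apply q M)
    (mem_reg_of_isIntegral (monoPx_apply q M) hjf0 hjqint hgint)
  have hPx0 : 0 ≤ monoPx q M := by
    rw [Finsupp.le_def]
    intro v
    rw [monoPx_apply]
    exact le_max_right _ _
  refine ⟨max N₁ N₂, ⟨f, riemannRochSpace_mono (nsmul_le_nsmul_left hPx0 (le_max_left _ _)) hN₁,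
      hfi, Prod.ext hfr' ?_⟩,
    ⟨g, riemannRochSpace_mono (nsmul_le_nsmul_left hPx0 (le_max_right _ _)) hN₂, hgi,
      Prod.ext hgr' ?_⟩⟩
  · show (monoSheetZero hqM hA).rd f = _
    rw [monoSheetZero_rd]
    exact hgr'
  · show (monoSheetZero hqM hA).rd g = _
    rw [monoSheetZero_rd, monoSwap_monoSwap]
    exact hfr'

end FermatLib.Igusa.Mono
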