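import Fermat.Agent.Igusa.MonoTopLift

/-!
Every leading part at the cusps occurs on one sheet with zero on the other sheet (the `top`
property of the two-sheet datum of level `q M`).

First sheet: `(j - j_q ^ q) * Y`. Second sheet: `(j_q - j ^ q) * j ^ i * R ^ t * w_q Y`, where
`j_q * R = Φ_q(0, j)` comes from the modular equation.
-/

set_option autoImplicit false
set_option linter.style.haveILetI false
set_option synthInstance.maxHeartbeats 400000

noncomputable section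

open AlgebraicCurve ModularCurve IntermediateField

namespace FermatLib.Igusa.Mono

section Layers

variable {K F : Type*} [Field K] [Field F] [Algebra K F]

/-- `β` has poles exactly `e P`. -/
def ExactPole (P : Divisor K F) (β : F) (e : ℤ) : Prop :=
  β ≠ 0 ∧ ∀ v : Place K F, (P v ≠ 0 → v.ord β = -(e * P v)) ∧ (P v = 0 → 0 ≤ v.ord β)

variable {P : Divisor K F} {β γ : F} {e e' : ℤ}

theorem ExactPole.mul (h : ExactPole P β e) (h' : ExactPole P γ e') :
    ExactPole P (β * γ) (e + e') := by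
  refine ⟨mul_ne_zero h.1 h'.1, fun v => ?_⟩
  rw [v.ord_mul h.1 h'.1]
  refine ⟨fun hv => ?_, fun hv => ?_⟩
  · rw [(h.2 v).1 hv, (h'.2 v).1 hv]; ring
  · have := (h.2 v).2 hv
    have := (h'.2 v).2 hv
    omega

theorem ExactPole.pow (h : ExactPole P β e) (n : ℕ) : ExactPole P (β ^ n) (n * e) := by
  refine ⟨pow_ne_zero n h.1, fun v => ?_⟩
  rw [ord_pow]
  refine ⟨fun hv => ?_, fun hv => ?_⟩
  · rw [(h.2 v).1 hv]; ring
  · exact mul_nonneg (Int.natCast_nonneg n) ((h.2 v).2 hv)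

theorem ExactPole.neg (h : ExactPole P β e) : ExactPole P (-β) e := by
  refine ⟨neg_ne_zero.mpr h.1, fun v => ?_⟩
  rw [ord_neg]
  exact h.2 v

/-- Multiplication by a function with poles exactly `e P` fills the top `s` layers. -/
theorem ExactPole.exists_sub_mem {g : ℕ} (hF : RRField K F g) (hP : 0 ≤ P)
    {e : ℕ} (hβ : ExactPole P β e) {s m : ℕ} (hsm : s ≤ m)
    (hdeg : 2 * (g : ℤ) - 1 ≤ ((m - s : ℕ) : ℤ) * Divisor.degree P) {f : F}
    (hf : f ∈ riemannRochSpace ((e + m) • P)) :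
    ∃ a ∈ riemannRochSpace (m • P), f - β * a ∈ riemannRochSpace ((e + m - s) • P) := by
  classical
  set S := (riemannRochSpace (m • P)).map (LinearMap.mulLeft K β)
  set T := riemannRochSpace ((e + m - s) • P)
  set U := (riemannRochSpace ((m - s) • P)).map (LinearMap.mulLeft K β)
  set V := riemannRochSpace ((e + m) • P)
  have hinj : Function.Injective (LinearMap.mulLeft K β) := mul_right_injective₀ hβ.1
  have hST : S ⊔ T ≤ V := by
    refine sup_le ?_ (riemannRochSpace_mono (nsmul_le_nsmul_left hP (Nat.sub_le _ _)))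
    rintro _ ⟨a, ha, rfl⟩
    rw [mem_riemannRochSpace_iff]
    intro v
    rcases eq_or_ne a 0 with rfl | ha0
    · left; exact mul_zero β
    right
    have h1 := (mem_riemannRochSpace_iff.mp ha v).resolve_left ha0
    show _ ≤ v.ord (β * a)
    rw [v.ord_mul hβ.1 ha0, Finsupp.smul_apply, nsmul_eq_mul]
    rw [Finsupp.smul_apply, nsmul_eq_mul] at h1
    push_cast
    rcases eq_or_ne (P v) 0 with hv | hv
    · have := (hβ.2 v).2 hv
      rw [hv, mul_zero, neg_zero] at h1 ⊢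
      omega
    · rw [(hβ.2 v).1 hv]
      linarith
  have hle : S ⊓ T ≤ U := by
    rintro x ⟨⟨a, ha, rfl⟩, hx⟩
    refine ⟨a, ?_, rfl⟩
    rw [SetLike.mem_coe, mem_riemannRochSpace_iff]
    intro v
    rcases eq_or_ne a 0 with rfl | ha0
    · exact Or.inl rfl
    right
    have h1 := (mem_riemannRochSpace_iff.mp ha v).resolve_left ha0
    rw [Finsupp.smul_apply, nsmul_eq_mul] at h1 ⊢
    rcases eq_or_ne (P v) 0 with hv | hv
    · rw [hv, mul_zero] at h1 ⊢; exact h1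
    · have h2 := (mem_riemannRochSpace_iff.mp hx v).resolve_left (mul_ne_zero hβ.1 ha0)
      change _ ≤ v.ord (β * a) at h2
      rw [v.ord_mul hβ.1 ha0, (hβ.2 v).1 hv, Finsupp.smul_apply, nsmul_eq_mul,
        Nat.cast_sub (by omega : s ≤ e + m)] at h2
      rw [Nat.cast_sub hsm]
      push_cast at h2
      linarith
  haveI := hF.finite_space (m • P)
  haveI := hF.finite_space ((e + m - s) • P)
  haveI := hF.finite_space ((m - s) • P)
  haveI := hF.finite_space ((e + m) • P)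
  have hd : ∀ n : ℕ, m - s ≤ n →
      (Module.finrank K (riemannRochSpace (n • P)) : ℤ) = n * Divisor.degree P + 1 - g := by
    intro n hn
    have h0 : ((m - s : ℕ) : ℤ) * Divisor.degree P ≤ (n : ℤ) * Divisor.degree P :=
      mul_le_mul_of_nonneg_right (by exact_mod_cast hn) (degree_nonneg hP)
    rw [hF.finrank_space (n • P) (by rw [map_nsmul, nsmul_eq_mul]; linarith), map_nsmul,
      nsmul_eq_mul]
  have h1 := Submodule.finrank_sup_add_finrank_inf_eq S T
  have h2 : Module.finrank K S = Module.finrank K (riemannRochSpace (m • P)) :=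
    (Submodule.equivMapOfInjective _ hinj _).finrank_eq.symm
  have h3 : Module.finrank K U = Module.finrank K (riemannRochSpace ((m - s) • P)) :=
    (Submodule.equivMapOfInjective _ hinj _).finrank_eq.symm
  have h4 := Submodule.finrank_mono hle
  have h5 := Submodule.finrank_mono hST
  have e1 := hd m (by omega)
  have e2 := hd (e + m - s) (by omega)
  have e3 := hd (m - s) le_rfl
  have e4 := hd (e + m) (by omega)
  rw [Nat.cast_sub (by omega : s ≤ e + m), Nat.cast_add] at e2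
  rw [Nat.cast_sub hsm] at e3
  rw [Nat.cast_add] at e4
  have h6 : Module.finrank K V ≤ Module.finrank K ↥(S ⊔ T) := by
    have : (Module.finrank K V : ℤ) + Module.finrank K U =
        Module.finrank K S + Module.finrank K T := by
      rw [h2, h3]
      linarith
    omega
  have heq : S ⊔ T = V := Submodule.eq_of_le_of_finrank_le hST h6
  obtain ⟨y, hy, z, hz, hyz⟩ := Submodule.mem_sup.mp (heq.ge hf)
  obtain ⟨a, ha, rfl⟩ := hy
  exact ⟨a, ha, by rw [← hyz]; simpa using hz⟩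

/-- A monic integral polynomial in `y` has poles exactly `deg` times those of `y`. -/
theorem exactPole_eval₂ {y : F} (hy : ∀ v, P v = max (-v.ord y) 0) {G : Polynomial ℤ}
    (hG : G.Monic) (hd : 0 < G.natDegree) (hne : G.eval₂ (Int.castRingHom F) y ≠ 0) :
    ExactPole P (G.eval₂ (Int.castRingHom F) y) G.natDegree := by
  refine ⟨hne, fun v => ⟨fun hv => ?_, fun hv => ?_⟩⟩
  · rw [hy] at hv
    have hy0 : y ≠ 0 := fun h => hv (by rw [h, Place.ord_zero]; rfl)
    have hneg : v.ord y < 0 := by omega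
    conv_lhs => rw [hG.as_sum]
    rw [Polynomial.eval₂_add, Polynomial.eval₂_pow, Polynomial.eval₂_X, Polynomial.eval₂_finsetSum]
    obtain ⟨-, h⟩ := Curve.ord_add_eq_left_of_mem v (pow_ne_zero G.natDegree hy0)
      (g := ∑ i ∈ Finset.range G.natDegree,
        (Polynomial.C (G.coeff i) * Polynomial.X ^ i).eval₂ (Int.castRingHom F) y) (by
        refine Submodule.sum_mem _ fun i hi => ?_
        rw [Polynomial.eval₂_mul, Polynomial.eval₂_C, Polynomial.eval₂_pow, Polynomial.eval₂_X,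
          eq_intCast, ← map_intCast (algebraMap K F), ← Algebra.smul_def]
        refine Submodule.smul_mem _ _ (Curve.mem_ordGE_of_le ?_)
        rw [ord_pow, ord_pow]
        have hi' : (i : ℤ) + 1 ≤ G.natDegree := by exact_mod_cast Finset.mem_range.mp hi
        nlinarith)
    rw [h, ord_pow, hy, max_eq_left (by omega)]
    ring
  · rw [hy] at hv
    rcases eq_or_ne y 0 with rfl | hy0
    · rw [Polynomial.eval₂_at_zero, eq_intCast, ← map_intCast (algebraMap K F), ord_algebraMap]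
    have hmem : y ∈ v.toValuationSubring := (Curve.mem_iff_ord_nonneg v hy0).mpr (by omega)
    refine Curve.ord_nonneg_of_mem_place v ?_
    rw [Polynomial.eval₂_eq_sum_range]
    exact sum_mem fun i _ => mul_mem (intCast_mem _ _) (pow_mem hmem i)

end Layers

section Eval

variable {L : Type*} {k : Type*} [Field L] [Field k] {A : ValuationSubring L} {π : A →+* k}
  {F Kb : Type*} [Field F] [Algebra L F] [Field Kb] [Algebra k Kb] (s : Sheet π F Kb)

/-- Residues of integral polynomials. -/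
theorem Sheet.rd_eval₂_int (G : Polynomial ℤ) {f : F} (hf : f ∈ s.W) :
    G.eval₂ (Int.castRingHom F) f ∈ s.W ∧
      s.rd (G.eval₂ (Int.castRingHom F) f) = G.eval₂ (Int.castRingHom Kb) (s.rd f) := by
  let f' : s.W := ⟨f, hf⟩
  have h : G.eval₂ (Int.castRingHom F) f = ((G.eval₂ (Int.castRingHom s.W) f' : s.W) : F) := by
    refine Eq.trans ?_ (Polynomial.hom_eval₂ G (Int.castRingHom s.W) s.W.subtype f').symm
    congr 1
  have hm : G.eval₂ (Int.castRingHom F) f ∈ s.W := h ▸ (G.eval₂ (Int.castRingHom s.W) f').2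
  refine ⟨hm, ?_⟩
  rw [Sheet.rd_of_mem hm, Sheet.rd_of_mem hf,
    show (⟨_, hm⟩ : s.W) = G.eval₂ (Int.castRingHom s.W) f' from Subtype.ext h,
    Polynomial.hom_eval₂]
  congr 1
  exact Subsingleton.elim _ _

end Eval

section Abstract

variable {L k : Type*} [Field L] [Field k] {A : ValuationSubring L} {π : A →+* k}
  {F Kb : Type*} [Field F] [Algebra L F] [Field Kb] [Algebra k Kb]

/-- The functions `j`, `j_q`, `R` on two sheets, with what the leading parts need. -/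
structure TopHyp (s₁ s₂ : Sheet π F Kb) (q : ℕ) (j jq R : F) (G : Polynomial ℤ) (y : Kb)
    (P : Divisor k Kb) (Px : Divisor L F) : Prop where
  two_le : 2 ≤ q
  j₁ : j ∈ s₁.W ∧ s₁.rd j = y
  j₂ : j ∈ s₂.W ∧ s₂.rd j = y ^ q
  jq₁ : jq ∈ s₁.W ∧ s₁.rd jq = y ^ q
  jq₂ : jq ∈ s₂.W ∧ s₂.rd jq = y
  monic : G.Monic
  deg_pos : 0 < G.natDegree
  eqn : jq * R = G.eval₂ (Int.castRingHom F) j
  mem_subring : ∀ S : Subring F, j ∈ S → jq ∈ S → R ∈ S
  P_apply : ∀ v, P v = max (-v.ord y) 0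
  eval_ne : ∀ H : Polynomial ℤ, H.Monic → H.eval₂ (Int.castRingHom Kb) y ≠ 0
  Px_apply : ∀ v, Px v = max (-v.ord j) 0
  poles : ∀ v : Place L F, (v.ord j < 0 ↔ v.ord jq < 0) ∧
    (v.ord j < 0 → (q : ℤ) * v.ord j ≤ v.ord jq ∧ (q : ℤ) * v.ord jq ≤ v.ord j)

namespace TopHyp

variable {s₁ s₂ : Sheet π F Kb} {q : ℕ} {j jq R : F} {G : Polynomial ℤ} {y : Kb}
  {P : Divisor k Kb} {Px : Divisor L F} (h : TopHyp s₁ s₂ q j jq R G y P Px)
include h

theorem P_nonneg : 0 ≤ P := Finsupp.le_def.mpr fun v => by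
  rw [h.P_apply]; exact le_max_right _ _

theorem y_exact : ExactPole P y 1 := by
  have h' := exactPole_eval₂ h.P_apply Polynomial.monic_X (by simp)
    (h.eval_ne Polynomial.X Polynomial.monic_X)
  simpa using h'

theorem sep_exact : ExactPole P (y - y ^ (q * q)) ((q * q : ℕ) : ℤ) := by
  have hq2 := h.two_le
  set H : Polynomial ℤ := Polynomial.X ^ (q * q) - Polynomial.X with hH
  have hlt : (Polynomial.X : Polynomial ℤ).natDegree < q * q := by
    rw [Polynomial.natDegree_X]; nlinarith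
  have hdegH : H.natDegree = q * q := by
    rw [hH, Polynomial.natDegree_sub_eq_left_of_natDegree_lt (by
      rwa [Polynomial.natDegree_X_pow]), Polynomial.natDegree_X_pow]
  have hHm : H.Monic := Polynomial.monic_X_pow_sub (by
    rw [Polynomial.degree_X]; exact_mod_cast (by nlinarith : 1 < q * q))
  have h' := (exactPole_eval₂ h.P_apply hHm (by rw [hdegH]; nlinarith) (h.eval_ne H hHm)).neg
  rw [hdegH] at h'
  have heq : -H.eval₂ (Int.castRingHom Kb) y = y - y ^ (q * q) := by simp [hH]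
  rwa [heq] at h'

theorem R_mem : R ∈ s₁.W ∧ R ∈ s₂.W :=
  ⟨h.mem_subring s₁.W.toSubring h.j₁.1 h.jq₁.1, h.mem_subring s₂.W.toSubring h.j₂.1 h.jq₂.1⟩

theorem R_regular {v : Place k Kb} (hv : P v = 0) : 0 ≤ v.ord (s₂.rd R) := by
  let Sv : Subring F := (v.toValuationSubring.toSubring.comap s₂.red).map s₂.W.subtype
  have hmem : ∀ f : F, ∀ hf : f ∈ s₂.W, s₂.rd f ∈ v.toValuationSubring → f ∈ Sv :=
    fun f hf hf' => ⟨⟨f, hf⟩, by
      show s₂.red ⟨f, hf⟩ ∈ v.toValuationSubring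
      rwa [← Sheet.rd_of_mem hf], rfl⟩
  have hyv : y ∈ v.toValuationSubring := (Curve.mem_iff_ord_nonneg v h.y_exact.1).mpr
    ((h.y_exact.2 v).2 hv)
  obtain ⟨⟨w, hw⟩, hwv, hwR⟩ := h.mem_subring Sv
    (hmem j h.j₂.1 (by rw [h.j₂.2]; exact pow_mem hyv q))
    (hmem jq h.jq₂.1 (by rw [h.jq₂.2]; exact hyv))
  change w = R at hwR
  subst hwR
  refine Curve.ord_nonneg_of_mem_place v ?_
  rw [Sheet.rd_of_mem hw]
  exact hwv

theorem R_exact : ExactPole P (s₂.rd R) ((G.natDegree * q - 1 : ℕ) : ℤ) := by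
  have hq : 0 < q := by linarith [h.two_le]
  have hdq : 1 ≤ G.natDegree * q := Nat.mul_pos h.deg_pos hq
  have hyq : y * s₂.rd R = (Polynomial.expand ℤ q G).eval₂ (Int.castRingHom Kb) y := by
    rw [Polynomial.expand_eq_comp_X_pow, Polynomial.eval₂_comp, Polynomial.eval₂_pow,
      Polynomial.eval₂_X, ← h.j₂.2, ← (s₂.rd_eval₂_int G h.j₂.1).2, ← h.eqn,
      Sheet.rd_mul h.jq₂.1 h.R_mem.2, h.jq₂.2]
  have hdeg2 : (Polynomial.expand ℤ q G).natDegree = G.natDegree * q :=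
    Polynomial.natDegree_expand q G
  have hE := exactPole_eval₂ h.P_apply (h.monic.expand hq) (by rw [hdeg2]; omega)
    (h.eval_ne _ (h.monic.expand hq))
  have hRb0 : s₂.rd R ≠ 0 := fun h0 => hE.1 (by rw [← hyq, h0, mul_zero])
  refine ⟨hRb0, fun v => ⟨fun hv => ?_, h.R_regular⟩⟩
  have h' := (hE.2 v).1 hv
  rw [← hyq, v.ord_mul h.y_exact.1 hRb0, (h.y_exact.2 v).1 hv, hdeg2] at h'
  rw [Nat.cast_sub hdq]
  push_cast at h' ⊢
  linarith

theorem j_ne : j ≠ 0 := fun h0 => h.y_exact.1 (by rw [← h.j₁.2, h0, Sheet.rd_zero])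

theorem jq_ne : jq ≠ 0 := fun h0 => h.y_exact.1 (by rw [← h.jq₂.2, h0, Sheet.rd_zero])

theorem R_ne : R ≠ 0 := fun h0 => h.R_exact.1 (by rw [h0, Sheet.rd_zero])

theorem nonneg {v : Place L F} (hv : 0 ≤ v.ord j) : 0 ≤ v.ord jq ∧ 0 ≤ v.ord R := by
  have h1 : 0 ≤ v.ord jq := by
    by_contra hlt
    have := (h.poles v).1.mpr (not_le.mp hlt)
    omega
  exact ⟨h1, Curve.ord_nonneg_of_mem_place v (h.mem_subring v.toValuationSubring.toSubring
    ((Curve.mem_iff_ord_nonneg v h.j_ne).mpr hv) ((Curve.mem_iff_ord_nonneg v h.jq_ne).mpr h1))⟩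

theorem ord_R {v : Place L F} (hv : v.ord j < 0) :
    v.ord R = (G.natDegree : ℤ) * v.ord j - v.ord jq := by
  have hne : G.eval₂ (Int.castRingHom F) j ≠ 0 := by
    rw [← h.eqn]; exact mul_ne_zero h.jq_ne h.R_ne
  have hz : Px v ≠ 0 := by rw [h.Px_apply]; omega
  have h' := ((exactPole_eval₂ h.Px_apply h.monic h.deg_pos hne).2 v).1 hz
  rw [← h.eqn, v.ord_mul h.jq_ne h.R_ne, h.Px_apply, max_eq_left (by omega)] at h'
  linarith

theorem sep₁_mem : (j - jq ^ q) ∈ riemannRochSpace ((q * q) • Px) := by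
  have hq2 := h.two_le
  rw [mem_riemannRochSpace_iff]
  intro v
  rcases eq_or_ne (j - jq ^ q) 0 with h0 | h0
  · exact Or.inl h0
  right
  rw [Finsupp.smul_apply, nsmul_eq_mul, h.Px_apply]
  rcases le_or_gt 0 (v.ord j) with hv | hv
  · rw [max_eq_right (by omega), mul_zero, neg_zero]
    exact Curve.ord_nonneg_of_mem_place v (sub_mem ((Curve.mem_iff_ord_nonneg v h.j_ne).mpr hv)
      (pow_mem ((Curve.mem_iff_ord_nonneg v h.jq_ne).mpr (h.nonneg hv).1) q))
  · have hb := ((h.poles v).2 hv).1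
    rw [max_eq_left (by omega)]
    have hqq : (1 : ℤ) ≤ (q : ℤ) * q := by exact_mod_cast (by nlinarith : 1 ≤ q * q)
    have h1 : j ∈ Curve.ordGE v (((q * q : ℕ) : ℤ) * v.ord j) :=
      Curve.mem_ordGE_of_le (by push_cast; nlinarith)
    have h2 : jq ^ q ∈ Curve.ordGE v (((q * q : ℕ) : ℤ) * v.ord j) :=
      Curve.mem_ordGE_of_le (by rw [ord_pow]; push_cast; nlinarith)
    have := Curve.le_ord_of_mem (sub_mem h1 h2) h0
    linarith

theorem sep₂_bound {v : Place L F} (hv : v.ord j < 0) (h0 : jq - j ^ q ≠ 0) :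
    (q : ℤ) * v.ord j ≤ v.ord (jq - j ^ q) :=
  Curve.le_ord_of_mem (sub_mem (Curve.mem_ordGE_of_le ((h.poles v).2 hv).1)
    (Curve.mem_ordGE_of_le (by rw [ord_pow]))) h0

variable {g : ℕ} (rrK : RRField k Kb g) (hdP : 1 ≤ Divisor.degree P)
  (hπs : Function.Surjective π) {n₁ : ℕ}
include rrK hdP

/-- Leading parts on the first sheet. -/
theorem top₁
    (hlift : ∀ m, n₁ ≤ m → ∀ a ∈ riemannRochSpace (m • P), ∃ Y : F,
      Y ∈ s₁.W ∧ Y ∈ s₂.W ∧ s₁.rd Y = a ∧ Y ∈ riemannRochSpace (m • Px))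
    {n : ℕ} (hn : q * q + n₁ + 2 * g + 1 ≤ n) {f : Kb} (hf : f ∈ riemannRochSpace (n • P)) :
    ∃ r : Kb, ((r, 0) : Kb × Kb) ∈ redSpace s₁ s₂ hπs (riemannRochSpace (n • Px)) ∧
      f - r ∈ riemannRochSpace ((n - 1) • P) := by
  obtain ⟨m, rfl⟩ : ∃ m, n = q * q + m := ⟨n - q * q, by omega⟩
  obtain ⟨a, ha, hfa⟩ := h.sep_exact.exists_sub_mem rrK h.P_nonneg (s := 1) (m := m) (by omega) (by
    have h1 : ((2 * g : ℕ) : ℤ) ≤ ((m - 1 : ℕ) : ℤ) := by
      exact_mod_cast (by omega : 2 * g ≤ m - 1)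
    have h2 : ((m - 1 : ℕ) : ℤ) * 1 ≤ ((m - 1 : ℕ) : ℤ) * Divisor.degree P :=
      mul_le_mul_of_nonneg_left hdP (Int.natCast_nonneg _)
    push_cast at h1
    omega) hf
  obtain ⟨Y, hY1, hY2, hYr, hYm⟩ := hlift m (by omega) a ha
  obtain ⟨hj1, rj1⟩ := h.j₁
  obtain ⟨hj2, rj2⟩ := h.j₂
  obtain ⟨hjq1, rjq1⟩ := h.jq₁
  obtain ⟨hjq2, rjq2⟩ := h.jq₂
  refine ⟨(y - y ^ (q * q)) * a, ⟨(j - jq ^ q) * Y, ?_,
    ⟨mul_mem (sub_mem hj1 (pow_mem hjq1 _)) hY1, mul_mem (sub_mem hj2 (pow_mem hjq2 _)) hY2⟩,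
    Prod.ext ?_ ?_⟩, hfa⟩
  · rw [add_nsmul]
    exact mul_mem_riemannRochSpace h.sep₁_mem hYm
  · show s₁.rd _ = _
    rw [Sheet.rd_mul (sub_mem hj1 (pow_mem hjq1 _)) hY1, hYr,
      Sheet.rd_sub hj1 (pow_mem hjq1 _), Sheet.rd_pow hjq1, rj1, rjq1, ← pow_mul]
  · show s₂.rd _ = _
    rw [Sheet.rd_mul (sub_mem hj2 (pow_mem hjq2 _)) hY2,
      Sheet.rd_sub hj2 (pow_mem hjq2 _), Sheet.rd_pow hjq2, rj2, rjq2, sub_self, zero_mul]

/-- Leading parts on the second sheet. -/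
theorem top₂ {t : ℕ} (ht : q + 2 * g ≤ t)
    (hlift : ∀ a ∈ riemannRochSpace (t • P), ∃ W : F,
      W ∈ s₁.W ∧ W ∈ s₂.W ∧ s₂.rd W = a ∧
        ∀ v : Place L F, W ≠ 0 → -((t : ℤ) * max (-v.ord jq) 0) ≤ v.ord W)
    {n : ℕ} (hn : q + t * G.natDegree ≤ n) {f : Kb}
    (hf : f ∈ riemannRochSpace ((n * q) • P)) :
    ∃ r : Kb, ((0, r) : Kb × Kb) ∈ redSpace s₁ s₂ hπs (riemannRochSpace (n • Px)) ∧
      f - r ∈ riemannRochSpace (((n - 1) * q) • P) := by
  set d := G.natDegree with hd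
  obtain ⟨i, rfl⟩ : ∃ i, n = q + t * d + i := ⟨n - (q + t * d), by omega⟩
  have hq : 0 < q := by linarith [h.two_le]
  have hdq : 1 ≤ d * q := Nat.mul_pos h.deg_pos hq
  set e := q * q + (q * i + t * (d * q - 1)) with he
  have hen : (q + t * d + i) * q = e + t := by
    have h1 : t * (d * q - 1) + t = t * (d * q) := by
      rw [← Nat.mul_succ, Nat.succ_eq_add_one, Nat.sub_add_cancel hdq]
    have h2 : (q + t * d + i) * q = q * q + (q * i + t * (d * q)) := by ring
    omega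
  have hβ : ExactPole P ((y - y ^ (q * q)) * ((y ^ q) ^ i * s₂.rd R ^ t)) ((e : ℕ) : ℤ) := by
    have h' := h.sep_exact.mul (((h.y_exact.pow q).pow i).mul (h.R_exact.pow t))
    rwa [show ((e : ℕ) : ℤ) = ((q * q : ℕ) : ℤ) + ((i : ℤ) * ((q : ℤ) * 1) +
      (t : ℤ) * ((d * q - 1 : ℕ) : ℤ)) by rw [he]; push_cast; ring]
  obtain ⟨a, ha, hfa⟩ := hβ.exists_sub_mem rrK h.P_nonneg (s := q) (m := t) (by omega) (by
    have h1 : ((2 * g : ℕ) : ℤ) ≤ ((t - q : ℕ) : ℤ) := by
      exact_mod_cast (by omega : 2 * g ≤ t - q)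
    have h2 : ((t - q : ℕ) : ℤ) * 1 ≤ ((t - q : ℕ) : ℤ) * Divisor.degree P :=
      mul_le_mul_of_nonneg_left hdP (Int.natCast_nonneg _)
    push_cast at h1
    omega) (by rw [← hen]; exact hf)
  have hsub : (q + t * d + i - 1) * q = e + t - q := by rw [Nat.sub_one_mul, hen]
  rw [← hsub] at hfa
  obtain ⟨W, hW1, hW2, hWr, hWv⟩ := hlift a ha
  obtain ⟨hj1, rj1⟩ := h.j₁
  obtain ⟨hj2, rj2⟩ := h.j₂
  obtain ⟨hjq1, rjq1⟩ := h.jq₁
  obtain ⟨hjq2, rjq2⟩ := h.jq₂
  obtain ⟨hR1, hR2⟩ := h.R_mem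
  have hS1 : jq - j ^ q ∈ s₁.W := sub_mem hjq1 (pow_mem hj1 _)
  have hS2 : jq - j ^ q ∈ s₂.W := sub_mem hjq2 (pow_mem hj2 _)
  have hT1 : j ^ i * R ^ t ∈ s₁.W := mul_mem (pow_mem hj1 i) (pow_mem hR1 t)
  have hT2 : j ^ i * R ^ t ∈ s₂.W := mul_mem (pow_mem hj2 i) (pow_mem hR2 t)
  refine ⟨(y - y ^ (q * q)) * ((y ^ q) ^ i * s₂.rd R ^ t) * a,
    ⟨(jq - j ^ q) * (j ^ i * R ^ t) * W, ?_,
      ⟨mul_mem (mul_mem hS1 hT1) hW1, mul_mem (mul_mem hS2 hT2) hW2⟩, Prod.ext ?_ ?_⟩, hfa⟩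
  · rw [mem_riemannRochSpace_iff]
    intro v
    rcases eq_or_ne ((jq - j ^ q) * (j ^ i * R ^ t) * W) 0 with h0 | h0
    · exact Or.inl h0
    right
    obtain ⟨h12, hW0⟩ := mul_ne_zero_iff.mp h0
    obtain ⟨hS0, hT0⟩ := mul_ne_zero_iff.mp h12
    rw [v.ord_mul h12 hW0, v.ord_mul hS0 hT0,
      v.ord_mul (pow_ne_zero _ h.j_ne) (pow_ne_zero _ h.R_ne), ord_pow, ord_pow,
      Finsupp.smul_apply, nsmul_eq_mul, h.Px_apply]
    have hWv' := hWv v hW0
    rcases le_or_gt 0 (v.ord j) with hv | hv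
    · rw [max_eq_right (by omega), mul_zero, neg_zero]
      obtain ⟨hv', hvR⟩ := h.nonneg hv
      have h1 : 0 ≤ v.ord (jq - j ^ q) := Curve.ord_nonneg_of_mem_place v
        (sub_mem ((Curve.mem_iff_ord_nonneg v h.jq_ne).mpr hv')
          (pow_mem ((Curve.mem_iff_ord_nonneg v h.j_ne).mpr hv) q))
      rw [max_eq_right (by omega), mul_zero, neg_zero] at hWv'
      have h2 := mul_nonneg (Int.natCast_nonneg i) hv
      have h3 := mul_nonneg (Int.natCast_nonneg t) hvR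
      omega
    · have hvq : v.ord jq < 0 := (h.poles v).1.mp hv
      rw [max_eq_left (by omega)] at hWv' ⊢
      have h3 := h.sep₂_bound hv hS0
      rw [h.ord_R hv]
      push_cast
      linarith
  · show s₁.rd _ = _
    rw [Sheet.rd_mul (mul_mem hS1 hT1) hW1, Sheet.rd_mul hS1 hT1,
      Sheet.rd_sub hjq1 (pow_mem hj1 _), Sheet.rd_pow hj1, rj1, rjq1, sub_self, zero_mul, zero_mul]
  · show s₂.rd _ = _
    rw [Sheet.rd_mul (mul_mem hS2 hT2) hW2, Sheet.rd_mul hS2 hT2, hWr,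
      Sheet.rd_sub hjq2 (pow_mem hj2 _), Sheet.rd_pow hj2,
      Sheet.rd_mul (pow_mem hj2 i) (pow_mem hR2 t), Sheet.rd_pow hj2, Sheet.rd_pow hR2, rj2, rjq2,
      ← pow_mul y q q]

end TopHyp

end Abstract

attribute [local instance 100000] monoLaurentModule monoLaurentSMul

local notation "Qb" => AlgebraicClosure ℚ

variable {q : ℕ} [Fact q.Prime] [NeZero q] {M : ℕ} [NeZero M] (hqM : ¬ q ∣ M)
  {A : ValuationSubring (AlgebraicClosure ℚ)}

local notation "kA" => IsLocalRing.ResidueField A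
local notation "FqM" => modularFunctionFieldBar (q * M)
local notation "KbM" => modularFunctionFieldFullC (IsLocalRing.ResidueField A) M

include hqM in
/-- The modular equation gives `R ∈ ℤ[j, j_q]` with `j_q R = G(j)`, `G` monic. -/
theorem exists_div_jqFq : ∃ (G : Polynomial ℤ) (R : FqM), G.Monic ∧ 0 < G.natDegree ∧
    jqFq q M * R = G.eval₂ (Int.castRingHom FqM) (jFq q M) ∧
    ∀ S : Subring FqM, jFq q M ∈ S → jqFq q M ∈ S → R ∈ S := by
  set data := Modular.modularPolynomialData q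
  let ev : FqM → Polynomial ℤ →+* FqM := fun x =>
    Polynomial.eval₂RingHom (Int.castRingHom FqM) x
  have h0 : data.Φ.eval₂ (ev (jFq q M)) (jqFq q M) = 0 := by
    apply (FqM).val.toRingHom.injective
    rw [Polynomial.hom_eval₂, map_zero]
    have h := congrArg (coeffEmb Qb) data.eval_eq_zero
    rw [Polynomial.hom_eval₂, map_zero, jqN, coeffEmb_qExpand_jq] at h
    rw [← h]
    congr 1
    refine Polynomial.ringHom_ext' (Subsingleton.elim _ _) ?_
    have hj : coeffEmb Qb jq = jqModC Qb := by rw [← jqModC_rat, coeffEmb, coeffMap_jqModC]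
    simp [ev, hj]
  have h1 : data.Φ.eval₂ (ev (jqFq q M)) (jFq q M) = 0 := by
    have h := congrArg (monoSwap hqM).toAlgHom.toRingHom h0
    rw [Polynomial.hom_eval₂, map_zero] at h
    rw [← h]
    congr 1
    · refine Polynomial.ringHom_ext' (Subsingleton.elim _ _) ?_
      simp [ev, monoSwap_jFq]
    · exact (monoSwap_jqFq hqM).symm
  set G : Polynomial ℤ := data.Φ.map (Polynomial.evalRingHom 0) with hG
  have hdeg : G.natDegree = data.Φ.natDegree := data.monic.natDegree_map _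
  refine ⟨G, -∑ i ∈ Finset.range (data.Φ.natDegree + 1),
    ev (jqFq q M) (data.Φ.coeff i).divX * jFq q M ^ i, data.monic.map _, ?_, ?_, ?_⟩
  · rw [hdeg, data.natDegree_eq]; exact Modular.dedekindPsi_pos
  · rw [Polynomial.eval₂_eq_sum_range] at h1
    rw [Polynomial.eval₂_eq_sum_range, hdeg, mul_neg, neg_eq_iff_add_eq_zero, Finset.mul_sum,
      ← Finset.sum_add_distrib, ← h1]
    refine Finset.sum_congr rfl fun i _ => ?_
    conv_rhs => rw [← Polynomial.X_mul_divX_add (data.Φ.coeff i)]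
    rw [hG, Polynomial.coeff_map, Polynomial.coe_evalRingHom, ← Polynomial.coeff_zero_eq_eval_zero]
    simp only [ev, Polynomial.coe_eval₂RingHom, Polynomial.eval₂_add, Polynomial.eval₂_mul,
      Polynomial.eval₂_X, Polynomial.eval₂_C]
    ring
  · intro S hj hjq
    refine neg_mem (sum_mem fun i _ => mul_mem ?_ (pow_mem hj i))
    rw [Polynomial.coe_eval₂RingHom, Polynomial.eval₂_eq_sum_range]
    exact sum_mem fun l _ => mul_mem (intCast_mem _ _) (pow_mem hjq l)

variable (hA : A.LiesOverPrime q)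

include hA in
/-- `L(m P₁)` lifts to level `M` functions of level `m`, for large `m`. -/
theorem exists_lift_level : ∃ n₀ : ℕ, ∀ m, n₀ ≤ m →
    ∀ a ∈ riemannRochSpace (m • monoP₁ hqM hA), ∃ f : FqM,
      f ∈ (monoSheetInf hqM hA).W ∧ f ∈ (monoSheetZero hqM hA).W ∧
      (monoSheetInf hqM hA).rd f = a ∧
      f ∈ riemannRochSpace (m • monoPx q M) ∧
      monoSwap hqM f ∈ riemannRochSpace
        ((m : ℤ) • (haveI := monoLevel_isFunctionField q M
          Curve.polarDivisor Qb (jqFq q M))) := by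
  haveI := monoSpecial_isFunctionField hqM hA
  haveI := monoLevel_isFunctionField q M
  obtain ⟨n₀, hn₀⟩ := exists_lift_of_isIntegral M hqM A hA
  refine ⟨n₀, fun m hm a ha => ?_⟩
  have hj0 : jBarK M A ≠ 0 := fun h =>
    jqModC_ne_zero_of_nontrivial kA (by rw [← coe_jBarK (M := M) (A := A), h]; rfl)
  have hP : monoP₁ hqM hA = Curve.polarDivisor kA (jBarK M A) := Finsupp.ext fun v => by
    rw [monoP₁_apply', Curve.polarDivisor_apply]
  rw [← natCast_zsmul, hP] at ha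
  obtain ⟨hi1, hi2⟩ := (mem_riemannRochSpace_polar_iff hj0 _ a).mp ha
  obtain ⟨Y, hYM, hYint, hYinf, hYred⟩ := hn₀ m hm (a : LaurentSeries kA) a.2
    ((isIntegral_adjoin_map_iff (KbM).val (show (KbM).val (jBarK M A) = jqModC kA from rfl)
      (show (KbM).val a = (a : LaurentSeries kA) from rfl)).mpr hi1)
    ((isIntegral_adjoin_map_iff (KbM).val
      (show (KbM).val (jBarK M A)⁻¹ = (jqModC kA)⁻¹ from map_inv₀ _ _)
      (show (KbM).val (a / jBarK M A ^ m) = (a : LaurentSeries kA) / jqModC kA ^ m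
        by rw [map_div₀, map_pow]; rfl)).mpr hi2)
  let f : FqM := ⟨latVal A Y, monoLift_level_le q M hYM⟩
  have hgser : (monoSwap hqM f : LaurentSeries Qb) = latVal A (qExpand A q Y) := by
    rw [latVal, coeffMap_qExpand]
    exact coe_monoSwap_levelM hqM hYM
  obtain ⟨hf1, hfr⟩ := monoSheetInf_of_series hqM hA (f := f) (Y := Y) rfl
  obtain ⟨hg1, -⟩ := monoSheetInf_of_series hqM hA hgser
  have hjf0 : jFq q M ≠ 0 := fun h =>
    jqModC_ne_zero_of_nontrivial Qb (by rw [← coe_jFq q M, h]; rfl)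
  have hval : (FqM).val (jFq q M) = jqModC Qb := coe_jFq q M
  have hfint : IsIntegral (Algebra.adjoin Qb {jFq q M}) f :=
    (isIntegral_adjoin_map_iff (FqM).val hval (show (FqM).val f = latVal A Y from rfl)).mp hYint
  have hfinf : IsIntegral (Algebra.adjoin Qb {(jFq q M)⁻¹}) (f / jFq q M ^ m) :=
    (isIntegral_adjoin_map_iff (FqM).val
      (show (FqM).val (jFq q M)⁻¹ = (jqModC Qb)⁻¹ by rw [map_inv₀, hval])
      (show (FqM).val (f / jFq q M ^ m) = latVal A Y / jqModC Qb ^ m by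
        rw [map_div₀, map_pow, hval]; rfl)).mp hYinf
  have hPx : monoPx q M = Curve.polarDivisor Qb (jFq q M) := rfl
  refine ⟨f, hf1, (monoSheetZero_mem_iff hqM hA f).mpr hg1, Subtype.ext (hfr.trans hYred), ?_, ?_⟩
  · rw [← natCast_zsmul, hPx]
    exact (mem_riemannRochSpace_polar_iff hjf0 m f).mpr ⟨hfint, hfinf⟩
  · have hjq : jqFq q M ≠ 0 := by rw [← monoSwap_jFq hqM]; simpa using hjf0
    refine (mem_riemannRochSpace_polar_iff hjq m _).mpr
      ⟨(isIntegral_adjoin_map_iff (monoSwap hqM : FqM →ₐ[Qb] FqM) (monoSwap_jFq hqM)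
        (show (monoSwap hqM : FqM →ₐ[Qb] FqM) f = monoSwap hqM f from rfl)).mpr hfint, ?_⟩
    refine (isIntegral_adjoin_map_iff (monoSwap hqM : FqM →ₐ[Qb] FqM)
      (x := (jFq q M)⁻¹) (f := f / jFq q M ^ m) ?_ ?_).mpr hfinf
    · rw [map_inv₀]; exact congrArg (·⁻¹) (monoSwap_jFq hqM)
    · rw [map_div₀, map_pow]
      exact congrArg (fun z => monoSwap hqM f / z ^ m) (monoSwap_jFq hqM)

include hA in
/-- The hypotheses for leading parts at level `q M`. -/
theorem exists_topHyp : ∃ (G : Polynomial ℤ) (R : FqM),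
    TopHyp (monoSheetInf hqM hA) (monoSheetZero hqM hA) q (jFq q M) (jqFq q M) R G (jBarK M A)
      (monoP₁ hqM hA) (monoPx q M) := by
  obtain ⟨G, R, hGm, hGd, hR, hRS⟩ := exists_div_jqFq (M := M) hqM
  obtain ⟨hj1, rj1⟩ := monoSheetInf_jFq hqM hA
  obtain ⟨hj2, rj2⟩ := monoSheetZero_jFq hqM hA
  refine ⟨G, R,
    { two_le := (Fact.out : q.Prime).two_le
      j₁ := ⟨hj1, rj1⟩
      j₂ := ⟨hj2, rj2⟩
      jq₁ := ⟨monoSwap_jFq (M := M) hqM ▸ (monoSheetZero_mem_iff hqM hA _).mp hj2, by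
        rw [← monoSwap_jFq (M := M) hqM, ← monoSheetZero_rd hqM hA, rj2]⟩
      jq₂ := ⟨(monoSheetZero_mem_iff hqM hA _).mpr (by rw [monoSwap_jqFq]; exact hj1), by
        rw [monoSheetZero_rd hqM hA, monoSwap_jqFq, rj1]⟩
      monic := hGm
      deg_pos := hGd
      eqn := hR
      mem_subring := hRS
      P_apply := monoP₁_apply' hqM hA
      eval_ne := fun H hH h => ?_
      Px_apply := monoPx_apply q M
      poles := monoJ_pole_bounds q (coe_jFq q M) rfl }⟩
  refine (hH.map (Int.castRingHom kA)).ne_zero (transcendental_iff.mp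
    (mono_transcendental_of_coe_eq (coe_jBarK (M := M) (A := A))) _ ?_)
  rw [Polynomial.aeval_def, Polynomial.eval₂_map,
    Subsingleton.elim ((algebraMap kA KbM).comp (Int.castRingHom kA)) (Int.castRingHom KbM), h]

variable [CharP (IsLocalRing.ResidueField A) q]

/-- **Leading parts lift.** -/
theorem mono_top_exists : ∃ n₀ : ℕ, ∀ n, n₀ ≤ n →
    (∀ f ∈ riemannRochSpace (n • monoP₁ hqM hA), ∃ r : KbM,
      ((r, 0) : KbM × KbM) ∈ redSpace (monoSheetInf hqM hA) (monoSheetZero hqM hA)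
          IsLocalRing.residue_surjective (riemannRochSpace (n • monoPx q M)) ∧
        f - r ∈ riemannRochSpace ((n - 1) • monoP₁ hqM hA)) ∧
    (∀ f ∈ riemannRochSpace (n • monoP₂ hqM hA), ∃ r : KbM,
      ((0, r) : KbM × KbM) ∈ redSpace (monoSheetInf hqM hA) (monoSheetZero hqM hA)
          IsLocalRing.residue_surjective (riemannRochSpace (n • monoPx q M)) ∧
        f - r ∈ riemannRochSpace ((n - 1) • monoP₂ hqM hA)) := by
  haveI := monoSpecial_isFunctionField hqM hA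
  haveI := monoLevel_isFunctionField q M
  obtain ⟨g, rrK⟩ := exists_rrField_special hqM hA
  obtain ⟨n₁, hlift⟩ := exists_lift_level hqM hA
  obtain ⟨G, R, h⟩ := exists_topHyp hqM hA
  have hdP : 1 ≤ Divisor.degree (monoP₁ hqM hA) :=
    one_le_degree_of_ne_zero rrK.deg_one h.P_nonneg
      (mono_poles_ne_zero M (monoLevel_natCast_ne_zero hqM hA) rfl h.P_apply)
  have hP2 : monoP₂ hqM hA = q • monoP₁ hqM hA :=
    mono_poles_pow h.P_apply (monoP₂_apply' hqM hA)
  refine ⟨(q * q + n₁ + 2 * g + 1) + (q + (n₁ + q + 2 * g) * G.natDegree), fun n hn =>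
    ⟨fun f hf => h.top₁ rrK hdP _ (n₁ := n₁) (fun m hm a ha => ?_) (by omega) hf, fun f hf => ?_⟩⟩
  · obtain ⟨Y, h1, h2, h3, h4, -⟩ := hlift m hm a ha
    exact ⟨Y, h1, h2, h3, h4⟩
  · rw [hP2, smul_smul] at hf ⊢
    refine h.top₂ rrK hdP _ (t := n₁ + q + 2 * g) (by omega) (fun a ha => ?_) (by omega) hf
    obtain ⟨Y, h1, h2, h3, -, h5⟩ := hlift _ (by omega) a ha
    refine ⟨monoSwap hqM Y, (monoSheetZero_mem_iff hqM hA Y).mp h2,
      (monoSheetZero_mem_iff hqM hA _).mpr (by rw [monoSwap_monoSwap]; exact h1),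
      by rw [monoSheetZero_rd, monoSwap_monoSwap, h3], fun v h0 => ?_⟩
    have h6 := (mem_riemannRochSpace_iff.mp h5 v).resolve_left h0
    rwa [Finsupp.smul_apply, Curve.polarDivisor_apply, smul_eq_mul] at h6

end FermatLib.Igusa.Mono
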