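import Fermat.Agent.Igusa.MonoModular
import Fermat.Agent.Igusa.MonoTopLift
import Fermat.Agent.Igusa.MonoTopTop2
import Fermat.Agent.Modular.LaurentInstances

/-!
The two-sheet datum of `ℚ̄(X₀(q M))` at a place over `q ∤ M`, with its lifting and top properties
proved.
-/

set_option autoImplicit false
set_option linter.style.haveILetI false
set_option synthInstance.maxHeartbeats 400000

noncomputable section

open AlgebraicCurve ModularCurve

namespace FermatLib.Igusa.Mono

open scoped FermatLib.LaurentInstances

attribute [local instance 100000] monoLaurentModule monoLaurentSMul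

variable {q : ℕ} [Fact q.Prime] {M : ℕ} [NeZero M] (hqM : ¬ q ∣ M)
  {A : ValuationSubring (AlgebraicClosure ℚ)}

local notation "kA" => IsLocalRing.ResidueField A
local notation "KbM" => modularFunctionFieldFullC (IsLocalRing.ResidueField A) M

variable (hA : A.LiesOverPrime q)

/-- The top property of the two modular sheets: the input `top` of the modular datum. -/
def MonoTopInput : Prop :=
  haveI : NeZero q := ⟨(Fact.out : q.Prime).ne_zero⟩
  ∃ n₀ : ℕ, ∀ n, n₀ ≤ n →
    (∀ f ∈ riemannRochSpace (n • monoP₁ hqM hA), ∃ r : KbM,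
      ((r, 0) : KbM × KbM) ∈ redSpace (monoSheetInf hqM hA) (monoSheetZero hqM hA)
          IsLocalRing.residue_surjective (riemannRochSpace (n • monoPx q M)) ∧
        f - r ∈ riemannRochSpace ((n - 1) • monoP₁ hqM hA)) ∧
    (∀ f ∈ riemannRochSpace (n • monoP₂ hqM hA), ∃ r : KbM,
      ((0, r) : KbM × KbM) ∈ redSpace (monoSheetInf hqM hA) (monoSheetZero hqM hA)
          IsLocalRing.residue_surjective (riemannRochSpace (n • monoPx q M)) ∧
        f - r ∈ riemannRochSpace ((n - 1) • monoP₂ hqM hA))

/-- The two-sheet datum of level `q M`, given only its top property. -/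
def monoDatumModular [NeZero q] (htop : MonoTopInput hqM hA) :
    MonoDatum (IsLocalRing.residue A) (modularFunctionFieldBar (q * M)) KbM q :=
  haveI := monoResidue_charP (q := q) hA
  monoDatum hqM hA (mono_lift_exists hqM hA) htop

section

variable [NeZero q] (htop : MonoTopInput hqM hA)

@[simp] theorem monoDatumModular_s₁ :
    (monoDatumModular hqM hA htop).s₁ = monoSheetInf hqM hA := rfl

@[simp] theorem monoDatumModular_s₂ :
    (monoDatumModular hqM hA htop).s₂ = monoSheetZero hqM hA := rfl

@[simp] theorem monoDatumModular_x : (monoDatumModular hqM hA htop).x = jFq q M := rfl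

@[simp] theorem monoDatumModular_Px : (monoDatumModular hqM hA htop).Px = monoPx q M := rfl

@[simp] theorem monoDatumModular_P₁ :
    (monoDatumModular hqM hA htop).P₁ = monoP₁ hqM hA := rfl

@[simp] theorem monoDatumModular_P₂ :
    (monoDatumModular hqM hA htop).P₂ = monoP₂ hqM hA := rfl

@[simp] theorem monoDatumModular_Φ :
    (monoDatumModular hqM hA htop).Φ =
      haveI := monoResidue_charP (q := q) hA
      monoPhi kA q M := rfl

include htop in
/-- The same with the Frobenius of the special curve on expansions. -/
theorem exists_monoDatum_sheets_frob :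
    ∃ D : MonoDatum (IsLocalRing.residue A) (modularFunctionFieldBar (q * M)) KbM q,
      D.s₁ = monoSheetInf hqM hA ∧ D.s₂ = monoSheetZero hqM hA ∧ D.x = jFq q M ∧
        ∀ c, (D.Φ c : LaurentSeries kA) = qExpand kA q (c : LaurentSeries kA) :=
  haveI := monoResidue_charP (q := q) hA
  ⟨monoDatumModular hqM hA htop, rfl, rfl, rfl, coe_monoPhi kA q M⟩

end

/-- The top property holds. -/
theorem monoTopInput : MonoTopInput hqM hA :=
  haveI : NeZero q := ⟨(Fact.out : q.Prime).ne_zero⟩
  haveI := monoResidue_charP (q := q) hA
  mono_top_exists hqM hA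

/-- **The two-sheet datum of level `q M` exists.** -/
theorem exists_monoDatum_sheets' [NeZero q] :
    ∃ D : MonoDatum (IsLocalRing.residue A) (modularFunctionFieldBar (q * M)) KbM q,
      D.s₁ = monoSheetInf hqM hA ∧ D.s₂ = monoSheetZero hqM hA ∧ D.x = jFq q M ∧
        ∀ c, (D.Φ c : LaurentSeries kA) = qExpand kA q (c : LaurentSeries kA) :=
  exists_monoDatum_sheets_frob hqM hA (monoTopInput hqM hA)

end FermatLib.Igusa.Mono

end
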