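import Mathlib
import Fermat.Prelude.Def_ModularCurve_X0
import Fermat.Prelude.Def_ModularCurve_LaurentCoeff

/-!
Laurent series: the substitution `u ↦ c u`, and the Frobenius identity in characteristic `p`.
-/

set_option autoImplicit false

noncomputable section

open HahnSeries ModularCurve

namespace FermatLib.Igusa

variable {R S : Type*} [CommRing R] [CommRing S]

/-- The ring endomorphism `∑ aₙ uⁿ ↦ ∑ aₙ cⁿ uⁿ`. -/
def monoNewScale (c : Rˣ) : LaurentSeries R →+* LaurentSeries R where
  toFun x := ⟨fun n => ((c ^ n : Rˣ) : R) * x.coeff n, x.isPWO_support.mono fun n hn => by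
    rw [Function.mem_support] at hn
    rw [HahnSeries.mem_support]
    exact fun h => hn (by rw [h, mul_zero])⟩
  map_one' := by
    ext n
    show ((c ^ n : Rˣ) : R) * (1 : LaurentSeries R).coeff n = (1 : LaurentSeries R).coeff n
    rw [HahnSeries.coeff_one]
    split_ifs with h
    · simp [h]
    · simp
  map_mul' x y := by
    ext n
    show ((c ^ n : Rˣ) : R) * (x * y).coeff n = _
    rw [HahnSeries.coeff_mul, Finset.mul_sum, HahnSeries.coeff_mul]
    refine Finset.sum_congr ?_ fun ij hij => ?_
    · ext ij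
      simp [Finset.mem_antidiagonal, HahnSeries.mem_support, Units.mul_right_eq_zero]
    · have h : ij.1 + ij.2 = n := by
        have := hij
        simp [Finset.mem_antidiagonal] at this
        exact this.2.2
      show ((c ^ n : Rˣ) : R) * (x.coeff ij.1 * y.coeff ij.2) =
        ((c ^ ij.1 : Rˣ) : R) * x.coeff ij.1 * (((c ^ ij.2 : Rˣ) : R) * y.coeff ij.2)
      rw [← h, zpow_add, Units.val_mul]
      ring
  map_zero' := by
    ext n
    show ((c ^ n : Rˣ) : R) * (0 : LaurentSeries R).coeff n = 0
    simp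
  map_add' x y := by
    ext n
    show ((c ^ n : Rˣ) : R) * (x + y).coeff n = _
    rw [HahnSeries.coeff_add, mul_add]
    rfl

@[simp] theorem monoNewScale_coeff (c : Rˣ) (x : LaurentSeries R) (n : ℤ) :
    (monoNewScale c x).coeff n = ((c ^ n : Rˣ) : R) * x.coeff n := rfl

/-- Series in `u ^ m` are fixed by `u ↦ c u` when `c ^ m = 1`. -/
theorem monoNewScale_qExpand (c : Rˣ) (m : ℕ) [NeZero m] (hc : c ^ m = 1) (x : LaurentSeries R) :
    monoNewScale c (qExpand R m x) = qExpand R m x := by
  ext n
  rw [monoNewScale_coeff]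
  by_cases h : (m : ℤ) ∣ n
  · obtain ⟨k, rfl⟩ := h
    rw [zpow_mul, zpow_natCast, hc, one_zpow, Units.val_one, one_mul]
  · rw [qExpand_coeff_of_not_dvd m x h, mul_zero]

theorem coeffMap_monoNewScale (f : R →+* S) (c : Rˣ) (x : LaurentSeries R) :
    coeffMap f (monoNewScale c x) = monoNewScale (Units.map (f : R →* S) c) (coeffMap f x) := by
  ext n
  rw [coeffMap_coeff, monoNewScale_coeff, monoNewScale_coeff, coeffMap_coeff, map_mul]
  congr 1
  rw [← map_zpow]
  rfl

theorem monoNewScale_one (x : LaurentSeries R) : monoNewScale 1 x = x := by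
  ext n
  simp

section Frobenius

variable {k : Type*} [CommRing k] (p : ℕ) [hp : Fact p.Prime] [CharP k p] [NeZero p]

/-- In characteristic `p`, `x ^ p` is the coefficientwise `p`-th power in the variable `u ^ p`. -/
theorem monoNew_pow_char (x : LaurentSeries k) :
    x ^ p = qExpand k p (coeffMap (frobenius k p) x) := by
  have : ExpChar k p := ExpChar.prime hp.out
  conv_lhs => rw [← LaurentSeries.single_order_mul_powerSeriesPart x]
  conv_rhs => rw [← LaurentSeries.single_order_mul_powerSeriesPart x]
  rw [mul_pow, map_mul, map_mul, HahnSeries.single_pow, coeffMap_single, qExpand_single, one_pow,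
    (frobenius k p).map_one, nsmul_eq_mul, ← map_pow]
  congr 1
  have hP : PowerSeries.map (frobenius k p) (PowerSeries.expand p hp.out.ne_zero x.powerSeriesPart) =
      x.powerSeriesPart ^ p := MvPowerSeries.map_frobenius_expand p hp.out.ne_zero
  rw [← hP]
  ext n
  rcases lt_or_ge n 0 with hn | hn
  · rw [ModularCurve.ofPowerSeries_coeff_of_neg _ hn]
    by_cases h : (p : ℤ) ∣ n
    · obtain ⟨m, rfl⟩ := h
      rw [qExpand_coeff_mul, coeffMap_coeff, ModularCurve.ofPowerSeries_coeff_of_neg _ ?_, map_zero]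
      nlinarith [hp.out.pos]
    · rw [qExpand_coeff_of_not_dvd p _ h]
  · obtain ⟨a, rfl⟩ := Int.eq_ofNat_of_zero_le hn
    rw [HahnSeries.ofPowerSeries_apply_coeff, PowerSeries.coeff_map, PowerSeries.coeff_expand]
    by_cases h : p ∣ a
    · obtain ⟨m, rfl⟩ := h
      rw [if_pos (dvd_mul_right p m), Nat.mul_div_cancel_left m hp.out.pos,
        show ((p * m : ℕ) : ℤ) = (p : ℤ) * (m : ℤ) by push_cast; ring, qExpand_coeff_mul,
        coeffMap_coeff, HahnSeries.ofPowerSeries_apply_coeff]
    · rw [if_neg h, map_zero,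
        qExpand_coeff_of_not_dvd p _ (fun h' => h (Int.natCast_dvd_natCast.mp h'))]

end Frobenius

end FermatLib.Igusa
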