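import Mathlib
import Fermat.Prelude.Thm_ModularCurve_coeffMap_qExpand
import Fermat.Agent.Igusa.MonoNewScale

/-!
The norm of a degree `q + 1` degeneracy extension in Laurent series: the conjugates are the
expansion itself and the `q` twists `u ↦ ζ u` of the Atkin–Lehner transform, so modulo the
residue characteristic `q` the norm reduces to `f₁ * frob(f₂)`.
-/

set_option autoImplicit false

noncomputable section

open HahnSeries ModularCurve

namespace FermatLib.Igusa

variable {L : Type*} [Field L] [CharZero L]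

/-- **Norm of the degeneracy extension.** -/
theorem monoNew_qExpand_norm {q : ℕ} [NeZero q] (hq : q.Prime)
    {F F' : IntermediateField L (LaurentSeries L)} [Algebra F F'] [FiniteDimensional F F']
    (hincl : ∀ x : F, ((algebraMap F F' x : F') : LaurentSeries L) = x)
    (hdeg : Module.finrank F F' = q + 1)
    (W : F' →+* F') (hW : ∀ x : F, ((W (algebraMap F F' x) : F') : LaurentSeries L) =
      qExpand L q (x : LaurentSeries L))
    (hWW : ∀ x : F, ∀ y : F', (y : LaurentSeries L) = qExpand L q (x : LaurentSeries L) →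
      ((W y : F') : LaurentSeries L) = x)
    (x₀ : F) (hx₀ : (x₀ : LaurentSeries L).coeff (-1) ≠ 0)
    {ζ : Lˣ} (hζ : IsPrimitiveRoot ζ q) (f : F') :
    qExpand L q (Algebra.norm F f : LaurentSeries L) =
      qExpand L q (f : LaurentSeries L) *
        ∏ i : Fin q, monoNewScale (ζ ^ (i : ℕ)) ((W f : F') : LaurentSeries L) := by
  classical
  let Ω := AlgebraicClosure (LaurentSeries L)
  let ι : LaurentSeries L →+* Ω := algebraMap _ _
  let _ : Algebra F Ω := ((ι.comp (qExpand L q)).comp F.val.toRingHom).toAlgebra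
  let ι' : F' →+* LaurentSeries L := F'.val.toRingHom
  have hζi : ∀ i : ℕ, (ζ ^ i) ^ q = 1 := fun i => by
    rw [← pow_mul, mul_comm, pow_mul, hζ.pow_eq_one, one_pow]
  let e₀ : F' →ₐ[F] Ω :=
    { (ι.comp ((qExpand L q).comp ι')) with
      commutes' := fun x => congrArg (fun y => ι (qExpand L q y)) (hincl x) }
  let e : Fin q → (F' →ₐ[F] Ω) := fun i =>
    { (ι.comp ((monoNewScale (ζ ^ (i : ℕ))).comp (ι'.comp W))) with
      commutes' := fun x => by
        show ι (monoNewScale (ζ ^ (i : ℕ)) ((W (algebraMap F F' x) : F') : LaurentSeries L)) =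
          ι (qExpand L q (x : LaurentSeries L))
        rw [hW, monoNewScale_qExpand _ q (hζi i)] }
  let y₀ : F' := W (algebraMap F F' x₀)
  have hy₀ : ((y₀ : F') : LaurentSeries L) = qExpand L q (x₀ : LaurentSeries L) := hW x₀
  have hWy₀ : ((W y₀ : F') : LaurentSeries L) = x₀ := hWW x₀ y₀ hy₀
  have he₀ : e₀ y₀ = ι (qExpand L q (qExpand L q (x₀ : LaurentSeries L))) := by
    show ι (qExpand L q ((y₀ : F') : LaurentSeries L)) = _
    rw [hy₀]
  have he : ∀ i, e i y₀ = ι (monoNewScale (ζ ^ (i : ℕ)) (x₀ : LaurentSeries L)) := fun i => by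
    show ι (monoNewScale (ζ ^ (i : ℕ)) ((W y₀ : F') : LaurentSeries L)) = _
    rw [hWy₀]
  have hι : Function.Injective ι := ι.injective
  let φ : Option (Fin q) → (F' →ₐ[F] Ω) := fun o => o.elim e₀ e
  have hne : ∀ i, e i ≠ e₀ := by
    intro i h
    have h1 := congrArg (fun z : LaurentSeries L => z.coeff (-1))
      (hι ((he i).symm.trans ((DFunLike.congr_fun h y₀).trans he₀)))
    simp only [monoNewScale_coeff] at h1
    rw [qExpand_coeff_of_not_dvd q _ (by
      rw [Int.dvd_neg, show (1 : ℤ) = ((1 : ℕ) : ℤ) from rfl, Int.natCast_dvd_natCast,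
        Nat.dvd_one]
      exact hq.ne_one)] at h1
    exact (mul_ne_zero (Units.ne_zero _) hx₀) h1
  have hinj : Function.Injective φ := by
    rintro (_ | i) (_ | j) h
    · rfl
    · exact absurd (show e j = e₀ from h.symm) (hne j)
    · exact absurd (show e i = e₀ from h) (hne i)
    · have h1 := congrArg (fun z : LaurentSeries L => z.coeff (-1))
        (hι ((he i).symm.trans ((DFunLike.congr_fun (show e i = e j from h) y₀).trans (he j))))
      simp only [monoNewScale_coeff] at h1
      have h2 : (ζ ^ (i : ℕ)) ^ (-1 : ℤ) = (ζ ^ (j : ℕ)) ^ (-1 : ℤ) :=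
        Units.ext (mul_right_cancel₀ hx₀ h1)
      rw [zpow_neg_one, zpow_neg_one, inv_inj] at h2
      exact congrArg some (Fin.ext (hζ.pow_inj i.2 j.2 h2))
  have hcard : Fintype.card (Option (Fin q)) = Fintype.card (F' →ₐ[F] Ω) := by
    rw [AlgHom.card, hdeg, Fintype.card_option, Fintype.card_fin]
  have hbij : Function.Bijective φ := (Fintype.bijective_iff_injective_and_card φ).mpr ⟨hinj, hcard⟩
  have hnorm := Algebra.norm_eq_prod_embeddings F Ω f
  rw [← Fintype.prod_bijective φ hbij (fun o => φ o f) (fun σ => σ f) (fun o => rfl),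
    Fintype.prod_option] at hnorm
  apply hι
  rw [map_mul, map_prod]
  exact hnorm

end FermatLib.Igusa
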