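import Mathlib
import Fermat.Prelude.Def_ModularCurve_LaurentCoeff

/-!
Subspaces spanned by vectors with integer coordinates have bases of `A`-integral vectors with
independent reductions, for any valuation ring `A` with a residue map to a field of characteristic
`q`.
-/

set_option autoImplicit false
set_option linter.style.haveILetI false

noncomputable section

namespace FermatLib.Igusa.Mono

variable {L k : Type*} [Field L] [Field k] {A : ValuationSubring L} (π : A →+* k)

theorem monoInt_map_ne_zero {q : ℕ} (hq : q.Prime) (hqk : (q : k) = 0) {z : ℤ}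
    (hz : ¬ (q : ℤ) ∣ z) : ((z : ℤ) : k) ≠ 0 := by
  obtain ⟨a, b, hab⟩ := ((Nat.prime_iff_prime_int.mp hq).coprime_iff_not_dvd).mpr hz
  intro h0
  have h1 := congrArg (Int.cast : ℤ → k) hab
  simp only [Int.cast_add, Int.cast_mul, Int.cast_natCast, hqk, h0, mul_zero, add_zero,
    Int.cast_one] at h1
  exact zero_ne_one h1

/-- A non-zero integer vector is a multiple of one with a coordinate prime to `q`. -/
theorem exists_primitive {q : ℕ} (hq : q.Prime) {I : Type*} (u : I → ℤ) (hu : ∃ i, u i ≠ 0) :
    ∃ (e : ℕ) (v : I → ℤ) (i : I), (∀ j, u j = (q : ℤ) ^ e * v j) ∧ ¬ (q : ℤ) ∣ v i := by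
  classical
  obtain ⟨i, hi⟩ := hu
  have hq0 : (q : ℤ) ≠ 0 := by exact_mod_cast hq.ne_zero
  have hex : ∃ e : ℕ, ∃ j, u j ≠ 0 ∧ ¬ (q : ℤ) ^ (e + 1) ∣ u j := by
    refine ⟨(u i).natAbs, i, hi, fun h => ?_⟩
    have h1 := Int.natAbs_dvd_natAbs.mpr h
    rw [Int.natAbs_pow, Int.natAbs_natCast] at h1
    have h2 := Nat.le_of_dvd (Int.natAbs_pos.mpr hi) h1
    have h3 := Nat.lt_pow_self (n := (u i).natAbs + 1) hq.one_lt
    omega
  obtain ⟨j, hj, hjd⟩ := Nat.find_spec hex
  have hall : ∀ l, (q : ℤ) ^ Nat.find hex ∣ u l := by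
    intro l
    rcases eq_or_ne (u l) 0 with h0 | h0
    · rw [h0]; exact dvd_zero _
    rcases Nat.eq_zero_or_pos (Nat.find hex) with he | he
    · rw [he, pow_zero]; exact one_dvd _
    have h1 := Nat.find_min hex (m := Nat.find hex - 1) (by omega)
    push Not at h1
    have h2 := h1 l h0
    rwa [Nat.sub_add_cancel he] at h2
  choose v hv using hall
  exact ⟨_, v, j, hv, fun h => hjd (by rw [pow_succ, hv j]; exact mul_dvd_mul_left _ h)⟩

/-- Vectors with integer coordinates lie in the span of integral vectors with independent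
reductions, vanishing where all the given vectors vanish. -/
theorem exists_orth_of_int [CharZero L] {q : ℕ} (hq : q.Prime) (hqk : (q : k) = 0) {I : Type*} :
    ∀ (n : ℕ) (u : Fin n → I → ℤ), ∃ (d : ℕ) (w : Fin d → I → A),
      LinearIndependent k (fun j i => π (w j i)) ∧
      (∀ i, (∀ j, u j i = 0) → ∀ j, w j i = 0) ∧
      Submodule.span L (Set.range fun j i => ((u j i : ℤ) : L)) ≤
        Submodule.span L (Set.range fun j i => ((w j i : A) : L)) := by
  classical
  intro n
  induction n with
  | zero =>
    intro u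
    refine ⟨0, fun j => j.elim0, linearIndependent_empty_type, fun i _ j => j.elim0, ?_⟩
    simp [Set.range_eq_empty]
  | succ n ih =>
    intro u
    by_cases hz : ∀ j i, u j i = 0
    · refine ⟨0, fun j => j.elim0, linearIndependent_empty_type, fun i _ j => j.elim0, ?_⟩
      rw [Submodule.span_le]
      rintro _ ⟨j, rfl⟩
      have : (fun i => ((u j i : ℤ) : L)) = 0 := funext fun i => by simp [hz j i]
      simp only
      rw [this]
      exact Submodule.zero_mem _
    push Not at hz
    obtain ⟨j₀, i₀, hji⟩ := hz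
    obtain ⟨e, v, i₁, huv, hv⟩ := exists_primitive hq (u j₀) ⟨i₀, hji⟩
    set u' : Fin n → I → ℤ :=
      fun j i => v i₁ * u (j₀.succAbove j) i - u (j₀.succAbove j) i₁ * v i with hu'
    obtain ⟨d, w, hw, hwz, hws⟩ := ih u'
    have hv0 : (v i₁ : L) ≠ 0 := Int.cast_ne_zero.mpr fun h => hv (h ▸ dvd_zero _)
    have hq0 : (q : ℤ) ^ e ≠ 0 := pow_ne_zero _ (by exact_mod_cast hq.ne_zero)
    refine ⟨d + 1, Fin.cons (fun i => (v i : A)) w, ?_, ?_, ?_⟩
    · rw [Fintype.linearIndependent_iff]
      intro c hc
      rw [Fin.sum_univ_succ] at hc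
      have h1 := congrFun hc i₁
      have hzero : ∀ j, w j i₁ = 0 := hwz i₁ fun j => by simp [hu', mul_comm]
      simp only [Pi.add_apply, Pi.smul_apply, Fin.cons_zero, Fin.cons_succ, Finset.sum_apply,
        smul_eq_mul, hzero, map_zero, mul_zero, Finset.sum_const_zero, add_zero, map_intCast,
        Pi.zero_apply] at h1
      have hc0 : c 0 = 0 := (mul_eq_zero.mp h1).resolve_right (monoInt_map_ne_zero hq hqk hv)
      have h2 : ∑ j : Fin d, c j.succ • (fun i => π (w j i)) = 0 := by
        rw [hc0, zero_smul, zero_add] at hc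
        simpa using hc
      intro j
      exact Fin.cases hc0 (fun j => Fintype.linearIndependent_iff.mp hw _ h2 j) j
    · intro i hi
      have hvi : v i = 0 := by
        have := (huv i).symm.trans (hi j₀)
        exact (mul_eq_zero.mp this).resolve_left hq0
      refine Fin.cases ?_ ?_
      · simp [hvi]
      · intro j
        rw [Fin.cons_succ]
        exact hwz i (fun l => by simp [hu', hi, hvi]) j
    · set S := Submodule.span L (Set.range fun (j : Fin (d + 1)) (i : I) =>
        (((Fin.cons (fun i => (v i : A)) w : Fin (d + 1) → I → A) j i : A) : L)) with hS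
      have hvS : (fun i => ((v i : ℤ) : L)) ∈ S :=
        Submodule.subset_span ⟨0, by funext i; simp⟩
      have hsub : Submodule.span L (Set.range fun j i => ((w j i : A) : L)) ≤ S := by
        refine Submodule.span_mono ?_
        rintro _ ⟨j, rfl⟩
        exact ⟨j.succ, by funext i; simp⟩
      rw [Submodule.span_le]
      rintro _ ⟨j, rfl⟩
      rcases eq_or_ne j j₀ with rfl | hj
      · have h : (fun i => ((u j i : ℤ) : L)) =
            (((q : ℤ) ^ e : ℤ) : L) • fun i => ((v i : ℤ) : L) :=
          funext fun i => by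
            rw [Pi.smul_apply, smul_eq_mul, huv i, Int.cast_mul]
        simp only
        rw [h]
        exact S.smul_mem _ hvS
      · obtain ⟨l, rfl⟩ := Fin.exists_succAbove_eq hj
        have h : (fun i => ((u (j₀.succAbove l) i : ℤ) : L)) =
            (v i₁ : L)⁻¹ • ((fun i => ((u' l i : ℤ) : L)) +
              (u (j₀.succAbove l) i₁ : L) • fun i => ((v i : ℤ) : L)) :=
          funext fun i => by
            simp only [Pi.smul_apply, Pi.add_apply, smul_eq_mul, hu', Int.cast_sub, Int.cast_mul,
              sub_add_cancel, inv_mul_cancel_left₀ hv0]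
        simp only
        rw [h]
        exact S.smul_mem _ (S.add_mem (hsub (hws (Submodule.subset_span ⟨l, rfl⟩)))
          (S.smul_mem _ hvS))

/-- Scaling a non-zero finite vector to an integral one with a coordinate equal to `1`. -/
theorem exists_scaled_vector {ι : Type*} [Fintype ι] (A : ValuationSubring L) (c : ι → L)
    (hc : ∃ i, c i ≠ 0) : ∃ i₀, c i₀ ≠ 0 ∧ ∀ i, (c i₀)⁻¹ * c i ∈ A := by
  obtain ⟨i, hi⟩ := hc
  obtain ⟨i₀, -, hmax⟩ := Finset.exists_max_image Finset.univ (fun j => A.valuation (c j))
    ⟨i, Finset.mem_univ i⟩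
  have hne : c i₀ ≠ 0 := fun h => by
    have h1 := hmax i (Finset.mem_univ i)
    rw [h, map_zero, le_zero_iff] at h1
    exact (Valuation.ne_zero_iff _).mpr hi h1
  refine ⟨i₀, hne, fun j => ?_⟩
  rw [← A.valuation_le_one_iff, map_mul, map_inv₀]
  exact inv_mul_le_one_of_le₀ (hmax j (Finset.mem_univ j)) zero_le

/-- Every subspace of `L ^ d` has a basis of integral vectors with independent reductions. -/
theorem exists_orth_finite {d : ℕ} :
    ∀ (r : ℕ) (U : Submodule L (Fin d → L)), Module.finrank L U = r →
      ∃ e : Fin r → Fin d → A, (∀ j, (fun i => ((e j i : A) : L)) ∈ U) ∧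
        LinearIndependent k (fun j i => π (e j i)) := by
  intro r
  induction r with
  | zero => exact fun U _ => ⟨fun j => j.elim0, fun j => j.elim0, linearIndependent_empty_type⟩
  | succ r ih =>
    intro U hU
    have hbot : U ≠ ⊥ := fun h => by rw [h, finrank_bot] at hU; omega
    obtain ⟨x, hxU, hx0⟩ := Submodule.exists_mem_ne_zero_of_ne_bot hbot
    obtain ⟨i₀, hi₀, hA⟩ := exists_scaled_vector A x (Function.ne_iff.mp hx0)
    set φ : U →ₗ[L] L := (LinearMap.proj i₀).comp U.subtype with hφ
    have hφne : φ ≠ 0 := fun h => hi₀ (by simpa [hφ] using LinearMap.congr_fun h ⟨x, hxU⟩)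
    set U' := (LinearMap.ker φ).map U.subtype with hU'
    have hdim : Module.finrank L U' = r := by
      rw [hU', (Submodule.equivMapOfInjective _ U.injective_subtype _).symm.finrank_eq]
      have := Module.Dual.finrank_ker_add_one_of_ne_zero hφne
      omega
    obtain ⟨e, heU, he⟩ := ih U' hdim
    set y : Fin d → A := fun i => ⟨(x i₀)⁻¹ * x i, hA i⟩ with hy
    refine ⟨Fin.cons y e, ?_, ?_⟩
    · refine Fin.cases ?_ ?_
      · have : (fun i => ((y i : A) : L)) = (x i₀)⁻¹ • x := funext fun i => by simp [hy]
        rw [Fin.cons_zero, this]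
        exact U.smul_mem _ hxU
      · intro j
        rw [Fin.cons_succ]
        exact Submodule.map_subtype_le _ _ (heU j)
    · rw [Fintype.linearIndependent_iff]
      intro c hc
      rw [Fin.sum_univ_succ] at hc
      have hzero : ∀ j, e j i₀ = 0 := fun j => by
        obtain ⟨z, hz, hze⟩ := Submodule.mem_map.mp (heU j)
        have h := congrFun hze i₀
        apply Subtype.ext
        rw [ZeroMemClass.coe_zero, ← h]
        simpa [hφ] using LinearMap.mem_ker.mp hz
      have h1 := congrFun hc i₀
      have hy1 : y i₀ = 1 := Subtype.ext (inv_mul_cancel₀ hi₀)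
      simp only [Pi.add_apply, Pi.smul_apply, Fin.cons_zero, Fin.cons_succ, Finset.sum_apply,
        smul_eq_mul, hzero, map_zero, mul_zero, Finset.sum_const_zero, add_zero, hy1, map_one,
        mul_one, Pi.zero_apply] at h1
      have h2 : ∑ j : Fin r, c j.succ • (fun i => π (e j i)) = 0 := by
        rw [h1, zero_smul, zero_add] at hc
        simpa using hc
      intro j
      exact Fin.cases h1 (fun j => Fintype.linearIndependent_iff.mp he _ h2 j) j

/-- A finite-dimensional subspace of the span of integer-valued vectors has a family of as many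
integral vectors as its dimension, with independent reductions. -/
theorem exists_orth_subspace [CharZero L] {q : ℕ} (hq : q.Prime) (hqk : (q : k) = 0) {I : Type*}
    (X : Set (I → L)) (hX : ∀ x ∈ X, ∃ u : I → ℤ, x = fun i => ((u i : ℤ) : L))
    (U : Submodule L (I → L)) [FiniteDimensional L U] (hU : U ≤ Submodule.span L X) :
    ∃ e : Fin (Module.finrank L U) → I → A, (∀ j, (fun i => ((e j i : A) : L)) ∈ U) ∧
      LinearIndependent k (fun j i => π (e j i)) := by
  classical
  obtain ⟨G, hG⟩ : U.FG := (Submodule.fg_top U).mp Module.Finite.fg_top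
  have hGX : ∀ g : G, ∃ T : Finset (I → L), ↑T ⊆ X ∧ (g : I → L) ∈ Submodule.span L (T : Set _) :=
    fun g => Submodule.mem_span_finite_of_mem_span (hU (hG ▸ Submodule.subset_span g.2))
  choose T hTX hT using hGX
  set Y := Finset.univ.biUnion T with hY
  have hYX : ∀ y : Y, ∃ u : I → ℤ, (y : I → L) = fun i => ((u i : ℤ) : L) := fun y => by
    obtain ⟨g, -, hg⟩ := Finset.mem_biUnion.mp y.2
    exact hX _ (hTX g hg)
  choose u hu using hYX
  obtain ⟨d, w, hw, -, hws⟩ := exists_orth_of_int (L := L) π hq hqk Y.card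
    fun j => u (Y.equivFin.symm j)
  have hUw : U ≤ Submodule.span L (Set.range fun j i => ((w j i : A) : L)) := by
    rw [← hG, Submodule.span_le]
    intro g hg
    refine hws (Submodule.span_mono ?_ (hT ⟨g, hg⟩))
    intro y hy
    have hyY : y ∈ Y := Finset.mem_biUnion.mpr ⟨⟨g, hg⟩, Finset.mem_univ _, hy⟩
    exact ⟨Y.equivFin ⟨y, hyY⟩, by simp only [Equiv.symm_apply_apply]; exact (hu ⟨y, hyY⟩).symm⟩
  set Θ : (Fin d → L) →ₗ[L] (I → L) :=
    Fintype.linearCombination L (fun j i => ((w j i : A) : L)) with hΘ
  have hΘinj : Function.Injective Θ := by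
    rw [← LinearMap.ker_eq_bot, LinearMap.ker_eq_bot']
    intro c hc
    by_contra hc0
    obtain ⟨i₀, hi₀, hA⟩ := exists_scaled_vector A c (Function.ne_iff.mp hc0)
    set a : Fin d → A := fun j => ⟨(c i₀)⁻¹ * c j, hA j⟩ with ha
    have h1 : ∀ i, ∑ j, a j * w j i = 0 := fun i => by
      apply Subtype.ext
      have hi := congrFun hc i
      simp only [hΘ, Fintype.linearCombination_apply, Finset.sum_apply, Pi.smul_apply, smul_eq_mul,
        Pi.zero_apply] at hi
      rw [AddSubmonoidClass.coe_finsetSum, ZeroMemClass.coe_zero]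
      simp only [MulMemClass.coe_mul, ha, mul_assoc, ← Finset.mul_sum, hi, mul_zero]
    have h2 : ∑ j, π (a j) • (fun i => π (w j i)) = 0 := funext fun i => by
      rw [Finset.sum_apply]
      simpa [map_sum] using congrArg π (h1 i)
    have h3 := Fintype.linearIndependent_iff.mp hw _ h2 i₀
    rw [show a i₀ = 1 from Subtype.ext (inv_mul_cancel₀ hi₀), map_one] at h3
    exact one_ne_zero h3
  have hrange : U ≤ LinearMap.range Θ := by
    rw [hΘ, Fintype.range_linearCombination]
    exact hUw
  have hdim : Module.finrank L (U.comap Θ) = Module.finrank L U := by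
    rw [(Submodule.equivMapOfInjective Θ hΘinj (U.comap Θ)).finrank_eq,
      Submodule.map_comap_eq_self hrange]
  obtain ⟨e, heU, he⟩ := exists_orth_finite (A := A) π _ _ hdim
  refine ⟨fun j i => ∑ l, e j l * w l i, fun j => ?_, ?_⟩
  · have := Submodule.mem_comap.mp (heU j)
    have heq : Θ (fun l => ((e j l : A) : L)) = fun i => (((∑ l, e j l * w l i) : A) : L) :=
      funext fun i => by simp [hΘ, Fintype.linearCombination_apply, Finset.sum_apply]
    rwa [heq] at this
  · have h := he.map' (Fintype.linearCombination k (fun l i => π (w l i)))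
      (LinearMap.ker_eq_bot.mpr (linearIndependent_iff_injective_fintypeLinearCombination.mp hw))
    have heq : (fun j i => π (∑ l, e j l * w l i)) =
        Fintype.linearCombination k (fun l i => π (w l i)) ∘ fun j i => π (e j i) := by
      funext j i
      simp [Fintype.linearCombination_apply, Finset.sum_apply, map_sum]
    rw [heq]
    exact h

end FermatLib.Igusa.Mono
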