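import Fermat.Agent.Igusa.MonoSheet
import Fermat.Agent.Igusa.MonoSeriesInt
import Fermat.Prelude.Def_ModularCurve_X0ModL

/-!
An embedding of a function field into Laurent series, under which every function is a ratio of
combinations of series with integer coefficients, gives a sheet of reduction onto Laurent series;
two such embeddings are jointly orthogonal.
-/

set_option autoImplicit false
set_option linter.style.haveILetI false

noncomputable section

open AlgebraicCurve ModularCurve

namespace FermatLib.Igusa.Mono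

/-- The module structure of Laurent series over their field of constants as an algebra. -/
@[reducible] def monoLaurentModule (R : Type*) [Field R] : Module R (LaurentSeries R) :=
  Algebra.toModule

/-- The scalar action on Laurent series of their field of constants as an algebra. -/
@[reducible] def monoLaurentSMul (R : Type*) [Field R] : SMul R (LaurentSeries R) :=
  Algebra.toSMul

attribute [local instance 100000] monoLaurentModule monoLaurentSMul

variable {L k F : Type*} [Field L] [CharZero L] [Field k] [Field F] [Algebra L F]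
  {A : ValuationSubring L}

variable (L) in
/-- Series with integer coefficients. -/
def intSeries : Set (LaurentSeries L) := Set.range (coeffMap (Int.castRingHom L))

variable (L) in
/-- `L`-combinations of series with integer coefficients. -/
def intSpan : Subalgebra L (LaurentSeries L) := Algebra.adjoin L (intSeries L)

theorem intSpan_toSubmodule :
    Subalgebra.toSubmodule (intSpan L) = Submodule.span L (intSeries L) := by
  rw [intSpan, Algebra.adjoin_eq_span]
  congr 1
  have : intSeries L = (MonoidHom.mrange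
      ((coeffMap (Int.castRingHom L) : LaurentSeries ℤ →+* LaurentSeries L) :
        LaurentSeries ℤ →* LaurentSeries L) : Set (LaurentSeries L)) := by
    ext x; simp [intSeries]
  rw [this, Submonoid.closure_eq]

theorem mem_intSpan_iff {x : LaurentSeries L} :
    x ∈ intSpan L ↔ x ∈ Submodule.span L (intSeries L) := by
  rw [← intSpan_toSubmodule, Subalgebra.mem_toSubmodule]

theorem coeffMap_mem_intSpan (y : LaurentSeries ℤ) :
    coeffMap (Int.castRingHom L) y ∈ intSpan L := Algebra.subset_adjoin ⟨y, rfl⟩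

omit [CharZero L] in
/-- Coefficients of a scalar multiple. -/
theorem monoSeries_smul_coeff (c : L) (x : LaurentSeries L) (i : ℤ) :
    (c • x).coeff i = c * x.coeff i := by
  rw [Algebra.smul_def, algebraMap_laurentSeries_eq_single, HahnSeries.coeff_single_zero_mul]

/-- The coefficients of a pair of series, as one vector. -/
def coeffPair : (LaurentSeries L × LaurentSeries L) →ₗ[L] (ℤ ⊕ ℤ → L) where
  toFun p := Sum.elim p.1.coeff p.2.coeff
  map_add' p p' := funext fun i => by cases i <;> rfl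
  map_smul' c p := funext fun i => by
    cases i with
    | inl i => exact monoSeries_smul_coeff c p.1 i
    | inr i => exact monoSeries_smul_coeff c p.2 i

theorem coeffPair_injective : Function.Injective (coeffPair (L := L)) := fun p p' h =>
  Prod.ext (HahnSeries.ext (funext fun i => congrFun h (Sum.inl i)))
    (HahnSeries.ext (funext fun i => congrFun h (Sum.inr i)))

omit [CharZero L] in
/-- A series all of whose coefficients lie in `A`, as a series over `A`. -/
theorem exists_series_over {x : LaurentSeries L} {a : ℤ → A} (ha : ∀ i, (a i : L) = x.coeff i) :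
    ∃ y : LaurentSeries A, coeffMap A.subtype y = x ∧ ∀ i, y.coeff i = a i := by
  refine ⟨⟨a, x.isPWO_support.mono fun i hi h0 => hi ?_⟩, HahnSeries.ext (funext fun i => ?_),
    fun i => rfl⟩
  · exact Subtype.ext (by rw [ha i, h0, ZeroMemClass.coe_zero])
  · rw [coeffMap_coeff]; exact ha i

theorem coeffMap_subtype_injective : Function.Injective (coeffMap (A.subtype : A →+* L)) :=
  fun y y' h => HahnSeries.ext (funext fun i => Subtype.ext
    (congrArg (fun z : LaurentSeries L => z.coeff i) h))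

variable (π : A →+* k) {q : ℕ}

/-- Finitely many pairs of combinations of integral series span a space with as many integral
pairs with independent reductions as its dimension. -/
theorem exists_orth_pairs (hq : q.Prime) (hqk : (q : k) = 0)
    (U : Submodule L (LaurentSeries L × LaurentSeries L)) [FiniteDimensional L U]
    (hU : ∀ p ∈ U, p.1 ∈ intSpan L ∧ p.2 ∈ intSpan L) :
    ∃ e : Fin (Module.finrank L U) → LaurentSeries A × LaurentSeries A,
      (∀ j, (coeffMap A.subtype (e j).1, coeffMap A.subtype (e j).2) ∈ U) ∧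
      LinearIndependent k fun j => (coeffMap π (e j).1, coeffMap π (e j).2) := by
  classical
  set X : Set (ℤ ⊕ ℤ → L) := ⇑(coeffPair (L := L)) '' ((intSeries L) ×ˢ {0} ∪ {0} ×ˢ (intSeries L)) with hX
  have hXint : ∀ x ∈ X, ∃ u : ℤ ⊕ ℤ → ℤ, x = fun i => ((u i : ℤ) : L) := by
    rintro _ ⟨⟨a, b⟩, (⟨⟨y, rfl⟩, hb⟩ | ⟨ha, ⟨y, rfl⟩⟩), rfl⟩
    · refine ⟨Sum.elim y.coeff 0, funext fun i => ?_⟩
      obtain rfl := Set.mem_singleton_iff.mp hb
      cases i <;> simp [coeffPair]
    · refine ⟨Sum.elim 0 y.coeff, funext fun i => ?_⟩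
      obtain rfl := Set.mem_singleton_iff.mp ha
      cases i <;> simp [coeffPair]
  have hUX : U.map coeffPair ≤ Submodule.span L X := by
    rintro _ ⟨⟨a, b⟩, hp, rfl⟩
    obtain ⟨ha, hb⟩ := hU _ hp
    rw [hX, Submodule.span_image]
    refine Submodule.mem_map_of_mem ?_
    rw [show (a, b) = (LinearMap.inl L _ _ a) + (LinearMap.inr L _ _ b) by simp,
      Submodule.span_union]
    refine Submodule.add_mem_sup ?_ ?_
    · have := Submodule.mem_map_of_mem (f := LinearMap.inl L (LaurentSeries L) (LaurentSeries L))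
        (mem_intSpan_iff.mp ha)
      rw [Submodule.map_span] at this
      refine Submodule.span_mono ?_ this
      rintro _ ⟨z, hz, rfl⟩
      exact ⟨hz, rfl⟩
    · have := Submodule.mem_map_of_mem (f := LinearMap.inr L (LaurentSeries L) (LaurentSeries L))
        (mem_intSpan_iff.mp hb)
      rw [Submodule.map_span] at this
      refine Submodule.span_mono ?_ this
      rintro _ ⟨z, hz, rfl⟩
      exact ⟨rfl, hz⟩
  have hdim : Module.finrank L (U.map coeffPair) = Module.finrank L U :=
    (Submodule.equivMapOfInjective _ coeffPair_injective U).symm.finrank_eq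
  obtain ⟨e₀, he₀U, he₀⟩ := exists_orth_subspace (L := L) π hq hqk X hXint (U.map coeffPair) hUX
  have key : ∀ j, ∃ E : LaurentSeries A × LaurentSeries A,
      (coeffMap A.subtype E.1, coeffMap A.subtype E.2) ∈ U ∧
      ∀ i, Sum.elim E.1.coeff E.2.coeff i = e₀ j i := by
    intro j
    obtain ⟨p, hp, hpe⟩ := Submodule.mem_map.mp (he₀U j)
    obtain ⟨y₁, hy₁, hy₁'⟩ := exists_series_over (x := p.1) (a := fun i => e₀ j (Sum.inl i))
      fun i => (congrFun hpe (Sum.inl i)).symm
    obtain ⟨y₂, hy₂, hy₂'⟩ := exists_series_over (x := p.2) (a := fun i => e₀ j (Sum.inr i))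
      fun i => (congrFun hpe (Sum.inr i)).symm
    refine ⟨(y₁, y₂), by rw [hy₁, hy₂]; exact hp, fun i => ?_⟩
    cases i with
    | inl i => exact hy₁' i
    | inr i => exact hy₂' i
  choose E hEU hEc using key
  refine ⟨fun j => E (finCongr hdim.symm j), fun j => hEU _, ?_⟩
  have h := he₀.comp (finCongr hdim.symm) (finCongr hdim.symm).injective
  refine LinearIndependent.of_comp (coeffPair (L := k)) ?_
  convert h using 1
  funext j i
  rw [Function.comp_apply, Function.comp_apply, ← hEc]
  cases i <;> rfl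

/-- A non-zero combination of integral series scales to an integral series with non-zero
reduction. -/
theorem exists_scale_series (hq : q.Prime) (hqk : (q : k) = 0) {x : LaurentSeries L}
    (hx : x ∈ intSpan L) (hx0 : x ≠ 0) :
    ∃ (c : L) (y : LaurentSeries A), c ≠ 0 ∧ coeffMap A.subtype y = c • x ∧ coeffMap π y ≠ 0 := by
  haveI : FiniteDimensional L (Submodule.span L {(x, (0 : LaurentSeries L))}) :=
    FiniteDimensional.span_of_finite L (Set.finite_singleton _)
  obtain ⟨e, he, hli⟩ := exists_orth_pairs (L := L) π hq hqk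
    (Submodule.span L {(x, (0 : LaurentSeries L))}) fun p hp => by
      obtain ⟨c, rfl⟩ := Submodule.mem_span_singleton.mp hp
      exact ⟨(intSpan L).smul_mem hx c, (intSpan L).smul_mem (zero_mem _) c⟩
  have hpos : 0 < Module.finrank L (Submodule.span L {(x, (0 : LaurentSeries L))}) := by
    rw [finrank_span_singleton (fun h => hx0 (congrArg Prod.fst h))]; exact one_pos
  obtain ⟨c, hc⟩ := Submodule.mem_span_singleton.mp (he ⟨0, hpos⟩)
  have h1 := congrArg Prod.fst hc
  have h2 := congrArg Prod.snd hc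
  simp only [Prod.smul_mk] at h1 h2
  rw [Algebra.smul_def c (0 : LaurentSeries L), mul_zero] at h2
  have h20 : (e ⟨0, hpos⟩).2 = 0 := coeffMap_subtype_injective (by rw [← h2, map_zero])
  have hne := hli.ne_zero ⟨0, hpos⟩
  simp only [h20, map_zero] at hne
  have hy0 : coeffMap π (e ⟨0, hpos⟩).1 ≠ 0 := fun h => hne (by rw [h]; rfl)
  refine ⟨c, (e ⟨0, hpos⟩).1, fun hc0 => hy0 ?_, h1.symm, hy0⟩
  rw [hc0, zero_smul] at h1
  rw [show (e ⟨0, hpos⟩).1 = 0 from coeffMap_subtype_injective (by rw [← h1, map_zero]), map_zero]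

variable (A) in
/-- Expansions as ratios of integral series. -/
structure IsRatio (ι : F →ₐ[L] LaurentSeries L) (f : F) (y z : LaurentSeries A) : Prop where
  red_ne : coeffMap π z ≠ 0
  eq : ι f * coeffMap A.subtype z = coeffMap A.subtype y

variable {π} {ι : F →ₐ[L] LaurentSeries L}

theorem IsRatio.unique {f : F} {y z y' z' : LaurentSeries A} (h : IsRatio A π ι f y z)
    (h' : IsRatio A π ι f y' z') :
    coeffMap π y / coeffMap π z = coeffMap π y' / coeffMap π z' := by
  have : y * z' = y' * z := coeffMap_subtype_injective (A := A) (by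
    rw [map_mul, map_mul, ← h.eq, ← h'.eq]; ring)
  rw [div_eq_div_iff h.red_ne h'.red_ne, ← map_mul, ← map_mul, this]

theorem IsRatio.mul {f f' : F} {y z y' z' : LaurentSeries A} (h : IsRatio A π ι f y z)
    (h' : IsRatio A π ι f' y' z') : IsRatio A π ι (f * f') (y * y') (z * z') :=
  ⟨by simp [map_mul, h.red_ne, h'.red_ne], by
    rw [map_mul, map_mul, map_mul, mul_mul_mul_comm, h.eq, h'.eq]⟩

theorem IsRatio.add {f f' : F} {y z y' z' : LaurentSeries A} (h : IsRatio A π ι f y z)
    (h' : IsRatio A π ι f' y' z') : IsRatio A π ι (f + f') (y * z' + y' * z) (z * z') :=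
  ⟨by simp [map_mul, h.red_ne, h'.red_ne], by
    rw [map_add ι, map_add (coeffMap A.subtype), map_mul, map_mul, map_mul, ← h.eq, ← h'.eq]
    ring⟩

theorem isRatio_algebraMap (a : A) :
    IsRatio A π ι (algebraMap L F (a : L)) (HahnSeries.single 0 a) 1 :=
  ⟨by simp, by
    rw [map_one, mul_one, AlgHom.commutes, coeffMap_single]
    exact algebraMap_laurentSeries_eq_single L (a : L)⟩

variable (A π) in
/-- The functions with an integral expansion. -/
def seriesRing (ι : F →ₐ[L] LaurentSeries L) : Subring F where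
  carrier := {f | ∃ y z, IsRatio A π ι f y z}
  one_mem' := ⟨1, 1, by simp, by simp⟩
  zero_mem' := ⟨0, 1, by simp, by simp⟩
  mul_mem' := fun ⟨_, _, h⟩ ⟨_, _, h'⟩ => ⟨_, _, h.mul h'⟩
  add_mem' := fun ⟨_, _, h⟩ ⟨_, _, h'⟩ => ⟨_, _, h.add h'⟩
  neg_mem' := fun ⟨y, z, h⟩ => ⟨-y, z, h.red_ne, by rw [map_neg, map_neg, neg_mul, h.eq]⟩

variable (A π) in
/-- The reduction of an integral expansion. -/
def seriesRed (ι : F →ₐ[L] LaurentSeries L) : seriesRing A π ι →+* LaurentSeries k where
  toFun f := coeffMap π f.2.choose / coeffMap π f.2.choose_spec.choose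
  map_one' := by
    rw [(1 : seriesRing A π ι).2.choose_spec.choose_spec.unique
      (y' := 1) (z' := 1) ⟨by simp, by simp⟩]
    simp
  map_zero' := by
    rw [(0 : seriesRing A π ι).2.choose_spec.choose_spec.unique
      (y' := 0) (z' := 1) ⟨by simp, by simp⟩]
    simp
  map_mul' f g := by
    rw [(f * g).2.choose_spec.choose_spec.unique
      (f.2.choose_spec.choose_spec.mul g.2.choose_spec.choose_spec), map_mul, map_mul,
      div_mul_div_comm]
  map_add' f g := by
    have hf := f.2.choose_spec.choose_spec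
    have hg := g.2.choose_spec.choose_spec
    rw [(f + g).2.choose_spec.choose_spec.unique (hf.add hg),
      div_add_div _ _ hf.red_ne hg.red_ne, map_add, map_mul, map_mul, map_mul,
      mul_comm (coeffMap π f.2.choose_spec.choose) (coeffMap π g.2.choose)]

theorem seriesRed_eq (f : seriesRing A π ι) {y z : LaurentSeries A}
    (h : IsRatio A π ι f y z) : seriesRed A π ι f = coeffMap π y / coeffMap π z :=
  f.2.choose_spec.choose_spec.unique h

theorem exists_fraction (hq : q.Prime) (hqk : (q : k) = 0)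
    (hfr : ∀ f : F, ∃ z : F, z ≠ 0 ∧ ι z ∈ intSpan L ∧ ι (f * z) ∈ intSpan L) {f : F}
    (hf : f ≠ 0) : ∃ c : L, c ≠ 0 ∧ ∃ y z, IsRatio A π ι (c • f) y z ∧ coeffMap π y ≠ 0 := by
  obtain ⟨z, hz0, hz, hfz⟩ := hfr f
  obtain ⟨c, y, hc, hy, hy0⟩ := exists_scale_series π hq hqk hfz
    ((map_ne_zero_iff _ ι.injective).mpr (mul_ne_zero hf hz0))
  obtain ⟨c', y', hc', hy', hy0'⟩ := exists_scale_series π hq hqk hz
    ((map_ne_zero_iff _ ι.injective).mpr hz0)
  refine ⟨c / c', div_ne_zero hc hc', y, y', ⟨hy0', ?_⟩, hy0⟩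
  rw [hy, hy', map_smul, Algebra.smul_def, Algebra.smul_def, Algebra.smul_def, mul_mul_mul_comm,
    ← map_mul, ← map_mul, div_mul_cancel₀ _ hc']

variable (ι) in
/-- The sheet of reduction attached to an embedding into series. -/
def seriesSheet (hπ : ∀ a : A, π a = 0 ↔ ¬ IsUnit a) (hq : q.Prime) (hqk : (q : k) = 0)
    (hfr : ∀ f : F, ∃ z : F, z ≠ 0 ∧ ι z ∈ intSpan L ∧ ι (f * z) ∈ intSpan L) :
    Sheet π F (LaurentSeries k) where
  W :=
    { seriesRing A π ι with
      mem_or_inv_mem' := by
        intro f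
        rcases eq_or_ne f 0 with rfl | hf
        · exact Or.inl (Subring.zero_mem _)
        obtain ⟨c, hc, y, z, h, hy⟩ := exists_fraction (A := A) hq hqk hfr hf
        rcases A.mem_or_inv_mem c⁻¹ with hm | hm
        · refine Or.inl ?_
          have := Subring.mul_mem (seriesRing A π ι) (⟨_, _, isRatio_algebraMap ⟨_, hm⟩⟩ :
            algebraMap L F c⁻¹ ∈ seriesRing A π ι) ⟨y, z, h⟩
          rwa [← Algebra.smul_def, smul_smul, inv_mul_cancel₀ hc, one_smul] at this
        · refine Or.inr ?_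
          have hinv : (c • f)⁻¹ ∈ seriesRing A π ι := by
            refine ⟨z, y, hy, ?_⟩
            rw [map_inv₀, ← h.eq]
            exact inv_mul_cancel_left₀
              ((map_ne_zero_iff _ ι.injective).mpr (smul_ne_zero hc hf)) _
          rw [inv_inv] at hm
          have := Subring.mul_mem (seriesRing A π ι) (⟨_, _, isRatio_algebraMap ⟨c, hm⟩⟩ :
            algebraMap L F c ∈ seriesRing A π ι) hinv
          rwa [Algebra.smul_def, mul_inv, ← mul_assoc, mul_inv_cancel₀
            (by simpa using hc), one_mul] at this }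
  red := seriesRed A π ι
  mem_algebraMap a := ⟨_, _, isRatio_algebraMap a⟩
  red_algebraMap a := by
    rw [seriesRed_eq _ (isRatio_algebraMap a), coeffMap_single, map_one, div_one]
    exact (algebraMap_laurentSeries_eq_single k (π a)).symm
  isUnit_of_red_ne := by
    intro f hf
    obtain ⟨y, z, h⟩ := f.2
    have hy : coeffMap π y ≠ 0 := fun h0 => hf (by
      rw [seriesRed_eq f h, h0, zero_div])
    have hf0 : (f : F) ≠ 0 := fun h0 => hy (by
      have h2 := h.eq
      rw [h0, map_zero, zero_mul, eq_comm] at h2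
      rw [show y = 0 from coeffMap_subtype_injective (by rw [h2, map_zero]), map_zero])
    have hinv : (f : F)⁻¹ ∈ seriesRing A π ι := ⟨z, y, hy, by
      rw [map_inv₀, ← h.eq]
      exact inv_mul_cancel_left₀ ((map_ne_zero_iff _ ι.injective).mpr hf0) _⟩
    exact isUnit_iff_exists.mpr ⟨⟨_, hinv⟩, Subtype.ext (mul_inv_cancel₀ hf0),
      Subtype.ext (inv_mul_cancel₀ hf0)⟩

variable (hπ : ∀ a : A, π a = 0 ↔ ¬ IsUnit a) (hq : q.Prime) (hqk : (q : k) = 0)
  (hfr : ∀ f : F, ∃ z : F, z ≠ 0 ∧ ι z ∈ intSpan L ∧ ι (f * z) ∈ intSpan L)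

theorem seriesSheet_rd {f : F} {y z : LaurentSeries A} (h : IsRatio A π ι f y z) :
    f ∈ (seriesSheet ι hπ hq hqk hfr).W ∧
      (seriesSheet ι hπ hq hqk hfr).rd f = coeffMap π y / coeffMap π z := by
  have hm : f ∈ (seriesSheet ι hπ hq hqk hfr).W := ⟨y, z, h⟩
  exact ⟨hm, by rw [Sheet.rd_of_mem hm]; exact seriesRed_eq (⟨f, y, z, h⟩ : seriesRing A π ι) h⟩

/-- Reduction of a function with an integral expansion. -/
theorem seriesSheet_rd_of_eq {f : F} {y : LaurentSeries A} (h : ι f = coeffMap A.subtype y) :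
    f ∈ (seriesSheet ι hπ hq hqk hfr).W ∧
      (seriesSheet ι hπ hq hqk hfr).rd f = coeffMap π y := by
  have := seriesSheet_rd hπ hq hqk hfr (f := f) (y := y) (z := 1) ⟨by simp, by simp [h]⟩
  simpa using this

theorem seriesSheet_scale {f : F} (hf : f ≠ 0) :
    ∃ c : L, c • f ∈ (seriesSheet ι hπ hq hqk hfr).W ∧
      (seriesSheet ι hπ hq hqk hfr).rd (c • f) ≠ 0 := by
  obtain ⟨c, -, y, z, h, hy⟩ := exists_fraction (A := A) hq hqk hfr hf
  obtain ⟨hm, hr⟩ := seriesSheet_rd hπ hq hqk hfr h
  exact ⟨c, hm, by rw [hr]; exact div_ne_zero hy h.red_ne⟩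

variable {ι₂ : F →ₐ[L] LaurentSeries L}
  (hfr₂ : ∀ f : F, ∃ z : F, z ≠ 0 ∧ ι₂ z ∈ intSpan L ∧ ι₂ (f * z) ∈ intSpan L)

/-- Two series sheets are jointly orthogonal. -/
theorem seriesSheet_orth (hπs : Function.Surjective π)
    (hfr' : ∀ f : F, ∃ z : F, z ≠ 0 ∧ ι z ∈ intSpan L ∧ ι₂ z ∈ intSpan L ∧
      ι (f * z) ∈ intSpan L ∧ ι₂ (f * z) ∈ intSpan L)
    (V : Submodule L F) [FiniteDimensional L V] :
    Module.finrank k (redSpace (seriesSheet ι hπ hq hqk hfr) (seriesSheet ι₂ hπ hq hqk hfr₂)
      hπs V) = Module.finrank L V := by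
  classical
  set s₁ := seriesSheet ι hπ hq hqk hfr
  set s₂ := seriesSheet ι₂ hπ hq hqk hfr₂
  obtain ⟨hfin, hle⟩ := finite_redSpace (s₁ := s₁) (s₂ := s₂) hπs hπ V
  refine le_antisymm hle ?_
  -- a common denominator
  set B := Module.finBasis L V
  choose z hz0 hz1 hz2 hzf1 hzf2 using fun i => hfr' ((B i : V) : F)
  set Z : F := ∏ i, z i with hZ
  have hZ0 : Z ≠ 0 := Finset.prod_ne_zero_iff.mpr fun i _ => hz0 i
  have hZB : ∀ i, ι ((B i : F) * Z) ∈ intSpan L ∧ ι₂ ((B i : F) * Z) ∈ intSpan L := by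
    intro i
    rw [hZ, ← Finset.mul_prod_erase _ _ (Finset.mem_univ i), ← mul_assoc, map_mul ι, map_mul ι₂,
      map_prod, map_prod]
    exact ⟨mul_mem (hzf1 i) (prod_mem fun j _ => hz1 j),
      mul_mem (hzf2 i) (prod_mem fun j _ => hz2 j)⟩
  have hmem : ∀ f ∈ V, ι (f * Z) ∈ intSpan L ∧ ι₂ (f * Z) ∈ intSpan L := by
    intro f hf
    have hrep : f = ∑ i, B.repr ⟨f, hf⟩ i • (B i : F) := by
      have h := congrArg V.subtype (B.sum_repr ⟨f, hf⟩)
      simpa only [map_sum, map_smul, Submodule.subtype_apply] using h.symm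
    rw [hrep, Finset.sum_mul, map_sum, map_sum]
    constructor <;> refine sum_mem fun i _ => ?_
    · rw [smul_mul_assoc, map_smul]; exact (intSpan L).smul_mem (hZB i).1 _
    · rw [smul_mul_assoc, map_smul]; exact (intSpan L).smul_mem (hZB i).2 _
  obtain ⟨c₁, y₁, hc₁, hy₁, hy₁0⟩ := exists_scale_series π hq hqk
    (x := ι Z) (by rw [hZ, map_prod]; exact prod_mem fun j _ => hz1 j)
    ((map_ne_zero_iff _ ι.injective).mpr hZ0)
  obtain ⟨c₂, y₂, hc₂, hy₂, hy₂0⟩ := exists_scale_series π hq hqk
    (x := ι₂ Z) (by rw [hZ, map_prod]; exact prod_mem fun j _ => hz2 j)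
    ((map_ne_zero_iff _ ι₂.injective).mpr hZ0)
  set T : F →ₗ[L] LaurentSeries L × LaurentSeries L :=
    LinearMap.prod (c₁ • (ι.toLinearMap.comp (LinearMap.mulRight L Z)))
      (c₂ • (ι₂.toLinearMap.comp (LinearMap.mulRight L Z))) with hT
  have hTf : ∀ f, T f = (c₁ • ι (f * Z), c₂ • ι₂ (f * Z)) := fun f => rfl
  have hTinj : Function.Injective T := fun f g h => by
    have h1 := congrArg Prod.fst h
    simp only [hTf] at h1
    rw [Algebra.smul_def, Algebra.smul_def] at h1
    exact mul_right_cancel₀ hZ0 (ι.injective (mul_left_cancel₀ (by simpa using hc₁) h1))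
  obtain ⟨e, heU, he⟩ := exists_orth_pairs (L := L) π hq hqk (V.map T) fun p hp => by
    obtain ⟨f, hf, rfl⟩ := hp
    exact ⟨(intSpan L).smul_mem (hmem f hf).1 _, (intSpan L).smul_mem (hmem f hf).2 _⟩
  have key : ∀ j, ∃ f ∈ V, Integral₂ s₁ s₂ f ∧ rd₂ s₁ s₂ f =
      (coeffMap π (e j).1 / coeffMap π y₁, coeffMap π (e j).2 / coeffMap π y₂) := by
    intro j
    obtain ⟨f, hf, hfe⟩ := Submodule.mem_map.mp (heU j)
    rw [hTf, Prod.mk.injEq] at hfe
    obtain ⟨m1, r1⟩ := seriesSheet_rd hπ hq hqk hfr (f := f) (y := (e j).1) (z := y₁)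
      ⟨hy₁0, by rw [hy₁, mul_smul_comm, ← map_mul, hfe.1]⟩
    obtain ⟨m2, r2⟩ := seriesSheet_rd hπ hq hqk hfr₂ (f := f) (y := (e j).2) (z := y₂)
      ⟨hy₂0, by rw [hy₂, mul_smul_comm, ← map_mul, hfe.2]⟩
    exact ⟨f, hf, ⟨m1, m2⟩, Prod.ext r1 r2⟩
  choose f hfV hfi hfr' using key
  set Λ : (LaurentSeries k × LaurentSeries k) →ₗ[k] LaurentSeries k × LaurentSeries k :=
    LinearMap.prodMap (LinearMap.mulRight k (coeffMap π y₁)⁻¹)
      (LinearMap.mulRight k (coeffMap π y₂)⁻¹)
  have hΛ : Function.Injective Λ := fun a b h => by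
    simp only [Λ, LinearMap.prodMap_apply, LinearMap.mulRight_apply, Prod.mk.injEq] at h
    exact Prod.ext (mul_right_cancel₀ (inv_ne_zero hy₁0) h.1)
      (mul_right_cancel₀ (inv_ne_zero hy₂0) h.2)
  have hli := he.map' Λ (LinearMap.ker_eq_bot.mpr hΛ)
  haveI := hfin
  have hli' : LinearIndependent k fun j =>
      (⟨rd₂ s₁ s₂ (f j), rd₂_mem_redSpace hπs (hfV j) (hfi j)⟩ : redSpace s₁ s₂ hπs V) := by
    refine LinearIndependent.of_comp (Submodule.subtype _) ?_
    have heq : (Submodule.subtype _ ∘ fun j =>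
        (⟨rd₂ s₁ s₂ (f j), rd₂_mem_redSpace hπs (hfV j) (hfi j)⟩ : redSpace s₁ s₂ hπs V)) =
        Λ ∘ fun j => (coeffMap π (e j).1, coeffMap π (e j).2) := by
      funext j
      simp [Λ, hfr', div_eq_mul_inv]
    rw [heq]
    exact hli
  have := hli'.fintype_card_le_finrank
  rw [Fintype.card_fin, (Submodule.equivMapOfInjective T hTinj V).symm.finrank_eq] at this
  exact this

end FermatLib.Igusa.Mono
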