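/-
Reductions of norms of the degeneracy extension in Laurent series.
-/
import Fermat.Agent.Igusa.MonoSeriesSheet
import Fermat.Agent.Igusa.MonoNewNorm

/-!
# Norm series

A sheet read off from an expansion map, and the reduction of the series `qExpand y₁ * ∏ scale y₂`
of a norm and of its variations.
-/

set_option autoImplicit false
set_option linter.style.haveILetI false

noncomputable section

open AlgebraicCurve ModularCurve Polynomial

namespace FermatLib.Igusa.Mono

attribute [local instance 100000] monoLaurentModule monoLaurentSMul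

variable {L k F Kb : Type*} [Field L] [CharZero L] [Field k] [Field F] [Algebra L F] [Field Kb]
  [Algebra k Kb] {A : ValuationSubring L} {π : A →+* k}

/-- The integral functions of `s` have expansions along `ι` as ratios of series over `A`, and
`emb` reads their reductions as the ratios of the reduced series. -/
def HasRatios (s : Sheet π F Kb) (ι : F →ₐ[L] LaurentSeries L)
    (emb : Kb →+* LaurentSeries k) : Prop :=
  ∀ f ∈ s.W, ∃ y z, IsRatio A π ι f y z ∧ emb (s.rd f) * coeffMap π z = coeffMap π y

variable {q : ℕ} [NeZero q]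

theorem qExpand_coeffMap_eq {R S : Type*} [CommRing R] [CommRing S] (f : R →+* S)
    (x : LaurentSeries R) : coeffMap f (qExpand R q x) = qExpand S q (coeffMap f x) :=
  coeffMap_qExpand _ q x

/-- A function whose expansion in `u ^ q` is `R / Q` with `Q` reducing non-zero is integral. -/
theorem HasRatios.of_qExpand {s : Sheet π F Kb} {ι : F →ₐ[L] LaurentSeries L}
    {emb : Kb →+* LaurentSeries k} (hs : HasRatios s ι emb) {h : F}
    {R Q : LaurentSeries A} (hQ : coeffMap π Q ≠ 0)
    (heq : qExpand L q (ι h) * coeffMap A.subtype Q = coeffMap A.subtype R) :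
    h ∈ s.W ∧ qExpand k q (emb (s.rd h)) = coeffMap π R / coeffMap π Q := by
  have key : ∀ y z, IsRatio A π ι h y z → emb (s.rd h) * coeffMap π z = coeffMap π y →
      qExpand k q (emb (s.rd h)) = coeffMap π R / coeffMap π Q := by
    intro y z hyz hred
    have h1 : qExpand A q y * Q = qExpand A q z * R := coeffMap_subtype_injective (A := A) (by
      rw [map_mul, map_mul, qExpand_coeffMap_eq, qExpand_coeffMap_eq, ← hyz.eq, ← heq, map_mul]
      ring)
    have h2 := congrArg (coeffMap π) h1
    rw [map_mul, map_mul, qExpand_coeffMap_eq, qExpand_coeffMap_eq] at h2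
    have hz : qExpand k q (coeffMap π z) ≠ 0 :=
      (map_ne_zero_iff _ (qExpand_injective q)).mpr hyz.red_ne
    rw [← hred, map_mul] at h2
    rw [eq_div_iff hQ]
    refine mul_left_cancel₀ hz ?_
    linear_combination h2
  suffices hm : h ∈ s.W by
    obtain ⟨y, z, hyz, hred⟩ := hs h hm
    exact ⟨hm, key y z hyz hred⟩
  rcases eq_or_ne h 0 with rfl | h0
  · exact zero_mem _
  rcases s.W.mem_or_inv_mem h with hm | hinv
  · exact hm
  obtain ⟨y, z, hyz, hred⟩ := hs _ hinv
  rcases eq_or_ne (s.rd h⁻¹) 0 with hr | hr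
  · exfalso
    have hy : coeffMap π y = 0 := by
      rw [← hred, hr, map_zero, zero_mul]
    have hhinv : qExpand L q (ι h) * qExpand L q (ι h⁻¹) = 1 := by
      rw [← map_mul, ← map_mul, mul_inv_cancel₀ h0, map_one, map_one]
    have h1 : qExpand A q z * Q = qExpand A q y * R := coeffMap_subtype_injective (A := A) (by
      rw [map_mul, map_mul, qExpand_coeffMap_eq, qExpand_coeffMap_eq, ← hyz.eq, ← heq, map_mul]
      linear_combination (-(qExpand L q (coeffMap A.subtype z) * coeffMap A.subtype Q)) * hhinv)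
    have h2 := congrArg (coeffMap π) h1
    rw [map_mul, map_mul, qExpand_coeffMap_eq, qExpand_coeffMap_eq, hy, map_zero, zero_mul] at h2
    exact mul_ne_zero ((map_ne_zero_iff _ (qExpand_injective q)).mpr hyz.red_ne) hQ h2
  · simpa using Sheet.inv_mem_of_rd_ne hinv hr

/-- The series of a norm. -/
def normSeries {R : Type*} [CommRing R] (c : Rˣ) (y₁ y₂ : LaurentSeries R) : LaurentSeries R :=
  qExpand R q y₁ * ∏ i : Fin q, monoNewScale (c ^ (i : ℕ)) y₂

theorem coeffMap_normSeries {R S : Type*} [CommRing R] [CommRing S] (f : R →+* S) (c : Rˣ)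
    (y₁ y₂ : LaurentSeries R) :
    coeffMap f (normSeries (q := q) c y₁ y₂) =
      normSeries (q := q) (Units.map (f : R →* S) c) (coeffMap f y₁) (coeffMap f y₂) := by
  rw [normSeries, normSeries, map_mul, map_prod, qExpand_coeffMap_eq]
  congr 1
  exact Finset.prod_congr rfl fun i _ => by rw [coeffMap_monoNewScale, map_pow]

theorem normSeries_mul {R : Type*} [CommRing R] (c : Rˣ) (y₁ y₂ z₁ z₂ : LaurentSeries R) :
    normSeries (q := q) c (y₁ * z₁) (y₂ * z₂) =
      normSeries (q := q) c y₁ y₂ * normSeries (q := q) c z₁ z₂ := by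
  simp only [normSeries, map_mul, Finset.prod_mul_distrib]
  ring

theorem normSeries_one_unit {R : Type*} [CommRing R] (y₁ y₂ : LaurentSeries R) :
    normSeries (q := q) (1 : Rˣ) y₁ y₂ = qExpand R q y₁ * y₂ ^ q := by
  simp [normSeries, monoNewScale_one]

omit [NeZero q] in
/-- The first variation of a product. -/
theorem exists_prod_variation {R S : Type*} [CommRing R] [CommRing S] [Fact q.Prime] [CharP S q]
    (φ : R →+* S) (a : R) (ha : φ a = 0) (b c : Fin q → R) (B C : S) (hb : ∀ i, φ (b i) = B)
    (hc : ∀ i, φ (c i) = C) :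
    ∃ E : R, ∏ i, (b i + a * c i) = ∏ i, b i + a * E ∧ φ E = 0 := by
  set P : R[X] := ∏ i, (Polynomial.C (b i) + X * Polynomial.C (c i)) with hP
  have h0 : P.coeff 0 = ∏ i, b i := by
    rw [coeff_zero_eq_eval_zero, hP, eval_prod]
    simp
  refine ⟨P.divX.eval a, ?_, ?_⟩
  · have h1 : P.eval a = ∏ i, (b i + a * c i) := by
      rw [hP, eval_prod]
      exact Finset.prod_congr rfl fun i _ => by simp; exact mul_comm _ _
    rw [← h1]
    conv_lhs => rw [← divX_mul_X_add P]
    rw [eval_add, eval_mul, eval_X, eval_C, h0]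
    ring
  · have hmap : P.map φ = Polynomial.C B ^ q + X ^ q * Polynomial.C C ^ q := by
      rw [hP, Polynomial.map_prod]
      simp only [Polynomial.map_add, Polynomial.map_mul, map_C, map_X, hb, hc, Finset.prod_const,
        Finset.card_univ, Fintype.card_fin]
      rw [add_pow_char, mul_pow]
    have hq1 : q ≠ 1 := (Fact.out : q.Prime).ne_one
    have h2 : φ (P.divX.eval a) = (P.map φ).coeff 1 := by
      rw [← Polynomial.eval_map_apply, ha, ← coeff_zero_eq_eval_zero, coeff_map, coeff_map,
        coeff_divX]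
    rw [h2, hmap, ← map_pow, ← map_pow, coeff_add, coeff_C, if_neg one_ne_zero, zero_add,
      coeff_X_pow_mul', if_neg (by have := (Fact.out : q.Prime).two_le; omega)]

omit [CharZero L] in
/-- The unit `ζ` of `A` and its reduction. -/
theorem exists_unit_red [Fact q.Prime] [CharP k q] (π : A →+* k) {ζ : Lˣ}
    (hζ : IsPrimitiveRoot ζ q) :
    ∃ ζA : Aˣ, Units.map (A.subtype : A →* L) ζA = ζ ∧ Units.map (π : A →* k) ζA = 1 := by
  have hmem : ((ζ : Lˣ) : L) ∈ A ∧ ((ζ⁻¹ : Lˣ) : L) ∈ A := by
    constructor <;>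
      · rw [← A.valuation_le_one_iff]
        refine ((pow_eq_one_iff_left (NeZero.ne q)).mp ?_).le
        rw [← map_pow, ← Units.val_pow_eq_pow_val]
        simp [hζ.pow_eq_one]
  let ζA : Aˣ := ⟨⟨_, hmem.1⟩, ⟨_, hmem.2⟩, Subtype.ext ζ.mul_inv, Subtype.ext ζ.inv_mul⟩
  refine ⟨ζA, Units.ext rfl, Units.ext ?_⟩
  have h1 : ((Units.map (π : A →* k) ζA : kˣ) : k) ^ q = 1 := by
    rw [← Units.val_pow_eq_pow_val, ← map_pow]
    rw [show ζA ^ q = 1 from Units.ext (Subtype.ext (by
      simpa [ζA] using congrArg Units.val hζ.pow_eq_one)), map_one, Units.val_one]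
  have : ExpChar k q := ExpChar.prime Fact.out
  have h2 : frobenius k q ((Units.map (π : A →* k) ζA : kˣ) : k) = frobenius k q 1 := by
    rw [map_one, frobenius_def, h1]
  exact frobenius_inj k q h2

omit [CharZero L] in
/-- **Variation of a norm series**: changing the numerators `Y` by `a S` changes the series by
`a` times one reducing to the variation of the first factor. -/
theorem exists_normSeries_variation [Fact q.Prime] [CharP k q] {ζA : Aˣ}
    (hζA : Units.map (π : A →* k) ζA = 1) {a : A} (ha : π a = 0)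
    (Y₁ Y₂ S₁ S₂ : LaurentSeries A) :
    ∃ E : LaurentSeries A,
      normSeries (q := q) ζA (Y₁ + HahnSeries.C a * S₁) (Y₂ + HahnSeries.C a * S₂) =
        normSeries (q := q) ζA Y₁ Y₂ + HahnSeries.C a * E ∧
      coeffMap π E = qExpand k q (coeffMap π S₁) * coeffMap π Y₂ ^ q := by
  haveI : CharP (LaurentSeries k) q :=
    charP_of_injective_ringHom (f := (HahnSeries.C : k →+* LaurentSeries k))
      HahnSeries.C.injective q
  have hC : coeffMap π (HahnSeries.C a) = 0 := by
    rw [HahnSeries.C_apply, coeffMap_single, ha, map_zero]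
  have hscale : ∀ (i : ℕ) (y : LaurentSeries A),
      coeffMap π (monoNewScale (ζA ^ i) y) = coeffMap π y := fun i y => by
    rw [coeffMap_monoNewScale, map_pow, hζA, one_pow, monoNewScale_one]
  have hCscale : ∀ c : Aˣ, monoNewScale c (HahnSeries.C a) = (HahnSeries.C a : LaurentSeries A) := by
    intro c
    ext n
    rw [monoNewScale_coeff, HahnSeries.C_apply, HahnSeries.coeff_single]
    split_ifs with h
    · simp [h]
    · simp
  obtain ⟨E, hE, hE0⟩ := exists_prod_variation (q := q) (coeffMap π) (HahnSeries.C a) hC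
    (fun i : Fin q => monoNewScale (ζA ^ (i : ℕ)) Y₂)
    (fun i : Fin q => monoNewScale (ζA ^ (i : ℕ)) S₂) _ _ (fun i => hscale _ Y₂) (fun i => hscale _ S₂)
  have hCq : qExpand A q (HahnSeries.C a) = (HahnSeries.C a : LaurentSeries A) := by
    rw [HahnSeries.C_apply, qExpand_single, mul_zero]
  refine ⟨qExpand A q S₁ * (∏ i : Fin q, monoNewScale (ζA ^ (i : ℕ)) Y₂ + HahnSeries.C a * E) +
    qExpand A q Y₁ * E, ?_, ?_⟩
  · simp only [normSeries, map_add, map_mul, hCscale, hCq, hE]
    ring
  · rw [map_add, map_mul, map_mul, map_add, map_mul, hC, hE0, zero_mul, mul_zero, add_zero,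
      add_zero, qExpand_coeffMap_eq, map_prod]
    congr 1
    rw [Finset.prod_congr rfl fun i _ => hscale _ Y₂, Finset.prod_const, Finset.card_univ,
      Fintype.card_fin]

end FermatLib.Igusa.Mono
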