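import Fermat.Agent.Igusa.MonoSplit

/-!
A class killed by `d` with glued-trivial reductions and function reducing to `1` is trivial.
-/

set_option autoImplicit false
set_option linter.style.haveILetI false

noncomputable section

open AlgebraicCurve

namespace FermatLib.Igusa.Mono

universe uL uF uk uKb

variable {L : Type uL} {k : Type uk} [Field L] [Field k] {A : ValuationSubring L} {π : A →+* k}
  {F : Type uF} {Kb : Type uKb} [Field F] [Algebra L F] [Field Kb] [Algebra k Kb]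
  {s₁ s₂ : Sheet π F Kb}

/-- In a plane spanned by two lattices and one extra element `r`, integral elements decompose
integrally, and two lifts of a common reduction can be made to differ by a multiple of `r`. -/
theorem exists_decomposition (hπs : Function.Surjective π) (hπ : ∀ a : A, π a = 0 ↔ ¬ IsUnit a)
    (V₁ V₂ : Submodule L F) [FiniteDimensional L V₁] [FiniteDimensional L V₂] {r : F}
    (hr : r ∈ V₁ ⊔ V₂) (hri : Integral₂ s₁ s₂ r)
    (hrn : rd₂ s₁ s₂ r ∉ redSpace s₁ s₂ hπs V₁ ⊔ redSpace s₁ s₂ hπs V₂)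
    (hdim : Module.finrank L ↥(V₁ ⊔ V₂) =
      Module.finrank k ↥(redSpace s₁ s₂ hπs V₁ ⊔ redSpace s₁ s₂ hπs V₂) + 1) :
    (∀ w ∈ V₁ ⊔ V₂, Integral₂ s₁ s₂ w → ∃ l : A, ∃ u₁ u₂ : F, u₁ ∈ V₁ ∧ u₂ ∈ V₂ ∧
      Integral₂ s₁ s₂ u₁ ∧ Integral₂ s₁ s₂ u₂ ∧ w = (l : L) • r + u₁ + u₂ ∧
      (rd₂ s₁ s₂ w = 0 → π l = 0 ∧ rd₂ s₁ s₂ u₁ + rd₂ s₁ s₂ u₂ = 0)) ∧
    ∀ p, p ∈ redSpace s₁ s₂ hπs V₁ → p ∈ redSpace s₁ s₂ hπs V₂ →
      ∃ (a : A) (h h' : F), h ∈ V₁ ∧ h' ∈ V₂ ∧ Integral₂ s₁ s₂ h ∧ Integral₂ s₁ s₂ h' ∧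
        rd₂ s₁ s₂ h = p ∧ rd₂ s₁ s₂ h' = p ∧ π a = 0 ∧ h' - h = (a : L) • r := by
  classical
  haveI := (finite_redSpace (s₁ := s₁) (s₂ := s₂) hπs hπ V₁).1
  haveI := (finite_redSpace (s₁ := s₁) (s₂ := s₂) hπs hπ V₂).1
  set R₁ := redSpace s₁ s₂ hπs V₁ with hR₁
  set R₂ := redSpace s₁ s₂ hπs V₂ with hR₂
  let b := Module.finBasis k ↥(R₁ ⊔ R₂)
  choose p₁ hp₁ p₂ hp₂ hp using fun j => Submodule.mem_sup.mp (b j).2
  choose u₁ hu₁V hu₁i hu₁ using fun j => hp₁ j
  choose u₂ hu₂V hu₂i hu₂ using fun j => hp₂ j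
  let fam : Option (Fin (Module.finrank k ↥(R₁ ⊔ R₂))) → F :=
    fun o => o.elim r fun j => u₁ j + u₂ j
  have hfi : ∀ o, Integral₂ s₁ s₂ (fam o) := by
    rintro (_ | j)
    exacts [hri, (hu₁i j).add (hu₂i j)]
  have hfr : ∀ j, rd₂ s₁ s₂ (u₁ j + u₂ j) = (b j : Kb × Kb) := fun j => by
    rw [rd₂_add (hu₁i j) (hu₂i j), hu₁ j, hu₂ j, hp j]
  have hli : LinearIndependent k fun o => rd₂ s₁ s₂ (fam o) := by
    rw [linearIndependent_option]
    constructor
    · have : LinearIndependent k (fun j => (b j : Kb × Kb)) :=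
        b.linearIndependent.map' (R₁ ⊔ R₂).subtype (Submodule.ker_subtype _)
      simpa [Function.comp_def, fam, hfr] using this
    · intro hmem
      refine hrn ((Submodule.span_le.mpr ?_) hmem)
      rintro _ ⟨j, rfl⟩
      simp only [Function.comp_apply, fam, Option.elim_some, hfr]
      exact (b j).2
  have hmemV : ∀ o, fam o ∈ V₁ ⊔ V₂ := by
    rintro (_ | j)
    exacts [hr, Submodule.add_mem_sup (hu₁V j) (hu₂V j)]
  have hspan : Submodule.span L (Set.range fam) = V₁ ⊔ V₂ := by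
    refine Submodule.eq_of_le_of_finrank_eq
      (Submodule.span_le.mpr (by rintro _ ⟨o, rfl⟩; exact hmemV o)) ?_
    rw [finrank_span_eq_card (linearIndependent_of_rd₂ hπ hfi hli), Fintype.card_option,
      Fintype.card_fin, hdim]
  have hdec : ∀ w ∈ V₁ ⊔ V₂, Integral₂ s₁ s₂ w →
      ∃ c : Option (Fin (Module.finrank k ↥(R₁ ⊔ R₂))) → A,
        w = ∑ o, (c o : L) • fam o ∧ (rd₂ s₁ s₂ w = 0 → ∀ o, π (c o) = 0) := by
    intro w hw hwi
    rw [← hspan, Submodule.mem_span_range_iff_exists_fun] at hw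
    obtain ⟨c, hc⟩ := hw
    have hcA := coeff_mem_of_integral hπ hfi hli c (hc ▸ hwi)
    refine ⟨fun o => ⟨c o, hcA o⟩, hc.symm, fun h0 => ?_⟩
    rw [← hc, rd₂_sum _ _ fun o _ => (hfi o).smul (hcA o)] at h0
    simp only [fun o => rd₂_smul (hcA o) (hfi o)] at h0
    exact Fintype.linearIndependent_iff.mp hli _ h0
  have hsplit : ∀ c : Option (Fin (Module.finrank k ↥(R₁ ⊔ R₂))) → A,
      ∑ o, (c o : L) • fam o = (c none : L) • r + ∑ j, (c (some j) : L) • u₁ j +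
        ∑ j, (c (some j) : L) • u₂ j := fun c => by
    simp [Fintype.sum_option, fam, smul_add, Finset.sum_add_distrib, add_assoc]
  constructor
  · intro w hw hwi
    obtain ⟨c, hc, hc0⟩ := hdec w hw hwi
    refine ⟨c none, _, _, Submodule.sum_mem _ fun j _ => V₁.smul_mem _ (hu₁V j),
      Submodule.sum_mem _ fun j _ => V₂.smul_mem _ (hu₂V j),
      Integral₂.sum _ fun j _ => (hu₁i j).smul (c (some j)).2,
      Integral₂.sum _ fun j _ => (hu₂i j).smul (c (some j)).2, hc.trans (hsplit c), fun h0 => ?_⟩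
    refine ⟨hc0 h0 none, ?_⟩
    rw [rd₂_sum _ _ fun j _ => (hu₁i j).smul (c (some j)).2,
      rd₂_sum _ _ fun j _ => (hu₂i j).smul (c (some j)).2]
    simp only [fun j => rd₂_smul (c (some j)).2 (hu₁i j), fun j => rd₂_smul (c (some j)).2 (hu₂i j)]
    simp [hc0 h0]
  · rintro p ⟨h₀, hh₀, hh₀i, hh₀r⟩ ⟨h₀', hh₀', hh₀i', hh₀r'⟩
    have hw : h₀' - h₀ ∈ V₁ ⊔ V₂ :=
      Submodule.sub_mem _ (Submodule.mem_sup_right hh₀') (Submodule.mem_sup_left hh₀)
    have hwr : rd₂ s₁ s₂ (h₀' - h₀) = 0 := by rw [rd₂_sub hh₀i' hh₀i, hh₀r', hh₀r, sub_self]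
    obtain ⟨c, hc, hc0⟩ := hdec _ hw (hh₀i'.sub hh₀i)
    have hz := hc0 hwr
    have hi1 : Integral₂ s₁ s₂ (∑ j, (c (some j) : L) • u₁ j) :=
      Integral₂.sum _ fun j _ => (hu₁i j).smul (c (some j)).2
    have hi2 : Integral₂ s₁ s₂ (∑ j, (c (some j) : L) • u₂ j) :=
      Integral₂.sum _ fun j _ => (hu₂i j).smul (c (some j)).2
    refine ⟨c none, h₀ + ∑ j, (c (some j) : L) • u₁ j, h₀' - ∑ j, (c (some j) : L) • u₂ j,
      V₁.add_mem hh₀ (Submodule.sum_mem _ fun j _ => V₁.smul_mem _ (hu₁V j)),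
      V₂.sub_mem hh₀' (Submodule.sum_mem _ fun j _ => V₂.smul_mem _ (hu₂V j)),
      hh₀i.add hi1, hh₀i'.sub hi2, ?_, ?_, hz none, ?_⟩
    · rw [rd₂_add hh₀i hi1, hh₀r, rd₂_sum _ _ fun j _ => (hu₁i j).smul (c (some j)).2]
      simp only [fun j => rd₂_smul (c (some j)).2 (hu₁i j)]
      simp [hz]
    · rw [rd₂_sub hh₀i' hi2, hh₀r', rd₂_sum _ _ fun j _ => (hu₂i j).smul (c (some j)).2]
      simp only [fun j => rd₂_smul (c (some j)).2 (hu₂i j)]
      simp [hz]
    · rw [hsplit] at hc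
      linear_combination hc

namespace MonoDatum

variable {q : ℕ} (M : MonoDatum π F Kb q)

theorem pow_mul_mem_rr {D : Divisor L F} {n : ℕ} (C : M.Chart) (b : ℕ) {f : F}
    (hf : f ∈ riemannRochSpace (D + n • M.Px)) :
    C.T ^ b * f ∈ riemannRochSpace (D + (n + b) • M.Px) := by
  have hT : C.T ∈ riemannRochSpace M.Px := by
    rw [mem_riemannRochSpace_iff]
    intro v
    right
    have := C.Px_eq v
    omega
  induction b with
  | zero => simpa using hf
  | succ b ih =>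
    rw [← Nat.add_assoc, succ_nsmul, ← add_assoc, pow_succ, mul_right_comm]
    exact mul_mem_riemannRochSpace ih hT

theorem space_le_left (C : M.Chart) (D : Divisor L F) (a b : ℕ) :
    C.space D a 0 ≤ C.space D a b := fun f hf => by
  rw [C.space_zero] at hf
  exact C.mem_space.mpr (M.pow_mul_mem_rr C b hf)

theorem space_le_right (C : M.Chart) (D : Divisor L F) (a b : ℕ) :
    C.space D 0 b ≤ C.space D a b := fun f hf => by
  rw [C.mem_space] at hf ⊢
  exact riemannRochSpace_mono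
    (add_le_add le_rfl (nsmul_le_nsmul_left M.Px_nonneg (by omega))) hf

theorem space_mono_left (C : M.Chart) (D : Divisor L F) {a a' : ℕ} (h : a ≤ a') :
    C.space D a 0 ≤ C.space D a' 0 := by
  rw [C.space_zero, C.space_zero]
  exact riemannRochSpace_mono (add_le_add le_rfl (nsmul_le_nsmul_left M.Px_nonneg h))

theorem space_mono_right (C : M.Chart) (D : Divisor L F) {b b' : ℕ} (h : b ≤ b') :
    C.space D 0 b ≤ C.space D 0 b' := fun f hf => by
  obtain ⟨e, rfl⟩ := Nat.exists_eq_add_of_le h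
  rw [C.mem_space, zero_add] at hf ⊢
  rw [pow_add, mul_comm (C.T ^ b), mul_assoc]
  exact M.pow_mul_mem_rr C e hf

theorem space_inter (C : M.Chart) {D : Divisor L F} {N : ℕ} {f : F}
    (h1 : f ∈ C.space D N 0) (h2 : f ∈ C.space D 0 N) : f ∈ riemannRochSpace D := by
  rw [C.space_zero] at h1
  rw [C.mem_space, zero_add] at h2
  exact mem_rr_of_pow_mul_mem C.T_ne C.Px_eq h1 h2

theorem one_mem_space (C : M.Chart) (a b : ℕ) : (1 : F) ∈ C.space 0 a b := by
  refine C.mem_space.mpr ?_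
  rw [Nat.add_comm]
  refine riemannRochSpace_mono (add_le_add le_rfl (nsmul_le_nsmul_left M.Px_nonneg (Nat.le_add_right b a))) ?_
  simpa using M.pow_mul_mem_rr C b (D := 0) (n := 0) (f := (1 : F))
    (by simpa using one_mem_riemannRochSpace (K := L) (F := F) le_rfl)

theorem finrank_inf_zero (C : M.Chart) (N : ℕ) :
    Module.finrank L ↥(C.space 0 N 0 ⊓ C.space 0 0 N) = 1 := by
  have : C.space 0 N 0 ⊓ C.space 0 0 N = L ∙ (1 : F) := by
    refine le_antisymm (fun f hf => ?_) ?_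
    · obtain ⟨c, rfl⟩ := M.rrF.exists_eq_algebraMap (M.space_inter C hf.1 hf.2)
      rw [Algebra.algebraMap_eq_smul_one]
      exact Submodule.smul_mem _ c (Submodule.mem_span_singleton_self _)
    · rw [Submodule.span_singleton_le_iff_mem]
      exact ⟨M.one_mem_space C N 0, M.one_mem_space C 0 N⟩
  rw [this, finrank_span_singleton one_ne_zero]

section

variable [IsAlgClosed k]

theorem exists_level_glue : ∃ N : ℕ, 1 ≤ N ∧ ∀ (C : M.Chart) (a b : ℕ), N ≤ a + b →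
    M.red (C.space 0 a b) = C.glue a b := by
  obtain ⟨N, hN, h⟩ := M.exists_level
  refine ⟨N, hN, fun C a b hab => C.red_space_eq (fun n hn => ?_) hab⟩
  rw [← (h n hn).1, twistLevel, redLevel, zero_add]

omit [IsAlgClosed k] in
theorem exists_extra (C : M.Chart) (D : Divisor L F) (N : ℕ) {i j : ℕ}
    (hi : Module.finrank L ↥(C.space D N 0 ⊓ C.space D 0 N) = i)
    (hj : Module.finrank k ↥(M.red (C.space D N 0) ⊓ M.red (C.space D 0 N)) = j)
    (hij : j = i + 1) :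
    ∃ r, r ∈ C.space D N 0 ⊔ C.space D 0 N ∧ Integral₂ M.s₁ M.s₂ r ∧
      rd₂ M.s₁ M.s₂ r ∉ M.red (C.space D N 0) ⊔ M.red (C.space D 0 N) ∧
      Module.finrank L ↥(C.space D N 0 ⊔ C.space D 0 N) =
        Module.finrank k ↥(M.red (C.space D N 0) ⊔ M.red (C.space D 0 N)) + 1 := by
  haveI := (C.space_equiv D N 0).1
  haveI := (C.space_equiv D 0 N).1
  obtain ⟨_, e1⟩ := M.finrank_red (C.space_equiv D N 0).1
  obtain ⟨_, e2⟩ := M.finrank_red (C.space_equiv D 0 N).1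
  obtain ⟨hfin, e3⟩ := M.finrank_red (V := C.space D N 0 ⊔ C.space D 0 N) inferInstance
  have f1 := Submodule.finrank_sup_add_finrank_inf_eq (C.space D N 0) (C.space D 0 N)
  have f2 := Submodule.finrank_sup_add_finrank_inf_eq (M.red (C.space D N 0)) (M.red (C.space D 0 N))
  have hle : M.red (C.space D N 0) ⊔ M.red (C.space D 0 N) ≤
      M.red (C.space D N 0 ⊔ C.space D 0 N) :=
    sup_le (redSpace_mono M.π_surjective le_sup_left) (redSpace_mono M.π_surjective le_sup_right)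
  obtain ⟨p, hp, hpn⟩ := SetLike.exists_of_lt (lt_of_le_of_ne hle fun h => by
    rw [h] at f2
    omega)
  obtain ⟨r, hr, hri, rfl⟩ := hp
  exact ⟨r, hr, hri, hpn, by omega⟩

/-- The two sheets meet. -/
theorem nodes_nonempty : M.nodes.Nonempty := by
  by_contra hne
  rw [Set.not_nonempty_iff_eq_empty] at hne
  obtain ⟨N, hN1, hN⟩ := M.exists_level_glue
  obtain ⟨C⟩ := M.nonempty_chart
  have hscale : ∀ {n : ℕ} (a b : k) {f : Kb × Kb}, f ∈ M.gl one' n →
      (a • f.1, b • f.2) ∈ M.gl one' n := fun a b f hf =>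
    ⟨Submodule.smul_mem _ a hf.1, Submodule.smul_mem _ b hf.2.1, fun z hz => by simp [hne] at hz⟩
  have hscale' : ∀ {x y : ℕ} (a b : k) {f : Kb × Kb}, f ∈ C.glue x y →
      (a • f.1, b • f.2) ∈ C.glue x y := by
    intro x y a b f hf
    rw [C.mem_glue] at hf ⊢
    convert hscale a b hf using 1
    simp [Prod.ext_iff]
  have hone : ∀ x y : ℕ, N ≤ x + y → ∀ a b : k,
      (algebraMap k Kb a, algebraMap k Kb b) ∈ C.glue x y := by
    intro x y hxy a b
    have h1 : (1 : Kb × Kb) ∈ C.glue x y := by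
      rw [← hN C x y hxy]
      exact ⟨1, M.one_mem_space C x y, integral₂_one, rd₂_one⟩
    simpa [Algebra.algebraMap_eq_smul_one] using hscale' a b h1
  have hred2 : ∀ n, N ≤ n → Module.finrank k
      ↥(M.red (C.space 0 n 0) ⊓ M.red (C.space 0 0 n)) = 2 := by
    intro n hn
    rw [hN C n 0 (by omega), hN C 0 n (by omega)]
    let ψ : (k × k) →ₗ[k] ↥(C.glue n 0 ⊓ C.glue 0 n) :=
      LinearMap.codRestrict _ (LinearMap.prodMap (Algebra.linearMap k Kb) (Algebra.linearMap k Kb))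
        fun x => ⟨hone n 0 (by omega) x.1 x.2, hone 0 n (by omega) x.1 x.2⟩
    have hbij : Function.Bijective ψ := by
      constructor
      · intro x y h
        have h' := congrArg Subtype.val h
        exact Prod.ext ((algebraMap k Kb).injective (congrArg Prod.fst h'))
          ((algebraMap k Kb).injective (congrArg Prod.snd h'))
      · rintro ⟨f, hf1, hf2⟩
        obtain ⟨a, b, rfl, -⟩ := C.glue_inter hf1 hf2
        exact ⟨(a, b), rfl⟩
    rw [← (LinearEquiv.ofBijective ψ hbij).finrank_eq, Module.finrank_prod, Module.finrank_self]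
  haveI := (C.space_equiv 0 N 0).1
  haveI := (C.space_equiv 0 0 N).1
  haveI := (C.space_equiv 0 (2 * N) 0).1
  haveI := (C.space_equiv 0 0 (2 * N)).1
  obtain ⟨r, hr, hri, hrn, hdim⟩ := M.exists_extra C 0 N (M.finrank_inf_zero C N) (hred2 N le_rfl) rfl
  have hpe : ∀ n, N ≤ n → ((1, 0) : Kb × Kb) ∈ M.red (C.space 0 n 0) ∧
      ((1, 0) : Kb × Kb) ∈ M.red (C.space 0 0 n) := fun n hn => by
    rw [hN C n 0 (by omega), hN C 0 n (by omega)]
    exact ⟨by simpa using hone n 0 (by omega) 1 0, by simpa using hone 0 n (by omega) 1 0⟩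
  obtain ⟨-, hadj⟩ := exists_decomposition M.π_surjective M.π_eq_zero _ _ hr hri hrn hdim
  obtain ⟨a, h, h', hh, hh', hhi, hhi', hhr, hhr', ha0, hdiff⟩ :=
    hadj _ (hpe N le_rfl).1 (hpe N le_rfl).2
  have hrsplit : rd₂ M.s₁ M.s₂ r ∉
      M.red (C.space 0 (2 * N) 0) ⊔ M.red (C.space 0 0 (2 * N)) := by
    rw [hN C (2 * N) 0 (by omega), hN C 0 (2 * N) (by omega)]
    intro hmem
    obtain ⟨f₁, hf₁, f₂, hf₂, hsum⟩ := Submodule.mem_sup.mp hmem
    have hNN : rd₂ M.s₁ M.s₂ r ∈ C.glue N N := by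
      rw [← hN C N N (by omega)]
      exact rd₂_mem_redSpace M.π_surjective
        (sup_le (M.space_le_left C 0 N N) (M.space_le_right C 0 N N) hr) hri
    obtain ⟨g1, g2⟩ := C.glue_split hNN hf₁ hf₂ hsum.symm
    apply hrn
    rw [hN C N 0 (by omega), hN C 0 N (by omega), ← hsum]
    exact Submodule.add_mem_sup g1 g2
  have hle1 := M.space_mono_left C 0 (show N ≤ 2 * N by omega)
  have hle2 := M.space_mono_right C 0 (show N ≤ 2 * N by omega)
  have hr2 : r ∈ C.space 0 (2 * N) 0 ⊔ C.space 0 0 (2 * N) := sup_le_sup hle1 hle2 hr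
  obtain ⟨r', hr', hri', hrn', hdim2⟩ :=
    M.exists_extra C 0 (2 * N) (M.finrank_inf_zero C _) (hred2 _ (by omega)) rfl
  obtain ⟨hdec, -⟩ := exists_decomposition M.π_surjective M.π_eq_zero _ _ hr2 hri hrsplit hdim2
  have ha : (a : L) ≠ 0 := by
    intro h0
    rw [h0, zero_smul, sub_eq_zero] at hdiff
    obtain ⟨c, hc⟩ := M.rrF.exists_eq_algebraMap (M.space_inter C hh (hdiff ▸ hh'))
    have hcA : c ∈ A := Sheet.mem_of_algebraMap_mem (s := M.s₁) M.π_eq_zero (hc ▸ hhi.1)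
    rw [hc] at hhr
    simp only [rd₂, Sheet.rd_algebraMap hcA, Prod.ext_iff] at hhr
    exact one_ne_zero (hhr.1.symm.trans hhr.2)
  have hG : h ^ 2 - h ∈ C.space 0 (2 * N) 0 := by
    refine Submodule.sub_mem _ ?_ (hle1 hh)
    rw [C.space_zero] at hh ⊢
    rw [sq, two_mul, add_nsmul, zero_add]
    rw [zero_add] at hh
    exact mul_mem_riemannRochSpace hh hh
  have hG' : h' ^ 2 - h' ∈ C.space 0 0 (2 * N) := by
    refine Submodule.sub_mem _ ?_ (hle2 hh')
    rw [C.mem_space, zero_add, zero_add] at hh' ⊢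
    rw [two_mul, pow_add, sq, mul_mul_mul_comm, add_nsmul]
    exact mul_mem_riemannRochSpace hh' hh'
  set ρ := r * (h + h' - 1) with hρ
  have hρi : Integral₂ M.s₁ M.s₂ ρ := hri.mul ((hhi.add hhi').sub integral₂_one)
  have hρeq : (a : L) • ρ = (h' ^ 2 - h') - (h ^ 2 - h) := by
    rw [hρ, ← smul_mul_assoc, ← hdiff]; ring
  have hρmem : ρ ∈ C.space 0 (2 * N) 0 ⊔ C.space 0 0 (2 * N) := by
    rw [← inv_smul_smul₀ ha ρ, hρeq]
    exact Submodule.smul_mem _ _
      (Submodule.sub_mem _ (Submodule.mem_sup_right hG') (Submodule.mem_sup_left hG))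
  obtain ⟨l, u₁, u₂, hu₁, hu₂, hu₁i, hu₂i, heq, -⟩ := hdec ρ hρmem hρi
  set γ := (h ^ 2 - h) - (l : L) • h + (a : L) • u₁ with hγ
  have hγ' : γ = (h' ^ 2 - h') - (l : L) • h' - (a : L) • u₂ := by
    rw [heq, smul_add, smul_add, smul_comm (a : L) (l : L) r, ← hdiff, smul_sub] at hρeq
    rw [hγ]
    linear_combination hρeq
  have hγ1 : γ ∈ C.space 0 (2 * N) 0 :=
    Submodule.add_mem _ (Submodule.sub_mem _ hG (Submodule.smul_mem _ _ (hle1 hh)))
      (Submodule.smul_mem _ _ hu₁)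
  have hγ2 : γ ∈ C.space 0 0 (2 * N) := by
    rw [hγ']
    exact Submodule.sub_mem _ (Submodule.sub_mem _ hG' (Submodule.smul_mem _ _ (hle2 hh')))
      (Submodule.smul_mem _ _ hu₂)
  obtain ⟨c, hc⟩ := M.rrF.exists_eq_algebraMap (M.space_inter C hγ1 hγ2)
  have hGi := (hhi.pow 2).sub hhi
  have hγi : Integral₂ M.s₁ M.s₂ γ := (hGi.sub (hhi.smul l.2)).add (hu₁i.smul a.2)
  have hcA : c ∈ A := Sheet.mem_of_algebraMap_mem (s := M.s₁) M.π_eq_zero (hc ▸ hγi.1)
  have hrdγ : rd₂ M.s₁ M.s₂ γ = -(π l • ((1, 0) : Kb × Kb)) := by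
    rw [hγ, rd₂_add (hGi.sub (hhi.smul l.2)) (hu₁i.smul a.2), rd₂_sub hGi (hhi.smul l.2),
      rd₂_sub (hhi.pow 2) hhi, rd₂_pow hhi, rd₂_smul l.2 hhi, rd₂_smul a.2 hu₁i, hhr,
      show π ⟨(a : L), a.2⟩ = 0 from ha0, zero_smul, add_zero]
    simp [sq]
  rw [hc] at hrdγ
  have hc2 := congrArg Prod.snd hrdγ
  have hc1 := congrArg Prod.fst hrdγ
  simp only [rd₂, Sheet.rd_algebraMap hcA, Prod.fst_neg, Prod.snd_neg, Prod.smul_fst,
    Prod.smul_snd, smul_zero, neg_zero, map_eq_zero] at hc1 hc2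
  rw [hc2, map_zero, eq_comm, neg_eq_zero, ← Algebra.algebraMap_eq_smul_one, map_eq_zero] at hc1
  have hρbar : rd₂ M.s₁ M.s₂ ρ ∈ M.red (C.space 0 (2 * N) 0) ⊔ M.red (C.space 0 0 (2 * N)) := by
    rw [heq, rd₂_add ((hri.smul l.2).add hu₁i) hu₂i, rd₂_add (hri.smul l.2) hu₁i,
      rd₂_smul l.2 hri, show π ⟨(l : L), l.2⟩ = 0 from hc1, zero_smul, zero_add]
    exact Submodule.add_mem_sup (rd₂_mem_redSpace M.π_surjective hu₁ hu₁i)
      (rd₂_mem_redSpace M.π_surjective hu₂ hu₂i)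
  apply hrsplit
  rw [hN C (2 * N) 0 (by omega), hN C 0 (2 * N) (by omega)] at hρbar ⊢
  obtain ⟨f₁, hf₁, f₂, hf₂, hsum⟩ := Submodule.mem_sup.mp hρbar
  have hgoal : rd₂ M.s₁ M.s₂ r =
      ((1 : k) • f₁.1, (-1 : k) • f₁.2) + ((1 : k) • f₂.1, (-1 : k) • f₂.2) := by
    rw [hρ, rd₂_mul hri ((hhi.add hhi').sub integral₂_one),
      rd₂_sub (hhi.add hhi') integral₂_one, rd₂_add hhi hhi', hhr, hhr', rd₂_one] at hsum
    have s1 := congrArg Prod.fst hsum
    have s2 := congrArg Prod.snd hsum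
    simp only [Prod.fst_add, Prod.snd_add, Prod.fst_mul, Prod.snd_mul, Prod.fst_sub, Prod.snd_sub,
      Prod.fst_one, Prod.snd_one] at s1 s2
    refine Prod.ext ?_ ?_
    · simp only [Prod.fst_add, one_smul]
      rw [s1]; ring
    · simp only [Prod.snd_add, neg_smul, one_smul]
      linear_combination s2
  rw [hgoal]
  exact Submodule.add_mem_sup (hscale' 1 (-1) hf₁) (hscale' 1 (-1) hf₂)

/-- **Injectivity**: a twist with function reducing to one and glued-trivial reductions has a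
nonzero section. -/
theorem rr_ne_bot_of_trivial {d : ℕ} (hd : 1 ≤ d) (hdk : (d : k) ≠ 0) (T : M.Twist d)
    (hg : rd₂ M.s₁ M.s₂ T.g = 1)
    (hdiag : ∀ z ∈ M.nodes, ∃ m, ∃ f ∈ M.twistLevel T.D m,
      valAt z.1 f.1 ≠ 0 ∧ valAt z.1 f.1 = valAt z.2 f.2) :
    riemannRochSpace T.D ≠ ⊥ := by
  intro hbot
  obtain ⟨N₁, hN₁, hlev⟩ := exists_twist_level_eq_one T hd hdiag
  obtain ⟨N₂, hN₂, hN⟩ := M.exists_level_glue
  set N := max N₁ N₂ with hNdef
  have hN1 : N₁ ≤ N := le_max_left _ _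
  have hN2 : N₂ ≤ N := le_max_right _ _
  have hNdN : N ≤ d * N := Nat.le_mul_of_pos_left _ hd
  obtain ⟨C⟩ := M.nonempty_chart
  have hred : ∀ a b, N ≤ a + b → M.red (C.space T.D a b) = C.glue a b := fun a b hab =>
    C.red_space_eq (fun n hn => hlev n hn) (hN1.trans hab)
  have hinterL : C.space T.D N 0 ⊓ C.space T.D 0 N = ⊥ := by
    rw [eq_bot_iff]
    intro f hf
    rw [← hbot]
    exact M.space_inter C hf.1 hf.2
  have hgl1 : ∀ a b, N₂ ≤ a + b → (1 : Kb × Kb) ∈ C.glue a b := fun a b hab => by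
    rw [← hN C a b hab]
    exact ⟨1, M.one_mem_space C a b, integral₂_one, rd₂_one⟩
  have hred1 : ∀ n, N₂ ≤ n → Module.finrank k ↥(C.glue n 0 ⊓ C.glue 0 n) = 1 := by
    intro n hn
    have : C.glue n 0 ⊓ C.glue 0 n = k ∙ (1 : Kb × Kb) := by
      refine le_antisymm (fun f hf => ?_) ?_
      · obtain ⟨a, b, rfl, hab⟩ := C.glue_inter hf.1 hf.2
        rw [← hab M.nodes_nonempty, show ((algebraMap k Kb a, algebraMap k Kb a) : Kb × Kb) =
          a • (1 : Kb × Kb) by simp [Algebra.algebraMap_eq_smul_one, Prod.ext_iff]]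
        exact Submodule.smul_mem _ a (Submodule.mem_span_singleton_self _)
      · rw [Submodule.span_singleton_le_iff_mem]
        exact ⟨hgl1 n 0 (by omega), hgl1 0 n (by omega)⟩
    rw [this, finrank_span_singleton one_ne_zero]
  haveI := (C.space_equiv T.D N 0).1
  haveI := (C.space_equiv T.D 0 N).1
  obtain ⟨r, hr, hri, hrn, hdim⟩ := M.exists_extra C T.D N (i := 0) (j := 1)
    (by rw [hinterL]; exact finrank_bot L F)
    (by rw [hred N 0 (by omega), hred 0 N (by omega)]; exact hred1 N hN2) rfl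
  obtain ⟨-, hadj⟩ := exists_decomposition M.π_surjective M.π_eq_zero _ _ hr hri hrn hdim
  obtain ⟨a, h, h', hh, hh', hhi, hhi', hhr, hhr', -, hdiff⟩ := hadj 1
    (by show _ ∈ M.red _; rw [hred N 0 (by omega)]; exact hgl1 N 0 (by omega))
    (by show _ ∈ M.red _; rw [hred 0 N (by omega)]; exact hgl1 0 N (by omega))
  have ha : (a : L) ≠ 0 := by
    intro h0
    rw [h0, zero_smul, sub_eq_zero] at hdiff
    have : h ∈ C.space T.D N 0 ⊓ C.space T.D 0 N := ⟨hh, hdiff ▸ hh'⟩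
    rw [hinterL, Submodule.mem_bot] at this
    rw [this, rd₂_zero] at hhr
    exact zero_ne_one hhr
  have hG : h ^ d * T.g ∈ C.space 0 (d * N) 0 := by
    rw [C.space_zero] at hh ⊢
    rw [zero_add]
    exact T.pow_mul_mem hh
  have hG' : h' ^ d * T.g ∈ C.space 0 0 (d * N) := by
    rw [C.mem_space, zero_add] at hh' ⊢
    rw [zero_add, mul_comm d N, pow_mul, ← mul_assoc, ← mul_pow, mul_comm N d]
    exact T.pow_mul_mem hh'
  set ρ := T.g * r * ∑ i ∈ Finset.range d, h' ^ i * h ^ (d - 1 - i) with hρ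
  have hsumi : Integral₂ M.s₁ M.s₂ (∑ i ∈ Finset.range d, h' ^ i * h ^ (d - 1 - i)) :=
    Integral₂.sum _ fun i _ => (hhi'.pow i).mul (hhi.pow _)
  have hρi : Integral₂ M.s₁ M.s₂ ρ := (T.g_int.mul hri).mul hsumi
  have hρeq : (a : L) • ρ = h' ^ d * T.g - h ^ d * T.g := by
    rw [hρ, mul_comm T.g r, mul_assoc, ← smul_mul_assoc, ← hdiff, ← sub_mul, ← geom_sum₂_mul]
    ring
  have hρmem : ρ ∈ C.space 0 (d * N) 0 ⊔ C.space 0 0 (d * N) := by
    rw [← inv_smul_smul₀ ha ρ, hρeq]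
    exact Submodule.smul_mem _ _
      (Submodule.sub_mem _ (Submodule.mem_sup_right hG') (Submodule.mem_sup_left hG))
  have hρr : rd₂ M.s₁ M.s₂ ρ = (d : k) • rd₂ M.s₁ M.s₂ r := by
    rw [hρ, rd₂_mul (T.g_int.mul hri) hsumi, rd₂_mul T.g_int hri, hg, one_mul,
      rd₂_sum _ _ fun i _ => (hhi'.pow i).mul (hhi.pow _)]
    simp only [fun i => rd₂_mul (hhi'.pow i) (hhi.pow (d - 1 - i)), rd₂_pow hhi', rd₂_pow hhi,
      hhr', hhr, one_pow, mul_one, Finset.sum_const, Finset.card_range, nsmul_one]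
    rw [mul_comm, ← nsmul_eq_mul, ← Nat.cast_smul_eq_nsmul k]
  haveI := (C.space_equiv 0 (d * N) 0).1
  haveI := (C.space_equiv 0 0 (d * N)).1
  have hsup : M.red (C.space 0 (d * N) 0) ⊔ M.red (C.space 0 0 (d * N)) =
      M.red (C.space 0 (d * N) 0 ⊔ C.space 0 0 (d * N)) := by
    obtain ⟨_, e1⟩ := M.finrank_red (C.space_equiv 0 (d * N) 0).1
    obtain ⟨_, e2⟩ := M.finrank_red (C.space_equiv 0 0 (d * N)).1
    obtain ⟨_, e3⟩ :=
      M.finrank_red (V := C.space 0 (d * N) 0 ⊔ C.space 0 0 (d * N)) inferInstance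
    have f1 := Submodule.finrank_sup_add_finrank_inf_eq (C.space 0 (d * N) 0) (C.space 0 0 (d * N))
    have f2 := Submodule.finrank_sup_add_finrank_inf_eq (M.red (C.space 0 (d * N) 0))
      (M.red (C.space 0 0 (d * N)))
    have f3 := M.finrank_inf_zero C (d * N)
    have f4 : Module.finrank k
        ↥(M.red (C.space 0 (d * N) 0) ⊓ M.red (C.space 0 0 (d * N))) = 1 := by
      rw [hN C (d * N) 0 (by omega), hN C 0 (d * N) (by omega)]
      exact hred1 _ (by omega)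
    exact Submodule.eq_of_le_of_finrank_eq
      (sup_le (redSpace_mono M.π_surjective le_sup_left) (redSpace_mono M.π_surjective le_sup_right))
      (by omega)
  have hmem : rd₂ M.s₁ M.s₂ r ∈ C.glue (d * N) 0 ⊔ C.glue 0 (d * N) := by
    rw [← hN C (d * N) 0 (by omega), ← hN C 0 (d * N) (by omega), hsup]
    have := rd₂_mem_redSpace M.π_surjective hρmem hρi
    rwa [hρr, Submodule.smul_mem_iff _ hdk] at this
  obtain ⟨f₁, hf₁, f₂, hf₂, hsum⟩ := Submodule.mem_sup.mp hmem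
  have hNN : rd₂ M.s₁ M.s₂ r ∈ C.glue N N := by
    rw [← hred N N (by omega)]
    exact rd₂_mem_redSpace M.π_surjective
      (sup_le (M.space_le_left C T.D N N) (M.space_le_right C T.D N N) hr) hri
  obtain ⟨g1, g2⟩ := C.glue_split hNN hf₁ hf₂ hsum.symm
  apply hrn
  rw [hred N 0 (by omega), hred 0 N (by omega), ← hsum]
  exact Submodule.add_mem_sup g1 g2

end

end MonoDatum

end FermatLib.Igusa.Mono
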