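/-
Frobenius is injective on the glueing classes with split components.
-/
import Fermat.Agent.Igusa.MonoConnected

/-!
# Split pairs and Frobenius

A glued pair whose components split into a part with poles at `x = ∞` and a part with poles at
`x = c`, and whose `p`-th power splits as glued pairs, splits itself.
-/

set_option autoImplicit false
set_option linter.style.haveILetI false

noncomputable section

open AlgebraicCurve

namespace FermatLib.Igusa.Mono

universe uL uF uk uKb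

namespace MonoDatum

variable {L : Type uL} {k : Type uk} [Field L] [Field k] [IsAlgClosed k] {A : ValuationSubring L}
  {π : A →+* k}
  {F : Type uF} {Kb : Type uKb} [Field F] [Algebra L F] [Field Kb] [Algebra k Kb] {q : ℕ}
  (M : MonoDatum π F Kb q)

/-- `r` splits on each sheet into poles at `x = ∞` and poles at `x = c`. -/
def ComponentSplit (C : M.Chart) (r : Kb × Kb) : Prop :=
  ∃ (K : ℕ) (u v : Kb × Kb), r = u + v ∧
    u.1 ∈ riemannRochSpace (K • M.P₁) ∧ u.2 ∈ riemannRochSpace (K • M.P₂) ∧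
    (rd₂ M.s₁ M.s₂ C.T).1 ^ K * v.1 ∈ riemannRochSpace (K • M.P₁) ∧
    (rd₂ M.s₁ M.s₂ C.T).2 ^ K * v.2 ∈ riemannRochSpace (K • M.P₂)

omit [IsAlgClosed k] in
theorem rr_pow {u : Kb} {P : Divisor k Kb} {n : ℕ} (h : u ∈ riemannRochSpace (n • P)) (m : ℕ) :
    u ^ m ∈ riemannRochSpace ((m * n) • P) := by
  induction m with
  | zero => simpa using one_mem_riemannRochSpace (K := k) (F := Kb) le_rfl
  | succ m ih =>
    rw [pow_succ, Nat.succ_mul, add_nsmul]
    exact mul_mem_riemannRochSpace ih h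

omit [IsAlgClosed k] in
theorem mul_pow_mem_rr {t u : Kb} {P : Divisor k Kb} (ht : ∀ v, P v = max (-v.ord t) 0) {n : ℕ}
    (h : u ∈ riemannRochSpace (n • P)) (m : ℕ) :
    t ^ m * u ∈ riemannRochSpace ((m + n) • P) := by
  have htP : t ∈ riemannRochSpace (1 • P) := by
    rw [mem_riemannRochSpace_iff]
    intro v
    right
    have := ht v
    rw [one_nsmul]
    omega
  rw [add_nsmul]
  exact mul_mem_riemannRochSpace (by simpa using rr_pow htP m) h

/-- **Frobenius is injective on classes with split components.** -/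
theorem mem_split_of_pow_mem {p : ℕ} [hp : Fact p.Prime] [CharP k p] (C : M.Chart)
    {K₀ N : ℕ} {r : Kb × Kb} (hr : r ∈ C.glue N N) (hs : M.ComponentSplit C r)
    (hpow : r ^ p ∈ C.glue K₀ 0 ⊔ C.glue 0 K₀) :
    r ∈ C.glue N 0 ⊔ C.glue 0 N := by
  haveI : CharP Kb p := charP_of_injective_algebraMap (algebraMap k Kb).injective p
  haveI : CharP (Kb × Kb) p := Prod.charP Kb Kb p
  obtain ⟨K₁, u, v, rfl, hu1, hu2, hv1, hv2⟩ := hs
  obtain ⟨f, hf, f', hf', hsum⟩ := Submodule.mem_sup.mp hpow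
  have hp1 : 1 ≤ p := hp.out.one_lt.le
  rw [C.glue_zero, M.mem_gl_one] at hf
  rw [C.mem_glue, zero_add, M.mem_gl_one] at hf'
  rw [add_pow_char] at hsum
  set t := rd₂ M.s₁ M.s₂ C.T with ht
  set K := p * K₁ + K₀ with hK
  have hconst : ∀ (t₀ : Kb) (P : Divisor k Kb), t₀ ≠ 0 → (∀ w, P w = max (-w.ord t₀) 0) →
      0 ≤ P → ∀ a b c d : Kb, a ^ p + b ^ p = c + d →
      a ∈ riemannRochSpace (K₁ • P) → t₀ ^ K₁ * b ∈ riemannRochSpace (K₁ • P) →
      c ∈ riemannRochSpace (K₀ • P) → t₀ ^ K₀ * d ∈ riemannRochSpace (K₀ • P) →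
      ∃ e : k, a ^ p - c = algebraMap k Kb e := by
    intro t₀ P ht₀ hP hP0 a b c d habcd ha hb hc hd
    have hw : a ^ p - c = d - b ^ p := by linear_combination habcd
    have h1 : a ^ p - c ∈ riemannRochSpace ((0 : Divisor k Kb) + K • P) := by
      rw [zero_add]
      exact Submodule.sub_mem _
        (riemannRochSpace_mono (nsmul_le_nsmul_left hP0 (by omega)) (rr_pow ha p))
        (riemannRochSpace_mono (nsmul_le_nsmul_left hP0 (by omega)) hc)
    have h2 : t₀ ^ K * (a ^ p - c) ∈ riemannRochSpace ((0 : Divisor k Kb) + K • P) := by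
      rw [zero_add, hw, mul_sub]
      refine Submodule.sub_mem _ ?_ ?_
      · have := mul_pow_mem_rr hP hd (p * K₁)
        rwa [← mul_assoc, ← pow_add, ← hK] at this
      · have := mul_pow_mem_rr hP (rr_pow hb p) K₀
        rw [mul_pow, ← pow_mul, ← mul_assoc, ← pow_add, mul_comm K₁ p, add_comm K₀, ← hK] at this
        exact this
    exact M.rrK.exists_eq_algebraMap (mem_rr_of_pow_mul_mem ht₀ hP h1 h2)
  obtain ⟨e₁, he₁⟩ := hconst t.1 M.P₁ C.rd_T_ne.1 C.P₁_eq M.P₁_nonneg u.1 v.1 f.1 f'.1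
    (by simpa using (congrArg Prod.fst hsum).symm) hu1 hv1 hf.1 (by simpa using hf'.1)
  obtain ⟨e₂, he₂⟩ := hconst t.2 M.P₂ C.rd_T_ne.2 C.P₂_eq M.P₂_nonneg u.2 v.2 f.2 f'.2
    (by simpa using (congrArg Prod.snd hsum).symm) hu2 hv2 hf.2.1 (by simpa using hf'.2.1)
  obtain ⟨z₁, hz₁⟩ := IsAlgClosed.exists_pow_nat_eq e₁ hp.out.pos
  obtain ⟨z₂, hz₂⟩ := IsAlgClosed.exists_pow_nat_eq e₂ hp.out.pos
  set u' : Kb × Kb := (u.1 - algebraMap k Kb z₁, u.2 - algebraMap k Kb z₂) with hu'def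
  have hpf : u' ^ p = f := by
    refine Prod.ext ?_ ?_
    · rw [Prod.pow_fst, sub_pow_char, ← map_pow, hz₁, ← he₁, sub_sub_cancel]
    · rw [Prod.pow_snd, sub_pow_char, ← map_pow, hz₂, ← he₂, sub_sub_cancel]
  have hu'rr : ∀ (P : Divisor k Kb), 0 ≤ P → ∀ (a : Kb) (z : k), a ∈ riemannRochSpace (K₁ • P) →
      a - algebraMap k Kb z ∈ riemannRochSpace (K₁ • P) := fun P hP a z ha => by
    refine Submodule.sub_mem _ ha ?_
    rw [Algebra.algebraMap_eq_smul_one]
    exact Submodule.smul_mem _ z (one_mem_riemannRochSpace (nsmul_nonneg hP _))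
  have g1 : u' ∈ C.glue K₁ 0 := by
    rw [C.glue_zero, M.mem_gl_one]
    refine ⟨hu'rr _ M.P₁_nonneg _ _ hu1, hu'rr _ M.P₂_nonneg _ _ hu2, fun z hz => ?_⟩
    have hr1 := rrSpace_nsmul_le_reg M.P₁ K₁ (hu'rr _ M.P₁_nonneg _ z₁ hu1)
    have hr2 : u.2 - algebraMap k Kb z₂ ∈ Reg M.P₁ :=
      M.reg_P₂ ▸ rrSpace_nsmul_le_reg M.P₂ K₁ (hu'rr _ M.P₂_nonneg _ z₂ hu2)
    have h := hf.2.2 z hz
    rw [← hpf, Prod.pow_fst, Prod.pow_snd,
      valAt_pow_reg M.rrK.deg_one hr1 (M.P₁_of_node hz).1,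
      valAt_pow_reg M.rrK.deg_one hr2 (M.P₁_of_node hz).2] at h
    exact frobenius_inj k p h
  have g2 : u + v - u' ∈ C.glue 0 (K₁ + N) := by
    have hK : ∀ (t₀ : Kb) (P : Divisor k Kb), (∀ w, P w = max (-w.ord t₀) 0) →
        ∀ (b : Kb) (z : k), t₀ ^ K₁ * b ∈ riemannRochSpace (K₁ • P) → 0 ≤ P →
        t₀ ^ (K₁ + N) * (b + algebraMap k Kb z) ∈ riemannRochSpace ((K₁ + N) • P) := by
      intro t₀ P hP b z hb hP0
      rw [mul_add]
      refine Submodule.add_mem _ ?_ ?_
      · have := mul_pow_mem_rr hP hb N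
        rwa [← mul_assoc, ← pow_add, add_comm N] at this
      · rw [Algebra.algebraMap_eq_smul_one, mul_smul_comm]
        refine Submodule.smul_mem _ z ?_
        have h1 : (1 : Kb) ∈ riemannRochSpace (0 • P) := by
          simpa using one_mem_riemannRochSpace (K := k) (F := Kb) le_rfl
        simpa using mul_pow_mem_rr hP h1 (K₁ + N)
    have hpair : u + v - u' = (v.1 + algebraMap k Kb z₁, v.2 + algebraMap k Kb z₂) := by
      refine Prod.ext ?_ ?_ <;> simp [hu'def]
    rw [C.mem_glue, zero_add, M.mem_gl_one]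
    refine ⟨?_, ?_, fun z hz => ?_⟩
    · rw [hpair]; simpa using hK t.1 M.P₁ C.P₁_eq v.1 z₁ hv1 M.P₁_nonneg
    · rw [hpair]; simpa using hK t.2 M.P₂ C.P₂_eq v.2 z₂ hv2 M.P₂_nonneg
    · have hreg : ∀ w : Kb × Kb, ∀ a b n : ℕ, w ∈ C.glue a b → b ≤ n →
          rd₂ M.s₁ M.s₂ C.T ^ n * w ∈ M.gl one' (a + n) := by
        intro w a b n hw hbn
        obtain ⟨e, rfl⟩ := Nat.exists_eq_add_of_le hbn
        rw [C.mem_glue] at hw
        induction e with
        | zero => simpa using hw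
        | succ e ih =>
          have hT : rd₂ M.s₁ M.s₂ C.T ∈ M.redLevel 1 := by
            refine rd₂_mem_redSpace M.π_surjective ?_ C.T_int
            rw [mem_riemannRochSpace_iff]
            intro v
            right
            have := C.Px_eq v
            rw [one_nsmul]
            omega
          have ih' := M.mem_gl_one.mp (ih (by omega))
          have hT' := M.mem_gl_one.mp (M.redLevel_le_gl_one le_rfl hT)
          rw [show b + (e + 1) = b + e + 1 by omega, pow_succ, mul_right_comm, M.mem_gl_one]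
          refine ⟨?_, ?_, fun z hz => ?_⟩
          · rw [show a + (b + e + 1) = a + (b + e) + 1 by omega, add_nsmul]
            exact mul_mem_riemannRochSpace ih'.1 hT'.1
          · rw [show a + (b + e + 1) = a + (b + e) + 1 by omega, add_nsmul]
            exact mul_mem_riemannRochSpace ih'.2.1 hT'.2.1
          · rw [Prod.fst_mul, Prod.snd_mul,
              valAt_mul_reg M.rrK.deg_one (rrSpace_nsmul_le_reg _ _ ih'.1)
                (rrSpace_nsmul_le_reg _ _ hT'.1) (M.P₁_of_node hz).1,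
              valAt_mul_reg M.rrK.deg_one (rrSpace_nsmul_le_reg _ _ ih'.2.1)
                (rrSpace_nsmul_le_reg _ _ hT'.2.1) ((M.supp _).mp (M.P₁_of_node hz).2),
              ih'.2.2 z hz, hT'.2.2 z hz]
      have a1 := M.mem_gl_one.mp (hreg _ N N (K₁ + N) hr (by omega))
      have a2 := M.mem_gl_one.mp (hreg _ K₁ 0 (K₁ + N) g1 (Nat.zero_le _))
      rw [mul_sub, Prod.fst_sub, Prod.snd_sub]
      have hz1 := (M.P₁_of_node hz).1
      have hz2 := (M.supp _).mp (M.P₁_of_node hz).2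
      have e1 := valAt_add_reg M.rrK.deg_one ((Reg M.P₁).sub_mem
        (rrSpace_nsmul_le_reg _ _ a1.1) (rrSpace_nsmul_le_reg _ _ a2.1))
        (rrSpace_nsmul_le_reg _ _ a2.1) hz1
      have e2 := valAt_add_reg M.rrK.deg_one ((Reg M.P₂).sub_mem
        (rrSpace_nsmul_le_reg _ _ a1.2.1) (rrSpace_nsmul_le_reg _ _ a2.2.1))
        (rrSpace_nsmul_le_reg _ _ a2.2.1) hz2
      rw [sub_add_cancel] at e1 e2
      have := a1.2.2 z hz
      rw [e1, e2, a2.2.2 z hz] at this
      exact add_right_cancel this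
  obtain ⟨s1, s2⟩ := C.glue_split hr (f₁ := u') (f₂ := u + v - u') (K := K₁ + N)
    (by
      rw [C.glue_zero] at g1 ⊢
      exact M.gl_mono _ (Nat.le_add_right _ _) g1) g2 (by abel)
  have := Submodule.add_mem_sup s1 s2
  rwa [add_sub_cancel] at this

end MonoDatum

end FermatLib.Igusa.Mono
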