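import Fermat.Agent.Igusa.MonoConnected
import Fermat.Prelude.Def_AlgebraicCurve_BaseChangeGalois

/-!
Unipotence of the automorphisms fixing both sheets on torsion prime to the residue characteristic.
-/

set_option autoImplicit false
set_option linter.style.haveILetI false

noncomputable section

open AlgebraicCurve

namespace FermatLib.Igusa.Mono

universe uL uF uk uKb

namespace MonoDatum

variable {L : Type uL} {k : Type uk} [Field L] [Field k] {A : ValuationSubring L} {π : A →+* k}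
  {F : Type uF} {Kb : Type uKb} [Field F] [Algebra L F] [Field Kb] [Algebra k Kb] {q : ℕ}
  (M : MonoDatum π F Kb q)

/-- An automorphism fixing `x` and acting trivially on both reductions. -/
structure Fixes (g : SemilinearAut L F) : Prop where
  x_fixed : g • M.x = M.x
  mem₁ : ∀ a ∈ M.s₁.W, g • a ∈ M.s₁.W
  rd₁ : ∀ a ∈ M.s₁.W, M.s₁.rd (g • a) = M.s₁.rd a
  mem₂ : ∀ a ∈ M.s₂.W, g • a ∈ M.s₂.W
  rd₂' : ∀ a ∈ M.s₂.W, M.s₂.rd (g • a) = M.s₂.rd a
  periodic : ∀ c : L, ∃ n : ℕ, 0 < n ∧ (SemilinearAut.baseAut g)^[n] c = c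

variable {M}

section

variable {g : SemilinearAut L F} (hg : M.Fixes g)
include hg

theorem Fixes.integral {a : F} (ha : Integral₂ M.s₁ M.s₂ a) : Integral₂ M.s₁ M.s₂ (g • a) :=
  ⟨hg.mem₁ a ha.1, hg.mem₂ a ha.2⟩

theorem Fixes.rd_eq {a : F} (ha : Integral₂ M.s₁ M.s₂ a) :
    rd₂ M.s₁ M.s₂ (g • a) = rd₂ M.s₁ M.s₂ a :=
  Prod.ext (hg.rd₁ a ha.1) (hg.rd₂' a ha.2)

theorem Fixes.base_mem {c : L} (hc : c ∈ A) :
    ∃ h : SemilinearAut.baseAut g c ∈ A, π ⟨_, h⟩ = π ⟨c, hc⟩ := by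
  have h1 := hg.mem₁ _ (Sheet.algebraMap_mem (s := M.s₁) hc)
  rw [SemilinearAut.smul_algebraMap] at h1
  have h2 := Sheet.mem_of_algebraMap_mem M.π_eq_zero h1
  refine ⟨h2, ?_⟩
  have h3 := hg.rd₁ _ (Sheet.algebraMap_mem (s := M.s₁) hc)
  rw [SemilinearAut.smul_algebraMap, Sheet.rd_algebraMap h2, Sheet.rd_algebraMap hc] at h3
  exact (algebraMap k Kb).injective h3

/-- Constants keep their absolute value. -/
theorem Fixes.ratio_mem {c : L} (hc : c ≠ 0) :
    ∃ h : c / SemilinearAut.baseAut g c ∈ A, π ⟨_, h⟩ ≠ 0 := by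
  set σ := SemilinearAut.baseAut g
  obtain ⟨n, hn, hper⟩ := hg.periodic c
  have hne : ∀ i : ℕ, σ^[i] c ≠ 0 := fun i => by
    induction i with
    | zero => simpa using hc
    | succ i ih => rw [Function.iterate_succ_apply']; simpa using ih
  have key : ∀ u : L, (∀ i : ℕ, σ^[i] u ∈ A → σ^[i + 1] u ∈ A) := fun u i hi => by
    rw [Function.iterate_succ_apply']
    exact (hg.base_mem hi).1
  -- a non-unit ratio cannot telescope to one
  have nogo : ∀ u : L, (hu : u ∈ A) → π ⟨u, hu⟩ = 0 →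
      (∏ i ∈ Finset.range n, σ^[i] u) ≠ 1 := by
    intro u hu h0 hprod
    have hall : ∀ i, ∃ h : σ^[i] u ∈ A, π ⟨_, h⟩ = 0 := fun i => by
      induction i with
      | zero => exact ⟨hu, h0⟩
      | succ i ih =>
        obtain ⟨h, he⟩ := ih
        obtain ⟨h', he'⟩ := hg.base_mem h
        exact ⟨by rw [Function.iterate_succ_apply']; exact h',
          by rw [← he, ← he']; congr 2; exact Function.iterate_succ_apply' _ _ _⟩
    have h1 : (∏ i ∈ Finset.range n, (⟨σ^[i] u, (hall i).1⟩ : A)) = 1 := Subtype.ext (by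
      rw [SubmonoidClass.coe_finsetProd]; exact hprod)
    have h2 := congrArg π h1
    rw [map_prod, map_one, Finset.prod_eq_zero (Finset.mem_range.mpr hn) (hall 0).2] at h2
    exact zero_ne_one h2
  have htele : ∀ u : L, u ≠ 0 → σ^[n] u = u →
      (∏ i ∈ Finset.range n, σ^[i] (u / σ u)) = 1 := by
    intro u hu hun
    have hne' : ∀ i : ℕ, σ^[i] u ≠ 0 := fun i => by
      induction i with
      | zero => simpa using hu
      | succ i ih => rw [Function.iterate_succ_apply']; simpa using ih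
    have : ∀ m, (∏ i ∈ Finset.range m, σ^[i] (u / σ u)) = u / σ^[m] u := by
      intro m
      induction m with
      | zero => simp [hu]
      | succ m ih =>
        rw [Finset.prod_range_succ, ih]
        have e : σ^[m] (u / σ u) = σ^[m] u / σ^[m + 1] u := by
          have hσm : ∀ (j : ℕ) (a b : L), σ^[j] (a / b) = σ^[j] a / σ^[j] b := by
            intro j a b
            induction j with
            | zero => simp
            | succ j ihj => simp only [Function.iterate_succ_apply', ihj, map_div₀]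
          rw [hσm, ← Function.iterate_succ_apply]
        rw [e, div_mul_div_comm, mul_comm (σ^[m] u), mul_div_mul_right _ _ (hne' m)]
    rw [this n, hun, div_self hu]
  rcases A.mem_or_inv_mem (c / σ c) with h | h
  · refine ⟨h, fun h0 => nogo _ h h0 (htele c hc hper)⟩
  · rw [inv_div] at h
    by_cases h0 : π ⟨σ c / c, h⟩ = 0
    · exfalso
      have hinv : σ c / c = c⁻¹ / σ c⁻¹ := by rw [map_inv₀]; field_simp
      refine nogo _ h h0 ?_
      rw [hinv]
      refine htele c⁻¹ (inv_ne_zero hc) ?_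
      have : ∀ j : ℕ, σ^[j] c⁻¹ = (σ^[j] c)⁻¹ := fun j => by
        induction j with
        | zero => simp
        | succ j ihj => simp only [Function.iterate_succ_apply', ihj, map_inv₀]
      rw [this, hper]
    · obtain ⟨u, hu⟩ := not_not.mp (mt (M.π_eq_zero _).mpr h0)
      have h1 : ((u.inv : A) : L) * (σ c / c) = 1 := by
        have h2 := congrArg (Subtype.val) u.inv_val
        rw [hu] at h2
        simpa using h2
      have h3 : c / σ c = ((u.inv : A) : L) := by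
        rw [eq_inv_of_mul_eq_one_left h1, inv_div]
      refine ⟨h3 ▸ (u.inv).2, fun h4 => ?_⟩
      rw [M.π_eq_zero] at h4
      exact h4 (isUnit_iff_exists.mpr ⟨(u : A), Subtype.ext (by rw [hu]; show c / σ c * (σ c / c) = 1; rw [h3]; exact h1),
        Subtype.ext (by rw [hu]; show σ c / c * (c / σ c) = 1; rw [h3, mul_comm]; exact h1)⟩)

theorem Fixes.Px_smul (v : Place L F) : M.Px (g⁻¹ • v) = M.Px v := by
  rw [M.Px_apply, M.Px_apply]
  have h := SemilinearAut.ord_smul g (g⁻¹ • v) M.x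
  rw [smul_inv_smul, hg.x_fixed] at h
  rw [h]

theorem Fixes.smul_mem_rr {D : Divisor L F} {n : ℕ} {a : F}
    (ha : a ∈ riemannRochSpace (D + n • M.Px)) :
    g • a ∈ riemannRochSpace (g • D + n • M.Px) := by
  rw [mem_riemannRochSpace_iff] at ha ⊢
  intro v
  refine (ha (g⁻¹ • v)).imp (fun h => by rw [h, smul_zero]) fun h => ?_
  have h2 := SemilinearAut.ord_smul g (g⁻¹ • v) a
  rw [smul_inv_smul] at h2
  rw [Finsupp.add_apply, Finsupp.smul_apply, hg.Px_smul] at h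
  rw [Finsupp.add_apply, Finsupp.smul_apply, SemilinearAut.divisor_smul_apply, h2]
  exact h

end

variable (M) in
theorem exists_sheet_const (s : Sheet π F Kb)
    (hscale : ∀ f : F, f ≠ 0 → ∃ c : L, c • f ∈ s.W ∧ s.rd (c • f) ≠ 0)
    {g : SemilinearAut L F} (hg : M.Fixes g) (hmem : ∀ a ∈ s.W, g • a ∈ s.W)
    (hrd : ∀ a ∈ s.W, s.rd (g • a) = s.rd a) {f : F} (hf : f ≠ 0) :
    (g • f) / f ∈ s.W ∧ ∃ c : k, c ≠ 0 ∧ s.rd ((g • f) / f) = algebraMap k Kb c := by
  obtain ⟨c, hc, hc0⟩ := hscale f hf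
  have hcne : c ≠ 0 := by rintro rfl; simp at hc0
  obtain ⟨hr, hr0⟩ := hg.ratio_mem hcne
  set f₀ := c • f with hf₀
  have hinv := Sheet.inv_mem_of_rd_ne hc hc0
  have hq : (g • f₀) * f₀⁻¹ ∈ s.W := mul_mem (hmem _ hc) hinv
  have hq1 : s.rd ((g • f₀) * f₀⁻¹) = 1 := by
    rw [Sheet.rd_mul (hmem _ hc) hinv, hrd _ hc, Sheet.rd_inv hc hc0, mul_inv_cancel₀ hc0]
  have heq : (g • f) / f =
      algebraMap L F (c / SemilinearAut.baseAut g c) * ((g • f₀) * f₀⁻¹) := by
    rw [hf₀, Algebra.smul_def, smul_mul', SemilinearAut.smul_algebraMap, map_div₀]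
    have h1 : algebraMap L F c ≠ 0 := by simpa using hcne
    have h2 : algebraMap L F (SemilinearAut.baseAut g c) ≠ 0 := by simpa using hcne
    field_simp
  refine ⟨by rw [heq]; exact mul_mem (Sheet.algebraMap_mem hr) hq, _, hr0, ?_⟩
  rw [heq, Sheet.rd_mul (Sheet.algebraMap_mem hr) hq, hq1, mul_one, Sheet.rd_algebraMap hr]

variable [IsAlgClosed k]

/-- **Unipotence**: if `g, h` fix both sheets, then `h` fixes `g x - x` for every class `x`
killed by `d` prime to the residue characteristic. -/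
theorem smul_smul_sub_eq {g h : SemilinearAut L F} (hg : M.Fixes g) (hh : M.Fixes h) {d : ℕ}
    (hd : 1 ≤ d) (hdk : (d : k) ≠ 0) (x : Pic0 L F) (hx : (d : ℤ) • x = 0) :
    h • (g • x - x) = g • x - x := by
  obtain ⟨⟨D, hD0⟩, rfl⟩ := Pic0.mk_surjective x
  obtain ⟨f, hf0, hfD⟩ : Divisor.IsPrincipal ((d : ℤ) • D) := by
    have h0 : Pic0.mk ((d : ℤ) • (⟨D, hD0⟩ : Divisor.degZero (K := L) (F := F))) = 0 := by
      rw [← hx]
      exact map_zsmul (QuotientAddGroup.mk' _) _ _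
    have h1 := (QuotientAddGroup.eq_zero_iff _).mp h0
    rwa [AddSubgroup.mem_addSubgroupOf, AddSubgroupClass.coe_zsmul] at h1
  have hgf : g • f ≠ 0 := (smul_ne_zero_iff_ne g).mpr hf0
  obtain ⟨w₁, c₁, hc₁, e₁⟩ := M.exists_sheet_const M.s₁ M.scale₁ hg hg.mem₁ hg.rd₁ hf0
  obtain ⟨w₂, c₂, hc₂, e₂⟩ := M.exists_sheet_const M.s₂ M.scale₂ hg hg.mem₂ hg.rd₂' hf0
  have hD0' : Divisor.degree D = 0 := hD0
  set Dy := g • D - D with hDy
  set gy := (g • f) / f with hgy
  have hgy0 : gy ≠ 0 := div_ne_zero hgf hf0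
  have hdivy : ∀ v, (d : ℤ) * Dy v = v.ord gy := by
    intro v
    have h1 := hfD v
    have h2 := hfD (g⁻¹ • v)
    rw [Finsupp.smul_apply, smul_eq_mul] at h1 h2
    have h3 := SemilinearAut.ord_smul g (g⁻¹ • v) f
    rw [smul_inv_smul] at h3
    rw [hgy, div_eq_mul_inv, v.ord_mul hgf (inv_ne_zero hf0), v.ord_inv, h3, hDy,
      Finsupp.sub_apply, SemilinearAut.divisor_smul_apply, mul_sub, h1, h2]
    ring
  let Ty : M.Twist d :=
    { D := Dy, g := gy, g_ne := hgy0, div := hdivy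
      degree_D := by rw [hDy, map_sub, SemilinearAut.degree_smul, hD0', sub_zero]
      g_int := ⟨w₁, w₂⟩, c₁ := c₁, c₂ := c₂, c₁_ne := hc₁, c₂_ne := hc₂
      rd_g := Prod.ext e₁ e₂ }
  have hhgy : h • gy ≠ 0 := (smul_ne_zero_iff_ne h).mpr hgy0
  have hy1 : M.s₁.rd gy ≠ 0 := by
    rw [hgy, e₁]; simpa using hc₁
  have hy2 : M.s₂.rd gy ≠ 0 := by
    rw [hgy, e₂]; simpa using hc₂
  have hyi : Integral₂ M.s₁ M.s₂ gy := ⟨w₁, w₂⟩
  have hyinv : Integral₂ M.s₁ M.s₂ gy⁻¹ :=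
    ⟨Sheet.inv_mem_of_rd_ne w₁ hy1, Sheet.inv_mem_of_rd_ne w₂ hy2⟩
  set Dz := h • Dy - Dy with hDz
  have hgz : rd₂ M.s₁ M.s₂ ((h • gy) * gy⁻¹) = 1 := by
    rw [rd₂_mul (hh.integral hyi) hyinv, hh.rd_eq hyi]
    exact Prod.ext (by simp [rd₂, Sheet.rd_inv hyi.1 hy1, mul_inv_cancel₀ hy1])
      (by simp [rd₂, Sheet.rd_inv hyi.2 hy2, mul_inv_cancel₀ hy2])
  let Tz : M.Twist d :=
    { D := Dz, g := (h • gy) * gy⁻¹, g_ne := mul_ne_zero hhgy (inv_ne_zero hgy0)
      div := fun v => by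
        have h3 := SemilinearAut.ord_smul h (h⁻¹ • v) gy
        rw [smul_inv_smul] at h3
        rw [v.ord_mul hhgy (inv_ne_zero hgy0), v.ord_inv, h3, hDz, Finsupp.sub_apply,
          SemilinearAut.divisor_smul_apply, mul_sub, hdivy, hdivy]
        ring
      degree_D := by rw [hDz, map_sub, SemilinearAut.degree_smul, Ty.degree_D, sub_zero]
      g_int := (hh.integral hyi).mul hyinv, c₁ := 1, c₂ := 1
      c₁_ne := one_ne_zero, c₂_ne := one_ne_zero
      rd_g := by rw [hgz, map_one]; rfl }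
  have hdiag : ∀ z ∈ M.nodes, ∃ m, ∃ e ∈ M.twistLevel Tz.D m,
      valAt z.1 e.1 ≠ 0 ∧ valAt z.1 e.1 = valAt z.2 e.2 := by
    intro z hz
    obtain ⟨N, hN, hlev⟩ := exists_twist_level Ty hd
    obtain ⟨l, -, hex⟩ := hlev N le_rfl
    obtain ⟨ab, hab, hab0⟩ := hex z hz
    obtain ⟨hr1, hr2⟩ := Ty.mem_rr hd hN hab
    have hgl := Ty.pow_smul_mem_gl hd hN hab
    obtain ⟨a, ha, hai, rfl⟩ := hab
    have ha0 : a ≠ 0 := by rintro rfl; simp at hab0
    have hint : Integral₂ M.s₁ M.s₂ ((h • a) * a ^ (d - 1) * gy) :=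
      ((hh.integral hai).mul (hai.pow _)).mul hyi
    have hrd : rd₂ M.s₁ M.s₂ ((h • a) * a ^ (d - 1) * gy) =
        (c₁ • (rd₂ M.s₁ M.s₂ a).1 ^ d, c₂ • (rd₂ M.s₁ M.s₂ a).2 ^ d) := by
      rw [rd₂_mul ((hh.integral hai).mul (hai.pow _)) hyi, rd₂_mul (hh.integral hai) (hai.pow _),
        hh.rd_eq hai, rd₂_pow hai, ← pow_succ', Nat.sub_add_cancel hd,
        show rd₂ M.s₁ M.s₂ gy = _ from Ty.rd_g]
      refine Prod.ext ?_ ?_ <;> simp [Algebra.smul_def, Ty, mul_comm]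
    refine ⟨d * N, _, rd₂_mem_redSpace M.π_surjective ?_ hint, ?_⟩
    · rw [mem_riemannRochSpace_iff]
      intro v
      right
      have h1 := ((mem_riemannRochSpace_iff.mp (hh.smul_mem_rr ha)) v).resolve_left
        ((smul_ne_zero_iff_ne h).mpr ha0)
      have h2 := ((mem_riemannRochSpace_iff.mp ha) v).resolve_left ha0
      rw [v.ord_mul (mul_ne_zero ((smul_ne_zero_iff_ne h).mpr ha0) (pow_ne_zero _ ha0)) hgy0,
        v.ord_mul ((smul_ne_zero_iff_ne h).mpr ha0) (pow_ne_zero _ ha0), ord_pow, ← hdivy v]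
      show -(Dz + (d * N) • M.Px) v ≤ _
      change -(h • Dy + N • M.Px) v ≤ _ at h1
      change -(Dy + N • M.Px) v ≤ _ at h2
      rw [Finsupp.add_apply, Finsupp.smul_apply, nsmul_eq_mul] at h1 h2
      rw [hDz, Finsupp.add_apply, Finsupp.sub_apply, Finsupp.smul_apply, nsmul_eq_mul,
        Nat.cast_mul, Nat.cast_sub hd, Nat.cast_one]
      have h3 : (0 : ℤ) ≤ (d : ℤ) - 1 := by
        have : (1 : ℤ) ≤ d := by exact_mod_cast hd
        omega
      nlinarith [mul_le_mul_of_nonneg_left h2 h3]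
    · rw [hrd]
      refine ⟨?_, (M.mem_gl_one.mp hgl).2.2 z hz⟩
      have hreg : (rd₂ M.s₁ M.s₂ a).1 ∈ Reg M.P₁ := rrSpace_nsmul_le_reg _ _ hr1
      have hpow : (rd₂ M.s₁ M.s₂ a).1 ^ d ∈ Reg M.P₁ := by
        have : ∀ j : ℕ, (rd₂ M.s₁ M.s₂ a).1 ^ j ∈ Reg M.P₁ := fun j => by
          induction j with
          | zero => simpa using one_mem_reg M.P₁
          | succ j ih => rw [pow_succ]; exact mul_mem_reg ih hreg
        exact this d
      rw [valAt_smul_reg M.rrK.deg_one _ hpow (M.P₁_of_node hz).1,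
        valAt_pow_reg M.rrK.deg_one hreg (M.P₁_of_node hz).1]
      exact mul_ne_zero hc₁ (pow_ne_zero _ hab0)
  have hne := M.rr_ne_bot_of_trivial hd hdk Tz hgz hdiag
  obtain ⟨u, hu, hu0⟩ := Submodule.exists_mem_ne_zero_of_ne_bot hne
  obtain ⟨E, hE, hE0⟩ := M.rrF.exists_div hu0
  have hneg : -Tz.D = E := by
    refine eq_of_le_of_degree_eq M.rrF.deg_one (Finsupp.le_def.mpr fun v => ?_)
      (by rw [map_neg, Tz.degree_D, neg_zero, hE0])
    rw [Finsupp.neg_apply, hE]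
    exact ((mem_riemannRochSpace_iff.mp hu) v).resolve_left hu0
  have hprin : Dz ∈ Divisor.principal (K := L) (F := F) := by
    have hEp : E ∈ Divisor.principal (K := L) (F := F) := ⟨u, hu0, hE⟩
    rw [← hneg] at hEp
    simpa using neg_mem hEp
  rw [← sub_eq_zero]
  have hmk : h • (g • Pic0.mk ⟨D, hD0⟩ - Pic0.mk ⟨D, hD0⟩) -
      (g • Pic0.mk ⟨D, hD0⟩ - Pic0.mk ⟨D, hD0⟩) =
      Pic0.mk (SemilinearAut.degZeroSMulHom h (SemilinearAut.degZeroSMulHom g ⟨D, hD0⟩ - ⟨D, hD0⟩) -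
        (SemilinearAut.degZeroSMulHom g ⟨D, hD0⟩ - ⟨D, hD0⟩)) := rfl
  rw [hmk]
  refine (QuotientAddGroup.eq_zero_iff _).mpr ?_
  rw [AddSubgroup.mem_addSubgroupOf]
  exact hprin

end MonoDatum

end FermatLib.Igusa.Mono
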