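/-
No point of multiplicative type and order `p` is fixed by an inertia element moving `μ_p`.
-/
import Fermat.Agent.Igusa.MonoUnipotent
import Fermat.Agent.Igusa.MonoFrobeniusSplit
import Mathlib.Algebra.CharP.Lemmas

/-!
# Fixed classes killed by the residue characteristic

A class killed by `p` with trivial reductions on both sheets and split components is trivial if it
is fixed by an automorphism fixing both sheets whose action on some `z` with
`z ^ (p - 1) = p · unit` is not residually trivial.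
-/

set_option autoImplicit false
set_option linter.style.haveILetI false

noncomputable section

open AlgebraicCurve

namespace FermatLib.Igusa.Mono

universe uL uF uk uKb

variable {L : Type uL} {k : Type uk} [Field L] [Field k] {A : ValuationSubring L} {π : A →+* k}
  {F : Type uF} {Kb : Type uKb} [Field F] [Algebra L F] [Field Kb] [Algebra k Kb]

/-- A `d`-th root of an element of a valuation ring lies in it. -/
theorem mem_valuationSubring_of_pow {K : Type*} [Field K] (W : ValuationSubring K) {u : K} {d : ℕ}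
    (hd : 1 ≤ d) (h : u ^ d ∈ W) : u ∈ W := by
  rcases W.mem_or_inv_mem u with hu | hu
  · exact hu
  rcases eq_or_ne u 0 with rfl | h0
  · exact zero_mem W
  have e : u = u ^ d * u⁻¹ ^ (d - 1) := by
    obtain ⟨e, rfl⟩ := Nat.exists_eq_add_of_le hd
    rw [Nat.add_sub_cancel_left, pow_add, pow_one, inv_pow, mul_assoc,
      mul_inv_cancel₀ (pow_ne_zero _ h0), mul_one]
  rw [e]
  exact mul_mem h (pow_mem hu _)

/-- An element of `A` with nonzero reduction has its inverse in `A`, with inverse reduction. -/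
theorem exists_inv_of_red_ne (hπ : ∀ a : A, π a = 0 ↔ ¬ IsUnit a) {a : A} (ha : π a ≠ 0) :
    ∃ b : A, (b : L) * a = 1 := by
  obtain ⟨u, hu⟩ := not_not.mp (mt (hπ a).mpr ha)
  refine ⟨u.inv, ?_⟩
  have h := congrArg Subtype.val u.inv_val
  rw [hu] at h
  simpa using h

/-- Either `x / y` is in the maximal ideal, or `y / x` is, or `x / y` is a unit. -/
theorem div_trichotomy (hπ : ∀ a : A, π a = 0 ↔ ¬ IsUnit a) {x y : L} (hx : x ≠ 0) (hy : y ≠ 0) :
    (∃ γ : A, (γ : L) * y = x ∧ π γ = 0) ∨ (∃ δ : A, (δ : L) * x = y ∧ π δ = 0) ∨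
      ∃ γ : A, (γ : L) * y = x ∧ π γ ≠ 0 := by
  rcases A.mem_or_inv_mem (x / y) with h | h
  · rcases eq_or_ne (π ⟨x / y, h⟩) 0 with h0 | h0
    · exact Or.inl ⟨⟨_, h⟩, div_mul_cancel₀ x hy, h0⟩
    · exact Or.inr (Or.inr ⟨⟨_, h⟩, div_mul_cancel₀ x hy, h0⟩)
  · rw [inv_div] at h
    rcases eq_or_ne (π ⟨y / x, h⟩) 0 with h0 | h0
    · exact Or.inr (Or.inl ⟨⟨_, h⟩, div_mul_cancel₀ y hx, h0⟩)
    · obtain ⟨b, hb⟩ := exists_inv_of_red_ne hπ h0
      refine Or.inr (Or.inr ⟨b, ?_, fun hb0 => ?_⟩)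
      · have h1 : (b : L) * (y / x) * x = x := by rw [hb, one_mul]
        rwa [mul_assoc, div_mul_cancel₀ y hx] at h1
      · have h1 : b * ⟨y / x, h⟩ = 1 := Subtype.ext hb
        have := congrArg π h1
        rw [map_mul, hb0, zero_mul, map_one] at this
        exact zero_ne_one this

namespace MonoDatum

variable [IsAlgClosed k] {q : ℕ} (M : MonoDatum π F Kb q)

/-- Reductions of sums of the two spaces in large level. -/
theorem exists_red_sup : ∃ N : ℕ, ∀ (C : M.Chart) (n : ℕ), N ≤ n →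
    M.red (C.space 0 n 0 ⊔ C.space 0 0 n) = C.glue n 0 ⊔ C.glue 0 n := by
  obtain ⟨N, hN1, hN⟩ := M.exists_level_glue
  refine ⟨N, fun C n hn => ?_⟩
  haveI := (C.space_equiv 0 n 0).1
  haveI := (C.space_equiv 0 0 n).1
  obtain ⟨_, e1⟩ := M.finrank_red (C.space_equiv 0 n 0).1
  obtain ⟨_, e2⟩ := M.finrank_red (C.space_equiv 0 0 n).1
  obtain ⟨_, e3⟩ := M.finrank_red (V := C.space 0 n 0 ⊔ C.space 0 0 n) inferInstance
  have f1 := Submodule.finrank_sup_add_finrank_inf_eq (C.space 0 n 0) (C.space 0 0 n)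
  have f2 := Submodule.finrank_sup_add_finrank_inf_eq (M.red (C.space 0 n 0))
    (M.red (C.space 0 0 n))
  have f3 := M.finrank_inf_zero C n
  have f4 : Module.finrank k ↥(M.red (C.space 0 n 0) ⊓ M.red (C.space 0 0 n)) = 1 := by
    rw [hN C n 0 (by omega), hN C 0 n (by omega)]
    have h1 : ∀ a b, N ≤ a + b → (1 : Kb × Kb) ∈ C.glue a b := fun a b hab => by
      rw [← hN C a b hab]
      exact ⟨1, M.one_mem_space C a b, integral₂_one, rd₂_one⟩
    have : C.glue n 0 ⊓ C.glue 0 n = k ∙ (1 : Kb × Kb) := by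
      refine le_antisymm (fun f hf => ?_) ?_
      · obtain ⟨a, b, rfl, hab⟩ := C.glue_inter hf.1 hf.2
        rw [← hab M.nodes_nonempty, show ((algebraMap k Kb a, algebraMap k Kb a) : Kb × Kb) =
          a • (1 : Kb × Kb) by simp [Algebra.algebraMap_eq_smul_one, Prod.ext_iff]]
        exact Submodule.smul_mem _ a (Submodule.mem_span_singleton_self _)
      · rw [Submodule.span_singleton_le_iff_mem]
        exact ⟨h1 n 0 (by omega), h1 0 n (by omega)⟩
    rw [this, finrank_span_singleton one_ne_zero]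
  rw [← hN C n 0 (by omega), ← hN C 0 n (by omega)]
  exact (Submodule.eq_of_le_of_finrank_eq
    (sup_le (redSpace_mono M.π_surjective le_sup_left) (redSpace_mono M.π_surjective le_sup_right))
    (by omega)).symm

variable {M}

omit [IsAlgClosed k] in
/-- A `p`-th root of a function with reductions `1` has reductions `1`. -/
theorem rd₂_root_eq_one {p : ℕ} [hp : Fact p.Prime] [CharP k p] {u : F}
    (hi : Integral₂ M.s₁ M.s₂ (u ^ p)) (h1 : rd₂ M.s₁ M.s₂ (u ^ p) = 1) :
    Integral₂ M.s₁ M.s₂ u ∧ rd₂ M.s₁ M.s₂ u = 1 := by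
  haveI : CharP Kb p := charP_of_injective_algebraMap (algebraMap k Kb).injective p
  have hp1 : 1 ≤ p := hp.out.one_lt.le
  have hui : Integral₂ M.s₁ M.s₂ u :=
    ⟨mem_valuationSubring_of_pow _ hp1 hi.1, mem_valuationSubring_of_pow _ hp1 hi.2⟩
  rw [rd₂_pow hui] at h1
  refine ⟨hui, Prod.ext ?_ ?_⟩
  · refine frobenius_inj Kb p ?_
    rw [frobenius_def, frobenius_def, Prod.fst_one, one_pow]
    exact congrArg Prod.fst h1
  · refine frobenius_inj Kb p ?_
    rw [frobenius_def, frobenius_def, Prod.snd_one, one_pow]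
    exact congrArg Prod.snd h1

omit [IsAlgClosed k] in
/-- `T` is fixed once the constant of the chart is. -/
theorem Fixes.smul_chart {g : SemilinearAut L F} (hg : M.Fixes g) (C : M.Chart)
    (hc : SemilinearAut.baseAut g C.c = C.c) : g • C.T = C.T := by
  rw [Chart.T, smul_sub, hg.x_fixed, SemilinearAut.smul_algebraMap, hc]

omit [IsAlgClosed k] in
/-- Twisted spaces are preserved by a fixing automorphism fixing the class. -/
theorem Fixes.mem_space {g : SemilinearAut L F} (hg : M.Fixes g) (C : M.Chart)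
    (hc : SemilinearAut.baseAut g C.c = C.c) {D : Divisor L F} {u : F}
    (hu : ∀ v, (g • D - D) v = v.ord u) {a b : ℕ} {f : F} (hf : f ∈ C.space D a b) :
    u * (g • f) ∈ C.space D a b := by
  rw [C.mem_space] at hf ⊢
  have h := hg.smul_mem_rr hf
  rw [smul_mul', smul_pow', hg.smul_chart C hc] at h
  have hu' : u ∈ riemannRochSpace (D - g • D) := by
    rw [mem_riemannRochSpace_iff]
    intro v
    right
    have := hu v
    rw [Finsupp.sub_apply] at this ⊢
    omega
  have := mul_mem_riemannRochSpace hu' h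
  rwa [mul_left_comm, show D - g • D + (g • D + (a + b) • M.Px) = D + (a + b) • M.Px by abel] at this

variable [IsAlgClosed L]

omit [IsAlgClosed L] in
/-- The data produced by an obstruction to splitting a twist. -/
theorem Twist.exists_obstruction {d : ℕ} (hd : 1 ≤ d) (T : M.Twist d)
    (hdiag : ∀ z ∈ M.nodes, ∃ m, ∃ f ∈ M.twistLevel T.D m,
      valAt z.1 f.1 ≠ 0 ∧ valAt z.1 f.1 = valAt z.2 f.2)
    (hbot : riemannRochSpace T.D = ⊥) (C : M.Chart) :
    ∃ N : ℕ, (∀ n, N ≤ n → M.red (C.space 0 n 0 ⊔ C.space 0 0 n) = C.glue n 0 ⊔ C.glue 0 n) ∧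
      C.space T.D N 0 ⊓ C.space T.D 0 N = ⊥ ∧
      ∃ (a : A) (h h' r : F), (a : L) ≠ 0 ∧ π a = 0 ∧ h ∈ C.space T.D N 0 ∧ h' ∈ C.space T.D 0 N ∧
        Integral₂ M.s₁ M.s₂ h ∧ Integral₂ M.s₁ M.s₂ h' ∧ Integral₂ M.s₁ M.s₂ r ∧
        rd₂ M.s₁ M.s₂ h = 1 ∧ rd₂ M.s₁ M.s₂ h' = 1 ∧ h' - h = (a : L) • r ∧
        r ∈ C.space T.D N 0 ⊔ C.space T.D 0 N ∧
        rd₂ M.s₁ M.s₂ r ∈ C.glue N N ∧ rd₂ M.s₁ M.s₂ r ∉ C.glue N 0 ⊔ C.glue 0 N ∧
        M.red (C.space T.D N 0) = C.glue N 0 ∧ M.red (C.space T.D 0 N) = C.glue 0 N ∧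
        Module.finrank L ↥(C.space T.D N 0 ⊔ C.space T.D 0 N) =
          Module.finrank k ↥(M.red (C.space T.D N 0) ⊔ M.red (C.space T.D 0 N)) + 1 := by
  obtain ⟨N₁, hN₁, hlev⟩ := exists_twist_level_eq_one T hd hdiag
  obtain ⟨N₂, hN₂, hN⟩ := M.exists_level_glue
  obtain ⟨N₃, hN₃⟩ := M.exists_red_sup
  set N := N₁ + N₂ + N₃ with hNdef
  have hred : ∀ a b, N ≤ a + b → M.red (C.space T.D a b) = C.glue a b := fun a b hab =>
    C.red_space_eq (fun n hn => hlev n hn) (show N₁ ≤ a + b by omega)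
  have hinter : C.space T.D N 0 ⊓ C.space T.D 0 N = ⊥ := by
    rw [eq_bot_iff]
    intro f hf
    rw [← hbot]
    exact M.space_inter C hf.1 hf.2
  have hgl1 : ∀ a b, N₂ ≤ a + b → (1 : Kb × Kb) ∈ C.glue a b := fun a b hab => by
    rw [← hN C a b hab]
    exact ⟨1, M.one_mem_space C a b, integral₂_one, rd₂_one⟩
  have hred1 : Module.finrank k ↥(C.glue N 0 ⊓ C.glue 0 N) = 1 := by
    have : C.glue N 0 ⊓ C.glue 0 N = k ∙ (1 : Kb × Kb) := by
      refine le_antisymm (fun f hf => ?_) ?_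
      · obtain ⟨a, b, rfl, hab⟩ := C.glue_inter hf.1 hf.2
        rw [← hab M.nodes_nonempty, show ((algebraMap k Kb a, algebraMap k Kb a) : Kb × Kb) =
          a • (1 : Kb × Kb) by simp [Algebra.algebraMap_eq_smul_one, Prod.ext_iff]]
        exact Submodule.smul_mem _ a (Submodule.mem_span_singleton_self _)
      · rw [Submodule.span_singleton_le_iff_mem]
        exact ⟨hgl1 N 0 (by omega), hgl1 0 N (by omega)⟩
    rw [this, finrank_span_singleton one_ne_zero]
  haveI := (C.space_equiv T.D N 0).1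
  haveI := (C.space_equiv T.D 0 N).1
  obtain ⟨r, hr, hri, hrn, hdim⟩ := M.exists_extra C T.D N (i := 0) (j := 1)
    (by rw [hinter]; exact finrank_bot L F)
    (by rw [hred N 0 (by omega), hred 0 N (by omega)]; exact hred1) rfl
  obtain ⟨-, hadj⟩ := exists_decomposition M.π_surjective M.π_eq_zero _ _ hr hri hrn hdim
  obtain ⟨a, h, h', hh, hh', hhi, hhi', hhr, hhr', ha0, hdiff⟩ := hadj 1
    (by show _ ∈ M.red _; rw [hred N 0 (by omega)]; exact hgl1 N 0 (by omega))
    (by show _ ∈ M.red _; rw [hred 0 N (by omega)]; exact hgl1 0 N (by omega))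
  refine ⟨N, fun n hn => hN₃ C n (by omega), hinter, a, h, h', r, fun h0 => ?_, ha0, hh, hh', hhi,
    hhi', hri, hhr, hhr', hdiff, hr, ?_, ?_, hred N 0 (by omega), hred 0 N (by omega), hdim⟩
  · rw [h0, zero_smul, sub_eq_zero] at hdiff
    have : h ∈ C.space T.D N 0 ⊓ C.space T.D 0 N := ⟨hh, hdiff ▸ hh'⟩
    rw [hinter, Submodule.mem_bot] at this
    rw [this, rd₂_zero] at hhr
    exact zero_ne_one hhr
  · rw [← hred N N (by omega)]
    exact rd₂_mem_redSpace M.π_surjective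
      (sup_le (M.space_le_left C T.D N N) (M.space_le_right C T.D N N) hr) hri
  · rwa [← hred N 0 (by omega), ← hred 0 N (by omega)]

/-- Components of the obstruction of a twist always split. -/
def SplitsComponents {d : ℕ} (T : M.Twist d) : Prop :=
  ∀ (C : M.Chart) (N : ℕ) (a : A) (h h' r : F), (a : L) ≠ 0 → π a = 0 →
    h ∈ C.space T.D N 0 → h' ∈ C.space T.D 0 N → Integral₂ M.s₁ M.s₂ h →
    Integral₂ M.s₁ M.s₂ h' → Integral₂ M.s₁ M.s₂ r → rd₂ M.s₁ M.s₂ h = 1 →
    rd₂ M.s₁ M.s₂ h' = 1 → h' - h = (a : L) • r → rd₂ M.s₁ M.s₂ r ∈ C.glue N N →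
    M.ComponentSplit C (rd₂ M.s₁ M.s₂ r)

/-- **No fixed classes**: see the module docstring. -/
theorem rr_ne_bot_of_fixed {p : ℕ} [hp : Fact p.Prime] [CharP k p] (hpL : (p : L) ≠ 0)
    (T : M.Twist p) (hg : rd₂ M.s₁ M.s₂ T.g = 1) (hsplit : SplitsComponents T)
    {g : SemilinearAut L F} (hfix : M.Fixes g)
    (hlift : ∀ b : k, ∃ c : A, SemilinearAut.baseAut g (c : L) = c ∧ π c = b)
    (hclass : Divisor.IsPrincipal (g • T.D - T.D))
    (hz : ∃ (z w : L) (e : A), z ≠ 0 ∧ z ^ (p - 1) = p * (e : L) ∧ π e ≠ 0 ∧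
      SemilinearAut.baseAut g z = w * z ∧ ∃ hw : w ∈ A, π ⟨w, hw⟩ ≠ 1) :
    riemannRochSpace T.D ≠ ⊥ := by
  intro hbot
  haveI : CharP Kb p := charP_of_injective_algebraMap (algebraMap k Kb).injective p
  have hp1 : 1 ≤ p := hp.out.one_lt.le
  set σ := SemilinearAut.baseAut g with hσdef
  -- labels
  have hdiag : ∀ z ∈ M.nodes, ∃ m, ∃ f ∈ M.twistLevel T.D m,
      valAt z.1 f.1 ≠ 0 ∧ valAt z.1 f.1 = valAt z.2 f.2 := by
    intro z hz
    obtain ⟨N, hN, hlev⟩ := exists_twist_level T hp1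
    obtain ⟨l, -, hex⟩ := hlev N le_rfl
    obtain ⟨f, hf, hf0⟩ := hex z hz
    refine ⟨N, f, hf, hf0, frobenius_inj k p ?_⟩
    obtain ⟨h1, h2⟩ := T.mem_rr hp1 hN hf
    have hgl := (M.mem_gl_one.mp (T.pow_smul_mem_gl hp1 hN hf)).2.2 z hz
    have hr1 := rrSpace_nsmul_le_reg M.P₁ N h1
    have hr2 := rrSpace_nsmul_le_reg M.P₂ N h2
    have hc : T.c₁ = 1 ∧ T.c₂ = 1 := by
      have := T.rd_g.symm.trans hg
      exact ⟨(algebraMap k Kb).injective (by simpa using congrArg Prod.fst this),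
        (algebraMap k Kb).injective (by simpa using congrArg Prod.snd this)⟩
    simp only [hc.1, hc.2, one_smul] at hgl
    rwa [valAt_pow_reg M.rrK.deg_one hr1 (M.P₁_of_node hz).1,
      valAt_pow_reg M.rrK.deg_one hr2 ((M.supp _).mp (M.P₁_of_node hz).2)] at hgl
  -- a chart fixed by `g`
  obtain ⟨C, hC⟩ : ∃ C : M.Chart, σ C.c = C.c := by
    obtain ⟨b, hb⟩ := ((M.finite_nodes.image fun z => valAt z.1 (M.s₁.rd M.x))).exists_notMem
    obtain ⟨c, hc, rfl⟩ := hlift b
    exact ⟨⟨c, c.2, fun z hz h => hb ⟨z, hz, h⟩⟩, hc⟩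
  obtain ⟨N, hsup, hinter, a, h, h', r, ha, hπa, hh, hh', hhi, hhi', hri, hhr, hhr', hdiff, hrmem,
    hrglue, hrn, hred1, hred2, hdim⟩ := T.exists_obstruction hp1 hdiag hbot C
  have hgF : T.g ≠ 0 := T.g_ne
  -- the two expansions
  set y := (a : L) • r with hy
  have hh'y : h' = h + y := by rw [← hdiff, add_sub_cancel]
  set S := ∑ j ∈ Finset.Ioo 0 p, h ^ (j - 1) * y ^ (p - j - 1) * ((p.choose j / p : ℕ) : F)
    with hS
  have hexp : h' ^ p = h ^ p + y ^ p + (p : F) * h * y * S := by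
    rw [hh'y, add_pow_prime_eq hp.out]
  have hyi : Integral₂ M.s₁ M.s₂ y := hri.smul a.2
  have hyr : rd₂ M.s₁ M.s₂ y = 0 := by rw [hy, rd₂_smul a.2 hri, hπa, zero_smul]
  have hnat : ∀ j : ℕ, Integral₂ M.s₁ M.s₂ ((j : ℕ) : F) := fun j =>
    ⟨natCast_mem _ j, natCast_mem _ j⟩
  have hterm : ∀ j, Integral₂ M.s₁ M.s₂
      (h ^ (j - 1) * y ^ (p - j - 1) * ((p.choose j / p : ℕ) : F)) := fun j =>
    ((hhi.pow _).mul (hyi.pow _)).mul (hnat _)
  have hSi : Integral₂ M.s₁ M.s₂ S := Integral₂.sum _ fun j _ => hterm j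
  have hSr : rd₂ M.s₁ M.s₂ S = 1 := by
    rw [hS, rd₂_sum _ _ fun j _ => hterm j, Finset.sum_eq_single (p - 1)]
    · rw [rd₂_mul ((hhi.pow _).mul (hyi.pow _)) (hnat _), rd₂_mul (hhi.pow _) (hyi.pow _),
        rd₂_pow hhi, hhr, one_pow, show p - (p - 1) - 1 = 0 by omega, pow_zero, rd₂_one, one_mul,
        one_mul, Nat.choose_symm_of_eq_add (show p = (p - 1) + 1 by omega), Nat.choose_one_right,
        Nat.div_self hp.out.pos, Nat.cast_one, rd₂_one]
    · intro j hj hne
      rw [Finset.mem_Ioo] at hj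
      rw [rd₂_mul ((hhi.pow _).mul (hyi.pow _)) (hnat _), rd₂_mul (hhi.pow _) (hyi.pow _),
        rd₂_pow hyi, hyr, zero_pow (by omega), mul_zero, zero_mul]
    · intro hn
      exact absurd (Finset.mem_Ioo.mpr ⟨by have := hp.out.two_le; omega, by omega⟩) hn
  have hG : h ^ p * T.g ∈ C.space 0 (p * N) 0 := by
    rw [C.space_zero] at hh ⊢
    rw [zero_add]
    exact T.pow_mul_mem hh
  have hG' : h' ^ p * T.g ∈ C.space 0 0 (p * N) := by
    rw [C.mem_space, zero_add] at hh' ⊢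
    rw [zero_add, mul_comm p N, pow_mul, ← mul_assoc, ← mul_pow, mul_comm N p]
    exact T.pow_mul_mem hh'
  have hsup' := hsup (p * N) (Nat.le_mul_of_pos_left _ hp1)
  have hsplitting : ∀ (c : L) (ρ : F), c ≠ 0 → c • ρ = h' ^ p * T.g - h ^ p * T.g →
      Integral₂ M.s₁ M.s₂ ρ → rd₂ M.s₁ M.s₂ ρ ∈ C.glue (p * N) 0 ⊔ C.glue 0 (p * N) := by
    intro c ρ hc he hρ
    rw [← hsup']
    refine rd₂_mem_redSpace M.π_surjective ?_ hρ
    rw [← inv_smul_smul₀ hc ρ, he]
    exact Submodule.smul_mem _ _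
      (Submodule.sub_mem _ (Submodule.mem_sup_right hG') (Submodule.mem_sup_left hG))
  have hpF : algebraMap L F (p : L) = (p : F) := map_natCast _ p
  rcases div_trichotomy M.π_eq_zero hpL (pow_ne_zero (p - 1) ha) with
    ⟨γ, hγ, hγ0⟩ | ⟨δ, hδ, hδ0⟩ | ⟨γ, hγ, hγ0⟩
  · -- `p` is small: the `p`-th power of the obstruction splits
    have hi : Integral₂ M.s₁ M.s₂ (T.g * (r ^ p + (γ : L) • (h * r * S))) :=
      T.g_int.mul ((hri.pow p).add (((hhi.mul hri).mul hSi).smul γ.2))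
    have hmem := hsplitting ((a : L) ^ p) _ (pow_ne_zero _ ha) (by
      rw [hexp, hy]
      simp only [Algebra.smul_def, mul_pow, map_pow]
      rw [← hpF, ← hγ, map_mul, map_pow, show (algebraMap L F (a : L)) ^ p =
        (algebraMap L F (a : L)) ^ (p - 1) * algebraMap L F (a : L) by
          rw [← pow_succ, Nat.sub_add_cancel hp1]]
      ring) hi
    rw [rd₂_mul T.g_int ((hri.pow p).add (((hhi.mul hri).mul hSi).smul γ.2)), hg, one_mul,
      rd₂_add (hri.pow p) (((hhi.mul hri).mul hSi).smul γ.2),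
      rd₂_smul γ.2 ((hhi.mul hri).mul hSi), hγ0, zero_smul, add_zero, rd₂_pow hri] at hmem
    exact hrn (M.mem_split_of_pow_mem C hrglue
      (hsplit C N a h h' r ha hπa hh hh' hhi hhi' hri hhr hhr' hdiff hrglue) hmem)
  · -- `a ^ (p - 1)` is small: the obstruction splits
    have hi : Integral₂ M.s₁ M.s₂ (T.g * ((δ : L) • r ^ p + h * r * S)) :=
      T.g_int.mul (((hri.pow p).smul δ.2).add ((hhi.mul hri).mul hSi))
    have hmem := hsplitting ((p : L) * a) _ (mul_ne_zero hpL ha) (by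
      rw [hexp, hy]
      simp only [Algebra.smul_def, mul_pow, map_mul]
      rw [show (algebraMap L F (a : L)) ^ p =
        algebraMap L F ((δ : L) * (p : L)) * algebraMap L F (a : L) by
          rw [hδ, map_pow, ← pow_succ, Nat.sub_add_cancel hp1], map_mul, hpF]
      ring) hi
    rw [rd₂_mul T.g_int (((hri.pow p).smul δ.2).add ((hhi.mul hri).mul hSi)), hg, one_mul,
      rd₂_add ((hri.pow p).smul δ.2) ((hhi.mul hri).mul hSi), rd₂_smul δ.2 (hri.pow p), hδ0,
      zero_smul, zero_add, rd₂_mul (hhi.mul hri) hSi, rd₂_mul hhi hri, hhr, one_mul, hSr,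
      mul_one] at hmem
    obtain ⟨f₁, hf₁, f₂, hf₂, hsum⟩ := Submodule.mem_sup.mp hmem
    obtain ⟨g1, g2⟩ := C.glue_split hrglue hf₁ hf₂ hsum.symm
    exact hrn (hsum ▸ Submodule.add_mem_sup g1 g2)
  · -- the critical level: use the automorphism
    obtain ⟨z, w, e, hz0, hze, he0, hσz, hw, hw1⟩ := hz
    obtain ⟨hratio, hratio0⟩ := hfix.ratio_mem ha
    obtain ⟨θ, hθ⟩ := exists_inv_of_red_ne M.π_eq_zero hratio0
    have hσa0 : σ (a : L) ≠ 0 := by simpa using ha
    have hσa : σ (a : L) = (θ : L) * a := by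
      have h1 : (θ : L) * ((a : L) / σ a) * σ a = σ a := by rw [hθ, one_mul]
      rwa [mul_assoc, div_mul_cancel₀ _ hσa0, eq_comm] at h1
    -- the multiplier is not residually `1`
    have hθ1 : π θ ≠ 1 := by
      intro hθ1
      set v := (a : L) / z with hv
      have hvpow : v ^ (p - 1) * ((γ : L) * e) = 1 := by
        rw [hv, div_pow, hze, ← hγ]
        have hγ' : (γ : L) ≠ 0 := fun h0 => hγ0 (by
          rw [show γ = 0 from Subtype.ext h0, map_zero])
        have he' : (e : L) ≠ 0 := fun h0 => he0 (by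
          rw [show e = 0 from Subtype.ext h0, map_zero])
        have ha' : (a : L) ^ (p - 1) ≠ 0 := pow_ne_zero _ ha
        field_simp
      have hvA : v ∈ A := by
        refine mem_valuationSubring_of_pow A (d := p - 1) (by have := hp.out.two_le; omega) ?_
        obtain ⟨b, hb⟩ := exists_inv_of_red_ne M.π_eq_zero (a := γ * e)
          (by rw [map_mul]; exact mul_ne_zero hγ0 he0)
        rw [MulMemClass.coe_mul] at hb
        have : v ^ (p - 1) = b := by
          calc v ^ (p - 1) = v ^ (p - 1) * ((b : L) * ((γ : L) * e)) := by rw [hb, mul_one]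
            _ = (v ^ (p - 1) * ((γ : L) * e)) * b := by ring
            _ = b := by rw [hvpow, one_mul]
        rw [this]
        exact b.2
      have hv0 : π ⟨v, hvA⟩ ≠ 0 := by
        intro h0
        have h1 : (⟨v, hvA⟩ : A) ^ (p - 1) * (γ * e) = 1 := Subtype.ext hvpow
        have := congrArg π h1
        rw [map_mul, map_pow, h0, zero_pow (by have := hp.out.two_le; omega), zero_mul,
          map_one] at this
        exact zero_ne_one this
      obtain ⟨hσv, hσvr⟩ := hfix.base_mem hvA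
      have hprod : (⟨σ v, hσv⟩ : A) * ⟨w, hw⟩ = θ * ⟨v, hvA⟩ := Subtype.ext (by
        show σ v * w = (θ : L) * v
        rw [hv, map_div₀, hσa, hσz]
        have hw0 : w ≠ 0 := fun h0 => by simp [h0] at hσz; exact hz0 hσz
        field_simp)
      have := congrArg π hprod
      rw [map_mul, map_mul, hσvr, hθ1, one_mul] at this
      exact hw1 (mul_left_cancel₀ hv0 (this.trans (mul_one _).symm))
    -- the root of `g • G / G`
    obtain ⟨u₀, hu₀, hu₀D⟩ := hclass
    have hgG : g • T.g ≠ 0 := (smul_ne_zero_iff_ne g).mpr hgF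
    set G₁ := (g • T.g) * T.g⁻¹ with hG₁
    have hG₁0 : G₁ ≠ 0 := mul_ne_zero hgG (inv_ne_zero hgF)
    obtain ⟨c, hc⟩ := M.rrF.exists_eq_algebraMap (f := u₀ ^ p * G₁⁻¹) (by
      rw [mem_riemannRochSpace_iff]
      intro v
      right
      have h3 := SemilinearAut.ord_smul g (g⁻¹ • v) T.g
      rw [smul_inv_smul] at h3
      have h4 := hu₀D v
      rw [Finsupp.sub_apply, SemilinearAut.divisor_smul_apply] at h4
      rw [v.ord_mul (pow_ne_zero _ hu₀) (inv_ne_zero hG₁0), v.ord_inv, ord_pow, hG₁,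
        v.ord_mul hgG (inv_ne_zero hgF), v.ord_inv, h3, ← T.div, ← T.div, ← h4]
      simp only [Finsupp.coe_zero, Pi.zero_apply]
      ring_nf
      rfl)
    have hc0 : c ≠ 0 := fun h0 => by
      rw [h0, map_zero] at hc
      exact mul_ne_zero (pow_ne_zero _ hu₀) (inv_ne_zero hG₁0) hc
    obtain ⟨c', hc'⟩ := IsAlgClosed.exists_pow_nat_eq c⁻¹ hp.out.pos
    set u := algebraMap L F c' * u₀ with hudef
    have hc'0 : algebraMap L F c' ≠ 0 := by
      simp only [ne_eq, map_eq_zero]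
      rintro rfl
      rw [zero_pow hp.out.ne_zero] at hc'
      exact inv_ne_zero hc0 hc'.symm
    have hup : u ^ p = G₁ := by
      have h1 : u₀ ^ p = algebraMap L F c * G₁ := by
        rw [← hc, inv_mul_cancel_right₀ hG₁0]
      rw [hudef, mul_pow, ← map_pow, hc', h1, ← mul_assoc, ← map_mul, inv_mul_cancel₀ hc0, map_one,
        one_mul]
    have hginv : Integral₂ M.s₁ M.s₂ T.g⁻¹ :=
      ⟨Sheet.inv_mem_of_rd_ne T.g_int.1 (by rw [show M.s₁.rd T.g = 1 from congrArg Prod.fst hg]; exact one_ne_zero),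
        Sheet.inv_mem_of_rd_ne T.g_int.2 (by rw [show M.s₂.rd T.g = 1 from congrArg Prod.snd hg]; exact one_ne_zero)⟩
    obtain ⟨hui, hur⟩ := rd₂_root_eq_one (M := M) (u := u)
      (by rw [hup]; exact (hfix.integral T.g_int).mul hginv) (by
        rw [hup, hG₁, rd₂_mul (hfix.integral T.g_int) hginv, hfix.rd_eq T.g_int]
        have := rd₂_mul T.g_int hginv
        rwa [mul_inv_cancel₀ hgF, rd₂_one, eq_comm] at this)
    have huD : ∀ v, (g • T.D - T.D) v = v.ord u := fun v => by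
      rw [hu₀D v, hudef, v.ord_mul hc'0 hu₀, ord_algebraMap, zero_add]
    set h₁ := u * (g • h) with hh₁
    set h₁' := u * (g • h') with hh₁'
    set r₁ := u * (g • r) with hr₁
    have h₁i : Integral₂ M.s₁ M.s₂ h₁ := hui.mul (hfix.integral hhi)
    have h₁i' : Integral₂ M.s₁ M.s₂ h₁' := hui.mul (hfix.integral hhi')
    have r₁i : Integral₂ M.s₁ M.s₂ r₁ := hui.mul (hfix.integral hri)
    have hrr₁ : rd₂ M.s₁ M.s₂ r₁ = rd₂ M.s₁ M.s₂ r := by
      rw [hr₁, rd₂_mul hui (hfix.integral hri), hur, one_mul, hfix.rd_eq hri]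
    have hr₁mem : r₁ ∈ C.space T.D N 0 ⊔ C.space T.D 0 N := by
      obtain ⟨x₁, hx₁, x₂, hx₂, hxr⟩ := Submodule.mem_sup.mp hrmem
      rw [hr₁, ← hxr, smul_add, mul_add]
      exact Submodule.add_mem_sup (hfix.mem_space C hC huD hx₁) (hfix.mem_space C hC huD hx₂)
    have hdiff₁ : h₁' - h₁ = ((θ : L) * a) • r₁ := by
      rw [hh₁', hh₁, ← mul_sub, ← smul_sub, hdiff, hy, Algebra.smul_def, smul_mul',
        SemilinearAut.smul_algebraMap, hσa, hr₁, Algebra.smul_def]
      ring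
    set W := (θ : L) • r₁ - r with hW
    have hWi : Integral₂ M.s₁ M.s₂ W := (r₁i.smul θ.2).sub hri
    haveI := (C.space_equiv T.D N 0).1
    haveI := (C.space_equiv T.D 0 N).1
    obtain ⟨hdec, -⟩ := exists_decomposition M.π_surjective M.π_eq_zero _ _ hrmem hri
      (by show rd₂ M.s₁ M.s₂ r ∉ M.red _ ⊔ M.red _; rw [hred1, hred2]; exact hrn) hdim
    obtain ⟨l, u₁, u₂, hu₁, hu₂, hu₁i, hu₂i, hWeq, -⟩ :=
      hdec W (Submodule.sub_mem _ (Submodule.smul_mem _ _ hr₁mem) hrmem) hWi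
    -- residually
    have hl : π θ - 1 = π l := by
      have h1 := congrArg (rd₂ M.s₁ M.s₂) hWeq
      rw [hW, rd₂_sub (r₁i.smul θ.2) hri, rd₂_smul θ.2 r₁i, hrr₁,
        rd₂_add ((hri.smul l.2).add hu₁i) hu₂i, rd₂_add (hri.smul l.2) hu₁i,
        rd₂_smul l.2 hri] at h1
      by_contra hne
      apply hrn
      have h2 : (π θ - 1 - π l) • rd₂ M.s₁ M.s₂ r =
          rd₂ M.s₁ M.s₂ u₁ + rd₂ M.s₁ M.s₂ u₂ := by
        rw [sub_smul, sub_smul, one_smul, h1]
        abel
      rw [← inv_smul_smul₀ (sub_ne_zero.mpr hne) (rd₂ M.s₁ M.s₂ r), h2, ← hred1, ← hred2]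
      exact Submodule.smul_mem _ _ (Submodule.add_mem_sup
        (rd₂_mem_redSpace M.π_surjective hu₁ hu₁i) (rd₂_mem_redSpace M.π_surjective hu₂ hu₂i))
    -- the parts with poles at infinity
    have hkey : (l : L) • h - (a : L) • u₁ - (h₁ - h) = 0 := by
      have hmem1 : (l : L) • h - (a : L) • u₁ - (h₁ - h) ∈ C.space T.D N 0 :=
        Submodule.sub_mem _ (Submodule.sub_mem _ (Submodule.smul_mem _ _ hh)
          (Submodule.smul_mem _ _ hu₁)) (Submodule.sub_mem _ (hfix.mem_space C hC huD hh) hh)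
      have heq : (l : L) • h - (a : L) • u₁ - (h₁ - h) =
          (l : L) • h' + (a : L) • u₂ - (h₁' - h') := by
        have h1 : (a : L) • W = (h₁' - h₁) - (h' - h) := by
          rw [hW, smul_sub, smul_smul, mul_comm, hdiff₁, hdiff]
        have h2 : (l : L) • (h' - h) = (a : L) • ((l : L) • r) := by
          rw [hdiff, smul_comm]
        rw [hWeq, smul_add, smul_add, ← h2, smul_sub] at h1
        linear_combination -h1
      have hmem2 : (l : L) • h - (a : L) • u₁ - (h₁ - h) ∈ C.space T.D 0 N := by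
        rw [heq]
        exact Submodule.sub_mem _ (Submodule.add_mem _ (Submodule.smul_mem _ _ hh')
          (Submodule.smul_mem _ _ hu₂)) (Submodule.sub_mem _ (hfix.mem_space C hC huD hh') hh')
      exact (Submodule.eq_bot_iff _).mp hinter _ ⟨hmem1, hmem2⟩
    have h1 := congrArg (rd₂ M.s₁ M.s₂) (sub_eq_zero.mp hkey)
    rw [rd₂_sub (hhi.smul l.2) (hu₁i.smul a.2), rd₂_smul l.2 hhi, rd₂_smul a.2 hu₁i, hπa,
      zero_smul, sub_zero, hhr, rd₂_sub h₁i hhi, hh₁, rd₂_mul hui (hfix.integral hhi), hur,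
      hfix.rd_eq hhi, hhr, one_mul, sub_self] at h1
    have hl0 : π l = 0 := by
      have h2 := congrArg Prod.fst h1
      simpa using h2
    exact hθ1 (sub_eq_zero.mp (hl.trans hl0))

end MonoDatum

end FermatLib.Igusa.Mono
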