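/-
Component splitting of the obstruction of a twist from push-forwards to the lower level.
-/
import Fermat.Agent.Igusa.MonoFixed

/-!
# Splitting components by push-forward

If two functions with reduction `1`, one with poles over `x = ∞` and the other with poles over the
zeros of a monic integral polynomial in `x`, differ by `a • ρ`, the reduction of `ρ` splits into a
part with poles over `x = ∞` and a part regular there. Applied to the norms of the two lifts of `1`
of a twist this splits the components of its obstruction.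
-/

set_option autoImplicit false
set_option linter.style.haveILetI false

noncomputable section

open AlgebraicCurve Polynomial

namespace FermatLib.Igusa.Mono

universe uL uF uk uKb

variable {L : Type uL} {k : Type uk} [Field L] [Field k] {A : ValuationSubring L} {π : A →+* k}
  {F : Type uF} {Kb : Type uKb} [Field F] [Algebra L F] [Field Kb] [Algebra k Kb]

section Ord

variable {K E : Type*} [Field K] [Field E] [Algebra K E]

/-- The pole divisor of a monic polynomial in `y` is `deg` times that of `y`. -/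
theorem max_neg_ord_aeval (Q : K[X]) (hQ : Q.Monic) (y : E) (v : Place K E) :
    max (-v.ord (aeval y Q)) 0 = Q.natDegree * max (-v.ord y) 0 := by
  have hlow : ∀ (R : K[X]) (n : ℕ), R.natDegree ≤ n → ∀ m : ℤ, 0 ≤ m → -m ≤ v.ord y →
      aeval y R = 0 ∨ -(n : ℤ) * m ≤ v.ord (aeval y R) := by
    intro R n hn m hm hy
    rw [aeval_eq_sum_range' (Nat.lt_succ_of_le hn)]
    refine Finset.sum_induction _ (fun f => f = 0 ∨ -(n : ℤ) * m ≤ v.ord f)
      (fun f g => ord_add_ge v) (Or.inl rfl) fun i hi => ?_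
    rcases eq_or_ne (R.coeff i • y ^ i) 0 with h0 | h0
    · exact Or.inl h0
    right
    rw [Algebra.smul_def] at h0 ⊢
    obtain ⟨h1, h2⟩ := mul_ne_zero_iff.mp h0
    rw [v.ord_mul h1 h2, ord_algebraMap, zero_add, ord_pow]
    have hi' : (i : ℤ) ≤ n := by exact_mod_cast Nat.lt_succ_iff.mp (Finset.mem_range.mp hi)
    have hi0 : (0 : ℤ) ≤ i := Int.natCast_nonneg i
    nlinarith
  rcases le_or_gt 0 (v.ord y) with hy | hy
  · rw [max_eq_right (show -v.ord y ≤ 0 by omega), mul_zero]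
    rcases hlow Q _ le_rfl 0 le_rfl (by simpa using hy) with h | h
    · simp [h]
    · omega
  rw [max_eq_left (show 0 ≤ -v.ord y by omega)]
  set d := Q.natDegree with hd
  have hy0 : y ≠ 0 := by rintro rfl; simp at hy
  rcases Nat.eq_zero_or_pos d with h0 | h0
  · rw [show Q = 1 from (hQ.natDegree_eq_zero).mp h0, h0]
    simp
  have hrest := hlow Q.eraseLead (d - 1) Q.eraseLead_natDegree_le (-v.ord y) (by omega) (by omega)
  have hsplit : aeval y Q = aeval y Q.eraseLead + y ^ d := by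
    conv_lhs => rw [← Q.eraseLead_add_C_mul_X_pow, hQ.leadingCoeff, map_one, one_mul]
    simp [hd]
  have hord : v.ord (aeval y Q) = d * v.ord y := by
    by_contra hne
    have hb : ((d - 1 : ℕ) : ℤ) = (d : ℤ) - 1 := by omega
    rw [hb] at hrest
    -- the leading term would be at least as regular as the remainder
    have htop : aeval y Q - y ^ d = aeval y Q.eraseLead := by rw [hsplit, add_sub_cancel_right]
    rcases lt_or_gt_of_ne hne with hlt | hgt
    · have h1 : aeval y Q = 0 ∨ (d : ℤ) * v.ord y ≤ v.ord (aeval y Q) := by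
        rw [hsplit]
        refine ord_add_ge v (hrest.imp id fun h => le_trans ?_ h) (Or.inr (ord_pow v y d).ge)
        nlinarith
      rcases h1 with h1 | h1
      · rw [h1] at hlt
        simp at hlt
        nlinarith
      · omega
    · have h1 : aeval y Q - aeval y Q.eraseLead = 0 ∨
          (d : ℤ) * v.ord y + 1 ≤ v.ord (aeval y Q - aeval y Q.eraseLead) := by
        rw [sub_eq_add_neg]
        refine ord_add_ge v (Or.inr (by omega)) ?_
        rcases hrest with h | h
        · exact Or.inl (by rw [h, neg_zero])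
        · right
          rw [ord_neg]
          nlinarith
      rw [hsplit, add_sub_cancel_left] at h1
      rcases h1 with h1 | h1
      · exact pow_ne_zero _ hy0 h1
      · rw [ord_pow] at h1
        omega
  rw [hord, max_eq_left (by nlinarith)]
  ring

end Ord

variable {s₁ s₂ : Sheet π F Kb}

/-- Reduction of a monic integral polynomial in an integral element. -/
theorem rd₂_aeval (Q : A[X]) {y : F} (hy : Integral₂ s₁ s₂ y) :
    Integral₂ s₁ s₂ (aeval y (Q.map A.subtype)) ∧ rd₂ s₁ s₂ (aeval y (Q.map A.subtype)) =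
      (aeval (s₁.rd y) (Q.map π), aeval (s₂.rd y) (Q.map π)) := by
  induction Q using Polynomial.induction_on' with
  | add P R hP hR =>
    simp only [Polynomial.map_add, map_add]
    exact ⟨hP.1.add hR.1, by rw [rd₂_add hP.1 hR.1, hP.2, hR.2]; rfl⟩
  | monomial n c =>
    simp only [Polynomial.map_monomial, aeval_monomial, ← Algebra.smul_def]
    refine ⟨(hy.pow n).smul c.2, ?_⟩
    rw [show A.subtype c = (c : L) from rfl, rd₂_smul c.2 (hy.pow n), rd₂_pow hy]
    simp [rd₂]

namespace MonoDatum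

variable {q : ℕ} (M : MonoDatum π F Kb q) [IsAlgClosed k]

/-- **The split**: see the module docstring. -/
theorem exists_split_of_diff {Q : A[X]} (hQ : Q.Monic) (hQd : 1 ≤ Q.natDegree) {K : ℕ}
    (hK : 1 ≤ K) {G G' ρ : F} {a : A} (ha : (a : L) ≠ 0) (hρ : Integral₂ M.s₁ M.s₂ ρ)
    (hG : G ∈ riemannRochSpace (K • M.Px))
    (hG' : aeval M.x (Q.map A.subtype) ^ K * G' ∈ riemannRochSpace ((K * Q.natDegree) • M.Px))
    (hdiff : (a : L) • ρ = G' - G) :
    ∃ u v : Kb, (rd₂ M.s₁ M.s₂ ρ).1 = u + v ∧ u ∈ riemannRochSpace (K • M.P₁) ∧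
      aeval (M.s₁.rd M.x) (Q.map π) ^ K * v ∈ riemannRochSpace ((K * Q.natDegree) • M.P₁) := by
  set d := Q.natDegree with hd
  set T := aeval M.x (Q.map A.subtype) with hT
  obtain ⟨hTi, hTr⟩ := rd₂_aeval (s₁ := M.s₁) (s₂ := M.s₂) Q M.x_integral
  rw [← hT] at hTi hTr
  have hm1 := hQ.map A.subtype
  have hm2 := hQ.map π
  have hd1 : (Q.map A.subtype).natDegree = d := hQ.natDegree_map _
  have hd2 : (Q.map π).natDegree = d := hQ.natDegree_map _
  have hTpole : ∀ v, (d • M.Px) v = max (-v.ord T) 0 := fun v => by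
    rw [hT, max_neg_ord_aeval _ hm1, hd1, Finsupp.smul_apply, nsmul_eq_mul, M.Px_apply]
  have ht : ∀ (P : Divisor k Kb) (y : Kb), (∀ v, P v = max (-v.ord y) 0) → ∀ v,
      (d • P) v = max (-v.ord (aeval y (Q.map π))) 0 := fun P y hP v => by
    rw [max_neg_ord_aeval _ hm2, hd2, Finsupp.smul_apply, nsmul_eq_mul, hP]
  have hne : ∀ (P : Divisor k Kb) (y : Kb), P ≠ 0 → (∀ v, P v = max (-v.ord y) 0) →
      aeval y (Q.map π) ≠ 0 := by
    intro P y hP0 hP h0
    refine hP0 (Finsupp.ext fun v => ?_)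
    have := ht P y hP v
    rw [h0, Finsupp.smul_apply, nsmul_eq_mul] at this
    simp only [Place.ord_zero, neg_zero, max_self, mul_eq_zero, Nat.cast_eq_zero] at this
    simpa using this.resolve_left (by omega)
  have ht1 := hne M.P₁ _ M.P₁_ne_zero M.P₁_apply
  have ht2 := hne M.P₂ _ M.P₂_ne_zero M.P₂_apply
  have hT0 : T ≠ 0 := by
    intro h0
    rw [h0, rd₂_zero] at hTr
    exact ht1 (congrArg Prod.fst hTr).symm
  let V₁ : Submodule L F := riemannRochSpace (K • M.Px)
  let V₂ : Submodule L F := (riemannRochSpace ((K * d) • M.Px)).comap (mulLin (T ^ K))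
  have hV₂ : ∀ f, f ∈ V₂ ↔ T ^ K * f ∈ riemannRochSpace ((K * d) • M.Px) := fun f => Iff.rfl
  haveI : FiniteDimensional L ↥V₁ := M.rrF.finite_space _
  haveI : FiniteDimensional L ↥V₂ := by
    haveI := M.rrF.finite_space ((K * d) • M.Px)
    exact Module.Finite.of_injective
      (LinearMap.restrict (mulLin (T ^ K)) (p := V₂) (q := riemannRochSpace ((K * d) • M.Px))
        fun f hf => hf)
      fun f g hfg => Subtype.ext (mul_left_cancel₀ (pow_ne_zero K hT0) (congrArg Subtype.val hfg))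
  have hKd : K • M.Px ≤ (K * d) • M.Px :=
    nsmul_le_nsmul_left M.Px_nonneg (Nat.le_mul_of_pos_right K hQd)
  have hinf : Module.finrank L ↥(V₁ ⊓ V₂) ≤ 1 := by
    refine (Submodule.finrank_mono (t := L ∙ (1 : F)) fun f hf => ?_).trans
      (finrank_span_singleton one_ne_zero).le
    have h0 : f ∈ riemannRochSpace (0 : Divisor L F) := by
      refine mem_rr_of_pow_mul_mem hT0 hTpole (a := K) ?_ ?_
      · rw [zero_add, ← mul_smul]
        exact riemannRochSpace_mono hKd hf.1
      · rw [zero_add, ← mul_smul]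
        exact hf.2
    obtain ⟨c, rfl⟩ := M.rrF.exists_eq_algebraMap h0
    rw [Algebra.algebraMap_eq_smul_one]
    exact Submodule.smul_mem _ c (Submodule.mem_span_singleton_self _)
  have hb1 : ∀ f ∈ M.red V₁, f ∈ M.gl one' K := fun f hf => M.redLevel_le_gl_one hK hf
  have hb2 : ∀ f ∈ M.red V₂, rd₂ M.s₁ M.s₂ T ^ K * f ∈ M.gl one' (K * d) := by
    rintro _ ⟨f, hf, hfi, rfl⟩
    rw [← rd₂_pow hTi, ← rd₂_mul (hTi.pow K) hfi]
    exact M.redLevel_le_gl_one (Nat.mul_pos hK hQd)
      (rd₂_mem_redSpace M.π_surjective ((hV₂ f).mp hf) ((hTi.pow K).mul hfi))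
  haveI := (finite_redSpace (s₁ := M.s₁) (s₂ := M.s₂) M.π_surjective M.π_eq_zero V₁).1
  haveI := (finite_redSpace (s₁ := M.s₁) (s₂ := M.s₂) M.π_surjective M.π_eq_zero V₂).1
  have hinf' : M.red V₁ ⊓ M.red V₂ ≤ k ∙ (1 : Kb × Kb) := by
    intro f hf
    have h1 := M.mem_gl_one.mp (hb1 f hf.1)
    have h2 := M.mem_gl_one.mp (hb2 f hf.2)
    rw [hTr] at h2
    have hc : ∀ (P : Divisor k Kb) (y u : Kb), 0 ≤ P → (∀ v, P v = max (-v.ord y) 0) →
        aeval y (Q.map π) ≠ 0 → u ∈ riemannRochSpace (K • P) →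
        aeval y (Q.map π) ^ K * u ∈ riemannRochSpace ((K * d) • P) →
        ∃ e : k, u = algebraMap k Kb e := by
      intro P y u hP0 hP hy0 hu hu'
      refine M.rrK.exists_eq_algebraMap (mem_rr_of_pow_mul_mem hy0 (ht P y hP) (a := K) ?_ ?_)
      · rw [zero_add, ← mul_smul]
        exact riemannRochSpace_mono
          (nsmul_le_nsmul_left hP0 (Nat.le_mul_of_pos_right K hQd)) hu
      · rw [zero_add, ← mul_smul]
        exact hu'
    obtain ⟨e₁, he₁⟩ := hc _ _ _ M.P₁_nonneg M.P₁_apply ht1 h1.1 h2.1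
    obtain ⟨e₂, he₂⟩ := hc _ _ _ M.P₂_nonneg M.P₂_apply ht2 h1.2.1 h2.2.1
    obtain ⟨z, hz⟩ := M.nodes_nonempty
    have heq := h1.2.2 z hz
    rw [he₁, he₂, valAt_algebraMap, valAt_algebraMap] at heq
    rw [show f = e₁ • (1 : Kb × Kb) by
      refine Prod.ext ?_ ?_ <;> simp [he₁, he₂, heq, Algebra.algebraMap_eq_smul_one]]
    exact Submodule.smul_mem _ e₁ (Submodule.mem_span_singleton_self _)
  obtain ⟨_, f3⟩ := M.finrank_red (V := V₁ ⊔ V₂) inferInstance
  obtain ⟨_, g1⟩ := M.finrank_red (V := V₁) inferInstance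
  obtain ⟨_, g2⟩ := M.finrank_red (V := V₂) inferInstance
  have hsup : M.red (V₁ ⊔ V₂) = M.red V₁ ⊔ M.red V₂ := by
    refine (Submodule.eq_of_le_of_finrank_le
      (sup_le (redSpace_mono M.π_surjective le_sup_left)
        (redSpace_mono M.π_surjective le_sup_right)) ?_).symm
    have h1 := Submodule.finrank_sup_add_finrank_inf_eq V₁ V₂
    have h2 := Submodule.finrank_sup_add_finrank_inf_eq (M.red V₁) (M.red V₂)
    have h3 := (Submodule.finrank_mono hinf').trans
      (finrank_span_singleton (K := k) (one_ne_zero : (1 : Kb × Kb) ≠ 0)).le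
    have h4 : 1 ≤ Module.finrank L ↥(V₁ ⊓ V₂) := by
      refine le_of_eq_of_le (finrank_span_singleton (K := L) (one_ne_zero : (1 : F) ≠ 0)).symm
        (Submodule.finrank_mono ?_)
      rw [Submodule.span_singleton_le_iff_mem]
      refine ⟨one_mem_riemannRochSpace (nsmul_nonneg M.Px_nonneg _), (hV₂ 1).mpr ?_⟩
      rw [mul_one, mem_riemannRochSpace_iff]
      intro v
      right
      have := hTpole v
      rw [mul_smul, Finsupp.smul_apply, nsmul_eq_mul, this, ord_pow]
      nlinarith [le_max_left (-v.ord T) 0, Int.natCast_nonneg K]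
    omega
  have hmem : ρ ∈ V₁ ⊔ V₂ := by
    rw [← inv_smul_smul₀ ha ρ, hdiff]
    exact Submodule.smul_mem _ _
      (Submodule.sub_mem _ (Submodule.mem_sup_right ((hV₂ G').mpr hG')) (Submodule.mem_sup_left hG))
  have h := rd₂_mem_redSpace (s₁ := M.s₁) (s₂ := M.s₂) M.π_surjective hmem hρ
  rw [show redSpace M.s₁ M.s₂ M.π_surjective (V₁ ⊔ V₂) = _ from hsup] at h
  obtain ⟨f, hf, f', hf', hsum⟩ := Submodule.mem_sup.mp h
  refine ⟨f.1, f'.1, congrArg Prod.fst hsum.symm, (hb1 f hf).1, ?_⟩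
  have := (hb2 f' hf').1
  rwa [hTr] at this

variable {M}

/-- A push-forward to the lower level for a twist, seen on one component. -/
structure ComponentPush {d : ℕ} (T : M.Twist d) (idx : Kb × Kb → Kb) where
  push : F → F
  Q : M.Chart → A[X]
  monic : ∀ C, (Q C).Monic
  one_le_natDegree : ∀ C, 1 ≤ (Q C).natDegree
  bound : ∀ (n : ℕ) (f : F), f ∈ riemannRochSpace (T.D + n • M.Px) →
    ∃ K : ℕ, push f ∈ riemannRochSpace (K • M.Px)
  bound' : ∀ (C : M.Chart) (n : ℕ) (f : F), C.T ^ n * f ∈ riemannRochSpace (T.D + n • M.Px) →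
    ∃ K : ℕ, aeval M.x ((Q C).map A.subtype) ^ K * push f ∈
      riemannRochSpace ((K * (Q C).natDegree) • M.Px)
  diff : ∀ (a : A) (f f' r : F), (a : L) ≠ 0 → π a = 0 → Integral₂ M.s₁ M.s₂ f →
    Integral₂ M.s₁ M.s₂ f' → Integral₂ M.s₁ M.s₂ r → rd₂ M.s₁ M.s₂ f = 1 →
    rd₂ M.s₁ M.s₂ f' = 1 → f' - f = (a : L) • r →
    ∃ ρ : F, Integral₂ M.s₁ M.s₂ ρ ∧ (a : L) • ρ = push f' - push f ∧
      (rd₂ M.s₁ M.s₂ ρ).1 = idx (rd₂ M.s₁ M.s₂ r)

omit [IsAlgClosed k] in
/-- Regularity at the poles of `y` and the bound given by glueing give the bound by a chart. -/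
theorem pow_mul_mem_rr_of_split {P P' : Divisor k Kb} {t r u v Qy : Kb} {K N e : ℕ}
    (hle : P' ≤ P) (hsupp : ∀ w, P' w = 0 ↔ P w = 0) (hP' : 0 ≤ P')
    (ht : ∀ w, P w = max (-w.ord t) 0) (ht0 : t ≠ 0) (hy : ∀ w, e * P' w = max (-w.ord Qy) 0)
    (hy0 : Qy ≠ 0) (he : 1 ≤ e)
    (hr : t ^ N * r ∈ riemannRochSpace ((N + N) • P)) (hsum : r = u + v)
    (hu : u ∈ riemannRochSpace (K • P')) (hv : Qy ^ K * v ∈ riemannRochSpace ((K * e) • P')) :
    u ∈ riemannRochSpace ((K + N) • P) ∧ t ^ (K + N) * v ∈ riemannRochSpace ((K + N) • P) := by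
  have hPpos : 0 ≤ P := hP'.trans hle
  have hu' : u ∈ riemannRochSpace (K • P) := riemannRochSpace_mono (nsmul_le_nsmul_right hle K) hu
  refine ⟨riemannRochSpace_mono (nsmul_le_nsmul_left hPpos (Nat.le_add_right K N)) hu', ?_⟩
  rw [mem_riemannRochSpace_iff]
  intro w
  rcases eq_or_ne v 0 with hv0 | hv0
  · exact Or.inl (by rw [hv0, mul_zero])
  right
  rw [w.ord_mul (pow_ne_zero _ ht0) hv0, ord_pow, Finsupp.smul_apply, nsmul_eq_mul]
  have hKN : (0 : ℤ) ≤ ((K + N : ℕ) : ℤ) := Int.natCast_nonneg _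
  rcases eq_or_ne (P w) 0 with hw | hw
  · rw [hw, mul_zero, neg_zero]
    have htw : 0 ≤ w.ord t := by have := ht w; omega
    have h3 : v = 0 ∨ -(N : ℤ) * w.ord t ≤ w.ord v := by
      rw [show v = r + -u by rw [hsum]; ring]
      refine ord_add_ge w ?_ ?_
      · refine ((mem_riemannRochSpace_iff.mp hr) w).imp
          (fun h => (mul_eq_zero.mp h).resolve_left (pow_ne_zero _ ht0)) fun h => ?_
        rcases eq_or_ne r 0 with rfl | hr0
        · simp at h ⊢; nlinarith
        rw [w.ord_mul (pow_ne_zero _ ht0) hr0, ord_pow, Finsupp.smul_apply, hw, smul_zero,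
          neg_zero] at h
        linarith
      · refine ((mem_riemannRochSpace_iff.mp hu) w).imp (fun h => by rw [h, neg_zero]) fun h => ?_
        rw [Finsupp.smul_apply, (hsupp w).mpr hw, smul_zero, neg_zero] at h
        rw [ord_neg]
        nlinarith
    have h4 := h3.resolve_left hv0
    push_cast
    nlinarith
  · have hw' : P' w ≠ 0 := fun h => hw ((hsupp w).mp h)
    have hw1 : 0 < P w := lt_of_le_of_ne (hPpos w) (Ne.symm hw)
    have hw2 : 0 < P' w := lt_of_le_of_ne (hP' w) (Ne.symm hw')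
    have hyw := hy w
    have htw := ht w
    have he' : (0 : ℤ) < e := by exact_mod_cast he
    have hepos : 0 < (e : ℤ) * P' w := mul_pos he' hw2
    have h5 := ((mem_riemannRochSpace_iff.mp hv) w).resolve_left
      (mul_ne_zero (pow_ne_zero _ hy0) hv0)
    rw [w.ord_mul (pow_ne_zero _ hy0) hv0, ord_pow, Finsupp.smul_apply, nsmul_eq_mul] at h5
    have e1 : w.ord Qy = -((e : ℤ) * P' w) := by omega
    have e2 : w.ord t = -P w := by omega
    rw [e1] at h5
    rw [e2]
    push_cast at h5 ⊢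
    linarith

/-- **Push-forwards on both components split the components of the obstruction.** -/
theorem splitsComponents_of_push {d : ℕ} (T : M.Twist d) (hle : M.P₁ ≤ M.P₂)
    (p₁ : ComponentPush T Prod.fst) (p₂ : ComponentPush T Prod.snd) : SplitsComponents T := by
  intro C N a h h' r ha hπa hh hh' hhi hhi' hri hhr hhr' hdiff hglue
  have hh'' : C.T ^ N * h' ∈ riemannRochSpace (T.D + N • M.Px) := by
    rw [C.mem_space, zero_add] at hh'
    exact hh'
  rw [C.space_zero] at hh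
  rw [C.mem_glue, M.mem_gl_one] at hglue
  have key : ∀ (idx : Kb × Kb → Kb) (P : ComponentPush T idx), ∃ K : ℕ, ∃ u v : Kb,
      idx (rd₂ M.s₁ M.s₂ r) = u + v ∧ u ∈ riemannRochSpace (K • M.P₁) ∧
      aeval (M.s₁.rd M.x) ((P.Q C).map π) ^ K * v ∈
        riemannRochSpace ((K * (P.Q C).natDegree) • M.P₁) := by
    intro idx P
    obtain ⟨K₁, h1⟩ := P.bound N h hh
    obtain ⟨K₂, h2⟩ := P.bound' C N h' hh''
    obtain ⟨ρ, hρi, hρ, hρr⟩ := P.diff a h h' r ha hπa hhi hhi' hri hhr hhr' hdiff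
    set K := K₁ + K₂ + 1
    have hT : ∀ j : ℕ, aeval M.x ((P.Q C).map A.subtype) ^ j ∈
        riemannRochSpace ((j * (P.Q C).natDegree) • M.Px) := fun j => by
      rw [mem_riemannRochSpace_iff]
      intro v
      right
      have := max_neg_ord_aeval _ ((P.monic C).map A.subtype) M.x v
      rw [(P.monic C).natDegree_map, ← M.Px_apply] at this
      rw [ord_pow, Finsupp.smul_apply, nsmul_eq_mul, Nat.cast_mul, mul_assoc, ← this]
      nlinarith [le_max_left (-v.ord (aeval M.x ((P.Q C).map A.subtype))) 0, Int.natCast_nonneg j]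
    have h2' : aeval M.x ((P.Q C).map A.subtype) ^ K * P.push h' ∈
        riemannRochSpace ((K * (P.Q C).natDegree) • M.Px) := by
      rw [show K = (K₁ + 1) + K₂ by omega, pow_add, mul_assoc, Nat.add_mul, add_nsmul]
      exact mul_mem_riemannRochSpace (hT _) h2
    obtain ⟨u, v, huv, hu, hv⟩ := M.exists_split_of_diff (P.monic C) (P.one_le_natDegree C)
      (show 1 ≤ K by omega) ha hρi
      (riemannRochSpace_mono (nsmul_le_nsmul_left M.Px_nonneg (by omega)) h1) h2' hρ
    exact ⟨K, u, v, hρr.symm.trans huv, hu, hv⟩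
  obtain ⟨K₁, u₁, v₁, e₁, hu₁, hv₁⟩ := key _ p₁
  obtain ⟨K₂, u₂, v₂, e₂, hu₂, hv₂⟩ := key _ p₂
  have hQ : ∀ Q : A[X], Q.Monic → 1 ≤ Q.natDegree → aeval (M.s₁.rd M.x) (Q.map π) ≠ 0 ∧
      ∀ w, (Q.natDegree : ℤ) * M.P₁ w = max (-w.ord (aeval (M.s₁.rd M.x) (Q.map π))) 0 := by
    intro Q hm hd
    have h1 : ∀ w, (Q.natDegree : ℤ) * M.P₁ w =
        max (-w.ord (aeval (M.s₁.rd M.x) (Q.map π))) 0 := fun w => by
      rw [max_neg_ord_aeval _ (hm.map π), hm.natDegree_map, M.P₁_apply]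
    refine ⟨fun h0 => M.P₁_ne_zero (Finsupp.ext fun w => ?_), h1⟩
    have := h1 w
    rw [h0, Place.ord_zero, neg_zero, max_self, mul_eq_zero] at this
    simpa using this.resolve_left (by exact_mod_cast (show Q.natDegree ≠ 0 by omega))
  obtain ⟨q10, q1⟩ := hQ _ (p₁.monic C) (p₁.one_le_natDegree C)
  obtain ⟨q20, q2⟩ := hQ _ (p₂.monic C) (p₂.one_le_natDegree C)
  obtain ⟨a1, b1⟩ := pow_mul_mem_rr_of_split (P := M.P₁) (t := (rd₂ M.s₁ M.s₂ C.T).1) (N := N)
    le_rfl (fun _ => Iff.rfl) M.P₁_nonneg C.P₁_eq C.rd_T_ne.1 q1 q10 (p₁.one_le_natDegree C)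
    hglue.1 e₁ hu₁ hv₁
  obtain ⟨a2, b2⟩ := pow_mul_mem_rr_of_split (P := M.P₂) (t := (rd₂ M.s₁ M.s₂ C.T).2) (N := N)
    hle M.supp M.P₁_nonneg C.P₂_eq C.rd_T_ne.2 q2 q20 (p₂.one_le_natDegree C)
    hglue.2.1 e₂ hu₂ hv₂
  set K := K₁ + K₂ + N with hKdef
  have hlift : ∀ {P : Divisor k Kb} {t w : Kb} {m : ℕ}, 0 ≤ P → (∀ z, P z = max (-z.ord t) 0) →
      m ≤ K → t ^ m * w ∈ riemannRochSpace (m • P) → t ^ K * w ∈ riemannRochSpace (K • P) := by
    intro P t w m hP ht hm hw
    obtain ⟨j, hj⟩ := Nat.exists_eq_add_of_le hm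
    have htP : t ∈ riemannRochSpace (1 • P) := by
      rw [mem_riemannRochSpace_iff]
      intro z
      right
      have := ht z
      rw [one_nsmul]
      omega
    rw [hj, add_comm, pow_add, mul_assoc, add_nsmul]
    exact mul_mem_riemannRochSpace (by simpa using rr_pow htP j) hw
  exact ⟨K, (u₁, u₂), (v₁, v₂), Prod.ext e₁ e₂,
    riemannRochSpace_mono (nsmul_le_nsmul_left M.P₁_nonneg (by omega)) a1,
    riemannRochSpace_mono (nsmul_le_nsmul_left M.P₂_nonneg (by omega)) a2,
    hlift M.P₁_nonneg C.P₁_eq (by omega) b1, hlift M.P₂_nonneg C.P₂_eq (by omega) b2⟩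

end MonoDatum

end FermatLib.Igusa.Mono
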