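/-
Push-forward data from norms to a subfield of index `q + 1`.
-/
import Fermat.Agent.Igusa.MonoPush
import Fermat.Agent.Igusa.MonoNormSeries
import Fermat.Agent.Modular.CorrBaseChange

/-!
# Component push-forwards from norms

For function fields `F₀ ⊆ F` of Laurent series with an automorphism `W` of `F` turning the
inclusion into `u ↦ u ^ q`, a twist of exponent `q` whose norm is a `q`-th power gives
`MonoDatum.ComponentPush`, on either component.
-/

set_option autoImplicit false
set_option linter.style.haveILetI false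
set_option linter.unusedSectionVars false

noncomputable section

open AlgebraicCurve ModularCurve Polynomial

namespace FermatLib.Igusa.Mono

open FermatLib.Modular.Corr

section Along

variable {L F F' : Type*} [Field L] [Field F] [Field F'] [Algebra L F] [Algebra L F']

theorem normAlong_mul (φ : F →ₐ[L] F') (f g : F') :
    normAlong φ (f * g) = normAlong φ f * normAlong φ g := by
  letI := algebraAlong φ
  exact map_mul _ f g

theorem normAlong_pow (φ : F →ₐ[L] F') (f : F') (n : ℕ) :
    normAlong φ (f ^ n) = normAlong φ f ^ n := by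
  letI := algebraAlong φ
  exact map_pow _ f n

theorem normAlong_map (φ : F →ₐ[L] F') (y : F) :
    normAlong φ (φ y) = y ^ finrankAlong L φ := by
  letI := algebraAlong φ
  exact Algebra.norm_algebraMap y

theorem normAlong_zero {φ : F →ₐ[L] F'} (hfin : FiniteAlong L φ) :
    normAlong φ (0 : F') = 0 := by
  letI := algebraAlong φ
  haveI : Module.Finite F F' := hfin
  exact Algebra.norm_zero

theorem normAlong_ne_zero {φ : F →ₐ[L] F'} (hfin : FiniteAlong L φ) {f : F'} (hf : f ≠ 0) :
    normAlong φ f ≠ 0 := by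
  letI := algebraAlong φ
  haveI : Module.Finite F F' := hfin
  exact Algebra.norm_ne_zero_iff.mpr hf

/-- Transport of the norm by an automorphism of the top field. -/
theorem normAlong_of_comp {φ ψ : F →ₐ[L] F'} (W : F' ≃ₐ[L] F') (h : ∀ y, W (φ y) = ψ y)
    (f : F') : normAlong ψ (W f) = normAlong φ f := by
  letI := algebraAlong φ
  have e := @Algebra.norm_eq_of_equiv_equiv F F' F F' _ _ _ _ (algebraAlong φ) (algebraAlong ψ)
    (RingEquiv.refl F) (W : F' ≃+* F') (RingHom.ext fun y => (h y).symm) f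
  simpa [normAlong] using e.symm

theorem ramificationIndexAlong_pos {φ : F →ₐ[L] F'} (hφ : φ.toRingHom.IsIntegral)
    (w : Place L F') : 0 < w.ramificationIndexAlong φ := by
  letI := algebraAlong φ
  haveI := isScalarTower_along φ
  haveI := isIntegral_along φ hφ
  exact w.ramificationIndex_pos (F := F)

theorem pushforwardAlong_nonneg {φ : F →ₐ[L] F'} (hφ : φ.toRingHom.IsIntegral)
    {E : Divisor L F'} {v : Place L F} (h : ∀ w, w.restrictAlong φ hφ = v → 0 ≤ E w) :
    0 ≤ Divisor.pushforwardAlong φ hφ E v := by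
  classical
  letI := algebraAlong φ
  haveI := isScalarTower_along φ
  haveI := isIntegral_along φ hφ
  show 0 ≤ Divisor.pushforward F E v
  rw [Divisor.pushforward_apply]
  exact Finset.sum_nonneg fun w _ => by
    by_cases hw : w.restrict F = v
    · rw [if_pos hw]; exact mul_nonneg (h w hw) (Int.natCast_nonneg _)
    · rw [if_neg hw]

/-- If `f` is regular along a fibre, so is its norm. -/
theorem normAlong_regular {g : ℕ} (hrr : RRField L F' g) {φ : F →ₐ[L] F'}
    (hfin : FiniteAlong L φ) (hN : NormFormulaAlong L φ hfin) {f : F'} (w₀ : Place L F')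
    (h : ∀ w : Place L F', w.restrictAlong φ (finiteAlong_isIntegral hfin) =
      w₀.restrictAlong φ (finiteAlong_isIntegral hfin) → f = 0 ∨ 0 ≤ w.ord f) :
    φ (normAlong φ f) = 0 ∨ 0 ≤ w₀.ord (φ (normAlong φ f)) := by
  rcases eq_or_ne f 0 with rfl | hf
  · exact Or.inl (by rw [normAlong_zero hfin, map_zero])
  right
  obtain ⟨E, hE, -⟩ := hrr.exists_div hf
  rw [Place.ord_restrictAlong φ (finiteAlong_isIntegral hfin),
    ← pushforwardAlong_apply_of_normFormula (finiteAlong_isIntegral hfin) hfin hN hf hE]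
  exact mul_nonneg (Int.natCast_nonneg _) (pushforwardAlong_nonneg _ fun w hw => by
    rw [hE]; exact (h w hw).resolve_left hf)

/-- A root of a monic polynomial with regular coefficients is regular. -/
theorem ord_nonneg_of_root (w : Place L F) {y : F} {P : F[X]} (hP : P.Monic)
    (hc : ∀ i, P.coeff i = 0 ∨ 0 ≤ w.ord (P.coeff i)) (h : P.eval y = 0) : 0 ≤ w.ord y := by
  by_contra hy
  have hy0 : y ≠ 0 := by rintro rfl; simp at hy
  set n := P.natDegree with hn
  have hsum : y ^ n = -∑ i ∈ Finset.range n, P.coeff i * y ^ i := by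
    rw [eval_eq_sum_range, Finset.sum_range_succ, hP.coeff_natDegree, one_mul] at h
    linear_combination h
  have hb : (∑ i ∈ Finset.range n, P.coeff i * y ^ i) = 0 ∨
      ((n : ℤ) - 1) * w.ord y ≤ w.ord (∑ i ∈ Finset.range n, P.coeff i * y ^ i) := by
    refine Finset.sum_induction _ (fun f => f = 0 ∨ ((n : ℤ) - 1) * w.ord y ≤ w.ord f)
      (fun f g => ord_add_ge w) (Or.inl rfl) fun i hi => ?_
    rcases hc i with h0 | h0
    · exact Or.inl (by rw [h0, zero_mul])
    rcases eq_or_ne (P.coeff i) 0 with h1 | h1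
    · exact Or.inl (by rw [h1, zero_mul])
    right
    rw [w.ord_mul h1 (pow_ne_zero _ hy0), ord_pow]
    have hi' : (i : ℤ) + 1 ≤ n := by exact_mod_cast Finset.mem_range.mp hi
    nlinarith
  rcases hb with h0 | h0
  · rw [h0, neg_zero] at hsum
    exact pow_ne_zero _ hy0 hsum
  · rw [← ord_neg w (∑ i ∈ Finset.range n, P.coeff i * y ^ i), ← hsum, ord_pow] at h0
    nlinarith

end Along

namespace MonoDatum

attribute [local instance 100000] monoLaurentModule monoLaurentSMul

variable {L k Kb : Type*} [Field L] [CharZero L] [Field k] [IsAlgClosed k] [Field Kb]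
  [Algebra k Kb] {A : ValuationSubring L} {π : A →+* k} {q : ℕ}
  {F₀ F : IntermediateField L (LaurentSeries L)} (M : MonoDatum π F Kb q)

variable [NeZero q]

/-- The fields and maps of a degeneracy extension of index `q + 1`. -/
structure DegenData where
  α : F₀ →ₐ[L] F
  coe_α : ∀ y, (α y : LaurentSeries L) = y
  finite : FiniteAlong L α
  normFormula : NormFormulaAlong L α finite
  degree : finrankAlong L α = q + 1
  W : F ≃ₐ[L] F
  coe_W : ∀ y, (W (α y) : LaurentSeries L) = qExpand L q (y : LaurentSeries L)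
  W_W : ∀ f, W (W f) = f
  x₀ : F₀
  x_eq : M.x = α x₀
  coeff_x₀ : (x₀ : LaurentSeries L).coeff (-1) ≠ 0
  W_finite : ∀ w : Place L F, 0 ≤ w.ord (W M.x) ↔ 0 ≤ w.ord M.x
  emb : Kb →+* LaurentSeries k
  ratios₁ : HasRatios M.s₁ (F.val) emb
  ratios₂ : HasRatios M.s₂ (F.val.comp W.toAlgHom) emb

variable {M} (G : M.DegenData (F₀ := F₀))

theorem DegenData.isIntegral : G.α.toRingHom.IsIntegral := finiteAlong_isIntegral G.finite

omit [IsAlgClosed k] [CharZero L] in
theorem Px_eq_zero_iff (w : Place L F) : M.Px w = 0 ↔ 0 ≤ w.ord M.x := by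
  rw [M.Px_apply]; omega

theorem DegenData.Px_restrict {w w' : Place L F}
    (h : w.restrictAlong G.α G.isIntegral = w'.restrictAlong G.α G.isIntegral) :
    M.Px w = 0 ↔ M.Px w' = 0 := by
  have key : ∀ u : Place L F,
      M.Px u = 0 ↔ 0 ≤ (u.restrictAlong G.α G.isIntegral).ord G.x₀ := fun u => by
    rw [Px_eq_zero_iff, G.x_eq, Place.ord_restrictAlong G.α G.isIntegral]
    have := ramificationIndexAlong_pos G.isIntegral u
    constructor <;> intro hh <;> nlinarith [(by exact_mod_cast this :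
      (0 : ℤ) < u.ramificationIndexAlong G.α)]
  rw [key, key, h]

/-- `W'` preserves the places over `x = ∞`. -/
def PreservesInfinity (W' : F ≃ₐ[L] F) : Prop :=
  ∀ w : Place L F, 0 ≤ w.ord (W' M.x) ↔ 0 ≤ w.ord M.x

omit [IsAlgClosed k] [CharZero L] in
theorem regular_map {W' : F ≃ₐ[L] F} (hW' : PreservesInfinity (M := M) W') {S : Prop → Prop}
    {f : F} (hf : ∀ w, S (M.Px w = 0) → f = 0 ∨ 0 ≤ w.ord f) (w : Place L F)
    (hw : S (M.Px w = 0)) : W' f = 0 ∨ 0 ≤ w.ord (W' f) := by
  have hi : W'.toAlgHom.toRingHom.IsIntegral :=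
    RingHom.isIntegral_of_surjective _ W'.surjective
  set u := w.restrictAlong W'.toAlgHom hi
  have hord : ∀ g : F, w.ord (W' g) = w.ramificationIndexAlong W'.toAlgHom * u.ord g := fun g =>
    Place.ord_restrictAlong W'.toAlgHom hi w g
  have hepos : (0 : ℤ) < w.ramificationIndexAlong W'.toAlgHom := by
    exact_mod_cast ramificationIndexAlong_pos hi w
  have hiff : M.Px u = 0 ↔ M.Px w = 0 := by
    rw [Px_eq_zero_iff, Px_eq_zero_iff, ← hW' w, hord]
    constructor <;> intro hh <;> nlinarith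
  refine (hf u (by rwa [show (M.Px u = 0) = (M.Px w = 0) from propext hiff])).imp
    (fun h => by rw [h, map_zero]) fun h => ?_
  rw [hord]
  exact mul_nonneg hepos.le h

/-- Regularity at finite places, or at infinite ones, passes to norms. -/
theorem DegenData.regular_norm {W' : F ≃ₐ[L] F} (hW' : PreservesInfinity (M := M) W')
    {S : Prop → Prop} {f : F} (hf : ∀ w, S (M.Px w = 0) → f = 0 ∨ 0 ≤ w.ord f) (w : Place L F)
    (hw : S (M.Px w = 0)) :
    G.α (normAlong G.α (W' f)) = 0 ∨ 0 ≤ w.ord (G.α (normAlong G.α (W' f))) :=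
  normAlong_regular M.rrF G.finite G.normFormula w fun u hu =>
    regular_map hW' hf u (by rwa [show (M.Px u = 0) = (M.Px w = 0) from
      propext (G.Px_restrict hu)])

omit [IsAlgClosed k] [CharZero L] in
theorem regular_of_pow {n : ℕ} (hn : 1 ≤ n) {f : F} {w : Place L F}
    (h : f ^ n = 0 ∨ 0 ≤ w.ord (f ^ n)) : f = 0 ∨ 0 ≤ w.ord f := by
  refine h.imp eq_zero_of_pow_eq_zero fun h => ?_
  rw [ord_pow] at h
  have : (1 : ℤ) ≤ n := by exact_mod_cast hn
  nlinarith

omit [IsAlgClosed k] [CharZero L] in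
theorem exists_mem_rr_of_mem_reg {f : F} (hf : f ∈ Reg M.Px) :
    ∃ K : ℕ, f ∈ riemannRochSpace (K • M.Px) := by
  rcases eq_or_ne f 0 with rfl | hf0
  · exact ⟨0, Submodule.zero_mem _⟩
  obtain ⟨E, hE, -⟩ := M.rrF.exists_div hf0
  refine ⟨(∑ v ∈ E.support, |E v|).toNat, ?_⟩
  rw [mem_riemannRochSpace_iff]
  intro v
  right
  rw [Finsupp.smul_apply, nsmul_eq_mul]
  rcases eq_or_ne (M.Px v) 0 with h0 | h0
  · rw [h0, mul_zero, neg_zero]
    exact (hf v h0).resolve_left hf0
  have h1 : 1 ≤ M.Px v := by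
    have := Finsupp.le_def.mp M.Px_nonneg v
    simp only [Finsupp.coe_zero, Pi.zero_apply] at this
    omega
  have h2 : -E v ≤ ∑ u ∈ E.support, |E u| := by
    rcases eq_or_ne (E v) 0 with hv | hv
    · rw [hv, neg_zero]; exact Finset.sum_nonneg fun u _ => abs_nonneg _
    · exact (neg_le_abs _).trans (Finset.single_le_sum (f := fun u => |E u|)
        (fun u _ => abs_nonneg _) (Finsupp.mem_support_iff.mpr hv))
  have h3 := Int.self_le_toNat (∑ u ∈ E.support, |E u|)
  rw [← hE]
  nlinarith

variable [hq : Fact q.Prime]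

/-- The expansion of a norm. -/
theorem DegenData.qExpand_norm {ζ : Lˣ} (hζ : IsPrimitiveRoot ζ q) (f : F) :
    qExpand L q (G.α (normAlong G.α f) : LaurentSeries L) =
      normSeries (q := q) ζ (f : LaurentSeries L) ((G.W f : F) : LaurentSeries L) := by
  letI := algebraAlong G.α
  haveI : FiniteDimensional F₀ F := G.finite
  rw [G.coe_α]
  exact monoNew_qExpand_norm (hq := hq.out) (fun x => G.coe_α x) G.degree
    (G.W.toAlgHom.toRingHom) (fun x => G.coe_W x) (fun x y hy => by
      have : y = G.W (G.α x) := Subtype.ext (by rw [hy, G.coe_W])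
      show ((G.W y : F) : LaurentSeries L) = x
      rw [this, G.W_W, G.coe_α]) G.x₀ G.coeff_x₀ hζ f

/-- Elements of the lower field with an expansion `R / Q` in `u ^ q` are integral on both
sheets. -/
theorem DegenData.of_qExpand {y : F₀} {R Q : LaurentSeries A} (hQ : coeffMap π Q ≠ 0)
    (h : qExpand L q (G.α y : LaurentSeries L) * coeffMap A.subtype Q = coeffMap A.subtype R) :
    Integral₂ M.s₁ M.s₂ (G.α y) ∧
      qExpand k q (G.emb (rd₂ M.s₁ M.s₂ (G.α y)).1) = coeffMap π R / coeffMap π Q := by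
  obtain ⟨h1, h1r⟩ := G.ratios₁.of_qExpand hQ h
  refine ⟨⟨h1, (G.ratios₂.of_qExpand (q := q) (h := G.α y) (R := qExpand A q R) (Q := qExpand A q Q)
    ?_ ?_).1⟩, h1r⟩
  · rw [qExpand_coeffMap_eq (q := q)]
    exact (map_ne_zero_iff _ (qExpand_injective q)).mpr hQ
  · show qExpand L q ((G.W (G.α y) : F) : LaurentSeries L) * _ = _
    rw [G.coe_W, qExpand_coeffMap_eq, qExpand_coeffMap_eq, ← h, map_mul, G.coe_α]

/-- A pair of sheets seen through `W'`. -/
structure PushSide (W' : F ≃ₐ[L] F) (idx : Kb × Kb → Kb) where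
  sa : Sheet π F Kb
  sb : Sheet π F Kb
  ratiosa : HasRatios sa (F.val.comp W'.toAlgHom) G.emb
  ratiosb : HasRatios sb (F.val.comp (W'.trans G.W).toAlgHom) G.emb
  mem : ∀ f, Integral₂ M.s₁ M.s₂ f → f ∈ sa.W ∧ f ∈ sb.W
  rd_one : ∀ f, rd₂ M.s₁ M.s₂ f = 1 → sa.rd f = 1 ∧ sb.rd f = 1
  idx_eq : ∀ f, idx (rd₂ M.s₁ M.s₂ f) = sa.rd f
  infinity : PreservesInfinity (M := M) W'

variable {G} {W' : F ≃ₐ[L] F} {idx : Kb × Kb → Kb} (S : PushSide G W' idx)

/-- Ratios on both sheets of a function. -/
theorem PushSide.exists_ratios {f : F} (hf : Integral₂ M.s₁ M.s₂ f) :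
    ∃ ya za yb zb : LaurentSeries A, coeffMap π za ≠ 0 ∧ coeffMap π zb ≠ 0 ∧
      ((W' f : F) : LaurentSeries L) * coeffMap A.subtype za = coeffMap A.subtype ya ∧
      ((G.W (W' f) : F) : LaurentSeries L) * coeffMap A.subtype zb = coeffMap A.subtype yb ∧
      G.emb (S.sa.rd f) * coeffMap π za = coeffMap π ya ∧
      G.emb (S.sb.rd f) * coeffMap π zb = coeffMap π yb := by
  obtain ⟨ya, za, ha, har⟩ := S.ratiosa f (S.mem f hf).1
  obtain ⟨yb, zb, hb, hbr⟩ := S.ratiosb f (S.mem f hf).2
  exact ⟨ya, za, yb, zb, ha.red_ne, hb.red_ne, ha.eq, hb.eq, har, hbr⟩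

omit [IsAlgClosed k] [CharZero L] hq in
theorem normSeries_red [CharP k q] [Fact q.Prime] {ζA : Aˣ}
    (hζA : Units.map (π : A →* k) ζA = 1) (y₁ y₂ : LaurentSeries A) :
    coeffMap π (normSeries (q := q) ζA y₁ y₂) =
      qExpand k q (coeffMap π y₁) * coeffMap π y₂ ^ q := by
  rw [coeffMap_normSeries, hζA, normSeries_one_unit]

/-- The expansion of the norm of a ratio. -/
theorem DegenData.norm_ratio {ζ : Lˣ} (hζ : IsPrimitiveRoot ζ q) {ζA : Aˣ}
    (hζA : Units.map (A.subtype : A →* L) ζA = ζ) {f : F} {ya za yb zb : LaurentSeries A}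
    (ha : (f : LaurentSeries L) * coeffMap A.subtype za = coeffMap A.subtype ya)
    (hb : ((G.W f : F) : LaurentSeries L) * coeffMap A.subtype zb = coeffMap A.subtype yb) :
    qExpand L q (G.α (normAlong G.α f) : LaurentSeries L) *
        coeffMap A.subtype (normSeries (q := q) ζA za zb) =
      coeffMap A.subtype (normSeries (q := q) ζA ya yb) := by
  rw [G.qExpand_norm hζ, coeffMap_normSeries, coeffMap_normSeries, hζA, ← normSeries_mul, ha, hb]

include S

/-- The root of the norm has reduction one. -/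
theorem PushSide.root [CharP k q] {ζ : Lˣ} (hζ : IsPrimitiveRoot ζ q) {g : F}
    (hgi : Integral₂ M.s₁ M.s₂ g) (hg : rd₂ M.s₁ M.s₂ g = 1) {u : F₀}
    (hu : u ^ q = normAlong G.α (W' g)) :
    G.α u ∈ M.s₁.W ∧ M.s₁.rd (G.α u) = 1 := by
  haveI : CharP Kb q := charP_of_injective_algebraMap (algebraMap k Kb).injective q
  obtain ⟨ζA, hζA, hζπ⟩ := exists_unit_red (A := A) (q := q) π hζ
  obtain ⟨ya, za, yb, zb, hza, hzb, ha, hb, har, hbr⟩ := S.exists_ratios hgi
  rw [(S.rd_one g hg).1, map_one, one_mul] at har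
  rw [(S.rd_one g hg).2, map_one, one_mul] at hbr
  have hQ : coeffMap π (normSeries (q := q) ζA za zb) ≠ 0 := by
    rw [normSeries_red hζπ]
    exact mul_ne_zero ((map_ne_zero_iff _ (qExpand_injective q)).mpr hza) (pow_ne_zero _ hzb)
  obtain ⟨hi, hr⟩ := G.of_qExpand hQ (G.norm_ratio hζ hζA ha hb)
  rw [normSeries_red hζπ, normSeries_red hζπ, ← har, ← hbr,
    div_self (by rw [normSeries_red hζπ] at hQ; exact hQ)] at hr
  have h1 : (rd₂ M.s₁ M.s₂ (G.α (normAlong G.α (W' g)))).1 = 1 :=
    G.emb.injective (qExpand_injective q (by rw [hr, map_one, map_one]))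
  rw [← hu, map_pow] at hi h1
  have hm := mem_valuationSubring_of_pow M.s₁.W hq.out.one_lt.le hi.1
  refine ⟨hm, frobenius_inj Kb q ?_⟩
  rw [frobenius_def, map_one, ← Sheet.rd_pow hm]
  exact h1

/-- **The variation of the pushed function.** -/
theorem PushSide.diff [CharP k q] {ζ : Lˣ} (hζ : IsPrimitiveRoot ζ q) {u : F₀}
    (hu : G.α u ∈ M.s₁.W ∧ M.s₁.rd (G.α u) = 1) (a : A) (f f' r : F) (ha : (a : L) ≠ 0)
    (hπa : π a = 0) (hfi : Integral₂ M.s₁ M.s₂ f) (hri : Integral₂ M.s₁ M.s₂ r)
    (hf : rd₂ M.s₁ M.s₂ f = 1) (hff' : f' - f = (a : L) • r) :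
    ∃ ρ : F, Integral₂ M.s₁ M.s₂ ρ ∧
      (a : L) • ρ = G.α (u * normAlong G.α (W' f')) - G.α (u * normAlong G.α (W' f)) ∧
      (rd₂ M.s₁ M.s₂ ρ).1 = idx (rd₂ M.s₁ M.s₂ r) := by
  obtain ⟨ζA, hζA, hζπ⟩ := exists_unit_red (A := A) (q := q) π hζ
  obtain ⟨ya, za, yb, zb, hza, hzb, hfa, hfb, har, hbr⟩ := S.exists_ratios hfi
  obtain ⟨sa, ta, sb, tb, hta, htb, hra, hrb, sar, sbr⟩ := S.exists_ratios hri
  obtain ⟨U, V, hUV, hUVr⟩ := G.ratios₁ _ hu.1
  rw [hu.2, map_one, one_mul] at hUVr
  rw [(S.rd_one f hf).1, map_one, one_mul] at har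
  rw [(S.rd_one f hf).2, map_one, one_mul] at hbr
  have hf' : f' = f + (a : L) • r := by rw [← hff', add_sub_cancel]
  have hC : coeffMap A.subtype (HahnSeries.C a) = (HahnSeries.C (a : L) : LaurentSeries L) := by
    rw [HahnSeries.C_apply, coeffMap_single]; rfl
  have hfr : ∀ (e : F →ₐ[L] LaurentSeries L) (y z s t : LaurentSeries A),
      e f * coeffMap A.subtype z = coeffMap A.subtype y →
      e r * coeffMap A.subtype t = coeffMap A.subtype s →
      e f * coeffMap A.subtype (z * t) = coeffMap A.subtype (y * t) ∧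
      e f' * coeffMap A.subtype (z * t) =
        coeffMap A.subtype (y * t + HahnSeries.C a * (s * z)) := by
    intro e y z s t h1 h2
    rw [map_mul, map_mul, map_add, map_mul, map_mul, hC, map_mul, ← h1, ← h2, hf', map_add,
      map_smul, Algebra.smul_def, algebraMap_laurentSeries_eq_single, ← HahnSeries.C_apply]
    constructor <;> ring
  obtain ⟨fa, f'a⟩ := hfr (F.val.comp W'.toAlgHom) ya za sa ta hfa hra
  obtain ⟨fb, f'b⟩ := hfr (F.val.comp (W'.trans G.W).toAlgHom) yb zb sb tb hfb hrb
  have n0 := G.norm_ratio hζ hζA (f := W' f) fa fb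
  have n1 := G.norm_ratio hζ hζA (f := W' f') f'a f'b
  obtain ⟨E, hE, hEr⟩ := exists_normSeries_variation (q := q) hζπ hπa (ya * ta) (yb * tb)
    (sa * za) (sb * zb)
  rw [hE, map_add, map_mul, hC, ← n0] at n1
  set Q := qExpand A q V * normSeries (q := q) ζA (za * ta) (zb * tb)
  set R := qExpand A q U * E
  have hzta : coeffMap π (za * ta) ≠ 0 := by rw [map_mul]; exact mul_ne_zero hza hta
  have hztb : coeffMap π (zb * tb) ≠ 0 := by rw [map_mul]; exact mul_ne_zero hzb htb
  have hQr : coeffMap π Q = qExpand k q (coeffMap π V) *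
      (qExpand k q (coeffMap π (za * ta)) * coeffMap π (zb * tb) ^ q) := by
    rw [map_mul, qExpand_coeffMap_eq, normSeries_red hζπ]
  have hRr : coeffMap π R = qExpand k q (coeffMap π U) *
      (qExpand k q (coeffMap π (sa * za)) * coeffMap π (yb * tb) ^ q) := by
    rw [map_mul, qExpand_coeffMap_eq, hEr]
  have hQ : coeffMap π Q ≠ 0 := by
    rw [hQr]
    exact mul_ne_zero ((map_ne_zero_iff _ (qExpand_injective q)).mpr hUV.red_ne)
      (mul_ne_zero ((map_ne_zero_iff _ (qExpand_injective q)).mpr hzta) (pow_ne_zero _ hztb))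
  have hαsmul : ∀ (c : L) (z : F₀), G.α (c • z) = c • G.α z := fun c z => by
    rw [Algebra.smul_def, map_mul, AlgHom.commutes, ← Algebra.smul_def]
  set y := (a : L)⁻¹ • (u * normAlong G.α (W' f') - u * normAlong G.α (W' f)) with hy
  have hU := congrArg (qExpand L q) hUV.eq
  rw [map_mul, ← qExpand_coeffMap_eq, ← qExpand_coeffMap_eq] at hU
  have hkey : qExpand L q (G.α y : LaurentSeries L) * coeffMap A.subtype Q =
      coeffMap A.subtype R := by
    refine mul_left_cancel₀ (a := (HahnSeries.C (a : L) : LaurentSeries L))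
      (by simpa using ha) ?_
    have e1 : (HahnSeries.C (a : L) : LaurentSeries L) * qExpand L q (G.α y : LaurentSeries L) =
        qExpand L q (G.α u : LaurentSeries L) *
          (qExpand L q (G.α (normAlong G.α (W' f')) : LaurentSeries L) -
            qExpand L q (G.α (normAlong G.α (W' f)) : LaurentSeries L)) := by
      have : algebraMap L F (a : L) * G.α y =
          G.α u * (G.α (normAlong G.α (W' f')) - G.α (normAlong G.α (W' f))) := by
        rw [← Algebra.smul_def, hy, hαsmul, smul_inv_smul₀ ha, map_sub, map_mul, map_mul,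
          mul_sub]
      have h2 := congrArg (fun z : F => qExpand L q (z : LaurentSeries L)) this
      simp only [IntermediateField.coe_mul, AddSubgroupClass.coe_sub, map_mul, map_sub] at h2
      rw [show ((algebraMap L F (a : L) : F) : LaurentSeries L) =
        algebraMap L (LaurentSeries L) (a : L) from rfl, algebraMap_laurentSeries_eq_single,
        qExpand_single, mul_zero, ← HahnSeries.C_apply] at h2
      exact h2
    rw [← mul_assoc, e1, map_mul, map_mul]
    have hU' : qExpand L q (G.α u : LaurentSeries L) * coeffMap A.subtype (qExpand A q V) =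
        coeffMap A.subtype (qExpand A q U) := hU
    rw [← hU']
    linear_combination (qExpand L q (G.α u : LaurentSeries L) *
      coeffMap A.subtype (qExpand A q V)) * n1
  obtain ⟨hi, hr⟩ := G.of_qExpand hQ hkey
  refine ⟨G.α y, hi, by rw [hy, hαsmul, smul_inv_smul₀ ha, map_sub], G.emb.injective ?_⟩
  apply qExpand_injective q
  rw [hr, S.idx_eq, eq_comm, eq_div_iff hQ, hQr, hRr, ← hUVr]
  simp only [map_mul]
  rw [← hbr, ← sar, map_mul]
  ring

variable (T : M.Twist q)

/-- **The push-forward on one component.** -/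
def PushSide.componentPush [CharP k q] {ζ : Lˣ} (hζ : IsPrimitiveRoot ζ q)
    (hg : rd₂ M.s₁ M.s₂ T.g = 1) {u : F₀} (hu : u ^ q = normAlong G.α (W' T.g))
    (Q : M.Chart → A[X]) (hQ : ∀ C, (Q C).Monic) (hQd : ∀ C, 1 ≤ (Q C).natDegree)
    (hfac : ∀ C : M.Chart, ∃ R ∈ Reg M.Px,
      aeval M.x ((Q C).map A.subtype) = W' C.T * R) :
    ComponentPush T idx where
  push f := G.α (u * normAlong G.α (W' f))
  Q := Q
  monic := hQ
  one_le_natDegree := hQd
  diff a f f' r ha hπa hfi _ hri hf _ hff' :=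
    S.diff hζ (S.root hζ T.g_int hg hu) a f f' r ha hπa hfi hri hf hff'
  bound n f hf := by
    refine exists_mem_rr_of_mem_reg fun w hw => regular_of_pow hq.out.one_lt.le ?_
    rw [← map_pow, mul_pow, hu, ← normAlong_pow, ← normAlong_mul, ← map_pow W', ← map_mul W']
    refine G.regular_norm S.infinity (S := id) (fun v hv => ?_) w hw
    rw [mul_comm]
    exact rrSpace_nsmul_le_reg M.Px (q * n) (T.pow_mul_mem hf) v hv
  bound' C n f hf := by
    set K := (q + 1) * n with hK
    refine ⟨K, ?_⟩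
    obtain ⟨R, hR, hQR⟩ := hfac C
    have hq1 : 1 ≤ q := hq.out.one_lt.le
    set Qx := aeval M.x ((Q C).map A.subtype) with hQx
    set P := G.α (u * normAlong G.α (W' f)) with hP
    set h := C.T ^ (n * q) * (T.g * f ^ q) with hh
    have hhmem : h ∈ riemannRochSpace ((q * n) • M.Px) := by
      have := T.pow_mul_mem hf
      rwa [mul_pow, ← pow_mul, mul_assoc, mul_comm (f ^ q)] at this
    have hPq : P ^ q = G.α (normAlong G.α (W' (T.g * f ^ q))) := by
      rw [hP, ← map_pow, mul_pow, hu, ← normAlong_pow, ← normAlong_mul, ← map_pow W', ← map_mul W']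
    have hinf : ∀ w, M.Px w ≠ 0 → P = 0 ∨ 0 ≤ w.ord P := by
      intro w hw
      refine regular_of_pow hq1 ?_
      rw [hPq]
      refine G.regular_norm S.infinity (S := Not) (fun v hv => ?_) w hw
      refine (mem_riemannRochSpace_iff.mp hhmem v).imp
        (fun h0 => (mul_eq_zero.mp h0).resolve_left (pow_ne_zero _ C.T_ne)) fun h0 => ?_
      rcases eq_or_ne (T.g * f ^ q) 0 with h1 | h1
      · rw [h1]; simp
      rw [hh, v.ord_mul (pow_ne_zero _ C.T_ne) h1, ord_pow, Finsupp.smul_apply,
        nsmul_eq_mul] at h0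
      have hT := C.Px_eq v
      have hv' : 0 < M.Px v := lt_of_le_of_ne (Finsupp.le_def.mp M.Px_nonneg v) (Ne.symm hv)
      have : v.ord C.T = -M.Px v := by omega
      rw [this] at h0
      push_cast at h0
      nlinarith
    have hαQ : G.α (normAlong G.α Qx) = Qx ^ (q + 1) := by
      have hmem : Qx = G.α (aeval G.x₀ ((Q C).map A.subtype)) := by
        rw [hQx, G.x_eq, aeval_algHom_apply]
      conv_lhs => rw [hmem]
      rw [normAlong_map, map_pow, ← hmem, G.degree]
    have hfinite : ∀ w, M.Px w = 0 → Qx ^ K * P = 0 ∨ 0 ≤ w.ord (Qx ^ K * P) := by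
      intro w hw
      refine regular_of_pow hq1 ?_
      have e : (Qx ^ K * P) ^ q =
          G.α (normAlong G.α (W' (h * (W'.symm R) ^ (n * q)))) := by
        rw [mul_pow, hPq, ← pow_mul, show K * q = (q + 1) * (n * q) by rw [hK]; ring, pow_mul,
          ← hαQ, ← map_pow, ← normAlong_pow, ← map_mul, ← normAlong_mul, hQR, hh]
        simp only [map_mul, map_pow, W'.apply_symm_apply]
        congr 2
        ring
      rw [e]
      have hi : W'.toAlgHom.toRingHom.IsIntegral :=
        RingHom.isIntegral_of_surjective _ W'.surjective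
      have hR' : W'.symm R ∈ Reg M.Px := fun v hv => by
        refine regular_map (W' := W'.symm) ?_ (S := id) (fun u hu => hR u hu) v hv
        intro v'
        have hi' : W'.symm.toAlgHom.toRingHom.IsIntegral :=
          RingHom.isIntegral_of_surjective _ W'.symm.surjective
        have h1 := S.infinity (v'.restrictAlong W'.symm.toAlgHom hi')
        have o1 : v'.ord (W'.symm M.x) = _ :=
          Place.ord_restrictAlong W'.symm.toAlgHom hi' v' M.x
        have o2 : v'.ord (W'.symm (W' M.x)) = _ :=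
          Place.ord_restrictAlong W'.symm.toAlgHom hi' v' (W' M.x)
        rw [W'.symm_apply_apply] at o2
        have hepos : (0 : ℤ) < v'.ramificationIndexAlong W'.symm.toAlgHom := by
          exact_mod_cast ramificationIndexAlong_pos hi' v'
        rw [o1, o2]
        rw [mul_nonneg_iff_of_pos_left hepos, mul_nonneg_iff_of_pos_left hepos]
        exact h1.symm
      refine G.regular_norm S.infinity (S := id) (fun v hv => ?_) w hw
      refine mul_mem_reg (rrSpace_nsmul_le_reg M.Px _ hhmem) ?_ v hv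
      induction n * q with
      | zero => simpa using one_mem_reg M.Px
      | succ j ih => rw [pow_succ]; exact mul_mem_reg ih hR'
    rw [mem_riemannRochSpace_iff]
    intro w
    rcases eq_or_ne (M.Px w) 0 with hw | hw
    · refine (hfinite w hw).imp id fun h0 => ?_
      rw [Finsupp.smul_apply, hw, smul_zero, neg_zero]
      exact h0
    rcases eq_or_ne (Qx ^ K * P) 0 with h0 | h0
    · exact Or.inl h0
    right
    obtain ⟨hQ0, hP0⟩ := mul_ne_zero_iff.mp h0
    have h1 := (hinf w hw).resolve_left hP0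
    have h2 := max_neg_ord_aeval ((Q C).map A.subtype) ((hQ C).map _) M.x w
    rw [← hQx, (hQ C).natDegree_map, ← M.Px_apply] at h2
    rw [w.ord_mul hQ0 hP0, ord_pow, Finsupp.smul_apply, nsmul_eq_mul, Nat.cast_mul, mul_assoc,
      ← h2]
    have hK0 : (0 : ℤ) ≤ K := Int.natCast_nonneg K
    nlinarith [le_max_left (-w.ord Qx) 0]

end MonoDatum

end FermatLib.Igusa.Mono
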