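import Fermat.Agent.Igusa.MonoFixed

/-!
# Classes of twists

Divisor classes represented by twists of `p`-power exponent form a subgroup, stable under
automorphisms preserving both sheets; a member killed by `p` is represented by a twist of exponent
`p` with both reductions `1`, and such a member is trivial if an inertia-like automorphism fixes it.
-/

set_option autoImplicit false
set_option linter.unusedSectionVars false
set_option linter.style.haveILetI false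

noncomputable section

open AlgebraicCurve

namespace FermatLib.Igusa.Mono

universe uL uF uk uKb

namespace MonoDatum

variable {L : Type uL} {k : Type uk} [Field L] [Field k] {A : ValuationSubring L} {π : A →+* k}
  {F : Type uF} {Kb : Type uKb} [Field F] [Algebra L F] [Field Kb] [Algebra k Kb] {q : ℕ}
  {M : MonoDatum π F Kb q}

namespace Twist

variable {d e : ℕ}

/-- The class of a twist. -/
def cls (T : M.Twist d) : Pic0 L F := Pic0.mk ⟨T.D, T.degree_D⟩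

theorem rd₁_g (T : M.Twist d) : M.s₁.rd T.g = algebraMap k Kb T.c₁ := congrArg Prod.fst T.rd_g

theorem rd₂_g (T : M.Twist d) : M.s₂.rd T.g = algebraMap k Kb T.c₂ := congrArg Prod.snd T.rd_g

theorem rd₁_g_ne (T : M.Twist d) : M.s₁.rd T.g ≠ 0 := by
  rw [T.rd₁_g]
  exact (map_ne_zero_iff _ (algebraMap k Kb).injective).mpr T.c₁_ne

theorem rd₂_g_ne (T : M.Twist d) : M.s₂.rd T.g ≠ 0 := by
  rw [T.rd₂_g]
  exact (map_ne_zero_iff _ (algebraMap k Kb).injective).mpr T.c₂_ne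

variable (M) in
/-- The trivial twist. -/
def triv (d : ℕ) : M.Twist d where
  D := 0
  g := 1
  g_ne := one_ne_zero
  div v := by simp
  degree_D := map_zero _
  g_int := integral₂_one
  c₁ := 1
  c₂ := 1
  c₁_ne := one_ne_zero
  c₂_ne := one_ne_zero
  rd_g := by rw [rd₂_one, map_one]; rfl

theorem cls_triv (d : ℕ) : (Twist.triv M d).cls = 0 :=
  (QuotientAddGroup.eq_zero_iff _).mpr (zero_mem (Divisor.principal (K := L) (F := F)))

/-- A twist of exponent `d` as a twist of exponent `d * e`. -/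
def raise (T : M.Twist d) (e : ℕ) : M.Twist (d * e) where
  D := T.D
  g := T.g ^ e
  g_ne := pow_ne_zero _ T.g_ne
  div v := by rw [ord_pow, ← T.div, Nat.cast_mul]; ring
  degree_D := T.degree_D
  g_int := T.g_int.pow e
  c₁ := T.c₁ ^ e
  c₂ := T.c₂ ^ e
  c₁_ne := pow_ne_zero _ T.c₁_ne
  c₂_ne := pow_ne_zero _ T.c₂_ne
  rd_g := by rw [rd₂_pow T.g_int, T.rd_g, map_pow, map_pow]; rfl

theorem cls_raise (T : M.Twist d) (e : ℕ) : (T.raise e).cls = T.cls := rfl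

/-- The sum of two twists of the same exponent. -/
def add (T T' : M.Twist d) : M.Twist d where
  D := T.D + T'.D
  g := T.g * T'.g
  g_ne := mul_ne_zero T.g_ne T'.g_ne
  div v := by rw [v.ord_mul T.g_ne T'.g_ne, Finsupp.add_apply, mul_add, T.div, T'.div]
  degree_D := by rw [map_add, T.degree_D, T'.degree_D, add_zero]
  g_int := T.g_int.mul T'.g_int
  c₁ := T.c₁ * T'.c₁
  c₂ := T.c₂ * T'.c₂
  c₁_ne := mul_ne_zero T.c₁_ne T'.c₁_ne
  c₂_ne := mul_ne_zero T.c₂_ne T'.c₂_ne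
  rd_g := by rw [rd₂_mul T.g_int T'.g_int, T.rd_g, T'.rd_g, map_mul, map_mul]; rfl

theorem cls_add (T T' : M.Twist d) : (T.add T').cls = T.cls + T'.cls := rfl

/-- The opposite of a twist. -/
def neg (T : M.Twist d) : M.Twist d where
  D := -T.D
  g := T.g⁻¹
  g_ne := inv_ne_zero T.g_ne
  div v := by rw [v.ord_inv, Finsupp.neg_apply, mul_neg, T.div]
  degree_D := by rw [map_neg, T.degree_D, neg_zero]
  g_int := ⟨Sheet.inv_mem_of_rd_ne T.g_int.1 T.rd₁_g_ne,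
    Sheet.inv_mem_of_rd_ne T.g_int.2 T.rd₂_g_ne⟩
  c₁ := T.c₁⁻¹
  c₂ := T.c₂⁻¹
  c₁_ne := inv_ne_zero T.c₁_ne
  c₂_ne := inv_ne_zero T.c₂_ne
  rd_g := Prod.ext
    ((Sheet.rd_inv T.g_int.1 T.rd₁_g_ne).trans (by rw [T.rd₁_g, map_inv₀]))
    ((Sheet.rd_inv T.g_int.2 T.rd₂_g_ne).trans (by rw [T.rd₂_g]; exact (map_inv₀ _ _).symm))

theorem cls_neg (T : M.Twist d) : T.neg.cls = -T.cls := rfl

theorem cls_eq_zero_of_rr_ne_bot (T : M.Twist d) (h : riemannRochSpace T.D ≠ ⊥) :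
    T.cls = 0 := by
  obtain ⟨u, hu, hu0⟩ := Submodule.exists_mem_ne_zero_of_ne_bot h
  obtain ⟨E, hE, hE0⟩ := M.rrF.exists_div hu0
  have hneg : -T.D = E := by
    refine eq_of_le_of_degree_eq M.rrF.deg_one (Finsupp.le_def.mpr fun v => ?_)
      (by rw [map_neg, T.degree_D, neg_zero, hE0])
    rw [Finsupp.neg_apply, hE]
    exact ((mem_riemannRochSpace_iff.mp hu) v).resolve_left hu0
  have hprin : T.D ∈ Divisor.principal (K := L) (F := F) := by
    have hEp : E ∈ Divisor.principal (K := L) (F := F) := ⟨u, hu0, hE⟩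
    rw [← hneg] at hEp
    simpa using neg_mem hEp
  exact (QuotientAddGroup.eq_zero_iff _).mpr hprin

theorem isPrincipal_of_smul_cls (T : M.Twist d) {g : SemilinearAut L F}
    (h : g • T.cls = T.cls) : Divisor.IsPrincipal (g • T.D - T.D) := by
  have h' : Pic0.mk (SemilinearAut.degZeroSMulHom g ⟨T.D, T.degree_D⟩ - ⟨T.D, T.degree_D⟩) = 0 := by
    rw [← sub_eq_zero] at h
    exact h
  exact (QuotientAddGroup.eq_zero_iff _).mp h'

end Twist

variable (M) in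
/-- Classes represented by a twist whose exponent is a power of `p`. -/
def twistClasses (p : ℕ) : AddSubgroup (Pic0 L F) where
  carrier := {x | ∃ j : ℕ, ∃ T : M.Twist (p ^ j), T.cls = x}
  zero_mem' := ⟨0, Twist.triv M _, Twist.cls_triv _⟩
  add_mem' := by
    rintro _ _ ⟨i, T, rfl⟩ ⟨j, T', rfl⟩
    refine ⟨i + j, ?_⟩
    rw [pow_add]
    have hT' : ∃ T'' : M.Twist (p ^ i * p ^ j), T''.cls = T'.cls := by
      rw [mul_comm]
      exact ⟨T'.raise _, rfl⟩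
    obtain ⟨T'', hT''⟩ := hT'
    exact ⟨(T.raise (p ^ j)).add T'', by rw [Twist.cls_add, hT'', Twist.cls_raise]⟩
  neg_mem' := by
    rintro _ ⟨i, T, rfl⟩
    exact ⟨i, T.neg, T.cls_neg⟩

/-- An automorphism fixing both sheets moves torsion classes by twist classes. -/
theorem Fixes.smul_sub_mem_twistClasses {g : SemilinearAut L F} (hg : M.Fixes g) {p j : ℕ}
    {x : Pic0 L F} (hx : p ^ j • x = 0) : g • x - x ∈ M.twistClasses p := by
  obtain ⟨⟨D, hD0⟩, rfl⟩ := Pic0.mk_surjective x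
  have h0 : Pic0.mk (p ^ j • (⟨D, hD0⟩ : Divisor.degZero (K := L) (F := F))) = 0 := by
    rw [← hx]
    exact map_nsmul (QuotientAddGroup.mk' _) _ _
  obtain ⟨f, hf0, hfD⟩ : Divisor.IsPrincipal (p ^ j • D) := by
    have h1 := (QuotientAddGroup.eq_zero_iff _).mp h0
    rwa [AddSubgroup.mem_addSubgroupOf, AddSubgroupClass.coe_nsmul] at h1
  have hgf : g • f ≠ 0 := (smul_ne_zero_iff_ne g).mpr hf0
  obtain ⟨w₁, c₁, hc₁, e₁⟩ := M.exists_sheet_const M.s₁ M.scale₁ hg hg.mem₁ hg.rd₁ hf0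
  obtain ⟨w₂, c₂, hc₂, e₂⟩ := M.exists_sheet_const M.s₂ M.scale₂ hg hg.mem₂ hg.rd₂' hf0
  have hD0' : Divisor.degree D = 0 := hD0
  refine ⟨j,
    { D := g • D - D, g := (g • f) / f, g_ne := div_ne_zero hgf hf0
      div := fun v => by
        have h1 := hfD v
        have h2 := hfD (g⁻¹ • v)
        rw [Finsupp.smul_apply, nsmul_eq_mul] at h1 h2
        have h3 := SemilinearAut.ord_smul g (g⁻¹ • v) f
        rw [smul_inv_smul] at h3
        rw [div_eq_mul_inv, v.ord_mul hgf (inv_ne_zero hf0), v.ord_inv, h3,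
          Finsupp.sub_apply, SemilinearAut.divisor_smul_apply, mul_sub, h1, h2]
        ring
      degree_D := by rw [map_sub, SemilinearAut.degree_smul, hD0', sub_zero]
      g_int := ⟨w₁, w₂⟩, c₁ := c₁, c₂ := c₂, c₁_ne := hc₁, c₂_ne := hc₂
      rd_g := Prod.ext e₁ e₂ }, rfl⟩

/-- Automorphisms preserving both sheets and their nonzero constant reductions preserve the twist
classes. -/
theorem smul_mem_twistClasses (g : SemilinearAut L F) (h1 : ∀ a ∈ M.s₁.W, g • a ∈ M.s₁.W)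
    (h1c : ∀ a ∈ M.s₁.W, (∃ c : k, c ≠ 0 ∧ M.s₁.rd a = algebraMap k Kb c) →
      ∃ c : k, c ≠ 0 ∧ M.s₁.rd (g • a) = algebraMap k Kb c)
    (h2 : ∀ a ∈ M.s₂.W, g • a ∈ M.s₂.W)
    (h2c : ∀ a ∈ M.s₂.W, (∃ c : k, c ≠ 0 ∧ M.s₂.rd a = algebraMap k Kb c) →
      ∃ c : k, c ≠ 0 ∧ M.s₂.rd (g • a) = algebraMap k Kb c)
    {p : ℕ} {x : Pic0 L F} (hx : x ∈ M.twistClasses p) : g • x ∈ M.twistClasses p := by
  obtain ⟨j, T, rfl⟩ := hx
  obtain ⟨c₁, hc₁, e₁⟩ := h1c _ T.g_int.1 ⟨_, T.c₁_ne, T.rd₁_g⟩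
  obtain ⟨c₂, hc₂, e₂⟩ := h2c _ T.g_int.2 ⟨_, T.c₂_ne, T.rd₂_g⟩
  exact ⟨j,
    { D := g • T.D, g := g • T.g, g_ne := (smul_ne_zero_iff_ne g).mpr T.g_ne
      div := fun v => by
        have h3 := SemilinearAut.ord_smul g (g⁻¹ • v) T.g
        rw [smul_inv_smul] at h3
        rw [h3, SemilinearAut.divisor_smul_apply, T.div]
      degree_D := by rw [SemilinearAut.degree_smul, T.degree_D]
      g_int := ⟨h1 _ T.g_int.1, h2 _ T.g_int.2⟩, c₁ := c₁, c₂ := c₂, c₁_ne := hc₁, c₂_ne := hc₂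
      rd_g := Prod.ext e₁ e₂ }, rfl⟩

/-- A function with reductions `(1, s)` for a nonzero constant `s`. -/
theorem exists_rd_one_const (M : MonoDatum π F Kb q) (s : k) :
    ∃ h : F, h ≠ 0 ∧ Integral₂ M.s₁ M.s₂ h ∧
      rd₂ M.s₁ M.s₂ h = (1, algebraMap k Kb s) := by
  obtain ⟨c, hc, hne⟩ := M.Φ_moves
  set φ := M.Φ (M.Φ c) - c with hφ
  have hφ0 : φ ≠ 0 := sub_ne_zero.mpr hne
  have hreg : φ ∈ Reg M.P₁ := (Reg M.P₁).sub_mem (M.Φ_reg _ (M.Φ_reg _ hc)) hc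
  have hZ : ∀ v ∈ M.Z, valAt v φ = 0 := fun v hv => hv.2 c hc
  have h10 := M.pair_zero_mem_U hreg hZ
  have h01 := M.zero_pair_mem_U hreg hZ
  obtain ⟨-, -, N, a, -, hai, har⟩ :=
    M.mem_U.mp (M.U.add_mem h10 (M.U.smul_mem s h01))
  obtain ⟨-, -, N', b, -, hbi, hbr⟩ := M.mem_U.mp (M.U.add_mem h10 h01)
  have hb1 : M.s₁.rd b = φ := (congrArg Prod.fst hbr).trans (by simp)
  have hb2 : M.s₂.rd b = φ := (congrArg Prod.snd hbr).trans (by simp)
  have ha1 : M.s₁.rd a = φ := (congrArg Prod.fst har).trans (by simp)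
  have ha2 : M.s₂.rd a = algebraMap k Kb s * φ :=
    (congrArg Prod.snd har).trans (by simp [Algebra.smul_def])
  have hb1' : M.s₁.rd b ≠ 0 := hb1 ▸ hφ0
  have hb2' : M.s₂.rd b ≠ 0 := hb2 ▸ hφ0
  have hbinv : Integral₂ M.s₁ M.s₂ b⁻¹ :=
    ⟨Sheet.inv_mem_of_rd_ne hbi.1 hb1', Sheet.inv_mem_of_rd_ne hbi.2 hb2'⟩
  have hr : rd₂ M.s₁ M.s₂ (a * b⁻¹) = (1, algebraMap k Kb s) := by
    rw [rd₂_mul hai hbinv]
    refine Prod.ext ?_ ?_
    · show M.s₁.rd a * M.s₁.rd b⁻¹ = 1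
      rw [Sheet.rd_inv hbi.1 hb1', ha1, hb1, mul_inv_cancel₀ hφ0]
    · show M.s₂.rd a * M.s₂.rd b⁻¹ = _
      rw [Sheet.rd_inv hbi.2 hb2', ha2, hb2, mul_inv_cancel_right₀ hφ0]
  refine ⟨a * b⁻¹, fun h0 => ?_, hai.mul hbinv, hr⟩
  rw [h0, rd₂_zero] at hr
  exact zero_ne_one (congrArg Prod.fst hr)

variable [IsAlgClosed k]

/-- A function one of whose powers is a twist function has constant reductions. -/
theorem exists_twist_prime_aux {p j : ℕ} [hp : Fact p.Prime] [CharP k p]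
    (T : M.Twist (p ^ j * p)) {f : F} (hf : f ≠ 0) (hdiv : ∀ v, (p : ℤ) * T.D v = v.ord f) :
    ∃ T₁ : M.Twist p, T₁.D = T.D := by
  haveI : CharP Kb p := charP_of_injective_algebraMap (algebraMap k Kb).injective p
  have hm : 1 ≤ (p ^ j) := Nat.one_le_pow _ _ hp.out.pos
  obtain ⟨b, hb, hb0⟩ := M.scale₁ f hf
  have hb' : b ≠ 0 := fun h => by rw [h, zero_smul, Sheet.rd_zero] at hb0; exact hb0 rfl
  set f₁ := b • f with hf₁
  have hf₁0 : f₁ ≠ 0 := smul_ne_zero hb' hf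
  have hord : ∀ v : Place L F, v.ord f₁ = v.ord f := fun v => by
    rw [hf₁, Algebra.smul_def, v.ord_mul (by simpa using hb') hf, ord_algebraMap, zero_add]
  have hpow0 : f₁ ^ (p ^ j) ≠ 0 := pow_ne_zero _ hf₁0
  obtain ⟨c, hc⟩ := M.rrF.exists_eq_algebraMap (f := T.g * (f₁ ^ (p ^ j))⁻¹) (by
    rw [mem_riemannRochSpace_iff]
    intro v
    right
    rw [v.ord_mul T.g_ne (inv_ne_zero hpow0), v.ord_inv, ord_pow, hord, ← T.div, ← hdiv,
      Nat.cast_mul, mul_assoc, add_neg_cancel]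
    simp)
  have hcA : c ∈ A := by
    refine Sheet.mem_of_algebraMap_mem (s := M.s₁) M.π_eq_zero ?_
    rw [← hc]
    refine mul_mem T.g_int.1 (Sheet.inv_mem_of_rd_ne (pow_mem hb (p ^ j)) ?_)
    rw [Sheet.rd_pow hb]
    exact pow_ne_zero _ hb0
  have hg : T.g = algebraMap L F c * f₁ ^ (p ^ j) := by
    rw [← hc, inv_mul_cancel_right₀ hpow0]
  have hc0 : π ⟨c, hcA⟩ ≠ 0 := by
    intro h0
    refine T.rd₁_g_ne ?_
    rw [hg, Sheet.rd_mul (Sheet.algebraMap_mem hcA) (pow_mem hb (p ^ j)), Sheet.rd_algebraMap hcA, h0,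
      map_zero, zero_mul]
  obtain ⟨ci, hci⟩ := exists_inv_of_red_ne M.π_eq_zero hc0
  have hpw : f₁ ^ (p ^ j) = algebraMap L F (ci : L) * T.g := by
    rw [hg, ← mul_assoc, ← map_mul, hci, map_one, one_mul]
  have hint : Integral₂ M.s₁ M.s₂ f₁ := ⟨hb, mem_valuationSubring_of_pow _ hm (by
    rw [hpw]; exact mul_mem (Sheet.algebraMap_mem ci.2) T.g_int.2)⟩
  have hπ : π ci * π ⟨c, hcA⟩ = 1 := by
    rw [← map_mul, ← map_one π]
    exact congrArg π (Subtype.ext hci)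
  obtain ⟨b₁, hb₁⟩ := IsAlgClosed.exists_pow_nat_eq (π ci * T.c₁) hm
  obtain ⟨b₂, hb₂⟩ := IsAlgClosed.exists_pow_nat_eq (π ci * T.c₂) hm
  have hinj : ∀ u v : Kb, u ^ (p ^ j) = v ^ (p ^ j) → u = v := fun u v h => by
    rw [← iterate_frobenius, ← iterate_frobenius] at h
    exact ((frobenius_inj Kb p).iterate j) h
  have hne : ∀ (b' : k) (c' : k), c' ≠ 0 → b' ^ (p ^ j) = π ci * c' → b' ≠ 0 := fun b' c' hc' h h0 => by
    rw [h0, zero_pow (by omega)] at h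
    exact mul_ne_zero (left_ne_zero_of_mul_eq_one hπ) hc' h.symm
  refine ⟨
    { D := T.D, g := f₁, g_ne := hf₁0
      div := fun v => by rw [hord, hdiv]
      degree_D := T.degree_D, g_int := hint, c₁ := b₁, c₂ := b₂
      c₁_ne := hne b₁ _ T.c₁_ne hb₁
      c₂_ne := hne b₂ _ T.c₂_ne hb₂
      rd_g := Prod.ext (hinj _ _ ?_) (hinj _ _ ?_) }, rfl⟩
  · rw [← map_pow, hb₁, ← Prod.pow_fst, ← congrArg Prod.fst (rd₂_pow hint (p ^ j)), hpw,
      rd₂_mul (integral₂_algebraMap ci.2) T.g_int, Prod.fst_mul, map_mul]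
    exact congrArg₂ (· * ·) (Sheet.rd_algebraMap ci.2) T.rd₁_g
  · rw [← map_pow, hb₂, ← Prod.pow_snd, ← congrArg Prod.snd (rd₂_pow hint (p ^ j)), hpw,
      rd₂_mul (integral₂_algebraMap ci.2) T.g_int, Prod.snd_mul, map_mul]
    exact congrArg₂ (· * ·) (Sheet.rd_algebraMap ci.2) T.rd₂_g

/-- A twist class killed by `p` comes from a twist of exponent `p` with reductions `1`. -/
theorem exists_twist_prime {p : ℕ} [hp : Fact p.Prime] [CharP k p] {x : Pic0 L F}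
    (hx : x ∈ M.twistClasses p) (hpx : p • x = 0) :
    ∃ T : M.Twist p, T.cls = x ∧ rd₂ M.s₁ M.s₂ T.g = 1 := by
  obtain ⟨j, T₀, rfl⟩ := hx
  have h0 : Pic0.mk (p • (⟨T₀.D, T₀.degree_D⟩ : Divisor.degZero (K := L) (F := F))) = 0 := by
    rw [← hpx]
    exact map_nsmul (QuotientAddGroup.mk' _) _ _
  obtain ⟨f, hf0, hfD⟩ : Divisor.IsPrincipal (p • T₀.D) := by
    have h1 := (QuotientAddGroup.eq_zero_iff _).mp h0
    rwa [AddSubgroup.mem_addSubgroupOf, AddSubgroupClass.coe_nsmul] at h1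
  obtain ⟨T₁, hD₁⟩ := exists_twist_prime_aux (T₀.raise p) hf0 (fun v => by
    rw [← hfD v, Finsupp.smul_apply, nsmul_eq_mul]; rfl)
  -- normalise the first constant
  obtain ⟨a, ha⟩ := M.π_surjective T₁.c₁⁻¹
  obtain ⟨s, hs⟩ := IsAlgClosed.exists_pow_nat_eq (T₁.c₁ / T₁.c₂) hp.out.pos
  obtain ⟨h, hh0, hhi, hhr⟩ := exists_rd_one_const M s
  obtain ⟨E, hE, hE0⟩ := M.rrF.exists_div hh0
  have ha0 : (a : L) ≠ 0 := fun h0 => by
    have ha' : a = 0 := Subtype.ext h0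
    rw [ha', map_zero] at ha
    exact inv_ne_zero T₁.c₁_ne ha.symm
  have haF : algebraMap L F (a : L) ≠ 0 := by simpa using ha0
  have hint : Integral₂ M.s₁ M.s₂ (algebraMap L F (a : L) * T₁.g * h ^ p) :=
    ((integral₂_algebraMap a.2).mul T₁.g_int).mul (hhi.pow p)
  have hone : rd₂ M.s₁ M.s₂ (algebraMap L F (a : L) * T₁.g * h ^ p) = 1 := by
    rw [rd₂_mul ((integral₂_algebraMap a.2).mul T₁.g_int) (hhi.pow p),
      rd₂_mul (integral₂_algebraMap a.2) T₁.g_int, rd₂_pow hhi, hhr]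
    refine Prod.ext ?_ ?_
    · show M.s₁.rd (algebraMap L F (a : L)) * M.s₁.rd T₁.g * (1 : Kb) ^ p = 1
      rw [one_pow, mul_one, Sheet.rd_algebraMap a.2, T₁.rd₁_g, ← map_mul, ha,
        inv_mul_cancel₀ T₁.c₁_ne, map_one]
    · show M.s₂.rd (algebraMap L F (a : L)) * M.s₂.rd T₁.g * algebraMap k Kb s ^ p = 1
      rw [Sheet.rd_algebraMap a.2, T₁.rd₂_g, ← map_pow, ← map_mul, ← map_mul, ha, hs,
        ← map_one (algebraMap k Kb)]
      congr 1
      field_simp [T₁.c₁_ne, T₁.c₂_ne]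
  refine ⟨
    { D := T₁.D + E, g := algebraMap L F (a : L) * T₁.g * h ^ p
      g_ne := mul_ne_zero (mul_ne_zero haF T₁.g_ne) (pow_ne_zero _ hh0)
      div := fun v => by
        rw [v.ord_mul (mul_ne_zero haF T₁.g_ne) (pow_ne_zero _ hh0), v.ord_mul haF T₁.g_ne,
          ord_algebraMap, ord_pow, zero_add, ← T₁.div, ← hE, Finsupp.add_apply, mul_add]
      degree_D := by rw [map_add, T₁.degree_D, hE0, add_zero]
      g_int := hint, c₁ := 1, c₂ := 1, c₁_ne := one_ne_zero, c₂_ne := one_ne_zero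
      rd_g := by rw [hone, map_one]; rfl }, ?_, hone⟩
  refine (QuotientAddGroup.eq_iff_sub_mem).mpr ?_
  rw [AddSubgroup.mem_addSubgroupOf]
  show T₁.D + E - T₀.D ∈ Divisor.principal (K := L) (F := F)
  rw [hD₁]
  show T₀.D + E - T₀.D ∈ Divisor.principal (K := L) (F := F)
  rw [add_sub_cancel_left]
  exact ⟨h, hh0, hE⟩

variable [IsAlgClosed L]

/-- **No fixed twist classes of order `p`.** -/
theorem eq_zero_of_fixed {p : ℕ} [hp : Fact p.Prime] [CharP k p] {x : Pic0 L F}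
    (hx : x ∈ M.twistClasses p) (hpx : p • x = 0) {g : SemilinearAut L F} (hgx : g • x = x)
    (hfix : M.Fixes g) (hpL : (p : L) ≠ 0)
    (hlift : ∀ b : k, ∃ c : A, SemilinearAut.baseAut g (c : L) = c ∧ π c = b)
    (hz : ∃ (z w : L) (e : A), z ≠ 0 ∧ z ^ (p - 1) = p * (e : L) ∧ π e ≠ 0 ∧
      SemilinearAut.baseAut g z = w * z ∧ ∃ hw : w ∈ A, π ⟨w, hw⟩ ≠ 1)
    (hsplit : ∀ T : M.Twist p, T.cls = x → rd₂ M.s₁ M.s₂ T.g = 1 → SplitsComponents T) :
    x = 0 := by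
  obtain ⟨T, hT, hT1⟩ := exists_twist_prime hx hpx
  rw [← hT]
  exact T.cls_eq_zero_of_rr_ne_bot (rr_ne_bot_of_fixed hpL T hT1 (hsplit T hT hT1) hfix hlift
    (T.isPrincipal_of_smul_cls (by rw [hT, hgx])) hz)

end MonoDatum

end FermatLib.Igusa.Mono
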