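/-
Twists of level `q M` killed by both push-forwards to level `M` split their components.
-/
import Fermat.Agent.Igusa.MonoPushNorm
import Fermat.Agent.Igusa.MonoSwap
import Fermat.Agent.Igusa.MonoTwistClass
import Fermat.Agent.Modular.CorrPush
import Fermat.Agent.Modular.ModularPoly

/-!
# Component splitting at level `q M`

For a two-sheet datum of `ℚ̄(X₀(q M))` given by expansions at `∞` and after `w_q`, a twist of
exponent `q` whose class is killed by the two push-forwards to level `M` has split components.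
-/

set_option autoImplicit false
set_option linter.style.haveILetI false
set_option linter.unusedSectionVars false
set_option synthInstance.maxHeartbeats 400000

noncomputable section

open AlgebraicCurve ModularCurve Polynomial

namespace FermatLib.Igusa.Mono

open FermatLib.Modular.Corr

attribute [local instance] neZero_mul'

local notation "Qb" => AlgebraicClosure ℚ

theorem jBar_eq_jqModC : jBar Qb = jqModC Qb := by
  rw [jBar, ← jqModC_rat, coeffEmb, coeffMap_jqModC]

variable {q M : ℕ} [hq : Fact q.Prime] [NeZero M] [NeZero q] (hqM : ¬ q ∣ M)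

/-- `w_q` turns the inclusion of level `M` into `u ↦ u ^ q`. -/
theorem coe_monoSwap_alphaMap (y : fieldBar Qb M) :
    (monoSwap hqM (alphaMap q M y) : LaurentSeries Qb) =
      qExpand Qb q (y : LaurentSeries Qb) := by
  let φ : fieldBar Qb M →ₐ[Qb] LaurentSeries Qb :=
    ((fieldBar Qb (q * M)).val.comp (monoSwap hqM).toAlgHom).comp (alphaMap q M)
  let ψ : fieldBar Qb M →ₐ[Qb] LaurentSeries Qb :=
    (qExpandBar Qb q).comp (fieldBar Qb M).val
  show φ y = ψ y
  obtain ⟨y, hy⟩ := y
  have hy' : y ∈ IntermediateField.adjoin Qb (divisorExpansionsC Qb M) := by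
    rwa [← laurentBaseChange_full_eq]
  revert hy
  induction hy' using IntermediateField.adjoin_induction with
  | mem x hx =>
    intro hx'
    obtain ⟨d, hne, hd, rfl⟩ := hx
    set e : LevelDiv q M := ⟨d, Nat.mem_divisors.mpr ⟨hd.mul_left q, monoLevel_ne_zero⟩⟩
    show (monoSwap hqM (alphaMap q M ⟨_, hx'⟩) : LaurentSeries Qb) = qExpand Qb q _
    rw [coe_monoSwap_of_eq hqM (e := e) (by rw [coe_barIncl]; rfl)]
    rcases monoLevel_cases hqM e with ⟨-, -, hs⟩ | ⟨d', -, hed, -⟩
    · show levelGen q M (swapDiv hqM e) = qExpand Qb q (qExpand Qb d (jqModC Qb))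
      rw [levelGen, qExpand_qExpand]
      exact qExpand_congr hs _
    · exact absurd ((show q ∣ d from ⟨d', hed⟩).trans hd) hqM
  | algebraMap a =>
    intro h
    rw [show (⟨_, h⟩ : fieldBar Qb M) = algebraMap Qb (fieldBar Qb M) a from rfl, φ.commutes,
      ψ.commutes]
  | add x z hx hz ihx ihz =>
    intro h
    have hxM : x ∈ fieldBar Qb M := by rwa [fieldBar, laurentBaseChange_full_eq]
    have hzM : z ∈ fieldBar Qb M := by rwa [fieldBar, laurentBaseChange_full_eq]
    rw [show (⟨_, h⟩ : fieldBar Qb M) = ⟨x, hxM⟩ + ⟨z, hzM⟩ from rfl, map_add, map_add, ihx,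
      ihz]
  | inv x hx ihx =>
    intro h
    have hxM : x ∈ fieldBar Qb M := by rwa [fieldBar, laurentBaseChange_full_eq]
    rw [show (⟨_, h⟩ : fieldBar Qb M) = (⟨x, hxM⟩ : fieldBar Qb M)⁻¹ from rfl, map_inv₀,
      map_inv₀, ihx]
  | mul x z hx hz ihx ihz =>
    intro h
    have hxM : x ∈ fieldBar Qb M := by rwa [fieldBar, laurentBaseChange_full_eq]
    have hzM : z ∈ fieldBar Qb M := by rwa [fieldBar, laurentBaseChange_full_eq]
    rw [show (⟨_, h⟩ : fieldBar Qb M) = ⟨x, hxM⟩ * ⟨z, hzM⟩ from rfl, map_mul, map_mul, ihx,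
      ihz]

theorem monoSwap_alphaMap (y : fieldBar Qb M) :
    monoSwap hqM (alphaMap q M y) = betaMap q M y :=
  Subtype.ext ((coe_monoSwap_alphaMap hqM y).trans (coe_barBeta _ _ _).symm)

theorem monoSwap_betaMap (y : fieldBar Qb M) :
    monoSwap hqM (betaMap q M y) = alphaMap q M y := by
  rw [← monoSwap_alphaMap hqM, monoSwap_monoSwap]

variable (q M) in
/-- `j` at level `M`. -/
def jBottom : fieldBar Qb M := ⟨jBar Qb, jBar_mem_fieldBar M⟩

/-- The modular equation between `j` and its two images at level `q M`. -/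
theorem eval₂_modularPolynomial_eq_zero :
    (FermatLib.Modular.modularPolynomialData q).Φ.eval₂
      (aeval (alphaMap q M (jBottom M))).toRingHom (betaMap q M (jBottom M)) = 0 := by
  apply (fieldBar Qb (q * M)).val.toRingHom.injective
  rw [Polynomial.hom_eval₂, map_zero]
  have h := congrArg (coeffEmb Qb) (FermatLib.Modular.modularPolynomialData q).eval_eq_zero
  rw [Polynomial.hom_eval₂, map_zero] at h
  rw [← h]
  congr 1
  · refine Polynomial.ringHom_ext' (Subsingleton.elim _ _) ?_
    simp [coe_barIncl, jBottom, jBar]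
  · show ((betaMap q M (jBottom M) : fieldBar Qb (q * M)) : LaurentSeries Qb) = _
    rw [coe_barBeta, jqN, FermatLib.Modular.Corr.coeffEmb_qExpand]
    rfl

variable {A : ValuationSubring Qb} {π : A →+* IsLocalRing.ResidueField A}
  {Kb : Type*} [Field Kb] [Algebra (IsLocalRing.ResidueField A) Kb]
  (D : MonoDatum π (fieldBar Qb (q * M)) Kb q)

include hqM in
theorem eval₂_swap_eq_zero :
    (FermatLib.Modular.modularPolynomialData q).Φ.eval₂
      (aeval (betaMap q M (jBottom M))).toRingHom (alphaMap q M (jBottom M)) = 0 := by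
  have h := congrArg (monoSwap hqM) (eval₂_modularPolynomial_eq_zero (q := q) (M := M))
  rw [map_zero] at h
  rw [← h, show (monoSwap hqM) _ = (monoSwap hqM).toAlgHom.toRingHom _ from rfl,
    Polynomial.hom_eval₂]
  congr 1
  · refine Polynomial.ringHom_ext' (Subsingleton.elim _ _) ?_
    simp [monoSwap_alphaMap]
  · exact (monoSwap_betaMap hqM _).symm

/-- `w_q` preserves the places over `j = ∞`. -/
theorem preservesInfinity_monoSwap (hx : D.x = alphaMap q M (jBottom M)) :
    MonoDatum.PreservesInfinity (M := D) (monoSwap hqM) := by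
  intro w
  rw [hx, monoSwap_alphaMap]
  set Φ := (FermatLib.Modular.modularPolynomialData q).Φ
  have key : ∀ s t : fieldBar Qb (q * M), Φ.eval₂ (aeval s).toRingHom t = 0 → 0 ≤ w.ord s →
      0 ≤ w.ord t := by
    intro s t hst hs
    refine ord_nonneg_of_root w ((FermatLib.Modular.modularPolynomialData q).monic.map
      (aeval s).toRingHom) (fun i => ?_) (by rwa [eval_map])
    rw [coeff_map]
    show aeval s (Φ.coeff i) = 0 ∨ 0 ≤ w.ord (aeval s (Φ.coeff i))
    rw [aeval_def, eval₂_eq_sum_range]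
    refine Finset.sum_induction _ (fun f => f = 0 ∨ 0 ≤ w.ord f) (fun f g => ord_add_ge w)
      (Or.inl rfl) fun j _ => ?_
    rcases eq_or_ne s 0 with rfl | hs0
    · rcases Nat.eq_zero_or_pos j with rfl | hj
      · right
        rw [pow_zero, mul_one, IsScalarTower.algebraMap_apply ℤ Qb, ord_algebraMap]
      · exact Or.inl (by rw [zero_pow hj.ne', mul_zero])
    rcases eq_or_ne (algebraMap ℤ (fieldBar Qb (q * M)) ((Φ.coeff i).coeff j)) 0 with h0 | h0
    · exact Or.inl (by rw [h0, zero_mul])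
    right
    rw [w.ord_mul h0 (pow_ne_zero _ hs0), ord_pow, IsScalarTower.algebraMap_apply ℤ Qb,
      ord_algebraMap, zero_add]
    positivity
  exact ⟨key _ _ (eval₂_swap_eq_zero hqM), key _ _ eval₂_modularPolynomial_eq_zero⟩

theorem finrankAlong_alphaMap (hqM : ¬ q ∣ M) :
    finrankAlong Qb (alphaMap q M) = q + 1 := by
  have h := finrankAlong_barIncl_mul (levelFacts Qb) (dvd_mul_left M q)
  rw [show dedekindPsi (q * M) = (q + 1) * dedekindPsi M by
    rw [mul_comm q M, dedekindPsi_mul_prime M hq.out, if_neg hqM]] at h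
  exact Nat.eq_of_mul_eq_mul_right (dedekindPsi_pos' M) h

variable (emb : Kb →+* LaurentSeries (IsLocalRing.ResidueField A))

/-- The degeneracy data of level `q M` over level `M`. -/
def degenData (hx : D.x = alphaMap q M (jBottom M))
    (h₁ : HasRatios D.s₁ (fieldBar Qb (q * M)).val emb)
    (h₂ : HasRatios D.s₂ ((fieldBar Qb (q * M)).val.comp (monoSwap hqM).toAlgHom) emb) :
    D.DegenData (F₀ := fieldBar Qb M) where
  α := alphaMap q M
  coe_α y := coe_barIncl _ y
  finite := finiteAlong_alphaMap q M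
  normFormula := (curveFacts Qb).normFormula M (q * M) _ _
  degree := finrankAlong_alphaMap hqM
  W := monoSwap hqM
  coe_W := coe_monoSwap_alphaMap hqM
  W_W := monoSwap_monoSwap hqM
  x₀ := jBottom M
  x_eq := hx
  coeff_x₀ := by
    show (jBar Qb).coeff (-1) ≠ 0
    rw [jBar, coeffEmb_coeff, coeff_jq_neg_one, map_one]
    exact one_ne_zero
  W_finite := preservesInfinity_monoSwap hqM D hx
  emb := emb
  ratios₁ := h₁
  ratios₂ := h₂

variable {D} [IsAlgClosed (IsLocalRing.ResidueField A)]

/-- A twist killed by a push-forward has a norm which is a `q`-th power. -/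
theorem exists_root_norm (T : D.Twist q) (φ : fieldBar Qb M →ₐ[Qb] fieldBar Qb (q * M))
    (hfin : FiniteAlong Qb φ)
    (h : pic0Push φ (finiteAlong_isIntegral hfin) hfin ((curveFacts Qb).normFormula M (q * M) _ _)
      T.cls = 0) :
    ∃ u : fieldBar Qb M, u ^ q = normAlong φ T.g := by
  have hφ := finiteAlong_isIntegral hfin
  obtain ⟨u₀, hu₀, hdiv⟩ := isPrincipal_of_pic0Push_eq_zero φ _ _ _ h
  have hg0 : normAlong φ T.g ≠ 0 := normAlong_ne_zero hfin T.g_ne
  have hord : ∀ v : Place Qb (fieldBar Qb M), v.ord (normAlong φ T.g) = v.ord (u₀ ^ q) := fun v => by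
    rw [← pushforwardAlong_apply_of_normFormula hφ hfin ((curveFacts Qb).normFormula M (q * M) _ _)
      T.g_ne (D := (q : ℤ) • T.D) (fun w => by rw [Finsupp.smul_apply, smul_eq_mul, T.div]),
      map_zsmul, Finsupp.smul_apply, smul_eq_mul, ord_pow]
    exact congrArg _ (hdiv v)
  obtain ⟨c, hc⟩ := D.rrF.exists_eq_algebraMap (f := φ (normAlong φ T.g / u₀ ^ q)) (by
    rw [mem_riemannRochSpace_iff]
    intro w
    right
    rw [Place.ord_restrictAlong φ hφ, div_eq_mul_inv,
      Place.ord_mul _ hg0 (inv_ne_zero (pow_ne_zero _ hu₀)), Place.ord_inv, hord]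
    simp)
  obtain ⟨c', hc'⟩ := IsAlgClosed.exists_pow_nat_eq c hq.out.pos
  refine ⟨algebraMap Qb _ c' * u₀, φ.injective ?_⟩
  rw [mul_pow, ← map_pow, hc', map_mul]
  show φ _ * φ _ = φ _
  rw [AlgHom.commutes, ← hc, ← map_mul,
    div_mul_cancel₀ _ (pow_ne_zero _ hu₀)]

/-- **Twists killed by both push-forwards split.** -/
theorem splitsComponents_of_pushes [CharP (IsLocalRing.ResidueField A) q]
    (hx : D.x = alphaMap q M (jBottom M))
    (h₁ : HasRatios D.s₁ (fieldBar Qb (q * M)).val emb)
    (h₂ : HasRatios D.s₂ ((fieldBar Qb (q * M)).val.comp (monoSwap hqM).toAlgHom) emb)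
    (hP : D.P₁ ≤ D.P₂) (T : D.Twist q) (hg : rd₂ D.s₁ D.s₂ T.g = 1)
    (hα : pushAlpha q M T.cls = 0) (hβ : pushBeta q M T.cls = 0) :
    MonoDatum.SplitsComponents T := by
  set G := degenData hqM D emb hx h₁ h₂
  obtain ⟨u₁, hu₁⟩ := exists_root_norm T (alphaMap q M) (finiteAlong_alphaMap q M) hα
  obtain ⟨u₂, hu₂⟩ := exists_root_norm T (betaMap q M) (finiteAlong_betaMap q M) hβ
  rw [← normAlong_of_comp (monoSwap hqM) (monoSwap_betaMap hqM)] at hu₂
  let S₁ : MonoDatum.PushSide G AlgEquiv.refl Prod.fst :=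
    { sa := D.s₁, sb := D.s₂, ratiosa := h₁, ratiosb := h₂
      mem := fun f hf => hf
      rd_one := fun f hf => ⟨congrArg Prod.fst hf, congrArg Prod.snd hf⟩
      idx_eq := fun f => rfl
      infinity := fun w => Iff.rfl }
  let S₂ : MonoDatum.PushSide G (monoSwap hqM) Prod.snd :=
    { sa := D.s₂, sb := D.s₁, ratiosa := h₂
      ratiosb := by
        have : (fieldBar Qb (q * M)).val.comp ((monoSwap hqM).trans G.W).toAlgHom =
            (fieldBar Qb (q * M)).val :=
          AlgHom.ext fun f => congrArg Subtype.val (monoSwap_monoSwap hqM f)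
        rw [this]
        exact h₁
      mem := fun f hf => ⟨hf.2, hf.1⟩
      rd_one := fun f hf => ⟨congrArg Prod.snd hf, congrArg Prod.fst hf⟩
      idx_eq := fun f => rfl
      infinity := G.W_finite }
  obtain ⟨ζ, hζ⟩ : ∃ ζ : Qb, IsPrimitiveRoot ζ q := by
    haveI : NeZero (q : Qb) := ⟨Nat.cast_ne_zero.mpr hq.out.ne_zero⟩
    exact HasEnoughRootsOfUnity.exists_primitiveRoot _ _
  have hζu : IsPrimitiveRoot (hζ.isUnit hq.out.ne_zero).unit q :=
    IsPrimitiveRoot.coe_units_iff.mp (by rw [IsUnit.unit_spec]; exact hζ)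
  set Φ := (FermatLib.Modular.modularPolynomialData q).Φ
  refine MonoDatum.splitsComponents_of_push T hP
    (S₁.componentPush T hζu hg hu₁ (fun C => X - Polynomial.C ⟨C.c, C.mem⟩)
      (fun C => monic_X_sub_C _) (fun C => (natDegree_X_sub_C _).ge)
      (fun C => ⟨1, one_mem_reg _, by simp [MonoDatum.Chart.T]⟩))
    (S₂.componentPush T hζu hg hu₂
      (fun C => Φ.map (aeval (⟨C.c, C.mem⟩ : A)).toRingHom)
      (fun C => (FermatLib.Modular.modularPolynomialData q).monic.map _)
      (fun C => ?_) (fun C => ?_))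
  · rw [(FermatLib.Modular.modularPolynomialData q).monic.natDegree_map,
      (FermatLib.Modular.modularPolynomialData q).natDegree_eq]
    exact dedekindPsi_pos' q
  -- `Φ(c, j) = (w_q j - c) R` with `R` regular off the cusps
  set s := betaMap q M (jBottom M) with hs
  set c' := algebraMap Qb (fieldBar Qb (q * M)) C.c with hc'
  have hT : monoSwap hqM C.T = s - c' := by
    rw [MonoDatum.Chart.T, map_sub, AlgEquiv.commutes, hx, monoSwap_alphaMap]
  have hxreg : D.x ∈ Reg D.Px := rrSpace_nsmul_le_reg D.Px 1 D.x_mem_rr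
  have hsreg : s ∈ Reg D.Px := fun w hw => Or.inr (by
    rw [hs, ← monoSwap_alphaMap hqM, ← hx]
    exact (G.W_finite w).mpr ((MonoDatum.Px_eq_zero_iff w).mp hw))
  let R : Subalgebra Qb (fieldBar Qb (q * M)) :=
    (Reg D.Px).toSubalgebra (one_mem_reg _) fun a b => mul_mem_reg
  let P : Polynomial (Polynomial ℤ) := Φ
  have hdvd : ∀ Q : Polynomial ℤ, ∃ r ∈ R, aeval c' Q - aeval s Q = (s - c') * r := by
    intro Q
    induction Q using Polynomial.induction_on' with
    | add a b ha hb =>
      obtain ⟨ra, hra, ea⟩ := ha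
      obtain ⟨rb, hrb, eb⟩ := hb
      exact ⟨ra + rb, add_mem hra hrb, by rw [map_add, map_add, mul_add, ← ea, ← eb]; ring⟩
    | monomial n a =>
      refine ⟨-(algebraMap ℤ _ a * ∑ i ∈ Finset.range n, s ^ i * c' ^ (n - 1 - i)),
        neg_mem (mul_mem ?_ (sum_mem fun i _ => mul_mem (pow_mem (show s ∈ R from hsreg) i)
          (pow_mem (R.algebraMap_mem C.c) _))), ?_⟩
      · rw [IsScalarTower.algebraMap_apply ℤ Qb]
        exact R.algebraMap_mem _
      · rw [aeval_monomial, aeval_monomial]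
        linear_combination (algebraMap ℤ (fieldBar Qb (q * M)) a) *
          geom_sum₂_mul s c' n
  choose r hr hre using hdvd
  refine ⟨∑ i ∈ Finset.range (Φ.natDegree + 1), r (Φ.coeff i) * D.x ^ i,
    show _ ∈ R from sum_mem fun i _ => mul_mem (hr _) (pow_mem (show D.x ∈ R from hxreg) i), ?_⟩
  have h0 := eval₂_swap_eq_zero (M := M) hqM
  rw [← hx, ← hs, eval₂_eq_sum_range] at h0
  have hfac : ((Φ.map (aeval (⟨C.c, C.mem⟩ : A)).toRingHom).map A.subtype) =
      Φ.map (aeval C.c).toRingHom := by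
    rw [Polynomial.map_map]
    congr 1
    refine Polynomial.ringHom_ext' (Subsingleton.elim _ _) ?_
    simp
  rw [hfac, hT, aeval_def, eval₂_map, eval₂_eq_sum_range,
    ← sub_zero (∑ i ∈ Finset.range (Φ.natDegree + 1), _ * D.x ^ i), ← h0,
    ← Finset.sum_sub_distrib, Finset.mul_sum]
  refine Finset.sum_congr rfl fun i _ => ?_
  rw [← sub_mul, ← mul_assoc, ← hre]
  congr 2
  show algebraMap Qb _ (aeval C.c (Φ.coeff i)) = _
  rw [hc', aeval_algebraMap_apply]

end FermatLib.Igusa.Mono
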