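import Fermat.Prelude.Def_ModularCurve_ArithmeticGalois
import Fermat.Prelude.Def_FLTPrelim_Ramification
import Fermat.Agent.Igusa.MonoUnipotent
import Fermat.Agent.Igusa.GaussPlaces
import Fermat.Agent.EC.InertiaIntegers
import Fermat.Agent.Igusa.MonoSeriesSheet

/-!
Inertia at a place `A` fixes every sheet of reduction defined coefficientwise on expansions:
it moves coefficients inside `A` without changing their residues, and has finite orbits.
The unipotence on the prime-to-`q` torsion follows from any two-sheet datum made of such sheets.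
-/

set_option autoImplicit false
set_option linter.style.haveILetI false

noncomputable section

open AlgebraicCurve ModularCurve

namespace FermatLib.Igusa.Mono

section Residue

variable {L : Type*} [Field L] {K : Type*} [Field K] [Algebra K L] {A : ValuationSubring L}
  {σ : L ≃ₐ[K] L}

theorem mem_of_mem_inertia (hσ : σ ∈ A.inertiaSubgroupIn K) {a : L} (ha : a ∈ A) : σ a ∈ A := by
  have h := EC.sub_mem_nonunits_of_mem_inertiaSubgroupIn A hσ ha
  simpa using add_mem (A.nonunits_subset h) ha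

/-- The endomorphism of `A` induced by an inertia element. -/
def inertiaEnd (hσ : σ ∈ A.inertiaSubgroupIn K) : A →+* A :=
  (((σ : L →+* L).comp A.subtype).codRestrict A fun a => mem_of_mem_inertia hσ a.2)

@[simp] theorem coe_inertiaEnd (hσ : σ ∈ A.inertiaSubgroupIn K) (a : A) :
    (inertiaEnd hσ a : L) = σ a := rfl

/-- Inertia does not change the image of `A` in a field in which the non-units vanish. -/
theorem map_inertiaEnd {k : Type*} [Field k] (π : A →+* k)
    (hπ : ∀ a : A, ¬ IsUnit a → π a = 0) (hσ : σ ∈ A.inertiaSubgroupIn K) (a : A) :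
    π (inertiaEnd hσ a) = π a := by
  rw [← sub_eq_zero, ← map_sub]
  refine hπ _ ((IsLocalRing.mem_maximalIdeal _).mp ?_)
  exact ValuationSubring.coe_mem_nonunits_iff.mp
    (EC.sub_mem_nonunits_of_mem_inertiaSubgroupIn A hσ a.2)

/-- Automorphisms of an algebraic extension have finite orbits. -/
theorem inertia_exists_iterate_eq_self [Algebra.IsAlgebraic K L] (σ : L ≃ₐ[K] L) (c : L) :
    ∃ n : ℕ, 0 < n ∧ σ^[n] c = c := by
  have hp : minpoly K c ≠ 0 := minpoly.ne_zero (Algebra.IsAlgebraic.isAlgebraic c).isIntegral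
  have hroot : ∀ i : ℕ, σ^[i] c ∈ (minpoly K c).rootSet L := by
    intro i
    induction i with
    | zero => exact Polynomial.mem_rootSet.mpr ⟨hp, minpoly.aeval K c⟩
    | succ i ih =>
      rw [Function.iterate_succ_apply', Polynomial.mem_rootSet] at *
      refine ⟨hp, ?_⟩
      show Polynomial.aeval ((σ : L →ₐ[K] L) (σ^[i] c)) (minpoly K c) = 0
      rw [Polynomial.aeval_algHom_apply, ih.2, map_zero]
  obtain ⟨i, -, j, -, hne, hij⟩ := Set.Infinite.exists_ne_map_eq_of_mapsTo
    (f := fun i : ℕ => σ^[i] c) Set.infinite_univ (fun i _ => hroot i)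
    ((minpoly K c).rootSet_finite L)
  have key : ∀ i j : ℕ, i < j → σ^[i] c = σ^[j] c → ∃ n : ℕ, 0 < n ∧ σ^[n] c = c := by
    intro i j hlt hij
    refine ⟨j - i, by omega, σ.injective.iterate i ?_⟩
    rw [← Function.iterate_add_apply, show i + (j - i) = j by omega, ← hij]
  rcases lt_or_gt_of_ne hne with h | h
  exacts [key i j h hij, key j i h hij.symm]

end Residue

section Series

variable {L : Type*} [Field L] [Algebra ℚ L] {F₀ : IntermediateField ℚ (LaurentSeries ℚ)}
  {A : ValuationSubring L} {k : Type*} [Field k] {π : A →+* k}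
  {Kb : Type*} [Field Kb] [Algebra k Kb]

/-- The sheet `s` consists of the ratios of series from `S` with nonzero reduced denominator, and
`e` turns its residue map into the ratio of the reduced series. -/
structure IsSeriesSheet (s : Sheet π (laurentBaseChange L F₀) Kb) (e : Kb →+* LaurentSeries k)
    (S : Set (LaurentSeries A)) : Prop where
  ratio : ∀ f ∈ s.W, ∃ y ∈ S, ∃ z ∈ S, coeffMap π z ≠ 0 ∧
    (f : LaurentSeries L) * coeffMap A.subtype z = coeffMap A.subtype y ∧
    e (s.rd f) * coeffMap π z = coeffMap π y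
  mem : ∀ f : laurentBaseChange L F₀, ∀ y ∈ S, ∀ z ∈ S, coeffMap π z ≠ 0 →
    (f : LaurentSeries L) * coeffMap A.subtype z = coeffMap A.subtype y → f ∈ s.W

theorem coeffMap_inertiaEnd {σ : L ≃ₐ[ℚ] L} (hσ : σ ∈ A.inertiaSubgroupIn ℚ)
    (y : LaurentSeries A) :
    coeffMap A.subtype (coeffMap (inertiaEnd hσ) y) =
      coeffMap (σ : L →+* L) (coeffMap A.subtype y) := by
  rw [coeffMap_coeffMap, coeffMap_coeffMap]
  exact coeffMap_congr (RingHom.ext fun _ => rfl) y

theorem coeffMap_map_inertiaEnd (hπ : ∀ a : A, ¬ IsUnit a → π a = 0) {σ : L ≃ₐ[ℚ] L}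
    (hσ : σ ∈ A.inertiaSubgroupIn ℚ) (y : LaurentSeries A) :
    coeffMap π (coeffMap (inertiaEnd hσ) y) = coeffMap π y := by
  rw [coeffMap_coeffMap]
  exact coeffMap_congr (RingHom.ext fun a => map_inertiaEnd π hπ hσ a) y

omit [Algebra ℚ L] in
/-- A sheet pulled back by an automorphism commuting with `g` is fixed if the original one is. -/
theorem fixes_of_comap {F : Type*} [Field F] [Algebra L F] {s s' : Sheet π F Kb} (w : F → F)
    (hW : ∀ f, f ∈ s'.W ↔ w f ∈ s.W) (hrd : ∀ f ∈ s'.W, s'.rd f = s.rd (w f))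
    {g : SemilinearAut L F} (hw : ∀ f, w (g • f) = g • w f)
    (h : ∀ f ∈ s.W, g • f ∈ s.W ∧ s.rd (g • f) = s.rd f) {f : F} (hf : f ∈ s'.W) :
    g • f ∈ s'.W ∧ s'.rd (g • f) = s'.rd f := by
  have hm := h _ ((hW f).mp hf)
  have hg : g • f ∈ s'.W := (hW _).mpr (by rw [hw]; exact hm.1)
  exact ⟨hg, by rw [hrd _ hg, hrd _ hf, hw, hm.2]⟩

/-- An expansion with rational coefficients is fixed by the arithmetic action. -/
theorem arithmeticGalois_smul_of_coeffEmb (σ : L ≃ₐ[ℚ] L) {f : laurentBaseChange L F₀}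
    {y : LaurentSeries ℚ} (hf : (f : LaurentSeries L) = coeffEmb L y) :
    arithmeticGalois F₀ σ • f = f := by
  apply Subtype.ext
  rw [coe_arithmeticGalois_smul, hf, coeffMap_coeffEmb]

end Series

section SeriesSheet

attribute [local instance 100000] monoLaurentModule monoLaurentSMul

variable {L k F : Type*} [Field L] [CharZero L] [Algebra ℚ L] [Field k] [Field F] [Algebra L F]
  {A : ValuationSubring L} {π : A →+* k} {ι : F →ₐ[L] LaurentSeries L} {q : ℕ}
  (hπ : ∀ a : A, π a = 0 ↔ ¬ IsUnit a) (hq : q.Prime) (hqk : (q : k) = 0)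
  (hfr : ∀ f : F, ∃ z : F, z ≠ 0 ∧ ι z ∈ intSpan L ∧ ι (f * z) ∈ intSpan L)

/-- **Inertia fixes the sheet attached to an equivariant embedding into series.** -/
theorem seriesSheet_inertia_fixes {σ : L ≃ₐ[ℚ] L} (hσ : σ ∈ A.inertiaSubgroupIn ℚ)
    {g : SemilinearAut L F} (hg : ∀ f, ι (g • f) = coeffMap (σ : L →+* L) (ι f)) {f : F}
    (hf : f ∈ (seriesSheet ι hπ hq hqk hfr).W) :
    g • f ∈ (seriesSheet ι hπ hq hqk hfr).W ∧
      (seriesSheet ι hπ hq hqk hfr).rd (g • f) = (seriesSheet ι hπ hq hqk hfr).rd f := by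
  obtain ⟨y, z, h⟩ := hf
  have hπ' : ∀ a : A, ¬ IsUnit a → π a = 0 := fun a ha => (hπ a).mpr ha
  have h' : IsRatio A π ι (g • f) (coeffMap (inertiaEnd hσ) y) (coeffMap (inertiaEnd hσ) z) :=
    ⟨by rw [coeffMap_map_inertiaEnd hπ' hσ]; exact h.red_ne,
     by rw [hg, coeffMap_inertiaEnd hσ, coeffMap_inertiaEnd hσ, ← map_mul, h.eq]⟩
  obtain ⟨-, hr⟩ := seriesSheet_rd hπ hq hqk hfr h
  obtain ⟨hm, hr'⟩ := seriesSheet_rd hπ hq hqk hfr h'
  exact ⟨hm, by rw [hr', hr, coeffMap_map_inertiaEnd hπ' hσ, coeffMap_map_inertiaEnd hπ' hσ]⟩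

end SeriesSheet

section Assembly

variable {A : ValuationSubring (AlgebraicClosure ℚ)} {q N : ℕ}
  {Kb : Type*} [Field Kb] [Algebra (IsLocalRing.ResidueField A) Kb]

theorem residueField_natCast_ne_zero [Fact q.Prime] (hA : A.LiesOverPrime q) {d : ℕ}
    (hdq : ¬ q ∣ d) : (d : IsLocalRing.ResidueField A) ≠ 0 := by
  intro h
  have hq : (q : IsLocalRing.ResidueField A) = 0 := by
    have hq' : ((q : A) : AlgebraicClosure ℚ) ∈ A.nonunits := by
      simpa [ValuationSubring.LiesOverPrime] using hA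
    rw [← map_natCast (IsLocalRing.residue A), IsLocalRing.residue_eq_zero_iff]
    exact ValuationSubring.coe_mem_nonunits_iff.mp hq'
  obtain ⟨u, v, huv⟩ := Int.isCoprime_iff_gcd_eq_one.mpr
    (show Int.gcd (q : ℤ) (d : ℤ) = 1 by
      rw [Int.gcd_natCast_natCast]
      exact (Nat.Prime.coprime_iff_not_dvd Fact.out).mpr hdq)
  have h1 := congrArg (fun z : ℤ => (z : IsLocalRing.ResidueField A)) huv
  simp [hq, h] at h1

/-- An inertia element satisfies `MonoDatum.Fixes` as soon as it fixes `x` and both sheets. -/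
theorem fixes_of_inertia
    {M : MonoDatum (IsLocalRing.residue A) (modularFunctionFieldBar N) Kb q}
    {σ : AlgebraicClosure ℚ ≃ₐ[ℚ] AlgebraicClosure ℚ}
    (hx : arithmeticGalois (modularFunctionFieldFull N) σ • M.x = M.x)
    (h₁ : ∀ a ∈ M.s₁.W, arithmeticGalois (modularFunctionFieldFull N) σ • a ∈ M.s₁.W ∧
      M.s₁.rd (arithmeticGalois (modularFunctionFieldFull N) σ • a) = M.s₁.rd a)
    (h₂ : ∀ a ∈ M.s₂.W, arithmeticGalois (modularFunctionFieldFull N) σ • a ∈ M.s₂.W ∧
      M.s₂.rd (arithmeticGalois (modularFunctionFieldFull N) σ • a) = M.s₂.rd a) :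
    M.Fixes (arithmeticGalois (modularFunctionFieldFull N) σ) where
  x_fixed := hx
  mem₁ a ha := (h₁ a ha).1
  rd₁ a ha := (h₁ a ha).2
  mem₂ a ha := (h₂ a ha).1
  rd₂' a ha := (h₂ a ha).2
  periodic c := by
    haveI : Algebra.IsAlgebraic ℚ (AlgebraicClosure ℚ) := AlgebraicClosure.isAlgebraic ℚ
    exact inertia_exists_iterate_eq_self σ c

/-- **Unipotence of inertia from a two-sheet datum of level `N`.** -/
theorem inertia_smul_smul_sub_eq_of_datum [Fact q.Prime] (hA : A.LiesOverPrime q)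
    (M : MonoDatum (IsLocalRing.residue A) (modularFunctionFieldBar N) Kb q)
    (hfix : ∀ σ ∈ A.inertiaSubgroupIn ℚ,
      M.Fixes (arithmeticGalois (modularFunctionFieldFull N) σ))
    {σ τ : AlgebraicClosure ℚ ≃ₐ[ℚ] AlgebraicClosure ℚ}
    (hσ : σ ∈ A.inertiaSubgroupIn ℚ) (hτ : τ ∈ A.inertiaSubgroupIn ℚ)
    {d : ℕ} (hd : 1 ≤ d) (hdq : ¬ q ∣ d) (x : JZero N) (hx : (d : ℤ) • x = 0) :
    τ • (σ • x - x) = σ • x - x := by
  haveI := isAlgClosed_residueField A
  exact MonoDatum.smul_smul_sub_eq (hfix σ hσ) (hfix τ hτ) hd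
    (residueField_natCast_ne_zero hA hdq) x hx

end Assembly

end FermatLib.Igusa.Mono
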