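/-
The reduction kernel at level `q M` from a two-sheet datum given by expansions.
-/
import Fermat.Agent.Igusa.MonoPushModular
import Fermat.Agent.Igusa.MonoInertiaFixes
import Fermat.Agent.Galois.Ordinary.InertiaLifts
import Fermat.Agent.Galois.Ordinary.Level
import Fermat.Agent.Galois.Flat.Valuation
import Fermat.Agent.Igusa.LevelSetup

/-!
# The reduction kernel

For a place `A` over `q`, the classes of twists of `q`-power exponent form a subgroup of
`J₀(q M)` stable under decomposition, containing the inertia displacements of `q`-power torsion,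
and without fixed point of order `q` killed by both push-forwards.
-/

set_option autoImplicit false
set_option linter.style.haveILetI false
set_option linter.unusedSectionVars false
set_option synthInstance.maxHeartbeats 400000

noncomputable section

open AlgebraicCurve ModularCurve

namespace FermatLib.Igusa.Mono

open FermatLib.Modular.Corr

attribute [local instance] neZero_mul'
attribute [local instance 100000] monoLaurentModule monoLaurentSMul

local notation "Qb" => AlgebraicClosure ℚ
local notation "Γℚ" => (AlgebraicClosure ℚ ≃ₐ[ℚ] AlgebraicClosure ℚ)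

section Sheets

variable {L k F Kb : Type*} [Field L] [CharZero L] [Field k] [Field F] [Algebra L F] [Field Kb]
  [Algebra k Kb] {A : ValuationSubring L} {π : A →+* k} {s : Sheet π F Kb}
  {ι : F →ₐ[L] LaurentSeries L} {emb : Kb →+* LaurentSeries k}

/-- A function which is a ratio of series is integral, with the ratio as reduction. -/
theorem HasRatios.of_ratio (hs : HasRatios s ι emb) {f : F} {y z : LaurentSeries A}
    (hz : coeffMap π z ≠ 0) (h : ι f * coeffMap A.subtype z = coeffMap A.subtype y) :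
    f ∈ s.W ∧ emb (s.rd f) = coeffMap π y / coeffMap π z := by
  obtain ⟨h1, h2⟩ := hs.of_qExpand (q := 1) (h := f) (R := y) (Q := z) hz
    (by rwa [qExpand_one_apply])
  exact ⟨h1, by rwa [qExpand_one_apply] at h2⟩

/-- Constants are read as constant series. -/
theorem HasRatios.emb_algebraMap (hs : HasRatios s ι emb) (a : A) :
    emb (algebraMap k Kb (π a)) = HahnSeries.C (π a) := by
  have h := hs.of_ratio (f := algebraMap L F (a : L)) (y := HahnSeries.C a) (z := 1)
    (by simp) (by
      rw [map_one, mul_one, AlgHom.commutes, HahnSeries.C_apply, coeffMap_single,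
        algebraMap_laurentSeries_eq_single]
      rfl)
  rw [Sheet.rd_algebraMap a.2, map_one, div_one, HahnSeries.C_apply, coeffMap_single] at h
  exact h.2

/-- A semilinear map moving expansions by an endomorphism of `A` preserving the kernel of
reduction preserves a sheet and its functions with constant reduction; if the endomorphism is
residually trivial it fixes the sheet. -/
theorem HasRatios.transport (hs : HasRatios s ι emb) (hπs : Function.Surjective π) (σ : L →+* L)
    (θ : A →+* A) (hθ : ∀ a : A, (θ a : L) = σ a) (hθπ : ∀ a : A, π (θ a) = 0 ↔ π a = 0)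
    (w : F → F) (hw : ∀ f, ι (w f) = coeffMap σ (ι f)) {f : F} (hf : f ∈ s.W) :
    w f ∈ s.W ∧
      ((∃ c : k, c ≠ 0 ∧ s.rd f = algebraMap k Kb c) →
        ∃ c : k, c ≠ 0 ∧ s.rd (w f) = algebraMap k Kb c) ∧
      ((∀ a, π (θ a) = π a) → s.rd (w f) = s.rd f) := by
  obtain ⟨y, z, hyz, hred⟩ := hs f hf
  have hmap : ∀ x : LaurentSeries A,
      coeffMap A.subtype (coeffMap θ x) = coeffMap σ (coeffMap A.subtype x) := fun x => by
    ext i
    rw [coeffMap_coeff, coeffMap_coeff, coeffMap_coeff, coeffMap_coeff]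
    exact hθ _
  have hker : ∀ x : LaurentSeries A, coeffMap π (coeffMap θ x) = 0 ↔ coeffMap π x = 0 := by
    intro x
    constructor <;> intro h <;> ext i <;>
      have h' := congrArg (fun y : LaurentSeries k => y.coeff i) h <;>
      simp only [coeffMap_coeff, HahnSeries.coeff_zero] at h' ⊢
    exacts [(hθπ _).mp h', (hθπ _).mpr h']
  have hz : coeffMap π (coeffMap θ z) ≠ 0 := mt (hker z).mp hyz.red_ne
  obtain ⟨hm, hr⟩ := hs.of_ratio (f := w f) (y := coeffMap θ y) (z := coeffMap θ z) hz
    (by rw [hw, hmap, hmap, ← map_mul, hyz.eq])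
  refine ⟨hm, ?_, fun hfix => emb.injective ?_⟩
  · rintro ⟨c, hc, hfc⟩
    obtain ⟨a, rfl⟩ := hπs c
    refine ⟨π (θ a), mt (hθπ a).mp hc, emb.injective ?_⟩
    rw [hr, hs.emb_algebraMap, div_eq_iff hz]
    have h0 : coeffMap π (y - HahnSeries.C a * z) = 0 := by
      rw [map_sub, map_mul, HahnSeries.C_apply, coeffMap_single, ← HahnSeries.C_apply,
        ← hs.emb_algebraMap, ← hfc, hred, sub_self]
    have h1 := (hker _).mpr h0
    rwa [map_sub, map_mul, map_sub, map_mul, sub_eq_zero, HahnSeries.C_apply, coeffMap_single,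
      coeffMap_single, ← HahnSeries.C_apply] at h1
  · have hid : ∀ x : LaurentSeries A, coeffMap π (coeffMap θ x) = coeffMap π x := fun x => by
      ext i
      rw [coeffMap_coeff, coeffMap_coeff, coeffMap_coeff]
      exact hfix _
    rw [hr, hid, hid, div_eq_iff hyz.red_ne, hred]

end Sheets

variable {q M : ℕ} [hq : Fact q.Prime] [NeZero M] [NeZero q] {A : ValuationSubring Qb}

/-- A two-sheet datum of level `q M` at `A` read off from expansions at `∞` and after `w_q`. -/
structure LevelDatum (hqM : ¬ q ∣ M) (A : ValuationSubring Qb) where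
  Kb : Type
  [fieldKb : Field Kb]
  [algebraKb : Algebra (IsLocalRing.ResidueField A) Kb]
  D : MonoDatum (IsLocalRing.residue A) (fieldBar Qb (q * M)) Kb q
  emb : Kb →+* LaurentSeries (IsLocalRing.ResidueField A)
  x_eq : D.x = alphaMap q M (jBottom M)
  ratios₁ : HasRatios D.s₁ (fieldBar Qb (q * M)).val emb
  ratios₂ : HasRatios D.s₂ ((fieldBar Qb (q * M)).val.comp (monoSwap hqM).toAlgHom) emb
  P₁_le_P₂ : D.P₁ ≤ D.P₂

attribute [local instance] LevelDatum.fieldKb LevelDatum.algebraKb

/-- The action of a decomposition element on `A`. -/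
def decompEnd {σ : Γℚ} (hσ : σ ∈ A.decompositionSubgroup ℚ) : A →+* A :=
  ((σ : Qb →+* Qb).comp A.subtype).codRestrict A fun a =>
    Galois.Flat.apply_mem_of_decomposition hσ a.2

theorem residue_decompEnd {σ : Γℚ} (hσ : σ ∈ A.decompositionSubgroup ℚ) (a : A) :
    IsLocalRing.residue A (decompEnd hσ a) = 0 ↔ IsLocalRing.residue A a = 0 := by
  rw [IsLocalRing.residue_eq_zero_iff, IsLocalRing.residue_eq_zero_iff,
    A.valuation_lt_one_iff, A.valuation_lt_one_iff]
  show A.valuation (σ a) < 1 ↔ _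
  rw [Galois.Flat.valuation_apply_eq hσ]

variable {hqM : ¬ q ∣ M} (Z : LevelDatum hqM A)

theorem LevelDatum.transport {σ : Γℚ} (hσ : σ ∈ A.decompositionSubgroup ℚ)
    (a : fieldBar Qb (q * M)) :
    let g := arithmeticGalois (modularFunctionFieldFull (q * M)) σ
    (a ∈ Z.D.s₁.W → g • a ∈ Z.D.s₁.W ∧
      ((∃ c : IsLocalRing.ResidueField A, c ≠ 0 ∧ Z.D.s₁.rd a = algebraMap _ Z.Kb c) →
        ∃ c : IsLocalRing.ResidueField A, c ≠ 0 ∧ Z.D.s₁.rd (g • a) = algebraMap _ Z.Kb c) ∧
      ((∀ b, IsLocalRing.residue A (decompEnd hσ b) = IsLocalRing.residue A b) →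
        Z.D.s₁.rd (g • a) = Z.D.s₁.rd a)) ∧
    (a ∈ Z.D.s₂.W → g • a ∈ Z.D.s₂.W ∧
      ((∃ c : IsLocalRing.ResidueField A, c ≠ 0 ∧ Z.D.s₂.rd a = algebraMap _ Z.Kb c) →
        ∃ c : IsLocalRing.ResidueField A, c ≠ 0 ∧ Z.D.s₂.rd (g • a) = algebraMap _ Z.Kb c) ∧
      ((∀ b, IsLocalRing.residue A (decompEnd hσ b) = IsLocalRing.residue A b) →
        Z.D.s₂.rd (g • a) = Z.D.s₂.rd a)) := by
  intro g
  refine ⟨fun ha => Z.ratios₁.transport IsLocalRing.residue_surjective (σ : Qb →+* Qb)
      (decompEnd hσ) (fun _ => rfl) (residue_decompEnd hσ) (fun f => g • f)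
      (fun f => coe_arithmeticGalois_smul _ σ f) ha,
    fun ha => Z.ratios₂.transport IsLocalRing.residue_surjective (σ : Qb →+* Qb)
      (decompEnd hσ) (fun _ => rfl) (residue_decompEnd hσ) (fun f => g • f) (fun f => ?_) ha⟩
  show ((monoSwap hqM (g • f) : fieldBar Qb (q * M)) : LaurentSeries Qb) = _
  rw [monoSwap_arithmeticGalois, coe_arithmeticGalois_smul]
  rfl

theorem LevelDatum.fixes {σ : Γℚ} (hσ : σ ∈ A.inertiaSubgroupIn ℚ) :
    Z.D.Fixes (arithmeticGalois (modularFunctionFieldFull (q * M)) σ) := by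
  have hσD := Galois.Flat.mem_decomposition_of_mem_inertia hσ
  have hres : ∀ b, IsLocalRing.residue A (decompEnd hσD b) = IsLocalRing.residue A b := fun b => by
    have h := map_inertiaEnd (IsLocalRing.residue A)
      (fun a ha => (IsLocalRing.residue_eq_zero_iff a).mpr ((IsLocalRing.mem_maximalIdeal a).mpr ha)) hσ b
    rwa [show inertiaEnd hσ b = decompEnd hσD b from rfl] at h
  refine fixes_of_inertia ?_
    (fun a ha => ⟨((Z.transport hσD a).1 ha).1, ((Z.transport hσD a).1 ha).2.2 hres⟩)
    (fun a ha => ⟨((Z.transport hσD a).2 ha).1, ((Z.transport hσD a).2 ha).2.2 hres⟩)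
  refine arithmeticGalois_smul_of_coeffEmb σ (y := jq) ?_
  rw [Z.x_eq, coe_barIncl]
  rfl

/-- The twist classes of `q`-power exponent form a reduction kernel. -/
theorem LevelDatum.twistClasses_kernel (hA : A.LiesOverPrime q) :
    (∀ σ ∈ A.decompositionSubgroup ℚ, ∀ x ∈ Z.D.twistClasses q, σ • x ∈ Z.D.twistClasses q) ∧
    (∀ σ ∈ A.inertiaSubgroupIn ℚ, ∀ x : JZero (q * M),
      (∃ k : ℕ, q ^ k • x = 0) → σ • x - x ∈ Z.D.twistClasses q) ∧
    ∀ x ∈ Z.D.twistClasses q, q • x = 0 → pushAlpha q M x = 0 → pushBeta q M x = 0 →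
      ∀ τ ∈ A.inertiaSubgroupIn ℚ, ∀ ζ : Qb,
        IsPrimitiveRoot ζ q → τ ζ ≠ ζ → τ • x = x → x = 0 := by
  haveI := isAlgClosed_residueField A
  haveI : CharP (IsLocalRing.ResidueField A) q := charP_residueField_of_lies A hA
  refine ⟨fun σ hσ x hx => ?_, fun σ hσ x hx => ?_,
    fun x hx hqx hα hβ τ hτ ζ hζ hne hfix => ?_⟩
  · exact MonoDatum.smul_mem_twistClasses _ (fun a ha => ((Z.transport hσ a).1 ha).1)
      (fun a ha hc => ((Z.transport hσ a).1 ha).2.1 hc)
      (fun a ha => ((Z.transport hσ a).2 ha).1)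
      (fun a ha hc => ((Z.transport hσ a).2 ha).2.1 hc) hx
  · obtain ⟨j, hj⟩ := hx
    exact (Z.fixes hσ).smul_sub_mem_twistClasses hj
  · refine MonoDatum.eq_zero_of_fixed hx hqx hfix (Z.fixes hτ)
      (Nat.cast_ne_zero.mpr hq.out.ne_zero)
      (fun b => Galois.Ordinary.exists_fixed_lift (IsLocalRing.residue A) hq.out hA
        IsLocalRing.residue_surjective (fun a => (IsLocalRing.residue_eq_zero_iff a).trans (IsLocalRing.mem_maximalIdeal a)) hτ b)
      (Galois.Ordinary.exists_critical_element (IsLocalRing.residue A) hq.out hA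
        (fun a => (IsLocalRing.residue_eq_zero_iff a).trans (IsLocalRing.mem_maximalIdeal a)) hζ hne)
      fun T hT hg => ?_
    subst hT
    exact splitsComponents_of_pushes hqM Z.emb Z.x_eq Z.ratios₁ Z.ratios₂ Z.P₁_le_P₂ T hg hα hβ

/-- **The reduction kernel at level `q M`.** -/
theorem hasReductionKernel_of_datum (hqM : ¬ q ∣ M)
    (h : ∀ A : ValuationSubring Qb, A.LiesOverPrime q → Nonempty (LevelDatum hqM A)) :
    Galois.Ordinary.HasReductionKernel q M := by
  intro A hA
  obtain ⟨Z⟩ := h A hA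
  exact ⟨Z.D.twistClasses q, Z.twistClasses_kernel hA⟩

end FermatLib.Igusa.Mono
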