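import Fermat.Agent.Igusa.MonoFamily

/-!
The two sheets of reduction of `ℚ̄(X₀(q M))` at a place over `q ∤ M`, with residue field that of
`X₀(M)` in characteristic `q`, and their joint orthogonality.
-/

set_option autoImplicit false
set_option linter.style.haveILetI false
set_option synthInstance.maxHeartbeats 400000

noncomputable section

open AlgebraicCurve ModularCurve IntermediateField

namespace FermatLib.Igusa.Mono

attribute [local instance 100000] monoLaurentModule monoLaurentSMul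

section Restrict

variable {L F k : Type*} [Field L] [Field F] [Algebra L F] [Field k] {A : ValuationSubring L}
  {π : A →+* k} (s : Sheet π F (LaurentSeries k)) {E : IntermediateField k (LaurentSeries k)}
  (h : ∀ f ∈ s.W, s.rd f ∈ E)

/-- A sheet whose residues lie in a smaller field. -/
def Sheet.restrictTo : Sheet π F E where
  W := s.W
  red := s.red.codRestrict E (fun f => by
    have h' := h f f.2
    rw [Sheet.rd_of_mem f.2] at h'
    exact h')
  mem_algebraMap := s.mem_algebraMap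
  red_algebraMap a := Subtype.ext (s.red_algebraMap a)
  isUnit_of_red_ne a ha := s.isUnit_of_red_ne a fun h0 => ha (Subtype.ext h0)

theorem Sheet.coe_restrictTo_rd (f : F) :
    ((s.restrictTo h).rd f : LaurentSeries k) = s.rd f := by
  by_cases hf : f ∈ s.W
  · rw [Sheet.rd_of_mem hf, Sheet.rd_of_mem (s := s.restrictTo h) hf]
    rfl
  · rw [Sheet.rd, Sheet.rd, dif_neg hf, dif_neg (show f ∉ (s.restrictTo h).W from hf)]
    rfl

variable {s' : Sheet π F (LaurentSeries k)} (h' : ∀ f ∈ s'.W, s'.rd f ∈ E)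

theorem finrank_redSpace_restrictTo (hπs : Function.Surjective π) (V : Submodule L F) :
    Module.finrank k (redSpace (s.restrictTo h) (s'.restrictTo h') hπs V) =
      Module.finrank k (redSpace s s' hπs V) := by
  set j : (E × E) →ₗ[k] LaurentSeries k × LaurentSeries k :=
    LinearMap.prodMap E.val.toLinearMap E.val.toLinearMap
  have hj : Function.Injective j := fun a b hab =>
    Prod.ext (Subtype.ext (congrArg Prod.fst hab)) (Subtype.ext (congrArg Prod.snd hab))
  rw [← (Submodule.equivMapOfInjective j hj _).symm.finrank_eq]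
  have heq : (redSpace (s.restrictTo h) (s'.restrictTo h') hπs V).map j =
      redSpace s s' hπs V := by
    ext p
    constructor
    · rintro ⟨_, ⟨f, hf, hfi, rfl⟩, rfl⟩
      exact ⟨f, hf, hfi,
        Prod.ext (s.coe_restrictTo_rd h f).symm (s'.coe_restrictTo_rd h' f).symm⟩
    · rintro ⟨f, hf, hfi, rfl⟩
      exact ⟨rd₂ (s.restrictTo h) (s'.restrictTo h') f, ⟨f, hf, hfi, rfl⟩,
        Prod.ext (s.coe_restrictTo_rd h f) (s'.coe_restrictTo_rd h' f)⟩
  rw [heq]

end Restrict

section Residues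

variable {L F k : Type*} [Field L] [Field F] [Algebra L F] [Field k] {A : ValuationSubring L}
  {π : A →+* k} {s₁ s₂ : Sheet π F (LaurentSeries k)} {E : IntermediateField k (LaurentSeries k)}

theorem sum_rd_mem {ι : Type*} [Fintype ι] (e : ι → F) (a : ι → A)
    (he : ∀ i, Integral₂ s₁ s₂ (e i))
    (hmem : ∀ i, (rd₂ s₁ s₂ (e i)).1 ∈ E ∧ (rd₂ s₁ s₂ (e i)).2 ∈ E) :
    s₁.rd (∑ i, (a i : L) • e i) ∈ E ∧ s₂.rd (∑ i, (a i : L) • e i) ∈ E := by
  rw [Sheet.rd_sum _ _ (fun i _ => Sheet.smul_mem (a i).2 (he i).1),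
    Sheet.rd_sum _ _ (fun i _ => Sheet.smul_mem (a i).2 (he i).2)]
  constructor
  · refine sum_mem fun i _ => ?_
    rw [Sheet.rd_smul (a i).2 (he i).1, Algebra.smul_def]
    exact mul_mem (IntermediateField.algebraMap_mem _ _) (hmem i).1
  · refine sum_mem fun i _ => ?_
    rw [Sheet.rd_smul (a i).2 (he i).2, Algebra.smul_def]
    exact mul_mem (IntermediateField.algebraMap_mem _ _) (hmem i).2

theorem sum_pow_ne_zero {n : ℕ} {a : Fin n → k} {i₀ : Fin n} (ha : a i₀ = 1)
    {z : LaurentSeries k} (hz : Transcendental k z) : ∑ i, a i • z ^ (i : ℕ) ≠ 0 := by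
  intro h0
  have h1 := transcendental_iff.mp hz
    (∑ i : Fin n, Polynomial.C (a i) * Polynomial.X ^ (i : ℕ))
    (by rw [map_sum]; simpa [Algebra.smul_def] using h0)
  have h2 := congrArg (fun q : Polynomial k => q.coeff (i₀ : ℕ)) h1
  simp only [Polynomial.finsetSum_coeff, Polynomial.coeff_C_mul_X_pow,
    Polynomial.coeff_zero] at h2
  rw [Finset.sum_eq_single i₀ (fun j _ hj => if_neg fun h => hj (Fin.ext h.symm))
    (fun h => absurd (Finset.mem_univ _) h), if_pos rfl, ha] at h2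
  exact one_ne_zero h2

/-- Jointly integral functions reduce into `E` if a basis over `L(x)` does, with reductions
independent over `k[x]`. -/
theorem rd_mem_of_basis (hπ : ∀ a : A, π a = 0 ↔ ¬ IsUnit a) {x : F} (hx : Transcendental L x)
    (hxi : Integral₂ s₁ s₂ x) (hx₁ : Transcendental k (s₁.rd x)) (hx₂ : Transcendental k (s₂.rd x))
    (hxE : s₁.rd x ∈ E ∧ s₂.rd x ∈ E) {ι : Type*} [Fintype ι] {u : ι → F}
    (hu : ∀ (a : ℕ) (i : ι), Integral₂ s₁ s₂ (x ^ a * u i))
    (huE : ∀ (a : ℕ) (i : ι),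
      (rd₂ s₁ s₂ (x ^ a * u i)).1 ∈ E ∧ (rd₂ s₁ s₂ (x ^ a * u i)).2 ∈ E)
    (hli : LinearIndependent k fun p : ℕ × ι => rd₂ s₁ s₂ (x ^ p.1 * u p.2))
    (hspan : Submodule.span (IntermediateField.adjoin L {x}) (Set.range u) = ⊤)
    {f : F} (hf : Integral₂ s₁ s₂ f) : s₁.rd f ∈ E ∧ s₂.rd f ∈ E := by
  classical
  obtain ⟨c, hc⟩ := (Submodule.mem_span_range_iff_exists_fun _).mp
    (hspan.ge (Submodule.mem_top (x := f)))
  obtain ⟨b, p, hb, hbp⟩ := exists_common_denom hx c
  obtain ⟨i₀, hi₀, hAb⟩ := exists_scaled_vector A (fun i : Fin (b.natDegree + 1) => b.coeff i)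
    ⟨Fin.last _, by simpa using Polynomial.leadingCoeff_ne_zero.mpr hb⟩
  set t : L := (b.coeff i₀)⁻¹
  set a : Fin (b.natDegree + 1) → A := fun i => ⟨_, hAb i⟩
  set B : F := ∑ i, ((a i : A) : L) • x ^ (i : ℕ) with hBdef
  have hpowint : ∀ i : Fin (b.natDegree + 1), Integral₂ s₁ s₂ (x ^ (i : ℕ)) := fun i => hxi.pow _
  have hBint : Integral₂ s₁ s₂ B := Integral₂.sum _ fun i _ => (hpowint i).smul (hAb i)
  have hBmem := sum_rd_mem (E := E) (fun i : Fin (b.natDegree + 1) => x ^ (i : ℕ)) a hpowint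
    fun i => by
      rw [rd₂_pow hxi]
      exact ⟨pow_mem hxE.1 _, pow_mem hxE.2 _⟩
  have ha1 : π (a i₀) = 1 := by
    rw [show a i₀ = 1 from Subtype.ext (inv_mul_cancel₀ hi₀), map_one]
  have hBrd : rd₂ s₁ s₂ B = ∑ i, π (a i) • rd₂ s₁ s₂ x ^ (i : ℕ) := by
    rw [hBdef, rd₂_sum _ _ fun i _ => (hpowint i).smul (hAb i)]
    exact Finset.sum_congr rfl fun i _ => by rw [rd₂_smul (a i).2 (hpowint i), rd₂_pow hxi]
  have hB1 : s₁.rd B ≠ 0 := by
    rw [show s₁.rd B = ∑ i, π (a i) • s₁.rd x ^ (i : ℕ) by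
      simpa [rd₂, Prod.fst_sum] using congrArg Prod.fst hBrd]
    exact sum_pow_ne_zero ha1 hx₁
  have hB2 : s₂.rd B ≠ 0 := by
    rw [show s₂.rd B = ∑ i, π (a i) • s₂.rd x ^ (i : ℕ) by
      simpa [rd₂, Prod.snd_sum] using congrArg Prod.snd hBrd]
    exact sum_pow_ne_zero ha1 hx₂
  have hBF : B = t • Polynomial.aeval x b := by
    rw [Polynomial.aeval_eq_sum_range, Finset.smul_sum, hBdef, ← Fin.sum_univ_eq_sum_range
      (fun i => t • (b.coeff i • x ^ i))]
    exact Finset.sum_congr rfl fun i _ => by rw [smul_smul]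
  obtain ⟨D, hD⟩ : ∃ D, ∀ i, (p i).natDegree < D :=
    ⟨Finset.univ.sup (fun i => (p i).natDegree) + 1, fun i => Nat.lt_succ_of_le
      (Finset.le_sup (f := fun i => (p i).natDegree) (Finset.mem_univ i))⟩
  set e : Fin D × ι → F := fun r => x ^ (r.1 : ℕ) * u r.2 with he
  set co : Fin D × ι → L := fun r => t * (p r.2).coeff r.1 with hco
  have hcomb : B * f = ∑ r, co r • e r := by
    rw [hBF, smul_mul_assoc, ← hc, Finset.mul_sum, Fintype.sum_prod_type, Finset.sum_comm,
      Finset.smul_sum]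
    refine Finset.sum_congr rfl fun i _ => ?_
    rw [show (c i • u i) = (c i : F) * u i from rfl, ← mul_assoc, hbp i,
      Polynomial.aeval_eq_sum_range' (hD i), ← Fin.sum_univ_eq_sum_range
        (fun l => (p i).coeff l • x ^ l), Finset.sum_mul, Finset.smul_sum]
    exact Finset.sum_congr rfl fun l _ => by rw [hco, he, smul_mul_assoc, smul_smul]
  have hinj : Function.Injective (fun r : Fin D × ι => ((r.1 : ℕ), r.2)) := fun r r' h =>
    Prod.ext (Fin.ext (congrArg Prod.fst h)) (congrArg Prod.snd h :)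
  have hcoA := coeff_mem_of_integral hπ (fun r => hu _ _) (hli.comp _ hinj) co
    (hcomb ▸ hBint.mul hf)
  have hmain := sum_rd_mem (E := E) e (fun r => ⟨co r, hcoA r⟩) (fun r => hu _ _)
    fun r => huE _ _
  rw [← hcomb, Sheet.rd_mul hBint.1 hf.1, Sheet.rd_mul hBint.2 hf.2] at hmain
  have hdiv : ∀ {y z : LaurentSeries k}, y ≠ 0 → y ∈ E → y * z ∈ E → z ∈ E := by
    intro y z hy hy' hyz
    rw [← inv_mul_cancel_left₀ hy z]
    exact mul_mem (inv_mem hy') hyz
  exact ⟨hdiv hB1 hBmem.1 hmain.1, hdiv hB2 hBmem.2 hmain.2⟩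

/-- Residues at the first sheet lie in `E` if jointly integral functions reduce into it and some
`ε` reduces to a non-zero element of `E` and is divisible by `p` at the second. -/
theorem rd_mem_of_sep (hE : ∀ f, Integral₂ s₁ s₂ f → s₁.rd f ∈ E)
    (hscale : ∀ f : F, f ≠ 0 → ∃ c : L, c • f ∈ s₂.W ∧ s₂.rd (c • f) ≠ 0)
    {p : L} (hp : p ≠ 0) (hpow : ∀ c : L, ∃ n : ℕ, p ^ n * c ∈ A) {ε : F} (hε : ε ∈ s₁.W)
    (hεE : s₁.rd ε ∈ E) (hε0 : s₁.rd ε ≠ 0) (hεp : p⁻¹ • ε ∈ s₂.W)
    {f : F} (hf : f ∈ s₁.W) : s₁.rd f ∈ E := by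
  rcases eq_or_ne f 0 with rfl | hf0
  · rw [Sheet.rd_zero]; exact zero_mem _
  obtain ⟨c, hc, hcr⟩ := hscale f hf0
  have hc0 : c ≠ 0 := fun h => hcr (by rw [h, zero_smul, Sheet.rd_zero])
  obtain ⟨n, hn⟩ := hpow c⁻¹
  have hg : ε ^ n * f ∈ s₂.W := by
    have h := Sheet.smul_mem (s := s₂) hn (mul_mem (pow_mem hεp n) hc)
    have heq : (p ^ n * c⁻¹) • ((p⁻¹ • ε) ^ n * (c • f)) = ε ^ n * f := by
      rw [smul_pow, smul_mul_smul_comm, smul_smul, inv_pow,
        show p ^ n * c⁻¹ * ((p ^ n)⁻¹ * c) = 1 by field_simp, one_smul]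
    rwa [heq] at h
  have h := hE _ ⟨mul_mem (pow_mem hε n) hf, hg⟩
  rw [Sheet.rd_mul (pow_mem hε n) hf, Sheet.rd_pow hε] at h
  rw [← inv_mul_cancel_left₀ (pow_ne_zero n hε0) (s₁.rd f)]
  exact mul_mem (inv_mem (pow_mem hεE n)) h

end Residues

local notation "Qb" => AlgebraicClosure ℚ

variable {q : ℕ} [Fact q.Prime] {M : ℕ} [NeZero M] (hqM : ¬ q ∣ M)
  {A : ValuationSubring (AlgebraicClosure ℚ)}

local notation "kA" => IsLocalRing.ResidueField A
local notation "FqM" => modularFunctionFieldBar (q * M)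

variable (hA : A.LiesOverPrime q)

theorem jqModC_mem_specialField : jqModC kA ∈ modularFunctionFieldFullC kA M :=
  jqModC_mem_full kA M

include hqM hA in
/-- The reductions of the joint family lie in the special function field. -/
theorem jointFamily_rd_mem (a : ℕ) (i : Fin (dedekindPsi M) ⊕ (Fin (dedekindPsi M) × Fin q)) :
    (rd₂ (rawInf hqM hA) (rawZero hqM hA) (jFq q M ^ a * jointFamily hqM i)).1 ∈
        modularFunctionFieldFullC kA M ∧
      (rd₂ (rawInf hqM hA) (rawZero hqM hA) (jFq q M ^ a * jointFamily hqM i)).2 ∈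
        modularFunctionFieldFullC kA M := by
  have hj := jqModC_mem_specialField (A := A) (M := M)
  have hJ : jqNModC kA M ∈ modularFunctionFieldFullC kA M :=
    jqModCd_mem_full kA M dvd_rfl
  have hu : sepRed kA q ∈ modularFunctionFieldFullC kA M := sub_mem hj (pow_mem hj _)
  rw [(jointFamily_rd hqM hA a i).2]
  rcases i with l | r
  · exact ⟨mul_mem (mul_mem (pow_mem hj _) (pow_mem hJ _)) hu, zero_mem _⟩
  · exact ⟨zero_mem _, mul_mem (mul_mem (pow_mem hj _) (pow_mem hJ _)) hu⟩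

/-- The reductions of a jointly integral function lie in the special function field. -/
theorem rd_mem_specialField {f : FqM} (hf : Integral₂ (rawInf hqM hA) (rawZero hqM hA) f) :
    (rawInf hqM hA).rd f ∈ modularFunctionFieldFullC kA M ∧
      (rawZero hqM hA).rd f ∈ modularFunctionFieldFullC kA M := by
  have hjK := jqModC_mem_specialField (A := A) (M := M)
  refine rd_mem_of_basis (s₁ := rawInf hqM hA) (s₂ := rawZero hqM hA) monoResidue_eq_zero_iff
    transcendental_jFq ⟨(rawInf_jFq hqM hA).1, (rawZero_jFq hqM hA).1⟩ ?_ ?_ ?_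
    (fun a i => (jointFamily_rd hqM hA a i).1) (jointFamily_rd_mem hqM hA)
    (linearIndependent_jointFamily hqM hA) (span_jointFamily hqM hA) hf
  · rw [(rawInf_jFq hqM hA).2]; exact transcendental_jqModC kA
  · rw [(rawZero_jFq hqM hA).2]
    exact (transcendental_jqModC kA).pow (Fact.out : q.Prime).pos
  · rw [(rawInf_jFq hqM hA).2, (rawZero_jFq hqM hA).2]
    exact ⟨hjK, pow_mem hjK _⟩

/-- The residues at infinity lie in the special function field. -/
theorem rawInf_rd_mem (f : FqM) (hf : f ∈ (rawInf hqM hA).W) :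
    (rawInf hqM hA).rd f ∈ modularFunctionFieldFullC kA M := by
  refine rd_mem_of_sep (s₁ := rawInf hqM hA) (s₂ := rawZero hqM hA)
    (fun g hg => (rd_mem_specialField hqM hA hg).1) (fun g hg => seriesSheet_scale _ _ _ _ hg)
    (Nat.cast_ne_zero.mpr (Fact.out : q.Prime).ne_zero) (exists_pow_mul_mem hA)
    (rawInf_sepFun hqM hA).1 ?_ ?_ (inv_smul_sepFun_mem hqM hA) hf
  · rw [(rawInf_sepFun hqM hA).2]
    exact sub_mem jqModC_mem_specialField (pow_mem jqModC_mem_specialField _)
  · rw [(rawInf_sepFun hqM hA).2]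
    exact sepRed_ne_zero kA (Fact.out : q.Prime).two_le

/-- The residues at the other cusp lie in the special function field. -/
theorem rawZero_rd_mem (f : FqM) (hf : f ∈ (rawZero hqM hA).W) :
    (rawZero hqM hA).rd f ∈ modularFunctionFieldFullC kA M := by
  rw [rawZero_rd]
  exact rawInf_rd_mem hqM hA _ ((rawZero_mem_iff hqM hA f).mp hf)

/-- The sheet at infinity. -/
def monoSheetInf :
    Sheet (IsLocalRing.residue A) FqM (modularFunctionFieldFullC kA M) :=
  (rawInf hqM hA).restrictTo (rawInf_rd_mem hqM hA)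

/-- The sheet at the other cusp. -/
def monoSheetZero :
    Sheet (IsLocalRing.residue A) FqM (modularFunctionFieldFullC kA M) :=
  (rawZero hqM hA).restrictTo (rawZero_rd_mem hqM hA)

theorem coe_monoSheetInf_rd (f : FqM) :
    ((monoSheetInf hqM hA).rd f : LaurentSeries kA) = (rawInf hqM hA).rd f :=
  Sheet.coe_restrictTo_rd _ _ f

theorem coe_monoSheetZero_rd (f : FqM) :
    ((monoSheetZero hqM hA).rd f : LaurentSeries kA) = (rawZero hqM hA).rd f :=
  Sheet.coe_restrictTo_rd _ _ f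

theorem monoSheetZero_mem_iff (f : FqM) :
    f ∈ (monoSheetZero hqM hA).W ↔ monoSwap hqM f ∈ (monoSheetInf hqM hA).W :=
  rawZero_mem_iff hqM hA f

theorem monoSheetZero_rd (f : FqM) :
    (monoSheetZero hqM hA).rd f = (monoSheetInf hqM hA).rd (monoSwap hqM f) :=
  Subtype.ext (by rw [coe_monoSheetZero_rd, coe_monoSheetInf_rd, rawZero_rd])

theorem monoSheetInf_scale {f : FqM} (hf : f ≠ 0) :
    ∃ c : Qb, c • f ∈ (monoSheetInf hqM hA).W ∧ (monoSheetInf hqM hA).rd (c • f) ≠ 0 := by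
  obtain ⟨c, hc, hr⟩ := seriesSheet_scale (π := IsLocalRing.residue A) monoResidue_eq_zero_iff
    (Fact.out : q.Prime) (monoResidue_natCast hA) (exists_fraction_inf hqM) hf
  exact ⟨c, hc, fun h => hr
    ((coe_monoSheetInf_rd hqM hA _).symm.trans (by rw [h]; rfl))⟩

theorem monoSheetZero_scale {f : FqM} (hf : f ≠ 0) :
    ∃ c : Qb, c • f ∈ (monoSheetZero hqM hA).W ∧ (monoSheetZero hqM hA).rd (c • f) ≠ 0 := by
  obtain ⟨c, hc, hr⟩ := seriesSheet_scale (π := IsLocalRing.residue A) monoResidue_eq_zero_iff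
    (Fact.out : q.Prime) (monoResidue_natCast hA) (exists_fraction_zero hqM) hf
  exact ⟨c, hc, fun h => hr
    ((coe_monoSheetZero_rd hqM hA _).symm.trans (by rw [h]; rfl))⟩

/-- Joint orthogonality of the two sheets. -/
theorem monoTwoSheets_orth (V : Submodule Qb FqM) (hV : FiniteDimensional Qb V) :
    Module.finrank kA (redSpace (monoSheetInf hqM hA) (monoSheetZero hqM hA)
      IsLocalRing.residue_surjective V) = Module.finrank Qb V := by
  rw [monoSheetInf, monoSheetZero, finrank_redSpace_restrictTo]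
  exact seriesSheet_orth (ι := iotaInf q M) (ι₂ := iotaZero hqM) monoResidue_eq_zero_iff
    (Fact.out : q.Prime) (monoResidue_natCast hA) (exists_fraction_inf hqM)
    (exists_fraction_zero hqM) IsLocalRing.residue_surjective (exists_integral_fraction hqM) V

end FermatLib.Igusa.Mono
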