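/-
The two sheets of level `q M` are read off from expansions.
-/
import Fermat.Agent.Igusa.MonoTwoSheets
import Fermat.Agent.Igusa.MonoPushModular

/-!
# Ratios on the two sheets

`monoSheetInf` and `monoSheetZero` satisfy `HasRatios` for the expansions at `∞` and after `w_q`,
and `j` is the image of `jBottom`.
-/

set_option autoImplicit false
set_option linter.style.haveILetI false
set_option synthInstance.maxHeartbeats 400000

noncomputable section

open AlgebraicCurve ModularCurve

namespace FermatLib.Igusa.Mono

open FermatLib.Modular.Corr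

attribute [local instance] neZero_mul'
attribute [local instance 100000] monoLaurentModule monoLaurentSMul

local notation "Qb" => AlgebraicClosure ℚ

variable {q : ℕ} [Fact q.Prime] [NeZero q] {M : ℕ} [NeZero M] (hqM : ¬ q ∣ M)
  {A : ValuationSubring (AlgebraicClosure ℚ)} (hA : A.LiesOverPrime q)

local notation "kA" => IsLocalRing.ResidueField A

variable (M A) in
/-- Series with residual coefficients of the special function field. -/
def specialEmb : modularFunctionFieldFullC kA M →+* LaurentSeries kA :=
  (modularFunctionFieldFullC kA M).val.toRingHom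

theorem hasRatios_monoSheetInf :
    HasRatios (monoSheetInf hqM hA) (fieldBar Qb (q * M)).val (specialEmb M A) := by
  intro f hf
  obtain ⟨y, z, h⟩ := (hf : f ∈ (rawInf hqM hA).W)
  have hr : IsRatio A (IsLocalRing.residue A) (iotaInf q M) f y z := h
  refine ⟨y, z, ⟨hr.red_ne, hr.eq⟩, ?_⟩
  show ((monoSheetInf hqM hA).rd f : LaurentSeries kA) * _ = _
  rw [coe_monoSheetInf_rd, rawInf, (seriesSheet_rd _ _ _ _ hr).2,
    div_mul_cancel₀ _ hr.red_ne]

theorem hasRatios_monoSheetZero :
    HasRatios (monoSheetZero hqM hA)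
      ((fieldBar Qb (q * M)).val.comp (monoSwap hqM).toAlgHom) (specialEmb M A) := by
  intro f hf
  obtain ⟨y, z, h⟩ := (hf : f ∈ (rawZero hqM hA).W)
  have hr : IsRatio A (IsLocalRing.residue A) (iotaZero hqM) f y z := h
  refine ⟨y, z, ⟨hr.red_ne, hr.eq⟩, ?_⟩
  show ((monoSheetZero hqM hA).rd f : LaurentSeries kA) * _ = _
  rw [coe_monoSheetZero_rd, rawZero, (seriesSheet_rd _ _ _ _ hr).2,
    div_mul_cancel₀ _ hr.red_ne]

theorem jFq_eq_alphaMap : jFq q M = alphaMap q M (jBottom M) := by
  apply Subtype.ext
  rw [coe_barIncl]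
  show qExpand Qb _ (jqModC Qb) = FermatLib.Modular.Corr.jBar Qb
  rw [jBar_eq_jqModC]
  exact qExpand_one_apply _

end FermatLib.Igusa.Mono
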