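/-
A two-sheet datum on the two modular sheets gives the reduction kernel datum.
-/
import Fermat.Agent.Igusa.MonoSheetRatios
import Fermat.Agent.Igusa.MonoReductionKernel
import Fermat.Agent.Igusa.MonoPoleBound

/-!
# From the modular two-sheet datum to `LevelDatum`

Any `MonoDatum` on `monoSheetInf`, `monoSheetZero` with `x = j` is a `LevelDatum`.
-/

set_option autoImplicit false
set_option linter.style.haveILetI false
set_option synthInstance.maxHeartbeats 400000

noncomputable section

open AlgebraicCurve ModularCurve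

namespace FermatLib.Igusa.Mono

open FermatLib.Modular.Corr

attribute [local instance] neZero_mul'

local notation "Qb" => AlgebraicClosure ℚ

variable {q : ℕ} [Fact q.Prime] [NeZero q] {M : ℕ} [NeZero M] {hqM : ¬ q ∣ M}
  {A : ValuationSubring (AlgebraicClosure ℚ)} {hA : A.LiesOverPrime q}

local notation "kA" => IsLocalRing.ResidueField A

/-- The `LevelDatum` of a datum on the two modular sheets. -/
def LevelDatum.ofSheets
    (D : MonoDatum (IsLocalRing.residue A) (fieldBar Qb (q * M))
      (modularFunctionFieldFullC kA M) q)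
    (h₁ : D.s₁ = monoSheetInf hqM hA) (h₂ : D.s₂ = monoSheetZero hqM hA)
    (hx : D.x = jFq q M) : LevelDatum hqM A where
  Kb := modularFunctionFieldFullC kA M
  D := D
  emb := specialEmb M A
  x_eq := hx.trans jFq_eq_alphaMap
  ratios₁ := h₁ ▸ hasRatios_monoSheetInf hqM hA
  ratios₂ := h₂ ▸ hasRatios_monoSheetZero hqM hA
  P₁_le_P₂ := by
    have hpow : D.s₂.rd D.x = D.s₁.rd D.x ^ q := by
      apply Subtype.ext
      rw [h₁, h₂, hx, SubmonoidClass.coe_pow, coe_monoSheetZero_rd, coe_monoSheetInf_rd,
        (rawZero_jFq hqM hA).2, (rawInf_jFq hqM hA).2]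
    have h := mono_poles_pow (q := q) D.P₁_apply
      (Q := D.P₂) (fun v => by rw [D.P₂_apply, hpow])
    rw [h]
    exact le_self_nsmul D.P₁_nonneg (Fact.out : q.Prime).ne_zero

end FermatLib.Igusa.Mono
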