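import Fermat.Agent.Igusa.IntegralLift
import Fermat.Agent.Igusa.CuspLattice
import Fermat.Agent.Curve.RiemannRoch

/-!
Reduction maps `L(n B)` into `L(n B̄)`, `B` and `B̄` the pole divisors of `j`; if it is onto for
large `n`, the genus is preserved and both fields satisfy `RRField` for the same genus.
-/

set_option autoImplicit false
set_option synthInstance.maxHeartbeats 400000

noncomputable section

open AlgebraicCurve ModularCurve

namespace FermatLib.Igusa

/-- Riemann-Roch gives `RRField`. -/
theorem rrField_genusFF (K F : Type*) [Field K] [Field F] [Algebra K F]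
    [Curve.IsFunctionField K F] [IsAlgClosed K] : RRField K F (genusFF K F) where
  deg_one := Curve.deg_eq_one
  nonempty_place := Curve.nonempty_place
  principal := inferInstance
  finite_space := Curve.finite_riemannRochSpace
  finrank_space D hD := Curve.finrank_riemannRochSpace_of_lt_degree (by omega)

variable {L : Type*} [Field L] [Algebra ℚ L] {A : ValuationSubring L}
variable {k : Type*} [Field k] {π : A →+* k} {N M : ℕ}

theorem isFunctionField_fullC (hd : DegreeInput A π N M) :
    Curve.IsFunctionField k (modularFunctionFieldFullC k N) := by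
  haveI : FiniteDimensional (IntermediateField.adjoin k {specialFun A π N (jInt A π N)})
      (modularFunctionFieldFullC k N) :=
    Module.finite_of_finrank_pos (by rw [hd.finrank_special]; exact hd.pos)
  exact .of_transcendental (transcendental_specialFun_jInt A π N)

variable [Curve.IsFunctionField L (laurentBaseChange L (modularFunctionFieldFull N))]
variable [Curve.IsFunctionField k (modularFunctionFieldFullC k N)]

variable (A π N) in
/-- Lifting of the functions of bounded pole order at the poles of `j`. -/
def SpecialLiftInput : Prop :=
  ∃ n₀ : ℕ, ∀ n : ℕ, n₀ ≤ n →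
    ∀ h ∈ riemannRochSpace ((n : ℤ) • Curve.polarDivisor k (specialFun A π N (jInt A π N))),
      ∃ y : integralSeries A π N,
        genericFun A π N y ∈ riemannRochSpace
            ((n : ℤ) • Curve.polarDivisor L (genericFun A π N (jInt A π N))) ∧
          specialFun A π N y = h

variable (hres : ∀ a : A, ¬ IsUnit a → π a = 0) (hunit : ∀ a : A, π a ≠ 0 → IsUnit a)
variable (hπ : Function.Surjective π) (hd : DegreeInput A π N M)

/-- The reduction of `L(n B)` lies in `L(n B̄)`. -/
theorem redSpace_polar_le (n : ℕ) :
    (gaussReduction hres hunit hπ hd).redSpace (riemannRochSpace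
        ((n : ℤ) • Curve.polarDivisor L (genericFun A π N (jInt A π N)))) ≤
      riemannRochSpace ((n : ℤ) • Curve.polarDivisor k (specialFun A π N (jInt A π N))) := by
  classical
  rintro _ ⟨(f : gaussRing A π N), hf, rfl⟩
  set jL := genericFun A π N (jInt A π N) with hjL
  set jk := specialFun A π N (jInt A π N) with hjk
  show gaussRed A π N f ∈ _
  rw [mem_riemannRochSpace_iff] at hf ⊢
  intro v
  refine or_iff_not_imp_left.mpr fun hne => ?_
  have hf0 : (f : laurentBaseChange L (modularFunctionFieldFull N)) ≠ 0 := fun h0 => hne (by
    rw [show f = 0 from Subtype.ext h0, map_zero])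
  have hf' : ∀ P : Place L (laurentBaseChange L (modularFunctionFieldFull N)),
      -((n : ℤ) * max (-P.ord jL) 0) ≤
        P.ord (f : laurentBaseChange L (modularFunctionFieldFull N)) := fun P => by
    simpa [Curve.polarDivisor_apply] using (hf P).resolve_left hf0
  have hjL0 : jL ≠ 0 := fun h => by
    have := transcendental_genericFun_jInt A π N
    exact this (by rw [show genericFun A π N (jInt A π N) = 0 from h]; exact isAlgebraic_zero)
  have hjk0 : jk ≠ 0 := fun h => by
    have := transcendental_specialFun_jInt A π N
    exact this (by rw [show specialFun A π N (jInt A π N) = 0 from h]; exact isAlgebraic_zero)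
  rw [Finsupp.smul_apply, Curve.polarDivisor_apply, smul_eq_mul]
  rcases le_or_gt 0 (v.ord jk) with hv | hv
  · rw [max_eq_right (by omega), mul_zero, neg_zero]
    refine ord_gaussRed_nonneg hres hπ (transcendental_genericFun_jInt A π N)
      (transcendental_specialFun_jInt A π N) hd.pos hd.finrank_generic hd.finrank_special f
      (isIntegral_of_forall_pole hd _ fun P hP => ?_) v hv
    show P.ord jL < 0
    by_contra hc
    have := hf' P
    rw [max_eq_right (by omega), mul_zero] at this
    omega
  · rw [max_eq_left (by omega)]
    set t : integralSeries A π N := tInt ^ n with ht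
    set h : gaussRing A π N := f * ⟨_, genericFun_mem_gaussRing A π N t⟩ with hh
    have hred : gaussRed A π N h = gaussRed A π N f * jk⁻¹ ^ n := by
      rw [hh, map_mul, gaussRed_genericFun, ht, map_pow, specialFun_tInt]
    have hgen : (h : laurentBaseChange L (modularFunctionFieldFull N)) =
        (f : laurentBaseChange L (modularFunctionFieldFull N)) * jL⁻¹ ^ n := by
      show (f : laurentBaseChange L (modularFunctionFieldFull N)) * genericFun A π N t = _
      rw [ht, map_pow, genericFun_tInt]
    have key := ord_gaussRed_nonneg hres hπ (jj := tInt)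
      (by rw [genericFun_tInt]; exact fun ha => transcendental_genericFun_jInt A π N (IsAlgebraic.inv_iff.mp ha))
      (by rw [specialFun_tInt]; exact fun ha => transcendental_specialFun_jInt A π N (IsAlgebraic.inv_iff.mp ha))
      hd.pos (by rw [genericFun_tInt, Curve.adjoin_simple_inv]; exact hd.finrank_generic)
      (by rw [specialFun_tInt, Curve.adjoin_simple_inv]; exact hd.finrank_special) h
      (isIntegral_of_forall_pole hd _ fun P hP => by
        rw [genericFun_tInt, P.ord_inv]
        show -P.ord jL < 0
        rw [hgen, P.ord_mul hf0 (pow_ne_zero _ (inv_ne_zero hjL0)), Curve.ord_pow, P.ord_inv] at hP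
        by_contra hc
        have := hf' P
        rw [max_eq_left (by omega)] at this
        nlinarith) v (by rw [specialFun_tInt, v.ord_inv, ← hjk]; omega)
    rw [hred, v.ord_mul hne (pow_ne_zero _ (inv_ne_zero hjk0)), Curve.ord_pow, v.ord_inv] at key
    nlinarith

include hres hunit hπ hd in
/-- Lifting implies preservation of the genus. -/
theorem genusFF_eq_of_lift [IsAlgClosed L] [IsAlgClosed k] (hlift : SpecialLiftInput A π N) :
    genusFF k (modularFunctionFieldFullC k N) =
      genusFF L (laurentBaseChange L (modularFunctionFieldFull N)) := by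
  obtain ⟨n₀, hlift⟩ := hlift
  set g := genusFF L (laurentBaseChange L (modularFunctionFieldFull N))
  set gk := genusFF k (modularFunctionFieldFullC k N)
  set n := n₀ + 2 * g + 2 * gk + 1 with hn
  set D := (n : ℤ) • Curve.polarDivisor L (genericFun A π N (jInt A π N)) with hD
  set E := (n : ℤ) • Curve.polarDivisor k (specialFun A π N (jInt A π N)) with hE
  have heq : (gaussReduction hres hunit hπ hd).redSpace (riemannRochSpace D) =
      riemannRochSpace E := by
    refine le_antisymm (redSpace_polar_le hres hunit hπ hd n) fun h hh => ?_
    obtain ⟨y, hy, rfl⟩ := hlift n (by omega) h hh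
    exact ⟨⟨_, genericFun_mem_gaussRing A π N y⟩, hy, gaussRed_genericFun A π N y⟩
  haveI := Curve.finite_riemannRochSpace D
  have h1 := (gaussReduction hres hunit hπ hd).finrank_redSpace (riemannRochSpace D)
  rw [heq] at h1
  have hdD : Divisor.degree D = (n : ℤ) * M := by
    rw [hD, map_zsmul, Curve.degree_polarDivisor (transcendental_genericFun_jInt A π N),
      hd.finrank_generic, smul_eq_mul]
  have hdE : Divisor.degree E = (n : ℤ) * M := by
    rw [hE, map_zsmul, Curve.degree_polarDivisor (transcendental_specialFun_jInt A π N),
      hd.finrank_special, smul_eq_mul]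
  have hM := hd.pos
  have hnM : (n : ℤ) ≤ (n : ℤ) * M := le_mul_of_one_le_right (by positivity) (by exact_mod_cast hM)
  have h2 := Curve.finrank_riemannRochSpace_of_lt_degree (D := D) (by rw [hdD]; omega)
  have h3 := Curve.finrank_riemannRochSpace_of_lt_degree (D := E) (by rw [hdE]; omega)
  omega

include hres hunit hπ hd in
/-- Both fields satisfy `RRField` for the same genus. -/
theorem exists_rrField_of_lift [IsAlgClosed L] [IsAlgClosed k]
    (hlift : SpecialLiftInput A π N) :
    ∃ g : ℕ, RRField L (laurentBaseChange L (modularFunctionFieldFull N)) g ∧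
      RRField k (modularFunctionFieldFullC k N) g :=
  ⟨_, rrField_genusFF L _, genusFF_eq_of_lift hres hunit hπ hd hlift ▸ rrField_genusFF k _⟩

end FermatLib.Igusa
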