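import Fermat.Agent.Igusa.RRField

/-!
Generic facts on regular functions of a function field with prescribed pole set, used for the
unipotence of inertia on `J₀(qM)`: values, separation of points, and ideals of regular functions.
-/

set_option autoImplicit false
set_option linter.style.haveILetI false

noncomputable section

open AlgebraicCurve

namespace FermatLib.Igusa.Mono

open FermatLib.Igusa

variable {K F : Type*} [Field K] [Field F] [Algebra K F]

open Classical in
/-- The value of a function at a place (`0` when there is none). -/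
def valAt (v : Place K F) (f : F) : K :=
  if h : ∃ c, HasValueAt v f c then h.choose else 0

theorem valAt_eq {v : Place K F} {f : F} {c : K} (h : HasValueAt v f c) : valAt v f = c := by
  have h' : ∃ c, HasValueAt v f c := ⟨c, h⟩
  rw [valAt, dif_pos h']
  exact h'.choose_spec.unique h

theorem hasValueAt_iff {v : Place K F} {f : F} {c : K} :
    HasValueAt v f c ↔ (f - algebraMap K F c = 0 ∨ (1 : ℤ) ≤ v.ord (f - algebraMap K F c)) := by
  rw [sub_eq_zero]
  rfl

theorem hasValueAt_valAt {v : Place K F} (hdeg : v.deg = 1) {f : F}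
    (hf : f = 0 ∨ 0 ≤ v.ord f) : HasValueAt v f (valAt v f) := by
  obtain ⟨c, hc⟩ := exists_hasValueAt hdeg hf
  rwa [valAt_eq hc]

theorem valAt_algebraMap (v : Place K F) (c : K) : valAt v (algebraMap K F c) = c :=
  valAt_eq (HasValueAt.of_eq v c)

@[simp] theorem valAt_zero (v : Place K F) : valAt v (0 : F) = 0 := by
  simpa using valAt_algebraMap v (0 : K)

@[simp] theorem valAt_one (v : Place K F) : valAt v (1 : F) = 1 := by
  simpa using valAt_algebraMap v (1 : K)

theorem hasValueAt_add {v : Place K F} {f h : F} {a b : K} (hf : HasValueAt v f a)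
    (hh : HasValueAt v h b) : HasValueAt v (f + h) (a + b) := by
  rw [hasValueAt_iff] at hf hh ⊢
  have := ord_add_ge v hf hh
  rwa [show f - algebraMap K F a + (h - algebraMap K F b)
    = f + h - algebraMap K F (a + b) by rw [map_add]; ring] at this

theorem ordGE_mul {v : Place K F} {f h : F} {m n : ℤ} (hf : f = 0 ∨ m ≤ v.ord f)
    (hh : h = 0 ∨ n ≤ v.ord h) : f * h = 0 ∨ m + n ≤ v.ord (f * h) := by
  rcases eq_or_ne f 0 with rfl | hf0
  · simp
  rcases eq_or_ne h 0 with rfl | hh0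
  · simp
  right
  rw [v.ord_mul hf0 hh0]
  exact add_le_add (hf.resolve_left hf0) (hh.resolve_left hh0)

theorem hasValueAt_mul {v : Place K F} {f h : F} {a b : K} (hf : HasValueAt v f a)
    (hh : HasValueAt v h b) : HasValueAt v (f * h) (a * b) := by
  have hh0 := hh.ord_nonneg
  rw [hasValueAt_iff] at hf hh ⊢
  have h1 : (f - algebraMap K F a) * h = 0 ∨ (1 : ℤ) ≤ v.ord ((f - algebraMap K F a) * h) := by
    simpa using ordGE_mul hf hh0
  have h2 : algebraMap K F a * (h - algebraMap K F b) = 0 ∨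
      (1 : ℤ) ≤ v.ord (algebraMap K F a * (h - algebraMap K F b)) := by
    simpa using ordGE_mul (f := algebraMap K F a) (m := (0 : ℤ))
      (Or.inr (ord_algebraMap v a).ge) hh
  have := ord_add_ge v h1 h2
  rwa [show (f - algebraMap K F a) * h + algebraMap K F a * (h - algebraMap K F b)
    = f * h - algebraMap K F (a * b) by rw [map_mul]; ring] at this

theorem valAt_ne_zero {v : Place K F} (hdeg : v.deg = 1) {f : F} (hf : f ≠ 0)
    (h : v.ord f = 0) : valAt v f ≠ 0 := by
  intro h0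
  have := hasValueAt_valAt hdeg (f := f) (Or.inr h.ge)
  rw [h0] at this
  rcases this with h' | h'
  · exact hf (by simpa using h')
  · simp at h'
    omega

theorem valAt_eq_zero_iff {v : Place K F} (hdeg : v.deg = 1) {f : F}
    (hf : f = 0 ∨ 0 ≤ v.ord f) : valAt v f = 0 ↔ (f = 0 ∨ 1 ≤ v.ord f) := by
  constructor
  · intro h0
    have := hasValueAt_iff.mp (hasValueAt_valAt hdeg hf)
    simpa [h0] using this
  · intro h
    exact valAt_eq (hasValueAt_iff.mpr (by simpa using h))

/-- Regularity away from the support of `P`. -/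
def Reg (P : Divisor K F) : Submodule K F where
  carrier := {f | ∀ v : Place K F, P v = 0 → (f = 0 ∨ 0 ≤ v.ord f)}
  zero_mem' := fun _ _ => Or.inl rfl
  add_mem' := fun {f h} hf hh v hv => ord_add_ge v (hf v hv) (hh v hv)
  smul_mem' := fun c f hf v hv => by
    rw [Algebra.smul_def]
    simpa using ordGE_mul (f := algebraMap K F c) (m := (0 : ℤ))
      (Or.inr (ord_algebraMap v c).ge) (hf v hv)

theorem mem_reg {P : Divisor K F} {f : F} :
    f ∈ Reg P ↔ ∀ v : Place K F, P v = 0 → (f = 0 ∨ 0 ≤ v.ord f) := Iff.rfl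

theorem reg_congr {P P' : Divisor K F} (h : ∀ v, P v = 0 ↔ P' v = 0) : Reg P = Reg P' := by
  ext f
  simp only [mem_reg, h]

theorem mul_mem_reg {P : Divisor K F} {f h : F} (hf : f ∈ Reg P) (hh : h ∈ Reg P) :
    f * h ∈ Reg P := fun v hv => by simpa using ordGE_mul (hf v hv) (hh v hv)

theorem algebraMap_mem_reg (P : Divisor K F) (c : K) : algebraMap K F c ∈ Reg P :=
  fun v _ => Or.inr (ord_algebraMap v c).ge

theorem one_mem_reg (P : Divisor K F) : (1 : F) ∈ Reg P := by
  simpa using algebraMap_mem_reg P (1 : K)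

theorem riemannRochSpace_le_reg {P D : Divisor K F} (h : ∀ v, P v = 0 → D v ≤ 0) :
    riemannRochSpace D ≤ Reg P := fun f hf v hv =>
  ((mem_riemannRochSpace_iff.mp hf) v).imp id fun h' => by
    have := h v hv
    omega

theorem rrSpace_nsmul_le_reg (P : Divisor K F) (n : ℕ) :
    riemannRochSpace (n • P) ≤ Reg P :=
  riemannRochSpace_le_reg fun v hv => by simp [hv]

theorem hasValueAt_valAt_reg (hdeg : ∀ v : Place K F, v.deg = 1) {P : Divisor K F} {f : F}
    (hf : f ∈ Reg P) {v : Place K F} (hv : P v = 0) : HasValueAt v f (valAt v f) :=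
  hasValueAt_valAt (hdeg v) (hf v hv)

theorem valAt_add_reg (hdeg : ∀ v : Place K F, v.deg = 1) {P : Divisor K F} {f h : F}
    (hf : f ∈ Reg P) (hh : h ∈ Reg P) {v : Place K F} (hv : P v = 0) :
    valAt v (f + h) = valAt v f + valAt v h :=
  valAt_eq (hasValueAt_add (hasValueAt_valAt_reg hdeg hf hv) (hasValueAt_valAt_reg hdeg hh hv))

theorem valAt_mul_reg (hdeg : ∀ v : Place K F, v.deg = 1) {P : Divisor K F} {f h : F}
    (hf : f ∈ Reg P) (hh : h ∈ Reg P) {v : Place K F} (hv : P v = 0) :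
    valAt v (f * h) = valAt v f * valAt v h :=
  valAt_eq (hasValueAt_mul (hasValueAt_valAt_reg hdeg hf hv) (hasValueAt_valAt_reg hdeg hh hv))

theorem valAt_smul_reg (hdeg : ∀ v : Place K F, v.deg = 1) {P : Divisor K F} {f : F} (c : K)
    (hf : f ∈ Reg P) {v : Place K F} (hv : P v = 0) :
    valAt v (c • f) = c * valAt v f := by
  rw [Algebra.smul_def, valAt_mul_reg hdeg (algebraMap_mem_reg P c) hf hv, valAt_algebraMap]

theorem valAt_pow_reg (hdeg : ∀ v : Place K F, v.deg = 1) {P : Divisor K F} {f : F}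
    (hf : f ∈ Reg P) {v : Place K F} (hv : P v = 0) (n : ℕ) :
    valAt v (f ^ n) = valAt v f ^ n := by
  induction n with
  | zero => simp
  | succ n ih =>
    have hfn : f ^ n ∈ Reg P := by
      clear ih
      induction n with
      | zero => simpa using one_mem_reg P
      | succ n ihn => rw [pow_succ]; exact mul_mem_reg ihn hf
    rw [pow_succ, valAt_mul_reg hdeg hfn hf hv, ih, pow_succ]

theorem one_le_degree_of_ne_zero (hdeg : ∀ v : Place K F, v.deg = 1) {P : Divisor K F}
    (hP : 0 ≤ P) (hP0 : P ≠ 0) : 1 ≤ Divisor.degree P := by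
  have h1 := degree_nonneg hP
  by_contra hlt
  exact hP0 (eq_of_le_of_degree_eq hdeg hP (by rw [map_zero]; omega)).symm

section RR

variable {g : ℕ} (hF : RRField K F g) {P : Divisor K F}
include hF

/-- Prescribed orders of vanishing at finitely many places outside the poles. -/
theorem exists_reg_ord (hP : 0 ≤ P) (hP0 : P ≠ 0) (E : Divisor K F)
    (hE0 : 0 ≤ E) :
    ∃ n₀ : ℕ, ∀ n, n₀ ≤ n → ∀ Q : Place K F, P Q = 0 → ∃ f ∈ riemannRochSpace (n • P),
      f ≠ 0 ∧ Q.ord f = E Q ∧ ∀ v, P v = 0 → E v ≤ v.ord f := by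
  have hd := one_le_degree_of_ne_zero hF.deg_one hP hP0
  refine ⟨(2 * (g : ℤ) + Divisor.degree E).toNat, fun n hn Q hQ => ?_⟩
  have hn' : 2 * (g : ℤ) + Divisor.degree E ≤ n := Int.toNat_le.mp hn
  obtain ⟨f, hf, hf0, hfQ⟩ := hF.exists_ord_eq (D := n • P - E) (by
    rw [map_sub, map_nsmul, nsmul_eq_mul]
    nlinarith [Int.natCast_nonneg n]) Q
  refine ⟨f, riemannRochSpace_mono (sub_le_self _ hE0) hf, hf0, ?_, fun v hv => ?_⟩
  · rw [hfQ, Finsupp.sub_apply, Finsupp.smul_apply, hQ]
    simp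
  · have := ((mem_riemannRochSpace_iff.mp hf) v).resolve_left hf0
    rw [Finsupp.sub_apply, Finsupp.smul_apply, hv] at this
    simpa using this

/-- In large degree there are functions with value `1` at a given point of a finite set and `0`
at the others. -/
theorem exists_indicator (hP : 0 ≤ P) (hP0 : P ≠ 0) (S : Finset (Place K F))
    (hS : ∀ v ∈ S, P v = 0) :
    ∃ n₀ : ℕ, ∀ n, n₀ ≤ n → ∀ Q ∈ S, ∃ f ∈ riemannRochSpace (n • P),
      valAt Q f = 1 ∧ ∀ v ∈ S, v ≠ Q → valAt v f = 0 := by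
  classical
  set E : Place K F → Divisor K F := fun Q => ∑ v ∈ S.erase Q, Finsupp.single v 1 with hEdef
  have hEval : ∀ Q v, E Q v = if v ∈ S.erase Q then 1 else 0 := by
    intro Q v
    simp [hEdef, Finsupp.finsetSum_apply, Finsupp.single_apply]
  have hex : ∀ Q : Place K F, ∃ n₀ : ℕ, ∀ n, n₀ ≤ n → ∀ R : Place K F, P R = 0 →
      ∃ f ∈ riemannRochSpace (n • P), f ≠ 0 ∧ R.ord f = E Q R ∧
        ∀ v, P v = 0 → E Q v ≤ v.ord f := by
    intro Q
    exact exists_reg_ord hF hP hP0 (E Q) (Finset.sum_nonneg fun v _ => by simp)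
  choose n₀ hn₀ using hex
  refine ⟨S.sup n₀, fun n hn Q hQ => ?_⟩
  obtain ⟨f, hf, hf0, hfQ, hfv⟩ := hn₀ Q n ((Finset.le_sup hQ).trans hn) Q (hS Q hQ)
  have hfreg := rrSpace_nsmul_le_reg P n hf
  rw [hEval, if_neg (Finset.notMem_erase _ _)] at hfQ
  have hne := valAt_ne_zero (hF.deg_one Q) hf0 hfQ
  refine ⟨(valAt Q f)⁻¹ • f, Submodule.smul_mem _ _ hf, ?_, fun v hv hvQ => ?_⟩
  · rw [valAt_smul_reg hF.deg_one _ hfreg (hS Q hQ), inv_mul_cancel₀ hne]
  · rw [valAt_smul_reg hF.deg_one _ hfreg (hS v hv)]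
    have h1 := hfv v (hS v hv)
    rw [hEval, if_pos (Finset.mem_erase.mpr ⟨hvQ, hv⟩)] at h1
    rw [(valAt_eq_zero_iff (hF.deg_one v) (Or.inr (by omega))).mpr (Or.inr h1), mul_zero]

theorem exists_separate (hP : 0 ≤ P) (hP0 : P ≠ 0) {v w : Place K F} (hv : P v = 0)
    (hw : P w = 0) (hvw : v ≠ w) : ∃ c ∈ Reg P, valAt v c ≠ valAt w c := by
  classical
  obtain ⟨n, hn⟩ := exists_indicator hF hP hP0 {v, w} (by simp [hv, hw])
  obtain ⟨f, hf, h1, h0⟩ := hn n le_rfl v (by simp)
  exact ⟨f, rrSpace_nsmul_le_reg P n hf, by rw [h1, h0 w (by simp) (Ne.symm hvw)]; simp⟩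

/-- An ideal of regular functions containing, at every zero of one of its nonzero elements, an
element of order at most that of `f`, contains `f`. -/
theorem mem_ideal_of_forall_ord (hP : 0 ≤ P) (hP0 : P ≠ 0) {I : Submodule K F}
    (hImul : ∀ c ∈ Reg P, ∀ i ∈ I, c * i ∈ I) (hIle : I ≤ Reg P) {i₀ : F} (hi₀ : i₀ ∈ I)
    (hi₀0 : i₀ ≠ 0) {f : F} (hf : f ∈ Reg P)
    (hord : f ≠ 0 → ∀ R : Place K F, P R = 0 → ∃ i ∈ I, i ≠ 0 ∧ R.ord i ≤ R.ord f) :
    f ∈ I := by
  classical
  obtain ⟨D₀, hD₀, -⟩ := hF.exists_div hi₀0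
  suffices key : ∀ m : ℕ, ∀ f ∈ Reg P,
      (f ≠ 0 → ∀ R : Place K F, P R = 0 → ∃ i ∈ I, i ≠ 0 ∧ R.ord i ≤ R.ord f) →
      (f ≠ 0 → (D₀.support.filter fun R => P R = 0).sum
        (fun R => (D₀ R - R.ord f).toNat) ≤ m) → f ∈ I from
    key _ f hf hord fun _ => le_rfl
  intro m
  induction m using Nat.strong_induction_on with
  | _ m ih =>
  intro f hf hord hm
  rcases eq_or_ne f 0 with rfl | hf0
  · exact I.zero_mem
  by_cases hdone : ∀ R, P R = 0 → R.ord i₀ ≤ R.ord f
  · have hq : f / i₀ ∈ Reg P := fun v hv => by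
      right
      rw [div_eq_mul_inv, v.ord_mul hf0 (inv_ne_zero hi₀0), v.ord_inv]
      have := hdone v hv
      omega
    simpa [div_mul_cancel₀ f hi₀0] using hImul _ hq _ hi₀
  push Not at hdone
  obtain ⟨R, hR, hlt⟩ := hdone
  obtain ⟨i, hi, hi0, hiR⟩ := hord hf0 R hR
  have hfR := (hf R hR).resolve_left hf0
  have hiR0 := (hIle hi R hR).resolve_left hi0
  have hRsupp : R ∈ D₀.support.filter fun R => P R = 0 := by
    rw [Finset.mem_filter, Finsupp.mem_support_iff, hD₀]
    exact ⟨by omega, hR⟩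
  -- the divisor of the multiplier
  set E : Divisor K F := Finsupp.single R (R.ord f - R.ord i) +
    ∑ v ∈ (D₀.support.filter fun v => P v = 0).erase R, Finsupp.single v (D₀ v) with hEdef
  have hEval : ∀ v, E v = (if v = R then R.ord f - R.ord i else 0) +
      (if v ∈ (D₀.support.filter fun v => P v = 0).erase R then D₀ v else 0) := by
    intro v
    rw [hEdef, Finsupp.add_apply, Finsupp.single_apply, Finsupp.finsetSum_apply]
    simp only [Finsupp.single_apply, Finset.sum_ite_eq']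
    simp only [eq_comm (a := R)]
  have hi₀reg := hIle hi₀
  have hE0 : 0 ≤ E := by
    rw [Finsupp.le_def]
    intro v
    rw [hEval]
    simp only [Finsupp.coe_zero, Pi.zero_apply]
    refine add_nonneg (by split_ifs <;> omega) ?_
    split_ifs with hv
    · rw [hD₀]
      exact (hi₀reg v (Finset.mem_filter.mp (Finset.mem_of_mem_erase hv)).2).resolve_left hi₀0
    · exact le_rfl
  obtain ⟨n, hn⟩ := exists_reg_ord hF hP hP0 E hE0
  obtain ⟨h, hh, hh0, hhR, hhv⟩ := hn n le_rfl R hR
  have hhreg := rrSpace_nsmul_le_reg P n hh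
  have hhi0 : h * i ≠ 0 := mul_ne_zero hh0 hi0
  have hhiR : R.ord (h * i) = R.ord f := by
    rw [R.ord_mul hh0 hi0, hhR, hEval, if_pos rfl, if_neg (Finset.notMem_erase _ _)]
    omega
  obtain ⟨c, hc⟩ := exists_hasValueAt (v := R) (hF.deg_one R) (f := f / (h * i)) (Or.inr (by
    rw [div_eq_mul_inv, R.ord_mul hf0 (inv_ne_zero hhi0), R.ord_inv, hhiR]
    omega))
  set f' := f - algebraMap K F c * (h * i) with hf'
  have hhiI : algebraMap K F c * (h * i) ∈ I :=
    hImul _ (algebraMap_mem_reg P c) _ (hImul _ hhreg _ hi)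
  suffices hf'I : f' ∈ I by
    have := I.add_mem hf'I hhiI
    rwa [hf', sub_add_cancel] at this
  rcases eq_or_ne f' 0 with h0 | hf'0
  · rw [h0]; exact I.zero_mem
  have hf'reg : f' ∈ Reg P := (Reg P).sub_mem hf (hIle hhiI)
  have hf'R : R.ord f + 1 ≤ R.ord f' := by
    have h1 := ordGE_mul (hasValueAt_iff.mp hc) (h := h * i) (Or.inr hhiR.ge)
    rw [sub_mul, div_mul_cancel₀ f hhi0, ← hf'] at h1
    have := h1.resolve_left hf'0
    omega
  have hothers : ∀ v, P v = 0 → v ≠ R → min (v.ord f) (v.ord i₀) ≤ v.ord f' := by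
    intro v hv hvR
    have h2 : (h * i) = 0 ∨ v.ord i₀ ≤ v.ord (h * i) := by
      right
      rw [v.ord_mul hh0 hi0]
      have h3 := hhv v hv
      have h4 := (hIle hi v hv).resolve_left hi0
      by_cases hvs : v ∈ D₀.support.filter fun v => P v = 0
      · rw [hEval, if_neg hvR, if_pos (Finset.mem_erase.mpr ⟨hvR, hvs⟩), hD₀] at h3
        omega
      · have : D₀ v = 0 := by
          by_contra hne
          exact hvs (Finset.mem_filter.mpr ⟨Finsupp.mem_support_iff.mpr hne, hv⟩)
        rw [hD₀] at this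
        have h5 := Finsupp.le_def.mp hE0 v
        simp only [Finsupp.coe_zero, Pi.zero_apply] at h5
        omega
    have h6 : -(algebraMap K F c * (h * i)) = 0 ∨
        min (v.ord f) (v.ord i₀) ≤ v.ord (-(algebraMap K F c * (h * i))) := by
      have h7 := ordGE_mul (f := algebraMap K F c) (m := (0 : ℤ))
        (Or.inr (ord_algebraMap v c).ge) h2
      rw [neg_eq_zero, ord_neg]
      exact h7.imp id fun h8 => by omega
    have := ord_add_ge v (f := f) (Or.inr (min_le_left _ _)) h6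
    rw [← sub_eq_add_neg, ← hf'] at this
    exact this.resolve_left hf'0
  have hhyp : f' ≠ 0 → ∀ v : Place K F, P v = 0 → ∃ j ∈ I, j ≠ 0 ∧ v.ord j ≤ v.ord f' := by
    intro _ v hv
    by_cases hvR : v = R
    · subst hvR
      exact ⟨i, hi, hi0, by omega⟩
    · obtain ⟨j, hj, hj0, hjv⟩ := hord hf0 v hv
      rcases le_total (v.ord f) (v.ord i₀) with hle | hle
      · exact ⟨j, hj, hj0, by have := hothers v hv hvR; omega⟩
      · exact ⟨i₀, hi₀, hi₀0, by have := hothers v hv hvR; omega⟩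
  refine ih _ ?_ f' hf'reg hhyp fun _ => le_rfl
  refine lt_of_lt_of_le ?_ (hm hf0)
  refine Finset.sum_lt_sum (fun v hv => ?_) ⟨R, hRsupp, ?_⟩
  · by_cases hvR : v = R
    · subst hvR; omega
    · have := hothers v (Finset.mem_filter.mp hv).2 hvR
      rw [hD₀]
      omega
  · rw [hD₀]
    omega

end RR

end FermatLib.Igusa.Mono
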