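import Fermat.Agent.Igusa.MonoNewScale
import Fermat.Agent.Igusa.MonoPoleBound
import Fermat.Agent.Igusa.PolarIntegral
import Fermat.Agent.Igusa.MonoCurve

/-!
The geometric Frobenius `Φ = (u ↦ u ^ q)` of the reduced field of level `M` in characteristic `q`:
it preserves the functions regular away from the cusps, has orders divisible by `q`, and moves `j̄`.
-/

set_option autoImplicit false
set_option linter.style.haveILetI false
set_option synthInstance.maxHeartbeats 400000

noncomputable section

open AlgebraicCurve ModularCurve IntermediateField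

namespace FermatLib.Igusa.Mono

variable (k : Type*) [Field k] (q : ℕ) [Fact q.Prime] [CharP k q] [NeZero q]

theorem monoPhi_qExpand_pow {x : LaurentSeries k}
    (hx : coeffMap (frobenius k q) x = x) : qExpand k q x = x ^ q := by
  conv_rhs => rw [monoNew_pow_char q x, hx]

omit [NeZero q] in
theorem monoPhi_frobenius_gen (d : ℕ) [NeZero d] :
    coeffMap (frobenius k q) (qExpand k d (jqModC k)) = qExpand k d (jqModC k) := by
  rw [coeffMap_qExpand, coeffMap_jqModC]

theorem monoPhi_qExpand_jq : qExpand k q (jqModC k) = jqModC k ^ q :=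
  monoPhi_qExpand_pow k q (by rw [coeffMap_jqModC])

variable (M : ℕ)

theorem monoPhi_map_le :
    (modularFunctionFieldFullC k M).map (qExpandAlgHomC k q) ≤ modularFunctionFieldFullC k M := by
  rw [modularFunctionFieldFullC, adjoin_map, adjoin_le_iff]
  rintro _ ⟨_, ⟨d, hne, hd, rfl⟩, rfl⟩
  show qExpand k q (qExpand k d (jqModC k)) ∈ _
  rw [monoPhi_qExpand_pow k q (monoPhi_frobenius_gen k q d)]
  exact pow_mem (subset_adjoin k (divisorExpansionsC k M) (mem_divisorExpansionsC k M hd)) q

/-- The geometric Frobenius of the reduced field of level `M`. -/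
def monoPhi : modularFunctionFieldFullC k M →ₐ[k] modularFunctionFieldFullC k M :=
  ((qExpandAlgHomC k q).comp (modularFunctionFieldFullC k M).val).codRestrict
    (modularFunctionFieldFullC k M).toSubalgebra fun c => monoPhi_map_le k q M (Set.mem_image_of_mem (qExpandAlgHomC k q) c.2)

@[simp] theorem coe_monoPhi (c : modularFunctionFieldFullC k M) :
    (monoPhi k q M c : LaurentSeries k) = qExpand k q (c : LaurentSeries k) := rfl

theorem monoPhi_jbar {y : modularFunctionFieldFullC k M} (hy : (y : LaurentSeries k) = jqModC k) :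
    monoPhi k q M y = y ^ q := by
  apply Subtype.ext
  rw [coe_monoPhi, IntermediateField.coe_pow, hy, monoPhi_qExpand_jq]

/-- Twisting the coefficients by a field automorphism preserves the reduced field. -/
theorem monoPhi_coeffMap_mem {φ : k →+* k} {x : LaurentSeries k}
    (hx : x ∈ modularFunctionFieldFullC k M) :
    coeffMap φ x ∈ modularFunctionFieldFullC k M := by
  rw [modularFunctionFieldFullC] at hx ⊢
  induction hx using IntermediateField.adjoin_induction with
  | mem z hz =>
    obtain ⟨d, hne, hd, rfl⟩ := hz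
    rw [coeffMap_qExpand, coeffMap_jqModC]
    exact subset_adjoin k _ ⟨d, hne, hd, rfl⟩
  | algebraMap c =>
    rw [coeffMap_algebraMap]
    exact IntermediateField.algebraMap_mem _ _
  | add z w _ _ hz hw => rw [map_add]; exact add_mem hz hw
  | inv z _ hz => rw [map_inv₀]; exact inv_mem hz
  | mul z w _ _ hz hw => rw [map_mul]; exact mul_mem hz hw

/-- `Φ c` is a `q`-th power. -/
theorem monoPhi_eq_pow [PerfectRing k q] (c : modularFunctionFieldFullC k M) :
    ∃ c' : modularFunctionFieldFullC k M, monoPhi k q M c = c' ^ q := by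
  haveI : ExpChar k q := ExpChar.prime Fact.out
  refine ⟨⟨coeffMap ((frobeniusEquiv k q).symm : k →+* k) (c : LaurentSeries k),
    monoPhi_coeffMap_mem k M c.2⟩, Subtype.ext ?_⟩
  rw [coe_monoPhi, IntermediateField.coe_pow, monoNew_pow_char q, coeffMap_coeffMap]
  congr 1
  rw [coeffMap_congr (g := RingHom.id k) (RingHom.ext fun a =>
    (frobeniusEquiv k q).apply_symm_apply a), coeffMap_id]

theorem monoPhi_ord [PerfectRing k q] (c : modularFunctionFieldFullC k M)
    (v : Place k (modularFunctionFieldFullC k M)) : (q : ℤ) ∣ v.ord (monoPhi k q M c) := by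
  obtain ⟨c', hc'⟩ := monoPhi_eq_pow k q M c
  rw [hc', ord_pow]
  exact dvd_mul_right _ _

variable [NeZero M] (hM : (M : k) ≠ 0) {y : modularFunctionFieldFullC k M}
  (hy : (y : LaurentSeries k) = jqModC k)
  {P₁ : Divisor k (modularFunctionFieldFullC k M)} (hP₁ : ∀ v, P₁ v = max (-v.ord y) 0)

include hM hy hP₁ in
/-- `Φ` preserves regularity away from the cusps. -/
theorem monoPhi_reg {c : modularFunctionFieldFullC k M} (hc : c ∈ Reg P₁) :
    monoPhi k q M c ∈ Reg P₁ := by
  haveI := (mono_finrank_of_eq_full M hM rfl hy).2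
  have hy0 : y ≠ 0 := fun h => jqModC_ne_zero_of_nontrivial k (by rw [← hy, h]; rfl)
  have hint : IsIntegral (Algebra.adjoin k {y}) c := by
    refine isIntegral_adjoin_of_forall_pole y fun v hv => ?_
    by_contra hge
    have h0 : P₁ v = 0 := by rw [hP₁]; omega
    rcases hc v h0 with h | h
    · rw [h, Place.ord_zero] at hv
      exact lt_irrefl 0 hv
    · omega
  have hint' := (isIntegral_adjoin_map_iff (monoPhi k q M) (monoPhi_jbar k q M hy)
    (w := monoPhi k q M c) rfl).mpr hint
  intro v hv
  rw [hP₁] at hv
  have hyv : y ∈ v.toValuationSubring := (Curve.mem_iff_ord_nonneg v hy0).mpr (by omega)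
  exact Or.inr (Curve.ord_nonneg_of_mem_place v
    (mem_place_of_isIntegral_adjoin v (pow_mem hyv q) hint'))

omit [NeZero M] in
include hy hP₁ in
/-- `Φ` moves some function regular away from the cusps. -/
theorem monoPhi_moves : ∃ c, c ∈ Reg P₁ ∧ monoPhi k q M (monoPhi k q M c) ≠ c := by
  refine ⟨y, fun v hv => Or.inr (by rw [hP₁] at hv; omega), fun h => ?_⟩
  rw [monoPhi_jbar k q M hy, map_pow, monoPhi_jbar k q M hy, ← pow_mul] at h
  have h' := congrArg (fun x : modularFunctionFieldFullC k M =>
    (x : LaurentSeries k).coeff (-((q * q : ℕ) : ℤ))) h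
  simp only [IntermediateField.coe_pow, hy] at h'
  rw [coeff_jqModC_pow_self, coeff_jqModC_of_lt] at h'
  · exact one_ne_zero h'
  · have h2 := (Fact.out : q.Prime).two_le
    have : 2 ≤ q * q := le_trans h2 (Nat.le_mul_self q)
    omega

end FermatLib.Igusa.Mono
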