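import Fermat.Agent.Igusa.MonoTwoSheets
import Fermat.Agent.Igusa.MonoPoleBound
import Fermat.Agent.Igusa.MonoFrobPhi
import Fermat.Agent.Igusa.MonoInertiaFixes
import Fermat.Agent.Igusa.GenusCompare
import Fermat.Agent.Modular.LaurentInstances

/-!
The two-sheet datum of `ℚ̄(X₀(q M))` at a place over `q ∤ M`, and the invariance of its sheets
under inertia.
-/

set_option autoImplicit false
set_option linter.style.haveILetI false
set_option synthInstance.maxHeartbeats 400000

noncomputable section

open AlgebraicCurve ModularCurve IntermediateField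

namespace FermatLib.Igusa.Mono

open scoped FermatLib.LaurentInstances

attribute [local instance 100000] monoLaurentModule monoLaurentSMul

local notation "Qb" => AlgebraicClosure ℚ

variable {q : ℕ} [Fact q.Prime] [NeZero q] {M : ℕ} [NeZero M] (hqM : ¬ q ∣ M)
  {A : ValuationSubring (AlgebraicClosure ℚ)}

local notation "kA" => IsLocalRing.ResidueField A
local notation "FqM" => modularFunctionFieldBar (q * M)
local notation "KbM" => modularFunctionFieldFullC (IsLocalRing.ResidueField A) M

variable (hA : A.LiesOverPrime q)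

variable (A M) in
/-- `j̄` as an element of the special function field. -/
def jBarK : KbM := ⟨jqModC kA, jqModC_mem_full kA M⟩

@[simp] theorem coe_jBarK : (jBarK M A : LaurentSeries kA) = jqModC kA := rfl

theorem monoSheetInf_jFq :
    jFq q M ∈ (monoSheetInf hqM hA).W ∧ (monoSheetInf hqM hA).rd (jFq q M) = jBarK M A :=
  ⟨(rawInf_jFq hqM hA).1,
    Subtype.ext ((coe_monoSheetInf_rd hqM hA _).trans (rawInf_jFq hqM hA).2)⟩

theorem monoSheetZero_jFq :
    jFq q M ∈ (monoSheetZero hqM hA).W ∧
      (monoSheetZero hqM hA).rd (jFq q M) = jBarK M A ^ q :=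
  ⟨(rawZero_jFq hqM hA).1,
    Subtype.ext ((coe_monoSheetZero_rd hqM hA _).trans (rawZero_jFq hqM hA).2)⟩

include hqM hA in
theorem monoLevel_natCast_ne_zero : (M : kA) ≠ 0 :=
  fun h => hqM ((monoResidue_charP hA).cast_eq_zero_iff M |>.mp h)

variable (q M) in
/-- The level `q M` function field is a function field of one variable. -/
theorem monoLevel_isFunctionField : Curve.IsFunctionField Qb FqM :=
  haveI : NeZero (q * M) := ⟨monoLevel_ne_zero⟩
  (mono_finrank_of_eq_full (q * M) (Nat.cast_ne_zero.mpr (NeZero.ne _))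
    (laurentBaseChange_full_eq Qb (q * M)) (x := jFq q M) (coe_jFq q M)).2

include hqM hA in
theorem monoSpecial_isFunctionField : Curve.IsFunctionField kA KbM :=
  (mono_finrank_of_eq_full M (monoLevel_natCast_ne_zero hqM hA) rfl (x := jBarK M A) rfl).2

variable (q M) in
/-- The poles of `j` at level `q M`. -/
def monoPx : Divisor Qb FqM :=
  haveI := monoLevel_isFunctionField q M
  Curve.polarDivisor Qb (jFq q M)

variable (q M) in
theorem monoPx_apply (v : Place Qb FqM) : monoPx q M v = max (-v.ord (jFq q M)) 0 :=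
  haveI := monoLevel_isFunctionField q M
  Curve.polarDivisor_apply _ _

/-- The poles of the reduction of `j` at infinity. -/
def monoP₁ : Divisor kA KbM :=
  haveI := monoSpecial_isFunctionField hqM hA
  Curve.polarDivisor kA ((monoSheetInf hqM hA).rd (jFq q M))

theorem monoP₁_apply (v : Place kA KbM) :
    monoP₁ hqM hA v = max (-v.ord ((monoSheetInf hqM hA).rd (jFq q M))) 0 :=
  haveI := monoSpecial_isFunctionField hqM hA
  Curve.polarDivisor_apply _ _

/-- The poles of the reduction of `j` at the other cusp. -/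
def monoP₂ : Divisor kA KbM :=
  haveI := monoSpecial_isFunctionField hqM hA
  Curve.polarDivisor kA ((monoSheetZero hqM hA).rd (jFq q M))

theorem monoP₂_apply (v : Place kA KbM) :
    monoP₂ hqM hA v = max (-v.ord ((monoSheetZero hqM hA).rd (jFq q M))) 0 :=
  haveI := monoSpecial_isFunctionField hqM hA
  Curve.polarDivisor_apply _ _

theorem monoP₁_apply' (v : Place kA KbM) :
    monoP₁ hqM hA v = max (-v.ord (jBarK M A)) 0 := by
  rw [monoP₁_apply, (monoSheetInf_jFq hqM hA).2]

theorem monoP₂_apply' (v : Place kA KbM) :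
    monoP₂ hqM hA v = max (-v.ord (jBarK M A ^ q)) 0 := by
  rw [monoP₂_apply, (monoSheetZero_jFq hqM hA).2]

include hqM hA in
theorem exists_rrField_special : ∃ g, RRField kA KbM g :=
  haveI := monoSpecial_isFunctionField hqM hA
  haveI := isAlgClosed_residueField A
  ⟨_, rrField_genusFF kA KbM⟩

variable (q M) in
theorem exists_rrField_level : ∃ g, RRField Qb FqM g :=
  haveI := monoLevel_isFunctionField q M
  ⟨_, rrField_genusFF Qb FqM⟩

section Fixes

include hqM hA

variable {σ : Qb ≃ₐ[ℚ] Qb} (hσ : σ ∈ A.inertiaSubgroupIn ℚ)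
include hσ

theorem monoSheetInf_inertia_fixes {f : FqM} (hf : f ∈ (monoSheetInf hqM hA).W) :
    arithmeticGalois (modularFunctionFieldFull (q * M)) σ • f ∈ (monoSheetInf hqM hA).W ∧
      (monoSheetInf hqM hA).rd (arithmeticGalois (modularFunctionFieldFull (q * M)) σ • f) =
        (monoSheetInf hqM hA).rd f := by
  obtain ⟨hm, hr⟩ := seriesSheet_inertia_fixes (ι := iotaInf q M) monoResidue_eq_zero_iff
    (Fact.out : q.Prime) (monoResidue_natCast hA) (exists_fraction_inf hqM) hσ
    (g := arithmeticGalois (modularFunctionFieldFull (q * M)) σ)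
    (fun g => coe_arithmeticGalois_smul _ σ g) hf
  exact ⟨hm, Subtype.ext (by rw [coe_monoSheetInf_rd, coe_monoSheetInf_rd]; exact hr)⟩

theorem monoSheetZero_inertia_fixes {f : FqM} (hf : f ∈ (monoSheetZero hqM hA).W) :
    arithmeticGalois (modularFunctionFieldFull (q * M)) σ • f ∈ (monoSheetZero hqM hA).W ∧
      (monoSheetZero hqM hA).rd (arithmeticGalois (modularFunctionFieldFull (q * M)) σ • f) =
        (monoSheetZero hqM hA).rd f :=
  fixes_of_comap (s := monoSheetInf hqM hA) (s' := monoSheetZero hqM hA) (monoSwap hqM)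
    (monoSheetZero_mem_iff hqM hA) (fun f _ => monoSheetZero_rd hqM hA f)
    (monoSwap_arithmeticGalois hqM σ)
    (fun _ h => monoSheetInf_inertia_fixes hqM hA hσ h) hf

end Fixes

variable [CharP (IsLocalRing.ResidueField A) q]

/-- The two-sheet datum of level `q M` at `A`, given its lifting and top properties. -/
def monoDatum
    (hlift : ∀ c, c ∈ Reg (monoP₁ hqM hA) → ∃ N : ℕ,
      ((c, monoPhi kA q M c) : KbM × KbM) ∈ redSpace (monoSheetInf hqM hA) (monoSheetZero hqM hA)
          IsLocalRing.residue_surjective (riemannRochSpace (N • monoPx q M)) ∧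
      ((monoPhi kA q M c, c) : KbM × KbM) ∈ redSpace (monoSheetInf hqM hA) (monoSheetZero hqM hA)
          IsLocalRing.residue_surjective (riemannRochSpace (N • monoPx q M)))
    (htop : ∃ n₀ : ℕ, ∀ n, n₀ ≤ n →
      (∀ f ∈ riemannRochSpace (n • monoP₁ hqM hA), ∃ r : KbM,
        ((r, 0) : KbM × KbM) ∈ redSpace (monoSheetInf hqM hA) (monoSheetZero hqM hA)
            IsLocalRing.residue_surjective (riemannRochSpace (n • monoPx q M)) ∧
          f - r ∈ riemannRochSpace ((n - 1) • monoP₁ hqM hA)) ∧
      (∀ f ∈ riemannRochSpace (n • monoP₂ hqM hA), ∃ r : KbM,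
        ((0, r) : KbM × KbM) ∈ redSpace (monoSheetInf hqM hA) (monoSheetZero hqM hA)
            IsLocalRing.residue_surjective (riemannRochSpace (n • monoPx q M)) ∧
          f - r ∈ riemannRochSpace ((n - 1) • monoP₂ hqM hA))) :
    MonoDatum (IsLocalRing.residue A) FqM KbM q where
  s₁ := monoSheetInf hqM hA
  s₂ := monoSheetZero hqM hA
  π_surjective := IsLocalRing.residue_surjective
  π_eq_zero := monoResidue_eq_zero_iff
  gF := (exists_rrField_level q M).choose
  gK := (exists_rrField_special hqM hA).choose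
  rrF := (exists_rrField_level q M).choose_spec
  rrK := (exists_rrField_special hqM hA).choose_spec
  two_le := (Fact.out : q.Prime).two_le
  x := jFq q M
  x_integral := ⟨(monoSheetInf_jFq hqM hA).1, (monoSheetZero_jFq hqM hA).1⟩
  Px := monoPx q M
  Px_apply := monoPx_apply q M
  P₁ := monoP₁ hqM hA
  P₁_apply := monoP₁_apply hqM hA
  P₁_ne_zero := mono_poles_ne_zero M (monoLevel_natCast_ne_zero hqM hA) (y := jBarK M A) rfl
    (monoP₁_apply' hqM hA)
  P₂ := monoP₂ hqM hA
  P₂_apply := monoP₂_apply hqM hA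
  supp := mono_poles_pow_supp (NeZero.ne q) (monoP₁_apply' hqM hA) (monoP₂_apply' hqM hA)
  degree_le := (mono_degree_poles_level hqM (monoLevel_natCast_ne_zero hqM hA) (coe_jFq q M)
    (monoPx_apply q M) (y := jBarK M A) rfl (monoP₁_apply' hqM hA)
    (monoP₂_apply' hqM hA)).le
  orth := monoTwoSheets_orth hqM hA
  scale₁ _ hf := monoSheetInf_scale hqM hA hf
  scale₂ _ hf := monoSheetZero_scale hqM hA hf
  Φ := monoPhi kA q M
  Φ_reg _ hc := monoPhi_reg kA q M (monoLevel_natCast_ne_zero hqM hA) (y := jBarK M A) rfl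
    (monoP₁_apply' hqM hA) hc
  Φ_ord c _ v := by
    haveI := isAlgClosed_residueField A
    haveI : ExpChar kA q := ExpChar.prime Fact.out
    exact monoPhi_ord kA q M c v
  Φ_moves := monoPhi_moves kA q M (y := jBarK M A) rfl (monoP₁_apply' hqM hA)
  lift := hlift
  top := htop

variable (A) in
theorem arithmeticGalois_smul_jFq (σ : Qb ≃ₐ[ℚ] Qb) :
    arithmeticGalois (modularFunctionFieldFull (q * M)) σ • jFq q M = jFq q M :=
  arithmeticGalois_smul_of_coeffEmb σ (y := jq) (by
    rw [coe_jFq, ← jqModC_rat, coeffEmb, coeffMap_jqModC])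

end FermatLib.Igusa.Mono
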