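import Fermat.Agent.Igusa.DivisorRigidity
import Fermat.Prelude.Def_ModularCurve_ReductionModL
import Fermat.Prelude.Def_EllipticCurve_FrobeniusTrace
import Fermat.Prelude.Def_FLTPrelim_Ramification

/-!
Any place reduction of `X₀(N)` is equivariant for the decomposition group on divisors of
degree zero.
-/

set_option autoImplicit false

noncomputable section

open HahnSeries ModularCurve AlgebraicCurve IntermediateField

namespace FermatLib.Igusa

section ResidueAut

variable {k : Type*} [Field k] (N : ℕ)

theorem coeffMap_mem_fullC (τ : k →+* k) {x : LaurentSeries k}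
    (hx : x ∈ modularFunctionFieldFullC k N) :
    coeffMap τ x ∈ modularFunctionFieldFullC k N := by
  change x ∈ Subfield.closure
    (Set.range (algebraMap k (LaurentSeries k)) ∪ divisorExpansionsC k N) at hx
  induction hx using Subfield.closure_induction with
  | mem y hy =>
      rcases hy with ⟨a, rfl⟩ | ⟨d, hd, hdvd, rfl⟩
      · rw [coeffMap_algebraMap]
        exact (modularFunctionFieldFullC k N).algebraMap_mem _
      · haveI := hd
        rw [coeffMap_qExpand, coeffMap_jqModC]
        exact jqModCd_mem_full k N hdvd
  | one => simp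
  | add x y _ _ hx hy => simpa using add_mem hx hy
  | neg x _ hx => simpa using neg_mem hx
  | inv x _ hx => simpa using inv_mem hx
  | mul x y _ _ hx hy => simpa using mul_mem hx hy

/-- A field automorphism of the constants acting coefficientwise on the special fibre. -/
def residueRingAut (τ : k ≃+* k) :
    modularFunctionFieldFullC k N ≃+* modularFunctionFieldFullC k N where
  toFun x := ⟨coeffMap (τ : k →+* k) (x : LaurentSeries k), coeffMap_mem_fullC N _ x.2⟩
  invFun x := ⟨coeffMap (τ.symm : k →+* k) (x : LaurentSeries k), coeffMap_mem_fullC N _ x.2⟩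
  left_inv x := Subtype.ext <| by
    ext m
    simp
  right_inv x := Subtype.ext <| by
    ext m
    simp
  map_mul' x y := Subtype.ext (map_mul (coeffMap (τ : k →+* k)) _ _)
  map_add' x y := Subtype.ext (map_add (coeffMap (τ : k →+* k)) _ _)

/-- `residueRingAut` as a semilinear automorphism. -/
def residueSemilinear (τ : k ≃+* k) : SemilinearAut k (modularFunctionFieldFullC k N) :=
  ⟨(residueRingAut N τ, τ), fun a => Subtype.ext (coeffMap_algebraMap (τ : k →+* k) a)⟩

theorem coe_residueSemilinear_smul (τ : k ≃+* k) (x : modularFunctionFieldFullC k N) :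
    ((residueSemilinear N τ • x : modularFunctionFieldFullC k N) : LaurentSeries k)
      = coeffMap (τ : k →+* k) (x : LaurentSeries k) := rfl

theorem coe_residueSemilinear_inv_smul (τ : k ≃+* k) (x : modularFunctionFieldFullC k N) :
    (((residueSemilinear N τ)⁻¹ • x : modularFunctionFieldFullC k N) : LaurentSeries k)
      = coeffMap (τ.symm : k →+* k) (x : LaurentSeries k) := rfl

theorem residueSemilinear_one :
    residueSemilinear N (1 : k ≃+* k) = 1 := by
  refine Subtype.ext (Prod.ext (RingEquiv.ext fun x => Subtype.ext ?_) rfl)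
  ext m
  rfl

end ResidueAut

section SmulOrd

variable {K F : Type*} [Field K] [Field F] [Algebra K F]

theorem divisor_smul_eq_ord (g : SemilinearAut K F) {E : Divisor K F} {f : F}
    (hE : ∀ P, E P = P.ord f) (P : Place K F) : (g • E) P = P.ord (g • f) := by
  rw [SemilinearAut.divisor_smul_apply, hE]
  have h := SemilinearAut.ord_smul g (g⁻¹ • P) f
  rw [smul_inv_smul] at h
  exact h.symm

end SmulOrd

section Reduction

variable {L : Type*} [Field L] [Algebra ℚ L] {A : ValuationSubring L}
variable {k : Type*} [Field k] {π : A →+* k} {N : ℕ}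
variable {r : Place L (laurentBaseChange L (modularFunctionFieldFull N)) →
  Place k (modularFunctionFieldFullC k N)}

theorem eq_zero_on_principal_of_integral {S : Type*}
    (hgen : PrincipalGeneratedByIntegral A π N)
    (δ : Divisor L (laurentBaseChange L (modularFunctionFieldFull N)) →+ (S →₀ ℤ))
    (h : ∀ D ∈ integralPrincipalDivisors A π N, δ D = 0)
    {D : Divisor L (laurentBaseChange L (modularFunctionFieldFull N))}
    (hD : D ∈ Divisor.principal (K := L) (F := laurentBaseChange L (modularFunctionFieldFull N))) :
    δ D = 0 :=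
  (AddSubgroup.closure_le δ.ker).mpr h (hgen hD)

set_option maxHeartbeats 1000000 in
theorem reductionDivAlong_galois {g : ℕ} (hr : IsPlaceReductionAlong A π N r)
    (hgen : PrincipalGeneratedByIntegral A π N)
    (hdeg : ∀ P : Place L (laurentBaseChange L (modularFunctionFieldFull N)), P.deg = 1)
    (hdeg0 : ∀ E ∈ Divisor.principal (K := L)
      (F := laurentBaseChange L (modularFunctionFieldFull N)), Divisor.degree E = 0)
    (hR : RiemannInequalityAt L (laurentBaseChange L (modularFunctionFieldFull N)) g)
    (σ : L ≃ₐ[ℚ] L) (hσ : ∀ a : A, σ (a : L) ∈ A) (τ : k ≃+* k)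
    (hτ : ∀ a : A, π ⟨σ (a : L), hσ a⟩ = τ (π a))
    (D : Divisor L (laurentBaseChange L (modularFunctionFieldFull N)))
    (hD : Divisor.degree D = 0) :
    reductionDivAlong r (arithmeticGalois (modularFunctionFieldFull N) σ • D)
      = residueSemilinear N τ • reductionDivAlong r D := by
  set gσ := arithmeticGalois (modularFunctionFieldFull N) σ
  set gτ := residueSemilinear N τ
  let δ : Divisor L (laurentBaseChange L (modularFunctionFieldFull N)) →+
      Divisor k (modularFunctionFieldFullC k N) :=
    (reductionDivAlong r).comp (DistribSMul.toAddMonoidHom _ gσ)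
      - (DistribSMul.toAddMonoidHom _ gτ).comp (reductionDivAlong r)
  have hδ : ∀ E, δ E = reductionDivAlong r (gσ • E) - gτ • reductionDivAlong r E := fun _ => rfl
  have h0 : δ D = 0 := by
    refine apply_eq_zero_of_degree_eq_zero δ 2 (fun P Q => ?_) hdeg hR hdeg0
      (fun E hE => eq_zero_on_principal_of_integral hgen δ ?_ hE) D hD
    · classical
      rw [hδ, SemilinearAut.smul_single, reductionDivAlong_single, reductionDivAlong_single,
        SemilinearAut.smul_single, Finsupp.sub_apply, Finsupp.single_apply, Finsupp.single_apply]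
      split_ifs <;> norm_num
    · rintro E ⟨y, hy, hyk, hne, hE⟩
      let σA : A →+* A := ((σ : L →+* L).comp A.subtype).codRestrict A.toSubring hσ
      let y' : LaurentSeries A := coeffMap σA y
      have hy'L : coeffMap A.subtype y' = coeffMap (σ : L →+* L) (coeffMap A.subtype y) := by
        ext m
        rfl
      have hy'k : coeffMap π y' = coeffMap (τ : k →+* k) (coeffMap π y) := by
        ext m
        exact hτ (y.coeff m)
      have hy' : coeffMap A.subtype y' ∈ laurentBaseChange L (modularFunctionFieldFull N) :=
        hy'L ▸ coeffMap_mem_laurentBaseChange σ hy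
      have hyk' : coeffMap π y' ∈ modularFunctionFieldFullC k N :=
        hy'k ▸ coeffMap_mem_fullC N _ hyk
      have hne' : coeffMap π y' ≠ 0 := fun h => hne <| by
        rw [hy'k] at h
        ext m
        simpa using congrArg (fun z : LaurentSeries k => z.coeff m) h
      have hfσ : (gσ • (⟨coeffMap A.subtype y, hy⟩ :
          laurentBaseChange L (modularFunctionFieldFull N)))
          = ⟨coeffMap A.subtype y', hy'⟩ :=
        Subtype.ext ((coe_arithmeticGalois_smul _ σ _).trans hy'L.symm)
      have hdiv : ∀ P, (gσ • E) P
          = P.ord (⟨coeffMap A.subtype y', hy'⟩ :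
              laurentBaseChange L (modularFunctionFieldFull N)) := fun P =>
        (divisor_smul_eq_ord gσ hE P).trans (congrArg (fun z => P.ord z) hfσ)
      have hfτ : (gτ • (⟨coeffMap π y, hyk⟩ : modularFunctionFieldFullC k N))
          = ⟨coeffMap π y', hyk'⟩ :=
        Subtype.ext ((coe_residueSemilinear_smul N τ _).trans hy'k.symm)
      have h1 : ∀ Q, reductionDivAlong r (gσ • E) Q
          = Q.ord (⟨coeffMap π y', hyk'⟩ : modularFunctionFieldFullC k N) :=
        fun Q => hr.2 y' hy' hyk' hne' _ hdiv Q
      have h2 : ∀ Q, reductionDivAlong r E Q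
          = Q.ord (⟨coeffMap π y, hyk⟩ : modularFunctionFieldFullC k N) :=
        fun Q => hr.2 y hy hyk hne E hE Q
      ext Q
      rw [hδ, Finsupp.sub_apply, Finsupp.zero_apply, sub_eq_zero, h1]
      exact ((divisor_smul_eq_ord gτ h2 Q).trans (congrArg (fun z => Q.ord z) hfτ)).symm
  rwa [hδ, sub_eq_zero] at h0

end Reduction

end FermatLib.Igusa
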