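import Fermat.Agent.Igusa.MonoSqFrob

/-!
Helpers on squares of Frobenius: squares from two crossed norm relations, and
periodicity of automorphisms of algebraic extensions.
-/

set_option autoImplicit false

noncomputable section

namespace FermatLib.Igusa.Mono

/-- From `f₁ * φ₁ f₂` and `φ₁ f₁ * f₂` in `k^* (Kb^*)^d`: both `fᵢ` are invariant under `φ₁ ∘ φ₁`
up to constants and `d`-th powers. -/
theorem sq_invariant_of_cross {k Kb : Type*} [Field k] [Field Kb] [Algebra k Kb] (φ₁ : Kb →+* Kb)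
    (θ : k →+* k) (hθ : ∀ c, φ₁ (algebraMap k Kb c) = algebraMap k Kb (θ c)) {d : ℕ}
    {f₁ f₂ : Kb} (h₁ : f₁ ≠ 0) (h₂ : f₂ ≠ 0) {a b : k} {u v : Kb} (ha : a ≠ 0) (hb : b ≠ 0)
    (hu : u ≠ 0) (hv : v ≠ 0) (e₁ : f₁ * φ₁ f₂ = algebraMap k Kb a * u ^ d)
    (e₂ : φ₁ f₁ * f₂ = algebraMap k Kb b * v ^ d) :
    (∃ (c : k) (w : Kb), c ≠ 0 ∧ w ≠ 0 ∧ φ₁ (φ₁ f₁) = algebraMap k Kb c * w ^ d * f₁) ∧
      ∃ (c : k) (w : Kb), c ≠ 0 ∧ w ≠ 0 ∧ φ₁ (φ₁ f₂) = algebraMap k Kb c * w ^ d * f₂ := by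
  have hua : algebraMap k Kb a ≠ 0 := by simpa using ha
  have hvb : algebraMap k Kb b ≠ 0 := by simpa using hb
  have g₁ := congrArg φ₁ e₁
  have g₂ := congrArg φ₁ e₂
  rw [map_mul, map_mul, map_pow, hθ] at g₁ g₂
  refine ⟨⟨θ b / a, φ₁ v / u, div_ne_zero (by simpa using hb) ha,
      div_ne_zero (by simpa using hv) hu, ?_⟩,
    ⟨θ a / b, φ₁ u / v, div_ne_zero (by simpa using ha) hb,
      div_ne_zero (by simpa using hu) hv, ?_⟩⟩
  · rw [map_div₀, div_pow]
    field_simp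
    have h2' : φ₁ f₂ ≠ 0 := by simpa using h₂
    apply mul_right_cancel₀ h2'
    linear_combination (algebraMap k Kb a * u ^ d) * g₂ - (algebraMap k Kb (θ b) * φ₁ v ^ d) * e₁
  · rw [map_div₀, div_pow]
    field_simp
    have h1' : φ₁ f₁ ≠ 0 := by simpa using h₁
    apply mul_right_cancel₀ h1'
    linear_combination (algebraMap k Kb b * v ^ d) * g₁ - (algebraMap k Kb (θ a) * φ₁ u ^ d) * e₂

/-- An automorphism of an algebraic extension has finite orbits. -/
theorem exists_iterate_eq_self {K L : Type*} [Field K] [Field L] [Algebra K L]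
    [Algebra.IsAlgebraic K L] (σ : L ≃ₐ[K] L) (c : L) :
    ∃ n : ℕ, 0 < n ∧ (⇑σ)^[n] c = c := by
  classical
  have hne : minpoly K c ≠ 0 := minpoly.ne_zero (Algebra.IsIntegral.isIntegral c)
  have hroot : ∀ i : ℕ, (⇑σ)^[i] c ∈ ((minpoly K c).aroots L).toFinset := fun i => by
    rw [Multiset.mem_toFinset, Polynomial.mem_aroots]
    refine ⟨hne, ?_⟩
    induction i with
    | zero => exact minpoly.aeval K c
    | succ i ih =>
      rw [Function.iterate_succ_apply', Polynomial.aeval_algHom_apply, ih, map_zero]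
  obtain ⟨i, j, hij, h⟩ := Finite.exists_ne_map_eq_of_infinite
    (fun i : ℕ => (⟨(⇑σ)^[i] c, hroot i⟩ : ((minpoly K c).aroots L).toFinset))
  have h' : (⇑σ)^[i] c = (⇑σ)^[j] c := congrArg Subtype.val h
  rcases lt_or_gt_of_ne hij with hlt | hlt
  · refine ⟨j - i, by omega, (σ.injective.iterate i) ?_⟩
    rw [← Function.iterate_add_apply, Nat.add_sub_cancel' hlt.le, h']
  · refine ⟨i - j, by omega, (σ.injective.iterate j) ?_⟩
    rw [← Function.iterate_add_apply, Nat.add_sub_cancel' hlt.le, h']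

end FermatLib.Igusa.Mono
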