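/-
The square of a Frobenius on sheets of reduction given by expansions.
-/
import Fermat.Agent.Igusa.MonoSqFrobInputs
import Fermat.Agent.Igusa.MonoNormSeries

/-!
# Frobenius elements on sheets given by expansions

An automorphism moving coefficients inside `A` and acting on their residues as the `q`-th power
acts on both reductions through the coefficientwise Frobenius; its square gives
`MonoDatum.SqFrobenius` with exponent `q ^ 2`.
-/

set_option autoImplicit false
set_option linter.style.haveILetI false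

noncomputable section

open AlgebraicCurve ModularCurve

namespace FermatLib.Igusa.Mono

attribute [local instance 100000] monoLaurentModule monoLaurentSMul

section Ratios

variable {L k F Kb : Type*} [Field L] [CharZero L] [Field k] [Field F] [Algebra L F] [Field Kb]
  [Algebra k Kb] {A : ValuationSubring L} {π : A →+* k} {s : Sheet π F Kb}
  {ι : F →ₐ[L] LaurentSeries L} {emb : Kb →+* LaurentSeries k}

/-- An integral expansion gives membership and the reduction. -/
theorem HasRatios.of_isRatio (hs : HasRatios s ι emb) {f : F} {y z : LaurentSeries A}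
    (h : IsRatio A π ι f y z) :
    f ∈ s.W ∧ emb (s.rd f) = coeffMap π y / coeffMap π z := by
  have h' := hs.of_qExpand (q := 1) (h := f) (R := y) (Q := z) h.red_ne
    (by rw [qExpand_one_apply]; exact h.eq)
  exact ⟨h'.1, by simpa [qExpand_one_apply] using h'.2⟩

/-- Coefficientwise action on a sheet. -/
theorem HasRatios.smul_rd (hs : HasRatios s ι emb) {σ : L →+* L} {θ : k →+* k}
    (hσ : ∀ a : A, ∃ h : σ (a : L) ∈ A, π ⟨_, h⟩ = θ (π a)) {g : SemilinearAut L F}
    (hg : ∀ f, ι (g • f) = coeffMap σ (ι f)) {f : F} (hf : f ∈ s.W) :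
    g • f ∈ s.W ∧ emb (s.rd (g • f)) = coeffMap θ (emb (s.rd f)) := by
  let σA : A →+* A := (σ.comp A.subtype).codRestrict A fun a => (hσ a).fst
  have hsub : ∀ w : LaurentSeries A,
      coeffMap A.subtype (coeffMap σA w) = coeffMap σ (coeffMap A.subtype w) := fun w => by
    rw [coeffMap_coeffMap, coeffMap_coeffMap]
    exact coeffMap_congr (RingHom.ext fun _ => rfl) w
  have hπσ : π.comp σA = θ.comp π := RingHom.ext fun a => (hσ a).snd
  obtain ⟨y, z, h, hr⟩ := hs f hf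
  have hz : coeffMap π (coeffMap σA z) = coeffMap θ (coeffMap π z) := by
    rw [coeffMap_coeffMap, coeffMap_congr hπσ, ← coeffMap_coeffMap]
  have hy : coeffMap π (coeffMap σA y) = coeffMap θ (coeffMap π y) := by
    rw [coeffMap_coeffMap, coeffMap_congr hπσ, ← coeffMap_coeffMap]
  have h' : IsRatio A π ι (g • f) (coeffMap σA y) (coeffMap σA z) :=
    ⟨by rw [hz]; exact (map_ne_zero_iff _ (coeffMap θ).injective).mpr h.red_ne, by
      rw [hg, hsub, hsub, ← map_mul, h.eq]⟩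
  obtain ⟨hm, hr'⟩ := hs.of_isRatio h'
  refine ⟨hm, ?_⟩
  rw [hr', hy, hz, ← hr, map_mul, mul_div_cancel_right₀]
  exact (map_ne_zero_iff _ (coeffMap θ).injective).mpr h.red_ne

/-- Coefficientwise action on a sheet, read on the special fibre. -/
theorem HasRatios.smul_rd_eq (hs : HasRatios s ι emb) {σ : L →+* L} {θ : k →+* k}
    (hσ : ∀ a : A, ∃ h : σ (a : L) ∈ A, π ⟨_, h⟩ = θ (π a)) {g : SemilinearAut L F}
    (hg : ∀ f, ι (g • f) = coeffMap σ (ι f)) {γ : SemilinearAut k Kb}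
    (hγ : ∀ c, emb (γ • c) = coeffMap θ (emb c)) {f : F} (hf : f ∈ s.W) :
    g • f ∈ s.W ∧ s.rd (g • f) = γ • s.rd f := by
  obtain ⟨hm, hr⟩ := hs.smul_rd hσ hg hf
  exact ⟨hm, emb.injective (by rw [hr, hγ])⟩

end Ratios

section Instance

variable {L k F Kb : Type*} [Field L] [Field k] [Field F] [Algebra L F] [Field Kb]
  [Algebra k Kb] {A : ValuationSubring L} {π : A →+* k} {q : ℕ} (M : MonoDatum π F Kb q)
  {g : SemilinearAut L F} {γ : SemilinearAut k Kb}
  (h₁ : ∀ a ∈ M.s₁.W, g • a ∈ M.s₁.W ∧ M.s₁.rd (g • a) = γ • M.s₁.rd a)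
  (h₂ : ∀ a ∈ M.s₂.W, g • a ∈ M.s₂.W ∧ M.s₂.rd (g • a) = γ • M.s₂.rd a)
  (hx : g • M.x = M.x)

include h₁ hx in
theorem MonoDatum.smul_mem_reg_of_fixed {c : Kb} (hc : c ∈ Reg M.P₁) : γ • c ∈ Reg M.P₁ := by
  intro v hv
  have hγx : γ • M.s₁.rd M.x = M.s₁.rd M.x := by
    rw [← (h₁ _ M.x_integral.1).2, hx]
  have hord : ∀ y : Kb, v.ord (γ • y) = (γ⁻¹ • v).ord y := fun y => by
    have h := SemilinearAut.ord_smul γ (γ⁻¹ • v) y
    rwa [smul_inv_smul] at h
  have hP : M.P₁ (γ⁻¹ • v) = 0 := by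
    rw [M.P₁_apply, ← hord, hγx, ← M.P₁_apply, hv]
  refine (hc _ hP).imp (fun h => by rw [h, smul_zero]) fun h => ?_
  rw [hord]
  exact h

include h₁ h₂ hx in
/-- **The square of a Frobenius.** -/
def MonoDatum.sqFrobenius (hΦ : ∀ c, M.Φ (M.Φ (γ • (γ • c))) = c ^ q ^ 2)
    (hper : ∀ c : L, ∃ n : ℕ, 0 < n ∧ (SemilinearAut.baseAut g)^[n] c = c) :
    M.SqFrobenius (g * g) (q ^ 2) where
  φ := (SemilinearAut.toRingAut (γ * γ)).toRingHom
  x_fixed := by rw [mul_smul, hx, hx]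
  mem₁ a ha := by rw [mul_smul]; exact (h₁ _ (h₁ a ha).1).1
  rd₁ a ha := by
    rw [mul_smul, (h₁ _ (h₁ a ha).1).2, (h₁ a ha).2, ← mul_smul]
    rfl
  mem₂ a ha := by rw [mul_smul]; exact (h₂ _ (h₂ a ha).1).1
  rd₂' a ha := by
    rw [mul_smul, (h₂ _ (h₂ a ha).1).2, (h₂ a ha).2, ← mul_smul]
    rfl
  φ_reg c hc := by
    show (γ * γ) • c ∈ _
    rw [mul_smul]
    exact M.smul_mem_reg_of_fixed h₁ hx (M.smul_mem_reg_of_fixed h₁ hx hc)
  frob c _ := by
    show M.Φ (M.Φ ((γ * γ) • c)) = _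
    rw [mul_smul, hΦ]
  periodic c := by
    obtain ⟨n, hn, h⟩ := hper c
    refine ⟨n, hn, ?_⟩
    have e : ⇑(SemilinearAut.baseAut (g * g)) = (⇑(SemilinearAut.baseAut g))^[2] := rfl
    rw [e, ← Function.iterate_mul, two_mul, Function.iterate_add_apply, h, h]

end Instance

/-- `Φ² ∘ Frob²` is the `q²`-th power when `Φ` is `u ↦ u ^ q` on expansions. -/
theorem phi_sq_frob {k Kb : Type*} [Field k] [Field Kb] [Algebra k Kb] {q : ℕ} [NeZero q]
    [Fact q.Prime] [CharP k q] {emb : Kb →+* LaurentSeries k} {Φ : Kb →ₐ[k] Kb}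
    (hΦ : ∀ c, emb (Φ c) = qExpand k q (emb c)) {γ : SemilinearAut k Kb}
    (hγ : ∀ c, emb (γ • c) = coeffMap (frobenius k q) (emb c)) (c : Kb) :
    Φ (Φ (γ • (γ • c))) = c ^ q ^ 2 := by
  apply emb.injective
  rw [hΦ, hΦ, hγ, hγ, map_pow, pow_two, pow_mul, monoNew_pow_char q (emb c),
    monoNew_pow_char q (qExpand k q _), coeffMap_qExpand]

end FermatLib.Igusa.Mono
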