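/-
Reduction of vanishing norms along the two degeneracy maps.
-/
import Fermat.Agent.Igusa.MonoPushNorm
import Fermat.Agent.Igusa.SqFrobSeries
import Fermat.Agent.Galois.MazurP.DegeneracyHecke
import Fermat.Agent.Modular.LaurentInstances

/-!
# Norm reduction

If the push-forwards of `D`, `d D = div f`, along the two degeneracy maps are principal, the
reductions `f₁`, `f₂` of `f` on the two sheets satisfy `f₁ Frob(f₂), Frob(f₁) f₂ ∈ k^* (Kb^*)^d`.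
-/

set_option autoImplicit false
set_option linter.style.haveILetI false

noncomputable section

open AlgebraicCurve ModularCurve

namespace FermatLib.Igusa.Mono

open scoped FermatLib.LaurentInstances

open FermatLib.Modular.Corr

attribute [local instance 100000] monoLaurentModule monoLaurentSMul

variable {L k Kb : Type*} [Field L] [CharZero L] [Field k] [IsAlgClosed k] [Field Kb]
  [Algebra k Kb] {A : ValuationSubring L} {π : A →+* k} {q : ℕ} [NeZero q]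
  {F₀ F : IntermediateField L (LaurentSeries L)} {M : MonoDatum π F Kb q}
  (G : M.DegenData (F₀ := F₀))

theorem monoNewScale_single_zero {R : Type*} [CommRing R] (c : Rˣ) (a : R) :
    monoNewScale c (HahnSeries.single 0 a : LaurentSeries R) = HahnSeries.single 0 a := by
  ext n
  rw [monoNewScale_coeff, HahnSeries.coeff_single]
  split_ifs with h
  · simp [h]
  · simp

/-- The series of the norm of constants. -/
theorem normSeries_single_zero {R : Type*} [CommRing R] (c : Rˣ) (a b : R) :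
    normSeries (q := q) c (HahnSeries.single 0 a) (HahnSeries.single 0 b) =
      HahnSeries.single 0 (a * b ^ q) := by
  simp [normSeries, monoNewScale_single_zero, qExpand_single, HahnSeries.single_pow,
    HahnSeries.single_mul_single]

theorem coe_smul_eq (c : L) (f : F) :
    ((c • f : F) : LaurentSeries L) = HahnSeries.single 0 c * (f : LaurentSeries L) := by
  rw [IntermediateField.coe_smul, Algebra.smul_def, algebraMap_laurentSeries_eq_single]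

theorem MonoDatum.DegenData.map_smul_W (c : L) (y : F) : G.W (c • y) = c • G.W y := by
  rw [Algebra.smul_def, map_mul, AlgEquiv.commutes, ← Algebra.smul_def]

theorem MonoDatum.DegenData.map_smul_α (c : L) (y : F₀) : G.α (c • y) = c • G.α y := by
  rw [Algebra.smul_def, map_mul, AlgHom.commutes, ← Algebra.smul_def]

variable [hq : Fact q.Prime] [CharP k q]

/-- **Reduction of a norm**: normalised expansions of `f` and `W f` give the reduction of a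
multiple of the norm, `r₁ * Frob r₂`. -/
theorem MonoDatum.DegenData.norm_red {ζ : Lˣ} (hζ : IsPrimitiveRoot ζ q) {f : F} {c₁ c₂ : L}
    {ya za yb zb : LaurentSeries A}
    (ha : IsRatio A π F.val (c₁ • f) ya za)
    (hb : IsRatio A π (F.val.comp G.W.toAlgHom) (c₂ • f) yb zb) :
    (c₁ * c₂ ^ q) • G.α (normAlong G.α f) ∈ M.s₁.W ∧
      G.emb (M.s₁.rd ((c₁ * c₂ ^ q) • G.α (normAlong G.α f))) =
        coeffMap π ya / coeffMap π za *
          coeffMap (frobenius k q) (coeffMap π yb / coeffMap π zb) := by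
  obtain ⟨ζA, hζA, hζπ⟩ := exists_unit_red (A := A) (q := q) π hζ
  have hQ : coeffMap π (normSeries (q := q) ζA za zb) ≠ 0 := by
    rw [MonoDatum.normSeries_red hζπ]
    exact mul_ne_zero ((map_ne_zero_iff _ (qExpand_injective q)).mpr ha.red_ne)
      (pow_ne_zero _ hb.red_ne)
  have hae := ha.eq
  have hbe := hb.eq
  change ((c₁ • f : F) : LaurentSeries L) * _ = _ at hae
  change ((G.W (c₂ • f) : F) : LaurentSeries L) * _ = _ at hbe
  rw [coe_smul_eq] at hae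
  rw [G.map_smul_W, coe_smul_eq] at hbe
  have key : qExpand L q (G.α ((c₁ * c₂ ^ q) • normAlong G.α f) : LaurentSeries L) *
      coeffMap A.subtype (normSeries (q := q) ζA za zb) =
      coeffMap A.subtype (normSeries (q := q) ζA ya yb) := by
    rw [G.map_smul_α, coe_smul_eq, map_mul, qExpand_single, mul_zero, G.qExpand_norm hζ,
      coeffMap_normSeries, coeffMap_normSeries, hζA, ← hae, ← hbe, normSeries_mul,
      normSeries_mul, normSeries_single_zero]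
  obtain ⟨hi, hr⟩ := G.of_qExpand hQ key
  refine ⟨by rw [← G.map_smul_α]; exact hi.1, qExpand_injective q ?_⟩
  change qExpand k q (G.emb (M.s₁.rd _)) = _ at hr
  rw [← G.map_smul_α, hr, MonoDatum.normSeries_red hζπ, MonoDatum.normSeries_red hζπ, map_mul,
    ← monoNew_pow_char q, map_div₀, div_pow, div_mul_div_comm]

omit hq [CharP k q] in
/-- A function of the lower field with the divisor of a `d`-th power is one up to a constant. -/
theorem MonoDatum.DegenData.exists_smul_pow {N h : F₀} {d : ℕ} (hN : N ≠ 0) (hh : h ≠ 0)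
    (hord : ∀ v : Place L F₀, v.ord N = (d : ℤ) * v.ord h) :
    ∃ a : L, a ≠ 0 ∧ G.α N = a • G.α h ^ d := by
  have hαh : G.α h ≠ 0 := (map_ne_zero_iff _ G.α.injective).mpr hh
  have hαN : G.α N ≠ 0 := (map_ne_zero_iff _ G.α.injective).mpr hN
  have hne : G.α N / G.α h ^ d ≠ 0 := div_ne_zero hαN (pow_ne_zero _ hαh)
  have hmem : G.α N / G.α h ^ d ∈ riemannRochSpace (0 : Divisor L F) := by
    rw [mem_riemannRochSpace_iff]
    intro w
    right
    rw [div_eq_mul_inv, w.ord_mul hαN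
      (inv_ne_zero (pow_ne_zero _ hαh)), w.ord_inv, ord_pow,
      Place.ord_restrictAlong G.α G.isIntegral, Place.ord_restrictAlong G.α G.isIntegral, hord]
    refine le_of_eq ?_
    simp only [Finsupp.coe_zero, Pi.zero_apply, neg_zero]
    ring
  obtain ⟨a, ha⟩ := M.rrF.exists_eq_algebraMap hmem
  refine ⟨a, fun h0 => hne (by rw [ha, h0, map_zero]), ?_⟩
  rw [Algebra.smul_def, ← ha, div_mul_cancel₀ _ (pow_ne_zero _ hαh)]

omit hq [CharP k q] in
/-- A principal push-forward of `D`, `d D = div f`, makes the norm of `f` a `d`-th power up to a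
constant. -/
theorem MonoDatum.DegenData.exists_norm_eq {φ : F₀ →ₐ[L] F} (hfin : FiniteAlong L φ)
    (hN : NormFormulaAlong L φ hfin) {d : ℕ} {D : Divisor L F} {f : F} (hf : f ≠ 0)
    (hfD : ∀ w, (d : ℤ) * D w = w.ord f)
    (hp : Divisor.pushforwardAlong φ (finiteAlong_isIntegral hfin) D ∈
      Divisor.principal (K := L) (F := F₀)) :
    ∃ (a : L) (h : F₀), a ≠ 0 ∧ h ≠ 0 ∧ G.α (normAlong φ f) = a • G.α h ^ d := by
  obtain ⟨h, hh, hhD⟩ := hp
  obtain ⟨a, ha, e⟩ := G.exists_smul_pow (normAlong_ne_zero hfin hf) hh fun v => by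
    rw [← pushforwardAlong_apply_of_normFormula (finiteAlong_isIntegral hfin) hfin hN hf
      (D := (d : ℤ) • D) (fun w => by rw [Finsupp.smul_apply, smul_eq_mul, hfD]),
      map_zsmul, Finsupp.smul_apply, smul_eq_mul, hhD]
  exact ⟨a, h, ha, hh, e⟩

omit hq [CharP k q] in
/-- If a multiple of `a • h ^ d` has non-zero reduction, it is a constant times a `d`-th power. -/
theorem MonoDatum.exists_rd_eq_pow (M : MonoDatum π F Kb q) {h : F} (hh : h ≠ 0) {C : L} {d : ℕ}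
    (hm : C • h ^ d ∈ M.s₁.W) (hr : M.s₁.rd (C • h ^ d) ≠ 0) :
    ∃ (b : k) (u : Kb), b ≠ 0 ∧ u ≠ 0 ∧ M.s₁.rd (C • h ^ d) = algebraMap k Kb b * u ^ d := by
  obtain ⟨c, hc, hc0⟩ := M.scale₁ h hh
  have hcne : c ≠ 0 := by rintro rfl; simp at hc0
  have hch : c • h ≠ 0 := fun h0 => hc0 (by rw [h0, Sheet.rd_zero])
  have hcd : (c • h) ^ d ∈ M.s₁.W := pow_mem hc d
  have hcd0 : M.s₁.rd ((c • h) ^ d) ≠ 0 := by rw [Sheet.rd_pow hc]; exact pow_ne_zero _ hc0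
  have e : algebraMap L F (C / c ^ d) * (c • h) ^ d = C • h ^ d := by
    rw [Algebra.smul_def, Algebra.smul_def, mul_pow, ← map_pow, ← mul_assoc, ← map_mul,
      div_mul_cancel₀ _ (pow_ne_zero _ hcne)]
  have hb : algebraMap L F (C / c ^ d) ∈ M.s₁.W := by
    have := mul_mem hm (Sheet.inv_mem_of_rd_ne hcd hcd0)
    rwa [← e, mul_inv_cancel_right₀ (pow_ne_zero _ hch)] at this
  have hbA := Sheet.mem_of_algebraMap_mem M.π_eq_zero hb
  have heq : M.s₁.rd (C • h ^ d) = algebraMap k Kb (π ⟨_, hbA⟩) * M.s₁.rd (c • h) ^ d := by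
    rw [← e, Sheet.rd_mul hb hcd, Sheet.rd_algebraMap hbA, Sheet.rd_pow hc]
  refine ⟨π ⟨_, hbA⟩, M.s₁.rd (c • h), fun h0 => hr ?_, hc0, heq⟩
  rw [heq, h0, map_zero, zero_mul]

/-- **The crossed relations.** -/
theorem MonoDatum.DegenData.exists_cross {ζ : Lˣ} (hζ : IsPrimitiveRoot ζ q)
    {φ₁ : Kb →+* Kb} (hφ : ∀ c, G.emb (φ₁ c) = coeffMap (frobenius k q) (G.emb c))
    {d : ℕ} {f : F} (hf : f ≠ 0) {a b : L} {h h' : F₀} (ha : a ≠ 0) (hb : b ≠ 0) (hh : h ≠ 0)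
    (hh' : h' ≠ 0) (e₁ : G.α (normAlong G.α f) = a • G.α h ^ d)
    (e₂ : G.α (normAlong G.α (G.W f)) = b • G.α h' ^ d) :
    ∃ (c₁ c₂ : L) (b₁ b₂ : k) (u v : Kb), c₁ • f ∈ M.s₁.W ∧ c₂ • f ∈ M.s₂.W ∧
      M.s₁.rd (c₁ • f) ≠ 0 ∧ M.s₂.rd (c₂ • f) ≠ 0 ∧ b₁ ≠ 0 ∧ b₂ ≠ 0 ∧ u ≠ 0 ∧ v ≠ 0 ∧
      M.s₁.rd (c₁ • f) * φ₁ (M.s₂.rd (c₂ • f)) = algebraMap k Kb b₁ * u ^ d ∧
      φ₁ (M.s₁.rd (c₁ • f)) * M.s₂.rd (c₂ • f) = algebraMap k Kb b₂ * v ^ d := by
  obtain ⟨c₁, hc₁, hc₁0⟩ := M.scale₁ f hf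
  obtain ⟨c₂, hc₂, hc₂0⟩ := M.scale₂ f hf
  obtain ⟨ya, za, ha', hra⟩ := G.ratios₁ _ hc₁
  obtain ⟨yb, zb, hb', hrb⟩ := G.ratios₂ _ hc₂
  rw [← eq_div_iff ha'.red_ne] at hra
  rw [← eq_div_iff hb'.red_ne] at hrb
  have hb'' : IsRatio A π F.val (c₂ • G.W f) yb zb := by
    rw [← G.map_smul_W]; exact ⟨hb'.red_ne, hb'.eq⟩
  have ha'' : IsRatio A π (F.val.comp G.W.toAlgHom) (c₁ • G.W f) ya za := by
    rw [← G.map_smul_W]
    refine ⟨ha'.red_ne, ?_⟩
    show ((G.W (G.W (c₁ • f)) : F) : LaurentSeries L) * _ = _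
    rw [G.W_W]
    exact ha'.eq
  obtain ⟨m₁, r₁⟩ := G.norm_red hζ ha' hb'
  obtain ⟨m₂, r₂⟩ := G.norm_red hζ hb'' ha''
  rw [← hra, ← hrb, ← hφ, ← map_mul] at r₁ r₂
  have r₁' := G.emb.injective r₁
  have r₂' := G.emb.injective r₂
  rw [e₁, smul_smul] at m₁ r₁'
  rw [e₂, smul_smul] at m₂ r₂'
  have hn₁ : M.s₁.rd (c₁ • f) * φ₁ (M.s₂.rd (c₂ • f)) ≠ 0 :=
    mul_ne_zero hc₁0 ((map_ne_zero φ₁).mpr hc₂0)
  have hn₂ : M.s₂.rd (c₂ • f) * φ₁ (M.s₁.rd (c₁ • f)) ≠ 0 :=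
    mul_ne_zero hc₂0 ((map_ne_zero φ₁).mpr hc₁0)
  have hαh : G.α h ≠ 0 := (map_ne_zero_iff _ G.α.injective).mpr hh
  have hαh' : G.α h' ≠ 0 := (map_ne_zero_iff _ G.α.injective).mpr hh'
  obtain ⟨b₁, u, hb₁, hu, q₁⟩ := M.exists_rd_eq_pow hαh
    m₁ (by rw [r₁']; exact hn₁)
  obtain ⟨b₂, v, hb₂, hv, q₂⟩ := M.exists_rd_eq_pow hαh'
    m₂ (by rw [r₂']; exact hn₂)
  exact ⟨c₁, c₂, b₁, b₂, u, v, hc₁, hc₂, hc₁0, hc₂0, hb₁, hb₂, hu, hv, r₁'.symm.trans q₁,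
    by rw [mul_comm]; exact r₂'.symm.trans q₂⟩

/-- For a class with vanishing push-forwards, `g x - x` is the class of a twist, `g` the square of
a Frobenius; no hypothesis on `d`. -/
theorem MonoDatum.DegenData.exists_sqFrobenius_twist {ζ : Lˣ} (hζ : IsPrimitiveRoot ζ q)
    {σ : L →+* L} (hσ : ∀ a : A, ∃ h : σ (a : L) ∈ A, π ⟨_, h⟩ = π a ^ q)
    {g : SemilinearAut L F}
    (hg : ∀ f : F, ((g • f : F) : LaurentSeries L) = coeffMap σ (f : LaurentSeries L))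
    (hgW : ∀ f : F, G.W (g • f) = g • G.W f) (hx : g • M.x = M.x)
    (hper : ∀ c : L, ∃ n : ℕ, 0 < n ∧ (SemilinearAut.baseAut g)^[n] c = c)
    (hΦ : ∀ c, G.emb (M.Φ c) = qExpand k q (G.emb c))
    {γ : SemilinearAut k Kb} (hγ : ∀ c, G.emb (γ • c) = coeffMap (frobenius k q) (G.emb c))
    {ψ : F₀ →ₐ[L] F} (hψ : ∀ y, G.W (G.α y) = ψ y) (hψfin : FiniteAlong L ψ)
    (hψN : NormFormulaAlong L ψ hψfin)
    {d : ℕ} (x : Pic0 L F) (hdx : (d : ℤ) • x = 0)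
    (h₁ : MazurP.picPush G.α G.finite G.normFormula x = 0)
    (h₂ : MazurP.picPush ψ hψfin hψN x = 0) :
    ∃ (_ : M.SqFrobenius (g * g) (q ^ 2)) (T : M.Twist d),
      Pic0.mk ⟨T.D, T.degree_D⟩ = (g * g) • x - x := by
  obtain ⟨D, rfl⟩ := Pic0.mk_surjective x
  have hdD : Pic0.mk ((d : ℤ) • D) = 0 := by
    rw [← hdx]; rfl
  obtain ⟨f, hf, hfD⟩ : ((d : ℤ) • D : Divisor.degZero (K := L) (F := F)).1 ∈
      Divisor.principal (K := L) (F := F) :=
    AddSubgroup.mem_addSubgroupOf.mp ((QuotientAddGroup.eq_zero_iff _).mp hdD)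
  replace hfD : ∀ w, (d : ℤ) * (D : Divisor L F) w = w.ord f := fun w => by
    rw [← hfD]; simp
  rw [MazurP.picPush_mk] at h₁ h₂
  have p₁ := AddSubgroup.mem_addSubgroupOf.mp ((QuotientAddGroup.eq_zero_iff _).mp h₁)
  have p₂ := AddSubgroup.mem_addSubgroupOf.mp ((QuotientAddGroup.eq_zero_iff _).mp h₂)
  obtain ⟨a, h, ha, hh, e₁⟩ := G.exists_norm_eq G.finite G.normFormula hf hfD p₁
  obtain ⟨b, h', hb, hh', e₂⟩ := G.exists_norm_eq hψfin hψN hf hfD p₂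
  rw [show normAlong ψ f = normAlong G.α (G.W f) by
    conv_lhs => rw [← G.W_W f]
    exact normAlong_of_comp G.W hψ (G.W f)] at e₂
  let φ₁ : Kb →+* Kb := (SemilinearAut.toRingAut γ).toRingHom
  obtain ⟨c₁, c₂, b₁, b₂, u, v, hc₁, hc₂, hc₁0, hc₂0, hb₁, hb₂, hu, hv, q₁, q₂⟩ :=
    G.exists_cross hζ (φ₁ := φ₁) hγ hf ha hb hh hh' e₁ e₂
  obtain ⟨⟨w₁, z₁, hw₁, hz₁, i₁⟩, ⟨w₂, z₂, hw₂, hz₂, i₂⟩⟩ :=
    sq_invariant_of_cross φ₁ (SemilinearAut.baseAut γ : k →+* k)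
      (fun c => SemilinearAut.smul_algebraMap γ c) hc₁0 hc₂0 hb₁ hb₂ hu hv q₁ q₂
  have hθ : ∀ a : A, ∃ h : σ (a : L) ∈ A, π ⟨_, h⟩ = frobenius k q (π a) := hσ
  have s₁ : ∀ a ∈ M.s₁.W, g • a ∈ M.s₁.W ∧ M.s₁.rd (g • a) = γ • M.s₁.rd a := fun a ha =>
    G.ratios₁.smul_rd_eq hθ hg hγ ha
  have s₂ : ∀ a ∈ M.s₂.W, g • a ∈ M.s₂.W ∧ M.s₂.rd (g • a) = γ • M.s₂.rd a := fun a ha =>
    G.ratios₂.smul_rd_eq hθ (fun f => by
      show ((G.W (g • f) : F) : LaurentSeries L) = _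
      rw [hgW]
      exact hg _) hγ ha
  let S := M.sqFrobenius s₁ s₂ hx (phi_sq_frob hΦ hγ) hper
  refine ⟨S, S.exists_twist_smul_sub D hf hfD
    ⟨c₁, hc₁, hc₁0, w₁, z₁, hw₁, hz₁, i₁⟩ ⟨c₂, hc₂, hc₂0, w₂, z₂, hw₂, hz₂, i₂⟩⟩

/-- **`(g - q²)(g - 1) = 0` on classes with vanishing push-forwards**, for the square `g` of a
Frobenius and `d` prime to the residue characteristic. -/
theorem MonoDatum.DegenData.sq_smul_sub_eq {ζ : Lˣ} (hζ : IsPrimitiveRoot ζ q)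
    {σ : L →+* L} (hσ : ∀ a : A, ∃ h : σ (a : L) ∈ A, π ⟨_, h⟩ = π a ^ q)
    {g : SemilinearAut L F}
    (hg : ∀ f : F, ((g • f : F) : LaurentSeries L) = coeffMap σ (f : LaurentSeries L))
    (hgW : ∀ f : F, G.W (g • f) = g • G.W f) (hx : g • M.x = M.x)
    (hper : ∀ c : L, ∃ n : ℕ, 0 < n ∧ (SemilinearAut.baseAut g)^[n] c = c)
    (hΦ : ∀ c, G.emb (M.Φ c) = qExpand k q (G.emb c))
    {γ : SemilinearAut k Kb} (hγ : ∀ c, G.emb (γ • c) = coeffMap (frobenius k q) (G.emb c))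
    {ψ : F₀ →ₐ[L] F} (hψ : ∀ y, G.W (G.α y) = ψ y) (hψfin : FiniteAlong L ψ)
    (hψN : NormFormulaAlong L ψ hψfin)
    {d : ℕ} (hd : 1 ≤ d) (hdk : (d : k) ≠ 0) (x : Pic0 L F) (hdx : (d : ℤ) • x = 0)
    (h₁ : MazurP.picPush G.α G.finite G.normFormula x = 0)
    (h₂ : MazurP.picPush ψ hψfin hψN x = 0) :
    (g * g) • ((g * g) • x - x) = ((q ^ 2 : ℕ) : ℤ) • ((g * g) • x - x) := by
  obtain ⟨S, T, hT⟩ := G.exists_sqFrobenius_twist hζ hσ hg hgW hx hper hΦ hγ hψ hψfin hψN x hdx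
    h₁ h₂
  rw [← hT]
  exact S.smul_twist_eq hd hdk T

end FermatLib.Igusa.Mono
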