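/-
The square of Frobenius on the part of `J₀(qM)` killed by both push-forwards to `J₀(M)`.
-/
import Fermat.Agent.Igusa.SqFrobNorm
import Fermat.Agent.Igusa.ReductionEquivariance
import Fermat.Agent.Igusa.LevelSetup
import Fermat.Agent.Igusa.MonoReductionKernel
import Fermat.Agent.Galois.NewformRepRoot
import Fermat.Agent.Galois.FrobeniusElement

/-!
# `SqFrobeniusOnNewPart` from a two-sheet datum at every place over `q`
-/

set_option autoImplicit false
set_option linter.style.haveILetI false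

noncomputable section

open AlgebraicCurve ModularCurve

namespace FermatLib.Igusa.Mono

open FermatLib.Modular.Corr

attribute [local instance] LevelDatum.fieldKb LevelDatum.algebraKb neZero_mul'
attribute [local instance 100000] monoLaurentModule monoLaurentSMul

local notation "Qbar" => AlgebraicClosure ℚ
local notation "Γℚ" => (AlgebraicClosure ℚ ≃ₐ[ℚ] AlgebraicClosure ℚ)

theorem picPush_congr {K F F' : Type*} [Field K] [Field F] [Field F'] [Algebra K F] [Algebra K F']
    {φ φ' : F →ₐ[K] F'} (e : φ = φ') (hfin : FiniteAlong K φ) (hN : NormFormulaAlong K φ hfin)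
    (hfin' : FiniteAlong K φ') (hN' : NormFormulaAlong K φ' hfin') :
    MazurP.picPush φ hfin hN = MazurP.picPush φ' hfin' hN' := by
  subst e; rfl

/-- A Frobenius element preserves its place and is the `q`-th power on residues. -/
theorem frobenius_residue {A : ValuationSubring Qbar} {σ : Γℚ} {q : ℕ}
    (hσ : A.IsFrobeniusAt σ q) (a : A) :
    ∃ h : σ (a : Qbar) ∈ A,
      IsLocalRing.residue A ⟨_, h⟩ = IsLocalRing.residue A a ^ q := by
  have h0 := FermatLib.Galois.frobenius_sub_pow_mem_nonunits hσ a.2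
  have hmem : σ (a : Qbar) ∈ A := by
    have := add_mem (A.nonunits_subset h0) (pow_mem a.2 q)
    rwa [sub_add_cancel] at this
  refine ⟨hmem, ?_⟩
  rw [← sub_eq_zero, ← map_pow, ← map_sub, IsLocalRing.residue_eq_zero_iff]
  exact ValuationSubring.coe_mem_nonunits_iff.mp h0

/-- On a special fibre which is a modular function field, coefficientwise automorphisms exist. -/
theorem semilinear_fullC {k : Type*} [Field k] (N : ℕ) (θ : k ≃+* k) :
    ∃ γ : SemilinearAut k (modularFunctionFieldFullC k N), ∀ c,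
      ((γ • c : modularFunctionFieldFullC k N) : LaurentSeries k) =
        coeffMap (θ : k →+* k) (c : LaurentSeries k) :=
  ⟨residueSemilinear N θ, coe_residueSemilinear_smul N θ⟩

/-- `(F² - q²)(F² - 1) = 0` from a two-sheet datum of level `q M`. -/
theorem LevelDatum.sq_smul_sub_eq {q M : ℕ} [Fact q.Prime] [NeZero q] [NeZero M]
    [NeZero (q * M)] {hqM : ¬ q ∣ M} {A : ValuationSubring Qbar} (X : LevelDatum hqM A)
    (hΦ : ∀ c, X.emb (X.D.Φ c) = qExpand (IsLocalRing.ResidueField A) q (X.emb c))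
    (hsemi : ∀ θ : IsLocalRing.ResidueField A ≃+* IsLocalRing.ResidueField A,
      ∃ γ : SemilinearAut (IsLocalRing.ResidueField A) X.Kb, ∀ c, X.emb (γ • c) =
        coeffMap (θ : IsLocalRing.ResidueField A →+* IsLocalRing.ResidueField A) (X.emb c))
    (hA : A.LiesOverPrime q) {σ : Γℚ} (hσ : A.IsFrobeniusAt σ q)
    (h₁ : M * 1 ∣ q * M) (h₂ : M * q ∣ q * M) {d : ℕ} (hd : 1 ≤ d) (hdq : ¬ q ∣ d)
    (x : JZero (q * M)) (hx : d • x = 0) (hx₁ : MazurP.degPush 1 h₁ x = 0)
    (hx₂ : MazurP.degPush q h₂ x = 0) :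
    σ • σ • (σ • σ • x - x) = ((q ^ 2 : ℕ) : ℤ) • (σ • σ • x - x) := by
  haveI := FermatLib.Galois.isAlgClosed_residueField A
  haveI := charP_residueField_of_lies A hA
  haveI : ExpChar (IsLocalRing.ResidueField A) q := ExpChar.prime Fact.out
  haveI : Algebra.IsAlgebraic ℚ Qbar := AlgebraicClosure.isAlgebraic ℚ
  obtain ⟨z, hz⟩ : ∃ z : Qbar, IsPrimitiveRoot z q := by
    haveI : NeZero (q : Qbar) := ⟨Nat.cast_ne_zero.mpr (NeZero.ne q)⟩
    exact HasEnoughRootsOfUnity.exists_primitiveRoot _ _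
  have hzu := hz.isUnit (NeZero.ne q)
  obtain ⟨γ, hγ⟩ := hsemi (frobeniusEquiv (IsLocalRing.ResidueField A) q)
  set G := degenData hqM X.D X.emb X.x_eq X.ratios₁ X.ratios₂
  set g := arithmeticGalois (modularFunctionFieldFull (q * M)) σ with hg
  have e₁ : G.α = barBeta Qbar 1 h₁ :=
    AlgHom.ext fun y => Subtype.ext (by rw [G.coe_α, coe_barBeta, qExpand_one_apply])
  have hψ : ∀ y, G.W (G.α y) = barBeta Qbar q h₂ y := fun y =>
    Subtype.ext (by rw [G.coe_W, coe_barBeta])
  have hgx : g • X.D.x = X.D.x := by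
    refine arithmeticGalois_smul_of_coeffEmb σ (y := jq) ?_
    rw [X.x_eq, coe_barIncl]
    rfl
  rw [MazurP.degPush, ← picPush_congr e₁ G.finite G.normFormula] at hx₁
  have key := G.sq_smul_sub_eq (ζ := hzu.unit)
    (IsPrimitiveRoot.coe_units_iff.mp (by rwa [IsUnit.unit_spec]))
    (σ := (σ : Qbar →+* Qbar)) (frobenius_residue hσ)
    (g := g) (fun f => coe_arithmeticGalois_smul _ σ f) (monoSwap_arithmeticGalois hqM σ) hgx
    (fun c => exists_iterate_eq_self σ c) hΦ
    (γ := γ) (fun c => by rw [show G.emb = X.emb from rfl, hγ]; rfl)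
    (ψ := barBeta Qbar q h₂) hψ _ _ hd
    (residueField_natCast_ne_zero hA hdq) x (by rw [natCast_zsmul]; exact hx) hx₁ hx₂
  rw [mul_smul, mul_smul] at key
  exact key

/-- **The geometric input of S35** from two-sheet data. -/
theorem sqFrobeniusOnNewPart_of_levelDatum
    (X : ∀ (q M : ℕ) [Fact q.Prime] [NeZero q] [NeZero M] [NeZero (q * M)] (hqM : ¬ q ∣ M)
      (A : ValuationSubring Qbar), A.LiesOverPrime q → ∃ Z : LevelDatum hqM A,
        (∀ c, Z.emb (Z.D.Φ c) = qExpand (IsLocalRing.ResidueField A) q (Z.emb c)) ∧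
        ∀ θ : IsLocalRing.ResidueField A ≃+* IsLocalRing.ResidueField A,
          ∃ γ : SemilinearAut (IsLocalRing.ResidueField A) Z.Kb, ∀ c, Z.emb (γ • c) =
            coeffMap (θ : IsLocalRing.ResidueField A →+* IsLocalRing.ResidueField A) (Z.emb c)) :
    Galois.SqFrobeniusOnNewPart := by
  intro q M _ _ _ _ hqM h₁ h₂ A hA σ hσ d hd hdq x hx hx₁ hx₂
  obtain ⟨Y, hΦ, hsemi⟩ := X q M hqM A hA
  have h := Y.sq_smul_sub_eq hΦ hsemi hA hσ h₁ h₂ hd hdq x hx hx₁ hx₂
  rw [smul_sub, smul_sub, natCast_zsmul, nsmul_sub] at h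
  rw [sq] at h
  rw [add_smul, one_smul]
  rw [sub_eq_iff_eq_add] at h
  rw [h]
  abel

end FermatLib.Igusa.Mono
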