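import Fermat.Agent.Igusa.NormReduction
import Fermat.Agent.Igusa.ReductionEquivariance
import Fermat.Prelude.Def_ModularCurve_HeckeOperatorTotal

/-!
The Eichler-Shimura congruence relation on divisors of degree zero.
-/

set_option autoImplicit false
set_option linter.style.haveILetI false

noncomputable section

open HahnSeries ModularCurve AlgebraicCurve

namespace FermatLib.Igusa

section Generic

variable {K F F' : Type*} [Field K] [Field F] [Field F'] [Algebra K F] [Algebra K F']
variable [HasPrincipalDivisors K F']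

omit [HasPrincipalDivisors K F'] in
theorem pushforwardAlong_nonneg (φ : F →ₐ[K] F') (hφ : φ.toRingHom.IsIntegral)
    {E : Divisor K F'} (hE : ∀ w, 0 ≤ E w) (v : Place K F) :
    0 ≤ Divisor.pushforwardAlong φ hφ E v := by
  classical
  rw [← Finsupp.sum_single E, map_finsuppSum, Finsupp.sum_apply]
  refine Finset.sum_nonneg fun w _ => ?_
  simp only [Divisor.pushforwardAlong_single, Finsupp.single_apply]
  split_ifs
  · exact mul_nonneg (hE w) (Int.natCast_nonneg _)
  · exact le_rfl

theorem correspondence_nonneg (φ ψ : F →ₐ[K] F') (hφ : φ.toRingHom.IsIntegral)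
    (hψ : ψ.toRingHom.IsIntegral) {E : Divisor K F} (hE : ∀ v, 0 ≤ E v) (v : Place K F) :
    0 ≤ Divisor.correspondence φ ψ hφ hψ E v := by
  refine pushforwardAlong_nonneg ψ hψ (fun w => ?_) v
  rw [Divisor.pullbackAlong_apply]
  exact mul_nonneg (Int.natCast_nonneg _) (hE _)

/-- A correspondence carries the divisor of a function to the divisor of a norm. -/
theorem correspondence_apply_eq_ord_norm (φ ψ : F →ₐ[K] F') (hφ : φ.toRingHom.IsIntegral)
    (hψ : ψ.toRingHom.IsIntegral) (hfin : FiniteAlong K ψ) (hN : NormFormulaAlong K ψ hfin)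
    {f : F} (hf : f ≠ 0) {E : Divisor K F} (hE : ∀ v, E v = v.ord f) (v : Place K F) :
    Divisor.correspondence φ ψ hφ hψ E v
      = v.ord (letI := algebraAlong ψ; Algebra.norm F (φ f)) :=
  hN (φ f) (fun h => hf (φ.toRingHom.injective (h.trans (map_zero _).symm))) _
    (fun w => by rw [Divisor.pullbackAlong_apply, hE, ← Place.ord_restrictAlong]) v

omit [HasPrincipalDivisors K F'] in
theorem norm_ne_zero_along (φ ψ : F →ₐ[K] F') (hfin : FiniteAlong K ψ) {f : F} (hf : f ≠ 0) :
    (letI := algebraAlong ψ; Algebra.norm F (φ f)) ≠ 0 := by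
  letI := algebraAlong ψ
  haveI : Module.Finite F F' := hfin
  exact Algebra.norm_ne_zero_iff.mpr (fun h => hf (φ.toRingHom.injective (h.trans (map_zero _).symm)))

end Generic

section Special

variable {k : Type*} [Field k]

theorem abs_mapDomain_le {K F S : Type*} [Field K] [Field F] [Algebra K F]
    (hdeg : ∀ v : Place K F, v.deg = 1) (r : Place K F → S) {E : Divisor K F}
    (hE : ∀ v, 0 ≤ E v) (s : S) : |Finsupp.mapDomain r E s| ≤ Divisor.degree E := by
  classical
  set w : Place K F → ℤ := fun v => if r v = s then 1 else 0 with hw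
  have h : (Finsupp.applyAddHom s).comp (Finsupp.mapDomain.addMonoidHom r) = placeSum w := by
    refine Finsupp.addHom_ext fun v n => ?_
    simp [placeSum_single, hw, Finsupp.single_apply]
  have h' : Finsupp.mapDomain r E s = placeSum w E := DFunLike.congr_fun h E
  rw [h', ← one_mul (Divisor.degree E)]
  exact abs_placeSum_le w 1 (fun v => by simp only [hw]; split_ifs <;> norm_num) hdeg hE

end Special

variable {L : Type*} [Field L] [Algebra ℚ L] {A : ValuationSubring L}
variable {k : Type*} [Field k] {π : A →+* k} {N ℓ : ℕ} [NeZero N] [Fact ℓ.Prime] [CharP k ℓ]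
variable {r : Place L (laurentBaseChange L (modularFunctionFieldFull N)) →
  Place k (modularFunctionFieldFullC k N)}

/-- The value on a reduced function of the Eichler-Shimura congruence. -/
theorem qExpand_mul_frobenius_eq (τ : k ≃+* k) (hτ : ∀ x, τ x = x ^ ℓ) (f : LaurentSeries k) :
    qExpand k ℓ f * coeffMap (frobenius k ℓ) f
      = coeffMap (τ.symm : k →+* k) f ^ ℓ * coeffMap (τ : k →+* k) f := by
  have h1 : (τ : k →+* k) = frobenius k ℓ := RingHom.ext hτ
  rw [pow_char_eq_qExpand, ← h1, coeffMap_coeffMap]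
  refine congrArg (· * _) (congrArg _ ?_)
  ext m
  simp

set_option maxHeartbeats 2000000 in
theorem reductionDivAlong_heckeDivBar [CharZero L] [IsAlgClosed L] {g : ℕ}
    (hr : IsPlaceReductionAlong A π N r) (hgen : PrincipalGeneratedByIntegral A π N)
    (hdeg : ∀ P : Place L (laurentBaseChange L (modularFunctionFieldFull N)), P.deg = 1)
    (hdeg0 : ∀ E ∈ Divisor.principal (K := L)
      (F := laurentBaseChange L (modularFunctionFieldFull N)), Divisor.degree E = 0)
    (hR : RiemannInequalityAt L (laurentBaseChange L (modularFunctionFieldFull N)) g)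
    (hα : HeckeAlphaBarIntegral L N ℓ) (hβ : HeckeBetaBarIntegral L N ℓ)
    [HasPrincipalDivisors L (laurentBaseChange L (modularFunctionFieldFull (N * ℓ)))]
    (hFI : FundamentalIdentityAlong L (heckeBetaBar L N ℓ) hβ)
    (hfin : FiniteAlong L (heckeAlphaBar L N ℓ))
    (hN : NormFormulaAlong L (heckeAlphaBar L N ℓ) hfin)
    (W : HeckeSwap L N ℓ) (hn : finrankAlong L (heckeAlphaBar L N ℓ) = ℓ + 1)
    (τ : k ≃+* k) (hτ : ∀ x, τ x = x ^ ℓ)
    (D : Divisor L (laurentBaseChange L (modularFunctionFieldFull N)))
    (hD : Divisor.degree D = 0) :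
    reductionDivAlong r (heckeDivBar hα hβ D)
      = residueSemilinear N τ • reductionDivAlong r D
        + (ℓ : ℤ) • ((residueSemilinear N τ)⁻¹ • reductionDivAlong r D) := by
  set gτ := residueSemilinear N τ
  let δ : Divisor L (laurentBaseChange L (modularFunctionFieldFull N)) →+
      Divisor k (modularFunctionFieldFullC k N) :=
    (reductionDivAlong r).comp (heckeDivBar hα hβ)
      - ((DistribSMul.toAddMonoidHom _ gτ).comp (reductionDivAlong r)
        + (ℓ : ℤ) • (DistribSMul.toAddMonoidHom _ gτ⁻¹).comp (reductionDivAlong r))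
  have hδ : ∀ E, δ E = reductionDivAlong r (heckeDivBar hα hβ E)
      - (gτ • reductionDivAlong r E + (ℓ : ℤ) • (gτ⁻¹ • reductionDivAlong r E)) := fun _ => rfl
  have h0 : δ D = 0 := by
    refine apply_eq_zero_of_degree_eq_zero δ
      ((finrankAlong L (heckeBetaBar L N ℓ) : ℤ) + (1 + ℓ)) (fun P Q => ?_) hdeg hR hdeg0
      (fun E hE => eq_zero_on_principal_of_integral hgen δ ?_ hE) D hD
    · classical
      rw [hδ, reductionDivAlong_single, SemilinearAut.smul_single, SemilinearAut.smul_single,
        Finsupp.sub_apply, Finsupp.add_apply, Finsupp.smul_apply, Finsupp.single_apply,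
        Finsupp.single_apply, smul_eq_mul]
      refine (abs_sub _ _).trans (add_le_add ?_ ?_)
      · rw [reductionDivAlong_apply]
        refine (abs_mapDomain_le hdeg r (fun v => correspondence_nonneg _ _ _ _ (fun w => ?_) v)
          Q).trans (le_of_eq ?_)
        · rw [Finsupp.single_apply]
          split_ifs <;> norm_num
        · refine (Divisor.degree_correspondence (heckeBetaBar L N ℓ) (heckeAlphaBar L N ℓ)
            hβ hα hFI _).trans ?_
          rw [Divisor.degree_single, hdeg, Nat.cast_one, mul_one, mul_one]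
      · have hl : (0 : ℤ) ≤ ℓ := Int.natCast_nonneg ℓ
        rw [abs_le]
        split_ifs <;> constructor <;> omega
    · rintro E ⟨y, hy, hyk, hne, hE⟩
      obtain ⟨M, hM, hMk⟩ := exists_norm_heckeBeta_reduction W hfin hn A π y hy
      set f : laurentBaseChange L (modularFunctionFieldFull N) := ⟨coeffMap A.subtype y, hy⟩
      set fk : modularFunctionFieldFullC k N := ⟨coeffMap π y, hyk⟩ with hfk
      have hfk0 : fk ≠ 0 := fun h => hne (congrArg Subtype.val h)
      have hf0 : f ≠ 0 := fun h => hne <| by
        have hy0 : y = 0 := qsCoeffMap_injective A.subtype Subtype.val_injective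
          ((congrArg Subtype.val h).trans (map_zero (coeffMap A.subtype)).symm)
        rw [hy0, map_zero]
      set Mk : modularFunctionFieldFullC k N := (gτ⁻¹ • fk) ^ ℓ * (gτ • fk) with hMkdef
      have hMkcoe : coeffMap π M = (Mk : LaurentSeries k) := by
        rw [hMk, qExpand_mul_frobenius_eq τ hτ, hMkdef, IntermediateField.coe_mul,
          IntermediateField.coe_pow, coe_residueSemilinear_smul, coe_residueSemilinear_inv_smul]
      have hMk0 : Mk ≠ 0 := mul_ne_zero
        (pow_ne_zero _ ((smul_ne_zero_iff_ne _).mpr hfk0)) ((smul_ne_zero_iff_ne _).mpr hfk0)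
      have hMy : coeffMap A.subtype M ∈ laurentBaseChange L (modularFunctionFieldFull N) :=
        hM ▸ SetLike.coe_mem _
      have hMky : coeffMap π M ∈ modularFunctionFieldFullC k N := hMkcoe ▸ Mk.2
      have hMne : coeffMap π M ≠ 0 := fun h => hMk0 (Subtype.ext (hMkcoe.symm.trans h))
      have hdiv : ∀ P, heckeDivBar hα hβ E P
          = P.ord (⟨coeffMap A.subtype M, hMy⟩ :
              laurentBaseChange L (modularFunctionFieldFull N)) := fun P =>
        (correspondence_apply_eq_ord_norm _ _ hβ hα hfin hN hf0 hE P).trans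
          (congrArg (fun z => P.ord z) (Subtype.ext hM.symm))
      have h1 : ∀ Q, reductionDivAlong r (heckeDivBar hα hβ E) Q = Q.ord Mk := fun Q =>
        (hr.2 M hMy hMky hMne _ hdiv Q).trans
          (congrArg (fun z => Q.ord z) (Subtype.ext hMkcoe))
      have h2 : ∀ Q, reductionDivAlong r E Q = Q.ord fk := fun Q => hr.2 y hy hyk hne E hE Q
      ext Q
      rw [hδ, Finsupp.sub_apply, Finsupp.zero_apply, sub_eq_zero, h1, Finsupp.add_apply,
        Finsupp.smul_apply, divisor_smul_eq_ord gτ h2 Q, divisor_smul_eq_ord gτ⁻¹ h2 Q, hMkdef,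
        Q.ord_mul (pow_ne_zero _ ((smul_ne_zero_iff_ne _).mpr hfk0))
          ((smul_ne_zero_iff_ne _).mpr hfk0),
        ← zpow_natCast (gτ⁻¹ • fk), Q.ord_zpow, smul_eq_mul]
      ring
  rwa [hδ, sub_eq_zero] at h0

end FermatLib.Igusa
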