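import Fermat.Agent.Modular.FieldCx
import Fermat.Agent.Modular.JFunction

/-!
The Atkin-Lehner involution at a prime `ℓ` not dividing `N` permutes the `j (d τ)`, `d ∣ N ℓ`;
hence it respects polynomial relations between their `q`-expansions.
-/

set_option autoImplicit false

noncomputable section

open UpperHalfPlane ModularCurve
open scoped MatrixGroups

namespace FermatLib.Igusa

open FermatLib.Modular in
theorem jScaleFun_swap_eq {N ℓ : ℕ} (hN : N ≠ 0) (hℓ : ℓ ≠ 0) (a b : ℤ)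
    (hab : (ℓ : ℤ) * a - N * b = 1) (τ : ℍ) :
    ∃ τ' : ℍ, ∀ d : ℕ, d ∣ N →
      jScaleFun d τ' = jScaleFun (d * ℓ) τ ∧ jScaleFun (d * ℓ) τ' = jScaleFun d τ := by
  let γ : SL(2, ℤ) := ⟨!![1, b; (N : ℤ), ℓ * a], by rw [Matrix.det_fin_two_of]; linarith⟩
  refine ⟨γ • (ModularForm.heckeDiagMatrix ℓ • τ), fun d hd => ?_⟩
  obtain ⟨e, he⟩ := hd
  have hd0 : d ≠ 0 := fun h => hN (by rw [he, h, zero_mul])
  have hdl : d * ℓ ≠ 0 := mul_ne_zero hd0 hℓ
  have heC : (N : ℂ) = (d : ℂ) * e := by rw [he]; push_cast; ring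
  have heZ : (N : ℤ) = (d : ℤ) * e := by exact_mod_cast he
  let γd : SL(2, ℤ) := ⟨!![1, d * b; (e : ℤ), ℓ * a], by
    rw [Matrix.det_fin_two_of]; rw [heZ] at hab; linarith⟩
  let γd' : SL(2, ℤ) := ⟨!![(ℓ : ℤ), d * b; (e : ℤ), a], by
    rw [Matrix.det_fin_two_of]; rw [heZ] at hab; linarith⟩
  have key1 : ModularForm.heckeDiagMatrix d • (γ • (ModularForm.heckeDiagMatrix ℓ • τ))
      = γd • (ModularForm.heckeDiagMatrix (d * ℓ) • τ) := by
    apply UpperHalfPlane.ext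
    rw [ModularForm.coe_heckeDiagMatrix_smul hd0, coe_specialLinearGroup_apply,
      coe_specialLinearGroup_apply, ModularForm.coe_heckeDiagMatrix_smul hℓ,
      ModularForm.coe_heckeDiagMatrix_smul hdl]
    simp only [γ, γd]
    simp only [Matrix.of_apply, Matrix.cons_val', Matrix.cons_val_zero, Matrix.cons_val_one,
      Matrix.empty_val', Matrix.cons_val_fin_one, algebraMap_int_eq, Int.coe_castRingHom]
    push_cast
    rw [heC, mul_div_assoc']
    congr 1 <;> ring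
  have key2 : ModularForm.heckeDiagMatrix (d * ℓ) • (γ • (ModularForm.heckeDiagMatrix ℓ • τ))
      = γd' • (ModularForm.heckeDiagMatrix d • τ) := by
    apply UpperHalfPlane.ext
    rw [ModularForm.coe_heckeDiagMatrix_smul hdl, coe_specialLinearGroup_apply,
      coe_specialLinearGroup_apply, ModularForm.coe_heckeDiagMatrix_smul hd0,
      ModularForm.coe_heckeDiagMatrix_smul hℓ]
    simp only [γ, γd']
    simp only [Matrix.of_apply, Matrix.cons_val', Matrix.cons_val_zero, Matrix.cons_val_one,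
      Matrix.empty_val', Matrix.cons_val_fin_one, algebraMap_int_eq, Int.coe_castRingHom]
    push_cast
    have hl : (ℓ : ℂ) ≠ 0 := Nat.cast_ne_zero.mpr hℓ
    rw [heC, mul_div_assoc']
    rw [show (d : ℂ) * e * (ℓ * τ) + ℓ * a = ℓ * (e * (d * τ) + a) by ring,
      show (d : ℂ) * ℓ * (1 * (ℓ * τ) + b) = ℓ * (ℓ * (d * τ) + d * b) by ring,
      mul_div_mul_left _ _ hl]
  constructor
  · rw [jScaleFun_apply, jScaleFun_apply, key1, jFun_smul]
  · rw [jScaleFun_apply, jScaleFun_apply, key2, jFun_smul]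

/-- The indices `d` and `d ℓ`, `d ∣ N`. -/
abbrev SwapIndex (N : ℕ) : Type := {d : ℕ // d ∣ N} ⊕ {d : ℕ // d ∣ N}

/-- The scaling attached to an index. -/
def swapScale (N ℓ : ℕ) : SwapIndex N → ℕ :=
  Sum.elim (fun d => (d : ℕ)) (fun d => (d : ℕ) * ℓ)

instance neZero_swapScale (N ℓ : ℕ) [NeZero N] [NeZero ℓ] (i : SwapIndex N) :
    NeZero (swapScale N ℓ i) := by
  rcases i with ⟨d, hd⟩ | ⟨d, hd⟩
  · exact ⟨fun h => NeZero.ne N (by simpa [show d = 0 from h] using hd)⟩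
  · exact ⟨mul_ne_zero (fun h => NeZero.ne N (by simpa [show d = 0 from h] using hd)) (NeZero.ne ℓ)⟩

/-- The `q`-expansions `j (q^d)`, indexed by `SwapIndex`. -/
def swapGen (N ℓ : ℕ) [NeZero N] [NeZero ℓ] (i : SwapIndex N) : LaurentSeries ℚ :=
  qExpand ℚ (swapScale N ℓ i) jq

theorem aeval_swapGen_swap {N ℓ : ℕ} [NeZero N] [NeZero ℓ] (hco : Nat.Coprime ℓ N)
    (P : MvPolynomial (SwapIndex N) ℚ)
    (hP : MvPolynomial.aeval (swapGen N ℓ) P = 0) :
    MvPolynomial.aeval (fun i => swapGen N ℓ i.swap) P = 0 := by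
  have hg : Int.gcd (ℓ : ℤ) (N : ℤ) = 1 := by rwa [Int.gcd_natCast_natCast]
  have hb := Int.gcd_eq_gcd_ab (ℓ : ℤ) (N : ℤ)
  rw [hg] at hb
  have h1 := (FermatLib.Modular.aeval_qExpand_jq_rat_eq_zero_iff (swapScale N ℓ) P).mp hP
  refine (FermatLib.Modular.aeval_qExpand_jq_rat_eq_zero_iff
    (fun i : SwapIndex N => swapScale N ℓ i.swap) P).mpr fun τ => ?_
  obtain ⟨τ', hτ'⟩ := jScaleFun_swap_eq (NeZero.ne N) (NeZero.ne ℓ)
    (Int.gcdA ℓ N) (-Int.gcdB ℓ N) (by push_cast at hb ⊢; linarith) τ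
  rw [← h1 τ']
  refine congrArg (fun g => MvPolynomial.aeval g P) (funext ?_)
  rintro (⟨d, hd⟩ | ⟨d, hd⟩)
  · exact ((hτ' d hd).1).symm
  · exact ((hτ' d hd).2).symm

end FermatLib.Igusa
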