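import Fermat.Agent.Igusa.NormReduction
import Fermat.Agent.Igusa.SwapRelation
import Fermat.Agent.Modular.CorrField

/-!
The Atkin-Lehner swap exists on the function field of `X₀(N ℓ)` over any field of constants.
-/

set_option autoImplicit false
set_option linter.style.haveILetI false
set_option synthInstance.maxHeartbeats 200000

noncomputable section

open ModularCurve

namespace FermatLib.Igusa

theorem aeval_coeffEmb_eq_zero {ι L : Type*} [Field L] [Algebra ℚ L]
    {g g' : ι → LaurentSeries ℚ}
    (h : ∀ P : MvPolynomial ι ℚ, MvPolynomial.aeval g P = 0 → MvPolynomial.aeval g' P = 0)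
    {P : MvPolynomial ι L}
    (hP : MvPolynomial.aeval (fun i => coeffEmb L (g i)) P = 0) :
    MvPolynomial.aeval (fun i => coeffEmb L (g' i)) P = 0 := by
  classical
  let mon : (ι → LaurentSeries ℚ) → (ι →₀ ℕ) → LaurentSeries ℚ :=
    fun f d => d.prod fun i e => f i ^ e
  have hL : ∀ (f : ι → LaurentSeries ℚ) (n : ℤ),
      (MvPolynomial.aeval (fun i => coeffEmb L (f i)) P).coeff n
        = ∑ d ∈ P.support, P.coeff d * algebraMap ℚ L ((mon f d).coeff n) := fun f n => by
    rw [MvPolynomial.aeval_def, MvPolynomial.eval₂_eq, HahnSeries.coeff_sum]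
    refine Finset.sum_congr rfl fun d _ => ?_
    rw [show (∏ i ∈ d.support, coeffEmb L (f i) ^ d i) = coeffEmb L (mon f d) by
      simp [mon, Finsupp.prod, map_prod], algebraMap_laurentSeries_eq_single,
      HahnSeries.coeff_single_zero_mul]
    rfl
  have hQ : ∀ (f : ι → LaurentSeries ℚ) (φ : L →ₗ[ℚ] ℚ) (n : ℤ),
      (MvPolynomial.aeval f (∑ d ∈ P.support, MvPolynomial.monomial d (φ (P.coeff d)))).coeff n
        = φ ((MvPolynomial.aeval (fun i => coeffEmb L (f i)) P).coeff n) := fun f φ n => by
    rw [hL, map_sum, map_sum, HahnSeries.coeff_sum]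
    refine Finset.sum_congr rfl fun d _ => ?_
    rw [MvPolynomial.aeval_monomial, algebraMap_apply_eq_single, HahnSeries.coeff_single_zero_mul,
      mul_comm (P.coeff d), ← Algebra.smul_def, map_smul, smul_eq_mul, mul_comm]
  ext n
  refine (Module.forall_dual_apply_eq_zero_iff ℚ _).mp fun φ => ?_
  rw [← hQ, h _ (by ext m; rw [hQ, hP]; simp)]
  rfl

/-- If a relation-preserving permutation of rational series is an involution, relations over any
field are preserved in both directions. -/
theorem aeval_coeffEmb_perm_iff {ι L : Type*} [Field L] [Algebra ℚ L]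
    (g : ι → LaurentSeries ℚ) (e : ι → ι) (he : ∀ i, e (e i) = i)
    (h : ∀ P : MvPolynomial ι ℚ, MvPolynomial.aeval g P = 0 →
      MvPolynomial.aeval (fun i => g (e i)) P = 0) (P : MvPolynomial ι L) :
    MvPolynomial.aeval (fun i => coeffEmb L (g i)) P = 0 ↔
      MvPolynomial.aeval (fun i => coeffEmb L (g (e i))) P = 0 := by
  refine ⟨aeval_coeffEmb_eq_zero h, fun hP => ?_⟩
  refine aeval_coeffEmb_eq_zero (g := fun i => g (e i)) (g' := g) (fun Q hQ => ?_) hP
  have h2 := h (MvPolynomial.rename e Q) (by rw [MvPolynomial.aeval_rename]; exact hQ)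
  rw [MvPolynomial.aeval_rename] at h2
  simpa [Function.comp_def, he] using h2

/-- A map of generators respecting relations extends to the field they generate. -/
theorem exists_algHom_adjoin {K E E' ι : Type*} [Field K] [Field E] [Field E'] [Algebra K E]
    [Algebra K E'] (g : ι → E) (g' : ι → E')
    (h : ∀ P : MvPolynomial ι K, MvPolynomial.aeval g P = 0 ↔ MvPolynomial.aeval g' P = 0) :
    ∃ φ : IntermediateField.adjoin K (Set.range g) →ₐ[K] E',
      ∀ i, φ ⟨g i, IntermediateField.subset_adjoin K _ ⟨i, rfl⟩⟩ = g' i := by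
  let a := MvPolynomial.aeval (R := K) g
  let a' := MvPolynomial.aeval (R := K) g'
  let S := Algebra.adjoin K (Set.range g)
  have hS : ∀ x : S, ∃ P, a P = (x : E) := fun x => by
    have hx : (x : E) ∈ a.range :=
      (Algebra.adjoin_range_eq_range_aeval K g) ▸ x.2
    exact hx
  choose pre hpre using hS
  have heq : ∀ P Q, a P = a Q → a' P = a' Q := fun P Q hPQ => sub_eq_zero.mp <| by
    rw [← map_sub]; exact (h _).mp (by rw [map_sub, sub_eq_zero]; exact hPQ)
  let ψ : S →ₐ[K] E' :=
    { toFun := fun x => a' (pre x)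
      map_one' := by
        rw [heq _ 1 (by rw [hpre, map_one]; rfl), map_one]
      map_mul' := fun x y => by
        rw [heq _ (pre x * pre y) (by rw [hpre, map_mul, hpre, hpre]; rfl), map_mul]
      map_zero' := by
        rw [heq _ 0 (by rw [hpre, map_zero]; rfl), map_zero]
      map_add' := fun x y => by
        rw [heq _ (pre x + pre y) (by rw [hpre, map_add, hpre, hpre]; rfl), map_add]
      commutes' := fun c => by
        rw [heq _ (algebraMap K _ c) (by rw [hpre, AlgHom.commutes]; rfl), AlgHom.commutes] }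
  have hinj : Function.Injective ψ := by
    refine (injective_iff_map_eq_zero ψ).mpr fun x hx => Subtype.ext ?_
    rw [← hpre x]
    exact (h _).mpr hx
  open IntermediateField.algebraAdjoinAdjoin in
  refine ⟨IsFractionRing.liftAlgHom hinj, fun i => ?_⟩
  open IntermediateField.algebraAdjoinAdjoin in
  have := IsFractionRing.lift_algebraMap (K := IntermediateField.adjoin K (Set.range g)) hinj
    (⟨g i, Algebra.subset_adjoin ⟨i, rfl⟩⟩ : S)
  refine this.trans ?_
  show a' (pre _) = g' i
  rw [heq _ (MvPolynomial.X i) (by rw [hpre]; exact (MvPolynomial.aeval_X g i).symm)]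
  exact MvPolynomial.aeval_X g' i

theorem eq_of_eqOn_laurentBaseChange {L E : Type*} [Field L] [Algebra ℚ L] [Field E] [Algebra L E]
    (F₀ : IntermediateField ℚ (LaurentSeries ℚ)) {S : Set (LaurentSeries ℚ)}
    (hF : F₀ = IntermediateField.adjoin ℚ S) (f f' : laurentBaseChange L F₀ →ₐ[L] E)
    (h : ∀ x (hx : x ∈ S), f ⟨coeffEmb L x, coeffEmb_mem_laurentBaseChange L
          (hF ▸ IntermediateField.subset_adjoin ℚ S hx)⟩
      = f' ⟨coeffEmb L x, coeffEmb_mem_laurentBaseChange L
          (hF ▸ IntermediateField.subset_adjoin ℚ S hx)⟩) : f = f' := by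
  have key : ∀ z : LaurentSeries L, z ∈ laurentBaseChange L F₀ →
      ∀ hz : z ∈ laurentBaseChange L F₀, f ⟨z, hz⟩ = f' ⟨z, hz⟩ := by
    intro z hz
    have hz' : z ∈ IntermediateField.adjoin L (⇑(coeffEmb L) '' S) := by
      refine (IntermediateField.adjoin_le_iff.mpr ?_) hz
      rintro _ ⟨y, hy, rfl⟩
      subst hF
      exact FermatLib.Modular.Corr.coeffEmb_mem_adjoin_image hy
    clear hz
    induction hz' using IntermediateField.adjoin_induction with
    | mem y hy =>
        obtain ⟨x, hx, rfl⟩ := hy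
        exact fun _ => h x hx
    | algebraMap c =>
        intro _
        exact (f.commutes c).trans (f'.commutes c).symm
    | add y z hy hz ihy ihz =>
        have hle : IntermediateField.adjoin L (⇑(coeffEmb L) '' S) ≤ laurentBaseChange L F₀ := by
          rw [IntermediateField.adjoin_le_iff]
          rintro _ ⟨x, hx, rfl⟩
          exact coeffEmb_mem_laurentBaseChange L (hF ▸ IntermediateField.subset_adjoin ℚ S hx)
        intro _
        have e := congrArg₂ (· + ·) (ihy (hle hy)) (ihz (hle hz))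
        simp only [← map_add] at e
        exact e
    | inv y hy ihy =>
        have hle : IntermediateField.adjoin L (⇑(coeffEmb L) '' S) ≤ laurentBaseChange L F₀ := by
          rw [IntermediateField.adjoin_le_iff]
          rintro _ ⟨x, hx, rfl⟩
          exact coeffEmb_mem_laurentBaseChange L (hF ▸ IntermediateField.subset_adjoin ℚ S hx)
        intro _
        have e := congrArg (·⁻¹) (ihy (hle hy))
        simp only [← map_inv₀] at e
        exact e
    | mul y z hy hz ihy ihz =>
        have hle : IntermediateField.adjoin L (⇑(coeffEmb L) '' S) ≤ laurentBaseChange L F₀ := by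
          rw [IntermediateField.adjoin_le_iff]
          rintro _ ⟨x, hx, rfl⟩
          exact coeffEmb_mem_laurentBaseChange L (hF ▸ IntermediateField.subset_adjoin ℚ S hx)
        intro _
        have e := congrArg₂ (· * ·) (ihy (hle hy)) (ihz (hle hz))
        simp only [← map_mul] at e
        exact e
  exact AlgHom.ext fun z => key z z.2 z.2

set_option maxHeartbeats 1000000 in
/-- The Atkin-Lehner swap at a prime not dividing the level. -/
theorem nonempty_heckeSwap (L : Type*) [Field L] [Algebra ℚ L] (N ℓ : ℕ) [NeZero N]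
    [hℓ : Fact ℓ.Prime] (hℓN : ¬ ℓ ∣ N) : Nonempty (HeckeSwap L N ℓ) := by
  have hco : Nat.Coprime ℓ N := hℓ.out.coprime_iff_not_dvd.mpr hℓN
  let g : SwapIndex N → LaurentSeries L := fun i => coeffEmb L (swapGen N ℓ i)
  let g' : SwapIndex N → LaurentSeries L := fun i => coeffEmb L (swapGen N ℓ i.swap)
  have hrel : ∀ P : MvPolynomial (SwapIndex N) L,
      MvPolynomial.aeval g P = 0 ↔ MvPolynomial.aeval g' P = 0 :=
    aeval_coeffEmb_perm_iff (swapGen N ℓ) Sum.swap Sum.swap_swap
      (fun Q => aeval_swapGen_swap hco Q)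
  obtain ⟨φ, hφ⟩ := exists_algHom_adjoin g g' hrel
  have hle : laurentBaseChange L (modularFunctionFieldFull (N * ℓ))
      ≤ IntermediateField.adjoin L (Set.range g) := by
    rw [laurentBaseChange, IntermediateField.adjoin_le_iff]
    rintro _ ⟨y, hy, rfl⟩
    have hsub : divisorExpansions (N * ℓ) ⊆ Set.range (swapGen N ℓ) := by
      rintro _ ⟨d, hd0, hd, rfl⟩
      rcases (Nat.coprime_or_dvd_of_prime hℓ.out d) with hc | hc
      · exact ⟨Sum.inl ⟨d, hc.symm.dvd_of_dvd_mul_right hd⟩, qExpand_congr rfl _⟩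
      · obtain ⟨e, rfl⟩ := hc
        refine ⟨Sum.inr ⟨e, Nat.dvd_of_mul_dvd_mul_left hℓ.out.pos (by rwa [mul_comm N] at hd)⟩, ?_⟩
        haveI : NeZero (e * ℓ) := ⟨fun h => NeZero.ne (ℓ * e) (by rw [mul_comm, h])⟩
        exact qExpand_congr (mul_comm e ℓ) _
    refine IntermediateField.adjoin.mono L _ _ ?_
      (FermatLib.Modular.Corr.coeffEmb_mem_adjoin_image
        (S := Set.range (swapGen N ℓ)) (IntermediateField.adjoin.mono ℚ _ _ hsub hy))
    rintro _ ⟨_, ⟨i, rfl⟩, rfl⟩
    exact ⟨i, rfl⟩
  let T := φ.comp (IntermediateField.inclusion hle)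
  have hT : ∀ i (hm : g i ∈ laurentBaseChange L (modularFunctionFieldFull (N * ℓ))),
      T ⟨g i, hm⟩ = g' i := fun i _ => hφ i
  refine ⟨⟨T, fun f => ?_, fun f => ?_⟩⟩
  · refine DFunLike.congr_fun (eq_of_eqOn_laurentBaseChange (E := LaurentSeries L)
      (modularFunctionFieldFull N) (S := divisorExpansions N) rfl
      (T.comp (heckeAlphaBar L N ℓ))
      ((FermatLib.Modular.Corr.qExpandBar L ℓ).comp
        (laurentBaseChange L (modularFunctionFieldFull N)).val) ?_) f
    rintro _ ⟨d, hd0, hd, rfl⟩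
    show T (heckeAlphaBar L N ℓ _) = qExpand L ℓ (coeffEmb L (qExpand ℚ d jq))
    have e1 := hT (Sum.inl ⟨d, hd⟩) (coeffEmb_mem_laurentBaseChange L
      (jqd_mem_full (N * ℓ) (hd.trans (dvd_mul_right N ℓ))))
    refine (Eq.trans ?_ e1).trans ?_
    · exact congrArg T (Subtype.ext (coe_heckeAlphaBar N ℓ _))
    · haveI : NeZero (ℓ * d) := ⟨mul_ne_zero (NeZero.ne ℓ) (NeZero.ne d)⟩
      rw [← FermatLib.Modular.Corr.coeffEmb_qExpand, qExpand_qExpand]
      exact congrArg (coeffEmb L) (qExpand_congr (mul_comm d ℓ) _)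
  · refine DFunLike.congr_fun (eq_of_eqOn_laurentBaseChange (E := LaurentSeries L)
      (modularFunctionFieldFull N) (S := divisorExpansions N) rfl
      (T.comp (heckeBetaBar L N ℓ))
      (laurentBaseChange L (modularFunctionFieldFull N)).val ?_) f
    rintro _ ⟨d, hd0, hd, rfl⟩
    show T (heckeBetaBar L N ℓ _) = coeffEmb L (qExpand ℚ d jq)
    haveI : NeZero (ℓ * d) := ⟨mul_ne_zero (NeZero.ne ℓ) (NeZero.ne d)⟩
    haveI : NeZero (d * ℓ) := ⟨mul_ne_zero (NeZero.ne d) (NeZero.ne ℓ)⟩
    have e1 := hT (Sum.inr ⟨d, hd⟩) (coeffEmb_mem_laurentBaseChange L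
      (jqd_mem_full (N * ℓ) (mul_dvd_mul_right hd ℓ)))
    refine Eq.trans ?_ e1
    refine congrArg T (Subtype.ext ?_)
    refine (coe_heckeBetaBar N ℓ _).trans ?_
    show qExpand L ℓ (coeffEmb L (qExpand ℚ d jq)) = coeffEmb L (qExpand ℚ (d * ℓ) jq)
    rw [← FermatLib.Modular.Corr.coeffEmb_qExpand, qExpand_qExpand]
    exact congrArg (coeffEmb L) (qExpand_congr (mul_comm ℓ d) _)

end FermatLib.Igusa
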