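import Fermat.Agent.Igusa.CongruenceDivisor
import Fermat.Agent.Igusa.HeckeSwapExists
import Fermat.Agent.Modular.CorrFacts
import Fermat.Agent.Curve.WeilDuality
import Fermat.Prelude.Def_HeckeGalois_EichlerShimura

/-!
Galois equivariance of the reduction map on `J₀(N)` and the Eichler-Shimura relation.
-/

set_option autoImplicit false
set_option linter.style.haveILetI false
set_option synthInstance.maxHeartbeats 400000

noncomputable section

open ModularCurve AlgebraicCurve

namespace FermatLib.Igusa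

section General

variable {K F : Type*} [Field K] [Field F] [Algebra K F] [HasPrincipalDivisors K F]

theorem degree_eq_zero_of_mem_principal {E : Divisor K F}
    (hE : E ∈ Divisor.principal (K := K) (F := F)) : Divisor.degree E = 0 := by
  obtain ⟨f, hf, hEf⟩ := hE
  obtain ⟨D, hD, hD0⟩ := HasPrincipalDivisors.exists_divisor (K := K) f hf
  rwa [show E = D from Finsupp.ext fun v => (hEf v).trans (hD v).symm]

theorem riemannInequalityAt_of_equation (h : FermatLib.Curve.RiemannEquation K F) :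
    RiemannInequalityAt K F (genusFF K F) := by
  intro D hD
  haveI := h.finite_space D
  have hpos : 0 < Module.finrank K ↥(riemannRochSpace D) := by
    have := h.eq D
    omega
  haveI := Module.nontrivial_of_finrank_pos hpos
  obtain ⟨⟨f, hf⟩, hne⟩ := exists_ne (0 : ↥(riemannRochSpace D))
  have hf0 : f ≠ 0 := fun h0 => hne (Subtype.ext h0)
  obtain ⟨E, hE, -⟩ := HasPrincipalDivisors.exists_divisor (K := K) f hf0
  refine ⟨E, ⟨f, hf0, hE⟩, fun v => ?_⟩
  rcases FermatLib.Curve.mem_ordGE.mp ((FermatLib.Curve.mem_riemannRochSpace.mp hf) v) with h0 | h0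
  · exact absurd h0 hf0
  · rw [hE]; omega

end General

local notation "Qbar" => AlgebraicClosure ℚ

variable {A : ValuationSubring Qbar}

/-- The automorphism of the residue field induced by an element of the decomposition group. -/
def residueAut (A : ValuationSubring Qbar) (σ : Qbar ≃ₐ[ℚ] Qbar)
    (hσ : σ ∈ A.decompositionSubgroup ℚ) :
    IsLocalRing.ResidueField A ≃+* IsLocalRing.ResidueField A :=
  MulSemiringAction.toRingEquiv (A.decompositionSubgroup ℚ) _ ⟨σ, hσ⟩

theorem apply_mem_of_mem_decompositionSubgroup {σ : Qbar ≃ₐ[ℚ] Qbar}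
    (hσ : σ ∈ A.decompositionSubgroup ℚ) (a : A) : σ (a : Qbar) ∈ A :=
  ((⟨σ, hσ⟩ : A.decompositionSubgroup ℚ) • a).2

theorem residueAut_residue {σ : Qbar ≃ₐ[ℚ] Qbar} (hσ : σ ∈ A.decompositionSubgroup ℚ) (a : A) :
    residueAut A σ hσ (IsLocalRing.residue A a)
      = IsLocalRing.residue A ⟨σ (a : Qbar), apply_mem_of_mem_decompositionSubgroup hσ a⟩ :=
  (IsLocalRing.ResidueField.residue_smul (A.decompositionSubgroup ℚ)
    (⟨σ, hσ⟩ : A.decompositionSubgroup ℚ) a).symm

theorem charP_residue_place {ℓ : ℕ} (hℓ : ℓ.Prime) (hA : A.LiesOverPrime ℓ) :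
    CharP (IsLocalRing.ResidueField A) ℓ := by
  refine CharP.charP_iff_prime_eq_zero hℓ |>.mpr ?_
  rw [← map_natCast (IsLocalRing.residue A) ℓ, IsLocalRing.residue_eq_zero_iff]
  exact ValuationSubring.coe_mem_nonunits_iff.mp hA

variable {N : ℕ} [NeZero N]

theorem curveFacts_deg (v : Place Qbar (modularFunctionFieldBar N)) : v.deg = 1 :=
  (FermatLib.Modular.Corr.curveFacts Qbar).deg_eq_one N v

set_option maxHeartbeats 1000000 in
/-- The reduction map is equivariant for the decomposition group. -/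
theorem reductionModL_galois_smul {g : ℕ}
    (hR : RiemannInequalityAt Qbar (modularFunctionFieldBar N) g)
    (h : ReductionInputsModL A N) (σ : Qbar ≃ₐ[ℚ] Qbar) (hσ : σ ∈ A.decompositionSubgroup ℚ)
    (x : JZero N) :
    reductionModL A N (σ • x)
      = residueSemilinear N (residueAut A σ hσ) • reductionModL A N x := by
  haveI := (FermatLib.Modular.Corr.curveFacts Qbar).hasPrincipalDivisors N
  obtain ⟨D, rfl⟩ := Pic0.mk_surjective x
  rw [galois_smul_pic0_def, SemilinearAut.pic0_smul_mk, reductionModL_mk h, reductionModL_mk h,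
    SemilinearAut.pic0_smul_mk]
  refine congrArg Pic0.mk (Subtype.ext ?_)
  exact reductionDivAlong_galois (isPlaceReductionModL_placeReductionModL h) h.choose_spec.2
    curveFacts_deg (fun E hE => degree_eq_zero_of_mem_principal hE) hR σ
    (apply_mem_of_mem_decompositionSubgroup hσ) _ (fun a => (residueAut_residue hσ a).symm) D D.2

theorem finrankAlong_heckeAlphaBar {ℓ : ℕ} [hℓ : Fact ℓ.Prime] (hℓN : ¬ ℓ ∣ N) :
    finrankAlong Qbar (heckeAlphaBar Qbar N ℓ) = ℓ + 1 := by
  haveI : NeZero (N * ℓ) := ⟨mul_ne_zero (NeZero.ne N) hℓ.out.ne_zero⟩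
  have h := FermatLib.Modular.Corr.finrankAlong_barIncl_mul (L := Qbar) (M := N) (M' := N * ℓ)
    (FermatLib.Modular.Corr.levelFacts Qbar) (dvd_mul_right N ℓ)
  rw [FermatLib.Modular.Corr.dedekindPsi_mul_prime N hℓ.out, if_neg hℓN,
    ← FermatLib.Modular.Corr.heckeAlphaBar_eq_barIncl] at h
  exact Nat.eq_of_mul_eq_mul_right (FermatLib.Modular.Corr.dedekindPsi_pos' N) h

set_option maxHeartbeats 1000000 in
/-- The Eichler-Shimura relation `red (F² x - T_ℓ F x + ℓ x) = 0`. -/
theorem reductionModL_eichlerShimura {g : ℕ}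
    (hR : RiemannInequalityAt Qbar (modularFunctionFieldBar N) g)
    (h : ReductionInputsModL A N) {ℓ : ℕ} (hℓ : ℓ.Prime) (hℓN : ¬ ℓ ∣ N)
    (hA : A.LiesOverPrime ℓ) (σ : Qbar ≃ₐ[ℚ] Qbar) (hσ : A.IsFrobeniusAt σ ℓ) (x : JZero N) :
    reductionModL A N (σ • σ • x - heckeOperatorBar N ⟨ℓ, hℓ⟩ (σ • x) + ℓ • x) = 0 := by
  haveI : Fact ℓ.Prime := ⟨hℓ⟩
  haveI := charP_residue_place hℓ hA
  haveI := (FermatLib.Modular.Corr.curveFacts Qbar).hasPrincipalDivisors N
  set τ := residueAut A σ hσ.mem_decompositionSubgroup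
  set gτ := residueSemilinear N τ
  have hτ : ∀ y, τ y = y ^ ℓ := hσ.smul_residue_eq
  have hT : ∀ y : JZero N, reductionModL A N (heckeOperatorBar N ⟨ℓ, hℓ⟩ y)
      = gτ • reductionModL A N y + (ℓ : ℤ) • (gτ⁻¹ • reductionModL A N y) := by
    intro y
    obtain ⟨W⟩ := nonempty_heckeSwap Qbar N ℓ hℓN
    obtain ⟨hα, hβ, hP, hfin, hFI, hN⟩ := FermatLib.Modular.heckeInputsAlong Qbar N ℓ
    haveI := hP
    obtain ⟨D, rfl⟩ := Pic0.mk_surjective y
    show reductionModL A N (heckeOperatorAlong Qbar N ℓ (Pic0.mk D)) = _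
    rw [heckeOperatorAlong_eq hα hβ hFI hfin hN]
    refine (congrArg (reductionModL A N)
      (Pic0.correspondence_mk _ _ hβ hα hFI hfin hN D)).trans ?_
    rw [reductionModL_mk h, reductionModL_mk h, SemilinearAut.pic0_smul_mk,
      SemilinearAut.pic0_smul_mk]
    refine congrArg Pic0.mk (Subtype.ext ?_)
    exact reductionDivAlong_heckeDivBar (isPlaceReductionModL_placeReductionModL h)
      h.choose_spec.2 curveFacts_deg (fun E hE => degree_eq_zero_of_mem_principal hE) hR
      hα hβ hFI hfin hN W (finrankAlong_heckeAlphaBar hℓN) τ hτ D D.2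
  rw [map_add, map_sub, map_nsmul, hT, reductionModL_galois_smul hR h σ hσ.mem_decompositionSubgroup,
    reductionModL_galois_smul hR h σ hσ.mem_decompositionSubgroup]
  show gτ • gτ • _ - (gτ • gτ • _ + (ℓ : ℤ) • (gτ⁻¹ • gτ • _)) + ℓ • _ = 0
  rw [inv_smul_smul, natCast_zsmul]
  abel

/-- Inertia acts trivially after reduction. -/
theorem reductionModL_inertia_smul {g : ℕ}
    (hR : RiemannInequalityAt Qbar (modularFunctionFieldBar N) g)
    (h : ReductionInputsModL A N) (σ : Qbar ≃ₐ[ℚ] Qbar) (hσ : σ ∈ A.inertiaSubgroupIn ℚ)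
    (x : JZero N) : reductionModL A N (σ • x) = reductionModL A N x := by
  obtain ⟨⟨σ', hσ'⟩, hker, rfl⟩ := hσ
  have hone : residueAut A σ' hσ' = 1 := RingEquiv.ext fun y =>
    DFunLike.congr_fun (MonoidHom.mem_ker.mp hker) y
  show reductionModL A N (σ' • x) = _
  rw [reductionModL_galois_smul hR h σ' hσ', hone, residueSemilinear_one, one_smul]

theorem reductionModL_decomposition_smul_eq_zero {g : ℕ}
    (hR : RiemannInequalityAt Qbar (modularFunctionFieldBar N) g)
    (h : ReductionInputsModL A N) (σ : Qbar ≃ₐ[ℚ] Qbar) (hσ : σ ∈ A.decompositionSubgroup ℚ)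
    {x : JZero N} (hx : reductionModL A N x = 0) : reductionModL A N (σ • x) = 0 := by
  rw [reductionModL_galois_smul hR h σ hσ, hx]
  exact smul_zero (A := JZeroC (IsLocalRing.ResidueField A) N) (residueSemilinear N (residueAut A σ hσ))

set_option maxHeartbeats 2000000 in
/-- The specialization demanded by `SpecializationExists`, from the reduction map. -/
theorem exists_isSpecialization {g : ℕ}
    (hR : RiemannInequalityAt Qbar (modularFunctionFieldBar N) g)
    (hcomm : HeckeOperatorsCommuteBar N) (p : ℕ) {ℓ : ℕ} (hℓ : ℓ.Prime) (hℓN : ¬ ℓ ∣ N)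
    (hA : A.LiesOverPrime ℓ) (h : ReductionInputsModL A N)
    (hinj : ∀ x : JZero N, (∃ n : ℕ, p ^ n • x = 0) → reductionModL A N x = 0 → x = 0)
    (σ₀ : Qbar ≃ₐ[ℚ] Qbar) (hσ₀ : A.IsFrobeniusAt σ₀ ℓ) :
    letI := heckeModuleBar N
    ∀ (_ : SMulCommClass (Qbar ≃ₐ[ℚ] Qbar) HeckeAlg (JZero N)),
      ∃ (J' : Type) (_ : AddCommGroup J') (_ : Module HeckeAlg J') (sp : JZero N →+ J')
        (F : J' →+ J'),
        IsSpecialization (K := ℚ) p (JZero N) J' A ℓ sp F ∧
          SpecialFibreRelation J' ℓ hℓ F := by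
  letI := heckeModuleBar N
  intro hsc
  let red := reductionModL A N
  let Z : Submodule HeckeAlg (JZero N) :=
    { carrier := {x | ∀ t : HeckeAlg, red (t • x) = 0}
      zero_mem' := fun t => by rw [smul_zero, map_zero]
      add_mem' := fun hx hy t => by rw [smul_add, map_add, hx, hy, add_zero]
      smul_mem' := fun c x hx t => by rw [← mul_smul]; exact hx _ }
  have hZ : ∀ x, x ∈ Z ↔ ∀ t : HeckeAlg, red (t • x) = 0 := fun _ => Iff.rfl
  let φ : JZero N →ₗ[HeckeAlg] JZero N :=
    { toFun := fun x => σ₀ • x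
      map_add' := smul_add σ₀
      map_smul' := fun t x => smul_comm σ₀ t x }
  have hφ : Z ≤ Z.comap φ := fun x hx t => by
    show red (t • σ₀ • x) = 0
    rw [← smul_comm σ₀ t x]
    exact reductionModL_decomposition_smul_eq_zero hR h σ₀ hσ₀.mem_decompositionSubgroup (hx t)
  refine ⟨JZero N ⧸ Z, inferInstance, inferInstance, Z.mkQ.toAddMonoidHom,
    (Z.mapQ Z φ hφ).toAddMonoidHom, ⟨fun t x => map_smul Z.mkQ t x, ?_, ?_, ?_⟩, ?_⟩
  · intro σ hσ x
    refine (Submodule.Quotient.eq Z).mpr fun t => ?_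
    rw [smul_sub, map_sub, ← smul_comm σ t x, sub_eq_zero]
    exact reductionModL_inertia_smul hR h σ hσ _
  · intro σ hσ x
    refine (Submodule.Quotient.eq Z).mpr fun t => ?_
    show red (t • (σ • x - σ₀ • x)) = 0
    rw [smul_sub, map_sub, ← smul_comm σ t x, ← smul_comm σ₀ t x, sub_eq_zero]
    show reductionModL A N _ = reductionModL A N _
    rw [reductionModL_galois_smul hR h σ hσ.mem_decompositionSubgroup,
      reductionModL_galois_smul hR h σ₀ hσ₀.mem_decompositionSubgroup]
    congr 2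
    exact RingEquiv.ext fun y => (hσ.smul_residue_eq y).trans (hσ₀.smul_residue_eq y).symm
  · intro x hx h0
    refine hinj x hx ?_
    have := (Submodule.Quotient.mk_eq_zero Z).mp h0 1
    rwa [one_smul] at this
  · intro y
    obtain ⟨x, rfl⟩ := Z.mkQ_surjective y
    show Z.mkQ (φ (φ x)) - heckeGen ⟨ℓ, hℓ⟩ • Z.mkQ (φ x) + ℓ • Z.mkQ x = 0
    rw [← map_smul, ← map_sub, ← map_nsmul, ← map_add]
    refine (Submodule.Quotient.mk_eq_zero Z).mpr fun t => ?_
    rw [smul_add, smul_sub, smul_comm t ℓ x, ← mul_smul, mul_comm t, mul_smul]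
    have e : ∀ z, t • φ z = σ₀ • (t • z) := fun z => (smul_comm σ₀ t z).symm
    rw [e, e]
    refine Eq.trans ?_ (reductionModL_eichlerShimura hR h hℓ hℓN hA σ₀ hσ₀ (t • x))
    exact congrArg (fun z => red (σ₀ • σ₀ • t • x - z + ℓ • t • x))
      (heckeModuleBar_heckeGen_smul hcomm _ (σ₀ • t • x))

end FermatLib.Igusa
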