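import Fermat.Prelude.Def_ModularCurve_ArithmeticGalois
import Fermat.Prelude.Def_FLTPrelim_Ramification
import Fermat.Agent.Igusa.MonoModular
import Fermat.Agent.Igusa.MonoTopLift
import Fermat.Agent.Igusa.MonoTopTop2

/-!
Inertia at a prime `q` exactly dividing the level acts unipotently, of order two, on the torsion
of `J₀(q M)` of order prime to `q`.
-/

set_option autoImplicit false
set_option linter.style.haveILetI false
set_option synthInstance.maxHeartbeats 400000

noncomputable section

open AlgebraicCurve ModularCurve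

namespace FermatLib.Igusa.Mono

/-- For `q ∤ M` and `σ, τ` in inertia at a place over `q`, `(τ - 1)(σ - 1)` kills the torsion of
`J₀(q M)` of order prime to `q`. -/
theorem inertia_smul_smul_sub_eq {q : ℕ} [Fact q.Prime] {M : ℕ} [NeZero M] (hqM : ¬ q ∣ M)
    (A : ValuationSubring (AlgebraicClosure ℚ)) (hA : A.LiesOverPrime q)
    {σ τ : AlgebraicClosure ℚ ≃ₐ[ℚ] AlgebraicClosure ℚ}
    (hσ : σ ∈ A.inertiaSubgroupIn ℚ) (hτ : τ ∈ A.inertiaSubgroupIn ℚ)
    {d : ℕ} (hd : 1 ≤ d) (hdq : ¬ q ∣ d) (x : JZero (q * M)) (hx : (d : ℤ) • x = 0) :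
    τ • (σ • x - x) = σ • x - x := by
  haveI := monoResidue_charP hA
  haveI : NeZero q := ⟨(Fact.out : q.Prime).ne_zero⟩
  refine inertia_smul_smul_sub_eq_of_datum hA
    (monoDatum hqM hA (mono_lift_exists hqM hA) (mono_top_exists hqM hA))
    (fun ρ hρ => fixes_of_inertia (arithmeticGalois_smul_jFq (q := q) (M := M) ρ)
      (fun _ ha => monoSheetInf_inertia_fixes hqM hA hρ ha)
      (fun _ ha => monoSheetZero_inertia_fixes hqM hA hρ ha))
    hσ hτ hd hdq x hx

end FermatLib.Igusa.Mono
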