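import Fermat.Agent.Galois.TransferHecke
import Fermat.Agent.Galois.TransferCyclo
import Fermat.Agent.Galois.FrobeniusDensity
import Fermat.Agent.Galois.NewformRepDet
import Fermat.Agent.Galois.NewformRepCore
import Fermat.Agent.Igusa.MonoInertia
import Fermat.Prelude.Def_GaloisRep_LocalConditions

/-!
# Transfer of unipotent inertia at `q` to a Hecke–Galois datum

If every inertia element `σ` at `q` satisfies `(σ - 1)² = 0` on the `p`-power torsion of `J₀(N)`,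
then it satisfies it in the representation of a datum; its determinant is one, so its
characteristic polynomial is `(X - 1)²`.
-/

set_option autoImplicit false

open Polynomial ModularCurve CuspForm

namespace FermatLib.Igusa.Mono

local notation "Qbar" => AlgebraicClosure ℚ
local notation "Γℚ" => (AlgebraicClosure ℚ ≃ₐ[ℚ] AlgebraicClosure ℚ)

section Det

variable {O : Type} [CommRing O] [IsLocalRing O] [IsNoetherianRing O]

/-- With cyclotomic determinant at good Frobenius elements, inertia at `q ≠ p` has determinant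
one. -/
theorem det_eq_one_of_mem_inertia {p : ℕ} (hp : p.Prime)
    (hpO : (p : O) ∈ IsLocalRing.maximalIdeal O) (ρ : GaloisRepAdic O) (T : Finset ℕ)
    (hgood : ∀ ℓ : ℕ, ℓ.Prime → ℓ ∉ T → ∀ A : ValuationSubring Qbar, A.LiesOverPrime ℓ →
      ∀ σ : Γℚ, A.IsFrobeniusAt σ ℓ → LinearMap.det (ρ.ρ σ) = (ℓ : O))
    {q : ℕ} (hq : q.Prime) (hqp : q ≠ p) {A : ValuationSubring Qbar} (hA : A.LiesOverPrime q)
    {σ : Γℚ} (hσ : σ ∈ A.inertiaSubgroupIn ℚ) :
    LinearMap.det (ρ.ρ σ) = 1 := by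
  rw [← sub_eq_zero]
  have key : ∀ n : ℕ, LinearMap.det (ρ.ρ σ) - 1 ∈ IsLocalRing.maximalIdeal O ^ n := by
    intro n
    obtain ⟨L, hL, hcont⟩ := ρ.isAdicContinuous n
    have hpn : p ^ n ≠ 0 := pow_ne_zero n hp.ne_zero
    have : NeZero (p ^ n) := ⟨hpn⟩
    have : NeZero ((p ^ n : ℕ) : Qbar) := ⟨Nat.cast_ne_zero.mpr hpn⟩
    obtain ⟨ζ, hζ⟩ : ∃ ζ : Qbar, IsPrimitiveRoot ζ (p ^ n) :=
      HasEnoughRootsOfUnity.exists_primitiveRoot _ _
    have := hL
    have : FiniteDimensional ℚ (IntermediateField.adjoin ℚ {ζ}) :=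
      IntermediateField.adjoin.finiteDimensional
        ((AlgebraicClosure.isAlgebraic ℚ).isAlgebraic ζ).isIntegral
    let L' : IntermediateField ℚ Qbar := L ⊔ IntermediateField.adjoin ℚ {ζ}
    have : FiniteDimensional ℚ L' := IntermediateField.finiteDimensional_sup _ _
    obtain ⟨ℓ, hℓ, hℓT, B, hB, τ, hτ, -, b, -, hagree⟩ :=
      Galois.exists_isFrobeniusAt_agreeOn L' σ (insert p T)
    rw [Finset.mem_insert, not_or] at hℓT
    have hndvd : ∀ r : ℕ, r.Prime → r ≠ p → ¬ r ∣ p ^ n := fun r hr hne hdvd =>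
      hne ((Nat.prime_dvd_prime_iff_eq hr hp).mp (hr.dvd_of_dvd_pow hdvd))
    have hτζ : τ ζ = ζ ^ ℓ :=
      Galois.apply_eq_pow_of_isFrobeniusAt B hℓ hB (hndvd ℓ hℓ hℓT.1) hτ hζ
    have hτpow : ∀ k : ℕ, (τ ^ k) ζ = ζ ^ ℓ ^ k := by
      intro k
      induction k with
      | zero => simp
      | succ k ih => rw [pow_succ', AlgEquiv.mul_apply, ih, map_pow, hτζ, ← pow_mul, pow_succ']
    have h1 : ζ ^ ℓ ^ b = ζ := by
      rw [← hτpow, hagree ζ (le_sup_right (a := L) (IntermediateField.mem_adjoin_simple_self ℚ ζ))]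
      exact Galois.apply_eq_self_of_mem_inertia A hq hA (hndvd q hq hqp) hσ hζ
    have hcong : ((ℓ ^ b : ℕ) : O) - 1 ∈ IsLocalRing.maximalIdeal O ^ n := by
      nth_rw 2 [← pow_one ζ] at h1
      rw [(hζ.isOfFinOrder hpn).pow_eq_pow_iff_modEq, ← hζ.eq_orderOf] at h1
      obtain ⟨c, hc⟩ := Nat.modEq_iff_dvd.mp h1.symm
      have hcO := congrArg (Int.cast : ℤ → O) hc
      push_cast at hcO ⊢
      rw [hcO]
      exact Ideal.mul_mem_right _ _ (Ideal.pow_mem_pow hpO n)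
    have hfix : ∀ x ∈ L, ((τ ^ b)⁻¹ * σ) x = x := fun x hx => by
      rw [AlgEquiv.mul_apply, ← hagree x (le_sup_left (b := IntermediateField.adjoin ℚ {ζ}) hx),
        ← AlgEquiv.mul_apply, inv_mul_cancel, AlgEquiv.one_apply]
    have hdet1 : LinearMap.det (ρ.ρ ((τ ^ b)⁻¹ * σ)) - 1 ∈ IsLocalRing.maximalIdeal O ^ n :=
      Galois.s35_det_sub_one_mem _ _ (hcont _ hfix)
    have hsplit : LinearMap.det (ρ.ρ σ) =
        ((ℓ ^ b : ℕ) : O) * LinearMap.det (ρ.ρ ((τ ^ b)⁻¹ * σ)) := by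
      rw [Nat.cast_pow, ← hgood ℓ hℓ hℓT.2 B hB τ hτ, ← map_pow, ← map_pow, ← map_mul, ← map_mul,
        mul_inv_cancel_left]
    rw [hsplit, show ((ℓ ^ b : ℕ) : O) * LinearMap.det (ρ.ρ ((τ ^ b)⁻¹ * σ)) - 1 =
      ((ℓ ^ b : ℕ) : O) * (LinearMap.det (ρ.ρ ((τ ^ b)⁻¹ * σ)) - 1) + (((ℓ ^ b : ℕ) : O) - 1) by
      ring]
    exact Ideal.add_mem _ (Ideal.mul_mem_left _ _ hdet1) hcong
  have hinf : LinearMap.det (ρ.ρ σ) - 1 ∈ ⨅ n : ℕ, IsLocalRing.maximalIdeal O ^ n :=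
    Submodule.mem_iInf _ |>.mpr key
  rwa [Ideal.iInf_pow_eq_bot_of_isLocalRing _ (Ideal.IsMaximal.ne_top inferInstance),
    Ideal.mem_bot] at hinf

end Det

/-- A plane endomorphism with determinant one and `(f - 1)² = 0` has characteristic polynomial
`(X - 1)²`, over any commutative ring. -/
theorem charpoly_eq_of_det_one_of_sq_zero {R V : Type*} [CommRing R] [Nontrivial R]
    [AddCommGroup V] [Module R V] [Module.Free R V] [Module.Finite R V]
    (h2 : Module.finrank R V = 2) (f : Module.End R V) (hdet : LinearMap.det f = 1)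
    (hsq : (f - 1) * (f - 1) = 0) : LinearMap.charpoly f = (X - 1) ^ 2 := by
  have e := Galois.s35_charpoly_eq_of_finrank_eq_two h2 f
  have hch := LinearMap.aeval_self_charpoly f
  rw [e, hdet] at hch ⊢
  simp only [map_one, map_add, map_sub, map_mul, aeval_C, aeval_X, map_pow] at hch
  set t := LinearMap.trace R V f
  have hsq' : f ^ 2 - 2 * f + 1 = 0 := by
    rw [← hsq]; noncomm_ring
  have htf : (2 - t) • f = 0 := by
    have h := congrArg₂ (· - ·) hch hsq'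
    simp only [sub_zero] at h
    rw [← h, sub_smul, Algebra.algebraMap_eq_smul_one, smul_mul_assoc, one_mul, two_smul, two_mul]
    abel
  have hu : IsUnit f := ⟨⟨f, 2 - f, by
      rw [mul_sub, mul_two, ← sub_eq_zero, ← neg_eq_zero, ← hsq']; noncomm_ring, by
      rw [sub_mul, two_mul, ← sub_eq_zero, ← neg_eq_zero, ← hsq']; noncomm_ring⟩, rfl⟩
  obtain ⟨g, hg⟩ := hu.exists_right_inv
  have h1 : (2 - t) • (1 : Module.End R V) = 0 := by
    rw [← hg, ← smul_mul_assoc, htf, zero_mul]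
  have b : Module.Basis (Fin 2) R V := Module.finBasisOfFinrankEq R V h2
  have ht : 2 - t = 0 := by
    have := congrArg (fun v => b.repr v 0) (LinearMap.congr_fun h1 (b 0))
    simpa using this
  rw [← sub_eq_zero.mp ht, map_ofNat, map_one]
  ring

section Datum

variable {p N : ℕ} [NeZero N] {S : Finset ℕ} {𝒪 : Type} [CommRing 𝒪] [IsDomain 𝒪]
  [IsDiscreteValuationRing 𝒪] [IsAdicComplete (IsLocalRing.maximalIdeal 𝒪) 𝒪]
  {θ : CuspForm.heckeAlgebra N 2 (↑S : Set ℕ) →+* IsLocalRing.ResidueField 𝒪}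
  {T : Type} [CommRing T] [IsLocalRing T] [IsNoetherianRing T]
  [IsAdicComplete (IsLocalRing.maximalIdeal T) T] [Algebra 𝒪 T] [IsLocalHom (algebraMap 𝒪 T)]
  [Module.Finite 𝒪 T] [Module.Free 𝒪 T]

/-- The determinant of a datum at a good Frobenius. -/
theorem datum_det_frobenius (hNS : ∀ q : ℕ, q.Prime → q ∣ N → q ∈ S)
    (H : HeckeGaloisRepDatum N (↑S : Set ℕ) 𝒪 θ T) (ℓ : ℕ) (hℓ : ℓ.Prime) (hℓS : ℓ ∉ S)
    (A : ValuationSubring Qbar) (hA : A.LiesOverPrime ℓ) (σ : Γℚ) (hσ : A.IsFrobeniusAt σ ℓ) :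
    LinearMap.det (H.ρ.ρ σ) = (ℓ : T) := by
  have h := H.charpoly_frob ℓ hℓ (fun h => hℓS (hNS ℓ hℓ h)) hℓS A hA σ hσ
  rw [LinearMap.det_eq_sign_charpoly_coeff, H.ρ.finrank_eq, h]
  simp

/-- Order two unipotence on `J₀(N)[p^∞]` transfers to the datum. -/
theorem datum_isUnipotentOnInertiaAt (hp : p.Prime)
    (hp𝒪 : (p : 𝒪) ∈ IsLocalRing.maximalIdeal 𝒪) (hpS : p ∈ S)
    (hNS : ∀ q : ℕ, q.Prime → q ∣ N → q ∈ S) (hJ : Galois.TorsionGaloisInputs N p)
    (H : HeckeGaloisRepDatum N (↑S : Set ℕ) 𝒪 θ T) {q : ℕ} (hq : q.Prime) (hqp : q ≠ p)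
    (hmono : ∀ A : ValuationSubring Qbar, A.LiesOverPrime q → ∀ σ ∈ A.inertiaSubgroupIn ℚ,
      ∀ (k : ℕ) (x : JZero N), p ^ k • x = 0 → σ • (σ • x - x) = σ • x - x) :
    H.ρ.IsUnipotentOnInertiaAt q := by
  intro A hA σ hσ
  refine charpoly_eq_of_det_one_of_sq_zero H.ρ.finrank_eq _
    (det_eq_one_of_mem_inertia hp (Galois.natCast_mem_maximalIdeal_of_algebra hp𝒪) H.ρ S
      (datum_det_frobenius hNS H) hq hqp hA hσ) ?_
  refine LinearMap.ext fun v => ?_
  have : IsHausdorff (IsLocalRing.maximalIdeal T) H.ρ.V :=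
    IsHausdorff.of_le_jacobson _ _ (IsLocalRing.maximalIdeal_le_jacobson _)
  rw [LinearMap.zero_apply]
  refine IsHausdorff.haus this _ fun n => ?_
  rw [SModEq.zero]
  obtain ⟨k, hk⟩ := Galois.exists_level_transfer hp hp𝒪 hpS hNS hJ H _ ⟨n, le_rfl⟩
  have h := hk (ι := Fin 3) ![1, -1 + -1, 1] ![σ * σ, σ, 1] (fun x hx => by
    letI := heckeModuleBar N
    have e : σ • σ • x - σ • x = σ • x - x := by
      have e' := hmono A hA σ hσ k x hx
      rwa [smul_sub] at e'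
    simp only [Fin.sum_univ_three, Matrix.cons_val_zero, Matrix.cons_val_one, Matrix.cons_val,
      OneMemClass.coe_one, Subalgebra.coe_add, NegMemClass.coe_neg, one_smul, add_smul, neg_smul,
      mul_smul]
    rw [← sub_eq_zero] at e
    rw [← e]
    abel) v
  simp only [Fin.sum_univ_three, Matrix.cons_val_zero, Matrix.cons_val_one, Matrix.cons_val,
    map_one, map_add, map_neg, one_smul, add_smul, neg_smul, map_mul,
    Module.End.mul_apply, Module.End.one_apply] at h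
  convert h using 1
  simp only [Module.End.mul_apply, LinearMap.sub_apply, Module.End.one_apply, map_sub]
  abel

/-- **S34**, given the Galois and Hecke inputs on `J₀(N)`. -/
theorem datum_isUnipotentOnInertiaAt_of_exactly_dvd (hp : p.Prime)
    (hp𝒪 : (p : 𝒪) ∈ IsLocalRing.maximalIdeal 𝒪) (hpS : p ∈ S)
    (hNS : ∀ q : ℕ, q.Prime → q ∣ N → q ∈ S) (hJ : Galois.TorsionGaloisInputs N p)
    (H : HeckeGaloisRepDatum N (↑S : Set ℕ) 𝒪 θ T) {q : ℕ} (hq : q.Prime) (hqp : q ≠ p)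
    (hqN : q ∣ N) (hq2 : ¬ q ^ 2 ∣ N) : H.ρ.IsUnipotentOnInertiaAt q := by
  refine datum_isUnipotentOnInertiaAt hp hp𝒪 hpS hNS hJ H hq hqp ?_
  obtain ⟨M, rfl⟩ := hqN
  intro A hA σ hσ k x hx
  have : Fact q.Prime := ⟨hq⟩
  have : NeZero M := ⟨fun h => NeZero.ne (q * M) (by rw [h, mul_zero])⟩
  have hqM : ¬ q ∣ M := fun h => hq2 (by rw [pow_two]; exact Nat.mul_dvd_mul_left q h)
  exact inertia_smul_smul_sub_eq hqM A hA hσ hσ (d := p ^ k)
    (Nat.one_le_pow _ _ hp.pos)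
    (fun h => hqp ((Nat.prime_dvd_prime_iff_eq hq hp).mp (hq.dvd_of_dvd_pow h))) x
    (by rw [natCast_zsmul]; exact hx)

end Datum

end FermatLib.Igusa.Mono
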