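import Fermat.Agent.Igusa.PlaceReductionFunctorial
import Fermat.Agent.Igusa.EichlerShimuraModL
import Fermat.Agent.Igusa.ReductionInputs
import Fermat.Agent.Basic.FrobeniusExists
import Fermat.Agent.Modular.LaurentInstances

/-!
# Hecke equivariance of the reduction of `J₀(N)`

For `q ≠ ℓ` (also `q ∣ N`) the reduction intertwines `T_q` with the correspondence on the reduced
function fields; for `q = ℓ` it is the congruence relation. So the kernel of reduction is stable
under the Hecke algebra.
-/

set_option autoImplicit false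
set_option linter.style.haveILetI false
set_option synthInstance.maxHeartbeats 400000

noncomputable section

open ModularCurve AlgebraicCurve IntermediateField

namespace FermatLib.Igusa

open scoped FermatLib.LaurentInstances

section Degree

variable {K E : Type*} [Field K] [Field E] [Algebra K E]

/-- Degrees over `K(x)` are multiplicative in an inclusion. -/
theorem finrankAlong_mul_finrank_adjoin {A B : IntermediateField K E} (φ : A →ₐ[K] B) (hle : A ≤ B)
    (hφ : ∀ x, (φ x : E) = x) (x : A) (x' : B) (hx : (x : E) = x') :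
    finrankAlong K φ * Module.finrank K⟮x⟯ A = Module.finrank K⟮x'⟯ B := by
  rw [← Modular.Corr.relfinrank_adjoin_eq_finrank K x, ← Modular.Corr.relfinrank_adjoin_eq_finrank K x',
    Modular.Corr.finrankAlong_eq_relfinrank φ hle hφ, mul_comm, ← hx]
  exact relfinrank_mul_relfinrank (adjoin_simple_le_iff.mpr x.2) hle

end Degree

section Special

variable (k : Type*) [Field k] (N m : ℕ) [NeZero N] [NeZero m]

/-- The first degeneracy embedding of the reduced function fields. -/
def heckeAlphaModL :
    modularFunctionFieldFullC k N →ₐ[k] modularFunctionFieldFullC k (N * m) :=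
  haveI : NeZero (N * m) := ⟨mul_ne_zero (NeZero.ne N) (NeZero.ne m)⟩
  IntermediateField.inclusion (full_degeneracyC_le k (dvd_mul_right N m))

theorem coe_heckeAlphaModL (x : modularFunctionFieldFullC k N) :
    (heckeAlphaModL k N m x : LaurentSeries k) = x :=
  IntermediateField.coe_inclusion _ x

/-- The second degeneracy embedding `q ↦ q ^ m` of the reduced function fields. -/
def heckeBetaModL :
    modularFunctionFieldFullC k N →ₐ[k] modularFunctionFieldFullC k (N * m) :=
  ((qExpandAlgHomC k m).comp (modularFunctionFieldFullC k N).val).codRestrict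
    (modularFunctionFieldFullC k (N * m)).toSubalgebra
    (fun x => full_degeneracyC_map_le k N m ⟨x, x.2, rfl⟩)

omit [NeZero N] in
theorem coe_heckeBetaModL (x : modularFunctionFieldFullC k N) :
    (heckeBetaModL k N m x : LaurentSeries k) = qExpand k m x :=
  rfl

variable [IsAlgClosed k]
variable [FermatLib.Curve.IsFunctionField k (modularFunctionFieldFullC k N)]
variable [FermatLib.Curve.IsFunctionField k (modularFunctionFieldFullC k (N * m))]

omit [IsAlgClosed k] in
theorem isIntegral_heckeAlphaModL : (heckeAlphaModL k N m).toRingHom.IsIntegral :=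
  Curve.isIntegral_of_finiteAlong _ (Curve.finiteAlong _)

omit [NeZero N] [IsAlgClosed k] in
theorem isIntegral_heckeBetaModL : (heckeBetaModL k N m).toRingHom.IsIntegral :=
  Curve.isIntegral_of_finiteAlong _ (Curve.finiteAlong _)

/-- The Hecke correspondence `α_* β^*` of index `m` on the reduced Jacobian. -/
def heckeOperatorModL : JZeroC k N →+ JZeroC k N :=
  Pic0.correspondence (heckeBetaModL k N m) (heckeAlphaModL k N m)
    (isIntegral_heckeBetaModL k N m) (isIntegral_heckeAlphaModL k N m)
    (Curve.fundamentalIdentityAlong _ (Curve.finiteAlong _) _)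
    (Curve.finiteAlong _) (Curve.normFormulaAlong _ _)

end Special

section Compat

variable {L : Type*} [Field L] [Algebra ℚ L] {A : ValuationSubring L}
variable {k : Type*} [Field k] {π : A →+* k} {N M : ℕ}
variable {r : Place L (laurentBaseChange L (modularFunctionFieldFull N)) →
  Place k (modularFunctionFieldFullC k N)}
variable {r' : Place L (laurentBaseChange L (modularFunctionFieldFull M)) →
  Place k (modularFunctionFieldFullC k M)}

/-- A pair of embeddings given by one map of integral expansions commutes with reduction on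
principal divisors. -/
theorem compatOnPrincipal_of_lift
    [FermatLib.Curve.IsFunctionField L (laurentBaseChange L (modularFunctionFieldFull M))]
    [FermatLib.Curve.IsFunctionField k (modularFunctionFieldFullC k M)]
    (hr : IsPlaceReductionAlong A π N r) (hr' : IsPlaceReductionAlong A π M r')
    (hgen : PrincipalGeneratedByIntegral A π N)
    {φ : laurentBaseChange L (modularFunctionFieldFull N) →ₐ[L]
      laurentBaseChange L (modularFunctionFieldFull M)}
    {φb : modularFunctionFieldFullC k N →ₐ[k] modularFunctionFieldFullC k M}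
    (hφ : φ.toRingHom.IsIntegral) (hφb : φb.toRingHom.IsIntegral)
    (Φ : LaurentSeries A → LaurentSeries A)
    (hΦ : ∀ y hy, (φ ⟨coeffMap A.subtype y, hy⟩ : LaurentSeries L) = coeffMap A.subtype (Φ y))
    (hΦb : ∀ y hy, (φb ⟨coeffMap π y, hy⟩ : LaurentSeries k) = coeffMap π (Φ y)) :
    PlaceFunctorial.CompatOnPrincipal hφ hφb r r' := by
  intro D hD
  rw [← sub_eq_zero]
  refine eq_zero_on_principal_of_integral hgen
    ((Finsupp.mapDomain.addMonoidHom r').comp (Divisor.pullbackAlong φ hφ)
      - (Divisor.pullbackAlong φb hφb).comp (Finsupp.mapDomain.addMonoidHom r)) ?_ hD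
  rintro E ⟨y, hy, hyk, hne, hE⟩
  set f : laurentBaseChange L (modularFunctionFieldFull N) := ⟨coeffMap A.subtype y, hy⟩
  set fb : modularFunctionFieldFullC k N := ⟨coeffMap π y, hyk⟩ with hfb
  have hy' : coeffMap A.subtype (Φ y) ∈ laurentBaseChange L (modularFunctionFieldFull M) :=
    hΦ y hy ▸ (φ f).2
  have hyk' : coeffMap π (Φ y) ∈ modularFunctionFieldFullC k M := hΦb y hyk ▸ (φb fb).2
  have hne' : coeffMap π (Φ y) ≠ 0 := fun h => by
    have h0 : φb fb = 0 := Subtype.ext ((hΦb y hyk).trans h)
    exact hne (congrArg Subtype.val (φb.toRingHom.injective (h0.trans (map_zero _).symm)))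
  have hdiv : ∀ P, Divisor.pullbackAlong φ hφ E P
      = P.ord (⟨coeffMap A.subtype (Φ y), hy'⟩ :
          laurentBaseChange L (modularFunctionFieldFull M)) := fun P => by
    rw [Divisor.pullbackAlong_apply, hE, ← Place.ord_restrictAlong]
    exact congrArg P.ord (Subtype.ext (hΦ y hy))
  ext Q
  show Finsupp.mapDomain r' (Divisor.pullbackAlong φ hφ E) Q
    - Divisor.pullbackAlong φb hφb (Finsupp.mapDomain r E) Q = 0
  rw [sub_eq_zero, hr'.2 _ hy' hyk' hne' _ hdiv Q, Divisor.pullbackAlong_apply,
    hr.2 y hy hyk hne E hE, ← Place.ord_restrictAlong]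
  exact congrArg Q.ord (Subtype.ext (hΦb y hyk).symm)

/-- The generic degree of an inclusion of levels, from the degrees over the `j`-line. -/
theorem finrankAlong_generic_mul {a b : ℕ} (hdN : DegreeInput A π N a) (hdM : DegreeInput A π M b)
    (φ : laurentBaseChange L (modularFunctionFieldFull N) →ₐ[L]
      laurentBaseChange L (modularFunctionFieldFull M))
    (hle : laurentBaseChange L (modularFunctionFieldFull N) ≤
      laurentBaseChange L (modularFunctionFieldFull M))
    (hφ : ∀ z, (φ z : LaurentSeries L) = z) : finrankAlong L φ * a = b := by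
  rw [← hdN.finrank_generic, ← hdM.finrank_generic]
  exact finrankAlong_mul_finrank_adjoin φ hle hφ _ _
    ((coe_genericFun_jInt A π N).trans (coe_genericFun_jInt A π M).symm)

/-- The special degree of an inclusion of levels, from the degrees over the `j`-line. -/
theorem finrankAlong_special_mul {a b : ℕ} (hdN : DegreeInput A π N a) (hdM : DegreeInput A π M b)
    (φ : modularFunctionFieldFullC k N →ₐ[k] modularFunctionFieldFullC k M)
    (hle : modularFunctionFieldFullC k N ≤ modularFunctionFieldFullC k M)
    (hφ : ∀ z, (φ z : LaurentSeries k) = z) : finrankAlong k φ * a = b := by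
  rw [← hdN.finrank_special, ← hdM.finrank_special]
  exact finrankAlong_mul_finrank_adjoin φ hle hφ _ _
    ((coe_specialFun_jInt A π N).trans (coe_specialFun_jInt A π M).symm)

/-- The reduction of places is not constant. -/
theorem exists_place_reduce_ne [IsAlgClosed L] [IsAlgClosed k]
    [FermatLib.Curve.IsFunctionField L (laurentBaseChange L (modularFunctionFieldFull N))]
    [FermatLib.Curve.IsFunctionField k (modularFunctionFieldFullC k N)]
    (hr : IsPlaceReductionAlong A π N r) (Q : Place k (modularFunctionFieldFullC k N)) :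
    ∃ P, r P ≠ Q := by
  classical
  by_contra! hall
  set g := genericFun A π N (jInt A π N)
  set s := specialFun A π N (jInt A π N)
  have hs : s ≠ 0 := fun h0 =>
    transcendental_specialFun_jInt A π N (show IsAlgebraic k s by rw [h0]; exact isAlgebraic_zero)
  have hconst : ∀ D : Divisor L (laurentBaseChange L (modularFunctionFieldFull N)),
      Finsupp.mapDomain r D = Finsupp.single Q (Divisor.degree D) := fun D => by
    induction D using Finsupp.induction with
    | zero => simp
    | single_add P n D _ _ ih =>
      rw [Finsupp.mapDomain_add, ih, Finsupp.mapDomain_single, hall P, map_add,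
        Divisor.degree_single, Curve.deg_eq_one, Nat.cast_one, mul_one, Finsupp.single_add]
  have hord : ∀ Q' : Place k (modularFunctionFieldFullC k N), Q'.ord s = 0 := fun Q' => by
    have h : Finsupp.mapDomain r (Curve.divOf g) Q' = Q'.ord s :=
      hr.2 ((jInt A π N : LaurentSeries A)) (jInt A π N).2.1 (jInt A π N).2.2
        (fun h0 => hs (Subtype.ext h0)) (Curve.divOf g) (fun P => Curve.divOf_apply g P) Q'
    rw [← h, hconst, Curve.degree_divOf, Finsupp.single_zero, Finsupp.zero_apply]
  exact transcendental_specialFun_jInt A π N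
    (Curve.isAlgebraic_of_forall_ord_nonneg fun Q' => (hord Q').ge)

end Compat

section ModL

local notation "Qbar" => AlgebraicClosure ℚ

variable {A : ValuationSubring (AlgebraicClosure ℚ)} {N m : ℕ} [NeZero N] [NeZero m]

set_option maxHeartbeats 1000000 in
/-- The reduction intertwines `α_* β^*` of index `m` with the same correspondence on the special
fibre, as soon as reduction is defined and preserves the degree at both levels. -/
theorem reductionModL_heckeOperatorAlong [IsAlgClosed (IsLocalRing.ResidueField A)]
    [FermatLib.Curve.IsFunctionField (IsLocalRing.ResidueField A)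
      (modularFunctionFieldFullC (IsLocalRing.ResidueField A) N)]
    [FermatLib.Curve.IsFunctionField (IsLocalRing.ResidueField A)
      (modularFunctionFieldFullC (IsLocalRing.ResidueField A) (N * m))]
    (hN : ReductionInputsModL A N) (hM : ReductionInputsModL A (N * m)) {a b : ℕ}
    (hdN : DegreeInput A (IsLocalRing.residue A) N a)
    (hdM : DegreeInput A (IsLocalRing.residue A) (N * m) b) (x : JZero N) :
    reductionModL A N (heckeOperatorAlong Qbar N m x) =
      heckeOperatorModL (IsLocalRing.ResidueField A) N m (reductionModL A N x) := by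
  haveI : NeZero (N * m) := ⟨mul_ne_zero (NeZero.ne N) (NeZero.ne m)⟩
  haveI := Modular.Corr.isFunctionFieldOne_fieldBar Qbar N
  haveI := Modular.Corr.isFunctionFieldOne_fieldBar Qbar (N * m)
  obtain ⟨hα, hβ, hP, hfin, hFI, hNF⟩ := Modular.heckeInputsAlong Qbar N m
  set k := IsLocalRing.ResidueField A with hk
  set rN := placeReductionModL hN
  set rM := placeReductionModL hM
  have hrN : IsPlaceReductionModL A N rN := isPlaceReductionModL_placeReductionModL hN
  have hrM : IsPlaceReductionModL A (N * m) rM := isPlaceReductionModL_placeReductionModL hM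
  have hgen := hN.choose_spec.2
  have hcα : PlaceFunctorial.CompatOnPrincipal hα (isIntegral_heckeAlphaModL k N m) rN rM :=
    compatOnPrincipal_of_lift hrN hrM hgen hα _ id (fun y hy => coe_heckeAlphaBar N m _)
      (fun y hy => coe_heckeAlphaModL k N m _)
  have hcβ : PlaceFunctorial.CompatOnPrincipal hβ (isIntegral_heckeBetaModL k N m) rN rM :=
    compatOnPrincipal_of_lift hrN hrM hgen hβ _ (qExpand A m)
      (fun y hy => by rw [coe_heckeBetaBar, coeffMap_qExpand])
      (fun y hy => by rw [coe_heckeBetaModL, coeffMap_qExpand])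
  have hnL : finrankAlong Qbar (heckeAlphaBar Qbar N m) * a = b := by
    exact finrankAlong_generic_mul hdN hdM _ (Modular.Corr.fieldBar_le (dvd_mul_right N m))
      (fun z => coe_heckeAlphaBar N m z)
  have hnk : finrankAlong k (heckeAlphaModL k N m) * a = b :=
    finrankAlong_special_mul hdN hdM _ (full_degeneracyC_le k (dvd_mul_right N m))
      (coe_heckeAlphaModL k N m)
  have hn : finrankAlong Qbar (heckeAlphaBar Qbar N m) = finrankAlong k (heckeAlphaModL k N m) :=
    Nat.eq_of_mul_eq_mul_right hdN.pos (hnL.trans hnk.symm)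
  obtain ⟨D, rfl⟩ := Pic0.mk_surjective x
  rw [heckeOperatorAlong_eq hα hβ hFI hfin hNF]
  refine (congrArg (reductionModL A N)
    (Pic0.correspondence_mk _ _ hβ hα hFI hfin hNF D)).trans ?_
  rw [reductionModL_mk hN, reductionModL_mk hN, heckeOperatorModL, Pic0.correspondence_mk]
  refine congrArg Pic0.mk (Subtype.ext ?_)
  show Finsupp.mapDomain rN (Divisor.pushforwardAlong (heckeAlphaBar Qbar N m) hα
      (Divisor.pullbackAlong (heckeBetaBar Qbar N m) hβ (D : Divisor _ _))) =
    Divisor.pushforwardAlong (heckeAlphaModL k N m) (isIntegral_heckeAlphaModL k N m)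
      (Divisor.pullbackAlong (heckeBetaModL k N m) (isIntegral_heckeBetaModL k N m)
        (Finsupp.mapDomain rN (D : Divisor _ _)))
  refine (PlaceFunctorial.mapDomain_pushforwardAlong hα (isIntegral_heckeAlphaModL k N m) hfin
      (Curve.finiteAlong _) hcα hn (exists_place_reduce_ne hrN) _).trans ?_
  exact congrArg _ (PlaceFunctorial.mapDomain_pullbackAlong_degZero hβ
      (isIntegral_heckeBetaModL k N m)
      (Modular.Corr.finiteAlong_heckeBetaBar (Modular.Corr.levelFacts Qbar) N m)
      (Curve.finiteAlong _) hcβ (Divisor.mem_degZero.mp D.2))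

/-- `red ∘ T_q = T̄_q ∘ red` for every prime `q ≠ ℓ`, also for `q ∣ N`. -/
theorem reductionModL_heckeOperatorBar {ℓ : ℕ} [Fact ℓ.Prime] (hA : A.LiesOverPrime ℓ)
    (q : Nat.Primes) [NeZero (q : ℕ)] (hℓ : ¬ ℓ ∣ N * q)
    [IsAlgClosed (IsLocalRing.ResidueField A)]
    [FermatLib.Curve.IsFunctionField (IsLocalRing.ResidueField A)
      (modularFunctionFieldFullC (IsLocalRing.ResidueField A) N)]
    [FermatLib.Curve.IsFunctionField (IsLocalRing.ResidueField A)
      (modularFunctionFieldFullC (IsLocalRing.ResidueField A) (N * q))] (x : JZero N) :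
    reductionModL A N (heckeOperatorBar N q x) =
      heckeOperatorModL (IsLocalRing.ResidueField A) N q (reductionModL A N x) := by
  haveI : NeZero (N * (q : ℕ)) := ⟨mul_ne_zero (NeZero.ne N) q.2.ne_zero⟩
  have hℓN : ¬ ℓ ∣ N := fun h => hℓ (h.mul_right _)
  rw [heckeOperatorBar_apply]
  exact reductionModL_heckeOperatorAlong (reductionInputsModL N hℓN A hA)
    (reductionInputsModL (N * q) hℓ A hA) (degreeInput_modL N hℓN A hA)
    (degreeInput_modL (N * q) hℓ A hA) x

/-- The kernel of reduction is stable under every `T_q` and `U_q`. -/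
theorem reductionModL_heckeOperatorBar_eq_zero {ℓ : ℕ} [Fact ℓ.Prime] (hℓN : ¬ ℓ ∣ N)
    (hA : A.LiesOverPrime ℓ) (q : Nat.Primes) {x : JZero N} (hx : reductionModL A N x = 0) :
    reductionModL A N (heckeOperatorBar N q x) = 0 := by
  have hℓ : ℓ.Prime := Fact.out
  by_cases hq : (q : ℕ) = ℓ
  · obtain ⟨σ, hσ⟩ := Basic.exists_isFrobeniusAt hℓ A hA
    letI := heckeModuleBar N
    have hd := hσ.mem_decompositionSubgroup
    have h := red_eichlerShimura (reductionInputsModL N hℓN A hA) hℓ hℓN hA σ hσ (σ⁻¹ • x)
    have e := heckeModuleBar_heckeGen_smul (Modular.heckeOperatorsCommuteBar N) ⟨ℓ, hℓ⟩ x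
    rw [smul_inv_smul] at h
    replace h : reductionModL A N (σ • x - heckeOperatorBar N ⟨ℓ, hℓ⟩ x + ℓ • σ⁻¹ • x) = 0 := by
      rw [← e]; exact h
    rw [map_add, map_sub, map_nsmul,
      red_decomposition_smul_eq_zero (reductionInputsModL N hℓN A hA) σ hd hx,
      red_decomposition_smul_eq_zero (reductionInputsModL N hℓN A hA) σ⁻¹ (inv_mem hd) hx,
      smul_zero, add_zero, zero_sub, neg_eq_zero] at h
    rwa [show q = ⟨ℓ, hℓ⟩ from Subtype.ext hq]
  · haveI : NeZero (q : ℕ) := ⟨q.2.ne_zero⟩
    haveI : NeZero (N * (q : ℕ)) := ⟨mul_ne_zero (NeZero.ne N) q.2.ne_zero⟩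
    have hℓq : ¬ ℓ ∣ N * q := fun h => (hℓ.dvd_mul.mp h).elim hℓN
      fun h' => hq ((Nat.prime_dvd_prime_iff_eq hℓ q.2).mp h').symm
    haveI := isAlgClosed_residueField A
    haveI := isFunctionField_fullC (degreeInput_modL N hℓN A hA)
    haveI := isFunctionField_fullC (degreeInput_modL (N * (q : ℕ)) hℓq A hA)
    rw [reductionModL_heckeOperatorBar hA q hℓq, hx, map_zero]

/-- The kernel of reduction at `ℓ ∤ N` is a Hecke submodule. -/
theorem reductionModL_smul_eq_zero {ℓ : ℕ} [Fact ℓ.Prime] (hℓN : ¬ ℓ ∣ N)
    (hA : A.LiesOverPrime ℓ) {x : JZero N} (hx : reductionModL A N x = 0) (t : HeckeAlg) :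
    (letI := heckeModuleBar N; reductionModL A N (t • x)) = 0 := by
  letI := heckeModuleBar N
  show reductionModL A N (t • x) = 0
  induction t using MvPolynomial.induction_on generalizing x with
  | C a => rw [heckeModuleBar_C_smul, map_zsmul, hx, smul_zero]
  | add p p' hp hp' => rw [add_smul, map_add, hp hx, hp' hx, add_zero]
  | mul_X p q hp =>
    have hgen : (MvPolynomial.X q : HeckeAlg) • x = heckeOperatorBar N q x :=
      heckeModuleBar_heckeGen_smul (Modular.heckeOperatorsCommuteBar N) q x
    rw [mul_smul, hgen]
    exact hp (reductionModL_heckeOperatorBar_eq_zero hℓN hA q hx)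

end ModL

end FermatLib.Igusa
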