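import Fermat.Agent.Igusa.LevelUnitsSeries
import Fermat.Agent.Modular.QSeriesJ
import Fermat.Prelude.Thm_ModularCurve_coeffMap_qExpand

/-!
# Modular units from division values of the Weierstrass function
-/

set_option autoImplicit false

noncomputable section

open Complex UpperHalfPlane
open scoped MatrixGroups Real ModularForm

namespace FermatLib.Igusa

variable {R : Type*} [CommRing R] {φ : R →+* ℂ} {n : ℕ} [NeZero n]

omit [NeZero n] in
theorem torsionDiff_smul (γ : SL(2, ℤ)) (a b : ℤ × ℤ) (τ : ℍ) :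
    torsionDiff n a b (γ • τ) =
      UpperHalfPlane.denom γ τ ^ 2 * torsionDiff n (vecMulSL a γ) (vecMulSL b γ) τ :=
  torsionDiff_smul' γ a b τ

theorem torsionDiff_congr {a a' b b' : ℤ × ℤ} (ha : SameUpToSign n a a')
    (hb : SameUpToSign n b b') : torsionDiff n a b = torsionDiff n a' b' :=
  torsionDiff_congr' ha hb

theorem torsionDiff_ne_zero {a b : ℤ × ℤ} (h : IsUnitPair n a b) (τ : ℍ) :
    torsionDiff n a b τ ≠ 0 :=
  torsionDiff_ne_zero' h τ

/-! ### Index vectors up to sign -/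

/-- Reduction of an index vector modulo `n`. -/
def redVec (n : ℕ) (a : ℤ × ℤ) : ZMod n × ZMod n := ((a.1 : ZMod n), (a.2 : ZMod n))

omit [NeZero n] in
theorem sameUpToSign_iff {a b : ℤ × ℤ} :
    SameUpToSign n a b ↔ redVec n a = redVec n b ∨ redVec n a = -redVec n b := by
  simp only [SameUpToSign, redVec, Prod.neg_mk, Prod.mk.injEq, ← ZMod.intCast_zmod_eq_zero_iff_dvd,
    Int.cast_sub, Int.cast_add, sub_eq_zero, eq_neg_iff_add_eq_zero]

omit [NeZero n] in
theorem SameUpToSign.symm' {a b : ℤ × ℤ} (h : SameUpToSign n a b) : SameUpToSign n b a := by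
  rw [sameUpToSign_iff] at h ⊢
  rcases h with h | h <;> simp [h]

omit [NeZero n] in
theorem SameUpToSign.trans' {a b c : ℤ × ℤ} (h : SameUpToSign n a b) (h' : SameUpToSign n b c) :
    SameUpToSign n a c := by
  rw [sameUpToSign_iff] at h h' ⊢
  rcases h with h | h <;> rcases h' with h' | h' <;> simp [h, h']

omit [NeZero n] in
theorem IsUnitPair.congr' {a a' b b' : ℤ × ℤ} (h : IsUnitPair n a b) (ha : SameUpToSign n a a')
    (hb : SameUpToSign n b b') : IsUnitPair n a' b' :=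
  ⟨fun e => h.1 (ha.trans' e), fun e => h.2.1 (hb.trans' e),
    fun e => h.2.2 ((ha.trans' e).trans' hb.symm')⟩

omit [NeZero n] in
theorem IsUnitPair.swap {a b : ℤ × ℤ} (h : IsUnitPair n a b) : IsUnitPair n b a :=
  ⟨h.2.1, h.1, fun e => h.2.2 e.symm'⟩

theorem exists_reduced (a : ℤ × ℤ) : ∃ a' : ℤ × ℤ, SameUpToSign n a a' ∧ 0 ≤ a'.1 ∧
    2 * a'.1 ≤ n ∧ (absMod n a.1 : ℤ) = a'.1 := by
  set v : ℤ := (a.1 : ZMod n).valMinAbs with hv
  have hle : v.natAbs ≤ n / 2 := (a.1 : ZMod n).natAbs_valMinAbs_le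
  have hcast : ((v : ℤ) : ZMod n) = (a.1 : ZMod n) := ZMod.coe_valMinAbs _
  rcases le_or_gt 0 v with h | h
  · refine ⟨(v, a.2), sameUpToSign_iff.2 (Or.inl (by simp [redVec, hcast])), h,
      by simp only; omega, by simp only [absMod, ← hv]; omega⟩
  · refine ⟨(-v, -a.2), sameUpToSign_iff.2 (Or.inr (by simp [redVec, hcast])),
      by simp only; omega, by simp only; omega, by simp only [absMod, ← hv]; omega⟩

/-! ### The expansion -/

omit [NeZero n] in
theorem units_zpow_one_sub (hR : IsLevelCoeff φ n) {z : Rˣ} (hz : φ z = zetaU n) {k : ℤ}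
    (hk : ¬ (n : ℤ) ∣ k) : IsUnit ((1 : R) - ↑(z ^ k)) := by
  obtain ⟨-, -, hU⟩ := hR.exists_zeta
  exact hU k hk _ (by rw [map_sub, map_one, map_units_zpow hz])

omit [NeZero n] in
theorem isUnit_zpow_sub_zpow (hR : IsLevelCoeff φ n) {z : Rˣ} (hz : φ z = zetaU n) {x y : ℤ}
    (h : ¬ (n : ℤ) ∣ x - y) : IsUnit ((↑(z ^ x) : R) - ↑(z ^ y)) := by
  have : (↑(z ^ x) : R) - ↑(z ^ y) = ↑(z ^ x) * (1 - ↑(z ^ (y - x))) := by
    rw [mul_sub, mul_one, ← Units.val_mul, ← zpow_add, add_sub_cancel]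
  rw [this]
  refine (Units.isUnit _).mul (units_zpow_one_sub hR hz fun hd => h ?_)
  rw [← neg_sub]
  exact hd.neg_right

theorem exists_unit_zeta (hR : IsLevelCoeff φ n) : ∃ z : Rˣ, φ z = zetaU n := by
  obtain ⟨z, hz, -⟩ := hR.exists_zeta
  have hpow : z ^ n = 1 := hR.injective (by
    rw [map_pow, map_one, hz, (isPrimitiveRoot_zetaU n).pow_eq_one])
  exact ⟨Units.ofPowEqOne z n hpow (NeZero.ne n), hz⟩

/-- The reduced case with `a₁ ≤ b₁`. -/
theorem exists_hasExp_of_reduced (hR : IsLevelCoeff φ n) {a b : ℤ × ℤ} (h : IsUnitPair n a b)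
    (ha0 : 0 ≤ a.1) (ha2 : 2 * a.1 ≤ n) (hb0 : 0 ≤ b.1) (hb2 : 2 * b.1 ≤ n) (hab : a.1 ≤ b.1) :
    ∃ F : LaurentSeries R, HasExp n (torsionDiff n a b) (ModularCurve.coeffMap φ F) ∧
      (∀ k < a.1, F.coeff k = 0) ∧ IsUnit (F.coeff a.1) := by
  obtain ⟨z, hz⟩ := exists_unit_zeta hR
  have hdvd : ∀ c : ℤ × ℤ, ¬ SameUpToSign n c (0, 0) → (n : ℤ) ∣ c.1 → ¬ (n : ℤ) ∣ c.2 :=
    fun c hc h1 h2 => hc (Or.inl ⟨by simpa using h1, by simpa using h2⟩)
  set P := rowSeries n z a - rowSeries n z b with hP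
  refine ⟨HahnSeries.single 0 1 * HahnSeries.ofPowerSeries ℤ R P, ?_, ?_, ?_⟩
  · have hmap : ModularCurve.coeffMap φ (HahnSeries.single 0 1 * HahnSeries.ofPowerSeries ℤ R P) =
        HahnSeries.single 0 1 * HahnSeries.ofPowerSeries ℤ ℂ (P.map φ) := by
      rw [map_mul, ModularCurve.coeffMap_single, map_one]
      congr 1
      ext k
      rw [ModularCurve.coeffMap_coeff]
      rcases le_or_gt 0 k with hk | hk
      · lift k to ℕ using hk
        simp only [HahnSeries.ofPowerSeries_apply_coeff, PowerSeries.coeff_map]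
      · rw [ModularCurve.ofPowerSeries_coeff_of_neg _ hk,
          ModularCurve.ofPowerSeries_coeff_of_neg _ hk, map_zero]
    rw [hmap, hasExp_single_mul_iff]
    intro τ
    obtain ⟨Ta, ha, ha'⟩ := exists_hasSum_rows hz
      (fun hd => units_zpow_one_sub hR hz (hdvd a h.1 hd)) τ
    obtain ⟨Tb, hb, hb'⟩ := exists_hasSum_rows hz
      (fun hd => units_zpow_one_sub hR hz (hdvd b h.2.1 hd)) τ
    rw [neg_zero, zpow_zero, mul_one,
      (hasSum_torsionDiff h.1 h.2.1 τ).unique (ha.sub hb)]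
    refine (ha'.sub hb').congr_fun fun N => ?_
    rw [PowerSeries.coeff_map, hP, map_sub, map_sub, sub_mul]
  · intro k hk
    rw [HahnSeries.coeff_single_mul, one_mul, sub_zero]
    rcases le_or_gt 0 k with hk0 | hk0
    · lift k to ℕ using hk0
      rw [HahnSeries.ofPowerSeries_apply_coeff, hP, map_sub, coeff_rowSeries_eq_zero z ha0 ha2 hk,
        coeff_rowSeries_eq_zero z hb0 hb2 (hk.trans_le hab), sub_zero]
    · exact ModularCurve.ofPowerSeries_coeff_of_neg _ hk0
  · rw [HahnSeries.coeff_single_mul, one_mul, sub_zero, ← Int.toNat_of_nonneg ha0,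
      HahnSeries.ofPowerSeries_apply_coeff, hP, map_sub]
    rcases lt_or_eq_of_le hab with hlt | heq
    · rw [coeff_rowSeries_eq_zero (N := a.1.toNat) z hb0 hb2 (by omega), sub_zero]
      rcases eq_or_lt_of_le ha0 with hA | hA
      · rw [← hA, Int.toNat_zero, coeff_rowSeries_zero z hA.symm]
        have hu := units_zpow_one_sub hR hz (hdvd a h.1 (hA ▸ dvd_zero _))
        exact (Units.isUnit _).mul (hu.pow 2).ringInverse
      · rw [coeff_rowSeries_self z hA ha2, if_neg (by omega), add_zero]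
        exact Units.isUnit _
    · have hsub : ¬ (n : ℤ) ∣ a.2 - b.2 := fun hd =>
        h.2.2 (Or.inl ⟨by simp [heq], hd⟩)
      rcases eq_or_lt_of_le ha0 with hA | hA
      · have hadd : ¬ (n : ℤ) ∣ a.2 + b.2 := fun hd =>
          h.2.2 (Or.inr ⟨by simp [← heq, ← hA], hd⟩)
        rw [← hA, Int.toNat_zero, coeff_rowSeries_zero z hA.symm,
          coeff_rowSeries_zero z (heq ▸ hA.symm)]
        have hua := (units_zpow_one_sub hR hz (hdvd a h.1 (hA ▸ dvd_zero _))).pow 2
        have hub := (units_zpow_one_sub hR hz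
          (hdvd b h.2.1 (by rw [← heq, ← hA]; exact dvd_zero _))).pow 2
        have hmul : IsUnit ((↑(z ^ a.2) - ↑(z ^ b.2) : R) * (1 - ↑(z ^ (a.2 + b.2)))) :=
          (isUnit_zpow_sub_zpow hR hz hsub).mul (units_zpow_one_sub hR hz hadd)
        convert! (hmul.mul hua.ringInverse).mul hub.ringInverse using 1
        have e1 := Ring.inverse_mul_cancel _ hua
        have e2 := Ring.inverse_mul_cancel _ hub
        have hpr : (↑(z ^ (a.2 + b.2)) : R) = ↑(z ^ a.2) * ↑(z ^ b.2) := by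
          rw [zpow_add, Units.val_mul]
        rw [hpr]
        linear_combination ((z ^ b.2 : Rˣ) : R) *
          Ring.inverse (((1 : R) - ↑(z ^ b.2)) ^ 2) * e1 -
          ((z ^ a.2 : Rˣ) : R) * Ring.inverse (((1 : R) - ↑(z ^ a.2)) ^ 2) * e2
      · have hA' : 0 < b.1 := heq ▸ hA
        rw [coeff_rowSeries_self z hA ha2, show a.1.toNat = b.1.toNat by rw [heq],
          coeff_rowSeries_self z hA' hb2, ← heq]
        split_ifs with h2
        · have hadd : ¬ (n : ℤ) ∣ a.2 + b.2 := fun hd =>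
            h.2.2 (Or.inr ⟨⟨1, by omega⟩, hd⟩)
          convert! (isUnit_zpow_sub_zpow hR hz hsub).mul
            (units_zpow_one_sub hR hz (k := -(a.2 + b.2)) fun hd => hadd (dvd_neg.1 hd)) using 1
          rw [neg_add, zpow_add, Units.val_mul]
          have e1 : ((z ^ a.2 : Rˣ) : R) * ↑(z ^ (-a.2)) = 1 := by
            rw [← Units.val_mul, ← zpow_add, add_neg_cancel, zpow_zero, Units.val_one]
          have e2 : ((z ^ b.2 : Rˣ) : R) * ↑(z ^ (-b.2)) = 1 := by
            rw [← Units.val_mul, ← zpow_add, add_neg_cancel, zpow_zero, Units.val_one]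
          linear_combination ((z ^ (-b.2) : Rˣ) : R) * e1 - ((z ^ (-a.2) : Rˣ) : R) * e2
        · rw [add_zero, add_zero]
          exact isUnit_zpow_sub_zpow hR hz hsub

/-- The expansion at `i ∞`: integral, with unit leading coefficient in degree `torsOrd n a b`. -/
theorem exists_hasExp_torsionDiff (hR : IsLevelCoeff φ n) {a b : ℤ × ℤ} (h : IsUnitPair n a b) :
    ∃ F : LaurentSeries R, HasExp n (torsionDiff n a b) (ModularCurve.coeffMap φ F) ∧
      (∀ k < torsOrd n a b, F.coeff k = 0) ∧ IsUnit (F.coeff (torsOrd n a b)) := by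
  obtain ⟨a', haa, ha0, ha2, haA⟩ := exists_reduced (n := n) a
  obtain ⟨b', hbb, hb0, hb2, hbB⟩ := exists_reduced (n := n) b
  have h' := h.congr' haa hbb
  rw [torsionDiff_congr haa hbb]
  have hord : torsOrd n a b = min a'.1 b'.1 := by
    rw [torsOrd, Nat.cast_min, haA, hbB]
  rcases le_total a'.1 b'.1 with hle | hle
  · rw [hord, min_eq_left hle]
    exact exists_hasExp_of_reduced hR h' ha0 ha2 hb0 hb2 hle
  · rw [hord, min_eq_right hle, torsionDiff_swap b' a']
    obtain ⟨F, hF, hF0, hF1⟩ := exists_hasExp_of_reduced hR h'.swap hb0 hb2 ha0 ha2 hle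
    refine ⟨-F, by rw [map_neg]; exact hF.neg, fun k hk => by simp [hF0 k hk], ?_⟩
    simpa using hF1.neg

end FermatLib.Igusa
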