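import Fermat.Agent.Igusa.LevelUnits

/-!
# Conjugating the coefficients of the expansion of a difference of division values

A ring endomorphism of `ℂ` with `ζ ↦ ζ ^ s` carries the expansion of `torsionDiff n a b` to that
of `torsionDiff n (a₁, s a₂) (b₁, s b₂)`.
-/

set_option autoImplicit false

noncomputable section

open Complex UpperHalfPlane

namespace FermatLib.Igusa

variable {n : ℕ} [NeZero n]

/-- `exp (2 π i / n)` as a unit of `ℂ`. -/
def zetaUnit (n : ℕ) : ℂˣ := Units.mk0 (zetaU n) (zetaU_ne_zero n)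

/-- The expansion of `torsionDiff n a b` over `ℂ`. -/
def torsionSeries (n : ℕ) (a b : ℤ × ℤ) : LaurentSeries ℂ :=
  HahnSeries.single 0 1 * HahnSeries.ofPowerSeries ℤ ℂ
    (rowSeries n (zetaUnit n) a - rowSeries n (zetaUnit n) b)

theorem isUnit_one_sub_zetaUnit_zpow {a : ℤ × ℤ} (ha : ¬ SameUpToSign n a (0, 0))
    (hd : (n : ℤ) ∣ a.1) : IsUnit ((1 : ℂ) - ↑(zetaUnit n ^ a.2)) := by
  refine isUnit_iff_ne_zero.2 (sub_ne_zero.2 fun h => ha (Or.inl ⟨by simpa using hd, ?_⟩))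
  rw [Units.val_zpow_eq_zpow_val] at h
  simpa using ((isPrimitiveRoot_zetaU n).zpow_eq_one_iff_dvd a.2).1 h.symm

theorem hasExp_torsionSeries {a b : ℤ × ℤ} (ha : ¬ SameUpToSign n a (0, 0))
    (hb : ¬ SameUpToSign n b (0, 0)) :
    HasExp n (torsionDiff n a b) (torsionSeries n a b) := by
  rw [torsionSeries, hasExp_single_mul_iff]
  intro τ
  have hz : (RingHom.id ℂ) (zetaUnit n : ℂ) = zetaU n := rfl
  obtain ⟨Ta, hTa, hTa'⟩ :=
    exists_hasSum_rows hz (isUnit_one_sub_zetaUnit_zpow ha) τ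
  obtain ⟨Tb, hTb, hTb'⟩ :=
    exists_hasSum_rows hz (isUnit_one_sub_zetaUnit_zpow hb) τ
  rw [neg_zero, zpow_zero, mul_one, (hasSum_torsionDiff ha hb τ).unique (hTa.sub hTb)]
  refine (hTa'.sub hTb').congr_fun fun N => ?_
  simp only [RingHom.id_apply, map_sub, sub_mul]

/-- Multiply the second coordinate by `s`. -/
def scaleSnd (s : ℤ) (a : ℤ × ℤ) : ℤ × ℤ := (a.1, s * a.2)

omit [NeZero n] in
theorem coeffMap_torsionSeries {σ : ℂ →+* ℂ} {s : ℤ} (hs : σ (zetaU n) = zetaU n ^ s)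
    (a b : ℤ × ℤ) :
    ModularCurve.coeffMap σ (torsionSeries n a b) =
      torsionSeries n (scaleSnd s a) (scaleSnd s b) := by
  have hpow : ∀ x : ℤ, σ ↑(zetaUnit n ^ x) = ↑(zetaUnit n ^ (s * x)) := fun x => by
    simp only [Units.val_zpow_eq_zpow_val, zetaUnit, Units.val_mk0, map_zpow₀, hs, ← zpow_mul]
  have hcoeff : ∀ (c : ℤ × ℤ) (p : ℤ × ℕ),
      σ (rowCoeff n (zetaUnit n) c p) = rowCoeff n (zetaUnit n) (scaleSnd s c) p := by
    intro c p
    simp only [rowCoeff, scaleSnd]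
    rw [apply_ite σ, apply_ite σ]
    simp only [map_zero, map_mul, map_natCast, hpow, Ring.inverse_eq_inv', map_inv₀,
      map_pow, map_sub, map_one]
    rw [show s * ((p.2 : ℤ) * ((c.1 + p.1 * n).sign * c.2)) =
      (p.2 : ℤ) * ((c.1 + p.1 * n).sign * (s * c.2)) by ring]
  have hser : ∀ (c : ℤ × ℤ),
      (rowSeries n (zetaUnit n) c).map σ = rowSeries n (zetaUnit n) (scaleSnd s c) := by
    intro c
    ext N
    simp only [rowSeries, PowerSeries.coeff_map, PowerSeries.coeff_mk, map_sum, hcoeff]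
    rfl
  rw [torsionSeries, torsionSeries, map_mul, ModularCurve.coeffMap_single, map_one, ← hser, ← hser,
    ← map_sub (PowerSeries.map σ)]
  congr 1
  ext k
  rw [ModularCurve.coeffMap_coeff]
  rcases le_or_gt 0 k with hk | hk
  · lift k to ℕ using hk
    simp only [HahnSeries.ofPowerSeries_apply_coeff, PowerSeries.coeff_map]
  · rw [ModularCurve.ofPowerSeries_coeff_of_neg _ hk,
      ModularCurve.ofPowerSeries_coeff_of_neg _ hk, map_zero]

theorem not_sameUpToSign_scaleSnd {σ : ℂ →+* ℂ} {s : ℤ} (hs : σ (zetaU n) = zetaU n ^ s)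
    {a : ℤ × ℤ} (ha : ¬ SameUpToSign n a (0, 0)) :
    ¬ SameUpToSign n (scaleSnd s a) (0, 0) := by
  intro h
  have h' : (n : ℤ) ∣ a.1 ∧ (n : ℤ) ∣ s * a.2 := by
    rcases h with h | h <;> simpa [scaleSnd] using h
  refine ha (Or.inl ⟨by simpa using h'.1, ?_⟩)
  have hone : σ (zetaU n ^ a.2) = 1 := by
    rw [map_zpow₀, hs, ← zpow_mul]
    exact ((isPrimitiveRoot_zetaU n).zpow_eq_one_iff_dvd _).2 h'.2
  have := σ.injective (hone.trans (map_one σ).symm)
  simpa using ((isPrimitiveRoot_zetaU n).zpow_eq_one_iff_dvd a.2).1 this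

/-- The conjugate of the expansion of `torsionDiff n a b` is the expansion of the conjugate
difference. -/
theorem torsionDiff_conj {σ : ℂ →+* ℂ} {s : ℤ} (hs : σ (zetaU n) = zetaU n ^ s) {a b : ℤ × ℤ}
    (hab : IsUnitPair n a b) {F : LaurentSeries ℂ} (h : HasExp n (torsionDiff n a b) F) :
    HasExp n (torsionDiff n (a.1, s * a.2) (b.1, s * b.2)) (ModularCurve.coeffMap σ F) := by
  rw [h.unique (hasExp_torsionSeries hab.1 hab.2.1), coeffMap_torsionSeries hs]
  exact hasExp_torsionSeries (not_sameUpToSign_scaleSnd hs hab.1)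
    (not_sameUpToSign_scaleSnd hs hab.2.1)

end FermatLib.Igusa
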