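import Fermat.Agent.Igusa.LevelRing
import Mathlib.Analysis.SpecialFunctions.Elliptic.Weierstrass
import Mathlib.Data.ZMod.ValMinAbs

/-!
# Differences of division values of the Weierstrass function: definitions
-/

set_option autoImplicit false

noncomputable section

open Complex UpperHalfPlane
open scoped MatrixGroups Real

namespace FermatLib.Igusa

/-- The coefficient ring contains the `n`-th roots of unity and the `1 - ζ ^ k` are units. -/
structure IsLevelCoeff {R : Type*} [CommRing R] (φ : R →+* ℂ) (n : ℕ) : Prop where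
  injective : Function.Injective φ
  exists_zeta : ∃ z : R, φ z = zetaU n ∧ ∀ k : ℤ, ¬ (n : ℤ) ∣ k →
    ∀ w : R, φ w = 1 - zetaU n ^ k → IsUnit w

/-- The lattice `ℤ τ + ℤ`. -/
def tauPair (τ : ℍ) : PeriodPair where
  ω₁ := (τ : ℂ)
  ω₂ := 1
  indep := by
    rw [LinearIndependent.pair_iff]
    intro s t h
    have hs : s = 0 := by
      simpa [τ.im_pos.ne'] using congrArg Complex.im h
    exact ⟨hs, by simpa [hs] using h⟩

/-- The value of `℘` of the lattice `ℤ τ + ℤ` at `(a₁ τ + a₂) / n`. -/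
def wpValue (n : ℕ) (a : ℤ × ℤ) (τ : ℍ) : ℂ :=
  (tauPair τ).weierstrassP ((a.1 * (τ : ℂ) + a.2) / n)

/-- `(℘(a) - ℘(b)) / (2 π i)²`, a modular form of weight two and level `n`. -/
def torsionDiff (n : ℕ) (a b : ℤ × ℤ) (τ : ℍ) : ℂ :=
  (wpValue n a τ - wpValue n b τ) / (2 * π * Complex.I) ^ 2

/-- Right action of a matrix on index vectors. -/
def vecMulSL (a : ℤ × ℤ) (γ : SL(2, ℤ)) : ℤ × ℤ :=
  (a.1 * γ 0 0 + a.2 * γ 1 0, a.1 * γ 0 1 + a.2 * γ 1 1)

/-- `a` is congruent to `b` or to `-b` modulo `n`. -/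
def SameUpToSign (n : ℕ) (a b : ℤ × ℤ) : Prop :=
  ((n : ℤ) ∣ a.1 - b.1 ∧ (n : ℤ) ∣ a.2 - b.2) ∨
    ((n : ℤ) ∣ a.1 + b.1 ∧ (n : ℤ) ∣ a.2 + b.2)

/-- A pair of index vectors giving a unit. -/
def IsUnitPair (n : ℕ) (a b : ℤ × ℤ) : Prop :=
  ¬ SameUpToSign n a (0, 0) ∧ ¬ SameUpToSign n b (0, 0) ∧ ¬ SameUpToSign n a b

/-- The distance of `x` to the nearest multiple of `n`. -/
def absMod (n : ℕ) (x : ℤ) : ℕ := ((x : ZMod n).valMinAbs).natAbs

/-- The order at `i ∞` of `torsionDiff n a b`. -/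
def torsOrd (n : ℕ) (a b : ℤ × ℤ) : ℤ := (min (absMod n a.1) (absMod n b.1) : ℕ)

end FermatLib.Igusa
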