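import Fermat.Agent.Igusa.MonoConnected
import Fermat.Prelude.Def_AlgebraicCurve_BaseChangeGalois

/-!
The square of Frobenius on the kernel of the two reductions: it acts as `q²` on twists, so
`(g - q²)(g - 1)` kills every class whose two reductions are Frobenius-invariant modulo constants
and `d`-th powers.
-/

set_option autoImplicit false
set_option linter.style.haveILetI false

noncomputable section

open AlgebraicCurve

namespace FermatLib.Igusa.Mono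

universe uL uF uk uKb

namespace MonoDatum

variable {L : Type uL} {k : Type uk} [Field L] [Field k] {A : ValuationSubring L} {π : A →+* k}
  {F : Type uF} {Kb : Type uKb} [Field F] [Algebra L F] [Field Kb] [Algebra k Kb] {q : ℕ}
  (M : MonoDatum π F Kb q)

/-- An automorphism fixing `x` which acts on both reductions through `φ`, where `Φ ∘ Φ ∘ φ` is the
`e`-th power map on regular functions (the square of an arithmetic Frobenius, `e = q²`). -/
structure SqFrobenius (g : SemilinearAut L F) (e : ℕ) where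
  φ : Kb →+* Kb
  x_fixed : g • M.x = M.x
  mem₁ : ∀ a ∈ M.s₁.W, g • a ∈ M.s₁.W
  rd₁ : ∀ a ∈ M.s₁.W, M.s₁.rd (g • a) = φ (M.s₁.rd a)
  mem₂ : ∀ a ∈ M.s₂.W, g • a ∈ M.s₂.W
  rd₂' : ∀ a ∈ M.s₂.W, M.s₂.rd (g • a) = φ (M.s₂.rd a)
  φ_reg : ∀ c ∈ Reg M.P₁, φ c ∈ Reg M.P₁
  frob : ∀ c ∈ Reg M.P₁, M.Φ (M.Φ (φ c)) = c ^ e
  periodic : ∀ c : L, ∃ n : ℕ, 0 < n ∧ (SemilinearAut.baseAut g)^[n] c = c

variable {M} {g : SemilinearAut L F} {e : ℕ} (hg : M.SqFrobenius g e)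
include hg

namespace SqFrobenius

theorem φ_algebraMap (c : k) : hg.φ (algebraMap k Kb c) = algebraMap k Kb (c ^ e) := by
  apply (M.Φ : Kb →+* Kb).injective
  apply (M.Φ : Kb →+* Kb).injective
  show M.Φ (M.Φ (hg.φ (algebraMap k Kb c))) = M.Φ (M.Φ (algebraMap k Kb (c ^ e)))
  rw [hg.frob _ (algebraMap_mem_reg _ c), AlgHom.commutes, AlgHom.commutes, map_pow]

/-- At a possible node `φ` raises values to the power `e`. -/
theorem valAt_φ {v : Place k Kb} (hv : v ∈ M.Z) {c : Kb} (hc : c ∈ Reg M.P₁) :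
    valAt v (hg.φ c) = valAt v c ^ e := by
  have hd := M.rrK.deg_one
  have h1 := hv.2 _ (hg.φ_reg c hc)
  rw [hg.frob c hc] at h1
  have hpow : c ^ e ∈ Reg M.P₁ := by
    rw [← hg.frob c hc]
    exact M.Φ_reg _ (M.Φ_reg _ (hg.φ_reg c hc))
  have h2 := valAt_add_reg hd ((Reg M.P₁).sub_mem hpow (hg.φ_reg c hc)) (hg.φ_reg c hc) hv.1
  rw [sub_add_cancel, h1, zero_add, valAt_pow_reg hd hc hv.1] at h2
  exact h2.symm

theorem integral {a : F} (ha : Integral₂ M.s₁ M.s₂ a) : Integral₂ M.s₁ M.s₂ (g • a) :=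
  ⟨hg.mem₁ a ha.1, hg.mem₂ a ha.2⟩

theorem Px_smul (v : Place L F) : M.Px (g⁻¹ • v) = M.Px v := by
  rw [M.Px_apply, M.Px_apply]
  have h := SemilinearAut.ord_smul g (g⁻¹ • v) M.x
  rw [smul_inv_smul, hg.x_fixed] at h
  rw [h]

theorem smul_mem_rr {D : Divisor L F} {n : ℕ} {a : F}
    (ha : a ∈ riemannRochSpace (D + n • M.Px)) :
    g • a ∈ riemannRochSpace (g • D + n • M.Px) := by
  rw [mem_riemannRochSpace_iff] at ha ⊢
  intro v
  refine (ha (g⁻¹ • v)).imp (fun h => by rw [h, smul_zero]) fun h => ?_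
  have h2 := SemilinearAut.ord_smul g (g⁻¹ • v) a
  rw [smul_inv_smul] at h2
  rw [Finsupp.add_apply, Finsupp.smul_apply, hg.Px_smul] at h
  rw [Finsupp.add_apply, Finsupp.smul_apply, SemilinearAut.divisor_smul_apply, h2]
  exact h

theorem base_mem {c : L} (hc : c ∈ A) : SemilinearAut.baseAut g c ∈ A := by
  have h1 := hg.mem₁ _ (Sheet.algebraMap_mem (s := M.s₁) hc)
  rw [SemilinearAut.smul_algebraMap] at h1
  exact Sheet.mem_of_algebraMap_mem M.π_eq_zero h1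

theorem inv_ratio_mem {c : L} (hc : c ≠ 0) (h : SemilinearAut.baseAut g c / c ∈ A) :
    c / SemilinearAut.baseAut g c ∈ A := by
  set σ := SemilinearAut.baseAut g
  obtain ⟨n, hn, hper⟩ := hg.periodic c
  obtain ⟨m, rfl⟩ : ∃ m, n = m + 1 := ⟨n - 1, by omega⟩
  have hne : ∀ i : ℕ, σ^[i] c ≠ 0 := fun i => by
    induction i with
    | zero => simpa using hc
    | succ i ih => rw [Function.iterate_succ_apply']; simpa using ih
  have hmem : ∀ i : ℕ, σ^[i] (σ c / c) ∈ A := fun i => by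
    induction i with
    | zero => simpa using h
    | succ i ih => rw [Function.iterate_succ_apply']; exact hg.base_mem ih
  have hdiv : ∀ (j : ℕ) (a b : L), σ^[j] (a / b) = σ^[j] a / σ^[j] b := by
    intro j a b
    induction j with
    | zero => simp
    | succ j ihj => simp only [Function.iterate_succ_apply', ihj, map_div₀]
  have hprod : ∀ j : ℕ, (∏ i ∈ Finset.range j, σ^[i] (σ c / c)) = σ^[j] c / c := by
    intro j
    induction j with
    | zero => simp [hc]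
    | succ j ih =>
      rw [Finset.prod_range_succ, ih, hdiv, ← Function.iterate_succ_apply]
      have := hne j
      field_simp
  have h1 := hprod (m + 1)
  rw [hper, div_self hc, Finset.prod_range_succ', Function.iterate_zero_apply] at h1
  have h2 : c / σ c = ∏ i ∈ Finset.range m, σ^[i + 1] (σ c / c) := by
    rw [← inv_div, ← eq_inv_of_mul_eq_one_left h1]
  rw [h2]
  exact prod_mem fun i _ => hmem (i + 1)

theorem ratio_mem {c : L} (hc : c ≠ 0) :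
    ∃ h : c / SemilinearAut.baseAut g c ∈ A, π ⟨_, h⟩ ≠ 0 := by
  set σ := SemilinearAut.baseAut g
  have hσc : σ c ≠ 0 := by simpa using hc
  have both : c / σ c ∈ A ∧ σ c / c ∈ A := by
    rcases A.mem_or_inv_mem (σ c / c) with h | h
    · exact ⟨hg.inv_ratio_mem hc h, h⟩
    · rw [inv_div] at h
      refine ⟨h, ?_⟩
      have := hg.inv_ratio_mem (inv_ne_zero hc) (by
        rw [map_inv₀, inv_div_inv]; exact h)
      rwa [map_inv₀, inv_div_inv] at this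
  refine ⟨both.1, fun h0 => zero_ne_one (α := k) ?_⟩
  have h1 : (⟨_, both.1⟩ * ⟨_, both.2⟩ : A) = 1 :=
    Subtype.ext (by show c / σ c * (σ c / c) = 1; field_simp)
  have h2 := congrArg π h1
  rwa [map_mul, map_one, h0, zero_mul] at h2

/-- **`g = e` on twists.** -/
theorem smul_twist_eq [IsAlgClosed k] {d : ℕ} (hd : 1 ≤ d) (hdk : (d : k) ≠ 0)
    (T : M.Twist d) :
    g • Pic0.mk ⟨T.D, T.degree_D⟩ = (e : ℤ) • Pic0.mk ⟨T.D, T.degree_D⟩ := by
  have hgg : g • T.g ≠ 0 := (smul_ne_zero_iff_ne g).mpr T.g_ne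
  have hge : T.g ^ e ≠ 0 := pow_ne_zero _ T.g_ne
  have hr1 : M.s₁.rd T.g = algebraMap k Kb T.c₁ := congrArg Prod.fst T.rd_g
  have hr2 : M.s₂.rd T.g = algebraMap k Kb T.c₂ := congrArg Prod.snd T.rd_g
  have hn1 : M.s₁.rd (T.g ^ e) ≠ 0 := by
    rw [Sheet.rd_pow T.g_int.1, hr1]; simpa using pow_ne_zero e T.c₁_ne
  have hn2 : M.s₂.rd (T.g ^ e) ≠ 0 := by
    rw [Sheet.rd_pow T.g_int.2, hr2]; simpa using pow_ne_zero e T.c₂_ne
  have hinv : Integral₂ M.s₁ M.s₂ (T.g ^ e)⁻¹ :=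
    ⟨Sheet.inv_mem_of_rd_ne (T.g_int.pow e).1 hn1, Sheet.inv_mem_of_rd_ne (T.g_int.pow e).2 hn2⟩
  set Dz := g • T.D - (e : ℤ) • T.D with hDz
  set gz := (g • T.g) * (T.g ^ e)⁻¹ with hgzdef
  have hgz : rd₂ M.s₁ M.s₂ gz = 1 := by
    rw [hgzdef, rd₂_mul (hg.integral T.g_int) hinv]
    refine Prod.ext ?_ ?_
    · show M.s₁.rd (g • T.g) * M.s₁.rd (T.g ^ e)⁻¹ = 1
      rw [hg.rd₁ _ T.g_int.1, Sheet.rd_inv (T.g_int.pow e).1 hn1, Sheet.rd_pow T.g_int.1, hr1,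
        hg.φ_algebraMap, map_pow, mul_inv_cancel₀]
      simpa using pow_ne_zero e T.c₁_ne
    · show M.s₂.rd (g • T.g) * M.s₂.rd (T.g ^ e)⁻¹ = 1
      rw [hg.rd₂' _ T.g_int.2, Sheet.rd_inv (T.g_int.pow e).2 hn2, Sheet.rd_pow T.g_int.2, hr2,
        hg.φ_algebraMap, map_pow, mul_inv_cancel₀]
      simpa using pow_ne_zero e T.c₂_ne
  let Tz : M.Twist d :=
    { D := Dz, g := gz, g_ne := mul_ne_zero hgg (inv_ne_zero hge)
      div := fun v => by
        have h3 := SemilinearAut.ord_smul g (g⁻¹ • v) T.g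
        rw [smul_inv_smul] at h3
        rw [v.ord_mul hgg (inv_ne_zero hge), v.ord_inv, ord_pow, h3, ← T.div, ← T.div, hDz,
          Finsupp.sub_apply, SemilinearAut.divisor_smul_apply, Finsupp.smul_apply, smul_eq_mul]
        ring
      degree_D := by
        rw [hDz, map_sub, SemilinearAut.degree_smul, map_zsmul, T.degree_D, smul_zero, sub_zero]
      g_int := (hg.integral T.g_int).mul hinv, c₁ := 1, c₂ := 1
      c₁_ne := one_ne_zero, c₂_ne := one_ne_zero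
      rd_g := by rw [hgz, map_one]; rfl }
  have hdiag : ∀ z ∈ M.nodes, ∃ m, ∃ w ∈ M.twistLevel Tz.D m,
      valAt z.1 w.1 ≠ 0 ∧ valAt z.1 w.1 = valAt z.2 w.2 := by
    intro z hz
    obtain ⟨N, hN, hlev⟩ := exists_twist_level T hd
    obtain ⟨l, -, hex⟩ := hlev N le_rfl
    obtain ⟨ab, hab, hab0⟩ := hex z hz
    obtain ⟨hm1, hm2⟩ := T.mem_rr hd hN hab
    have hgl := (M.mem_gl_one.mp (T.pow_smul_mem_gl hd hN hab)).2.2 z hz
    obtain ⟨a, ha, hai, rfl⟩ := hab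
    have ha0 : a ≠ 0 := by rintro rfl; simp at hab0
    set j := e * (d - 1) with hj
    have hint : Integral₂ M.s₁ M.s₂ ((g • a) * a ^ j * T.g ^ e) :=
      ((hg.integral hai).mul (hai.pow _)).mul (T.g_int.pow _)
    refine ⟨N + j * N, _, rd₂_mem_redSpace M.π_surjective ?_ hint, ?_⟩
    · rw [mem_riemannRochSpace_iff]
      intro v
      right
      have hga : g • a ≠ 0 := (smul_ne_zero_iff_ne g).mpr ha0
      have h1 := ((mem_riemannRochSpace_iff.mp (hg.smul_mem_rr ha)) v).resolve_left hga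
      have h2 := ((mem_riemannRochSpace_iff.mp ha) v).resolve_left ha0
      rw [v.ord_mul (mul_ne_zero hga (pow_ne_zero _ ha0)) hge,
        v.ord_mul hga (pow_ne_zero _ ha0), ord_pow, ord_pow, ← T.div v]
      show -(Dz + (N + j * N) • M.Px) v ≤ _
      rw [Finsupp.add_apply, Finsupp.smul_apply, nsmul_eq_mul] at h1 h2
      rw [hDz, Finsupp.add_apply, Finsupp.sub_apply, Finsupp.smul_apply, Finsupp.smul_apply,
        nsmul_eq_mul, smul_eq_mul, Nat.cast_add, Nat.cast_mul, hj, Nat.cast_mul, Nat.cast_sub hd,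
        Nat.cast_one]
      have h3 : (0 : ℤ) ≤ (e : ℤ) * ((d : ℤ) - 1) :=
        mul_nonneg (Int.natCast_nonneg e) (by omega)
      nlinarith [mul_le_mul_of_nonneg_left h2 h3]
    · have hd1 := M.rrK.deg_one
      have hreg1 : M.s₁.rd a ∈ Reg M.P₁ := rrSpace_nsmul_le_reg _ _ hm1
      have hreg2 : M.s₂.rd a ∈ Reg M.P₁ := M.reg_P₂ ▸ rrSpace_nsmul_le_reg _ _ hm2
      have hpow : ∀ {u : Kb}, u ∈ Reg M.P₁ → ∀ i : ℕ, u ^ i ∈ Reg M.P₁ := by
        intro u hu i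
        induction i with
        | zero => simpa using one_mem_reg M.P₁
        | succ i ih => rw [pow_succ]; exact mul_mem_reg ih hu
      have key : ∀ {v : Place k Kb} {r : Kb} (c : k), v ∈ M.Z → r ∈ Reg M.P₁ →
          valAt v (hg.φ r * r ^ j * algebraMap k Kb c ^ e) = (c * valAt v r ^ d) ^ e := by
        intro v r c hv hr
        rw [← map_pow, valAt_mul_reg hd1 (mul_mem_reg (hg.φ_reg r hr) (hpow hr j))
            (algebraMap_mem_reg _ _) hv.1, valAt_mul_reg hd1 (hg.φ_reg r hr) (hpow hr j) hv.1,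
          hg.valAt_φ hv hr, valAt_pow_reg hd1 hr hv.1, valAt_algebraMap, ← pow_add, mul_pow,
          ← pow_mul, mul_comm]
        congr 2
        rw [hj]
        obtain ⟨d', rfl⟩ : ∃ d', d = d' + 1 := ⟨d - 1, by omega⟩
        rw [Nat.add_sub_cancel]
        ring
      have hz1 := (M.P₁_of_node hz).1
      have hz2 := (M.P₁_of_node hz).2
      change valAt z.1 (T.c₁ • M.s₁.rd a ^ d) = valAt z.2 (T.c₂ • M.s₂.rd a ^ d) at hgl
      rw [valAt_smul_reg hd1 _ (hpow hreg1 d) hz1, valAt_pow_reg hd1 hreg1 hz1,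
        valAt_smul_reg hd1 _ (hpow hreg2 d) hz2, valAt_pow_reg hd1 hreg2 hz2] at hgl
      have e1 : (rd₂ M.s₁ M.s₂ ((g • a) * a ^ j * T.g ^ e)).1 =
          hg.φ (M.s₁.rd a) * M.s₁.rd a ^ j * algebraMap k Kb T.c₁ ^ e := by
        show M.s₁.rd _ = _
        rw [Sheet.rd_mul (mul_mem (hg.mem₁ _ hai.1) (hai.pow _).1) (T.g_int.pow _).1,
          Sheet.rd_mul (hg.mem₁ _ hai.1) (hai.pow _).1, hg.rd₁ _ hai.1, Sheet.rd_pow hai.1,
          Sheet.rd_pow T.g_int.1, hr1]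
      have e2 : (rd₂ M.s₁ M.s₂ ((g • a) * a ^ j * T.g ^ e)).2 =
          hg.φ (M.s₂.rd a) * M.s₂.rd a ^ j * algebraMap k Kb T.c₂ ^ e := by
        show M.s₂.rd _ = _
        rw [Sheet.rd_mul (mul_mem (hg.mem₂ _ hai.2) (hai.pow _).2) (T.g_int.pow _).2,
          Sheet.rd_mul (hg.mem₂ _ hai.2) (hai.pow _).2, hg.rd₂' _ hai.2, Sheet.rd_pow hai.2,
          Sheet.rd_pow T.g_int.2, hr2]
      rw [e1, e2, key T.c₁ hz.1 hreg1, key T.c₂ hz.2.1 hreg2, hgl]
      refine ⟨pow_ne_zero _ ?_, rfl⟩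
      rw [← hgl]
      exact mul_ne_zero T.c₁_ne (pow_ne_zero _ hab0)
  have hne := M.rr_ne_bot_of_trivial hd hdk Tz hgz hdiag
  obtain ⟨u, hu, hu0⟩ := Submodule.exists_mem_ne_zero_of_ne_bot hne
  obtain ⟨E, hE, hE0⟩ := M.rrF.exists_div hu0
  have hneg : -Tz.D = E := by
    refine eq_of_le_of_degree_eq M.rrF.deg_one (Finsupp.le_def.mpr fun v => ?_)
      (by rw [map_neg, Tz.degree_D, neg_zero, hE0])
    rw [Finsupp.neg_apply, hE]
    exact ((mem_riemannRochSpace_iff.mp hu) v).resolve_left hu0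
  have hprin : Dz ∈ Divisor.principal (K := L) (F := F) := by
    have hEp : E ∈ Divisor.principal (K := L) (F := F) := ⟨u, hu0, hE⟩
    rw [← hneg] at hEp
    simpa using neg_mem hEp
  rw [← sub_eq_zero]
  have hmk : g • Pic0.mk ⟨T.D, T.degree_D⟩ - (e : ℤ) • Pic0.mk ⟨T.D, T.degree_D⟩ =
      Pic0.mk (SemilinearAut.degZeroSMulHom g ⟨T.D, T.degree_D⟩ -
        (e : ℤ) • (⟨T.D, T.degree_D⟩ : Divisor.degZero (K := L) (F := F))) := rfl
  rw [hmk]
  refine (QuotientAddGroup.eq_zero_iff _).mpr ?_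
  rw [AddSubgroup.mem_addSubgroupOf]
  exact hprin

end SqFrobenius

omit hg in
/-- A nonzero regular function clearing the poles of `u` and killing all possible nodes. -/
theorem exists_reg_denominator [IsAlgClosed k] {u : Kb} (hu : u ≠ 0) :
    ∃ b : Kb, b ≠ 0 ∧ b ∈ Reg M.P₁ ∧ b * u ∈ Reg M.P₁ ∧
      (∀ v ∈ M.Z, valAt v b = 0) ∧ ∀ v ∈ M.Z, valAt v (b * u) = 0 := by
  classical
  obtain ⟨D, hD, -⟩ := M.rrK.exists_div hu
  set E : Divisor k Kb := (-D ⊔ 0) + ∑ v ∈ M.finite_Z.toFinset, Finsupp.single v (1 : ℤ) with hE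
  have hsum : ∀ w : Place k Kb, (∑ v ∈ M.finite_Z.toFinset, Finsupp.single v (1 : ℤ)) w =
      if w ∈ M.Z then 1 else 0 := fun w => by
    rw [Finsupp.finsetSum_apply]
    simp [Finsupp.single_apply]
  have hE0 : 0 ≤ E := by
    refine Finsupp.le_def.mpr fun w => ?_
    rw [hE, Finsupp.add_apply, hsum, Finsupp.sup_apply, Finsupp.zero_apply]
    split_ifs <;> omega
  obtain ⟨z, hz⟩ := M.nodes_nonempty
  obtain ⟨n₀, hn⟩ := exists_reg_ord M.rrK M.P₁_nonneg M.P₁_ne_zero E hE0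
  obtain ⟨b, hb, hb0, -, hbE⟩ := hn n₀ le_rfl z.1 (M.P₁_of_node hz).1
  have hbreg : b ∈ Reg M.P₁ := rrSpace_nsmul_le_reg _ _ hb
  have hord : ∀ w, M.P₁ w = 0 → -D w + (if w ∈ M.Z then 1 else 0) ≤ w.ord b ∧
      (if w ∈ M.Z then 1 else 0) ≤ w.ord b := by
    intro w hw
    have h := hbE w hw
    rw [hE, Finsupp.add_apply, hsum, Finsupp.sup_apply, Finsupp.zero_apply,
      Finsupp.neg_apply] at h
    exact ⟨le_trans (by gcongr; exact le_sup_left) h,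
      le_trans (le_add_of_nonneg_left le_sup_right) h⟩
  have hbu : b * u ∈ Reg M.P₁ := fun w hw => Or.inr (by
    have := (hord w hw).1
    rw [w.ord_mul hb0 hu, ← hD]
    split_ifs at this <;> omega)
  refine ⟨b, hb0, hbreg, hbu, fun v hv => ?_, fun v hv => ?_⟩
  · refine (valAt_eq_zero_iff (M.rrK.deg_one v) (hbreg v hv.1)).mpr (Or.inr ?_)
    have := (hord v hv.1).2
    rw [if_pos hv] at this
    exact this
  · refine (valAt_eq_zero_iff (M.rrK.deg_one v) (hbu v hv.1)).mpr (Or.inr ?_)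
    have := (hord v hv.1).1
    rw [if_pos hv] at this
    rw [v.ord_mul hb0 hu, ← hD]
    omega

omit hg in
/-- Any pair of nonzero functions on the two sheets is the reduction of a quotient. -/
theorem exists_lift_pair [IsAlgClosed k] {u₁ u₂ : Kb} (h₁ : u₁ ≠ 0) (h₂ : u₂ ≠ 0) :
    ∃ h h' : F, Integral₂ M.s₁ M.s₂ h ∧ Integral₂ M.s₁ M.s₂ h' ∧
      M.s₁.rd h' ≠ 0 ∧ M.s₂.rd h' ≠ 0 ∧
      M.s₁.rd h = u₁ * M.s₁.rd h' ∧ M.s₂.rd h = u₂ * M.s₂.rd h' := by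
  obtain ⟨b₁, hb₁, r₁, s₁', z₁, w₁⟩ := M.exists_reg_denominator h₁
  obtain ⟨b₂, hb₂, r₂, s₂', z₂, w₂⟩ := M.exists_reg_denominator h₂
  have hU : ((b₁ * u₁, b₂ * u₂) : Kb × Kb) ∈ M.U ∧ ((b₁, b₂) : Kb × Kb) ∈ M.U := by
    constructor
    · simpa using M.U.add_mem (M.pair_zero_mem_U s₁' w₁) (M.zero_pair_mem_U s₂' w₂)
    · simpa using M.U.add_mem (M.pair_zero_mem_U r₁ z₁) (M.zero_pair_mem_U r₂ z₂)
  obtain ⟨⟨-, -, _, a, -, hai, ha⟩, ⟨-, -, _, a', -, hai', ha'⟩⟩ := hU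
  refine ⟨a, a', hai, hai', ?_, ?_, ?_, ?_⟩
  · rw [show M.s₁.rd a' = b₁ from congrArg Prod.fst ha']; exact hb₁
  · rw [show M.s₂.rd a' = b₂ from congrArg Prod.snd ha']; exact hb₂
  · rw [show M.s₁.rd a' = b₁ from congrArg Prod.fst ha',
      show M.s₁.rd a = b₁ * u₁ from congrArg Prod.fst ha, mul_comm]
  · rw [show M.s₂.rd a' = b₂ from congrArg Prod.snd ha',
      show M.s₂.rd a = b₂ * u₂ from congrArg Prod.snd ha, mul_comm]

/-- One sheet: a normalised reduction invariant up to a constant and a `d`-th power. -/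
theorem SqFrobenius.sheet_ratio {s : Sheet π F Kb} (hmem : ∀ a ∈ s.W, g • a ∈ s.W)
    (hrd : ∀ a ∈ s.W, s.rd (g • a) = hg.φ (s.rd a)) {f : F} {c : L} {d : ℕ}
    {a : k} {u : Kb} (hc : c • f ∈ s.W) (hc0 : s.rd (c • f) ≠ 0)
    (hH : hg.φ (s.rd (c • f)) = algebraMap k Kb a * u ^ d * s.rd (c • f)) :
    (g • f) / f ∈ s.W ∧ ∃ b : k, b ≠ 0 ∧ s.rd ((g • f) / f) = algebraMap k Kb (b * a) * u ^ d := by
  have hcne : c ≠ 0 := by rintro rfl; simp at hc0
  obtain ⟨hr, hr0⟩ := hg.ratio_mem hcne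
  set f₀ := c • f with hf₀
  have hinv := Sheet.inv_mem_of_rd_ne hc hc0
  have hq : (g • f₀) * f₀⁻¹ ∈ s.W := mul_mem (hmem _ hc) hinv
  have hq1 : s.rd ((g • f₀) * f₀⁻¹) = algebraMap k Kb a * u ^ d := by
    rw [Sheet.rd_mul (hmem _ hc) hinv, hrd _ hc, Sheet.rd_inv hc hc0, hH,
      mul_inv_cancel_right₀ hc0]
  have heq : (g • f) / f =
      algebraMap L F (c / SemilinearAut.baseAut g c) * ((g • f₀) * f₀⁻¹) := by
    rw [hf₀, Algebra.smul_def, smul_mul', SemilinearAut.smul_algebraMap, map_div₀]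
    have h1 : algebraMap L F c ≠ 0 := by simpa using hcne
    have h2 : algebraMap L F (SemilinearAut.baseAut g c) ≠ 0 := by simpa using hcne
    field_simp
  refine ⟨by rw [heq]; exact mul_mem (Sheet.algebraMap_mem hr) hq, _, hr0, ?_⟩
  rw [heq, Sheet.rd_mul (Sheet.algebraMap_mem hr) hq, hq1, Sheet.rd_algebraMap hr, map_mul,
    mul_assoc]

/-- A class `[D]`, `d D = div f`, whose normalised reductions are `φ`-invariant up to constants and
`d`-th powers is moved by `g` by the class of a twist (any `d`). -/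
theorem SqFrobenius.exists_twist_smul_sub [IsAlgClosed k] {d : ℕ}
    (D : Divisor.degZero (K := L) (F := F)) {f : F} (hf : f ≠ 0)
    (hfD : ∀ v, (d : ℤ) * (D : Divisor L F) v = v.ord f)
    (H₁ : ∃ c : L, c • f ∈ M.s₁.W ∧ M.s₁.rd (c • f) ≠ 0 ∧ ∃ (a : k) (u : Kb), a ≠ 0 ∧ u ≠ 0 ∧
      hg.φ (M.s₁.rd (c • f)) = algebraMap k Kb a * u ^ d * M.s₁.rd (c • f))
    (H₂ : ∃ c : L, c • f ∈ M.s₂.W ∧ M.s₂.rd (c • f) ≠ 0 ∧ ∃ (a : k) (u : Kb), a ≠ 0 ∧ u ≠ 0 ∧
      hg.φ (M.s₂.rd (c • f)) = algebraMap k Kb a * u ^ d * M.s₂.rd (c • f)) :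
    ∃ T : M.Twist d, Pic0.mk ⟨T.D, T.degree_D⟩ = g • Pic0.mk D - Pic0.mk D := by
  obtain ⟨c₁, hc₁, hc₁0, a₁, u₁, ha₁, hu₁, hH₁⟩ := H₁
  obtain ⟨c₂, hc₂, hc₂0, a₂, u₂, ha₂, hu₂, hH₂⟩ := H₂
  obtain ⟨w₁, b₁, hb₁, e₁⟩ := hg.sheet_ratio hg.mem₁ hg.rd₁ hc₁ hc₁0 hH₁
  obtain ⟨w₂, b₂, hb₂, e₂⟩ := hg.sheet_ratio hg.mem₂ hg.rd₂' hc₂ hc₂0 hH₂
  obtain ⟨h, h', hi, hi', n₁, n₂, q₁, q₂⟩ := M.exists_lift_pair hu₁ hu₂
  have m₁ : M.s₁.rd h ≠ 0 := by rw [q₁]; exact mul_ne_zero hu₁ n₁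
  have m₂ : M.s₂.rd h ≠ 0 := by rw [q₂]; exact mul_ne_zero hu₂ n₂
  have hh0 : h ≠ 0 := by rintro rfl; simp at m₁
  have hh'0 : h' ≠ 0 := by rintro rfl; simp at n₁
  have hiinv : Integral₂ M.s₁ M.s₂ h⁻¹ :=
    ⟨Sheet.inv_mem_of_rd_ne hi.1 m₁, Sheet.inv_mem_of_rd_ne hi.2 m₂⟩
  obtain ⟨Dh, hDh, hDh0⟩ := M.rrF.exists_div hh0
  obtain ⟨Dh', hDh', hDh'0⟩ := M.rrF.exists_div hh'0
  have hgf : g • f ≠ 0 := (smul_ne_zero_iff_ne g).mpr hf
  have hD0 : Divisor.degree (D : Divisor L F) = 0 := D.2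
  set Dy := g • (D : Divisor L F) - D + (Dh' - Dh) with hDy
  have hDy0 : Divisor.degree Dy = 0 := by
    rw [hDy, map_add, map_sub, map_sub, SemilinearAut.degree_smul, hD0, hDh0, hDh'0]
    simp
  set gy := (g • f) / f * (h' * h⁻¹) ^ d with hgy
  let Ty : M.Twist d :=
    { D := Dy, g := gy
      g_ne := mul_ne_zero (div_ne_zero hgf hf) (pow_ne_zero _ (mul_ne_zero hh'0 (inv_ne_zero hh0)))
      div := fun v => by
        have h3 := SemilinearAut.ord_smul g (g⁻¹ • v) f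
        rw [smul_inv_smul] at h3
        rw [hgy, v.ord_mul (div_ne_zero hgf hf)
            (pow_ne_zero _ (mul_ne_zero hh'0 (inv_ne_zero hh0))), ord_pow, div_eq_mul_inv,
          v.ord_mul hgf (inv_ne_zero hf), v.ord_inv, v.ord_mul hh'0 (inv_ne_zero hh0), v.ord_inv,
          h3, ← hfD, ← hfD, ← hDh, ← hDh', hDy, Finsupp.add_apply, Finsupp.sub_apply,
          Finsupp.sub_apply, SemilinearAut.divisor_smul_apply]
        ring
      degree_D := hDy0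
      g_int := (show Integral₂ M.s₁ M.s₂ _ from ⟨w₁, w₂⟩).mul ((hi'.mul hiinv).pow d)
      c₁ := b₁ * a₁, c₂ := b₂ * a₂
      c₁_ne := mul_ne_zero hb₁ ha₁, c₂_ne := mul_ne_zero hb₂ ha₂
      rd_g := by
        have hmi := hi'.mul hiinv
        refine Prod.ext ?_ ?_
        · show M.s₁.rd gy = _
          rw [hgy, Sheet.rd_mul w₁ (hmi.pow d).1, Sheet.rd_pow hmi.1, Sheet.rd_mul hi'.1 hiinv.1,
            Sheet.rd_inv hi.1 m₁, e₁, q₁, mul_assoc, ← mul_pow,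
            show u₁ * (M.s₁.rd h' * (u₁ * M.s₁.rd h')⁻¹) = 1 by field_simp, one_pow, mul_one]
        · show M.s₂.rd gy = _
          rw [hgy, Sheet.rd_mul w₂ (hmi.pow d).2, Sheet.rd_pow hmi.2, Sheet.rd_mul hi'.2 hiinv.2,
            Sheet.rd_inv hi.2 m₂, e₂, q₂, mul_assoc, ← mul_pow,
            show u₂ * (M.s₂.rd h' * (u₂ * M.s₂.rd h')⁻¹) = 1 by field_simp, one_pow, mul_one] }
  refine ⟨Ty, ?_⟩
  have hmk : g • Pic0.mk D - Pic0.mk D = Pic0.mk (SemilinearAut.degZeroSMulHom g D - D) := rfl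
  rw [hmk, ← sub_eq_zero]
  refine (QuotientAddGroup.eq_zero_iff _).mpr ?_
  rw [AddSubgroup.mem_addSubgroupOf]
  show Dy - (g • (D : Divisor L F) - (D : Divisor L F)) ∈ Divisor.principal
  rw [hDy, add_sub_cancel_left]
  exact sub_mem ⟨h', hh'0, hDh'⟩ ⟨h, hh0, hDh⟩

end MonoDatum

end FermatLib.Igusa.Mono
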