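import Fermat.Agent.Igusa.LevelShift
import Mathlib.NumberTheory.ModularForms.CongruenceSubgroups
import Mathlib.RingTheory.Invariant.Basic
import Mathlib.Algebra.Ring.Action.End

/-!
# The ring of level `n` modular functions with integral expansions

For a coefficient ring `φ : R →+* ℂ`, `levelRing φ n` is the ring of `Γ(n)`-invariant functions
on the upper half plane whose expansion at every cusp is a Laurent series in
`exp (2 π i τ / n)` with coefficients in the image of `φ`.
-/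

set_option autoImplicit false

noncomputable section

open Complex UpperHalfPlane Function ModularCurve CongruenceSubgroup
open scoped MatrixGroups

namespace FermatLib.Igusa

variable {R : Type*} [CommRing R] (φ : R →+* ℂ) (n : ℕ)

theorem coeffMap_injective {S T : Type*} [CommRing S] [CommRing T] {g : S →+* T}
    (hg : Injective g) : Injective (coeffMap g) := fun x y h => by
  ext k
  exact hg (by simpa using congrArg (fun z : LaurentSeries T => z.coeff k) h)

/-- See the module docstring. -/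
def levelRing : Subring (ℍ → ℂ) where
  carrier := {f | (∀ γ ∈ Gamma n, ∀ τ : ℍ, f (γ • τ) = f τ) ∧
    ∀ γ : SL(2, ℤ), ∃ F : LaurentSeries R, HasExp n (fun τ => f (γ • τ)) (coeffMap φ F)}
  zero_mem' := ⟨fun _ _ _ => rfl, fun _ => ⟨0, by rw [map_zero]; exact HasExp.zero⟩⟩
  one_mem' := ⟨fun _ _ _ => rfl, fun _ => ⟨1, by rw [map_one]; exact HasExp.one⟩⟩
  add_mem' := by
    rintro a b ⟨ha, ha'⟩ ⟨hb, hb'⟩
    refine ⟨fun γ hγ τ => by simp only [Pi.add_apply, ha γ hγ, hb γ hγ], fun γ => ?_⟩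
    obtain ⟨F, hF⟩ := ha' γ
    obtain ⟨G, hG⟩ := hb' γ
    exact ⟨F + G, by rw [map_add]; exact hF.add hG⟩
  neg_mem' := by
    rintro a ⟨ha, ha'⟩
    refine ⟨fun γ hγ τ => by simp only [Pi.neg_apply, ha γ hγ], fun γ => ?_⟩
    obtain ⟨F, hF⟩ := ha' γ
    exact ⟨-F, by rw [map_neg]; exact hF.neg⟩
  mul_mem' := by
    rintro a b ⟨ha, ha'⟩ ⟨hb, hb'⟩
    refine ⟨fun γ hγ τ => by simp only [Pi.mul_apply, ha γ hγ, hb γ hγ], fun γ => ?_⟩
    obtain ⟨F, hF⟩ := ha' γ
    obtain ⟨G, hG⟩ := hb' γ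
    exact ⟨F * G, by rw [map_mul]; exact hF.mul hG⟩

/-- The constants. -/
def levelC : R →+* levelRing φ n where
  toFun r := ⟨fun _ => φ r, fun _ _ _ => rfl,
    fun _ => ⟨HahnSeries.single 0 r, by rw [coeffMap_single]; exact HasExp.const (φ r)⟩⟩
  map_one' := Subtype.ext (funext fun _ => map_one φ)
  map_mul' a b := Subtype.ext (funext fun _ => map_mul φ a b)
  map_zero' := Subtype.ext (funext fun _ => map_zero φ)
  map_add' a b := Subtype.ext (funext fun _ => map_add φ a b)

@[simp]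
theorem levelC_apply (r : R) (τ : ℍ) : (levelC φ n r : ℍ → ℂ) τ = φ r := rfl

instance levelRingAlgebra : Algebra R (levelRing φ n) := (levelC φ n).toAlgebra

theorem algebraMap_levelRing : algebraMap R (levelRing φ n) = levelC φ n := rfl

instance levelRingAction : MulSemiringAction SL(2, ℤ) (levelRing φ n) where
  smul γ f := ⟨fun τ => (f : ℍ → ℂ) (γ⁻¹ • τ), by
    refine ⟨fun δ hδ τ => ?_, fun δ => ?_⟩
    · have hm : γ⁻¹ * δ * γ ∈ Gamma n := by
        simpa using (Gamma_normal n).conj_mem δ hδ γ⁻¹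
      have h := f.2.1 _ hm (γ⁻¹ • τ)
      rw [smul_smul, mul_inv_cancel_right, mul_smul] at h
      exact h
    · obtain ⟨F, hF⟩ := f.2.2 (γ⁻¹ * δ)
      exact ⟨F, hF.congr fun τ => by rw [mul_smul]⟩⟩
  one_smul f := Subtype.ext (funext fun τ =>
    congrArg (f : ℍ → ℂ) (by rw [inv_one, one_smul]))
  mul_smul γ δ f := Subtype.ext (funext fun τ =>
    congrArg (f : ℍ → ℂ) (by rw [mul_inv_rev, mul_smul]))
  smul_zero _ := Subtype.ext rfl
  smul_one _ := Subtype.ext rfl
  smul_add _ _ _ := Subtype.ext rfl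
  smul_mul _ _ _ := Subtype.ext rfl

@[simp]
theorem coe_levelSmul (γ : SL(2, ℤ)) (f : levelRing φ n) (τ : ℍ) :
    ((γ • f : levelRing φ n) : ℍ → ℂ) τ = (f : ℍ → ℂ) (γ⁻¹ • τ) := rfl

theorem smul_levelC (γ : SL(2, ℤ)) (r : R) : γ • levelC φ n r = levelC φ n r := rfl

theorem smul_eq_of_mem_Gamma {γ : SL(2, ℤ)} (hγ : γ ∈ Gamma n) (f : levelRing φ n) :
    γ • f = f :=
  Subtype.ext (funext fun τ => f.2.1 _ (inv_mem hγ) τ)

theorem neg_one_smul_levelRing (f : levelRing φ n) : (-1 : SL(2, ℤ)) • f = f :=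
  Subtype.ext (funext fun τ => by
    rw [coe_levelSmul, show ((-1 : SL(2, ℤ))⁻¹) = -1 from inv_eq_of_mul_eq_one_right (by simp),
      ModularGroup.SL_neg_smul, one_smul])

/-- The group through which `SL(2, ℤ)` acts on `levelRing φ n`. -/
def levelGroup : Subgroup (RingAut (levelRing φ n)) :=
  (MulSemiringAction.toRingAut SL(2, ℤ) (levelRing φ n)).range

/-- The map `SL(2, ℤ) → levelGroup φ n`. -/
def toLevelGroup : SL(2, ℤ) →* levelGroup φ n :=
  (MulSemiringAction.toRingAut SL(2, ℤ) (levelRing φ n)).rangeRestrict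

theorem toLevelGroup_surjective : Surjective (toLevelGroup φ n) :=
  MonoidHom.rangeRestrict_surjective _

@[simp]
theorem toLevelGroup_smul (γ : SL(2, ℤ)) (f : levelRing φ n) :
    toLevelGroup φ n γ • f = γ • f := rfl

theorem Gamma_le_ker_toLevelGroup : Gamma n ≤ (toLevelGroup φ n).ker := fun γ hγ =>
  MonoidHom.mem_ker.mpr <| Subtype.ext <| RingEquiv.ext fun f =>
    smul_eq_of_mem_Gamma φ n hγ f

instance finite_levelGroup [NeZero n] : Finite (levelGroup φ n) := by
  haveI : (toLevelGroup φ n).ker.FiniteIndex :=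
    Subgroup.finiteIndex_of_le (Gamma_le_ker_toLevelGroup φ n)
  exact Finite.of_equiv _
    (QuotientGroup.quotientKerEquivOfSurjective (toLevelGroup φ n)
      (toLevelGroup_surjective φ n)).toEquiv

section Expansion

variable {φ n} [NeZero n] (hφ : Injective φ)

/-- The expansion of `τ ↦ f (γ τ)`. -/
def levelExpFun (γ : SL(2, ℤ)) (f : levelRing φ n) : LaurentSeries R := (f.2.2 γ).choose

omit [NeZero n] in
theorem hasExp_levelExpFun (γ : SL(2, ℤ)) (f : levelRing φ n) :
    HasExp n (fun τ => (f : ℍ → ℂ) (γ • τ)) (coeffMap φ (levelExpFun γ f)) :=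
  (f.2.2 γ).choose_spec

include hφ in
theorem levelExpFun_eq {γ : SL(2, ℤ)} {f : levelRing φ n} {F : LaurentSeries R}
    (h : HasExp n (fun τ => (f : ℍ → ℂ) (γ • τ)) (coeffMap φ F)) : levelExpFun γ f = F :=
  coeffMap_injective hφ ((hasExp_levelExpFun γ f).unique h)

/-- The expansion at the cusp `γ ∞`, as a ring homomorphism. -/
def levelExp (γ : SL(2, ℤ)) : levelRing φ n →+* LaurentSeries R where
  toFun := levelExpFun γ
  map_one' := levelExpFun_eq hφ (by rw [map_one]; exact HasExp.one)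
  map_mul' a b := levelExpFun_eq hφ (by
    rw [map_mul]; exact (hasExp_levelExpFun γ a).mul (hasExp_levelExpFun γ b))
  map_zero' := levelExpFun_eq hφ (by rw [map_zero]; exact HasExp.zero)
  map_add' a b := levelExpFun_eq hφ (by
    rw [map_add]; exact (hasExp_levelExpFun γ a).add (hasExp_levelExpFun γ b))

theorem hasExp_levelExp (γ : SL(2, ℤ)) (f : levelRing φ n) :
    HasExp n (fun τ => (f : ℍ → ℂ) (γ • τ)) (coeffMap φ (levelExp hφ γ f)) :=
  hasExp_levelExpFun γ f

theorem levelExp_eq {γ : SL(2, ℤ)} {f : levelRing φ n} {F : LaurentSeries R}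
    (h : HasExp n (fun τ => (f : ℍ → ℂ) (γ • τ)) (coeffMap φ F)) : levelExp hφ γ f = F :=
  levelExpFun_eq hφ h

theorem levelExp_injective (γ : SL(2, ℤ)) : Injective (levelExp (φ := φ) (n := n) hφ γ) := by
  intro f g h
  have h1 := hasExp_levelExp hφ γ f
  rw [h] at h1
  have h2 := HasExp.eq_fun h1 (hasExp_levelExp hφ γ g)
  refine Subtype.ext (funext fun τ => ?_)
  simpa using congrFun h2 (γ⁻¹ • τ)

include hφ in
theorem isDomain_levelRing : IsDomain (levelRing φ n) :=
  haveI : IsDomain R := hφ.isDomain φ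
  (levelExp_injective hφ 1).isDomain _

theorem levelExp_levelC (γ : SL(2, ℤ)) (r : R) :
    levelExp hφ γ (levelC φ n r) = HahnSeries.single 0 r :=
  levelExp_eq hφ (by rw [coeffMap_single]; exact HasExp.const (φ r))

theorem levelExp_smul (γ δ : SL(2, ℤ)) (f : levelRing φ n) :
    levelExp hφ γ (δ • f) = levelExp hφ (δ⁻¹ * γ) f :=
  levelExp_eq hφ ((hasExp_levelExp hφ (δ⁻¹ * γ) f).congr fun τ => by
    rw [coe_levelSmul, mul_smul])

theorem levelExp_one_smul (δ : SL(2, ℤ)) (f : levelRing φ n) :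
    levelExp hφ 1 (δ⁻¹ • f) = levelExp hφ δ f := by
  rw [levelExp_smul, inv_inv, mul_one]

theorem levelExp_neg (γ : SL(2, ℤ)) (f : levelRing φ n) :
    levelExp hφ (-γ) f = levelExp hφ γ f :=
  levelExp_eq hφ ((hasExp_levelExp hφ γ f).congr fun τ => by
    rw [ModularGroup.SL_neg_smul])

/-- Translation multiplies the coefficients by roots of unity. -/
theorem levelExp_mul_T_coeff (γ : SL(2, ℤ)) (b : ℤ) (f : levelRing φ n) (k : ℤ) :
    φ ((levelExp hφ (γ * ModularGroup.T ^ b) f).coeff k) =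
      φ ((levelExp hφ γ f).coeff k) * zetaU n ^ (b * k) := by
  have h : HasExp n (fun τ => (f : ℍ → ℂ) ((γ * ModularGroup.T ^ b) • τ))
      (twistSeries (zetaU n) b (coeffMap φ (levelExp hφ γ f))) :=
    ((hasExp_levelExp hφ γ f).translate b).congr fun τ => by rw [mul_smul]
  have := (hasExp_levelExp hφ (γ * ModularGroup.T ^ b) f).unique h
  simpa using congrArg (fun z : LaurentSeries ℂ => z.coeff k) this

include hφ in
/-- A function without poles at any cusp is constant. -/
theorem exists_eq_levelC_of_forall_coeff_eq_zero (f : levelRing φ n)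
    (h : ∀ (γ : SL(2, ℤ)) (k : ℤ), k < 0 → (levelExp hφ γ f).coeff k = 0) :
    ∃ r : R, f = levelC φ n r := by
  haveI := isDomain_levelRing (n := n) hφ
  haveI := Fintype.ofFinite (levelGroup φ n)
  set c := (f : ℍ → ℂ) UpperHalfPlane.I with hc
  set P : ℍ → ℂ := fun τ => ∏ g : levelGroup φ n, (((g • f : levelRing φ n) : ℍ → ℂ) τ - c)
    with hP
  have hexp : ∀ g : levelGroup φ n, ∃ F : LaurentSeries ℂ,
      HasExp n (fun τ => ((g • f : levelRing φ n) : ℍ → ℂ) τ - c) F ∧
        ∀ k < 0, F.coeff k = 0 := by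
    intro g
    obtain ⟨δ, rfl⟩ := toLevelGroup_surjective φ n g
    refine ⟨coeffMap φ (levelExp hφ δ⁻¹ f) - HahnSeries.C c, ?_, fun k hk => ?_⟩
    · exact ((hasExp_levelExp hφ δ⁻¹ f).sub (HasExp.const c)).congr fun τ => by simp
    · simp [h δ⁻¹ k hk, HahnSeries.coeff_single_of_ne (ne_of_lt hk)]
  choose F hF hF0 using hexp
  have hPexp : HasExp n P (∏ g, F g) := (HasExp.prod Finset.univ fun g _ => hF g).congr fun τ => by
    simp [hP, Finset.prod_apply]
  have hPneg : ∀ k < 0, (∏ g, F g).coeff k = 0 := by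
    obtain ⟨q, hq⟩ : ∃ q : PowerSeries ℂ, ∏ g, F g = HahnSeries.ofPowerSeries ℤ ℂ q := by
      refine ⟨∏ g, PowerSeries.mk fun i : ℕ => (F g).coeff (i + 0), ?_⟩
      rw [map_prod]
      refine Finset.prod_congr rfl fun g _ => ?_
      conv_lhs => rw [eq_single_mul_mk (F g) (hF0 g)]
      simp
    intro k hk
    rw [hq]
    exact ofPowerSeries_coeff_of_neg q hk
  have hinv : ∀ (γ : SL(2, ℤ)) (τ : ℍ), P (γ • τ) = P τ := fun γ τ => by
    simp only [hP]
    refine Fintype.prod_equiv (Equiv.mulLeft (toLevelGroup φ n γ⁻¹)) _ _ fun g => ?_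
    rw [Equiv.coe_mulLeft, mul_smul, toLevelGroup_smul, coe_levelSmul, inv_inv]
  have hconst := eq_const_of_SL_invariant hPexp.mdifferentiable hinv
    (hPexp.isBoundedAtImInfty hPneg)
  have h0 : P = 0 := by
    rw [hconst]
    funext τ
    exact Finset.prod_eq_zero (Finset.mem_univ 1) (by simp [hc])
  have hzero : (∏ g, F g) = 0 := HasExp.eq_zero_of_zero (h0 ▸ hPexp)
  obtain ⟨g, -, hg⟩ := Finset.prod_eq_zero_iff.mp hzero
  obtain ⟨δ, rfl⟩ := toLevelGroup_surjective φ n g
  have hfc : ∀ τ : ℍ, (f : ℍ → ℂ) τ = c := fun τ => by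
    have h1 := HasExp.eq_fun (hg ▸ hF (toLevelGroup φ n δ)) HasExp.zero
    have h2 := congrFun h1 (δ • τ)
    simpa [sub_eq_zero] using h2
  refine ⟨(levelExp hφ 1 f).coeff 0, Subtype.ext (funext fun τ => ?_)⟩
  have h1 : coeffMap φ (levelExp hφ 1 f) = HahnSeries.C c :=
    (hasExp_levelExp hφ 1 f).unique ((HasExp.const c).congr fun σ => by rw [one_smul, hfc])
  have h2 := congrArg (fun z : LaurentSeries ℂ => z.coeff 0) h1
  simp only [coeffMap_coeff, HahnSeries.C_apply, HahnSeries.coeff_single_same] at h2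
  rw [levelC_apply, h2, hfc]

end Expansion

end FermatLib.Igusa
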