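import Fermat.Agent.Igusa.DegreeSubst
import Fermat.Agent.Igusa.LevelRing
import Fermat.Agent.Modular.JScale
import Mathlib.RingTheory.Polynomial.Cyclotomic.Roots

/-!
# `j (d τ)` and `Δ (d τ) / Δ (τ)` in the level ring, with their expansions at all cusps
-/

set_option autoImplicit false

noncomputable section

open Complex UpperHalfPlane Function ModularCurve CongruenceSubgroup
open scoped Real MatrixGroups ModularForm

namespace FermatLib.Igusa

open FermatLib.Modular (jFun jScaleFun)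

/-- The lower left entry. -/
def lowerLeft (γ : SL(2, ℤ)) : ℤ := γ 1 0

/-- The slope `a` in `diag (d, 1) γ = M (a b; 0 e)`. -/
def triA (d : ℕ) (γ : SL(2, ℤ)) : ℕ := Int.gcd d (lowerLeft γ)

/-- The denominator `e` in `diag (d, 1) γ = M (a b; 0 e)`. -/
def triE (d : ℕ) (γ : SL(2, ℤ)) : ℕ := d / triA d γ

theorem triA_dvd (d : ℕ) (γ : SL(2, ℤ)) : triA d γ ∣ d :=
  Int.natCast_dvd_natCast.mp (Int.gcd_dvd_left _ _)

theorem triA_mul_triE (d : ℕ) (γ : SL(2, ℤ)) : triA d γ * triE d γ = d :=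
  Nat.mul_div_cancel' (triA_dvd d γ)

theorem triA_ne_zero (d : ℕ) [NeZero d] (γ : SL(2, ℤ)) : triA d γ ≠ 0 := fun h => by
  have := triA_mul_triE d γ
  rw [h, zero_mul] at this
  exact NeZero.ne d this.symm

theorem triE_ne_zero (d : ℕ) [NeZero d] (γ : SL(2, ℤ)) : triE d γ ≠ 0 := fun h => by
  have := triA_mul_triE d γ
  rw [h, mul_zero] at this
  exact NeZero.ne d this.symm

theorem triE_eq_one {N d : ℕ} [NeZero d] (hd : d ∣ N) {γ : SL(2, ℤ)} (hγ : γ ∈ Gamma0 N) :
    triA d γ = d ∧ triE d γ = 1 := by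
  have hC : (d : ℤ) ∣ lowerLeft γ :=
    (Int.natCast_dvd_natCast.mpr hd).trans (Modular.Gamma0_mem_iff_dvd.mp hγ)
  have ha : triA d γ = d :=
    Nat.dvd_antisymm (triA_dvd d γ) (Int.natCast_dvd_natCast.mp (Int.dvd_coe_gcd dvd_rfl hC))
  exact ⟨ha, by rw [triE, ha, Nat.div_self (Nat.pos_of_ne_zero (NeZero.ne d))]⟩

/-- `diag (d, 1) γ = M (a b; 0 e)` as transformations of the upper half plane. -/
theorem exists_triData (d : ℕ) [NeZero d] (γ : SL(2, ℤ)) :
    ∃ (M : SL(2, ℤ)) (b : ℤ) (σ : ℍ → ℍ),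
      (∀ τ, (σ τ : ℂ) = ((triA d γ : ℂ) * τ + b) / (triE d γ : ℂ)) ∧
      ∀ τ, ModularForm.heckeDiagMatrix d • (γ • τ) = M • σ τ ∧
        UpperHalfPlane.denom γ τ = (triE d γ : ℂ) * UpperHalfPlane.denom M (σ τ) := by
  have hdet := γ.2
  rw [Matrix.det_fin_two] at hdet
  set A : ℤ := γ 0 0 with hA
  set B : ℤ := γ 0 1 with hB
  set C : ℤ := γ 1 0 with hC
  set D : ℤ := γ 1 1 with hD
  set a : ℕ := triA d γ with ha
  set e : ℕ := triE d γ with he
  have hae : (a : ℤ) * e = d := by exact_mod_cast triA_mul_triE d γ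
  have ha0 : (a : ℤ) ≠ 0 := by exact_mod_cast triA_ne_zero d γ
  obtain ⟨Q, hQ⟩ : (a : ℤ) ∣ C := Int.gcd_dvd_right _ _
  set P : ℤ := e * A with hP
  have hPa : (d : ℤ) * A = a * P := by rw [hP, ← hae]; ring
  have hcop : IsCoprime (e : ℤ) Q := by
    refine Int.isCoprime_iff_gcd_eq_one.mpr ?_
    have h1 : a = Int.gcd (d : ℤ) C := rfl
    rw [← hae, hQ, Int.gcd_mul_left, Int.natAbs_natCast] at h1
    exact Nat.eq_of_mul_eq_mul_left (Nat.pos_of_ne_zero (triA_ne_zero d γ))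
      (by rw [← h1, mul_one])
  have hAQ : IsCoprime A Q := ⟨D, -B * a, by linear_combination hdet + B * hQ⟩
  obtain ⟨u, v, huv⟩ := hcop.mul_left hAQ
  rw [← hP] at huv
  have hlow : P * D - Q * ((d : ℤ) * B) = e := by
    rw [hP, ← hae]; linear_combination (e : ℤ) * hdet + (e : ℤ) * B * hQ
  let M : SL(2, ℤ) := ⟨!![P, -v; Q, u], by
    rw [Matrix.det_fin_two_of]; linear_combination huv⟩
  set b : ℤ := u * (d * B) + v * D with hb
  have h01 : (d : ℤ) * B = P * b + -v * e := by rw [hb]; linear_combination (-v) * hlow - ((d : ℤ) * B) * huv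
  have h11 : D = Q * b + u * e := by rw [hb]; linear_combination u * hlow - D * huv
  have haR : (0 : ℝ) < a := by exact_mod_cast Nat.pos_of_ne_zero (triA_ne_zero d γ)
  have heR : (0 : ℝ) < e := by exact_mod_cast Nat.pos_of_ne_zero (triE_ne_zero d γ)
  refine ⟨M, b, fun τ => ModularForm.upperTriangularGL a b e (mul_pos haR heR).ne' • τ,
    fun τ => by simp [Modular.coe_upperTriangularGL_smul haR heR], fun τ => ?_⟩
  set s := ModularForm.upperTriangularGL a b e (mul_pos haR heR).ne' • τ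
  have hs : (s : ℂ) = ((a : ℂ) * τ + b) / e := by
    simp [s, Modular.coe_upperTriangularGL_smul haR heR]
  have he0 : (e : ℂ) ≠ 0 := by exact_mod_cast triE_ne_zero d γ
  have hse : (e : ℂ) * s = (a : ℂ) * τ + b := by rw [hs, mul_div_cancel₀ _ he0]
  have hPC : (d : ℂ) * A = (a : ℂ) * P := by exact_mod_cast hPa
  have hQC : (C : ℂ) = (a : ℂ) * Q := by exact_mod_cast hQ
  have h01C : (d : ℂ) * B = P * b + -v * e := by exact_mod_cast h01
  have h11C : (D : ℂ) = Q * b + u * e := by exact_mod_cast h11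
  have hdγ : UpperHalfPlane.denom γ τ = (C : ℂ) * τ + D := by
    simp [UpperHalfPlane.denom, hC, hD]
  have hdM : UpperHalfPlane.denom M s = (Q : ℂ) * s + u := by
    simp [UpperHalfPlane.denom, M]
  have hden : UpperHalfPlane.denom γ τ = (e : ℂ) * UpperHalfPlane.denom M s := by
    rw [hdγ, hdM]
    linear_combination (τ : ℂ) * hQC + h11C - (Q : ℂ) * hse
  refine ⟨?_, hden⟩
  apply UpperHalfPlane.ext
  rw [ModularForm.coe_heckeDiagMatrix_smul (NeZero.ne d),
    UpperHalfPlane.coe_specialLinearGroup_apply, UpperHalfPlane.coe_specialLinearGroup_apply]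
  simp only [algebraMap_int_eq, eq_intCast, M, Matrix.of_apply, Matrix.cons_val',
    Matrix.cons_val_zero, Matrix.cons_val_one, Matrix.cons_val_fin_one, Complex.ofReal_intCast,
    ← hA, ← hB, ← hC, ← hD]
  have hd0 := UpperHalfPlane.denom_ne_zero γ τ
  rw [hden] at hd0
  rw [← hdγ, hden, hdM, mul_div_assoc', div_eq_div_iff (hdM ▸ hd0) (hdM ▸ right_ne_zero_of_mul hd0)]
  push_cast
  linear_combination ((Q : ℂ) * s + u) *
    ((τ : ℂ) * hPC + h01C - (P : ℂ) * hse)

theorem discriminant_smul (M : SL(2, ℤ)) (τ : ℍ) :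
    ModularForm.discriminant (M • τ) =
      UpperHalfPlane.denom M τ ^ 12 * ModularForm.discriminant τ := by
  have h := Modular.slash_SL_apply_eq (Modular.slash_SL_eq_self CuspForm.discriminant M) τ
  rw [CuspForm.coe_discriminant] at h
  exact h

/-- The function `τ ↦ Δ (d τ) / Δ (τ)`. -/
def deltaQuotFun (d : ℕ) (τ : ℍ) : ℂ :=
  ModularForm.discriminant (ModularForm.heckeDiagMatrix d • τ) / ModularForm.discriminant τ

theorem deltaQuotFun_ne_zero (d : ℕ) (τ : ℍ) : deltaQuotFun d τ ≠ 0 :=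
  div_ne_zero (ModularForm.discriminant_ne_zero _) (ModularForm.discriminant_ne_zero _)

/-- The expansion of `1 / Δ`. -/
def deltaInvModC (R : Type*) [CommRing R] : LaurentSeries R :=
  HahnSeries.single (-1 : ℤ) 1 *
    HahnSeries.ofPowerSeries ℤ R (dedekindEtaUnitInv.map (Int.castRingHom R))

theorem deltaSeriesModC_mul_inv (R : Type*) [CommRing R] :
    deltaSeriesModC R * deltaInvModC R = 1 := by
  rw [deltaSeriesModC, deltaInvModC, mul_mul_mul_comm, HahnSeries.single_mul_single,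
    ← map_mul, ← map_mul, dedekindEtaUnit_mul_inv]
  simp

theorem coeffMap_deltaInvModC {R S : Type*} [CommRing R] [CommRing S] (f : R →+* S) :
    coeffMap f (deltaInvModC R) = deltaInvModC S := by
  rw [deltaInvModC, deltaInvModC, map_mul, coeffMap_single, map_one, coeffMap_ofPowerSeries_map]

theorem coeffMap_C {R S : Type*} [CommRing R] [CommRing S] (f : R →+* S) (r : R) :
    coeffMap f (HahnSeries.C r) = HahnSeries.C (f r) := by
  rw [HahnSeries.C_apply, coeffMap_single, HahnSeries.C_apply]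

/-- The coefficient ring embeds in `ℂ` and contains the `N`-th roots of unity. -/
structure HasLevelZeta {R : Type*} [CommRing R] (φ : R →+* ℂ) (N : ℕ) : Prop where
  injective : Injective φ
  exists_zeta : ∃ z : R, φ z = zetaU N

section

variable {R : Type*} [CommRing R] {φ : R →+* ℂ} {N : ℕ} [NeZero N] (hR : HasLevelZeta φ N)

include hR in
theorem exists_zetaUnit : ∃ z : Rˣ, φ (z : R) = zetaU N ∧ IsPrimitiveRoot (z : R) N := by
  obtain ⟨z, hz⟩ := hR.exists_zeta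
  have hprim : IsPrimitiveRoot z N :=
    IsPrimitiveRoot.of_map_of_injective (hz ▸ isPrimitiveRoot_zetaU N) hR.injective
  exact ⟨(hprim.isUnit (NeZero.ne N)).unit, hz, hprim⟩

/-- A primitive `N`-th root of unity in `R`. -/
def zetaR : Rˣ := (exists_zetaUnit hR).choose

theorem map_zetaR : φ (zetaR hR : R) = zetaU N := (exists_zetaUnit hR).choose_spec.1

theorem zetaU_eq_pow {e : ℕ} (he : e ∣ N) : zetaU e = zetaU N ^ (N / e) := by
  obtain ⟨c, rfl⟩ := he
  have he0 : e ≠ 0 := fun h => NeZero.ne (e * c) (by rw [h, zero_mul])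
  have hc0 : c ≠ 0 := fun h => NeZero.ne (e * c) (by rw [h, mul_zero])
  rw [Nat.mul_div_cancel_left c (Nat.pos_of_ne_zero he0), zetaU, zetaU, ← Complex.exp_nat_mul]
  congr 1
  have h1 : (e : ℂ) ≠ 0 := by exact_mod_cast he0
  have h2 : (c : ℂ) ≠ 0 := by exact_mod_cast hc0
  push_cast
  field_simp

/-- The exponent in `u` of the substitution attached to `d` and `γ`. -/
def triM (N d : ℕ) (γ : SL(2, ℤ)) : ℕ := N / d * triA d γ * triA d γ

theorem triM_ne_zero {d : ℕ} [NeZero d] (hd : d ∣ N) (γ : SL(2, ℤ)) : triM N d γ ≠ 0 :=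
  mul_ne_zero (mul_ne_zero (Nat.div_ne_zero_iff_of_dvd hd |>.mpr ⟨NeZero.ne N, NeZero.ne d⟩)
    (triA_ne_zero d γ)) (triA_ne_zero d γ)

theorem triM_eq {d : ℕ} (hd : d ∣ N) (γ : SL(2, ℤ)) :
    N * triA d γ = triE d γ * triM N d γ := by
  obtain ⟨c, hc⟩ := hd
  rcases Nat.eq_zero_or_pos d with rfl | hpos
  · exact absurd (by simpa using hc) (NeZero.ne N)
  rw [triM, hc, Nat.mul_div_cancel_left c hpos]
  calc d * c * triA d γ = triA d γ * triE d γ * c * triA d γ := by rw [triA_mul_triE]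
    _ = triE d γ * (c * triA d γ * triA d γ) := by ring

theorem exists_substitution {d : ℕ} [NeZero d] (hd : d ∣ N) (γ : SL(2, ℤ)) :
    ∃ (M : SL(2, ℤ)) (i : ℤ) (σ : ℍ → ℍ),
      (∀ τ, uParam 1 (σ τ) =
        ((Units.map (φ : R →* ℂ) (zetaR hR ^ i) : ℂˣ) : ℂ) * uParam N τ ^ triM N d γ) ∧
      ∀ τ, ModularForm.heckeDiagMatrix d • (γ • τ) = M • σ τ ∧
        UpperHalfPlane.denom γ τ = (triE d γ : ℂ) * UpperHalfPlane.denom M (σ τ) := by
  obtain ⟨M, b, σ, hσ, h⟩ := exists_triData d γ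
  refine ⟨M, ((N / triE d γ : ℕ) : ℤ) * b, σ, fun τ => ?_, h⟩
  have hed : triE d γ ∣ N := (Dvd.intro_left _ (triA_mul_triE d γ)).trans hd
  rw [uParam_one_triangular (triE_ne_zero d γ) (triM_eq hd γ) hσ, zetaU_eq_pow hed, map_zpow,
    Units.val_zpow_eq_zpow_val, zpow_mul, Units.coe_map, MonoidHom.coe_coe, map_zetaR,
    zpow_natCast]

include hR in
theorem exists_hasExp_jScaleFun {d : ℕ} [NeZero d] (hd : d ∣ N) (γ : SL(2, ℤ)) :
    ∃ i : ℤ, haveI := NeZero.mk (triM_ne_zero (N := N) hd γ)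
      HasExp N (fun τ => jScaleFun d (γ • τ))
        (coeffMap φ (qExpand R (triM N d γ) (twistUnit (zetaR hR ^ i) (jqModC R)))) := by
  haveI := NeZero.mk (triM_ne_zero (N := N) hd γ)
  obtain ⟨M, i, σ, hσ, h⟩ := exists_substitution hR hd γ
  refine ⟨i, ?_⟩
  rw [coeffMap_qExpand, coeffMap_twistUnit, coeffMap_jqModC']
  exact (hasExp_jFun.subst _ _ hσ).congr fun τ => by
    rw [Modular.jScaleFun_apply, (h τ).1, Modular.jFun_smul]

variable (hN : IsUnit (N : R))

include hR hN in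
theorem exists_hasExp_deltaQuotFun {d : ℕ} [NeZero d] (hd : d ∣ N) (γ : SL(2, ℤ)) :
    ∃ (i : ℤ) (c : Rˣ), haveI := NeZero.mk (triM_ne_zero (N := N) hd γ)
      HasExp N (fun τ => deltaQuotFun d (γ • τ))
        (coeffMap φ (HahnSeries.C (c : R) *
          qExpand R (triM N d γ) (twistUnit (zetaR hR ^ i) (deltaSeriesModC R)) *
            qExpand R N (deltaInvModC R))) ∧
      φ (c : R) = ((triE d γ : ℂ) ^ 12)⁻¹ := by
  haveI := NeZero.mk (triM_ne_zero (N := N) hd γ)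
  obtain ⟨M, i, σ, hσ, h⟩ := exists_substitution hR hd γ
  have hed : triE d γ ∣ N := (Dvd.intro_left _ (triA_mul_triE d γ)).trans hd
  have heu : IsUnit (triE d γ : R) := by
    obtain ⟨x, hx⟩ := hed
    have := hN
    rw [hx, Nat.cast_mul] at this
    exact isUnit_of_mul_isUnit_left this
  have hc : φ ((heu.unit ^ 12)⁻¹ : Rˣ) = ((triE d γ : ℂ) ^ 12)⁻¹ := by
    rw [← MonoidHom.coe_coe φ, ← Units.coe_map, map_inv, map_pow, Units.val_inv_eq_inv_val,
      Units.val_pow_eq_pow_val, Units.coe_map, IsUnit.unit_spec, MonoidHom.coe_coe, map_natCast]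
  refine ⟨i, (heu.unit ^ 12)⁻¹, ?_, hc⟩
  have hnum := hasExp_discriminant.subst _ _ hσ
  have hden : HasExp N ModularForm.discriminant (qExpand ℂ N (deltaSeriesModC ℂ)) :=
    hasExp_discriminant.scale
  have hinv : (qExpand ℂ N (deltaSeriesModC ℂ))⁻¹ = qExpand ℂ N (deltaInvModC ℂ) :=
    inv_eq_of_mul_eq_one_right (by rw [← map_mul, deltaSeriesModC_mul_inv, map_one])
  have := (hnum.const_mul ((triE d γ : ℂ) ^ 12)⁻¹).mul
    (hinv ▸ hden.inv ModularForm.discriminant_ne_zero)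
  rw [map_mul, map_mul, coeffMap_C, hc, coeffMap_qExpand, coeffMap_qExpand, coeffMap_twistUnit,
    coeffMap_deltaSeriesModC, coeffMap_deltaInvModC]
  refine this.congr fun τ => ?_
  have he0 : (triE d γ : ℂ) ≠ 0 := by exact_mod_cast triE_ne_zero d γ
  have hM : UpperHalfPlane.denom M (σ τ) ≠ 0 := UpperHalfPlane.denom_ne_zero M (σ τ)
  rw [deltaQuotFun, (h τ).1, discriminant_smul M, discriminant_smul γ, (h τ).2]
  simp only [Pi.mul_apply]
  field_simp

/-- `τ ↦ Δ (d τ) / Δ (τ)` is invariant under `Γ₀(N)` for `d ∣ N`. -/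
theorem deltaQuotFun_smul {d : ℕ} [NeZero d] (hd : d ∣ N) {γ : SL(2, ℤ)} (hγ : γ ∈ Gamma0 N)
    (τ : ℍ) : deltaQuotFun d (γ • τ) = deltaQuotFun d τ := by
  obtain ⟨M, b, σ, hσ, h⟩ := exists_triData d γ
  obtain ⟨ha, he⟩ := triE_eq_one hd hγ
  have hst : σ τ = ModularGroup.T ^ b • (ModularForm.heckeDiagMatrix d • τ) := by
    apply UpperHalfPlane.ext
    rw [hσ, ha, he, ModularGroup.coe_T_zpow_smul_eq,
      ModularForm.coe_heckeDiagMatrix_smul (NeZero.ne d)]
    push_cast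
    ring
  have hT : ∀ (c : ℤ) (s : ℍ), UpperHalfPlane.denom (ModularGroup.T ^ c : SL(2, ℤ)) s = 1 := by
    intro c s
    rw [ModularGroup.denom_apply]
    simp [ModularGroup.coe_T_zpow]
  have hM : UpperHalfPlane.denom M (σ τ) ≠ 0 := UpperHalfPlane.denom_ne_zero M (σ τ)
  rw [deltaQuotFun, deltaQuotFun, (h τ).1, discriminant_smul M, discriminant_smul γ, (h τ).2, he,
    hst, discriminant_smul, hT]
  rw [hst] at hM
  push_cast
  field_simp

/-- `j (d τ)` in the level ring. -/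
def jLevel (d : ℕ) [NeZero d] (hd : d ∣ N) : levelRing φ N :=
  ⟨jScaleFun d, fun γ hγ τ => Modular.jScaleFun_smul_of_mem
      ((Int.natCast_dvd_natCast.mpr hd).trans
        ((ZMod.intCast_zmod_eq_zero_iff_dvd _ _).mp (Gamma_mem.mp hγ).2.2.1)) τ,
    fun γ => ⟨_, (exists_hasExp_jScaleFun hR hd γ).choose_spec⟩⟩

/-- `Δ (d τ) / Δ (τ)` in the level ring. -/
def deltaQuot (d : ℕ) [NeZero d] (hd : d ∣ N) : levelRing φ N :=
  ⟨deltaQuotFun d, fun γ hγ τ => deltaQuotFun_smul hd (Gamma0_mem.mpr (Gamma_mem.mp hγ).2.2.1) τ,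
    fun γ => ⟨_, (exists_hasExp_deltaQuotFun hR hN hd γ).choose_spec.choose_spec.1⟩⟩

@[simp]
theorem coe_jLevel (d : ℕ) [NeZero d] (hd : d ∣ N) :
    (jLevel hR d hd : ℍ → ℂ) = jScaleFun d := rfl

@[simp]
theorem coe_deltaQuot (d : ℕ) [NeZero d] (hd : d ∣ N) :
    (deltaQuot hR hN d hd : ℍ → ℂ) = deltaQuotFun d := rfl

theorem exists_levelExp_jLevel {d : ℕ} [NeZero d] (hd : d ∣ N) (γ : SL(2, ℤ)) :
    ∃ i : ℤ, haveI := NeZero.mk (triM_ne_zero (N := N) hd γ)
      levelExp hR.injective γ (jLevel hR d hd) =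
        qExpand R (triM N d γ) (twistUnit (zetaR hR ^ i) (jqModC R)) :=
  ⟨_, levelExp_eq hR.injective (exists_hasExp_jScaleFun hR hd γ).choose_spec⟩

theorem exists_levelExp_deltaQuot {d : ℕ} [NeZero d] (hd : d ∣ N) (γ : SL(2, ℤ)) :
    ∃ (i : ℤ) (c : Rˣ), haveI := NeZero.mk (triM_ne_zero (N := N) hd γ)
      levelExp hR.injective γ (deltaQuot hR hN d hd) =
        HahnSeries.C (c : R) *
          qExpand R (triM N d γ) (twistUnit (zetaR hR ^ i) (deltaSeriesModC R)) *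
            qExpand R N (deltaInvModC R) := by
  obtain ⟨i, c, h, -⟩ := exists_hasExp_deltaQuotFun hR hN hd γ
  exact ⟨i, c, levelExp_eq hR.injective h⟩

theorem levelExp_one_jLevel {d : ℕ} [NeZero d] (hd : d ∣ N) :
    haveI : NeZero (N * d) := ⟨mul_ne_zero (NeZero.ne N) (NeZero.ne d)⟩
    levelExp hR.injective 1 (jLevel hR d hd) = qExpand R (N * d) (jqModC R) := by
  haveI : NeZero (N * d) := ⟨mul_ne_zero (NeZero.ne N) (NeZero.ne d)⟩
  refine levelExp_eq hR.injective ?_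
  rw [coeffMap_qExpand, coeffMap_jqModC', ← qExpand_qExpand d N]
  have h : HasExp 1 (jScaleFun d) (qExpand ℂ d (jqModC ℂ)) := by
    have := hasExp_jFun.subst (N := 1) (σ := fun τ => ModularForm.heckeDiagMatrix d • τ) 1 d
      fun τ => by
        rw [Units.val_one, one_mul, uParam, uParam, Periodic.qParam, Periodic.qParam,
          ← Complex.exp_nat_mul, ModularForm.coe_heckeDiagMatrix_smul (NeZero.ne d)]
        congr 1
        push_cast
        ring
    rwa [show twistUnit (1 : ℂˣ) (jqModC ℂ) = jqModC ℂ by ext k; simp] at this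
  exact h.scale.congr fun τ => by simp

include hR hN in
theorem exists_hasExp_deltaQuotFun_inv {d : ℕ} [NeZero d] (hd : d ∣ N) (γ : SL(2, ℤ)) :
    ∃ F : LaurentSeries R,
      HasExp N (fun τ => (deltaQuotFun d (γ • τ))⁻¹) (coeffMap φ F) := by
  haveI := NeZero.mk (triM_ne_zero (N := N) hd γ)
  obtain ⟨M, i, σ, hσ, h⟩ := exists_substitution hR hd γ
  have hinv : HasExp 1 (fun τ => (ModularForm.discriminant τ)⁻¹) (deltaInvModC ℂ) :=
    inv_eq_of_mul_eq_one_right (deltaSeriesModC_mul_inv ℂ) ▸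
      hasExp_discriminant.inv ModularForm.discriminant_ne_zero
  have hden : HasExp N ModularForm.discriminant (qExpand ℂ N (deltaSeriesModC ℂ)) :=
    hasExp_discriminant.scale
  have := ((hinv.subst _ _ hσ).const_mul ((triE d γ : ℂ) ^ 12)).mul hden
  refine ⟨HahnSeries.C ((triE d γ : R) ^ 12) *
      qExpand R (triM N d γ) (twistUnit (zetaR hR ^ i) (deltaInvModC R)) *
        qExpand R N (deltaSeriesModC R), ?_⟩
  rw [map_mul, map_mul, coeffMap_C, map_pow, map_natCast, coeffMap_qExpand, coeffMap_qExpand,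
    coeffMap_twistUnit, coeffMap_deltaSeriesModC, coeffMap_deltaInvModC]
  refine this.congr fun τ => ?_
  have he0 : (triE d γ : ℂ) ≠ 0 := by exact_mod_cast triE_ne_zero d γ
  have hM : UpperHalfPlane.denom M (σ τ) ≠ 0 := UpperHalfPlane.denom_ne_zero M (σ τ)
  rw [deltaQuotFun, (h τ).1, discriminant_smul M, discriminant_smul γ, (h τ).2]
  simp only [Pi.mul_apply]
  field_simp

/-- `τ ↦ Δ (τ) / Δ (d τ)` in the level ring. -/
def deltaQuotInv (d : ℕ) [NeZero d] (hd : d ∣ N) : levelRing φ N :=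
  ⟨fun τ => (deltaQuotFun d τ)⁻¹, fun γ hγ τ => congrArg (·⁻¹)
      (deltaQuotFun_smul hd (Gamma0_mem.mpr (Gamma_mem.mp hγ).2.2.1) τ),
    fun γ => ⟨_, (exists_hasExp_deltaQuotFun_inv hR hN hd γ).choose_spec⟩⟩

theorem deltaQuot_mul_inv (d : ℕ) [NeZero d] (hd : d ∣ N) :
    deltaQuot hR hN d hd * deltaQuotInv hR hN d hd = 1 :=
  Subtype.ext (funext fun τ => mul_inv_cancel₀ (deltaQuotFun_ne_zero d τ))

theorem smul_jLevel (d : ℕ) [NeZero d] (hd : d ∣ N) {γ : SL(2, ℤ)} (hγ : γ ∈ Gamma0 N) :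
    γ • jLevel hR d hd = jLevel hR d hd :=
  Subtype.ext (funext fun τ => by
    rw [coe_levelSmul, coe_jLevel, Modular.jScaleFun_smul_of_mem
      ((Int.natCast_dvd_natCast.mpr hd).trans (Modular.Gamma0_mem_iff_dvd.mp (inv_mem hγ)))])

theorem smul_deltaQuot (d : ℕ) [NeZero d] (hd : d ∣ N) {γ : SL(2, ℤ)} (hγ : γ ∈ Gamma0 N) :
    γ • deltaQuot hR hN d hd = deltaQuot hR hN d hd :=
  Subtype.ext (funext fun τ => by
    rw [coe_levelSmul, coe_deltaQuot, deltaQuotFun_smul hd (inv_mem hγ)])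

theorem smul_deltaQuotInv (d : ℕ) [NeZero d] (hd : d ∣ N) {γ : SL(2, ℤ)} (hγ : γ ∈ Gamma0 N) :
    γ • deltaQuotInv hR hN d hd = deltaQuotInv hR hN d hd :=
  Subtype.ext (funext fun τ => congrArg (·⁻¹) (deltaQuotFun_smul hd (inv_mem hγ) τ))

end

end FermatLib.Igusa

end
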