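import Fermat.Agent.Igusa.MonoTwist

/-!
The second chart: poles at the zeros of `T = x - c`, and the separation of poles.
-/

set_option autoImplicit false
set_option linter.style.haveILetI false

noncomputable section

open AlgebraicCurve

namespace FermatLib.Igusa.Mono

section Field

variable {K E : Type*} [Field K] [Field E] [Algebra K E] {P : Divisor K E} {t : E}

/-- A function in `L(D + aP)` which stays there after multiplication by `t ^ a` lies in `L(D)`. -/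
theorem mem_rr_of_pow_mul_mem (ht0 : t ≠ 0) (ht : ∀ v, P v = max (-v.ord t) 0) {D : Divisor K E}
    {a : ℕ} {f : E} (hf : f ∈ riemannRochSpace (D + a • P))
    (hf' : t ^ a * f ∈ riemannRochSpace (D + a • P)) : f ∈ riemannRochSpace D := by
  rw [mem_riemannRochSpace_iff] at hf hf' ⊢
  intro v
  rcases eq_or_ne f 0 with h0 | h0
  · exact Or.inl h0
  right
  have h1 := (hf v).resolve_left h0
  have h2 := (hf' v).resolve_left (mul_ne_zero (pow_ne_zero _ ht0) h0)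
  rw [v.ord_mul (pow_ne_zero _ ht0) h0, ord_pow] at h2
  rw [Finsupp.add_apply, Finsupp.smul_apply, nsmul_eq_mul] at h1 h2
  have h3 := ht v
  rcases le_or_gt (-v.ord t) 0 with h4 | h4
  · rw [max_eq_right h4] at h3
    rw [h3, mul_zero, add_zero] at h1
    exact h1
  · rw [max_eq_left h4.le] at h3
    rw [h3] at h2
    nlinarith

theorem ord_t_eq (ht : ∀ v, P v = max (-v.ord t) 0) (v : Place K E) :
    (P v = 0 ∧ 0 ≤ v.ord t) ∨ v.ord t = -P v := by
  have := ht v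
  omega

/-- Splitting a sum of a function with poles at `P` and one with poles at the zeros of `t`
preserves the pole bound. -/
theorem mem_rr_split (ht0 : t ≠ 0) (ht : ∀ v, P v = max (-v.ord t) 0) {M N : ℕ} {f₁ f₂ : E}
    (hr : t ^ N * (f₁ + f₂) ∈ riemannRochSpace ((N + N) • P))
    (h1 : f₁ ∈ riemannRochSpace (M • P)) (h2 : t ^ M * f₂ ∈ riemannRochSpace (M • P)) :
    f₁ ∈ riemannRochSpace (N • P) ∧ t ^ N * f₂ ∈ riemannRochSpace (N • P) := by
  simp only [mem_riemannRochSpace_iff, Finsupp.smul_apply, nsmul_eq_mul, ← forall_and] at hr h1 h2 ⊢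
  intro v
  have hpow : ∀ {u : E} (j : ℕ), t ^ j * u = 0 ∨ v.ord (t ^ j * u) = j * v.ord t + v.ord u := by
    intro u j
    rcases eq_or_ne u 0 with rfl | hu
    · simp
    · right; rw [v.ord_mul (pow_ne_zero _ ht0) hu, ord_pow]
  have hzero : ∀ {u : E} (j : ℕ), t ^ j * u = 0 → u = 0 := fun j h =>
    (mul_eq_zero.mp h).resolve_left (pow_ne_zero _ ht0)
  rcases ord_t_eq ht v with ⟨hP, hord⟩ | hord
  · have hzP : ∀ j : ℕ, -((j : ℤ) * P v) = 0 := fun j => by simp [hP]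
    have hr0 := hr v
    rw [hzP] at hr0
    have e1 : t ^ N * f₁ = 0 ∨ 0 ≤ v.ord (t ^ N * f₁) := by
      have hf1 : f₁ = 0 ∨ 0 ≤ v.ord f₁ := (h1 v).imp id fun h => by rwa [hzP] at h
      rcases hpow (u := f₁) N with h | h
      · exact Or.inl h
      · rw [h]
        refine hf1.imp (fun h' => by simp [h']) fun h' => ?_
        positivity
    refine ⟨(h1 v).imp id fun h => by rw [hzP] at h ⊢; exact h, ?_⟩
    rw [hzP]
    have h' := ord_add_ge v hr0 (h := -(t ^ N * f₁)) (n := 0) (by rwa [neg_eq_zero, ord_neg])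
    rwa [mul_add, add_neg_cancel_comm] at h'
  · have hf2 : f₂ = 0 ∨ 0 ≤ v.ord f₂ := by
      refine (h2 v).imp (hzero M) fun h => ?_
      rcases hpow (u := f₂) M with h' | h'
      · rw [hzero M h']; simp
      · rw [h', hord] at h; linarith
    have hr' : f₁ + f₂ = 0 ∨ -((N : ℤ) * P v) ≤ v.ord (f₁ + f₂) := by
      refine (hr v).imp (hzero N) fun h => ?_
      rcases hpow (u := f₁ + f₂) N with h' | h'
      · rw [hzero N h']
        simp only [Place.ord_zero]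
        have : 0 ≤ P v := by rw [ht v]; exact le_max_right _ _
        nlinarith
      · rw [h', hord, Nat.cast_add] at h; linarith
    have hP : 0 ≤ P v := by rw [ht v]; exact le_max_right _ _
    have hN : (0 : ℤ) ≤ (N : ℤ) * P v := mul_nonneg (Int.natCast_nonneg _) hP
    have e2 : -f₂ = 0 ∨ -((N : ℤ) * P v) ≤ v.ord (-f₂) := by
      rw [neg_eq_zero, ord_neg]
      exact hf2.imp id fun h => by omega
    refine ⟨?_, ?_⟩
    · have := ord_add_ge v hr' e2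
      rwa [add_neg_cancel_right] at this
    · rcases hpow (u := f₂) N with h' | h'
      · exact Or.inl h'
      · rw [h', hord]
        refine hf2.imp (fun h => by simp [h]) fun h => ?_
        linarith

end Field

universe uL uF uk uKb

namespace MonoDatum

variable {L : Type uL} {k : Type uk} [Field L] [Field k] [IsAlgClosed k] {A : ValuationSubring L}
  {π : A →+* k}
  {F : Type uF} {Kb : Type uKb} [Field F] [Algebra L F] [Field Kb] [Algebra k Kb] {q : ℕ}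
  (M : MonoDatum π F Kb q)

/-- A constant whose reduction avoids the values of `x` at the nodes. -/
structure Chart where
  c : L
  mem : c ∈ A
  ne_node : ∀ z ∈ M.nodes, valAt z.1 (M.s₁.rd M.x) ≠ π ⟨c, mem⟩

theorem nonempty_chart : Nonempty M.Chart := by
  obtain ⟨b, hb⟩ := ((M.finite_nodes.image fun z => valAt z.1 (M.s₁.rd M.x))).exists_notMem
  obtain ⟨a, rfl⟩ := M.π_surjective b
  exact ⟨⟨a, a.2, fun z hz h => hb ⟨z, hz, h⟩⟩⟩

variable {M} (C : M.Chart)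

/-- The function `x - c`. -/
def Chart.T : F := M.x - algebraMap L F C.c

omit [IsAlgClosed k] in
theorem Chart.T_int : Integral₂ M.s₁ M.s₂ C.T := M.x_integral.sub (integral₂_algebraMap C.mem)

omit [IsAlgClosed k] in
theorem Chart.rd_T : rd₂ M.s₁ M.s₂ C.T =
    (M.s₁.rd M.x - algebraMap k Kb (π ⟨C.c, C.mem⟩),
      M.s₂.rd M.x - algebraMap k Kb (π ⟨C.c, C.mem⟩)) := by
  rw [Chart.T, rd₂_sub M.x_integral (integral₂_algebraMap C.mem)]
  simp [rd₂, Sheet.rd_algebraMap C.mem]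

omit [IsAlgClosed k] in
theorem ord_sub_const {K E : Type*} [Field K] [Field E] [Algebra K E] (y : E) (a : K)
    (v : Place K E) : max (-v.ord (y - algebraMap K E a)) 0 = max (-v.ord y) 0 := by
  have key : ∀ (u : E) (b : K), max (-v.ord (u - algebraMap K E b)) 0 ≤ max (-v.ord u) 0 := by
    intro u b
    have h := ord_add_ge v (n := min (v.ord u) 0) (f := u) (h := -algebraMap K E b)
      (Or.inr (min_le_left _ _)) (Or.inr (by rw [ord_neg, ord_algebraMap]; exact min_le_right _ _))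
    rw [← sub_eq_add_neg] at h
    rcases h with h | h
    · simp [h]
    · omega
  refine le_antisymm (key y a) ?_
  have := key (y - algebraMap K E a) (-a)
  rwa [map_neg, sub_neg_eq_add, sub_add_cancel] at this

omit [IsAlgClosed k] in
theorem Chart.Px_eq (v : Place L F) : M.Px v = max (-v.ord C.T) 0 := by
  rw [Chart.T, ord_sub_const, M.Px_apply]

omit [IsAlgClosed k] in
theorem Chart.P₁_eq (v : Place k Kb) :
    M.P₁ v = max (-v.ord (rd₂ M.s₁ M.s₂ C.T).1) 0 := by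
  rw [C.rd_T, ord_sub_const, M.P₁_apply]

omit [IsAlgClosed k] in
theorem Chart.P₂_eq (v : Place k Kb) :
    M.P₂ v = max (-v.ord (rd₂ M.s₁ M.s₂ C.T).2) 0 := by
  rw [C.rd_T, ord_sub_const, M.P₂_apply]

omit [IsAlgClosed k] in
theorem Chart.rd_T_ne : (rd₂ M.s₁ M.s₂ C.T).1 ≠ 0 ∧ (rd₂ M.s₁ M.s₂ C.T).2 ≠ 0 := by
  constructor
  · intro h
    exact M.P₁_ne_zero (Finsupp.ext fun v => by rw [C.P₁_eq, h]; simp)
  · intro h
    exact M.P₂_ne_zero (Finsupp.ext fun v => by rw [C.P₂_eq, h]; simp)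

omit [IsAlgClosed k] in
theorem Chart.T_ne : C.T ≠ 0 := fun h => C.rd_T_ne.1 (by simp [h])

omit [IsAlgClosed k] in
theorem Chart.T_inv_int : Integral₂ M.s₁ M.s₂ (C.T)⁻¹ :=
  ⟨Sheet.inv_mem_of_rd_ne C.T_int.1 C.rd_T_ne.1, Sheet.inv_mem_of_rd_ne C.T_int.2 C.rd_T_ne.2⟩

omit [IsAlgClosed k] in
theorem Chart.node_val {z : Place k Kb × Place k Kb} (hz : z ∈ M.nodes) :
    valAt z.1 (rd₂ M.s₁ M.s₂ C.T).1 = valAt z.2 (rd₂ M.s₁ M.s₂ C.T).2 ∧
      valAt z.1 (rd₂ M.s₁ M.s₂ C.T).1 ≠ 0 := by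
  rw [C.rd_T]
  set a := π ⟨C.c, C.mem⟩
  have hneg : algebraMap k Kb (-a) ∈ Reg M.P₁ := algebraMap_mem_reg _ _
  have e1 := valAt_add_reg M.rrK.deg_one M.rd_x_mem_reg₁ hneg (M.P₁_of_node hz).1
  have e2 := valAt_add_reg M.rrK.deg_one M.rd_x_mem_reg₂ hneg (M.P₁_of_node hz).2
  rw [valAt_algebraMap, map_neg, ← sub_eq_add_neg, ← sub_eq_add_neg] at e1 e2
  refine ⟨by rw [e1, e2, M.valAt_x_node hz], ?_⟩
  rw [e1]
  exact sub_ne_zero.mpr (C.ne_node z hz)

/-- Multiplication by a fixed function, as a linear map. -/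
def mulLin {R E : Type*} [CommRing R] [CommRing E] [Algebra R E] (t : E) : E →ₗ[R] E :=
  LinearMap.mulLeft R t

/-- `L(D + a Px + b Qx)` where `Qx` is the zero divisor of `T`. -/
def Chart.space (D : Divisor L F) (a b : ℕ) : Submodule L F :=
  (riemannRochSpace (D + (a + b) • M.Px)).comap (LinearMap.mulLeft L (C.T ^ b))

omit [IsAlgClosed k] in
theorem Chart.mem_space {D : Divisor L F} {a b : ℕ} {f : F} :
    f ∈ C.space D a b ↔ C.T ^ b * f ∈ riemannRochSpace (D + (a + b) • M.Px) := Iff.rfl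

omit [IsAlgClosed k] in
theorem Chart.space_zero (D : Divisor L F) (a : ℕ) :
    C.space D a 0 = riemannRochSpace (D + a • M.Px) := by
  ext f
  simp [Chart.mem_space]

omit [IsAlgClosed k] in
theorem Chart.space_equiv (D : Divisor L F) (a b : ℕ) :
    FiniteDimensional L ↥(C.space D a b) ∧ Module.finrank L ↥(C.space D a b) =
      Module.finrank L ↥(riemannRochSpace (D + (a + b) • M.Px)) := by
  have h0 := pow_ne_zero b C.T_ne
  let e : ↥(C.space D a b) ≃ₗ[L] ↥(riemannRochSpace (D + (a + b) • M.Px)) :=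
    { toFun := fun f => ⟨C.T ^ b * (f : F), f.2⟩
      map_add' := fun f g => Subtype.ext (mul_add _ _ _)
      map_smul' := fun c f => Subtype.ext (mul_smul_comm c _ _)
      invFun := fun f => ⟨(C.T ^ b)⁻¹ * (f : F), by
        rw [Chart.mem_space, mul_inv_cancel_left₀ h0]; exact f.2⟩
      left_inv := fun f => Subtype.ext (inv_mul_cancel_left₀ h0 _)
      right_inv := fun f => Subtype.ext (mul_inv_cancel_left₀ h0 _) }
  haveI := M.rrF.finite_space (D + (a + b) • M.Px)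
  exact ⟨Module.Finite.equiv e.symm, e.finrank_eq⟩

omit [IsAlgClosed k] in
theorem Chart.mem_red_space {D : Divisor L F} {a b : ℕ} {f : Kb × Kb} :
    f ∈ M.red (C.space D a b) ↔ rd₂ M.s₁ M.s₂ C.T ^ b * f ∈ M.twistLevel D (a + b) := by
  constructor
  · rintro ⟨g, hg, hgi, rfl⟩
    exact ⟨C.T ^ b * g, hg, (C.T_int.pow b).mul hgi,
      by rw [rd₂_mul (C.T_int.pow b) hgi, rd₂_pow C.T_int]⟩
  · rintro ⟨g, hg, hgi, hrd⟩
    refine ⟨(C.T ^ b)⁻¹ * g, ?_, ?_, ?_⟩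
    · rw [Chart.mem_space, mul_inv_cancel_left₀ (pow_ne_zero _ C.T_ne)]
      exact hg
    · rw [← inv_pow]
      exact (C.T_inv_int.pow b).mul hgi
    · have hi : Integral₂ M.s₁ M.s₂ ((C.T ^ b)⁻¹ * g) := by
        rw [← inv_pow]; exact (C.T_inv_int.pow b).mul hgi
      have h := rd₂_mul (C.T_int.pow b) hi
      rw [mul_inv_cancel_left₀ (pow_ne_zero _ C.T_ne), hrd, rd₂_pow C.T_int] at h
      exact Prod.ext
        (mul_left_cancel₀ (pow_ne_zero _ C.rd_T_ne.1) (congrArg Prod.fst h)).symm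
        (mul_left_cancel₀ (pow_ne_zero _ C.rd_T_ne.2) (congrArg Prod.snd h)).symm

/-- The glued functions with poles bounded by `a` at `P` and `b` at the zeros of `T`. -/
def Chart.glue (a b : ℕ) : Submodule k (Kb × Kb) :=
  (M.gl one' (a + b)).comap (LinearMap.mulLeft k (rd₂ M.s₁ M.s₂ C.T ^ b))

omit [IsAlgClosed k] in
theorem Chart.mem_glue {a b : ℕ} {f : Kb × Kb} :
    f ∈ C.glue a b ↔ rd₂ M.s₁ M.s₂ C.T ^ b * f ∈ M.gl one' (a + b) := Iff.rfl

omit [IsAlgClosed k] in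
theorem Chart.glue_zero (a : ℕ) : C.glue a 0 = M.gl one' a := by
  ext f
  simp [Chart.mem_glue]

omit [IsAlgClosed k] in
theorem Chart.red_space_eq {D : Divisor L F} {N : ℕ}
    (h : ∀ n, N ≤ n → M.twistLevel D n = M.gl one' n) {a b : ℕ} (hab : N ≤ a + b) :
    M.red (C.space D a b) = C.glue a b := by
  ext f
  rw [C.mem_red_space, C.mem_glue, h _ hab]

omit [IsAlgClosed k] in
/-- Functions without poles on both sheets are constants. -/
theorem Chart.glue_inter {N : ℕ} {f : Kb × Kb} (h1 : f ∈ C.glue N 0) (h2 : f ∈ C.glue 0 N) :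
    ∃ a b : k, f = (algebraMap k Kb a, algebraMap k Kb b) ∧ (M.nodes.Nonempty → a = b) := by
  rw [C.glue_zero] at h1
  rw [C.mem_glue, zero_add] at h2
  have e1 : f.1 ∈ riemannRochSpace (0 : Divisor k Kb) :=
    mem_rr_of_pow_mul_mem C.rd_T_ne.1 C.P₁_eq (D := 0) (a := N) (by simpa using h1.1)
      (by simpa using h2.1)
  have e2 : f.2 ∈ riemannRochSpace (0 : Divisor k Kb) :=
    mem_rr_of_pow_mul_mem C.rd_T_ne.2 C.P₂_eq (D := 0) (a := N) (by simpa using h1.2.1)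
      (by simpa using h2.2.1)
  obtain ⟨a, ha⟩ := M.rrK.exists_eq_algebraMap e1
  obtain ⟨b, hb⟩ := M.rrK.exists_eq_algebraMap e2
  refine ⟨a, b, Prod.ext ha hb, fun ⟨z, hz⟩ => ?_⟩
  have := (M.mem_gl_one.mp h1).2.2 z hz
  rwa [ha, hb, valAt_algebraMap, valAt_algebraMap] at this

omit [IsAlgClosed k] in
theorem Chart.glue_split {K N : ℕ} {r f₁ f₂ : Kb × Kb} (hr : r ∈ C.glue N N)
    (h1 : f₁ ∈ C.glue K 0) (h2 : f₂ ∈ C.glue 0 K) (hsum : r = f₁ + f₂) :
    f₁ ∈ C.glue N 0 ∧ f₂ ∈ C.glue 0 N := by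
  subst hsum
  rw [C.mem_glue] at hr
  rw [C.glue_zero] at h1
  rw [C.mem_glue, zero_add] at h2
  obtain ⟨a1, b1⟩ := mem_rr_split C.rd_T_ne.1 C.P₁_eq (f₁ := f₁.1) (f₂ := f₂.1)
    (by simpa using hr.1) h1.1 (by simpa using h2.1)
  obtain ⟨a2, b2⟩ := mem_rr_split C.rd_T_ne.2 C.P₂_eq (f₁ := f₁.2) (f₂ := f₂.2)
    (by simpa using hr.2.1) h1.2.1 (by simpa using h2.2.1)
  have g1 : f₁ ∈ C.glue N 0 := by
    rw [C.glue_zero, M.mem_gl_one]
    exact ⟨a1, a2, (M.mem_gl_one.mp h1).2.2⟩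
  refine ⟨g1, ?_⟩
  rw [C.mem_glue, zero_add, M.mem_gl_one]
  refine ⟨by simpa using b1, by simpa using b2, fun z hz => ?_⟩
  obtain ⟨hTe, hT0⟩ := C.node_val hz
  obtain ⟨hz1, hz2⟩ := M.P₁_of_node hz
  -- compare with the node relation at level `K`
  have hK := (M.mem_gl_one.mp h2).2.2 z hz
  rw [Prod.fst_mul, Prod.snd_mul, Prod.pow_fst, Prod.pow_snd] at hK ⊢
  have hTreg1 : (rd₂ M.s₁ M.s₂ C.T).1 ∈ Reg M.P₁ := fun v hv => by
    right; rw [C.P₁_eq] at hv; omega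
  have hTreg2 : (rd₂ M.s₁ M.s₂ C.T).2 ∈ Reg M.P₁ := fun v hv => by
    right; rw [M.supp, C.P₂_eq] at hv; omega
  have hpow : ∀ {u : Kb}, u ∈ Reg M.P₁ → ∀ j : ℕ, u ^ j ∈ Reg M.P₁ := by
    intro u hu j
    induction j with
    | zero => simpa using one_mem_reg M.P₁
    | succ j ih => rw [pow_succ]; exact mul_mem_reg ih hu
  have hTN1 := hpow hTreg1 N
  have hTN2 := hpow hTreg2 N
  have hTK1 := hpow hTreg1 K
  have hTK2 := hpow hTreg2 K
  have hp1 : (rd₂ M.s₁ M.s₂ C.T).1 ^ N * f₂.1 ∈ Reg M.P₁ := rrSpace_nsmul_le_reg M.P₁ N b1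
  have hp2 : (rd₂ M.s₁ M.s₂ C.T).2 ^ N * f₂.2 ∈ Reg M.P₁ :=
    M.reg_P₂ ▸ rrSpace_nsmul_le_reg M.P₂ N b2
  have hm1 : (rd₂ M.s₁ M.s₂ C.T).1 ^ K * f₂.1 ∈ Reg M.P₁ :=
    rrSpace_nsmul_le_reg M.P₁ K (by simpa using h2.1)
  have hm2 : (rd₂ M.s₁ M.s₂ C.T).2 ^ K * f₂.2 ∈ Reg M.P₁ :=
    M.reg_P₂ ▸ rrSpace_nsmul_le_reg M.P₂ K (by simpa using h2.2.1)
  have hc1 : (rd₂ M.s₁ M.s₂ C.T).1 ^ K * ((rd₂ M.s₁ M.s₂ C.T).1 ^ N * f₂.1) =
      (rd₂ M.s₁ M.s₂ C.T).1 ^ N * ((rd₂ M.s₁ M.s₂ C.T).1 ^ K * f₂.1) := mul_left_comm _ _ _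
  have hc2 : (rd₂ M.s₁ M.s₂ C.T).2 ^ K * ((rd₂ M.s₁ M.s₂ C.T).2 ^ N * f₂.2) =
      (rd₂ M.s₁ M.s₂ C.T).2 ^ N * ((rd₂ M.s₁ M.s₂ C.T).2 ^ K * f₂.2) := mul_left_comm _ _ _
  have hd := M.rrK.deg_one
  have w1 := congrArg (valAt z.1) hc1
  have w2 := congrArg (valAt z.2) hc2
  rw [valAt_mul_reg hd hTK1 hp1 hz1, valAt_mul_reg hd hTN1 hm1 hz1,
    valAt_pow_reg hd hTreg1 hz1, valAt_pow_reg hd hTreg1 hz1] at w1
  rw [valAt_mul_reg hd hTK2 hp2 hz2, valAt_mul_reg hd hTN2 hm2 hz2,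
    valAt_pow_reg hd hTreg2 hz2, valAt_pow_reg hd hTreg2 hz2, ← hTe, ← hK, ← w1] at w2
  exact (mul_left_cancel₀ (pow_ne_zero _ hT0) w2).symm

end MonoDatum

end FermatLib.Igusa.Mono
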