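/-
The geometric input of S35 from a datum on the two modular sheets.
-/
import Fermat.Agent.Igusa.SqFrobMain
import Fermat.Agent.Igusa.MonoLevelDatum

/-!
# `SqFrobeniusOnNewPart` from the modular two-sheet datum

A `MonoDatum` on `monoSheetInf`, `monoSheetZero` with `x = j` and `Φ = (u ↦ u ^ q)` at every place
over `q` gives `SqFrobeniusOnNewPart`.
-/

set_option autoImplicit false
set_option linter.style.haveILetI false
set_option synthInstance.maxHeartbeats 400000

noncomputable section

open AlgebraicCurve ModularCurve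

namespace FermatLib.Igusa.Mono

open FermatLib.Modular.Corr

attribute [local instance] neZero_mul'

local notation "Qb" => AlgebraicClosure ℚ

/-- **`SqFrobeniusOnNewPart`** from the modular two-sheet data. -/
theorem sqFrobeniusOnNewPart_of_sheets
    (X : ∀ (q M : ℕ) [Fact q.Prime] [NeZero q] [NeZero M] (hqM : ¬ q ∣ M)
      (A : ValuationSubring Qb) (hA : A.LiesOverPrime q),
      ∃ D : MonoDatum (IsLocalRing.residue A) (fieldBar Qb (q * M))
        (modularFunctionFieldFullC (IsLocalRing.ResidueField A) M) q,
        D.s₁ = monoSheetInf hqM hA ∧ D.s₂ = monoSheetZero hqM hA ∧ D.x = jFq q M ∧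
        ∀ c, (D.Φ c : LaurentSeries (IsLocalRing.ResidueField A)) =
          qExpand (IsLocalRing.ResidueField A) q (c : LaurentSeries (IsLocalRing.ResidueField A))) :
    Galois.SqFrobeniusOnNewPart :=
  sqFrobeniusOnNewPart_of_levelDatum fun q M _ _ _ _ hqM A hA => by
    obtain ⟨D, h₁, h₂, hx, hΦ⟩ := X q M hqM A hA
    exact ⟨LevelDatum.ofSheets D h₁ h₂ hx, hΦ, semilinear_fullC M⟩

end FermatLib.Igusa.Mono
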