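/-
The Frobenius and `U_q` on the part of `J₀(qM)` killed by both push-forwards to `J₀(M)`.
-/
import Fermat.Agent.Igusa.SqFrobSheets
import Fermat.Agent.Galois.MazurP.AwayToric
import Fermat.Agent.Galois.MazurP.InstanceDatum
import Fermat.Agent.Galois.MazurP.DegeneracyU

/-!
# `F = q U_q` on the image of `F² - 1`

For `x` killed by both push-forwards, `y = F² x - x` is the class of a twist, so `w ∘ F` acts on
it as `-q`; as `U_q = -w` there, `F y = q U_q y`.
-/

set_option autoImplicit false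
set_option linter.style.haveILetI false
set_option synthInstance.maxHeartbeats 400000

noncomputable section

open AlgebraicCurve ModularCurve

namespace FermatLib.Galois

local notation "Qbar" => AlgebraicClosure ℚ
local notation "Γℚ" => (AlgebraicClosure ℚ ≃ₐ[ℚ] AlgebraicClosure ℚ)

/-- On torsion of order prime to `q` of `J₀(qM)` killed by both push-forwards, a Frobenius element
at `q` acts on the image of its square minus one as `q U_q`. -/
def FrobeniusHeckeOnNewPart : Prop :=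
  ∀ (q M : ℕ) [Fact q.Prime] [NeZero q] [NeZero M] [NeZero (q * M)], ¬ q ∣ M →
    ∀ (h₁ : M * 1 ∣ q * M) (h₂ : M * q ∣ q * M) (A : ValuationSubring Qbar), A.LiesOverPrime q →
    ∀ σ : Γℚ, A.IsFrobeniusAt σ q → ∀ d : ℕ, 1 ≤ d → ¬ q ∣ d →
    ∀ x : JZero (q * M), d • x = 0 → MazurP.degPush 1 h₁ x = 0 → MazurP.degPush q h₂ x = 0 →
      σ • (σ • σ • x - x) =
        (q : ℤ) • heckeOperatorBar (q * M) ⟨q, Fact.out⟩ (σ • σ • x - x)

end FermatLib.Galois

namespace FermatLib.Igusa.Mono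

open FermatLib.Modular.Corr

attribute [local instance] neZero_mul'
attribute [local instance 100000] monoLaurentModule monoLaurentSMul

section Swap

variable {L k Kb : Type*} [Field L] [CharZero L] [Field k] [IsAlgClosed k] [Field Kb]
  [Algebra k Kb] {A : ValuationSubring L} {π : A →+* k} {q : ℕ} [NeZero q]
  {F₀ F : IntermediateField L (LaurentSeries L)}

omit [IsAlgClosed k] in
/-- The involution carries the second sheet to the first. -/
theorem MonoDatum.DegenData.swap_rd₁ {M : MonoDatum π F Kb q} (G : M.DegenData (F₀ := F₀)) {a : F}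
    (ha : a ∈ M.s₂.W) : G.W a ∈ M.s₁.W ∧ M.s₁.rd (G.W a) = M.s₂.rd a := by
  obtain ⟨y, z, h, hr⟩ := G.ratios₂ a ha
  rw [← eq_div_iff h.red_ne] at hr
  obtain ⟨hm, e⟩ := G.ratios₁.of_isRatio (f := G.W a) (y := y) (z := z) ⟨h.red_ne, h.eq⟩
  exact ⟨hm, G.emb.injective (by rw [e, hr])⟩

omit [IsAlgClosed k] in
/-- The involution carries the first sheet to the second. -/
theorem MonoDatum.DegenData.swap_rd₂ {M : MonoDatum π F Kb q} (G : M.DegenData (F₀ := F₀)) {a : F}
    (ha : a ∈ M.s₁.W) : G.W a ∈ M.s₂.W ∧ M.s₂.rd (G.W a) = M.s₁.rd a := by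
  obtain ⟨y, z, h, hr⟩ := G.ratios₁ a ha
  rw [← eq_div_iff h.red_ne] at hr
  obtain ⟨hm, e⟩ := G.ratios₂.of_isRatio (f := G.W a) (y := y) (z := z) ⟨h.red_ne, by
    show ((G.W (G.W a) : F) : LaurentSeries L) * _ = _
    rw [G.W_W]
    exact h.eq⟩
  exact ⟨hm, G.emb.injective (by rw [e, hr])⟩

variable [Fact q.Prime] [CharP k q]

/-- **The Atkin–Lehner involution after a Frobenius** exchanges the sheets with exponent `q`. -/
def swapFrobeniusOfDegen (M : MazurP.MazurDatum π F Kb q)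
    (G : M.toMonoDatum.DegenData (F₀ := F₀))
    {σ : L →+* L} (hσ : ∀ a : A, ∃ h : σ (a : L) ∈ A, π ⟨_, h⟩ = π a ^ q)
    {g : SemilinearAut L F}
    (hg : ∀ f : F, ((g • f : F) : LaurentSeries L) = coeffMap σ (f : LaurentSeries L))
    (hgW : ∀ f : F, G.W (g • f) = g • G.W f) (hx : g • M.x = M.x)
    (hΦ : ∀ c, G.emb (M.Φ c) = qExpand k q (G.emb c))
    {γ : SemilinearAut k Kb} (hγ : ∀ c, G.emb (γ • c) = coeffMap (frobenius k q) (G.emb c)) :
    M.SwapFrobenius (SemilinearAut.ofAlgAut G.W * g) q :=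
  have hθ : ∀ a : A, ∃ h : σ (a : L) ∈ A, π ⟨_, h⟩ = frobenius k q (π a) := hσ
  have s₁ : ∀ a ∈ M.s₁.W, g • a ∈ M.s₁.W ∧ M.s₁.rd (g • a) = γ • M.s₁.rd a := fun _ ha =>
    G.ratios₁.smul_rd_eq hθ hg hγ ha
  have s₂ : ∀ a ∈ M.s₂.W, g • a ∈ M.s₂.W ∧ M.s₂.rd (g • a) = γ • M.s₂.rd a := fun _ ha =>
    G.ratios₂.smul_rd_eq hθ (fun f => by
      show ((G.W (g • f) : F) : LaurentSeries L) = _
      rw [hgW]
      exact hg _) hγ ha
  { φ := (SemilinearAut.toRingAut γ).toRingHom
    x_pole := by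
      rw [mul_smul, hx, SemilinearAut.ofAlgAut_smul]
      rcases eq_or_ne (G.W M.x) 0 with h0 | h0
      · exact ⟨0, h0.symm ▸ Submodule.zero_mem _⟩
      obtain ⟨E, hE, -⟩ := M.rrF.exists_div h0
      refine ⟨E.support.sup fun v => (E v).natAbs, mem_riemannRochSpace_iff.mpr fun v => Or.inr ?_⟩
      rw [Finsupp.smul_apply, nsmul_eq_mul]
      rcases le_or_gt 0 (v.ord M.x) with hj | hj
      · rw [(M.toMonoDatum.Px_eq_zero_iff v).mpr hj, mul_zero, neg_zero]
        exact (G.W_finite v).mpr hj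
      · have h1 : (1 : ℤ) ≤ M.Px v := by rw [M.toMonoDatum.Px_apply]; omega
        have h2 : -v.ord (G.W M.x) ≤ ((E.support.sup fun v => (E v).natAbs : ℕ) : ℤ) := by
          by_cases hv : v ∈ E.support
          · have := Finset.le_sup (f := fun v => (E v).natAbs) hv
            rw [← hE]
            omega
          · rw [Finsupp.notMem_support_iff, hE] at hv
            omega
        nlinarith [Int.natCast_nonneg (E.support.sup fun v => (E v).natAbs)]
    mem₁ := fun a ha => by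
      rw [mul_smul, SemilinearAut.ofAlgAut_smul]
      exact (G.swap_rd₁ (s₂ a ha).1).1
    rd₁ := fun a ha => by
      rw [mul_smul, SemilinearAut.ofAlgAut_smul, (G.swap_rd₁ (s₂ a ha).1).2, (s₂ a ha).2]
      rfl
    mem₂ := fun a ha => by
      rw [mul_smul, SemilinearAut.ofAlgAut_smul]
      exact (G.swap_rd₂ (s₁ a ha).1).1
    rd₂' := fun a ha => by
      rw [mul_smul, SemilinearAut.ofAlgAut_smul, (G.swap_rd₂ (s₁ a ha).1).2, (s₁ a ha).2]
      rfl
    φ_reg := fun c hc => M.toMonoDatum.smul_mem_reg_of_fixed s₁ hx hc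
    frob := fun c _ => by
      apply G.emb.injective
      show G.emb (M.Φ (γ • c)) = G.emb (c ^ q)
      rw [hΦ, hγ, map_pow, monoNew_pow_char q (G.emb c)] }

/-- **`w F = -q`** on `F² x - x` for a class with vanishing push-forwards. -/
theorem swap_smul_sub_eq (M : MazurP.MazurDatum π F Kb q)
    (G : M.toMonoDatum.DegenData (F₀ := F₀)) {ζ : Lˣ} (hζ : IsPrimitiveRoot ζ q)
    {σ : L →+* L} (hσ : ∀ a : A, ∃ h : σ (a : L) ∈ A, π ⟨_, h⟩ = π a ^ q)
    {g : SemilinearAut L F}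
    (hg : ∀ f : F, ((g • f : F) : LaurentSeries L) = coeffMap σ (f : LaurentSeries L))
    (hgW : ∀ f : F, G.W (g • f) = g • G.W f) (hx : g • M.x = M.x)
    (hper : ∀ c : L, ∃ n : ℕ, 0 < n ∧ (SemilinearAut.baseAut g)^[n] c = c)
    (hΦ : ∀ c, G.emb (M.Φ c) = qExpand k q (G.emb c))
    {γ : SemilinearAut k Kb} (hγ : ∀ c, G.emb (γ • c) = coeffMap (frobenius k q) (G.emb c))
    {ψ : F₀ →ₐ[L] F} (hψ : ∀ y, G.W (G.α y) = ψ y) (hψfin : FiniteAlong L ψ)
    (hψN : NormFormulaAlong L ψ hψfin) {d : ℕ} (hd : 1 ≤ d) (hdk : (d : k) ≠ 0)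
    (x : Pic0 L F) (hdx : (d : ℤ) • x = 0)
    (h₁ : MazurP.picPush G.α G.finite G.normFormula x = 0)
    (h₂ : MazurP.picPush ψ hψfin hψN x = 0) :
    SemilinearAut.ofAlgAut G.W • g • (g • g • x - x) = -(q : ℤ) • (g • g • x - x) := by
  obtain ⟨-, T, hT⟩ := G.exists_sqFrobenius_twist hζ hσ hg hgW hx hper hΦ hγ hψ hψfin hψN x hdx
    h₁ h₂
  have h := (swapFrobeniusOfDegen M G hσ hg hgW hx hΦ hγ).smul_twist_eq hd hdk T
  simp only [hT, mul_smul] at h
  exact h

end Swap

local notation "Qbar" => AlgebraicClosure ℚ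
local notation "Γℚ" => (AlgebraicClosure ℚ ≃ₐ[ℚ] AlgebraicClosure ℚ)

set_option maxHeartbeats 800000 in
/-- **`FrobeniusHeckeOnNewPart`** from the modular two-sheet data. -/
theorem frobeniusHeckeOnNewPart_of_sheets
    (X : ∀ (q M : ℕ) [Fact q.Prime] [NeZero q] [NeZero M] (hqM : ¬ q ∣ M)
      (A : ValuationSubring Qbar) (hA : A.LiesOverPrime q),
      ∃ D : MonoDatum (IsLocalRing.residue A) (fieldBar Qbar (q * M))
        (modularFunctionFieldFullC (IsLocalRing.ResidueField A) M) q,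
        D.s₁ = monoSheetInf hqM hA ∧ D.s₂ = monoSheetZero hqM hA ∧ D.x = jFq q M ∧
        ∀ c, (D.Φ c : LaurentSeries (IsLocalRing.ResidueField A)) =
          qExpand (IsLocalRing.ResidueField A) q (c : LaurentSeries (IsLocalRing.ResidueField A))) :
    Galois.FrobeniusHeckeOnNewPart := by
  intro q M _ _ _ _ hqM h₁ h₂ A hA σ hσ d hd hdq x hx hx₁ hx₂
  obtain ⟨D, hs₁, hs₂, hDx, hΦ⟩ := X q M hqM A hA
  haveI := FermatLib.Galois.isAlgClosed_residueField A
  haveI := charP_residueField_of_lies A hA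
  haveI : ExpChar (IsLocalRing.ResidueField A) q := ExpChar.prime Fact.out
  haveI : Algebra.IsAlgebraic ℚ Qbar := AlgebraicClosure.isAlgebraic ℚ
  obtain ⟨z, hz⟩ : ∃ z : Qbar, IsPrimitiveRoot z q := by
    haveI : NeZero (q : Qbar) := ⟨Nat.cast_ne_zero.mpr (NeZero.ne q)⟩
    exact HasEnoughRootsOfUnity.exists_primitiveRoot _ _
  have hzu := hz.isUnit (NeZero.ne q)
  obtain ⟨γ, hγ⟩ := semilinear_fullC M (frobeniusEquiv (IsLocalRing.ResidueField A) q)
  have hxα : D.x = alphaMap q M (jBottom M) := hDx.trans jFq_eq_alphaMap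
  let Z := MazurP.mazurDatumX0 hqM hA D hs₁ hs₂ hDx
  let G : Z.toMonoDatum.DegenData (F₀ := fieldBar Qbar M) :=
    degenData hqM D (specialEmb M A) hxα (hs₁ ▸ hasRatios_monoSheetInf hqM hA)
      (hs₂ ▸ hasRatios_monoSheetZero hqM hA)
  set g := arithmeticGalois (modularFunctionFieldFull (q * M)) σ
  have e₁ : G.α = barBeta Qbar 1 h₁ :=
    AlgHom.ext fun y => Subtype.ext (by rw [G.coe_α, coe_barBeta, qExpand_one_apply])
  have hψ : ∀ y, G.W (G.α y) = barBeta Qbar q h₂ y := fun y =>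
    Subtype.ext (by rw [G.coe_W, coe_barBeta])
  have hgx : g • D.x = D.x := by
    refine arithmeticGalois_smul_of_coeffEmb σ (y := jq) ?_
    rw [hxα, coe_barIncl]
    rfl
  have hx₁' := hx₁
  rw [MazurP.degPush, ← picPush_congr e₁ G.finite G.normFormula] at hx₁'
  have hγ' : ∀ c, G.emb (γ • c) =
      coeffMap (frobenius (IsLocalRing.ResidueField A) q) (G.emb c) := fun c => by
    rw [show G.emb = specialEmb M A from rfl]
    exact hγ c
  have hgW := monoSwap_arithmeticGalois hqM σ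
  have hg : ∀ f, ((g • f : fieldBar Qbar (q * M)) : LaurentSeries Qbar) =
      coeffMap (σ : Qbar →+* Qbar) (f : LaurentSeries Qbar) :=
    fun f => coe_arithmeticGalois_smul _ σ f
  have key := swap_smul_sub_eq Z G (ζ := hzu.unit)
    (IsPrimitiveRoot.coe_units_iff.mp (by rwa [IsUnit.unit_spec]))
    (σ := (σ : Qbar →+* Qbar)) (frobenius_residue hσ) (g := g) hg hgW hgx
    (fun c => exists_iterate_eq_self σ c) hΦ (γ := γ) hγ'
    (ψ := barBeta Qbar q h₂) hψ _ _ hd (residueField_natCast_ne_zero hA hdq) x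
    (by rw [natCast_zsmul]; exact hx) hx₁' hx₂
  set y : JZero (q * M) := σ • σ • x - x with hy
  have key' : MazurP.swapJ hqM (σ • y) = -(q : ℤ) • y := key
  have hdy : (d : ℤ) • y = 0 := by
    rw [natCast_zsmul, hy, nsmul_sub, hx, sub_zero,
      ← DistribSMul.toAddMonoidHom_apply (JZero (q * M)) σ (σ • x), ← map_nsmul,
      ← DistribSMul.toAddMonoidHom_apply (JZero (q * M)) σ x, ← map_nsmul, hx, map_zero, map_zero]
  have hpy : MazurP.degPush 1 h₁ y = 0 := by
    rw [hy, map_sub, MazurP.degPush_smul, MazurP.degPush_smul, hx₁,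
      ← DistribSMul.toAddMonoidHom_apply (JZero M) σ 0, map_zero, sub_zero,
      ← DistribSMul.toAddMonoidHom_apply (JZero M) σ 0, map_zero]
  have h3 := congrArg (MazurP.swapJ hqM) key'
  rw [MazurP.swapJ_swapJ, map_zsmul, neg_zsmul] at h3
  rw [MazurP.heckeOperatorBar_eq_neg_swapJ hqM h₁ hd y hdy hpy, h3, zsmul_neg]

end FermatLib.Igusa.Mono
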