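import Fermat.Prelude.Def_ModularCurve_IgusaScheme
import Fermat.Prelude.Def_ModularCurve_X0ModL
import Fermat.Agent.Galois.FlatModelRat
import Fermat.Agent.Igusa.DegreeModL

/-!
# Laurent series over `ℤ_(ℓ)` and an integrality criterion
-/

set_option autoImplicit false

noncomputable section

open ModularCurve Polynomial Function
open scoped nonZeroDivisors

namespace FermatLib.Igusa

variable (ℓ : ℕ) [Fact ℓ.Prime]

/-- `ℤ_(ℓ)`. -/
abbrev ZLoc : Type := ↥(GaloisRep.ratLocalizedAt ℓ)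

/-- The ideal of `ℓ`. -/
def ellIdeal : Ideal (ZLoc ℓ) := Ideal.span {(ℓ : ZLoc ℓ)}

theorem mem_zloc_iff {x : ℚ} : x ∈ GaloisRep.ratLocalizedAt ℓ ↔ ¬ ℓ ∣ x.den := by
  show x.den.Coprime ℓ ↔ _
  rw [Nat.coprime_comm, (Fact.out : ℓ.Prime).coprime_iff_not_dvd]

theorem zloc_dvd_or_isUnit (x : ZLoc ℓ) : (ℓ : ZLoc ℓ) ∣ x ∨ IsUnit x := by
  by_cases hn : (ℓ : ℤ) ∣ (x : ℚ).num
  · obtain ⟨c, hc⟩ := hn
    refine Or.inl ⟨⟨(c : ℚ) / (x : ℚ).den, ?_⟩, Subtype.ext ?_⟩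
    · rw [mem_zloc_iff]
      intro h
      have hd : ((c : ℚ) / ((x : ℚ).den : ℚ)).den ∣ (x : ℚ).den := by
        have := Rat.den_dvd c (x : ℚ).den
        rw [Rat.divInt_eq_div, Int.cast_natCast] at this
        exact_mod_cast this
      exact (mem_zloc_iff ℓ).mp x.2 (h.trans hd)
    · rw [Subring.coe_mul, Subring.coe_natCast, ← mul_div_assoc]
      conv_lhs => rw [← Rat.num_div_den (x : ℚ), hc]
      push_cast
      ring
  · refine Or.inr ?_
    have h0 : (x : ℚ) ≠ 0 := fun h => hn (by rw [h, Rat.num_zero]; exact dvd_zero _)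
    have hmem : (x : ℚ)⁻¹ ∈ GaloisRep.ratLocalizedAt ℓ := by
      rw [mem_zloc_iff, Rat.den_inv, if_neg (Rat.num_ne_zero.mpr h0)]
      exact fun h => hn (Int.natCast_dvd.mpr h)
    exact IsUnit.of_mul_eq_one (⟨_, hmem⟩ : ZLoc ℓ) (Subtype.ext (mul_inv_cancel₀ h0))

theorem natCast_zloc_dvd_iff {n : ℕ} : (ℓ : ZLoc ℓ) ∣ (n : ZLoc ℓ) ↔ ℓ ∣ n := by
  refine ⟨fun ⟨c, hc⟩ => ?_, fun ⟨c, hc⟩ => ⟨c, by rw [hc, Nat.cast_mul]⟩⟩
  have h := congrArg (fun y : ZLoc ℓ => (y : ℚ) * ((c : ℚ).den : ℚ)) hc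
  simp only [Subring.coe_natCast, Subring.coe_mul, mul_assoc, Rat.mul_den_eq_num] at h
  have h' : (n : ℤ) * ((c : ℚ).den : ℤ) = (ℓ : ℤ) * (c : ℚ).num := by exact_mod_cast h
  have h2 : ℓ ∣ n * (c : ℚ).den :=
    Int.natCast_dvd_natCast.mp ⟨(c : ℚ).num, by push_cast; exact h'⟩
  exact ((Fact.out : ℓ.Prime).dvd_mul.mp h2).resolve_right ((mem_zloc_iff ℓ).mp c.2)

theorem not_isUnit_ell : ¬ IsUnit (ℓ : ZLoc ℓ) := fun h => by
  obtain ⟨b, hb⟩ := isUnit_iff_exists_inv.mp h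
  have h1 : (ℓ : ZLoc ℓ) ∣ ((1 : ℕ) : ZLoc ℓ) := ⟨b, by rw [Nat.cast_one, hb]⟩
  exact (Fact.out : ℓ.Prime).ne_one (Nat.dvd_one.mp ((natCast_zloc_dvd_iff ℓ).mp h1))

instance isMaximal_ellIdeal : (ellIdeal ℓ).IsMaximal := by
  refine Ideal.isMaximal_iff.mpr ⟨?_, fun J x hle hxI hxJ => ?_⟩
  · rw [ellIdeal, Ideal.mem_span_singleton]
    exact fun h => not_isUnit_ell ℓ (isUnit_of_dvd_one h)
  · rw [ellIdeal, Ideal.mem_span_singleton] at hxI
    obtain ⟨u, rfl⟩ := (zloc_dvd_or_isUnit ℓ x).resolve_left hxI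
    simpa using J.mul_mem_left ↑u⁻¹ hxJ

/-- The residue field of `ℤ_(ℓ)`. -/
abbrev ZRes : Type := ZLoc ℓ ⧸ ellIdeal ℓ

instance : Field (ZRes ℓ) := Ideal.Quotient.field _

/-- Reduction modulo `ℓ`. -/
abbrev zred : ZLoc ℓ →+* ZRes ℓ := Ideal.Quotient.mk _

theorem zred_eq_zero_iff (x : ZLoc ℓ) : zred ℓ x = 0 ↔ (ℓ : ZLoc ℓ) ∣ x := by
  rw [Ideal.Quotient.eq_zero_iff_mem, ellIdeal, Ideal.mem_span_singleton]

theorem natCast_zres_eq_zero_iff (n : ℕ) : (n : ZRes ℓ) = 0 ↔ ℓ ∣ n := by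
  rw [← map_natCast (zred ℓ), zred_eq_zero_iff, natCast_zloc_dvd_iff]

theorem polynomial_map_zred_eq_zero_iff (P : Polynomial (ZLoc ℓ)) :
    P.map (zred ℓ) = 0 ↔ (C (ℓ : ZLoc ℓ)) ∣ P := by
  rw [C_dvd_iff_dvd_coeff, Polynomial.ext_iff]
  simp [zred_eq_zero_iff]

/-- Laurent series with coefficients in `ℤ_(ℓ)`. -/
abbrev ZLaurent : Type := LaurentSeries (ZLoc ℓ)

/-- Rational series from series over `ℤ_(ℓ)`. -/
abbrev zEmb : ZLaurent ℓ →+* LaurentSeries ℚ := coeffMap (GaloisRep.ratLocalizedAt ℓ).subtype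

theorem zEmb_injective : Injective (zEmb ℓ) := fun x y h => by
  ext k
  exact congrArg (fun z : LaurentSeries ℚ => z.coeff k) h

theorem zEmb_jqModC : zEmb ℓ (jqModC (ZLoc ℓ)) = jq := by
  rw [zEmb, coeffMap_jqModC', jqModC_rat]

theorem zEmb_qExpand_jqModC (d : ℕ) [NeZero d] :
    zEmb ℓ (qExpand (ZLoc ℓ) d (jqModC (ZLoc ℓ))) = qExpand ℚ d jq := by
  rw [zEmb, coeffMap_qExpand, coeffMap_jqModC', jqModC_rat]

/-- `1 / j` over any coefficient ring. -/
theorem isUnit_jqModC (R : Type*) [CommRing R] : IsUnit (jqModC R) := by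
  rw [jqModC]
  refine IsUnit.mul (IsUnit.of_mul_eq_one (HahnSeries.single (1 : ℤ) 1) ?_) ?_
  · rw [HahnSeries.single_mul_single]; simp
  · refine IsUnit.map _ (PowerSeries.isUnit_iff_constantCoeff.mpr ?_)
    rw [← PowerSeries.coeff_zero_eq_constantCoeff, PowerSeries.coeff_map,
      PowerSeries.coeff_zero_eq_constantCoeff, constantCoeff_jNum, map_one]
    exact isUnit_one

instance isIntegrallyClosed_zLaurent : IsIntegrallyClosed (ZLaurent ℓ) :=
  haveI : IsIntegrallyClosed (PowerSeries (ZLoc ℓ)) := inferInstance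
  isIntegrallyClosed_of_isLocalization _ (Submonoid.powers (PowerSeries.X : PowerSeries (ZLoc ℓ)))
    (powers_le_nonZeroDivisors_of_noZeroDivisors PowerSeries.X_ne_zero)

section Criterion

local notation "A₀" => Polynomial (ZLoc ℓ)
local notation "K₀" => FractionRing (Polynomial (ZLoc ℓ))

variable {ℓ} {F : Type*} [Field F] [Algebra (Polynomial (ZLoc ℓ)) F]
  [FaithfulSMul (Polynomial (ZLoc ℓ)) F]

/-- An element which is integral after multiplication by `ℓ`, and after multiplication by a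
polynomial prime to `ℓ`, is integral. -/
theorem isIntegral_of_coprime_multiples {y : F} {s : Polynomial (ZLoc ℓ)}
    (hs : s.map (zred ℓ) ≠ 0)
    (h₁ : IsIntegral (Polynomial (ZLoc ℓ))
      (algebraMap (Polynomial (ZLoc ℓ)) F (C (ℓ : ZLoc ℓ)) * y))
    (h₂ : IsIntegral (Polynomial (ZLoc ℓ)) (algebraMap (Polynomial (ZLoc ℓ)) F s * y)) :
    IsIntegral (Polynomial (ZLoc ℓ)) y := by
  letI : Algebra (FractionRing (Polynomial (ZLoc ℓ))) F := FractionRing.liftAlgebra _ F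
  haveI : IsScalarTower (Polynomial (ZLoc ℓ)) (FractionRing (Polynomial (ZLoc ℓ))) F :=
    FractionRing.isScalarTower_liftAlgebra _ F
  have hℓ0 : (C (ℓ : ZLoc ℓ) : A₀) ≠ 0 := by
    rw [Ne, C_eq_zero]
    exact fun h => (Fact.out : ℓ.Prime).ne_zero
      (by simpa using congrArg Subtype.val h)
  have hs0 : s ≠ 0 := fun h => hs (by rw [h, Polynomial.map_zero])
  have hscale : ∀ c : A₀, c ≠ 0 → IsIntegral A₀ (algebraMap A₀ F c * y) →
      IsIntegral K₀ y ∧ ∀ i, algebraMap A₀ K₀ c ^ ((minpoly K₀ y).natDegree - i) *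
        (minpoly K₀ y).coeff i ∈ Set.range (algebraMap A₀ K₀) := by
    intro c hc hint
    have hcK : algebraMap A₀ K₀ c ≠ 0 := (map_ne_zero_iff _ (IsFractionRing.injective A₀ K₀)).mpr hc
    have hw : algebraMap A₀ F c * y = algebraMap K₀ F (algebraMap A₀ K₀ c) * y := by
      rw [← IsScalarTower.algebraMap_apply]
    have hwK : IsIntegral K₀ (algebraMap A₀ F c * y) := hint.tower_top
    have hy : IsIntegral K₀ y := by
      have h0 : algebraMap K₀ F (algebraMap A₀ K₀ c)⁻¹ * (algebraMap A₀ F c * y) = y := by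
        rw [hw, ← mul_assoc, ← map_mul, inv_mul_cancel₀ hcK, map_one, one_mul]
      exact h0 ▸ isIntegral_algebraMap.mul hwK
    refine ⟨hy, fun i => ?_⟩
    have hroot : aeval (algebraMap A₀ F c * y)
        ((minpoly K₀ y).scaleRoots (algebraMap A₀ K₀ c)) = 0 := by
      rw [hw]
      exact scaleRoots_aeval_eq_zero (minpoly.aeval K₀ y)
    have hmin : (minpoly K₀ y).scaleRoots (algebraMap A₀ K₀ c) =
        minpoly K₀ (algebraMap A₀ F c * y) := by
      refine minpoly.unique_of_degree_le_degree_minpoly K₀ _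
        ((monic_scaleRoots_iff _).mpr (minpoly.monic hy)) hroot ?_
      rw [degree_scaleRoots]
      have h0 : aeval y ((minpoly K₀ (algebraMap A₀ F c * y)).scaleRoots (algebraMap A₀ K₀ c)⁻¹) = 0 := by
        have h0' := scaleRoots_aeval_eq_zero (r := (algebraMap A₀ K₀ c)⁻¹)
          (minpoly.aeval K₀ (algebraMap A₀ F c * y))
        rwa [hw, ← mul_assoc, ← map_mul, inv_mul_cancel₀ hcK, map_one, one_mul, ← hw] at h0'
      have := minpoly.min K₀ y ((monic_scaleRoots_iff _).mpr (minpoly.monic hwK)) h0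
      rwa [degree_scaleRoots] at this
    rw [minpoly.isIntegrallyClosed_eq_field_fractions' K₀ hint] at hmin
    have hi := congrArg (fun P : Polynomial K₀ => P.coeff i) hmin
    rw [coeff_scaleRoots, coeff_map, mul_comm] at hi
    exact ⟨_, hi.symm⟩
  obtain ⟨hy, hA⟩ := hscale _ hℓ0 h₁
  obtain ⟨-, hB⟩ := hscale _ hs0 h₂
  have hprime : Prime (C (ℓ : ZLoc ℓ) : A₀) := by
    refine prime_C_iff.mpr ((Ideal.span_singleton_prime ?_).mp (isMaximal_ellIdeal ℓ).isPrime)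
    exact fun h => hℓ0 (by rw [h, C_0])
  have hnd : ¬ (C (ℓ : ZLoc ℓ) : A₀) ∣ s := fun h =>
    hs ((polynomial_map_zred_eq_zero_iff ℓ s).mpr h)
  have hcoeff : ∀ i, (minpoly K₀ y).coeff i ∈ Set.range (algebraMap A₀ K₀) := by
    intro i
    set e := (minpoly K₀ y).natDegree - i
    obtain ⟨a, ha⟩ := hA i
    obtain ⟨b, hb⟩ := hB i
    have hab : s ^ e * a = (C (ℓ : ZLoc ℓ)) ^ e * b := by
      apply IsFractionRing.injective A₀ K₀
      rw [map_mul, map_mul, map_pow, map_pow, ha, hb]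
      ring
    have hdiv : (C (ℓ : ZLoc ℓ) : A₀) ^ e ∣ s ^ e * a := ⟨b, hab⟩
    obtain ⟨q, hq⟩ := hprime.pow_dvd_of_dvd_mul_left e (fun h => hnd (hprime.dvd_of_dvd_pow h)) hdiv
    refine ⟨q, ?_⟩
    have hne : algebraMap A₀ K₀ (C (ℓ : ZLoc ℓ)) ^ e ≠ 0 :=
      pow_ne_zero _ ((map_ne_zero_iff _ (IsFractionRing.injective A₀ K₀)).mpr hℓ0)
    apply mul_left_cancel₀ hne
    rw [← ha, hq, map_mul, map_pow]
  obtain ⟨P, hP, -, hPm⟩ := lifts_and_natDegree_eq_and_monic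
    ((lifts_iff_coeff_lifts _).mpr hcoeff) (minpoly.monic hy)
  refine ⟨P, hPm, ?_⟩
  rw [← aeval_def, ← aeval_map_algebraMap K₀ y P, hP]
  exact minpoly.aeval K₀ y

end Criterion

end FermatLib.Igusa

end
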