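import Fermat.Agent.Igusa.ChartBasics

/-!
# The modular equation over `ℤ_(ℓ)`
-/

set_option autoImplicit false

noncomputable section

open ModularCurve Polynomial Function
open scoped MatrixGroups

namespace FermatLib.Igusa

variable (N : ℕ) [NeZero N] (ℓ : ℕ) [Fact ℓ.Prime]

theorem mem_ratLocalizedAt_of_mem_place {A : ValuationSubring ℂ}
    [CharP (IsLocalRing.ResidueField A) ℓ] {r : ℚ} (hr : (r : ℂ) ∈ A) :
    r ∈ GaloisRep.ratLocalizedAt ℓ := by
  rw [mem_zloc_iff]
  intro hd
  have hden : ((r.den : ℕ) : IsLocalRing.ResidueField A) = 0 :=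
    (CharP.cast_eq_zero_iff _ ℓ _).mpr hd
  have hmul : (⟨(r : ℂ), hr⟩ : A) * ((r.den : ℕ) : A) = ((r.num : ℤ) : A) := by
    apply Subtype.ext
    rw [MulMemClass.coe_mul]
    push_cast
    exact_mod_cast Rat.mul_den_eq_num r
  have h := congrArg (IsLocalRing.residue A) hmul
  rw [map_mul, map_natCast, hden, mul_zero, map_intCast] at h
  have hnum : (ℓ : ℤ) ∣ r.num := (CharP.intCast_eq_zero_iff _ ℓ _).mp h.symm
  exact Nat.not_coprime_of_dvd_of_dvd (Fact.out : ℓ.Prime).one_lt (Int.natCast_dvd.mp hnum) hd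
    r.reduced

/-- Evaluation at `(j, j_N)` in series over `ℤ_(ℓ)`. -/
def zEval2 : Polynomial (Polynomial (ZLoc ℓ)) →+* ZLaurent ℓ :=
  eval₂RingHom (eval₂RingHom HahnSeries.C (jqModC (ZLoc ℓ))) (jqNModC (ZLoc ℓ) N)

/-- The modular equation with coefficients in `ℤ_(ℓ)`. -/
theorem exists_modularEquation_zloc (hℓN : ¬ ℓ ∣ N) :
    ∃ Φ : Polynomial (Polynomial (ZLoc ℓ)), Φ.Monic ∧ Φ.natDegree = dedekindPsi N ∧
      zEval2 N ℓ Φ = 0 := by
  classical
  obtain ⟨A, hA, hN, hchar⟩ := exists_levelPlace N ℓ hℓN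
  haveI := hchar
  haveI : Fintype (Modular.Gamma0Coset N) := Fintype.ofFinite _
  haveI hNN : NeZero (N * N) := ⟨mul_ne_zero (NeZero.ne N) (NeZero.ne N)⟩
  have hψ : Fintype.card (Modular.Gamma0Coset N) = dedekindPsi N := by
    rw [← Nat.card_eq_fintype_card, Modular.card_gamma0Coset]
  have hj := isLevelFixed_jLevel hA N (dvd_refl N)
  set P := conjPoly (jLevel hA N dvd_rfl) with hP
  have hfix : ∀ i, ∀ g : SL(2, ℤ), g • P.coeff i = P.coeff i := fun i g => by
    conv_rhs => rw [hP, ← map_conjPoly hj g, coeff_map, levelSmulHom_apply]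
  choose Q hQ using fun i => exists_polynomial_levelJ hA.injective (P.coeff i) (hfix i)
  obtain ⟨Φ₀, hΦ₀, hnat₀, h0⟩ := exists_modularEquation_modC ℚ N
    (Nat.cast_ne_zero.mpr (NeZero.ne N))
  let toC : Polynomial ℚ →+* Polynomial ℂ := mapRingHom (algebraMap ℚ ℂ)
  have hcoeff : ∀ i, i < dedekindPsi N → toC (Φ₀.coeff i) = (Q i).map A.subtype := by
    have h := eq_zero_of_sum_aeval_mul_jqNModC_pow ℂ N (Nat.cast_ne_zero.mpr (NeZero.ne N))
      (fun i => toC (Φ₀.coeff i) - (Q i).map A.subtype) ?_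
    · intro i hi
      exact sub_eq_zero.mp (congrFun h ⟨i, hi⟩)
    · simp only [map_sub, sub_mul, Finset.sum_sub_distrib]
      have e1 : ∑ i : Fin (dedekindPsi N), aeval (jqModC ℂ) (toC (Φ₀.coeff i)) *
          jqNModC ℂ N ^ (i : ℕ) = -jqNModC ℂ N ^ dedekindPsi N := by
        have h1 := congrArg (coeffMap (algebraMap ℚ ℂ)) h0
        rw [eval₂_eq_sum_range, hnat₀, Finset.sum_range_succ,
          show Φ₀.coeff (dedekindPsi N) = 1 from hnat₀ ▸ hΦ₀.coeff_natDegree, map_one, one_mul,
          map_zero, map_add, map_sum, map_pow, coeffMap_jqNModC, add_eq_zero_iff_eq_neg] at h1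
        rw [← h1, Fin.sum_univ_eq_sum_range
          (fun i => aeval (jqModC ℂ) (toC (Φ₀.coeff i)) * jqNModC ℂ N ^ i)]
        refine Finset.sum_congr rfl fun i _ => ?_
        rw [map_mul, map_pow, coeffMap_jqNModC]
        congr 1
        simp only [toC, coe_mapRingHom, AlgHom.toRingHom_eq_coe, RingHom.coe_coe, aeval_def,
          eval₂_map]
        rw [hom_eval₂, coeffMap_jqModC']
        congr 1
        ext c
        rw [RingHom.comp_apply, RingHom.comp_apply, algebraMap_laurentSeries_eq_single,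
          algebraMap_laurentSeries_eq_single, coeffMap_single]
      have e2 : ∑ i : Fin (dedekindPsi N), aeval (jqModC ℂ) ((Q i).map A.subtype) *
          jqNModC ℂ N ^ (i : ℕ) = -jqNModC ℂ N ^ dedekindPsi N := by
        apply qExpand_injective (R := ℂ) N
        rw [map_sum, map_neg, map_pow]
        have hdegP : P.natDegree = dedekindPsi N := by
          rw [hP, conjPoly, natDegree_finsetProd_X_sub_C_eq_card, Finset.card_univ, hψ]
        have hroot : (P.map (levelRed hA.injective A.subtype)).eval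
            (qExpand ℂ N (jqNModC ℂ N)) = 0 := by
          have hred : levelRed hA.injective A.subtype (jLevel hA N dvd_rfl) =
              qExpand ℂ N (jqNModC ℂ N) := by
            rw [levelRed, RingHom.comp_apply, levelExp_one_jLevel, coeffMap_qExpand,
              coeffMap_jqModC', jqNModC, qExpand_qExpand]
          rw [← hred, hP, conjPoly, Polynomial.map_prod, eval_prod]
          refine Finset.prod_eq_zero (Finset.mem_univ (QuotientGroup.mk 1)) ?_
          rw [Polynomial.map_sub, map_X, map_C, eval_sub, eval_X, eval_C,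
            levelRed_cosetConj_one hA.injective _ hj, sub_self]
        rw [eval_map, eval₂_eq_sum_range, hdegP, Finset.sum_range_succ,
          show P.coeff (dedekindPsi N) = 1 from hdegP ▸ (monic_conjPoly _).coeff_natDegree,
          map_one, one_mul, add_eq_zero_iff_eq_neg] at hroot
        rw [← hroot, Fin.sum_univ_eq_sum_range (fun i => qExpand ℂ N
          (aeval (jqModC ℂ) ((Q i).map A.subtype) * jqNModC ℂ N ^ i))]
        refine Finset.sum_congr rfl fun i _ => ?_
        rw [map_mul, map_pow, qExpand_aeval_jqModC, evalJBar_apply, hQ i]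
        congr 1
        simp only [aeval_def, eval₂_map]
        rw [hom_eval₂, levelRed_levelJ]
        congr 1
        ext c : 1
        rw [RingHom.comp_apply, RingHom.comp_apply, levelRed, RingHom.comp_apply,
          levelExp_algebraMap, coeffMap_constC, algebraMap_laurentSeries_eq_single]
        rfl
      rw [e1, e2, sub_self]
  have hlift : ∀ i, Φ₀.coeff i ∈ lifts (GaloisRep.ratLocalizedAt ℓ).subtype := by
    intro i
    rw [lifts_iff_coeff_lifts]
    intro m
    rcases lt_trichotomy i (dedekindPsi N) with hi | rfl | hi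
    · refine ⟨⟨(Φ₀.coeff i).coeff m, mem_ratLocalizedAt_of_mem_place ℓ (A := A) ?_⟩, rfl⟩
      have h1 := congrArg (fun p : Polynomial ℂ => p.coeff m) (hcoeff i hi)
      simp only [toC, coe_mapRingHom, coeff_map, eq_ratCast] at h1
      rw [h1]
      exact ((Q i).coeff m).2
    · rw [show Φ₀.coeff (dedekindPsi N) = 1 from hnat₀ ▸ hΦ₀.coeff_natDegree, coeff_one]
      split_ifs
      · exact ⟨1, map_one _⟩
      · exact ⟨0, map_zero _⟩
    · rw [coeff_eq_zero_of_natDegree_lt (show Φ₀.natDegree < i by omega), coeff_zero]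
      exact ⟨0, map_zero _⟩
  obtain ⟨Φ, hΦ, hnat, hmon⟩ := lifts_and_natDegree_eq_and_monic
    (f := mapRingHom (GaloisRep.ratLocalizedAt ℓ).subtype) (p := Φ₀)
    ((lifts_iff_coeff_lifts _).mpr fun i => (mem_lifts _).mp (hlift i)) hΦ₀
  refine ⟨Φ, hmon, hnat.trans hnat₀, zEmb_injective ℓ ?_⟩
  rw [map_zero, ← h0, ← hΦ, eval₂_map, zEval2, coe_eval₂RingHom, hom_eval₂, zEmb,
    coeffMap_jqNModC]
  congr 1
  refine Polynomial.ringHom_ext (fun c => ?_) ?_
  · simp only [RingHom.comp_apply, coe_eval₂RingHom, eval₂_C, coe_mapRingHom, map_C,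
      AlgHom.toRingHom_eq_coe, RingHom.coe_coe, aeval_C]
    rw [algebraMap_laurentSeries_eq_single, HahnSeries.C_apply, coeffMap_single]
  · simp only [RingHom.comp_apply, coe_eval₂RingHom, eval₂_X, coe_mapRingHom, map_X,
      AlgHom.toRingHom_eq_coe, RingHom.coe_coe, aeval_X]
    rw [coeffMap_jqModC']

end FermatLib.Igusa

end
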