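import Fermat.Agent.Igusa.ChartEquation

/-!
# Writing functions as `a (j, j_N) / s (j)` with `s` prime to `ℓ`
-/

set_option autoImplicit false

noncomputable section

open ModularCurve Polynomial Function
open scoped nonZeroDivisors

namespace FermatLib.Igusa

variable (N : ℕ) [NeZero N] (ℓ : ℕ) [Fact ℓ.Prime]

/-- Evaluation at `j` in series over `ℤ_(ℓ)`. -/
def zEval1 : Polynomial (ZLoc ℓ) →+* ZLaurent ℓ :=
  eval₂RingHom HahnSeries.C (jqModC (ZLoc ℓ))

theorem zEval2_C (P : Polynomial (ZLoc ℓ)) : zEval2 N ℓ (C P) = zEval1 ℓ P := by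
  simp [zEval2, zEval1]

theorem zEval2_X : zEval2 N ℓ X = jqNModC (ZLoc ℓ) N := by simp [zEval2]

theorem zEmb_zEval1 (P : Polynomial (ZLoc ℓ)) :
    zEmb ℓ (zEval1 ℓ P) = aeval jq (P.map (GaloisRep.ratLocalizedAt ℓ).subtype) := by
  rw [zEval1, coe_eval₂RingHom, hom_eval₂, zEmb_jqModC, aeval_def, eval₂_map]
  congr 1
  ext c : 1
  rw [RingHom.comp_apply, RingHom.comp_apply, zEmb, HahnSeries.C_apply, coeffMap_single,
    ← algebraMap_laurentSeries_eq_single]

theorem aeval_jq_injective : Injective (aeval (R := ℚ) jq) := by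
  simpa [jqModC_rat] using aeval_jqModC_injective ℚ

theorem zEval1_injective : Injective (zEval1 ℓ) := fun P Q h => by
  have h' := congrArg (zEmb ℓ) h
  rw [zEmb_zEval1, zEmb_zEval1] at h'
  exact Polynomial.map_injective _ (GaloisRep.ratLocalizedAt ℓ).subtype_injective
    (aeval_jq_injective h')

theorem C_ell_ne_zero : (C (ℓ : ZLoc ℓ) : Polynomial (ZLoc ℓ)) ≠ 0 := by
  rw [Ne, C_eq_zero]
  exact fun h => (Fact.out : ℓ.Prime).ne_zero (by simpa using congrArg Subtype.val h)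

theorem exists_clear_denominators (r : Polynomial ℚ) :
    ∃ (b : ZLoc ℓ) (r' : Polynomial (ZLoc ℓ)), b ≠ 0 ∧
      r'.map (GaloisRep.ratLocalizedAt ℓ).subtype = C (b : ℚ) * r := by
  obtain ⟨b, hbM, hb⟩ := IsLocalization.integerNormalization_spec (ZLoc ℓ)⁰ r
  refine ⟨b, IsLocalization.integerNormalization (ZLoc ℓ)⁰ r, nonZeroDivisors.ne_zero hbM, ?_⟩
  have h : (IsLocalization.integerNormalization (ZLoc ℓ)⁰ r).map (algebraMap (ZLoc ℓ) ℚ) =
      (IsLocalization.integerNormalization (ZLoc ℓ)⁰ r).map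
        (GaloisRep.ratLocalizedAt ℓ).subtype := rfl
  rw [← h, hb]
  ext i
  rw [coeff_smul, coeff_C_mul]
  rfl

/-- `x` is a quotient `a (j, j_N) / s (j)`. -/
def IsChartQuot (x : LaurentSeries ℚ) : Prop :=
  ∃ (a : Polynomial (Polynomial (ZLoc ℓ))) (s : Polynomial (ZLoc ℓ)), s ≠ 0 ∧
    x * zEmb ℓ (zEval1 ℓ s) = zEmb ℓ (zEval2 N ℓ a)

theorem isChartQuot_of_mem {x : LaurentSeries ℚ} (hx : x ∈ modularFunctionFieldFull N) :
    IsChartQuot N ℓ x := by
  have hQ : (N : ℚ) ≠ 0 := Nat.cast_ne_zero.mpr (NeZero.ne N)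
  have hint := isIntegral_jqNModC ℚ N hQ
  rw [← modularFunctionFieldFullC_rat, ← restrictScalars_adjoin_jqNModC ℚ N hQ,
    IntermediateField.mem_restrictScalars, ← IntermediateField.mem_toSubalgebra,
    IntermediateField.adjoin_simple_toSubalgebra_of_isAlgebraic hint.isAlgebraic] at hx
  induction hx using Algebra.adjoin_induction with
  | mem y hy =>
    rw [Set.mem_singleton_iff] at hy
    subst hy
    refine ⟨X, 1, one_ne_zero, ?_⟩
    rw [map_one, map_one, mul_one, zEval2_X, zEmb, coeffMap_jqNModC]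
  | algebraMap c =>
    obtain ⟨r, s, hrs⟩ := (IntermediateField.mem_adjoin_simple_iff ℚ _).mp c.2
    replace hrs : (c : LaurentSeries ℚ) = aeval jq r / aeval jq s := hrs
    obtain ⟨r, s, hs0, hrs⟩ : ∃ r s : Polynomial ℚ, s ≠ 0 ∧
        (c : LaurentSeries ℚ) * aeval jq s = aeval jq r := by
      by_cases h : aeval jq s = 0
      · exact ⟨0, 1, one_ne_zero, by rw [hrs, h, div_zero, zero_mul, map_zero]⟩
      · exact ⟨r, s, fun hh => h (by rw [hh, map_zero]), by rw [hrs, div_mul_cancel₀ _ h]⟩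
    obtain ⟨br, r', hbr, hr'⟩ := exists_clear_denominators ℓ r
    obtain ⟨bs, s', hbs, hs'⟩ := exists_clear_denominators ℓ s
    refine ⟨C (r' * C bs), s' * C br, mul_ne_zero (fun h => ?_) (C_ne_zero.mpr hbr), ?_⟩
    · rw [h, Polynomial.map_zero, eq_comm, mul_eq_zero, C_eq_zero] at hs'
      exact hs'.elim (fun h1 => hbs (Subtype.ext h1)) hs0
    · rw [zEval2_C, zEmb_zEval1, zEmb_zEval1, Polynomial.map_mul, Polynomial.map_mul, hr', hs',
        map_C, map_C, map_mul, map_mul, map_mul, map_mul, ← hrs]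
      show (c : LaurentSeries ℚ) * _ = _
      simp only [Subring.coe_subtype]
      ring
  | add y z _ _ hy hz =>
    obtain ⟨a, s, hs, h1⟩ := hy
    obtain ⟨b, t, ht, h2⟩ := hz
    refine ⟨a * C t + b * C s, s * t, mul_ne_zero hs ht, ?_⟩
    simp only [map_add, map_mul, zEval2_C, ← h1, ← h2]
    ring
  | mul y z _ _ hy hz =>
    obtain ⟨a, s, hs, h1⟩ := hy
    obtain ⟨b, t, ht, h2⟩ := hz
    refine ⟨a * b, s * t, mul_ne_zero hs ht, ?_⟩
    rw [map_mul, map_mul, map_mul, map_mul, ← h1, ← h2]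
    ring

/-- Reduction of series. -/
abbrev zRedL : ZLaurent ℓ →+* LaurentSeries (ZRes ℓ) := coeffMap (zred ℓ)

theorem zRedL_zEval1 (P : Polynomial (ZLoc ℓ)) :
    zRedL ℓ (zEval1 ℓ P) = aeval (jqModC (ZRes ℓ)) (P.map (zred ℓ)) := by
  rw [zEval1, coe_eval₂RingHom, hom_eval₂, zRedL, coeffMap_jqModC', aeval_def, eval₂_map]
  congr 1
  ext c : 1
  rw [RingHom.comp_apply, RingHom.comp_apply, HahnSeries.C_apply, coeffMap_single,
    algebraMap_laurentSeries_eq_single]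

/-- **Irreducibility mod `ℓ`**: a relation of low degree vanishing mod `ℓ` is divisible by `ℓ`. -/
theorem C_C_ell_dvd_of_red_eq_zero (hℓN : ¬ ℓ ∣ N) {a : Polynomial (Polynomial (ZLoc ℓ))}
    (ha : a.degree < (dedekindPsi N : WithBot ℕ)) (h : zRedL ℓ (zEval2 N ℓ a) = 0) :
    C (C (ℓ : ZLoc ℓ)) ∣ a := by
  have hk : (N : ZRes ℓ) ≠ 0 := fun h0 => hℓN ((natCast_zres_eq_zero_iff ℓ N).mp h0)
  rcases eq_or_ne a 0 with rfl | ha0
  · exact dvd_zero _
  have hnd : a.natDegree < dedekindPsi N := (natDegree_lt_iff_degree_lt ha0).mpr ha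
  rw [zEval2, coe_eval₂RingHom, hom_eval₂, eval₂_eq_sum_range' _ hnd, zRedL, coeffMap_jqNModC,
    ← Fin.sum_univ_eq_sum_range] at h
  have hz := eq_zero_of_sum_aeval_mul_jqNModC_pow (ZRes ℓ) N hk
    (fun i => (a.coeff i).map (zred ℓ)) (by
      rw [← h]
      exact Finset.sum_congr rfl fun i _ => by rw [← zRedL_zEval1]; rfl)
  rw [C_dvd_iff_dvd_coeff]
  intro i
  by_cases hi : i < dedekindPsi N
  · exact (polynomial_map_zred_eq_zero_iff ℓ _).mp (congrFun hz ⟨i, hi⟩)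
  · rw [coeff_eq_zero_of_natDegree_lt (by omega)]
    exact dvd_zero _

/-- Any integral series in the function field is `a (j, j_N) / s (j)` with `s` prime to `ℓ`. -/
theorem exists_primitive_repr (hℓN : ¬ ℓ ∣ N) (T : ZLaurent ℓ)
    (hT : zEmb ℓ T ∈ modularFunctionFieldFull N) :
    ∃ (a : Polynomial (Polynomial (ZLoc ℓ))) (s : Polynomial (ZLoc ℓ)),
      a.degree < (dedekindPsi N : WithBot ℕ) ∧ s.map (zred ℓ) ≠ 0 ∧
        T * zEval1 ℓ s = zEval2 N ℓ a := by
  obtain ⟨Φ, hΦ, hΦn, hΦ0⟩ := exists_modularEquation_zloc N ℓ hℓN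
  obtain ⟨a, s, hs, h⟩ := isChartQuot_of_mem N ℓ hT
  rw [← map_mul] at h
  have hT' := zEmb_injective ℓ h
  clear h
  have hmod : zEval2 N ℓ (a %ₘ Φ) = zEval2 N ℓ a := by
    conv_rhs => rw [← modByMonic_add_div a Φ]
    rw [map_add, map_mul, hΦ0, zero_mul, add_zero]
  have hdeg : (a %ₘ Φ).degree < (dedekindPsi N : WithBot ℕ) := by
    refine lt_of_lt_of_le (degree_modByMonic_lt a hΦ) ?_
    rw [degree_eq_natDegree hΦ.ne_zero, hΦn]
  rw [← hmod] at hT'
  have hprime : Prime (C (ℓ : ZLoc ℓ) : Polynomial (ZLoc ℓ)) := by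
    refine prime_C_iff.mpr ((Ideal.span_singleton_prime ?_).mp (isMaximal_ellIdeal ℓ).isPrime)
    exact fun h => C_ell_ne_zero ℓ (by rw [h, C_0])
  obtain ⟨n, s₀, hs₀, rfl⟩ := WfDvdMonoid.max_power_factor hs hprime.irreducible
  have hs0red : s₀.map (zred ℓ) ≠ 0 := fun h => hs₀ ((polynomial_map_zred_eq_zero_iff ℓ _).mp h)
  revert hT' hdeg
  generalize a %ₘ Φ = b
  clear hs hmod
  intro hdeg hT'
  induction n generalizing b with
  | zero => exact ⟨b, s₀, hdeg, hs0red, by simpa using hT'⟩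
  | succ n ih =>
    have hz : zRedL ℓ (zEval2 N ℓ b) = 0 := by
      rw [← hT', map_mul, pow_succ', mul_assoc, map_mul, map_mul, zRedL_zEval1, map_C,
        (zred_eq_zero_iff ℓ _).mpr dvd_rfl, C_0, map_zero, zero_mul, mul_zero]
    obtain ⟨b', rfl⟩ := C_C_ell_dvd_of_red_eq_zero N ℓ hℓN hdeg hz
    refine ih b' ?_ ?_
    · rwa [degree_C_mul (C_ell_ne_zero ℓ)] at hdeg
    · have hne : zEval1 ℓ (C (ℓ : ZLoc ℓ)) ≠ 0 :=
        (map_ne_zero_iff _ (zEval1_injective ℓ)).mpr (C_ell_ne_zero ℓ)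
      refine mul_left_cancel₀ hne ?_
      simp only [map_mul, zEval2_C, map_pow, pow_succ'] at hT' ⊢
      linear_combination hT'

end FermatLib.Igusa

end
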