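import Fermat.Agent.Igusa.ChartRepresentation

/-!
# Reduction of `q`-expansions on the charts of the Igusa model
-/

set_option autoImplicit false

noncomputable section

open ModularCurve ModularCurve.IgusaScheme Polynomial Function

namespace FermatLib.Igusa

variable (N : ℕ) [NeZero N] (ℓ : ℕ) [Fact ℓ.Prime]

/-- The sets of parameters defining the charts. -/
def IsChartSet (S : Set ↥(modularFunctionFieldFull N)) : Prop :=
  S ⊆ {jFull N, (jFull N)⁻¹}

theorem fullVal_algebraMap (c : ZLoc ℓ) :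
    ((algebraMap (ZLoc ℓ) ↥(modularFunctionFieldFull N) c : ↥(modularFunctionFieldFull N)) :
      LaurentSeries ℚ) = zEmb ℓ (HahnSeries.C c) := by
  rw [HahnSeries.C_apply, zEmb, coeffMap_single, ← algebraMap_laurentSeries_eq_single]
  rw [IsScalarTower.algebraMap_apply (ZLoc ℓ) ℚ ↥(modularFunctionFieldFull N), eq_ratCast,
    eq_ratCast]
  exact SubfieldClass.coe_ratCast _ _

/-- The inclusion of the function field into series. -/
abbrev fullVal : ↥(modularFunctionFieldFull N) →+* LaurentSeries ℚ :=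
  (modularFunctionFieldFull N).toSubfield.subtype

theorem fullVal_comp_algebraMap :
    (fullVal N).comp (algebraMap (ZLoc ℓ) ↥(modularFunctionFieldFull N)) =
      (algebraMap ℚ (LaurentSeries ℚ)).comp (GaloisRep.ratLocalizedAt ℓ).subtype := by
  refine RingHom.ext fun c => (fullVal_algebraMap N ℓ c).trans ?_
  rw [HahnSeries.C_apply, zEmb, coeffMap_single, RingHom.comp_apply,
    algebraMap_laurentSeries_eq_single]

theorem mem_range_zEmb_of_mem_adjoin {S : Set ↥(modularFunctionFieldFull N)}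
    (hS : IsChartSet N S) {z : ↥(modularFunctionFieldFull N)}
    (hz : z ∈ Algebra.adjoin (ZLoc ℓ) S) : (z : LaurentSeries ℚ) ∈ (zEmb ℓ).range := by
  induction hz using Algebra.adjoin_induction with
  | mem y hy =>
    rcases hS hy with rfl | rfl
    · exact ⟨jqModC (ZLoc ℓ), zEmb_jqModC ℓ⟩
    · refine ⟨((isUnit_jqModC (ZLoc ℓ)).unit⁻¹ : (ZLaurent ℓ)ˣ), ?_⟩
      refine eq_inv_of_mul_eq_one_right ?_
      rw [coe_jFull, ← zEmb_jqModC ℓ, ← map_mul, IsUnit.mul_val_inv, map_one]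
  | algebraMap c => exact ⟨_, (fullVal_algebraMap N ℓ c).symm⟩
  | add a b _ _ ha hb => exact add_mem ha hb
  | mul a b _ _ ha hb => exact mul_mem ha hb

/-- Fractions of integral series. -/
def fracSeries : FractionRing (ZLaurent ℓ) →+* LaurentSeries ℚ :=
  IsFractionRing.lift (A := ZLaurent ℓ) (zEmb_injective ℓ)

theorem full_le_fracSeries {x : LaurentSeries ℚ} (hx : x ∈ modularFunctionFieldFull N) :
    x ∈ (fracSeries ℓ).fieldRange := by
  let E : IntermediateField ℚ (LaurentSeries ℚ) :=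
    (fracSeries ℓ).fieldRange.toIntermediateField fun c => by
      rw [eq_ratCast]; exact SubfieldClass.ratCast_mem _ c
  suffices h : modularFunctionFieldFull N ≤ E from h hx
  rw [modularFunctionFieldFull, IntermediateField.adjoin_le_iff]
  rintro y ⟨d, hne, -, rfl⟩
  exact ⟨algebraMap (ZLaurent ℓ) _ (qExpand (ZLoc ℓ) d (jqModC (ZLoc ℓ))), by
    rw [fracSeries, IsFractionRing.lift_algebraMap, zEmb_qExpand_jqModC]⟩

theorem exists_series {S : Set ↥(modularFunctionFieldFull N)} (hS : IsChartSet N S)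
    (x : chartAlg N ℓ S) :
    ∃ T : ZLaurent ℓ, zEmb ℓ T = ((x : ↥(modularFunctionFieldFull N)) : LaurentSeries ℚ) := by
  obtain ⟨z, hz⟩ := full_le_fracSeries N ℓ (x : ↥(modularFunctionFieldFull N)).2
  obtain ⟨p, hp, hpx⟩ := (mem_chartAlg_iff N ℓ).mp x.2
  have hlift : p.map ((fullVal N).comp
      (algebraMap (Algebra.adjoin (ZLoc ℓ) S) _)) ∈ lifts (zEmb ℓ) := by
    rw [lifts_iff_coeff_lifts]
    intro i
    rw [coeff_map]
    obtain ⟨T, hT⟩ := mem_range_zEmb_of_mem_adjoin N ℓ hS (p.coeff i).2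
    exact ⟨T, hT⟩
  obtain ⟨q, hq, -, hqm⟩ := lifts_and_natDegree_eq_and_monic hlift (hp.map _)
  have hroot : q.eval₂ (zEmb ℓ)
      ((x : ↥(modularFunctionFieldFull N)) : LaurentSeries ℚ) = 0 := by
    rw [eval₂_eq_eval_map, hq, eval_map]
    have h1 := congrArg (fullVal N) hpx
    rw [hom_eval₂, map_zero] at h1
    exact h1
  have hint : IsIntegral (ZLaurent ℓ) z := by
    refine ⟨q, hqm, (fracSeries ℓ).injective ?_⟩
    rw [map_zero, hom_eval₂, hz, ← hroot]
    congr 1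
    refine RingHom.ext fun c => ?_
    rw [RingHom.comp_apply, fracSeries, IsFractionRing.lift_algebraMap]
  obtain ⟨T, rfl⟩ := IsIntegrallyClosed.isIntegral_iff.mp hint
  exact ⟨T, by rw [← hz, fracSeries, IsFractionRing.lift_algebraMap]⟩

/-- The `q`-expansion of an element of a chart has coefficients in `ℤ_(ℓ)`. -/
theorem coeff_mem_ratLocalizedAt {S : Set ↥(modularFunctionFieldFull N)} (hS : IsChartSet N S)
    (x : chartAlg N ℓ S) (i : ℤ) :
    ((x : ↥(modularFunctionFieldFull N)) : LaurentSeries ℚ).coeff i ∈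
      GaloisRep.ratLocalizedAt ℓ := by
  obtain ⟨T, hT⟩ := exists_series N ℓ hS x
  rw [← hT]
  exact (T.coeff i).2

theorem zEmb_choose {S : Set ↥(modularFunctionFieldFull N)} (hS : IsChartSet N S)
    (x : chartAlg N ℓ S) : zEmb ℓ (exists_series N ℓ hS x).choose =
      ((x : ↥(modularFunctionFieldFull N)) : LaurentSeries ℚ) :=
  (exists_series N ℓ hS x).choose_spec

/-- The `q`-expansion of an element of a chart, over `ℤ_(ℓ)`. -/
def chartSeries {S : Set ↥(modularFunctionFieldFull N)} (hS : IsChartSet N S) :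
    chartAlg N ℓ S →+* LaurentSeries ↥(GaloisRep.ratLocalizedAt ℓ) where
  toFun x := (exists_series N ℓ hS x).choose
  map_one' := zEmb_injective ℓ (by rw [zEmb_choose N ℓ hS, map_one]; rfl)
  map_zero' := zEmb_injective ℓ (by rw [zEmb_choose N ℓ hS, map_zero]; rfl)
  map_add' x y := zEmb_injective ℓ (by rw [map_add, zEmb_choose N ℓ hS, zEmb_choose N ℓ hS, zEmb_choose N ℓ hS]; rfl)
  map_mul' x y := zEmb_injective ℓ (by rw [map_mul, zEmb_choose N ℓ hS, zEmb_choose N ℓ hS, zEmb_choose N ℓ hS]; rfl)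

theorem zEmb_chartSeries {S : Set ↥(modularFunctionFieldFull N)} (hS : IsChartSet N S)
    (x : chartAlg N ℓ S) :
    zEmb ℓ (chartSeries N ℓ hS x) = ((x : ↥(modularFunctionFieldFull N)) : LaurentSeries ℚ) :=
  zEmb_choose N ℓ hS x

theorem coe_chartSeries_coeff {S : Set ↥(modularFunctionFieldFull N)} (hS : IsChartSet N S)
    (x : chartAlg N ℓ S) (i : ℤ) :
    (((chartSeries N ℓ hS x).coeff i : ↥(GaloisRep.ratLocalizedAt ℓ)) : ℚ) =
      ((x : ↥(modularFunctionFieldFull N)) : LaurentSeries ℚ).coeff i := by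
  rw [← zEmb_chartSeries N ℓ hS x]
  rfl

theorem isChartSet_fin : IsChartSet N {jFull N} := sFin_subset N

theorem isChartSet_inf : IsChartSet N {(jFull N)⁻¹} := sInf_subset N

/-- Evaluation of polynomials over `ℤ_(ℓ)` at a function. -/
def evalT (t : ↥(modularFunctionFieldFull N)) :
    Polynomial (ZLoc ℓ) →+* ↥(modularFunctionFieldFull N) :=
  eval₂RingHom (algebraMap (ZLoc ℓ) _) t

theorem evalT_mem_adjoin (t : ↥(modularFunctionFieldFull N)) (P : Polynomial (ZLoc ℓ)) :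
    evalT N ℓ t P ∈ Algebra.adjoin (ZLoc ℓ) {t} :=
  (Algebra.adjoin_singleton_eq_range_aeval (ZLoc ℓ) t).symm ▸ ⟨P, rfl⟩

theorem evalT_injective {t : ↥(modularFunctionFieldFull N)}
    (ht : Transcendental ℚ (t : LaurentSeries ℚ)) : Injective (evalT N ℓ t) := by
  intro P Q h
  have h2 : ∀ P : Polynomial (ZLoc ℓ), ((evalT N ℓ t P : ↥(modularFunctionFieldFull N)) :
      LaurentSeries ℚ) = aeval (t : LaurentSeries ℚ)
        (P.map (GaloisRep.ratLocalizedAt ℓ).subtype) := by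
    intro P
    rw [evalT, coe_eval₂RingHom, aeval_def, eval₂_map]
    refine (hom_eval₂ P _ (fullVal N) _).trans ?_
    rw [fullVal_comp_algebraMap]
    rfl
  have h' := congrArg (fun z : ↥(modularFunctionFieldFull N) => (z : LaurentSeries ℚ)) h
  simp only [h2] at h'
  exact Polynomial.map_injective _ (GaloisRep.ratLocalizedAt ℓ).subtype_injective
    ((transcendental_iff_injective.mp ht) h')

/-- Transfer of integrality between the chart and the polynomial ring. -/
theorem mem_chartAlg_of_coprime_multiples {t : ↥(modularFunctionFieldFull N)}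
    (ht : Transcendental ℚ (t : LaurentSeries ℚ)) {y : ↥(modularFunctionFieldFull N)}
    {s : Polynomial (ZLoc ℓ)} (hs : s.map (zred ℓ) ≠ 0)
    (h₁ : (ℓ : ↥(modularFunctionFieldFull N)) * y ∈ chartAlg N ℓ {t})
    (h₂ : evalT N ℓ t s * y ∈ chartAlg N ℓ {t}) : y ∈ chartAlg N ℓ {t} := by
  letI : Algebra (Polynomial (ZLoc ℓ)) ↥(modularFunctionFieldFull N) := (evalT N ℓ t).toAlgebra
  haveI : FaithfulSMul (Polynomial (ZLoc ℓ)) ↥(modularFunctionFieldFull N) :=
    (faithfulSMul_iff_algebraMap_injective _ _).mpr (evalT_injective N ℓ ht)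
  have hto : ∀ w ∈ chartAlg N ℓ {t}, IsIntegral (Polynomial (ZLoc ℓ)) w := by
    intro w hw
    obtain ⟨p, hp, hpw⟩ := (mem_chartAlg_iff N ℓ).mp hw
    have hl : p.map (algebraMap (Algebra.adjoin (ZLoc ℓ) ({t} : Set _))
        ↥(modularFunctionFieldFull N)) ∈ lifts (evalT N ℓ t) := by
      rw [lifts_iff_coeff_lifts]
      intro i
      rw [coeff_map]
      obtain ⟨P, hP⟩ := (Algebra.adjoin_singleton_eq_range_aeval (ZLoc ℓ) t).le (p.coeff i).2
      exact ⟨P, hP⟩
    obtain ⟨q, hq, -, hqm⟩ := lifts_and_natDegree_eq_and_monic hl (hp.map _)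
    refine ⟨q, hqm, ?_⟩
    rw [RingHom.algebraMap_toAlgebra, eval₂_eq_eval_map, hq, eval_map, hpw]
  have hy : IsIntegral (Polynomial (ZLoc ℓ)) y := by
    refine isIntegral_of_coprime_multiples hs ?_ (hto _ h₂)
    have he : algebraMap (Polynomial (ZLoc ℓ)) ↥(modularFunctionFieldFull N)
        (C (ℓ : ZLoc ℓ)) = (ℓ : ↥(modularFunctionFieldFull N)) := by
      rw [map_natCast C, map_natCast]
    rw [he]
    exact hto _ h₁
  obtain ⟨q, hqm, hq⟩ := hy
  rw [mem_chartAlg_iff]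
  refine ⟨q.map (RingHom.codRestrict (evalT N ℓ t) (Algebra.adjoin (ZLoc ℓ) ({t} : Set _))
    (evalT_mem_adjoin N ℓ t)), hqm.map _, ?_⟩
  rw [eval₂_map]
  exact hq

theorem transcendental_coe_jFull : Transcendental ℚ (jFull N : LaurentSeries ℚ) := by
  rw [coe_jFull]
  exact transcendental_iff_injective.mpr aeval_jq_injective

theorem transcendental_coe_jFull_inv :
    Transcendental ℚ (((jFull N)⁻¹ : ↥(modularFunctionFieldFull N)) : LaurentSeries ℚ) := by
  intro h
  apply transcendental_coe_jFull N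
  have : (((jFull N)⁻¹ : ↥(modularFunctionFieldFull N)) : LaurentSeries ℚ) =
      ((jFull N : LaurentSeries ℚ))⁻¹ := rfl
  rw [this] at h
  exact IsAlgebraic.inv_iff.mp h

/-- Evaluation at `(j, j_N)` in the function field. -/
def fullEval2 : Polynomial (Polynomial (ZLoc ℓ)) →+* ↥(modularFunctionFieldFull N) :=
  eval₂RingHom (evalT N ℓ (jFull N)) ⟨qExpand ℚ N jq, jqd_mem_full N dvd_rfl⟩

theorem coe_evalT_jFull (P : Polynomial (ZLoc ℓ)) :
    ((evalT N ℓ (jFull N) P : ↥(modularFunctionFieldFull N)) : LaurentSeries ℚ) =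
      zEmb ℓ (zEval1 ℓ P) := by
  rw [zEmb_zEval1, evalT, coe_eval₂RingHom, aeval_def, eval₂_map]
  refine (hom_eval₂ P _ (fullVal N) _).trans ?_
  rw [fullVal_comp_algebraMap]
  rfl

theorem coe_fullEval2 (a : Polynomial (Polynomial (ZLoc ℓ))) :
    ((fullEval2 N ℓ a : ↥(modularFunctionFieldFull N)) : LaurentSeries ℚ) =
      zEmb ℓ (zEval2 N ℓ a) := by
  rw [fullEval2, zEval2, coe_eval₂RingHom, coe_eval₂RingHom, hom_eval₂]
  refine (hom_eval₂ a _ (fullVal N) _).trans ?_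
  congr 1
  · exact RingHom.ext fun P => coe_evalT_jFull N ℓ P
  · rw [zEmb, coeffMap_jqNModC]
    rfl

theorem fullEval2_mem_chartAlgFin (hℓN : ¬ ℓ ∣ N) (a : Polynomial (Polynomial (ZLoc ℓ))) :
    fullEval2 N ℓ a ∈ chartAlgFin N ℓ := by
  obtain ⟨Φ, hΦ, -, hΦ0⟩ := exists_modularEquation_zloc N ℓ hℓN
  have hroot : fullEval2 N ℓ Φ = 0 := by
    apply Subtype.ext
    rw [coe_fullEval2, hΦ0, map_zero]
    rfl
  have hjN : (⟨qExpand ℚ N jq, jqd_mem_full N dvd_rfl⟩ : ↥(modularFunctionFieldFull N)) ∈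
      chartAlgFin N ℓ := by
    rw [mem_chartAlg_iff]
    refine ⟨Φ.map (RingHom.codRestrict (evalT N ℓ (jFull N))
      (Algebra.adjoin (ZLoc ℓ) ({jFull N} : Set _)) (evalT_mem_adjoin N ℓ (jFull N))),
      hΦ.map _, ?_⟩
    rw [eval₂_map]
    exact hroot
  rw [fullEval2, coe_eval₂RingHom, eval₂_eq_sum_range]
  exact sum_mem fun i _ => mul_mem
    (adjoin_le_chartAlg N ℓ _ (evalT_mem_adjoin N ℓ _ _)) (pow_mem hjN _)

/-- A series all of whose coefficients are divisible by `ℓ`. -/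
theorem exists_series_div {T : ZLaurent ℓ}
    (h : ∀ i, ∃ c : ZLoc ℓ, (T.coeff i : ℚ) = ℓ * (c : ℚ)) :
    ∃ T' : ZLaurent ℓ, T = (ℓ : ZLaurent ℓ) * T' := by
  choose c hc using h
  refine ⟨⟨c, T.isPWO_support.mono fun i hi => ?_⟩, ?_⟩
  · rw [HahnSeries.mem_support]
    intro h0
    refine hi (Subtype.ext ?_)
    have h1 := hc i
    rw [h0, ZeroMemClass.coe_zero, eq_comm, mul_eq_zero] at h1
    exact h1.resolve_left (Nat.cast_ne_zero.mpr (Fact.out : ℓ.Prime).ne_zero)
  · ext i : 2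
    rw [← map_natCast (HahnSeries.C (Γ := ℤ) (R := ZLoc ℓ)), HahnSeries.C_apply,
      HahnSeries.coeff_single_mul, sub_zero]
    exact Subtype.ext (hc i)

theorem natCast_full_ne_zero : (ℓ : ↥(modularFunctionFieldFull N)) ≠ 0 :=
  Nat.cast_ne_zero.mpr (Fact.out : ℓ.Prime).ne_zero

theorem exists_smul_iff {S : Set ↥(modularFunctionFieldFull N)} (x : chartAlg N ℓ S)
    {y : ↥(modularFunctionFieldFull N)} (hy : y ∈ chartAlg N ℓ S)
    (h : (x : ↥(modularFunctionFieldFull N)) = ℓ * y) :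
    ∃ y : chartAlg N ℓ S, x = (ℓ : ↥(GaloisRep.ratLocalizedAt ℓ)) • y := by
  refine ⟨⟨y, hy⟩, Subtype.ext ?_⟩
  rw [h, Subalgebra.coe_smul, Algebra.smul_def, map_natCast]

/-- **Igusa**: on the finite chart, a function all of whose coefficients are divisible by `ℓ` is
`ℓ` times an element of the chart. -/
theorem exists_eq_smul_of_coeff_dvd_fin (hℓN : ¬ ℓ ∣ N) (x : chartAlgFin N ℓ)
    (hx : ∀ i : ℤ, ∃ c : ↥(GaloisRep.ratLocalizedAt ℓ),
      ((x : ↥(modularFunctionFieldFull N)) : LaurentSeries ℚ).coeff i = ℓ * (c : ℚ)) :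
    ∃ y : chartAlgFin N ℓ, x = (ℓ : ↥(GaloisRep.ratLocalizedAt ℓ)) • y := by
  obtain ⟨T', hT'⟩ := exists_series_div (ℓ := ℓ) (T := chartSeries N ℓ (isChartSet_fin N) x)
    fun i => by
      obtain ⟨c, hc⟩ := hx i
      exact ⟨c, by rw [coe_chartSeries_coeff]; exact hc⟩
  obtain ⟨a, s, hdeg, hs, hrep⟩ := exists_primitive_repr N ℓ hℓN
    (chartSeries N ℓ (isChartSet_fin N) x)
    (by rw [zEmb_chartSeries]; exact (x : ↥(modularFunctionFieldFull N)).2)
  have hz : zRedL ℓ (zEval2 N ℓ a) = 0 := by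
    rw [← hrep, hT', map_mul, map_mul, map_natCast,
      show ((ℓ : ℕ) : LaurentSeries (ZRes ℓ)) = 0 by
        rw [← map_natCast (HahnSeries.C (Γ := ℤ) (R := ZRes ℓ)),
          (natCast_zres_eq_zero_iff ℓ ℓ).mpr dvd_rfl, map_zero]]
    ring
  obtain ⟨a', rfl⟩ := C_C_ell_dvd_of_red_eq_zero N ℓ hℓN hdeg hz
  set y : ↥(modularFunctionFieldFull N) :=
    (x : ↥(modularFunctionFieldFull N)) / (ℓ : ↥(modularFunctionFieldFull N)) with hy
  have hxy : (x : ↥(modularFunctionFieldFull N)) = ℓ * y := by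
    rw [hy, mul_div_cancel₀ _ (natCast_full_ne_zero N ℓ)]
  have key : evalT N ℓ (jFull N) s * y = fullEval2 N ℓ a' := by
    apply mul_left_cancel₀ (natCast_full_ne_zero N ℓ)
    rw [mul_left_comm, ← hxy]
    apply Subtype.ext
    have h := congrArg (zEmb ℓ) hrep
    rw [map_mul, zEmb_chartSeries, map_mul, map_mul, map_natCast C, map_natCast C, map_natCast,
      map_natCast] at h
    rw [MulMemClass.coe_mul, MulMemClass.coe_mul, coe_evalT_jFull, coe_fullEval2, mul_comm, h]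
    rfl
  refine exists_smul_iff N ℓ x (mem_chartAlg_of_coprime_multiples N ℓ
    (transcendental_coe_jFull N) hs (hxy ▸ x.2) ?_) hxy
  rw [key]
  exact fullEval2_mem_chartAlgFin N ℓ hℓN a'

/-- The same on the chart at infinity. -/
theorem exists_eq_smul_of_coeff_dvd_inf (hℓN : ¬ ℓ ∣ N) (x : chartAlgInf N ℓ)
    (hx : ∀ i : ℤ, ∃ c : ↥(GaloisRep.ratLocalizedAt ℓ),
      ((x : ↥(modularFunctionFieldFull N)) : LaurentSeries ℚ).coeff i = ℓ * (c : ℚ)) :
    ∃ y : chartAlgInf N ℓ, x = (ℓ : ↥(GaloisRep.ratLocalizedAt ℓ)) • y := by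
  obtain ⟨T', hT'⟩ := exists_series_div (ℓ := ℓ) (T := chartSeries N ℓ (isChartSet_inf N) x)
    fun i => by
      obtain ⟨c, hc⟩ := hx i
      exact ⟨c, by rw [coe_chartSeries_coeff]; exact hc⟩
  have hxm : (x : ↥(modularFunctionFieldFull N)) ∈
      chartAlg N ℓ (insert (jFull N)⁻¹ {jFull N}) :=
    chartAlg_mono N ℓ (by simp) x.2
  obtain ⟨n, hn⟩ := exists_pow_mul_mem_chartAlg (Set.mem_singleton _) (jFull_ne_zero N) hxm
  set w : chartAlgFin N ℓ := ⟨jFull N ^ n * (x : ↥(modularFunctionFieldFull N)), hn⟩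
  obtain ⟨z, hz⟩ := exists_eq_smul_of_coeff_dvd_fin N ℓ hℓN w fun i => by
    refine ⟨(jqModC (ZLoc ℓ) ^ n * T').coeff i, ?_⟩
    have hw : ((w : ↥(modularFunctionFieldFull N)) : LaurentSeries ℚ) =
        zEmb ℓ ((ℓ : ZLaurent ℓ) * (jqModC (ZLoc ℓ) ^ n * T')) := by
      show ((jFull N : LaurentSeries ℚ)) ^ n *
        ((x : ↥(modularFunctionFieldFull N)) : LaurentSeries ℚ) = _
      rw [← zEmb_chartSeries N ℓ (isChartSet_inf N) x, hT', coe_jFull, ← zEmb_jqModC ℓ, ← map_pow,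
        ← map_mul]
      congr 1
      ring
    rw [hw, zEmb, coeffMap_coeff, ← map_natCast (HahnSeries.C (Γ := ℤ) (R := ZLoc ℓ)),
      HahnSeries.C_apply, HahnSeries.coeff_single_mul, sub_zero, map_mul, map_natCast]
    rfl
  set y : ↥(modularFunctionFieldFull N) :=
    (x : ↥(modularFunctionFieldFull N)) / (ℓ : ↥(modularFunctionFieldFull N)) with hy
  have hxy : (x : ↥(modularFunctionFieldFull N)) = ℓ * y := by
    rw [hy, mul_div_cancel₀ _ (natCast_full_ne_zero N ℓ)]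
  have hzy : (z : ↥(modularFunctionFieldFull N)) = jFull N ^ n * y := by
    have h := congrArg (fun u : chartAlgFin N ℓ => (u : ↥(modularFunctionFieldFull N))) hz
    simp only [Algebra.smul_def, map_natCast] at h
    apply mul_left_cancel₀ (natCast_full_ne_zero N ℓ)
    rw [mul_left_comm, ← hxy]
    exact h.symm.trans (by rfl)
  have hzm : (z : ↥(modularFunctionFieldFull N)) ∈
      chartAlg N ℓ (insert (jFull N)⁻¹⁻¹ {(jFull N)⁻¹}) :=
    chartAlg_mono N ℓ (by simp) z.2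
  obtain ⟨M, hM⟩ := exists_pow_mul_mem_chartAlg (Set.mem_singleton _)
    (inv_ne_zero (jFull_ne_zero N)) hzm
  refine exists_smul_iff N ℓ x (mem_chartAlg_of_coprime_multiples N ℓ
    (transcendental_coe_jFull_inv N) (s := X ^ M)
    (by rw [Polynomial.map_pow, map_X]; exact pow_ne_zero _ X_ne_zero) (hxy ▸ x.2) ?_) hxy
  rw [evalT, coe_eval₂RingHom, eval₂_X_pow]
  have h2 := mul_mem (pow_mem (subset_chartAlg N ℓ _ (Set.mem_singleton (jFull N)⁻¹)) n) hM
  rwa [hzy, mul_left_comm, ← mul_assoc ((jFull N)⁻¹ ^ n), ← mul_pow,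
    inv_mul_cancel₀ (jFull_ne_zero N), one_pow, one_mul] at h2

end FermatLib.Igusa

end
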