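import Fermat.Agent.Igusa.DegreeSubst
import Fermat.Agent.Igusa.LevelRing
import Fermat.Agent.Modular.JScale
import Fermat.Prelude.Thm_ModularCurve_coeff_jqModC_pow_self
import Fermat.Prelude.Thm_ModularCurve_coeff_jqModC_pow_of_lt

/-!
# `j` in the level ring, and the level one invariants
-/

set_option autoImplicit false

noncomputable section

open Complex UpperHalfPlane Function ModularCurve CongruenceSubgroup
open scoped Real MatrixGroups ModularForm

namespace FermatLib.Igusa

variable {R : Type*} [CommRing R] {φ : R →+* ℂ} {n : ℕ} [NeZero n]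

/-- The expansion of the discriminant at level `n`: integral, with leading term `u ^ n`. -/
theorem exists_hasExp_discriminant_level (φ : R →+* ℂ) (n : ℕ) [NeZero n] :
    ∃ F : LaurentSeries R,
      HasExp n ModularForm.discriminant (coeffMap φ F) ∧
      (∀ k < (n : ℤ), F.coeff k = 0) ∧ F.coeff (n : ℤ) = 1 := by
  have h := (leadsWith_deltaSeriesModC R).expand n
  rw [mul_one] at h
  refine ⟨qExpand R n (deltaSeriesModC R), ?_, h.1, h.2⟩
  rw [coeffMap_qExpand, coeffMap_deltaSeriesModC]
  exact hasExp_discriminant.scale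

variable (φ n)

theorem hasExp_jFun_smul (γ : SL(2, ℤ)) :
    HasExp n (fun τ => Modular.jFun (γ • τ)) (coeffMap φ (qExpand R n (jqModC R))) := by
  rw [coeffMap_qExpand, coeffMap_jqModC']
  exact (hasExp_jFun.scale).congr fun τ => (Modular.jFun_smul γ τ).symm

/-- `j` in the level ring. -/
def levelJ : levelRing φ n :=
  ⟨Modular.jFun, fun γ _ τ => Modular.jFun_smul γ τ, fun γ => ⟨_, hasExp_jFun_smul φ n γ⟩⟩

@[simp]
theorem coe_levelJ : (levelJ φ n : ℍ → ℂ) = Modular.jFun := rfl

@[simp]
theorem smul_levelJ (γ : SL(2, ℤ)) : γ • levelJ φ n = levelJ φ n :=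
  Subtype.ext (funext fun τ => by rw [coe_levelSmul, coe_levelJ, Modular.jFun_smul])

variable {φ n}

theorem levelExp_levelJ (hφ : Injective φ) (γ : SL(2, ℤ)) :
    levelExp hφ γ (levelJ φ n) = qExpand R n (jqModC R) :=
  levelExp_eq hφ (hasExp_jFun_smul φ n γ)

theorem levelExp_algebraMap (hφ : Injective φ) (γ : SL(2, ℤ)) (r : R) :
    levelExp hφ γ (algebraMap R (levelRing φ n) r) = HahnSeries.C r := by
  rw [algebraMap_levelRing, levelExp_levelC]
  rfl

/-- A fixed element has expansion in powers of `u ^ n`. -/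
theorem coeff_eq_zero_of_forall_smul_eq (hφ : Injective φ) {f : levelRing φ n}
    (hf : ∀ γ : SL(2, ℤ), γ • f = f) {k : ℤ} (hk : ¬ (n : ℤ) ∣ k) :
    (levelExp hφ 1 f).coeff k = 0 := by
  have h1 : levelExp hφ (1 * ModularGroup.T ^ (1 : ℤ)) f = levelExp hφ 1 f := by
    rw [one_mul, ← levelExp_one_smul hφ, hf]
  have h2 := levelExp_mul_T_coeff hφ 1 1 f k
  rw [h1, one_mul] at h2
  apply hφ
  rw [map_zero]
  by_contra h0
  have h3 : zetaU n ^ k = 1 := mul_left_cancel₀ h0 (by rw [mul_one]; exact h2.symm)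
  exact hk (((isPrimitiveRoot_zetaU n).zpow_eq_one_iff_dvd k).mp h3)

/-- **Level one**: a fixed element of the level ring is a polynomial in `j` over `R`. -/
theorem exists_polynomial_levelJ (hφ : Injective φ) (f : levelRing φ n)
    (hf : ∀ γ : SL(2, ℤ), γ • f = f) :
    ∃ P : Polynomial R, f = Polynomial.aeval (levelJ φ n) P := by
  suffices h : ∀ (m : ℕ) (f : levelRing φ n), (∀ γ : SL(2, ℤ), γ • f = f) →
      (∀ k : ℤ, k < -((n : ℤ) * m) → (levelExp hφ 1 f).coeff k = 0) →
        ∃ P : Polynomial R, f = Polynomial.aeval (levelJ φ n) P by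
    refine h (levelExp hφ 1 f).order.natAbs f hf fun k hk =>
      HahnSeries.coeff_eq_zero_of_lt_order (lt_of_lt_of_le hk ?_)
    have hn : (1 : ℤ) ≤ n := by exact_mod_cast Nat.pos_of_ne_zero (NeZero.ne n)
    have := Int.le_natAbs (a := -(levelExp hφ 1 f).order)
    rw [Int.natAbs_neg] at this
    nlinarith [Int.natCast_nonneg (levelExp hφ 1 f).order.natAbs]
  intro m
  induction m with
  | zero =>
    intro f hf h
    have hall : ∀ (γ : SL(2, ℤ)) (k : ℤ), k < 0 → (levelExp hφ γ f).coeff k = 0 := by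
      intro γ k hk
      rw [← levelExp_one_smul hφ, hf]
      exact h k (by simpa using hk)
    obtain ⟨r, hr⟩ := exists_eq_levelC_of_forall_coeff_eq_zero hφ f hall
    exact ⟨Polynomial.C r, by rw [Polynomial.aeval_C, hr, algebraMap_levelRing]⟩
  | succ m ih =>
    intro f hf h
    set c := (levelExp hφ 1 f).coeff (-((n : ℤ) * (m + 1 : ℕ))) with hc
    set g := f - algebraMap R (levelRing φ n) c * levelJ φ n ^ (m + 1) with hg
    have hgfix : ∀ γ : SL(2, ℤ), γ • g = g := fun γ => by
      rw [hg, smul_sub, smul_mul', smul_pow', hf, smul_levelJ, algebraMap_levelRing, smul_levelC]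
    obtain ⟨P, hP⟩ := ih g hgfix fun k hk => by
      by_cases hd : (n : ℤ) ∣ k
      · obtain ⟨k', rfl⟩ := hd
        have hexp : levelExp hφ 1 g = levelExp hφ 1 f -
            HahnSeries.C c * qExpand R n (jqModC R ^ (m + 1)) := by
          rw [hg, map_sub, map_mul, map_pow, levelExp_algebraMap, levelExp_levelJ, map_pow]
        rw [hexp, HahnSeries.coeff_sub, HahnSeries.C_mul_eq_smul, HahnSeries.coeff_smul,
          smul_eq_mul, qExpand_coeff_mul]
        have hlt : k' < -(m : ℤ) :=
          lt_of_mul_lt_mul_left (by linarith) (Int.natCast_nonneg n)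
        rcases (show k' ≤ -((m + 1 : ℕ) : ℤ) by push_cast; omega).lt_or_eq with h1 | h1
        · rw [h _ (by
              have hn : (0 : ℤ) < n := by exact_mod_cast Nat.pos_of_ne_zero (NeZero.ne n)
              nlinarith),
            coeff_jqModC_pow_of_lt R h1, mul_zero, sub_zero]
        · subst h1
          rw [coeff_jqModC_pow_self R, mul_one, hc, mul_neg, sub_self]
      · exact coeff_eq_zero_of_forall_smul_eq hφ hgfix hd
    refine ⟨P + Polynomial.C c * Polynomial.X ^ (m + 1), ?_⟩
    rw [map_add, ← hP, map_mul, map_pow, Polynomial.aeval_C, Polynomial.aeval_X, hg,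
      sub_add_cancel]

end FermatLib.Igusa

end
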