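import Fermat.Agent.Igusa.DegreeUnits
import Fermat.Agent.Igusa.LevelJ
import Fermat.Agent.Modular.Gamma0Coset

/-!
# Conjugates of `Γ₀(N)`-invariant elements of the level ring and their reductions
-/

set_option autoImplicit false

noncomputable section

open UpperHalfPlane Function ModularCurve CongruenceSubgroup Polynomial
open scoped MatrixGroups

namespace FermatLib.Igusa

variable {R : Type*} [CommRing R] {φ : R →+* ℂ} {N : ℕ} [NeZero N]

/-- The action of `γ` on the level ring as a ring homomorphism. -/
def levelSmulHom (γ : SL(2, ℤ)) : levelRing φ N →+* levelRing φ N :=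
  MulSemiringAction.toRingHom SL(2, ℤ) (levelRing φ N) γ

@[simp]
theorem levelSmulHom_apply (γ : SL(2, ℤ)) (f : levelRing φ N) : levelSmulHom γ f = γ • f := rfl

/-- `f` is fixed by `Γ₀(N)`. -/
def IsLevelFixed (f : levelRing φ N) : Prop := ∀ γ ∈ Gamma0 N, γ • f = f

/-- The conjugate of `f` attached to a coset. -/
def cosetConj (f : levelRing φ N) (q : Modular.Gamma0Coset N) : levelRing φ N := q.out • f

theorem smul_eq_cosetConj {f : levelRing φ N} (hf : IsLevelFixed f) (g : SL(2, ℤ)) :
    g • f = cosetConj f (QuotientGroup.mk g) := by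
  obtain ⟨h, hh⟩ := QuotientGroup.mk_out_eq_mul (Gamma0 N) g
  rw [cosetConj, hh, mul_smul, hf _ h.2]

theorem smul_cosetConj {f : levelRing φ N} (hf : IsLevelFixed f) (g : SL(2, ℤ))
    (q : Modular.Gamma0Coset N) : g • cosetConj f q = cosetConj f (g • q) := by
  rw [cosetConj, ← mul_smul, smul_eq_cosetConj hf]
  congr 1
  conv_rhs => rw [← q.out_eq]
  rfl

variable [Fintype (Modular.Gamma0Coset N)]

/-- The polynomial with the conjugates of `f` as roots. -/
def conjPoly (f : levelRing φ N) : Polynomial (levelRing φ N) :=
  ∏ q : Modular.Gamma0Coset N, (X - C (cosetConj f q))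

theorem monic_conjPoly (f : levelRing φ N) : (conjPoly f).Monic :=
  monic_prod_X_sub_C _ _

theorem map_conjPoly {f : levelRing φ N} (hf : IsLevelFixed f) (g : SL(2, ℤ)) :
    (conjPoly f).map (levelSmulHom g) = conjPoly f := by
  rw [conjPoly, Polynomial.map_prod]
  refine Fintype.prod_equiv (MulAction.toPerm g) _ _ fun q => ?_
  rw [Polynomial.map_sub, map_X, map_C, levelSmulHom_apply, smul_cosetConj hf]
  rfl

open scoped Classical in
/-- The interpolation polynomial of the conjugates of `f` at the conjugates of `t`. -/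
def interpPoly (f t : levelRing φ N) : Polynomial (levelRing φ N) :=
  ∑ q : Modular.Gamma0Coset N,
    C (cosetConj f q) * ∏ r ∈ Finset.univ.erase q, (X - C (cosetConj t r))

theorem map_interpPoly {f t : levelRing φ N} (hf : IsLevelFixed f) (ht : IsLevelFixed t)
    (g : SL(2, ℤ)) : (interpPoly f t).map (levelSmulHom g) = interpPoly f t := by
  classical
  rw [interpPoly, Polynomial.map_sum]
  refine Fintype.sum_equiv (MulAction.toPerm g) _ _ fun q => ?_
  rw [Polynomial.map_mul, Polynomial.map_prod, map_C, levelSmulHom_apply, smul_cosetConj hf]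
  congr 1
  refine Finset.prod_equiv (MulAction.toPerm g) (fun r => ?_) fun r _ => ?_
  · simp
  · rw [Polynomial.map_sub, map_X, map_C, levelSmulHom_apply, smul_cosetConj ht]
    rfl

theorem eval_interpPoly {S : Type*} [CommRing S] (h : levelRing φ N →+* S) (f t : levelRing φ N)
    (q : Modular.Gamma0Coset N) :
    ((interpPoly f t).map h).eval (h (cosetConj t q)) =
      h (cosetConj f q) *
        ((conjPoly t).map h).derivative.eval (h (cosetConj t q)) := by
  classical
  rw [interpPoly, conjPoly, Polynomial.map_sum, eval_finsetSum, Polynomial.map_prod,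
    Polynomial.derivative_prod_finset, eval_finsetSum]
  rw [Finset.sum_eq_single q, Finset.sum_eq_single q]
  · simp [Polynomial.map_prod, eval_prod]
  · intro r _ hr
    simp only [Polynomial.map_sub, map_X, map_C, derivative_sub, derivative_X, derivative_C,
      sub_zero, mul_one, eval_prod, eval_sub, eval_X, eval_C]
    exact Finset.prod_eq_zero (Finset.mem_erase.mpr ⟨hr.symm, Finset.mem_univ _⟩) (sub_self _)
  · simp
  · intro r _ hr
    simp only [Polynomial.map_mul, Polynomial.map_prod, map_C, Polynomial.map_sub, map_X, eval_mul,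
      eval_prod, eval_sub, eval_X, eval_C]
    rw [Finset.prod_eq_zero (Finset.mem_erase.mpr ⟨hr.symm, Finset.mem_univ _⟩) (sub_self _),
      mul_zero]
  · simp

section Reduction

set_option linter.unusedSectionVars false

variable (hφ : Injective φ) {k : Type*} [CommRing k] (π : R →+* k)

/-- Expansion at `∞` in `u`, reduced along `π`. -/
def levelRed : levelRing φ N →+* LaurentSeries k := (coeffMap π).comp (levelExp hφ 1)

theorem levelRed_levelJ : levelRed hφ π (levelJ φ N) = qExpand k N (jqModC k) := by
  rw [levelRed, RingHom.comp_apply, levelExp_levelJ, coeffMap_qExpand, coeffMap_jqModC']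

theorem levelRed_cosetConj (f : levelRing φ N) (q : Modular.Gamma0Coset N) :
    levelRed hφ π (cosetConj f q) = coeffMap π (levelExp hφ q.out⁻¹ f) := by
  rw [levelRed, RingHom.comp_apply, cosetConj, levelExp_smul, mul_one]

omit [Fintype (Modular.Gamma0Coset N)] in
theorem levelRed_cosetConj_one {f : levelRing φ N} (hf : IsLevelFixed f) :
    levelRed hφ π (cosetConj f (QuotientGroup.mk 1)) = levelRed hφ π f := by
  rw [← smul_eq_cosetConj hf, one_smul]

/-- Evaluation of a polynomial at the reduced `j`. -/
def evalJBar (k : Type*) [Field k] (N : ℕ) [NeZero N] : Polynomial k →+* LaurentSeries k :=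
  (aeval (qExpand k N (jqModC k))).toRingHom

omit [Fintype (Modular.Gamma0Coset N)] in
theorem coeffMap_constC {A B : Type*} [CommRing A] [CommRing B] (f : A →+* B) (r : A) :
    coeffMap f (HahnSeries.C r) = HahnSeries.C (f r) := coeffMap_C f r

include hφ in
/-- A polynomial with fixed coefficients reduces to a polynomial over `k[j]`. -/
theorem exists_lift_of_map_smul_eq {k : Type*} [Field k] (π : R →+* k)
    {P : Polynomial (levelRing φ N)} (hP : ∀ g : SL(2, ℤ), P.map (levelSmulHom g) = P) :
    P.map (levelRed hφ π) ∈ Polynomial.lifts (evalJBar k N) := by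
  rw [Polynomial.lifts_iff_coeff_lifts]
  intro i
  obtain ⟨Q, hQ⟩ := exists_polynomial_levelJ hφ (P.coeff i) fun g => by
    conv_rhs => rw [← hP g, coeff_map, levelSmulHom_apply]
  refine ⟨Q.map π, ?_⟩
  rw [coeff_map, hQ, aeval_def, hom_eval₂, evalJBar, AlgHom.toRingHom_eq_coe, RingHom.coe_coe,
    aeval_def, eval₂_map, levelRed_levelJ]
  congr 1
  ext r : 1
  rw [RingHom.comp_apply, RingHom.comp_apply, levelRed, RingHom.comp_apply, levelExp_algebraMap,
    coeffMap_constC, algebraMap_laurentSeries_eq_single]
  rfl

end Reduction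

end FermatLib.Igusa

end
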