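import Mathlib

/-!
# The numerical lemma for irreducibility of the modular equation

If a set of cusp labels satisfies the balance `∑ gcd (d, C i) ^ 2 = d * #O` for every `d ∣ N`, then
the number of its elements is determined by the number of labels divisible by `N`.
-/

set_option autoImplicit false

namespace FermatLib.Igusa

open Finset

variable {ι : Type*}

theorem sum_powerset_gcd_eq_zero {N : ℕ} (hN : N ≠ 0) {C : ℤ} (hC : ¬ (N : ℤ) ∣ C) :
    ∑ S ∈ N.primeFactors.powerset,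
      (-1 : ℤ) ^ S.card * ((Int.gcd (N / ∏ p ∈ S, p : ℕ) C : ℕ) : ℤ) ^ 2 = 0 := by
  classical
  obtain ⟨g, hg⟩ : ∃ g, g = Int.gcd (N : ℤ) C := ⟨_, rfl⟩
  have hgN : g ∣ N := hg ▸ Int.natCast_dvd_natCast.mp (Int.gcd_dvd_left _ _)
  have hne : N / g ≠ 1 := by
    intro h
    have hgN' : g = N := by
      have := Nat.mul_div_cancel' hgN
      rw [h, mul_one] at this
      exact this
    exact hC (hgN' ▸ hg ▸ Int.gcd_dvd_right _ _)
  obtain ⟨p, hp, hpd⟩ := Nat.exists_prime_and_dvd hne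
  have hpg : g * p ∣ N := by
    have := mul_dvd_mul_left g hpd
    rwa [Nat.mul_div_cancel' hgN] at this
  have hmem : p ∈ N.primeFactors :=
    Nat.mem_primeFactors.mpr ⟨hp, (dvd_mul_left p g).trans hpg, hN⟩
  rw [← insert_erase hmem, sum_powerset_insert (notMem_erase p _), ← sum_add_distrib]
  refine sum_eq_zero fun S hS => ?_
  rw [mem_powerset] at hS
  have hpS : p ∉ S := fun h => notMem_erase p _ (hS h)
  have hsub : S ⊆ N.primeFactors := hS.trans (erase_subset _ _)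
  have hsN : ∀ T ⊆ N.primeFactors, ∏ q ∈ T, q ∣ N := fun T hT =>
    (prod_dvd_prod_of_subset _ _ _ hT).trans (Nat.prod_primeFactors_dvd N)
  rw [card_insert_of_notMem hpS, prod_insert hpS, pow_succ]
  set s := ∏ q ∈ S, q with hs
  have hsd : s ∣ N := hsN S hsub
  have hpsd : p * s ∣ N := by
    have := hsN (insert p S) (insert_subset hmem hsub)
    rwa [prod_insert hpS] at this
  have key : Int.gcd (N / s : ℕ) C = Int.gcd (N / (p * s) : ℕ) C := by
    apply Nat.dvd_antisymm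
    · set x := Int.gcd (N / s : ℕ) C
      have hx1 : x ∣ N / s := Int.natCast_dvd_natCast.mp (Int.gcd_dvd_left _ _)
      have hxC : (x : ℤ) ∣ C := Int.gcd_dvd_right _ _
      have hxg : x ∣ g := hg ▸ Int.natCast_dvd_natCast.mp
        (Int.dvd_coe_gcd (Int.natCast_dvd_natCast.mpr (hx1.trans (Nat.div_dvd_of_dvd hsd))) hxC)
      have hxs : x * s ∣ N := (Nat.dvd_div_iff_mul_dvd hsd).mp hx1 |> fun h => by rwa [mul_comm]
      have hxp : x * p ∣ N := (mul_dvd_mul_right hxg p).trans hpg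
      have hcop : Nat.Coprime p s := Nat.Coprime.prod_right fun q hq =>
        (Nat.coprime_primes hp (Nat.prime_of_mem_primeFactors (hsub hq))).mpr
          fun h => hpS (h ▸ hq)
      have hxN : x ∣ N := (dvd_mul_right x s).trans hxs
      have h1 : p ∣ N / x := (Nat.dvd_div_iff_mul_dvd hxN).mpr hxp
      have h2 : s ∣ N / x := (Nat.dvd_div_iff_mul_dvd hxN).mpr hxs
      have h3 : x * (p * s) ∣ N := (Nat.dvd_div_iff_mul_dvd hxN).mp (hcop.mul_dvd_of_dvd_of_dvd h1 h2)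
      refine Int.natCast_dvd_natCast.mp (Int.dvd_coe_gcd (Int.natCast_dvd_natCast.mpr ?_) hxC)
      exact (Nat.dvd_div_iff_mul_dvd hpsd).mpr (by rwa [mul_comm] at h3)
    · refine Int.natCast_dvd_natCast.mp (Int.dvd_coe_gcd ?_ (Int.gcd_dvd_right _ _))
      refine (Int.gcd_dvd_left _ _).trans (Int.natCast_dvd_natCast.mpr ?_)
      exact Nat.div_dvd_div_left hpsd (dvd_mul_left s p)
  rw [key]
  ring

theorem sum_powerset_div_prod_pos {N : ℕ} (hN : N ≠ 0) :
    0 < ∑ S ∈ N.primeFactors.powerset, (-1 : ℤ) ^ S.card * ((N / ∏ p ∈ S, p : ℕ) : ℤ) := by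
  classical
  suffices h : (0 : ℚ) <
      ((∑ S ∈ N.primeFactors.powerset, (-1 : ℤ) ^ S.card * ((N / ∏ p ∈ S, p : ℕ) : ℤ) : ℤ) : ℚ) by
    exact_mod_cast h
  have hterm : ∀ S ∈ N.primeFactors.powerset,
      (((-1 : ℤ) ^ S.card * ((N / ∏ p ∈ S, p : ℕ) : ℤ) : ℤ) : ℚ) =
        (N : ℚ) * ∏ p ∈ S, (-(1 / (p : ℚ))) := by
    intro S hS
    rw [mem_powerset] at hS
    have hne : (∏ p ∈ S, p : ℕ) ≠ 0 :=
      prod_ne_zero_iff.mpr fun q hq => (Nat.prime_of_mem_primeFactors (hS hq)).ne_zero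
    have hdvd : (∏ p ∈ S, p) ∣ N :=
      (prod_dvd_prod_of_subset _ _ _ hS).trans (Nat.prod_primeFactors_dvd N)
    rw [Int.cast_mul, Int.cast_pow, Int.cast_neg, Int.cast_one, Int.cast_natCast,
      Nat.cast_div hdvd (by exact_mod_cast hne), prod_neg, Nat.cast_prod]
    simp only [one_div, prod_inv_distrib]
    ring
  rw [Int.cast_sum, sum_congr rfl hterm, ← mul_sum, ← prod_one_add]
  refine mul_pos (by exact_mod_cast Nat.pos_of_ne_zero hN) (prod_pos fun p hp => ?_)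
  have : (1 : ℚ) < p := by exact_mod_cast (Nat.prime_of_mem_primeFactors hp).one_lt
  have h1 : 1 / (p : ℚ) < 1 := by rw [div_lt_one (by linarith)]; exact this
  linarith

/-- **Counting lemma**: two balanced families with the same labels divisible by `N` have the same
number of elements. -/
theorem card_eq_of_gcd_balance {N : ℕ} (hN : N ≠ 0) (C : ι → ℤ) (O T : Finset ι)
    (hfilter : O.filter (fun i => (N : ℤ) ∣ C i) = T.filter (fun i => (N : ℤ) ∣ C i))
    (hO : ∀ d : ℕ, d ∣ N → ∑ i ∈ O, (Int.gcd d (C i) : ℤ) ^ 2 = d * O.card)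
    (hT : ∀ d : ℕ, d ∣ N → ∑ i ∈ T, (Int.gcd d (C i) : ℤ) ^ 2 = d * T.card) :
    O.card = T.card := by
  classical
  set Φ : ℤ := ∑ S ∈ N.primeFactors.powerset, (-1 : ℤ) ^ S.card * ((N / ∏ p ∈ S, p : ℕ) : ℤ)
    with hΦ
  set F : ι → ℤ := fun i => ∑ S ∈ N.primeFactors.powerset,
    (-1 : ℤ) ^ S.card * ((Int.gcd (N / ∏ p ∈ S, p : ℕ) (C i) : ℕ) : ℤ) ^ 2 with hF
  have key : ∀ U : Finset ι,
      (∀ d : ℕ, d ∣ N → ∑ i ∈ U, (Int.gcd d (C i) : ℤ) ^ 2 = d * U.card) →
        (∑ i ∈ U.filter (fun i => (N : ℤ) ∣ C i), F i) = Φ * U.card := by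
    intro U hU
    rw [sum_filter_of_ne fun i _ hi => not_not.mp fun h => hi (sum_powerset_gcd_eq_zero hN h)]
    rw [sum_comm, hΦ, sum_mul]
    refine sum_congr rfl fun S hS => ?_
    rw [← mul_sum, hU _ (Nat.div_dvd_of_dvd
      ((prod_dvd_prod_of_subset _ _ _ (mem_powerset.mp hS)).trans (Nat.prod_primeFactors_dvd N))),
      mul_assoc]
  have h1 := key O hO
  rw [hfilter, key T hT] at h1
  exact_mod_cast (mul_left_cancel₀ (sum_powerset_div_prod_pos hN).ne' h1).symm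

end FermatLib.Igusa
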