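import Fermat.Agent.Igusa.DegreeConjugates
import Fermat.Agent.Igusa.DegreeCount
import Mathlib.RingTheory.Polynomial.Resultant.Basic
import Mathlib.FieldTheory.Minpoly.Field

/-!
# Irreducibility of the modular equation in characteristic prime to `N`

The norms of the units `Δ (d τ) / Δ (τ)` from any factor of the reduced modular equation have
order zero at the cusps above `∞`; the resulting linear equations force the factor to be everything.
-/

set_option autoImplicit false

noncomputable section

open UpperHalfPlane Function ModularCurve CongruenceSubgroup Polynomial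
open scoped MatrixGroups

namespace FermatLib.Igusa

theorem roots_prod_X_sub_C_family {ι A : Type*} [CommRing A] [IsDomain A] (s : Finset ι)
    (r : ι → A) : (∏ i ∈ s, (X - C (r i))).roots = s.val.map r := by
  rw [← roots_multiset_prod_X_sub_C (s.val.map r), Multiset.map_map]
  rfl

section Poly

variable (k : Type*) [Field k] (N : ℕ) [NeZero N]

/-- The parameter `j` in the variable `u`. -/
abbrev jBar : LaurentSeries k := qExpand k N (jqModC k)

theorem coeff_aeval_jBar_lead (P : Polynomial k) :
    (aeval (jBar k N) P).coeff (-((N : ℤ) * P.natDegree)) = P.leadingCoeff := by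
  rw [aeval_eq_sum_range, HahnSeries.coeff_sum, Finset.sum_range_succ, Finset.sum_eq_zero]
  · rw [zero_add, Algebra.smul_def, algebraMap_laurentSeries_eq_single, HahnSeries.coeff_single_mul,
      sub_zero, ← map_pow, ← mul_neg, qExpand_coeff_mul, coeff_jqModC_pow_self, mul_one,
      leadingCoeff]
  · intro i hi
    rw [Finset.mem_range] at hi
    rw [Algebra.smul_def, algebraMap_laurentSeries_eq_single, HahnSeries.coeff_single_mul,
      sub_zero, ← map_pow, ← mul_neg, qExpand_coeff_mul, coeff_jqModC_pow_of_lt k (by omega),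
      mul_zero]

theorem aeval_jBar_injective : Injective (aeval (R := k) (jBar k N)) := by
  rw [injective_iff_map_eq_zero]
  intro P hP
  have h := coeff_aeval_jBar_lead k N P
  rw [hP] at h
  exact leadingCoeff_eq_zero.mp h.symm

theorem evalJBar_apply (P : Polynomial k) : evalJBar k N P = aeval (jBar k N) P := rfl

theorem mem_range_evalJBar_of_integral {x : LaurentSeries k}
    (hx : x ∈ IntermediateField.adjoin k {jBar k N}) (hint : (evalJBar k N).IsIntegralElem x) :
    ∃ P : Polynomial k, evalJBar k N P = x := by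
  letI : Algebra (Polynomial k) (LaurentSeries k) := (evalJBar k N).toAlgebra
  have hinj : Injective (algebraMap (Polynomial k) (LaurentSeries k)) := aeval_jBar_injective k N
  haveI : FaithfulSMul (Polynomial k) (LaurentSeries k) :=
    (faithfulSMul_iff_algebraMap_injective _ _).mpr hinj
  let h : FractionRing (Polynomial k) →ₐ[Polynomial k] LaurentSeries k :=
    IsFractionRing.liftAlgHom (A := Polynomial k) (K := FractionRing (Polynomial k))
      (g := Algebra.ofId (Polynomial k) (LaurentSeries k)) hinj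
  obtain ⟨r, s, hrs⟩ := (IntermediateField.mem_adjoin_simple_iff k x).mp hx
  set z : FractionRing (Polynomial k) := algebraMap _ _ r / algebraMap _ _ s with hz
  have hzx : h z = x := by
    rw [hz, map_div₀, AlgHom.commutes, AlgHom.commutes, hrs]
    rfl
  have hzint : IsIntegral (Polynomial k) z :=
    (isIntegral_algHom_iff h h.toRingHom.injective).mp (hzx ▸ hint)
  obtain ⟨P, hP⟩ := IsIntegrallyClosed.isIntegral_iff.mp hzint
  refine ⟨P, ?_⟩
  rw [← hzx, ← hP, AlgHom.commutes]
  rfl

theorem order_eq_zero_of_mul_eq_one {x y : LaurentSeries k}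
    (hx : ∃ P : Polynomial k, evalJBar k N P = x) (hy : ∃ P : Polynomial k, evalJBar k N P = y)
    (h : x * y = 1) : x.order = 0 := by
  obtain ⟨P, rfl⟩ := hx
  obtain ⟨Q, rfl⟩ := hy
  rw [← map_mul] at h
  have hPQ : P * Q = 1 := aeval_jBar_injective k N (by
    rw [← evalJBar_apply, h, map_one])
  obtain ⟨c, hc, rfl⟩ := Polynomial.isUnit_iff.mp (IsUnit.of_mul_eq_one Q hPQ)
  rw [evalJBar_apply, aeval_C, algebraMap_laurentSeries_eq_single]
  exact HahnSeries.order_single hc.ne_zero

/-- The product of the values of a polynomial over `k(j)` at the roots of a monic one is in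
`k(j)`. -/
theorem prod_eval_mem {ι : Type*} (s : Finset ι) (r : ι → LaurentSeries k)
    {m g : Polynomial (IntermediateField.adjoin k {jBar k N})}
    (hm : m.map (algebraMap _ (LaurentSeries k)) = ∏ i ∈ s, (X - C (r i))) :
    (∏ i ∈ s, (g.map (algebraMap _ (LaurentSeries k))).eval (r i)) ∈
      IntermediateField.adjoin k {jBar k N} := by
  set F := ∏ i ∈ s, (X - C (r i)) with hF
  have hsplit : F.Splits := Splits.prod fun i _ => Splits.X_sub_C (r i)
  have hmon : F.Monic := monic_prod_X_sub_C _ _
  have hroots : F.roots = s.val.map r := roots_prod_X_sub_C_family s r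
  have h := resultant_eq_prod_eval F (g.map (algebraMap _ (LaurentSeries k))) g.natDegree
    natDegree_map_le hsplit
  rw [hmon.leadingCoeff, one_pow, one_mul, hroots, Multiset.map_map] at h
  rw [show (∏ i ∈ s, (g.map (algebraMap _ (LaurentSeries k))).eval (r i)) =
    resultant F (g.map (algebraMap _ (LaurentSeries k))) F.natDegree g.natDegree from h.symm]
  rw [← hm, resultant_map_map]
  exact SetLike.coe_mem _

end Poly

variable {R : Type*} [CommRing R] {φ : R →+* ℂ} {N : ℕ} [NeZero N] (hR : HasLevelZeta φ N)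
  (hN : IsUnit (N : R)) {k : Type*} [Field k] (π : R →+* k)
  [Fintype (Modular.Gamma0Coset N)]

set_option linter.unusedSectionVars false

include hN in
theorem natCast_ne_zero_of_unit (π : R →+* k) : (N : k) ≠ 0 := by
  have h := hN.map π
  rw [map_natCast] at h
  exact h.ne_zero

theorem isLevelFixed_jLevel (d : ℕ) [NeZero d] (hd : d ∣ N) : IsLevelFixed (jLevel hR d hd) :=
  fun _ hγ => smul_jLevel hR d hd hγ

theorem isLevelFixed_deltaQuot (d : ℕ) [NeZero d] (hd : d ∣ N) :
    IsLevelFixed (deltaQuot hR hN d hd) := fun _ hγ => smul_deltaQuot hR hN d hd hγ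

theorem isLevelFixed_deltaQuotInv (d : ℕ) [NeZero d] (hd : d ∣ N) :
    IsLevelFixed (deltaQuotInv hR hN d hd) := fun _ hγ => smul_deltaQuotInv hR hN d hd hγ

/-- The reduced conjugates of `j (N τ)`. -/
def jRootBar (q : Modular.Gamma0Coset N) : LaurentSeries k :=
  levelRed hR.injective π (cosetConj (jLevel hR N dvd_rfl) q)

include hN in
theorem isPrimitiveRoot_map_zetaR : IsPrimitiveRoot (π (zetaR hR : R)) N := by
  haveI : NeZero (N : k) := ⟨natCast_ne_zero_of_unit hN π⟩
  haveI : IsDomain R := hR.injective.isDomain φ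
  have hz : IsPrimitiveRoot (zetaR hR : R) N := (exists_zetaUnit hR).choose_spec.2
  exact Polynomial.isRoot_cyclotomic_iff.mp
    (by simpa [map_cyclotomic] using
      (hz.isRoot_cyclotomic (Nat.pos_of_ne_zero (NeZero.ne N))).map (f := π))

include hN in
theorem injective_jRootBar : Injective (jRootBar hR π) := by
  intro q q' h
  obtain ⟨i, hi⟩ := exists_levelExp_jLevel hR (dvd_refl N) q.out⁻¹
  obtain ⟨i', hi'⟩ := exists_levelExp_jLevel hR (dvd_refl N) q'.out⁻¹
  haveI := NeZero.mk (triM_ne_zero (N := N) (dvd_refl N) q.out⁻¹)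
  haveI := NeZero.mk (triM_ne_zero (N := N) (dvd_refl N) q'.out⁻¹)
  have hlead := fun (γ : SL(2, ℤ)) (i : ℤ) (_ : NeZero (triM N N γ)) =>
    (((leadsWith_jqModC R).twist (zetaR hR ^ i)).expand (triM N N γ)).map π
  have h1 := hlead q.out⁻¹ i inferInstance
  have h2 := hlead q'.out⁻¹ i' inferInstance
  have hne : ∀ i : ℤ, π (1 * (((zetaR hR ^ i) ^ (-1 : ℤ) : Rˣ) : R)) ≠ 0 := fun i =>
    ((isUnit_one.mul (Units.isUnit _)).map π).ne_zero
  rw [jRootBar, jRootBar, levelRed_cosetConj, levelRed_cosetConj, hi, hi'] at h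
  rw [← h] at h2
  have hm := (h1.order_eq (hne i)).2.symm.trans (h2.order_eq (hne i')).2
  simp only [triM, Nat.div_self (Nat.pos_of_ne_zero (NeZero.ne N)), one_mul, mul_neg, mul_one,
    neg_inj, Nat.cast_inj] at hm
  have ha : triA N q.out⁻¹ = triA N q'.out⁻¹ := Nat.mul_self_inj.mp hm
  have hmm : triM N N q.out⁻¹ = triM N N q'.out⁻¹ := by simp [triM, ha]
  have hc : π (1 * (((zetaR hR ^ i) ^ (-1 : ℤ) : Rˣ) : R)) =
      π (1 * (((zetaR hR ^ i') ^ (-1 : ℤ) : Rˣ) : R)) := by
    rw [← h1.2, ← h2.2]
    congr 1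
    rw [hmm]
  set zk : kˣ := Units.map (π : R →* k) (zetaR hR) with hzk
  have hzkp : IsPrimitiveRoot zk N :=
    IsPrimitiveRoot.coe_units_iff.mp (isPrimitiveRoot_map_zetaR hR hN π)
  have hzpow : zk ^ (-i) = zk ^ (-i') := by
    apply Units.ext
    rw [hzk, ← map_zpow, ← map_zpow, Units.coe_map, Units.coe_map, MonoidHom.coe_coe]
    simpa [← zpow_mul] using hc
  have hdvd : (N : ℤ) ∣ i' - i := by
    refine (hzkp.zpow_eq_one_iff_dvd _).mp ?_
    rw [show i' - i = -i + -(-i') by ring, zpow_add, zpow_neg zk (-i'), hzpow, mul_inv_cancel]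
  have hzR : zetaR hR ^ i = zetaR hR ^ i' := by
    haveI : IsDomain R := hR.injective.isDomain φ
    have hz : IsPrimitiveRoot (zetaR hR) N :=
      IsPrimitiveRoot.coe_units_iff.mp (exists_zetaUnit hR).choose_spec.2
    have h0 := (hz.zpow_eq_one_iff_dvd _).mpr hdvd
    rwa [zpow_sub, mul_inv_eq_one, eq_comm] at h0
  have hexp : levelExp hR.injective q.out⁻¹ (jLevel hR N dvd_rfl) =
      levelExp hR.injective q'.out⁻¹ (jLevel hR N dvd_rfl) := by
    rw [hi, hi', hzR]
    exact qExpand_congr hmm _
  have hexp' : levelExp hR.injective 1 (q.out • jLevel hR N dvd_rfl) =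
      levelExp hR.injective 1 (q'.out • jLevel hR N dvd_rfl) := by
    rw [levelExp_smul, levelExp_smul, mul_one, mul_one]; exact hexp
  have hfun := congrArg (fun f : levelRing φ N => (f : ℍ → ℂ))
    (levelExp_injective hR.injective 1 hexp')
  simp only [funext_iff, coe_levelSmul, coe_jLevel] at hfun
  have := (Modular.jScaleFun_smul_eq_iff N q.out⁻¹ q'.out⁻¹).mp hfun
  rw [inv_inv] at this
  rw [← q.out_eq, ← q'.out_eq]
  exact QuotientGroup.eq.mpr this

include hN in
theorem order_levelRed_deltaQuot (d : ℕ) [NeZero d] (hd : d ∣ N) (q : Modular.Gamma0Coset N) :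
    levelRed hR.injective π (cosetConj (deltaQuot hR hN d hd) q) ≠ 0 ∧
      (levelRed hR.injective π (cosetConj (deltaQuot hR hN d hd) q)).order =
        (triM N d q.out⁻¹ : ℤ) - N := by
  obtain ⟨i, c, hi⟩ := exists_levelExp_deltaQuot hR hN hd q.out⁻¹
  haveI := NeZero.mk (triM_ne_zero (N := N) hd q.out⁻¹)
  rw [levelRed_cosetConj, hi, map_mul, map_mul, coeffMap_C]
  have h1 : HahnSeries.C (π (c : R)) ≠ (0 : LaurentSeries k) ∧
      (HahnSeries.C (π (c : R)) : LaurentSeries k).order = 0 :=
    ⟨HahnSeries.C_ne_zero ((c.isUnit.map π).ne_zero),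
      by rw [HahnSeries.C_apply]; exact HahnSeries.order_single (c.isUnit.map π).ne_zero⟩
  have h2 := ((((leadsWith_deltaSeriesModC R).twist (zetaR hR ^ i)).expand
    (triM N d q.out⁻¹)).map π).order_eq ((isUnit_one.mul (Units.isUnit _)).map π).ne_zero
  have hinv : LeadsWith (deltaInvModC R) (-1) 1 := by
    refine ⟨fun i hi => ?_, ?_⟩
    · rw [deltaInvModC, HahnSeries.coeff_single_mul, one_mul]
      exact ofPowerSeries_coeff_of_neg _ (by omega)
    · rw [deltaInvModC, HahnSeries.coeff_single_mul, one_mul, sub_self,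
        show (0 : ℤ) = ((0 : ℕ) : ℤ) from rfl, HahnSeries.ofPowerSeries_apply_coeff,
        PowerSeries.coeff_map, PowerSeries.coeff_zero_eq_constantCoeff,
        constantCoeff_dedekindEtaUnitInv, map_one]
  have h3 := ((hinv.expand N).map π).order_eq (by rw [map_one]; exact one_ne_zero)
  refine ⟨mul_ne_zero (mul_ne_zero h1.1 h2.1) h3.1, ?_⟩
  rw [HahnSeries.order_mul (mul_ne_zero h1.1 h2.1) h3.1, HahnSeries.order_mul h1.1 h2.1, h1.2,
    h2.2, h3.2]
  ring

include hN in
theorem isIntegralElem_levelRed {f : levelRing φ N} (hf : IsLevelFixed f)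
    (q : Modular.Gamma0Coset N) :
    (evalJBar k N).IsIntegralElem (levelRed hR.injective π (cosetConj f q)) := by
  obtain ⟨P, hP, -, hPm⟩ := lifts_and_natDegree_eq_and_monic
    (exists_lift_of_map_smul_eq hR.injective π (map_conjPoly hf))
    ((monic_conjPoly f).map _)
  refine ⟨P, hPm, ?_⟩
  rw [eval₂_eq_eval_map, hP, eval_map, conjPoly, eval₂_finsetProd]
  exact Finset.prod_eq_zero (Finset.mem_univ q) (by simp)

theorem exists_lift_adjoin {P : Polynomial (levelRing φ N)}
    (hP : ∀ g : SL(2, ℤ), P.map (levelSmulHom g) = P) :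
    ∃ P0 : Polynomial (IntermediateField.adjoin k {jBar k N}),
      P0.map (algebraMap _ (LaurentSeries k)) = P.map (levelRed hR.injective π) := by
  refine (Polynomial.mem_lifts _).mp ((Polynomial.lifts_iff_coeff_lifts _).mpr fun i => ?_)
  obtain ⟨Q, hQ⟩ :=
    (Polynomial.lifts_iff_coeff_lifts _).mp (exists_lift_of_map_smul_eq hR.injective π hP) i
  exact ⟨⟨_, IntermediateField.algebra_adjoin_le_adjoin k _
    (Polynomial.aeval_mem_adjoin_singleton k (jBar k N) (p := Q))⟩, hQ⟩

/-- Reduced `j(q^N)`, a root of the reduced modular equation. -/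
abbrev jTop : LaurentSeries k := jRootBar hR π (QuotientGroup.mk 1)

theorem prod_levelRed_mem {f : levelRing φ N} (hf : IsLevelFixed f)
    (hinj : Injective (jRootBar hR π)) (O : Finset (Modular.Gamma0Coset N))
    {m : Polynomial (IntermediateField.adjoin k {jBar k N})}
    (hm : m.map (algebraMap _ (LaurentSeries k)) = ∏ q ∈ O, (X - C (jRootBar hR π q))) :
    (∏ q ∈ O, levelRed hR.injective π (cosetConj f q)) ∈
      IntermediateField.adjoin k {jBar k N} := by
  classical
  have hj := isLevelFixed_jLevel hR N dvd_rfl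
  obtain ⟨A, hA⟩ := exists_lift_adjoin hR π (map_interpPoly hf hj)
  obtain ⟨D, hD⟩ := exists_lift_adjoin hR π (map_conjPoly hj)
  have hval : ∀ q ∈ O, levelRed hR.injective π (cosetConj f q) =
      (A.map (algebraMap _ _)).eval (jRootBar hR π q) /
        (D.derivative.map (algebraMap _ _)).eval (jRootBar hR π q) := by
    intro q _
    have hne : ((conjPoly (jLevel hR N dvd_rfl)).map (levelRed hR.injective π)).derivative.eval
        (jRootBar hR π q) ≠ 0 := by
      have hroots : (conjPoly (jLevel hR N dvd_rfl)).map (levelRed hR.injective π) =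
          ∏ r, (X - C (jRootBar hR π r)) := by
        rw [conjPoly, Polynomial.map_prod]
        exact Finset.prod_congr rfl fun r _ => by simp [jRootBar]
      rw [hroots, derivative_prod_finset, eval_finsetSum, Finset.sum_eq_single q]
      · simp only [derivative_sub, derivative_X, derivative_C, sub_zero, mul_one, eval_prod,
          eval_sub, eval_X, eval_C]
        exact Finset.prod_ne_zero_iff.mpr fun r hr =>
          sub_ne_zero.mpr (hinj.ne (Finset.mem_erase.mp hr).1.symm)
      · intro r _ hr
        simp only [derivative_sub, derivative_X, derivative_C, sub_zero, mul_one, eval_prod,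
          eval_sub, eval_X, eval_C]
        exact Finset.prod_eq_zero (Finset.mem_erase.mpr ⟨hr.symm, Finset.mem_univ _⟩) (sub_self _)
      · simp
    rw [← derivative_map, hA, hD, eq_div_iff hne]
    exact (eval_interpPoly _ f _ q).symm
  rw [Finset.prod_congr rfl hval, Finset.prod_div_distrib]
  exact div_mem (prod_eval_mem k N O _ hm) (prod_eval_mem k N O _ hm)

include hN in
theorem balance (hinj : Injective (jRootBar hR π)) (O : Finset (Modular.Gamma0Coset N))
    {m : Polynomial (IntermediateField.adjoin k {jBar k N})}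
    (hm : m.map (algebraMap _ (LaurentSeries k)) = ∏ q ∈ O, (X - C (jRootBar hR π q)))
    (d : ℕ) (hd : d ∣ N) :
    ∑ q ∈ O, (Int.gcd d (lowerLeft q.out⁻¹) : ℤ) ^ 2 = d * O.card := by
  haveI : NeZero d := ⟨fun h => NeZero.ne N (Nat.eq_zero_of_zero_dvd (h ▸ hd))⟩
  letI : Algebra (Polynomial k) (LaurentSeries k) := (evalJBar k N).toAlgebra
  have hpoly : ∀ f : levelRing φ N, IsLevelFixed f →
      ∃ P : Polynomial k, evalJBar k N P =
        ∏ q ∈ O, levelRed hR.injective π (cosetConj f q) := fun f hf =>
    mem_range_evalJBar_of_integral k N (prod_levelRed_mem hR π hf hinj O hm)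
      (IsIntegral.prod _ fun q _ => isIntegralElem_levelRed hR hN π hf q)
  have hone : (∏ q ∈ O, levelRed hR.injective π (cosetConj (deltaQuot hR hN d hd) q)) *
      ∏ q ∈ O, levelRed hR.injective π (cosetConj (deltaQuotInv hR hN d hd) q) = 1 := by
    rw [← Finset.prod_mul_distrib]
    refine Finset.prod_eq_one fun q _ => ?_
    rw [← map_mul, cosetConj, cosetConj, ← smul_mul', deltaQuot_mul_inv, smul_one, map_one]
  have h0 := order_eq_zero_of_mul_eq_one k N (hpoly _ (isLevelFixed_deltaQuot hR hN d hd))
    (hpoly _ (isLevelFixed_deltaQuotInv hR hN d hd)) hone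
  have hsum : ∀ U : Finset (Modular.Gamma0Coset N),
      (∏ q ∈ U, levelRed hR.injective π (cosetConj (deltaQuot hR hN d hd) q)).order =
        ∑ q ∈ U, ((triM N d q.out⁻¹ : ℤ) - N) ∧
      (∏ q ∈ U, levelRed hR.injective π (cosetConj (deltaQuot hR hN d hd) q)) ≠ 0 := by
    intro U
    induction U using Finset.cons_induction with
    | empty => simp
    | cons a U ha ih =>
      rw [Finset.prod_cons, Finset.sum_cons]
      obtain ⟨hne, hord⟩ := order_levelRed_deltaQuot hR hN π d hd a
      exact ⟨by rw [HahnSeries.order_mul hne ih.2, hord, ih.1], mul_ne_zero hne ih.2⟩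
  rw [(hsum O).1, Finset.sum_sub_distrib, sub_eq_zero, Finset.sum_const, nsmul_eq_mul] at h0
  simp only [triM, triA, Nat.cast_mul, mul_assoc, ← Finset.mul_sum] at h0
  obtain ⟨c, hc⟩ := hd
  have hdpos : 0 < d := Nat.pos_of_ne_zero (NeZero.ne d)
  have hc0 : (c : ℤ) ≠ 0 := by
    intro h
    exact NeZero.ne N (by rw [hc, Int.natCast_eq_zero.mp h, mul_zero])
  have hNd : N / d = c := by rw [hc, Nat.mul_div_cancel_left c hdpos]
  have hNc : (N : ℤ) = d * c := by exact_mod_cast hc
  rw [hNd, hNc] at h0
  apply mul_left_cancel₀ hc0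
  simp only [sq]
  linear_combination h0

include hN in
/-- The minimal polynomial of the reduced `j(q^N)` over `k(j)` has all conjugates as roots. -/
theorem natDegree_minpoly_jTop :
    IsIntegral (IntermediateField.adjoin k {jBar k N}) (jTop hR π) ∧
    (minpoly (IntermediateField.adjoin k {jBar k N}) (jTop hR π)).natDegree =
      Fintype.card (Modular.Gamma0Coset N) := by
  classical
  have hinj := injective_jRootBar hR hN π
  obtain ⟨D, hD⟩ := exists_lift_adjoin hR π (map_conjPoly (isLevelFixed_jLevel hR N dvd_rfl))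
  have hroots : (conjPoly (jLevel hR N dvd_rfl)).map (levelRed hR.injective π) =
      ∏ r, (X - C (jRootBar hR π r)) := by
    rw [conjPoly, Polynomial.map_prod]
    exact Finset.prod_congr rfl fun r _ => by simp [jRootBar]
  have hDm : D.Monic := by
    apply monic_of_injective (algebraMap (IntermediateField.adjoin k {jBar k N})
      (LaurentSeries k)).injective
    rw [hD, hroots]
    exact monic_prod_X_sub_C _ _
  have hDroot : aeval (jTop hR π) D = 0 := by
    rw [aeval_def, eval₂_eq_eval_map, hD, hroots, eval_prod]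
    exact Finset.prod_eq_zero (Finset.mem_univ (QuotientGroup.mk 1)) (by simp [jTop])
  have hint : IsIntegral (IntermediateField.adjoin k {jBar k N}) (jTop hR π) :=
    ⟨D, hDm, hDroot⟩
  refine ⟨hint, ?_⟩
  set m := minpoly (IntermediateField.adjoin k {jBar k N}) (jTop hR π) with hm
  have hmm : (m.map (algebraMap _ (LaurentSeries k))).Monic := (minpoly.monic hint).map _
  have hdvd : m.map (algebraMap _ (LaurentSeries k)) ∣ ∏ r, (X - C (jRootBar hR π r)) := by
    rw [← hroots, ← hD]
    exact Polynomial.map_dvd _ (minpoly.dvd _ _ hDroot)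
  set O := Finset.univ.filter fun q =>
    (m.map (algebraMap _ (LaurentSeries k))).IsRoot (jRootBar hR π q) with hO
  have hmO : m.map (algebraMap _ (LaurentSeries k)) = ∏ q ∈ O, (X - C (jRootBar hR π q)) := by
    have hne : (∏ r, (X - C (jRootBar hR π r))) ≠ 0 := (monic_prod_X_sub_C _ _).ne_zero
    have hsp : (m.map (algebraMap _ (LaurentSeries k))).Splits :=
      (Splits.prod fun r _ => Splits.X_sub_C (jRootBar hR π r)).of_dvd hne hdvd
    have hle := roots.le_of_dvd hne hdvd
    rw [roots_prod_X_sub_C_family Finset.univ (jRootBar hR π)] at hle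
    have hnd : (m.map (algebraMap _ (LaurentSeries k))).roots.Nodup :=
      Multiset.nodup_of_le hle (Finset.univ.nodup.map hinj)
    have heq : (m.map (algebraMap _ (LaurentSeries k))).roots = O.val.map (jRootBar hR π) := by
      refine (Multiset.Nodup.ext hnd (O.nodup.map hinj)).mpr fun x => ?_
      rw [mem_roots hmm.ne_zero, Multiset.mem_map]
      constructor
      · intro hx
        obtain ⟨q, -, rfl⟩ := Multiset.mem_map.mp
          (Multiset.mem_of_le hle ((mem_roots hmm.ne_zero).mpr hx))
        exact ⟨q, Finset.mem_filter.mpr ⟨Finset.mem_univ q, hx⟩, rfl⟩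
      · rintro ⟨q, hq, rfl⟩
        exact (Finset.mem_filter.mp hq).2
    conv_lhs => rw [hsp.eq_prod_roots_of_monic hmm, heq]
    rw [Multiset.map_map]
    rfl
  have htop : (QuotientGroup.mk 1 : Modular.Gamma0Coset N) ∈ O := by
    simp only [hO, Finset.mem_filter, Finset.mem_univ, true_and, IsRoot, eval_map]
    exact minpoly.aeval _ _
  have hC : ∀ q : Modular.Gamma0Coset N,
      (N : ℤ) ∣ lowerLeft q.out⁻¹ ↔ q = QuotientGroup.mk 1 := fun q => by
    rw [lowerLeft, ← Modular.Gamma0_mem_iff_dvd, inv_mem_iff]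
    constructor
    · intro h
      rw [← q.out_eq]
      exact QuotientGroup.eq.mpr (by simpa using h)
    · rintro rfl
      obtain ⟨h, hh⟩ := QuotientGroup.mk_out_eq_mul (Gamma0 N) 1
      rw [hh, one_mul]
      exact h.2
  have hcard := card_eq_of_gcd_balance (NeZero.ne N)
    (fun q : Modular.Gamma0Coset N => lowerLeft q.out⁻¹) O Finset.univ
    (by
      ext q
      simp only [Finset.mem_filter, Finset.mem_univ, true_and, hC]
      exact ⟨fun h => h.2, fun h => ⟨h ▸ htop, h⟩⟩)
    (balance hR hN π hinj O hmO)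
    (balance hR hN π hinj Finset.univ (m := D) (by rw [hD, hroots]))
  rw [Finset.card_univ] at hcard
  rw [← hcard, ← natDegree_map (algebraMap _ (LaurentSeries k)), hmO,
    natDegree_finsetProd_X_sub_C_eq_card]

end FermatLib.Igusa

end
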