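import Fermat.Agent.Igusa.LevelShift
import Fermat.Agent.Modular.QSeriesJ
import Fermat.Prelude.Def_ModularCurve_JqCoeff
import Fermat.Prelude.Thm_ModularCurve_coeffMap_qExpand

/-!
# Expansions of `j` and `Δ` after triangular substitutions
-/

set_option autoImplicit false

noncomputable section

open Complex UpperHalfPlane Function ModularCurve
open scoped Manifold Real MatrixGroups ModularForm

namespace FermatLib.Igusa

section Twist

variable {R S : Type*} [CommRing R] [CommRing S]

/-- Substitute `z q` for `q`. -/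
def twistUnit (z : Rˣ) (F : LaurentSeries R) : LaurentSeries R where
  coeff k := F.coeff k * ((z ^ k : Rˣ) : R)
  isPWO_support' := F.isPWO_support.mono fun k hk => by
    rw [HahnSeries.mem_support]
    intro h
    exact hk (by simp [h])

@[simp]
theorem twistUnit_coeff (z : Rˣ) (F : LaurentSeries R) (k : ℤ) :
    (twistUnit z F).coeff k = F.coeff k * ((z ^ k : Rˣ) : R) := rfl

theorem coeffMap_twistUnit (f : R →+* S) (z : Rˣ) (F : LaurentSeries R) :
    coeffMap f (twistUnit z F) = twistUnit (Units.map (f : R →* S) z) (coeffMap f F) := by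
  ext k
  simp [← map_zpow, Units.coe_map]

/-- `F` starts with `c * u ^ m`. -/
def LeadsWith (F : LaurentSeries R) (m : ℤ) (c : R) : Prop :=
  (∀ i < m, F.coeff i = 0) ∧ F.coeff m = c

theorem LeadsWith.map (f : R →+* S) {F : LaurentSeries R} {m : ℤ} {c : R}
    (h : LeadsWith F m c) : LeadsWith (coeffMap f F) m (f c) :=
  ⟨fun i hi => by simp [h.1 i hi], by simp [h.2]⟩

theorem LeadsWith.twist (z : Rˣ) {F : LaurentSeries R} {m : ℤ} {c : R} (h : LeadsWith F m c) :
    LeadsWith (twistUnit z F) m (c * ((z ^ m : Rˣ) : R)) :=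
  ⟨fun i hi => by simp [h.1 i hi], by simp [h.2]⟩

theorem LeadsWith.expand (d : ℕ) [NeZero d] {F : LaurentSeries R} {m : ℤ} {c : R}
    (h : LeadsWith F m c) : LeadsWith (qExpand R d F) (d * m) c := by
  refine ⟨fun i hi => ?_, by rw [qExpand_coeff_mul]; exact h.2⟩
  by_cases hd : (d : ℤ) ∣ i
  · obtain ⟨i', rfl⟩ := hd
    rw [qExpand_coeff_mul]
    exact h.1 i' (lt_of_mul_lt_mul_left hi (by positivity))
  · exact qExpand_coeff_of_not_dvd d F hd

theorem LeadsWith.order_eq {F : LaurentSeries R} {m : ℤ} {c : R} (h : LeadsWith F m c)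
    (hc : c ≠ 0) : F ≠ 0 ∧ F.order = m := by
  have hne : F.coeff m ≠ 0 := h.2 ▸ hc
  have hF : F ≠ 0 := fun h0 => hne (by simp [h0])
  refine ⟨hF, le_antisymm (HahnSeries.order_le_of_coeff_ne_zero hne) ?_⟩
  by_contra! hlt
  exact (HahnSeries.coeff_order_eq_zero.not.mpr hF) (h.1 _ hlt)

end Twist

theorem leadsWith_jqModC (R : Type*) [CommRing R] : LeadsWith (jqModC R) (-1) 1 := by
  refine ⟨fun i hi => ?_, ?_⟩
  · rw [jqModC, HahnSeries.coeff_single_mul, one_mul]
    exact ofPowerSeries_coeff_of_neg _ (by omega)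
  · rw [jqModC, HahnSeries.coeff_single_mul, one_mul, sub_self,
      show (0 : ℤ) = ((0 : ℕ) : ℤ) from rfl, HahnSeries.ofPowerSeries_apply_coeff,
      PowerSeries.coeff_map, PowerSeries.coeff_zero_eq_constantCoeff, constantCoeff_jNum, map_one]

/-- The expansion `q ∏ (1 - q^n)^24` of the discriminant. -/
def deltaSeriesModC (R : Type*) [CommRing R] : LaurentSeries R :=
  HahnSeries.single (1 : ℤ) 1 *
    HahnSeries.ofPowerSeries ℤ R (dedekindEtaUnit.map (Int.castRingHom R))

theorem leadsWith_deltaSeriesModC (R : Type*) [CommRing R] :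
    LeadsWith (deltaSeriesModC R) 1 1 := by
  refine ⟨fun i hi => ?_, ?_⟩
  · rw [deltaSeriesModC, HahnSeries.coeff_single_mul, one_mul]
    exact ofPowerSeries_coeff_of_neg _ (by omega)
  · rw [deltaSeriesModC, HahnSeries.coeff_single_mul, one_mul, sub_self,
      show (0 : ℤ) = ((0 : ℕ) : ℤ) from rfl, HahnSeries.ofPowerSeries_apply_coeff,
      PowerSeries.coeff_map, PowerSeries.coeff_zero_eq_constantCoeff,
      constantCoeff_dedekindEtaUnit, map_one]

theorem coeffMap_ofPowerSeries_map {R S : Type*} [CommRing R] [CommRing S] (f : R →+* S)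
    (p : PowerSeries ℤ) :
    coeffMap f (HahnSeries.ofPowerSeries ℤ R (p.map (Int.castRingHom R))) =
      HahnSeries.ofPowerSeries ℤ S (p.map (Int.castRingHom S)) := by
  ext k
  rw [coeffMap_coeff]
  rcases le_or_gt 0 k with hk | hk
  · lift k to ℕ using hk
    simp [HahnSeries.ofPowerSeries_apply_coeff]
  · rw [ofPowerSeries_coeff_of_neg _ hk, ofPowerSeries_coeff_of_neg _ hk, map_zero]

theorem coeffMap_deltaSeriesModC {R S : Type*} [CommRing R] [CommRing S] (f : R →+* S) :
    coeffMap f (deltaSeriesModC R) = deltaSeriesModC S := by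
  rw [deltaSeriesModC, deltaSeriesModC, map_mul, coeffMap_single, map_one,
    coeffMap_ofPowerSeries_map]

theorem coeffMap_jqModC' {R S : Type*} [CommRing R] [CommRing S] (f : R →+* S) :
    coeffMap f (jqModC R) = jqModC S :=
  map_jqModC f

section Expansions

/-- A bounded periodic function converges to its expansion. -/
theorem hasExp_one_of_bounded {G : ℍ → ℂ} (hG : G ∈ Modular.qMero)
    (hb : IsBoundedAtImInfty G) :
    HasExp 1 G (HahnSeries.ofPowerSeries ℤ ℂ (UpperHalfPlane.qExpansion 1 G)) := by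
  have h := (hasExp_single_mul_iff (n := 1) (f := G) (m := 0)
    (p := UpperHalfPlane.qExpansion 1 G)).mpr fun τ => by
      simpa [smul_eq_mul, uParam] using
        UpperHalfPlane.hasSum_qExpansion one_pos
          (Modular.periodic_comp_ofComplex_of_vadd hG.1) hG.2.1 hb τ
  simpa using h

theorem hasExp_discriminant : HasExp 1 ModularForm.discriminant (deltaSeriesModC ℂ) := by
  have h := hasExp_one_of_bounded Modular.discriminant_mem_qMero
    ModularForm.discriminant_isZeroAtImInfty.isBoundedAtImInfty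
  rwa [Modular.qExpansion_discriminant, map_mul, HahnSeries.ofPowerSeries_X] at h

theorem hasExp_jFun : HasExp 1 Modular.jFun (jqModC ℂ) := by
  have h4m : (⇑ModularForm.E₄) ∈ Modular.qMero :=
    Modular.mem_qMero.mpr ⟨Modular.apply_one_vadd_of_levelOne ModularForm.E₄,
      ModularFormClass.holo _, 0, by simpa using ModularFormClass.bdd_at_infty ModularForm.E₄⟩
  have h4 := hasExp_one_of_bounded h4m (ModularFormClass.bdd_at_infty _)
  rw [Modular.qExpansion_E₄] at h4
  have h := (h4.pow 3).mul (hasExp_discriminant.inv ModularForm.discriminant_ne_zero)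
  have hd : deltaSeriesModC ℂ ≠ 0 :=
    ((leadsWith_deltaSeriesModC ℂ).order_eq one_ne_zero).1
  have key : jqModC ℂ * deltaSeriesModC ℂ =
      HahnSeries.ofPowerSeries ℤ ℂ (eisenstein4.map (Int.castRingHom ℂ)) ^ 3 := by
    rw [jqModC, deltaSeriesModC, mul_mul_mul_comm, HahnSeries.single_mul_single, ← map_mul,
      ← map_mul, jNum, mul_assoc, mul_comm dedekindEtaUnitInv, dedekindEtaUnit_mul_inv]
    simp
  rw [← key, mul_inv_cancel_right₀ hd] at h
  exact h.congr fun τ => by
    simp [Modular.jFun, div_eq_mul_inv]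

/-- If `σ` multiplies the parameter to `z u ^ m`, composition with `σ` substitutes `z u ^ m`. -/
theorem HasExp.subst {N : ℕ} {f : ℍ → ℂ} {F : LaurentSeries ℂ} (h : HasExp 1 f F)
    {σ : ℍ → ℍ} (z : ℂˣ) (m : ℕ) [NeZero m]
    (hσ : ∀ τ, uParam 1 (σ τ) = (z : ℂ) * uParam N τ ^ m) :
    HasExp N (fun τ => f (σ τ)) (qExpand ℂ m (twistUnit z F)) := fun τ => by
  have hinj : Injective fun k : ℤ => (m : ℤ) * k :=
    mul_right_injective₀ (by exact_mod_cast NeZero.ne m)
  rw [← hinj.hasSum_iff]
  · refine (h (σ τ)).congr_fun fun k => ?_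
    simp only [comp_apply, qExpand_coeff_mul, twistUnit_coeff, hσ, mul_zpow, zpow_mul,
      zpow_natCast, Units.val_zpow_eq_zpow_val, mul_assoc]
  · intro k hk
    rw [qExpand_coeff_of_not_dvd m _ fun ⟨c, hc⟩ => hk ⟨c, hc.symm⟩, zero_mul]

/-- The parameter after a triangular substitution. -/
theorem uParam_one_triangular {N : ℕ} [NeZero N] {a e m : ℕ} {b : ℤ} (he : e ≠ 0)
    (h : N * a = e * m) {σ : ℍ → ℍ} (hσ : ∀ τ, (σ τ : ℂ) = ((a : ℂ) * τ + b) / e) (τ : ℍ) :
    uParam 1 (σ τ) = zetaU e ^ b * uParam N τ ^ m := by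
  rw [uParam, uParam, Periodic.qParam, Periodic.qParam, zetaU, ← Complex.exp_int_mul,
    ← Complex.exp_nat_mul, ← Complex.exp_add, hσ]
  congr 1
  have hN : (N : ℂ) ≠ 0 := by exact_mod_cast NeZero.ne N
  have he' : (e : ℂ) ≠ 0 := by exact_mod_cast he
  have h' : (N : ℂ) * a = e * m := by exact_mod_cast h
  push_cast
  field_simp
  linear_combination (τ : ℂ) * h'

end Expansions

end FermatLib.Igusa

end
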