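import Fermat.Agent.Igusa.DescentRam

/-!
# Normality of the image of invariants (norm descent)

A finite group `G` acts on a ring `T` mapped into the integral closure of `k[x]` in `E`. If every
centre has a principal maximal ideal modulo the functions killed by all translates of the map and
the action on the image is faithful, then for every subgroup `H` the image of the invariants
`T ^ H` is integrally closed in the field it generates.
-/

set_option autoImplicit false

noncomputable section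

open Polynomial

namespace FermatLib.Igusa

variable {k : Type*} [Field k] [IsAlgClosed k] {E : Type*} [Field E]
variable [Algebra (RatFunc k) E] [Algebra k[X] E] [IsScalarTower k[X] (RatFunc k) E]
  [FiniteDimensional (RatFunc k) E] [Algebra.IsSeparable (RatFunc k) E]
variable {T : Type*} [CommRing T] (G : Type*) [Group G] [MulSemiringAction G T]
variable (π : T →+* ClosureRing k E)

/-- The hypotheses of the descent. -/
structure DescentData : Prop where
  lift_poly : ∀ p : k[X], ∃ t : T, (∀ g : G, g • t = t) ∧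
    π t = algebraMap k[X] (ClosureRing k E) p
  gen : ∀ y : E, ∃ a b : T, π b ≠ 0 ∧ y * (π b : E) = (π a : E)
  local_gen : ∀ M : Ideal T, M.IsMaximal → RingHom.ker π ≤ M →
    ∃ a ∈ M, ∀ x ∈ M, ∃ e y i, e ∉ M ∧ x * e = a * y + i ∧ ∀ g : G, π (g • i) = 0
  faithful : ∀ g : G, (∀ x, π (g • x) = π x) → g = 1

variable {G π}

namespace DescentData

variable (D : DescentData G π)
include D

theorem isMaximal_comap (X : Ideal (ClosureRing k E)) [X.IsMaximal] : (X.comap π).IsMaximal := by
  letI := Ideal.Quotient.field X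
  have hsurj : Function.Surjective ((Ideal.Quotient.mk X).comp π) := fun z => by
    obtain ⟨b, rfl⟩ := Ideal.Quotient.mk_surjective z
    obtain ⟨c, hc⟩ := exists_sub_C_mem X b
    obtain ⟨t, -, ht⟩ := D.lift_poly (C c)
    exact ⟨t, by rw [RingHom.comp_apply, ht]; exact (Ideal.Quotient.eq.mpr hc).symm⟩
  have := RingHom.ker_isMaximal_of_surjective _ hsurj
  rwa [← RingHom.comap_ker, Ideal.mk_ker] at this

theorem ord_relation (X : Ideal (ClosureRing k E)) [X.IsMaximal] (hX0 : X ≠ ⊥) {x e a y i : T}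
    (he : e ∉ X.comap π) (h : x * e = a * y + i) (hi : π i = 0) :
    ordIdeal X (π x) = ordIdeal X (π a) + ordIdeal X (π y) := by
  have h1 := congrArg π h
  rw [map_mul, map_add, map_mul, hi, add_zero] at h1
  have h2 := congrArg (ordIdeal X) h1
  rwa [ordIdeal_mul X hX0, ordIdeal_mul X hX0, (ordIdeal_eq_zero_iff X).mpr he, add_zero] at h2

/-- The local generator is a uniformizer. -/
theorem exists_uniformizer (X : Ideal (ClosureRing k E)) [X.IsMaximal] (hX0 : X ≠ ⊥) :
    ∃ a ∈ X.comap π, ordIdeal X (π a) = 1 ∧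
      ∀ x ∈ X.comap π, ∃ e y i, e ∉ X.comap π ∧ x * e = a * y + i ∧ ∀ g : G, π (g • i) = 0 := by
  obtain ⟨a, ha, hloc⟩ := D.local_gen _ (D.isMaximal_comap X) fun x hx => by
    rw [Ideal.mem_comap, RingHom.mem_ker.mp hx]; exact zero_mem X
  refine ⟨a, ha, ?_, hloc⟩
  obtain ⟨b, hbX, hb2⟩ := exists_mem_notMem_sq X hX0
  have hb1 : ordIdeal X b = 1 := (ordIdeal_eq_one_iff X hX0).mpr ⟨hbX, hb2⟩
  obtain ⟨p, q, hq, hpq⟩ := D.gen (b : E)
  have hpq' : b * π q = π p := Subtype.ext hpq
  obtain ⟨rq, hrq⟩ := exists_ordIdeal_eq X hX0 hq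
  have hp : ordIdeal X (π p) = (1 + rq : ℕ) := by
    rw [← hpq', ordIdeal_mul X hX0, hb1, hrq]; push_cast; rfl
  have h1le : 1 ≤ ordIdeal X (π a) := (one_le_ordIdeal_iff X).mpr ha
  rcases eq_or_ne (π a) 0 with ha0 | ha0
  · exfalso
    obtain ⟨e, y, i, he, hxe, hi⟩ := hloc p (by
      rw [Ideal.mem_comap, ← one_le_ordIdeal_iff X, hp]; exact_mod_cast Nat.le_add_right 1 rq)
    have h := D.ord_relation X hX0 he hxe (by simpa using hi 1)
    rw [ha0, ordIdeal_zero, top_add, hp] at h
    exact ENat.natCast_ne_top _ h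
  obtain ⟨d, hd⟩ := exists_ordIdeal_eq X hX0 ha0
  have hd1 : 1 ≤ d := by rw [hd] at h1le; exact_mod_cast h1le
  have key : ∀ (r : ℕ) (x : T), ordIdeal X (π x) = r → d ∣ r := by
    intro r
    induction r using Nat.strong_induction_on with
    | _ r ih =>
      intro x hx
      rcases Nat.eq_zero_or_pos r with rfl | hr
      · exact dvd_zero d
      obtain ⟨e, y, i, he, hxe, hi⟩ := hloc x (by
        rw [Ideal.mem_comap, ← one_le_ordIdeal_iff X, hx]; exact_mod_cast hr)
      have h := D.ord_relation X hX0 he hxe (by simpa using hi 1)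
      rw [hx, hd] at h
      obtain ⟨r', hr'⟩ : ∃ r' : ℕ, ordIdeal X (π y) = r' := by
        refine ENat.ne_top_iff_exists.mp (fun ht => ?_) |>.imp fun _ h => h.symm
        rw [ht, add_top] at h
        exact ENat.natCast_ne_top _ h
      rw [hr', ← Nat.cast_add, Nat.cast_inj] at h
      have hdvd := ih r' (by omega) y hr'
      rw [h]
      exact dvd_add dvd_rfl hdvd
  have h1 := (Nat.dvd_add_iff_left (key rq q hrq)).mpr (key _ p hp)
  rw [Nat.dvd_one] at h1
  rw [hd, h1]
  rfl

/-- A place is determined by its centre. -/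
theorem eq_of_comap_eq (X X' : Ideal (ClosureRing k E)) [X.IsMaximal] [X'.IsMaximal]
    (hX0 : X ≠ ⊥) (hX0' : X' ≠ ⊥) (h : X.comap π = X'.comap π) : X = X' := by
  obtain ⟨a, ha, ha1, hloc⟩ := D.exists_uniformizer X hX0
  obtain ⟨a', ha', ha1', hloc'⟩ := D.exists_uniformizer X' hX0'
  have hu : 1 ≤ ordIdeal X' (π a) := (one_le_ordIdeal_iff X').mpr (by
    have : a ∈ X'.comap π := h ▸ ha
    exact this)
  have ha1X' : ordIdeal X' (π a) = 1 := by
    refine le_antisymm ?_ hu
    obtain ⟨e, y, i, he, hxe, hi⟩ := hloc a' (h ▸ ha')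
    rw [h] at he
    have h1 := D.ord_relation X' hX0' he hxe (by simpa using hi 1)
    rw [ha1'] at h1
    exact le_of_le_of_eq le_self_add h1.symm
  have key : ∀ (r : ℕ) (x : T), ordIdeal X (π x) = r → ordIdeal X' (π x) = r := by
    intro r
    induction r using Nat.strong_induction_on with
    | _ r ih =>
      intro x hx
      rcases Nat.eq_zero_or_pos r with rfl | hr
      · rw [Nat.cast_zero, ordIdeal_eq_zero_iff] at hx ⊢
        exact fun hx' => hx (show x ∈ X.comap π from h ▸ hx')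
      obtain ⟨e, y, i, he, hxe, hi⟩ := hloc x (by
        rw [Ideal.mem_comap, ← one_le_ordIdeal_iff X, hx]; exact_mod_cast hr)
      have h1 := D.ord_relation X hX0 he hxe (by simpa using hi 1)
      rw [hx, ha1] at h1
      obtain ⟨r', hr'⟩ : ∃ r' : ℕ, ordIdeal X (π y) = r' := by
        refine ENat.ne_top_iff_exists.mp (fun ht => ?_) |>.imp fun _ h => h.symm
        rw [ht, add_top] at h1
        exact ENat.natCast_ne_top _ h1
      rw [hr'] at h1
      have hrr : r = 1 + r' := by exact_mod_cast h1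
      have hy := ih r' (by omega) y hr'
      rw [h] at he
      have h2 := D.ord_relation X' hX0' he hxe (by simpa using hi 1)
      rw [h2, ha1X', hy, hrr]
      push_cast
      rfl
  refine Ideal.IsMaximal.eq_of_le inferInstance (Ideal.IsMaximal.ne_top inferInstance) ?_
  intro b hb
  rcases eq_or_ne b 0 with rfl | hb0
  · exact zero_mem _
  obtain ⟨p, q, hq, hpq⟩ := D.gen (b : E)
  have hpq' : b * π q = π p := Subtype.ext hpq
  obtain ⟨rb, hrb⟩ := exists_ordIdeal_eq X hX0 hb0
  obtain ⟨rq, hrq⟩ := exists_ordIdeal_eq X hX0 hq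
  have hp : ordIdeal X (π p) = (rb + rq : ℕ) := by
    rw [← hpq', ordIdeal_mul X hX0, hrb, hrq]; push_cast; rfl
  have h' := key _ p hp
  rw [← hpq', ordIdeal_mul X' hX0', key _ q hrq] at h'
  push_cast at h'
  have h'' : ordIdeal X' b = rb := (ENat.add_left_injective_of_ne_top (ENat.natCast_ne_top rq)) h'
  rw [← one_le_ordIdeal_iff, h'', ← hrb, one_le_ordIdeal_iff]
  exact hb

/-- An element moving one centre to another preserves the kernel. -/
theorem map_eq_zero_of_comap (X₁ X₂ : Ideal (ClosureRing k E)) [X₁.IsMaximal] [X₂.IsMaximal]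
    (h1 : X₁ ≠ ⊥) (h2 : X₂ ≠ ⊥) {g : G} (hg : ∀ x, π (g • x) ∈ X₂ ↔ π x ∈ X₁) {p : T}
    (hp : π p = 0) : π (g • p) = 0 := by
  obtain ⟨a, ha, ha1, hloc⟩ := D.exists_uniformizer X₁ h1
  by_contra hne
  obtain ⟨r, hr⟩ := exists_ordIdeal_eq X₂ h2 hne
  have key : ∀ (s : ℕ) (p : T), π p = 0 → (s : ℕ∞) ≤ ordIdeal X₂ (π (g • p)) := by
    intro s
    induction s with
    | zero => exact fun p _ => by simp
    | succ s ih =>
      intro p hp
      obtain ⟨e, y, i, he, hxe, hi⟩ := hloc p (by rw [Ideal.mem_comap, hp]; exact zero_mem _)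
      have hy : π y = 0 := by
        have h := congrArg π hxe
        rw [map_mul, hp, zero_mul, map_add, map_mul, show π i = 0 by simpa using hi 1,
          add_zero, eq_comm, mul_eq_zero] at h
        refine h.resolve_left fun h0 => ?_
        rw [h0, ordIdeal_zero] at ha1
        exact ENat.top_ne_one ha1
      have hge : g • e ∉ X₂.comap π := fun h => he ((hg e).mp h)
      have hrel := D.ord_relation X₂ h2 hge (x := g • p) (a := g • a) (y := g • y) (i := g • i)
        (by rw [← smul_mul', hxe, smul_add, smul_mul']) (hi g)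
      rw [hrel]
      push_cast
      rw [add_comm (s : ℕ∞)]
      exact add_le_add ((one_le_ordIdeal_iff X₂).mpr ((hg a).mpr ha)) (ih y hy)
  have := key (r + 1) p hp
  rw [hr, Nat.cast_le] at this
  omega

theorem exists_algEquiv {g : G} (hg : ∀ x, π (g • x) = 0 ↔ π x = 0) :
    ∃ σ : E ≃ₐ[RatFunc k] E, ∀ x, σ (π x : E) = (π (g • x) : E) := by
  set ψ : T →+* E := (integralClosure k[X] E).val.toRingHom.comp π with hψ
  have hψ0 : ∀ x, ψ x = 0 ↔ π x = 0 := fun x => ⟨fun h => Subtype.ext h, fun h => by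
    rw [hψ, RingHom.comp_apply, h, map_zero]⟩
  set ρ : T →+* ψ.range := ψ.rangeRestrict with hρ
  have hρs : Function.Surjective ρ := ψ.rangeRestrict_surjective
  have hρ0 : ∀ x, ρ x = 0 ↔ π x = 0 := fun x =>
    ⟨fun h => (hψ0 x).mp (congrArg Subtype.val h), fun h => Subtype.ext ((hψ0 x).mpr h)⟩
  set ρ' : T →+* ψ.range := ρ.comp (MulSemiringAction.toRingHom G T g) with hρ'
  have hker : RingHom.ker ρ ≤ RingHom.ker ρ' := fun x hx => by
    rw [RingHom.mem_ker] at hx ⊢
    exact (hρ0 _).mpr ((hg x).mpr ((hρ0 x).mp hx))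
  set e₀ : ψ.range →+* ψ.range := ρ.liftOfSurjective hρs ⟨ρ', hker⟩ with he₀
  have he₀ρ : ∀ x, e₀ (ρ x) = ρ (g • x) := fun x =>
    RingHom.liftOfRightInverse_comp_apply _ _ _ _ x
  have hbij : Function.Bijective e₀ := by
    constructor
    · rw [injective_iff_map_eq_zero]
      intro z hz
      obtain ⟨x, rfl⟩ := hρs z
      rw [he₀ρ] at hz
      exact (hρ0 x).mpr ((hg x).mp ((hρ0 _).mp hz))
    · intro z
      obtain ⟨x, rfl⟩ := hρs z
      exact ⟨ρ (g⁻¹ • x), by rw [he₀ρ, smul_inv_smul]⟩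
  haveI : IsFractionRing ψ.range E := IsFractionRing.of_field _ _ fun y => by
    obtain ⟨a, b, hb, hab⟩ := D.gen y
    refine ⟨ρ a, ρ b, ?_⟩
    have hb' : (π b : E) ≠ 0 := fun h => hb (Subtype.ext h)
    show y = (π a : E) / (π b : E)
    rw [← hab, mul_div_assoc, div_self hb', mul_one]
  set σ₀ : E ≃+* E := IsFractionRing.ringEquivOfRingEquiv (RingEquiv.ofBijective e₀ hbij) with hσ₀
  have hσ : ∀ x, σ₀ (π x : E) = (π (g • x) : E) := fun x => by
    have h := IsFractionRing.ringEquivOfRingEquiv_algebraMap (K := E) (L := E)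
      (RingEquiv.ofBijective e₀ hbij) (ρ x)
    rw [RingEquiv.ofBijective_apply, he₀ρ] at h
    exact h
  have hpoly : ∀ p : k[X], σ₀ (algebraMap k[X] E p) = algebraMap k[X] E p := fun p => by
    obtain ⟨t, ht, htp⟩ := D.lift_poly p
    have h := hσ t
    rwa [ht, htp] at h
  have hrat : (σ₀.toRingHom.comp (algebraMap (RatFunc k) E)) = algebraMap (RatFunc k) E :=
    IsLocalization.ringHom_ext (nonZeroDivisors k[X]) (RingHom.ext fun p => by
      simpa [← IsScalarTower.algebraMap_apply] using hpoly p)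
  exact ⟨AlgEquiv.ofRingEquiv (f := σ₀) (fun c => congrArg (fun h : RatFunc k →+* E => h c) hrat),
    hσ⟩

theorem mem_iff_closureMap {g : G} {σ : E ≃ₐ[RatFunc k] E}
    (hσ : ∀ x, σ (π x : E) = (π (g • x) : E)) (x : T) : closureMap σ (π x) = π (g • x) :=
  Subtype.ext (hσ x)

/-- The automorphism attached to an element carrying `X₁`'s centre to `X₂`'s. -/
theorem exists_algEquiv_of_centres (X₁ X₂ : Ideal (ClosureRing k E)) [X₁.IsMaximal]
    [X₂.IsMaximal] (h1 : X₁ ≠ ⊥) (h2 : X₂ ≠ ⊥) {g : G}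
    (hg : ∀ x, π (g • x) ∈ X₂ ↔ π x ∈ X₁) :
    ∃ σ : E ≃ₐ[RatFunc k] E, (∀ x, σ (π x : E) = (π (g • x) : E)) ∧
      ∀ b, closureMap σ b ∈ X₂ ↔ b ∈ X₁ := by
  have hker : ∀ x, π (g • x) = 0 ↔ π x = 0 := fun x =>
    ⟨fun h => by
      have h' := D.map_eq_zero_of_comap X₂ X₁ h2 h1 (g := g⁻¹)
        (fun y => by rw [← hg, smul_inv_smul]) h
      rwa [inv_smul_smul] at h',
      fun h => D.map_eq_zero_of_comap X₁ X₂ h1 h2 hg h⟩
  obtain ⟨σ, hσ⟩ := D.exists_algEquiv hker
  refine ⟨σ, hσ, ?_⟩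
  set X' : Ideal (ClosureRing k E) := X₂.comap (closureMap σ) with hX'
  have hsurj : Function.Surjective (closureMap σ) := fun b =>
    ⟨closureMap σ⁻¹ b, by rw [← closureMap_mul, mul_inv_cancel, closureMap_one]⟩
  haveI : X'.IsMaximal := Ideal.comap_isMaximal_of_surjective _ hsurj
  have hX'0 : X' ≠ ⊥ := fun h => h2 (by
    rw [← Ideal.map_comap_of_surjective _ hsurj X₂, ← hX', h, Ideal.map_bot])
  have heq : X' = X₁ := D.eq_of_comap_eq X' X₁ hX'0 h1 (by
    ext x
    rw [Ideal.mem_comap, Ideal.mem_comap, mem_iff_closureMap D hσ, hg]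
    rfl)
  intro b
  rw [← heq, hX', Ideal.mem_comap]

end DescentData

end FermatLib.Igusa
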