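import Fermat.Agent.Igusa.DescentSubfield

/-!
# The main theorem of the norm descent
-/

set_option autoImplicit false

noncomputable section

open Polynomial

namespace FermatLib.Igusa

variable {k : Type*} [Field k] [IsAlgClosed k] {E : Type*} [Field E]
variable [Algebra (RatFunc k) E] [Algebra k[X] E] [IsScalarTower k[X] (RatFunc k) E]
  [FiniteDimensional (RatFunc k) E] [Algebra.IsSeparable (RatFunc k) E]
variable {T : Type*} [CommRing T] {G : Type*} [Group G] [Finite G] [MulSemiringAction G T]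
variable {π : T →+* ClosureRing k E}
variable {K : Type*} [Field K] [Algebra (RatFunc k) K] [Algebra k[X] K]
  [IsScalarTower k[X] (RatFunc k) K] [FiniteDimensional (RatFunc k) K]
  [Algebra.IsSeparable (RatFunc k) K]

/-- `K` is a field fixed by `H` containing the images of the `H`-invariant elements. -/
structure InvariantSubfield (π : T →+* ClosureRing k E) (H : Subgroup G)
    (f : K →ₐ[RatFunc k] E) : Prop where
  fixed : ∀ g ∈ H, ∀ σ : E ≃ₐ[RatFunc k] E, (∀ x, σ (π x : E) = (π (g • x) : E)) →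
    ∀ w, σ (f w) = f w
  mem : ∀ t : T, (∀ h ∈ H, h • t = t) → ∃ w, f w = (π t : E)

namespace DescentData

theorem norm_fixed (H : Subgroup G) [Fintype H] (t : T) :
    ∀ h ∈ H, h • ∏ g : H, (g : G) • t = ∏ g : H, (g : G) • t := fun h hh => by
  rw [Finset.smul_prod']
  exact Fintype.prod_equiv (Equiv.mulLeft (⟨h, hh⟩ : H)) _ _ fun g => by
    rw [Equiv.coe_mulLeft, Subgroup.coe_mul, mul_smul]

variable (D : DescentData G π) {H : Subgroup G} {f : K →ₐ[RatFunc k] E}
include D

/-- Places agreeing on invariant images are equal. -/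
theorem eq_of_agree_on_invariants (hK : InvariantSubfield π H f)
    {x x' : Ideal (ClosureRing k K)} (hxm : x.IsMaximal) (hx'm : x'.IsMaximal)
    (hagree : ∀ c t, (∀ h ∈ H, h • t = t) → closureIncl f c = π t → c ∈ x → c ∈ x') :
    x' = x := by
  classical
  haveI : Fintype H := Fintype.ofFinite H
  obtain ⟨X, hXm, hX0, hXx⟩ := exists_maximal_over f hxm
  obtain ⟨X', hX'm, hX'0, hX'x⟩ := exists_maximal_over f hx'm
  by_cases hex : ∃ h ∈ H, ∀ t, π (h • t) ∈ X' ↔ π t ∈ X
  · obtain ⟨h, hh, hmap⟩ := hex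
    obtain ⟨σ, hσ, hσX⟩ := D.exists_algEquiv_of_centres X X' hX0 hX'0 hmap
    ext c
    rw [← hX'x, ← hXx, ← hσX (closureIncl f c)]
    rw [show closureMap σ (closureIncl f c) = closureIncl f c from
      Subtype.ext (hK.fixed h hh σ hσ _)]
  · exfalso
    push Not at hex
    haveI := D.isMaximal_comap X
    haveI := D.isMaximal_comap X'
    set s : Finset (Ideal T) := (Finset.univ : Finset H).image
      fun g : H => (X'.comap π).comap (MulSemiringAction.toRingHom G T (g : G))
    obtain ⟨t, htM, hts⟩ := exists_crt (M := X.comap π) s (by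
      intro J hJ
      obtain ⟨g, -, rfl⟩ := Finset.mem_image.mp hJ
      refine ⟨Ideal.comap_isMaximal_of_surjective _ fun t => ⟨(g : G)⁻¹ • t, smul_inv_smul _ _⟩,
        fun h => ?_⟩
      obtain ⟨t, ht⟩ := hex g g.2
      have := SetLike.ext_iff.mp h t
      simp only [Ideal.mem_comap, MulSemiringAction.toRingHom_apply] at this
      rcases ht with ⟨h1, h2⟩ | ⟨h1, h2⟩
      · exact h2 (this.mp h1)
      · exact h1 (this.mpr h2))
    obtain ⟨c, hc⟩ := exists_closureIncl_eq f (hK.mem _ (norm_fixed H t))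
    have hcX : closureIncl f c ∈ X := by
      rw [hc, map_prod]
      exact Ideal.prod_mem _ (Finset.mem_univ (1 : H))
        (by rw [Subgroup.coe_one, one_smul]; exact htM)
    have hcX' := (hX'x c).mpr (hagree c _ (norm_fixed H t) hc ((hXx c).mp hcX))
    rw [hc, map_prod] at hcX'
    obtain ⟨g, -, hg⟩ := (Ideal.IsMaximal.isPrime hX'm).prod_mem_iff.mp hcX'
    have h1 := hts _ (Finset.mem_image.mpr ⟨g, Finset.mem_univ g, rfl⟩)
    simp only [Ideal.mem_comap, MulSemiringAction.toRingHom_apply,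
      map_sub, map_one] at h1
    exact (Ideal.ne_top_iff_one X').mp hX'm.ne_top (by simpa using sub_mem hg h1)

/-- At every place of `K` there is a uniformizer coming from an invariant element. -/
theorem exists_invariant_uniformizer (hK : InvariantSubfield π H f)
    {x : Ideal (ClosureRing k K)} (hxm : x.IsMaximal) :
    ∃ c t, (∀ h ∈ H, h • t = t) ∧ closureIncl f c = π t ∧ c ∈ x ∧ c ∉ x ^ 2 := by
  classical
  haveI : Fintype H := Fintype.ofFinite H
  obtain ⟨X, hXm, hX0, hXx⟩ := exists_maximal_over f hxm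
  haveI := D.isMaximal_comap X
  obtain ⟨a, haM, ha1, -⟩ := D.exists_uniformizer X hX0
  set orbit : Finset (Ideal T) := ((Finset.univ : Finset H).image
    fun g : H => (X.comap π).comap (MulSemiringAction.toRingHom G T (g : G))).erase (X.comap π)
  obtain ⟨t, ht, hts⟩ := exists_crt_sq (M := X.comap π) orbit (by
    intro J hJ
    obtain ⟨hne, hJ⟩ := Finset.mem_erase.mp hJ
    obtain ⟨g, -, rfl⟩ := Finset.mem_image.mp hJ
    exact ⟨Ideal.comap_isMaximal_of_surjective _ fun t => ⟨(g : G)⁻¹ • t, smul_inv_smul _ _⟩,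
      hne⟩) a
  have ht1 : ordIdeal X (π t) = 1 := by
    rw [ordIdeal_eq_one_iff X hX0] at ha1 ⊢
    have hd : π t - π a ∈ X ^ 2 := by
      rw [← map_sub]
      exact Ideal.pow_right_mono Ideal.map_comap_le 2 (Ideal.map_pow π (X.comap π) 2 ▸
        Ideal.mem_map_of_mem π ht)
    constructor
    · simpa using add_mem (Ideal.pow_le_self two_ne_zero hd) ha1.1
    · exact fun h => ha1.2 (by simpa using sub_mem h hd)
  obtain ⟨c, hc⟩ := exists_closureIncl_eq f (hK.mem _ (norm_fixed H t))
  let St : Finset H := Finset.univ.filter fun g : H => π ((g : G) • t) ∈ X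
  let P : Subgroup (E ≃ₐ[RatFunc k] E) :=
    { carrier := {σ | (∀ w, σ (f w) = f w) ∧ ∀ b, closureMap σ b ∈ X ↔ b ∈ X}
      mul_mem' := fun {σ τ} hσ hτ => ⟨fun w => by rw [AlgEquiv.mul_apply, hτ.1, hσ.1],
        fun b => by rw [closureMap_mul, hσ.2, hτ.2]⟩
      one_mem' := ⟨fun _ => rfl, fun b => by rw [closureMap_one]⟩
      inv_mem' := fun {σ} hσ => ⟨fun w => (AlgEquiv.symm_apply_eq σ).mpr (hσ.1 w).symm,
        fun b => by rw [← hσ.2 (closureMap σ⁻¹ b), ← closureMap_mul, mul_inv_cancel,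
          closureMap_one]⟩ }
  have hSt : ∀ g ∈ St, ∀ s, π ((g : G) • s) ∈ X ↔ π s ∈ X := by
    intro g hg
    have hgt := (Finset.mem_filter.mp hg).2
    by_contra hcon
    have hne : (X.comap π).comap (MulSemiringAction.toRingHom G T (g : G)) ≠ X.comap π :=
      fun h => hcon fun s => by
        have := SetLike.ext_iff.mp h s
        simpa using this
    have h1 := hts _ (Finset.mem_erase.mpr ⟨hne, Finset.mem_image.mpr ⟨g, Finset.mem_univ g, rfl⟩⟩)
    simp only [Ideal.mem_comap, MulSemiringAction.toRingHom_apply,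
      map_sub, map_one] at h1
    exact (Ideal.ne_top_iff_one X).mp (Ideal.IsMaximal.ne_top inferInstance)
      (by simpa using sub_mem hgt h1)
  choose σ hσ hσX using fun g : St => D.exists_algEquiv_of_centres X X hX0 hX0
    (g := ((g : H) : G)) (hSt g g.2)
  have hcard : St.card ≤ Nat.card P := by
    rw [← Fintype.card_coe, ← Nat.card_eq_fintype_card]
    refine Nat.card_le_card_of_injective
      (fun g : St => (⟨σ g, hK.fixed _ (g : H).2 _ (hσ g), hσX g⟩ : P)) fun g g' h => ?_
    have h' : σ g = σ g' := congrArg Subtype.val h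
    have : ((g : H) : G) * (((g' : H) : G))⁻¹ = 1 := D.faithful _ fun s => by
      have := hσ g ((((g' : H) : G))⁻¹ • s)
      rw [h', hσ g', smul_inv_smul] at this
      rw [mul_smul]
      exact Subtype.ext this.symm
    exact Subtype.ext (Subtype.ext (mul_inv_eq_one.mp this))
  have hordc : ordIdeal X (closureIncl f c) = St.card := by
    rw [hc, map_prod, ordIdeal_prod X hX0,
      ← Finset.sum_subset (Finset.subset_univ St) fun g _ hg =>
        (ordIdeal_eq_zero_iff X).mpr (fun h => hg (Finset.mem_filter.mpr ⟨Finset.mem_univ g, h⟩)),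
      Finset.sum_congr rfl (g := fun _ => (1 : ℕ∞)) fun g hg => ?_]
    · simp
    · rw [← mem_iff_closureMap D (hσ ⟨g, hg⟩) t]
      have h2 := hσX ⟨g, hg⟩
      rw [ordIdeal_eq_one_iff X hX0] at ht1 ⊢
      refine ⟨(h2 _).mpr ht1.1, fun h => ht1.2 ?_⟩
      have hmap : ∀ w ∈ X, closureMap (σ ⟨g, hg⟩)⁻¹ w ∈ X := fun w hw => by
        rw [← h2, ← closureMap_mul, mul_inv_cancel, closureMap_one]; exact hw
      have := Ideal.pow_right_mono (Ideal.map_le_iff_le_comap.mpr hmap) 2
        (Ideal.map_pow (closureMap (σ ⟨g, hg⟩)⁻¹) X 2 ▸ Ideal.mem_map_of_mem _ h)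
      rwa [← closureMap_mul, inv_mul_cancel, closureMap_one] at this
  have hSt0 : 0 < St.card := Finset.card_pos.mpr ⟨1, Finset.mem_filter.mpr
    ⟨Finset.mem_univ _, by rw [Subgroup.coe_one, one_smul, ← one_le_ordIdeal_iff, ht1]⟩⟩
  refine ⟨c, _, norm_fixed H t, hc, ?_, fun h => ?_⟩
  · rw [← hXx, ← one_le_ordIdeal_iff, hordc]
    exact_mod_cast hSt0
  · have hpow : ∀ w ∈ x, closureIncl f w ∈ X ^ Nat.card P := fun w hw =>
      mem_pow_card_of_mem_fixedClosure P X hX0 (fun τ hτ => hτ.2) ((hXx w).mpr hw)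
        fun τ hτ => Subtype.ext (hτ.1 _)
    have h2 : closureIncl f c ∈ (X ^ Nat.card P) ^ 2 :=
      Ideal.pow_right_mono (Ideal.map_le_iff_le_comap.mpr hpow) 2
        (Ideal.map_pow (closureIncl f) x 2 ▸ Ideal.mem_map_of_mem _ h)
    rw [← pow_mul, ← le_ordIdeal_iff, hordc, Nat.cast_le] at h2
    omega

/-- Every integral element of `K` is the image of an invariant element. -/
theorem exists_fixed_of_subfield (hK : InvariantSubfield π H f) (b : ClosureRing k K) :
    ∃ t, (∀ h ∈ H, h • t = t) ∧ π t = closureIncl f b := by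
  let C : Subalgebra k[X] (ClosureRing k K) :=
    { carrier := {b | ∃ t, (∀ h ∈ H, h • t = t) ∧ π t = closureIncl f b}
      mul_mem' := fun ⟨x, hx, hxe⟩ ⟨y, hy, hye⟩ =>
        ⟨x * y, fun h hh => by rw [smul_mul', hx h hh, hy h hh], by rw [map_mul, map_mul, hxe, hye]⟩
      one_mem' := ⟨1, fun h _ => smul_one h, by rw [map_one, map_one]⟩
      add_mem' := fun ⟨x, hx, hxe⟩ ⟨y, hy, hye⟩ =>
        ⟨x + y, fun h hh => by rw [smul_add, hx h hh, hy h hh], by rw [map_add, map_add, hxe, hye]⟩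
      zero_mem' := ⟨0, fun h _ => smul_zero h, by rw [map_zero, map_zero]⟩
      algebraMap_mem' := fun p => by
        obtain ⟨t, ht, htp⟩ := D.lift_poly p
        exact ⟨t, fun h _ => ht h, by rw [htp, AlgHom.commutes]⟩ }
  refine forall_mem_of_forall_sub_mem C (fun y hy z => ?_) b
  letI : CommRing C := Subalgebra.toCommRing C
  haveI : Module.Finite C (ClosureRing k K) :=
    Module.Finite.of_restrictScalars_finite k[X] C (ClosureRing k K)
  obtain ⟨x, hxm, hxy⟩ := Ideal.exists_ideal_over_maximal_of_isIntegral (S := ClosureRing k K)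
    y (by rw [(RingHom.injective_iff_ker_eq_bot _).mp Subtype.val_injective]; exact bot_le)
  obtain ⟨c, t, ht, hc, hcx, hcx2⟩ := D.exists_invariant_uniformizer hK hxm
  have hcC : c ∈ C := ⟨t, ht, hc.symm⟩
  have hcy : (⟨c, hcC⟩ : C) ∈ y := by rw [← hxy]; exact hcx
  have hIx : y.map C.val.toRingHom ≤ x :=
    Ideal.map_le_iff_le_comap.mpr fun w hw => by rw [← hxy] at hw; exact hw
  have hcI : c ∈ y.map C.val.toRingHom := Ideal.mem_map_of_mem C.val.toRingHom hcy
  have hI0 : y.map C.val.toRingHom ≠ ⊥ := fun h => hcx2 (by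
    rw [h, Ideal.mem_bot] at hcI
    rw [hcI]
    exact zero_mem _)
  obtain ⟨e, he⟩ := exists_eq_pow_of_forall_prime x (ne_bot_of_isMaximal_closureRing hxm)
      (I := y.map C.val.toRingHom) hI0 fun Q hQ hIQ => by
    haveI hQm : Q.IsMaximal := Ideal.IsPrime.isMaximal hQ fun h => hI0 (le_bot_iff.mp (h ▸ hIQ))
    refine D.eq_of_agree_on_invariants hK hxm hQm fun w s hs hw hwx => ?_
    refine hIQ (Ideal.mem_map_of_mem C.val.toRingHom (x := (⟨w, s, hs, hw.symm⟩ : C)) ?_)
    rw [← hxy]
    exact hwx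
  have he1 : e = 1 := by
    rw [he] at hcI
    rcases e with _ | _ | e
    · exact absurd (top_le_iff.mp (by rw [← Ideal.one_eq_top, ← pow_zero x, ← he]; exact hIx))
        hxm.ne_top
    · rfl
    · exact absurd (Ideal.pow_le_pow_right (by omega) hcI) hcx2
  obtain ⟨d, hd⟩ := exists_sub_C_mem x z
  refine ⟨algebraMap k[X] C (Polynomial.C d), ?_⟩
  rw [he, he1, pow_one]
  exact hd

omit [Field K] in
/-- The descent theorem. -/
theorem exists_fixed_map_eq (H : Subgroup G) {z : ClosureRing k E}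
    (hz : (z : E) ∈ Subfield.closure
      ((fun x => (π x : E)) '' {x | ∀ h ∈ H, h • x = x})) :
    ∃ x, (∀ h ∈ H, h • x = x) ∧ π x = z := by
  set K₀ : Subfield E := Subfield.closure ((fun x => (π x : E)) '' {x | ∀ h ∈ H, h • x = x})
    with hK₀
  have hfixK : ∀ x, (∀ h ∈ H, h • x = x) → (π x : E) ∈ K₀ := fun x hx =>
    Subfield.subset_closure ⟨x, hx, rfl⟩
  have hpolyK : ∀ p : k[X], algebraMap k[X] E p ∈ K₀ := fun p => by
    obtain ⟨t, ht, htp⟩ := D.lift_poly p
    have h := hfixK t fun h _ => ht h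
    rwa [htp] at h
  obtain ⟨L, hL⟩ : ∃ L : IntermediateField (RatFunc k) E, ∀ y, y ∈ L ↔ y ∈ K₀ :=
    ⟨{ K₀ with
      algebraMap_mem' := fun c => by
        obtain ⟨p, q, -, rfl⟩ := IsFractionRing.div_surjective (A := k[X]) c
        show algebraMap (RatFunc k) E _ ∈ K₀
        rw [map_div₀, ← IsScalarTower.algebraMap_apply, ← IsScalarTower.algebraMap_apply]
        exact div_mem (hpolyK p) (hpolyK q) }, fun _ => Iff.rfl⟩
  have hL' : InvariantSubfield π H L.val := by
    refine ⟨fun g hg σ hσ w => ?_, fun t ht => ⟨⟨_, (hL _).mpr (hfixK t ht)⟩, rfl⟩⟩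
    obtain ⟨w, hwL⟩ := w
    have hw : w ∈ K₀ := (hL w).mp hwL
    show σ w = w
    clear hwL
    rw [hK₀] at hw
    induction hw using Subfield.closure_induction with
    | mem w hw =>
      obtain ⟨x, hx, rfl⟩ := hw
      rw [hσ, hx g hg]
    | one => exact map_one σ
    | add a c _ _ ha hc => rw [map_add, ha, hc]
    | neg a _ ha => rw [map_neg, ha]
    | inv a _ ha => rw [map_inv₀, ha]
    | mul a c _ _ ha hc => rw [map_mul, ha, hc]
  obtain ⟨c, hc⟩ := exists_closureIncl_eq L.val (b := z) ⟨⟨(z : E), (hL _).mpr hz⟩, rfl⟩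
  obtain ⟨t, ht, htc⟩ := D.exists_fixed_of_subfield hL' c
  exact ⟨t, ht, htc.trans hc⟩

end DescentData

end FermatLib.Igusa
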