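import Mathlib

/-!
# Orders at a prime of a Dedekind domain
-/

set_option autoImplicit false

namespace FermatLib.Igusa

variable {B : Type*} [CommRing B] [IsDedekindDomain B] (X : Ideal B)

/-- The order of `b` at `X`. -/
noncomputable def ordIdeal (b : B) : ℕ∞ := emultiplicity X (Ideal.span {b})

theorem le_ordIdeal_iff {r : ℕ} {b : B} : (r : ℕ∞) ≤ ordIdeal X b ↔ b ∈ X ^ r := by
  rw [ordIdeal, ← pow_dvd_iff_le_emultiplicity, Ideal.dvd_span_singleton]

theorem one_le_ordIdeal_iff {b : B} : 1 ≤ ordIdeal X b ↔ b ∈ X := by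
  simpa using le_ordIdeal_iff X (r := 1) (b := b)

theorem ordIdeal_eq_zero_iff {b : B} : ordIdeal X b = 0 ↔ b ∉ X := by
  rw [← one_le_ordIdeal_iff X, Order.one_le_iff_pos, not_lt, nonpos_iff_eq_zero]

theorem ordIdeal_zero : ordIdeal X (0 : B) = ⊤ :=
  ENat.eq_top_iff_forall_ge.mpr fun r => (le_ordIdeal_iff X).mpr (zero_mem _)

variable [hX : X.IsPrime] (hX0 : X ≠ ⊥)
include hX hX0

theorem ordIdeal_mul (a b : B) : ordIdeal X (a * b) = ordIdeal X a + ordIdeal X b := by
  rw [ordIdeal, ← Ideal.span_singleton_mul_span_singleton,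
    emultiplicity_mul (Ideal.prime_of_isPrime hX0 hX)]
  rfl

theorem exists_ordIdeal_eq {b : B} (hb : b ≠ 0) : ∃ r : ℕ, ordIdeal X b = r := by
  have h : FiniteMultiplicity X (Ideal.span {b}) :=
    FiniteMultiplicity.of_prime_left (Ideal.prime_of_isPrime hX0 hX)
      (by simpa [Ideal.zero_eq_bot] using hb)
  exact ⟨_, h.emultiplicity_eq_multiplicity⟩

theorem exists_mem_notMem_sq : ∃ b, b ∈ X ∧ b ∉ X ^ 2 := by
  obtain ⟨b, h1, h2⟩ := Ideal.exists_mem_pow_notMem_pow_succ X hX0 hX.ne_top 1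
  exact ⟨b, by simpa using h1, h2⟩

theorem ordIdeal_eq_one_iff {b : B} : ordIdeal X b = 1 ↔ b ∈ X ∧ b ∉ X ^ 2 := by
  constructor
  · intro h
    refine ⟨(one_le_ordIdeal_iff X).mp h.ge, fun h2 => ?_⟩
    have := (le_ordIdeal_iff X (r := 2)).mpr h2
    rw [h] at this
    exact absurd this (by decide)
  · rintro ⟨h1, h2⟩
    refine le_antisymm (ENat.lt_add_one_iff ENat.one_ne_top |>.mp ?_)
      ((one_le_ordIdeal_iff X).mpr h1)
    by_contra h
    exact h2 ((le_ordIdeal_iff X (r := 2)).mp (by simpa [one_add_one_eq_two] using not_lt.mp h))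

/-- `X ^ r = (b ^ r) + X ^ (r + 1)` for a uniformizer `b`. -/
theorem exists_pow_mul_sub_mem {b : B} (hb : b ∈ X) (hb2 : b ∉ X ^ 2) {r : ℕ} {z : B}
    (hz : z ∈ X ^ r) : ∃ c, z - c * b ^ r ∈ X ^ (r + 1) := by
  have hord : ordIdeal X (b ^ r) = r := by
    induction r generalizing z with
    | zero => simpa using (ordIdeal_eq_zero_iff X).mpr ((Ideal.ne_top_iff_one X).mp hX.ne_top)
    | succ r ih =>
      rw [pow_succ, ordIdeal_mul X hX0, ih (z := 0) (zero_mem _),
        (ordIdeal_eq_one_iff X hX0).mpr ⟨hb, hb2⟩]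
      push_cast
      rfl
  have hle : X ^ (r + 1) < Ideal.span {b ^ r} ⊔ X ^ (r + 1) := by
    refine lt_of_le_of_ne le_sup_right fun h => ?_
    have hm : b ^ r ∈ X ^ (r + 1) := h ▸ Ideal.mem_sup_left (Ideal.mem_span_singleton_self _)
    have := (le_ordIdeal_iff X).mpr hm
    rw [hord, Nat.cast_le] at this
    omega
  have heq : Ideal.span {b ^ r} ⊔ X ^ (r + 1) = X ^ r :=
    Ideal.eq_prime_pow_of_succ_lt_of_le hX0 hle (sup_le
      ((Ideal.span_singleton_le_iff_mem _).mpr (Ideal.pow_mem_pow hb r))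
      (Ideal.pow_le_pow_right (Nat.le_succ r)))
  rw [← heq, Submodule.mem_sup] at hz
  obtain ⟨y, hy, w, hw, rfl⟩ := hz
  obtain ⟨c, rfl⟩ := Ideal.mem_span_singleton'.mp hy
  exact ⟨c, by simpa using hw⟩

/-- An ideal contained in no other prime is a power of `X`. -/
theorem exists_eq_pow_of_forall_prime {I : Ideal B} (hI : I ≠ ⊥)
    (h : ∀ Q : Ideal B, Q.IsPrime → I ≤ Q → Q = X) : ∃ e : ℕ, I = X ^ e := by
  refine ⟨Multiset.card (UniqueFactorizationMonoid.normalizedFactors I), ?_⟩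
  conv_lhs => rw [← Ideal.prod_normalizedFactors_eq_self hI]
  have hr : UniqueFactorizationMonoid.normalizedFactors I = Multiset.replicate
      (Multiset.card (UniqueFactorizationMonoid.normalizedFactors I)) X :=
    Multiset.eq_replicate_card.mpr fun Q hQ =>
      h Q (Ideal.isPrime_of_prime (UniqueFactorizationMonoid.prime_of_normalized_factor Q hQ))
        (Ideal.le_of_dvd (UniqueFactorizationMonoid.dvd_of_mem_normalizedFactors hQ))
  conv_lhs => rw [hr, Multiset.prod_replicate]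

end FermatLib.Igusa
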