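import Fermat.Agent.Igusa.DescentOrd

/-!
# Ramification of the fixed ring of a group fixing a prime

`E` is a finite separable extension of `k(x)`, `k` algebraically closed, `B` the integral closure
of `k[x]` in `E`. If a group `P` of automorphisms of `E` stabilises the prime `X` of `B`, then
every `P`-invariant element of `X` vanishes there to order at least `#P`.
-/

set_option autoImplicit false

noncomputable section

open Polynomial

namespace FermatLib.Igusa

variable (k : Type*) [Field k] (E : Type*) [Field E]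

/-- The integral closure of `k[x]` in `E`. -/
abbrev ClosureRing [Algebra k[X] E] : Type _ := integralClosure k[X] E

variable [Algebra (RatFunc k) E] [Algebra k[X] E] [IsScalarTower k[X] (RatFunc k) E]
  [FiniteDimensional (RatFunc k) E] [Algebra.IsSeparable (RatFunc k) E]

instance isDedekindDomain_closureRing : IsDedekindDomain (ClosureRing k E) :=
  IsIntegralClosure.isDedekindDomain k[X] (RatFunc k) E _

instance finite_closureRing : Module.Finite k[X] (ClosureRing k E) :=
  IsIntegralClosure.finite k[X] (RatFunc k) E _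

variable {k E}

/-- An automorphism of `E` acts on the integral closure. -/
def closureMap (σ : E ≃ₐ[RatFunc k] E) : ClosureRing k E →ₐ[k[X]] ClosureRing k E :=
  ((σ.toAlgHom).restrictScalars k[X]).mapIntegralClosure

@[simp]
theorem coe_closureMap (σ : E ≃ₐ[RatFunc k] E) (b : ClosureRing k E) :
    (closureMap σ b : E) = σ (b : E) := rfl

theorem closureMap_one (b : ClosureRing k E) : closureMap (1 : E ≃ₐ[RatFunc k] E) b = b :=
  Subtype.ext rfl

theorem closureMap_mul (σ τ : E ≃ₐ[RatFunc k] E) (b : ClosureRing k E) :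
    closureMap (σ * τ) b = closureMap σ (closureMap τ b) :=
  Subtype.ext rfl

variable [IsAlgClosed k]

/-- All residue fields at maximal ideals are `k`. -/
theorem exists_sub_C_mem (X : Ideal (ClosureRing k E)) [X.IsMaximal] (b : ClosureRing k E) :
    ∃ c : k, b - algebraMap k[X] (ClosureRing k E) (C c) ∈ X := by
  letI := Ideal.Quotient.field X
  let h : k[X] →+* ClosureRing k E ⧸ X :=
    (Ideal.Quotient.mk X).comp (algebraMap k[X] (ClosureRing k E))
  have hker : (RingHom.ker h).IsMaximal := by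
    rw [show RingHom.ker h = X.under k[X] by
      ext p; exact RingHom.mem_ker.trans Ideal.Quotient.eq_zero_iff_mem]
    exact Ideal.isMaximal_comap_of_isIntegral_of_isMaximal X
  obtain ⟨p, hp⟩ := (IsPrincipalIdealRing.principal (RingHom.ker h)).principal
  have hp0 : p ≠ 0 := by
    rintro rfl
    rw [show (Submodule.span k[X] {(0 : k[X])}) = ⊥ by simp] at hp
    exact hker.ne_top (by
      have := Ideal.IsMaximal.eq_of_le hker (J := Ideal.span {(Polynomial.X : k[X])})
        (by simp [Ideal.span_singleton_eq_top, Polynomial.not_isUnit_X]) (hp ▸ bot_le)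
      rw [hp] at this
      exact absurd this.symm (by simp [Polynomial.X_ne_zero]))
  have hdeg : p.degree ≠ 0 := by
    intro h0
    exact hker.ne_top (hp.trans (Ideal.span_singleton_eq_top.mpr (isUnit_iff_degree_eq_zero.mpr h0)))
  obtain ⟨a, ha⟩ := IsAlgClosed.exists_root p hdeg
  have hle : RingHom.ker h ≤ RingHom.ker (Polynomial.evalRingHom a) := by
    rw [hp]
    exact (Submodule.span_singleton_le_iff_mem _ _).mpr (by simpa using ha)
  have hfac : ∀ q : k[X], h q = h (C (q.eval a)) := by
    intro q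
    rw [← sub_eq_zero, ← map_sub, ← RingHom.mem_ker,
      hker.eq_of_le (RingHom.ker_ne_top _) hle, RingHom.mem_ker]
    simp
  letI : Algebra k (ClosureRing k E ⧸ X) := (h.comp C).toAlgebra
  have hint : Algebra.IsIntegral k (ClosureRing k E ⧸ X) := by
    refine ⟨fun z => ?_⟩
    obtain ⟨b, rfl⟩ := Ideal.Quotient.mk_surjective z
    obtain ⟨q, hq, hqb⟩ := Algebra.IsIntegral.isIntegral (R := k[X]) b
    refine ⟨q.map (Polynomial.evalRingHom a), hq.map _, ?_⟩
    rw [Polynomial.eval₂_map]
    have hcomp : (algebraMap k (ClosureRing k E ⧸ X)).comp (Polynomial.evalRingHom a) = h :=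
      RingHom.ext fun r => by rw [RingHom.comp_apply]; exact (hfac r).symm
    rw [hcomp, show h = (Ideal.Quotient.mk X).comp (algebraMap k[X] (ClosureRing k E)) from rfl,
      ← Polynomial.hom_eval₂, hqb, map_zero]
  obtain ⟨c, hc⟩ := (IsAlgClosed.algebraMap_bijective_of_isIntegral
    (k := k) (K := ClosureRing k E ⧸ X)).2 (Ideal.Quotient.mk X b)
  exact ⟨c, Ideal.Quotient.eq.mp hc.symm⟩

/-- A nonzero ideal meets `k[x]`. -/
theorem exists_algebraMap_mem {I : Ideal (ClosureRing k E)} (hI : I ≠ ⊥) :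
    ∃ p : k[X], p ≠ 0 ∧ algebraMap k[X] (ClosureRing k E) p ∈ I := by
  have h : I.under k[X] ≠ ⊥ := fun h => hI (Ideal.eq_bot_of_comap_eq_bot h)
  obtain ⟨p, hp, hp0⟩ := Submodule.exists_mem_ne_zero_of_ne_bot h
  exact ⟨p, hp0, hp⟩

theorem algebraMap_closure_ne_zero {p : k[X]} (hp : p ≠ 0) :
    (algebraMap k[X] E p) ≠ 0 := by
  rw [IsScalarTower.algebraMap_apply k[X] (RatFunc k) E]
  exact (map_ne_zero_iff _ (FaithfulSMul.algebraMap_injective _ _)).mpr
    (RatFunc.algebraMap_ne_zero hp)

/-- Every element of `E` is a quotient of an integral element by a polynomial. -/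
theorem exists_mul_algebraMap_mem (y : E) :
    ∃ (b : ClosureRing k E) (p : k[X]), p ≠ 0 ∧ y * algebraMap k[X] E p = b := by
  obtain ⟨p, hp, hint⟩ := IsAlgebraic.exists_integral_multiple
    ((IsFractionRing.isAlgebraic_iff k[X] (RatFunc k) E).mpr (IsAlgebraic.of_finite (RatFunc k) y))
  exact ⟨⟨_, hint⟩, p, hp, (mul_comm y _).trans (Algebra.smul_def p y).symm⟩

end FermatLib.Igusa

namespace FermatLib.Igusa

variable {k : Type*} [Field k] [IsAlgClosed k] {E : Type*} [Field E]
variable [Algebra (RatFunc k) E] [Algebra k[X] E] [IsScalarTower k[X] (RatFunc k) E]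
  [FiniteDimensional (RatFunc k) E] [Algebra.IsSeparable (RatFunc k) E]

/-- The elements of the integral closure fixed by `P`. -/
def fixedClosure (P : Subgroup (E ≃ₐ[RatFunc k] E)) : Subalgebra k[X] (ClosureRing k E) where
  carrier := {b | ∀ σ ∈ P, closureMap σ b = b}
  mul_mem' ha hb σ hσ := by rw [map_mul, ha σ hσ, hb σ hσ]
  one_mem' σ _ := map_one _
  add_mem' ha hb σ hσ := by rw [map_add, ha σ hσ, hb σ hσ]
  zero_mem' σ _ := map_zero _
  algebraMap_mem' p σ _ := (closureMap σ).commutes p

/-- If `P` stabilises `X`, an invariant element of `X` has order at least `#P` there. -/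
theorem mem_pow_card_of_mem_fixedClosure (P : Subgroup (E ≃ₐ[RatFunc k] E))
    (X : Ideal (ClosureRing k E)) [X.IsMaximal] (hX0 : X ≠ ⊥)
    (hstab : ∀ σ ∈ P, ∀ b, closureMap σ b ∈ X ↔ b ∈ X) {b : ClosureRing k E}
    (hb : b ∈ X) (hbP : b ∈ fixedClosure P) : b ∈ X ^ Nat.card P := by
  classical
  haveI : Finite P := inferInstance
  haveI := Fintype.ofFinite P
  set B' : Subalgebra k[X] (ClosureRing k E) := fixedClosure P with hB'
  letI : CommRing B' := Subalgebra.toCommRing B'
  set X' : Ideal B' := X.comap B'.val.toRingHom with hX'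
  set I : Ideal (ClosureRing k E) := X'.map B'.val.toRingHom with hI
  have hIX : I ≤ X := Ideal.map_comap_le
  have hI0 : I ≠ ⊥ := by
    obtain ⟨p, hp, hpX⟩ := exists_algebraMap_mem hX0
    have hmem : algebraMap k[X] B' p ∈ X' := hpX
    intro h
    have h2 := Ideal.mem_map_of_mem B'.val.toRingHom hmem
    rw [← hI, h, Ideal.mem_bot] at h2
    exact algebraMap_closure_ne_zero (E := E) hp
      (congrArg (fun z : ClosureRing k E => (z : E)) h2)
  have honly : ∀ Q : Ideal (ClosureRing k E), Q.IsPrime → I ≤ Q → Q = X := by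
    intro Q hQ hQI
    have hcover : ∀ z ∈ X, ∃ σ : P, closureMap (σ : E ≃ₐ[RatFunc k] E) z ∈ Q := by
      intro z hz
      set w : ClosureRing k E := ∏ σ : P, closureMap (σ : E ≃ₐ[RatFunc k] E) z with hw
      have hwB : w ∈ B' := fun τ hτ => by
        rw [hw, map_prod]
        refine Fintype.prod_equiv (Equiv.mulLeft (⟨τ, hτ⟩ : P)) _ _ fun σ => ?_
        exact (closureMap_mul _ _ _).symm
      have hwX : w ∈ X := Ideal.prod_mem X (Finset.mem_univ (1 : P)) ((hstab 1 P.one_mem z).mpr hz)
      have hwQ : w ∈ Q := hQI (Ideal.mem_map_of_mem B'.val.toRingHom (x := ⟨w, hwB⟩) hwX)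
      obtain ⟨σ, -, hσ⟩ := hQ.prod_mem_iff.mp hwQ
      exact ⟨σ, hσ⟩
    have hsub : (X : Set (ClosureRing k E)) ⊆ ⋃ σ ∈ ((Finset.univ : Finset P) : Set P),
        ((Q.comap (closureMap (σ : E ≃ₐ[RatFunc k] E))) : Set (ClosureRing k E)) := fun z hz => by
      obtain ⟨σ, hσ⟩ := hcover z hz
      exact Set.mem_biUnion (Finset.mem_coe.mpr (Finset.mem_univ σ)) hσ
    obtain ⟨σ, -, hσ⟩ := (Ideal.subset_union_prime (s := (Finset.univ : Finset P))
      (f := fun σ : P => Q.comap (closureMap (σ : E ≃ₐ[RatFunc k] E))) 1 1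
      (fun σ _ _ _ => Ideal.comap_isPrime _ _)).mp hsub
    have hXeq : X = Q.comap (closureMap (σ : E ≃ₐ[RatFunc k] E)) :=
      Ideal.IsMaximal.eq_of_le inferInstance (Ideal.IsPrime.ne_top (Ideal.comap_isPrime _ _)) hσ
    ext z
    have h1 : closureMap ((σ⁻¹ : P) : E ≃ₐ[RatFunc k] E) z ∈ X ↔ z ∈ X := hstab _ (σ⁻¹).2 z
    rw [← h1]
    conv_rhs => rw [hXeq]
    rw [Ideal.mem_comap, ← closureMap_mul]
    simp [closureMap_one]
  obtain ⟨e, he⟩ := exists_eq_pow_of_forall_prime X hX0 (I := I) hI0 honly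
  have he1 : ∀ z ∈ X, z ∈ B' → z ∈ X ^ e := fun z hz hzB =>
    he ▸ Ideal.mem_map_of_mem B'.val.toRingHom (x := ⟨z, hzB⟩) hz
  refine Ideal.pow_le_pow_right ?_ (he1 b hb hbP)
  -- `#P ≤ e`: powers of a uniformizer span `E` over the fixed field
  obtain ⟨π, hπ, hπ2⟩ := exists_mem_notMem_sq X hX0
  set W : Submodule B' (ClosureRing k E) :=
    Submodule.span B' (Set.range fun i : Fin e => π ^ (i : ℕ)) with hW
  have hdecomp : ∀ r ≤ e, ∀ z : ClosureRing k E, ∃ w ∈ W, z - w ∈ X ^ r := by
    intro r
    induction r with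
    | zero => exact fun _ z => ⟨0, zero_mem _, by simp⟩
    | succ r ih =>
      intro hr z
      obtain ⟨w, hw, hwz⟩ := ih (by omega) z
      obtain ⟨c, hc⟩ := exists_pow_mul_sub_mem X hX0 hπ hπ2 hwz
      obtain ⟨c₀, hc₀⟩ := exists_sub_C_mem X c
      set cB : B' := algebraMap k[X] B' (C c₀) with hcB
      refine ⟨w + cB • π ^ r,
        add_mem hw (W.smul_mem _ (Submodule.subset_span ⟨⟨r, by omega⟩, rfl⟩)), ?_⟩
      have hsm : cB • π ^ r = algebraMap k[X] (ClosureRing k E) (C c₀) * π ^ r := rfl
      have : z - (w + cB • π ^ r) = (z - w - c * π ^ r) +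
          (c - algebraMap k[X] (ClosureRing k E) (C c₀)) * π ^ r := by
        rw [hsm]; ring
      rw [this]
      refine add_mem hc ?_
      rw [pow_succ', mul_comm (X : Ideal (ClosureRing k E))]
      exact mul_comm (π ^ r) _ ▸ Ideal.mul_mem_mul (Ideal.pow_mem_pow hπ r) hc₀
  haveI : Module.Finite B' (ClosureRing k E) :=
    Module.Finite.of_restrictScalars_finite k[X] B' (ClosureRing k E)
  have hle : (⊤ : Submodule B' (ClosureRing k E ⧸ W)) ≤ X' • ⊤ := by
    intro q _
    obtain ⟨z, rfl⟩ := Submodule.Quotient.mk_surjective W q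
    obtain ⟨w, hw, hwz⟩ := hdecomp e le_rfl z
    have hz : Submodule.Quotient.mk (p := W) z = Submodule.Quotient.mk (z - w) := by
      rw [Submodule.Quotient.mk_sub, (Submodule.Quotient.mk_eq_zero W).mpr hw, sub_zero]
    rw [hz]
    have hmem : z - w ∈ X' • (⊤ : Submodule B' (ClosureRing k E)) := by
      rw [Ideal.smul_top_eq_map]
      show z - w ∈ I
      rw [he]
      exact hwz
    have := Submodule.mem_map_of_mem (f := W.mkQ) hmem
    rw [Submodule.map_smul'', Submodule.map_top, Submodule.range_mkQ] at this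
    exact this
  obtain ⟨r, hr, hrW⟩ := Submodule.exists_sub_one_mem_and_smul_eq_zero_of_fg_of_le_smul X' ⊤
    Module.Finite.fg_top hle
  have hr0 : (r : ClosureRing k E) ≠ 0 := by
    intro h
    have hr' : ((r : ClosureRing k E) - 1) ∈ X := hr
    rw [h, zero_sub, neg_mem_iff] at hr'
    exact (Ideal.ne_top_iff_one X).mp (Ideal.IsMaximal.ne_top inferInstance) hr'
  set Ep := IntermediateField.fixedField P with hEp
  have hB'Ep : ∀ z : B', ((z : ClosureRing k E) : E) ∈ Ep := fun z σ =>
    congrArg (fun y : ClosureRing k E => (y : E)) (z.2 σ σ.2)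
  have hWspan : ∀ z ∈ W, (z : E) ∈ Submodule.span Ep (Set.range fun i : Fin e => (π : E) ^ (i : ℕ)) := by
    intro z hz
    induction hz using Submodule.span_induction with
    | mem z hz =>
      obtain ⟨i, rfl⟩ := hz
      exact Submodule.subset_span ⟨i, by simp⟩
    | zero => simp
    | add a c _ _ ha hc => simpa using add_mem ha hc
    | smul a c _ hc =>
      have : ((a • c : ClosureRing k E) : E) = (⟨_, hB'Ep a⟩ : Ep) • (c : E) := rfl
      rw [this]
      exact Submodule.smul_mem _ _ hc
  have hspan : ⊤ ≤ Submodule.span Ep (Set.range fun i : Fin e => (π : E) ^ (i : ℕ)) := by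
    intro y _
    obtain ⟨z, p, hp, hzp⟩ := exists_mul_algebraMap_mem (k := k) y
    have hrz : (r • z : ClosureRing k E) ∈ W :=
      (Submodule.Quotient.mk_eq_zero W).mp (hrW _ (Submodule.mem_top (x := W.mkQ z)))
    have h1 := hWspan _ hrz
    have hcoef : ((r : ClosureRing k E) : E) * algebraMap k[X] E p ≠ 0 :=
      mul_ne_zero (fun h => hr0 (Subtype.ext h)) (algebraMap_closure_ne_zero hp)
    have hc : ((r : ClosureRing k E) : E) * algebraMap k[X] E p ∈ Ep := by
      refine mul_mem (hB'Ep r) ?_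
      rw [IsScalarTower.algebraMap_apply k[X] (RatFunc k) E]
      exact IntermediateField.algebraMap_mem _ _
    have : y = (⟨_, inv_mem hc⟩ : Ep) • ((r • z : ClosureRing k E) : E) := by
      show y = (((r : ClosureRing k E) : E) * algebraMap k[X] E p)⁻¹ *
        (((r : ClosureRing k E) : E) * (z : E))
      rw [← hzp]
      field_simp
      rw [eq_div_iff hcoef]
      ring
    rw [this]
    exact Submodule.smul_mem _ _ h1
  calc Nat.card P = Module.finrank Ep E := (IntermediateField.finrank_fixedField_eq_card P).symm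
    _ = Module.finrank Ep (⊤ : Submodule Ep E) := (finrank_top Ep E).symm
    _ ≤ e := by
      rw [← top_le_iff.mp hspan]
      exact (finrank_range_le_card _).trans (by simp)

end FermatLib.Igusa
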