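import Fermat.Agent.Igusa.DescentCore

/-!
# Auxiliary lemmas for the norm descent

Subfields of `E` are handled as abstract fields `K` with an embedding, to keep instance search
cheap.
-/

set_option autoImplicit false

noncomputable section

open Polynomial

namespace FermatLib.Igusa

theorem ordIdeal_prod {B ι : Type*} [CommRing B] [IsDedekindDomain B] (X : Ideal B)
    [hX : X.IsPrime] (hX0 : X ≠ ⊥) (s : Finset ι) (f : ι → B) :
    ordIdeal X (∏ i ∈ s, f i) = ∑ i ∈ s, ordIdeal X (f i) := by
  induction s using Finset.cons_induction with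
  | empty =>
    rw [Finset.prod_empty, Finset.sum_empty]
    exact (ordIdeal_eq_zero_iff X).mpr ((Ideal.ne_top_iff_one X).mp hX.ne_top)
  | cons i s hi ih => rw [Finset.prod_cons, Finset.sum_cons, ordIdeal_mul X hX0, ih]

/-- An element congruent to `a` modulo `M ^ 2` and to `1` modulo finitely many other maximal
ideals. -/
theorem exists_crt_sq {T : Type*} [CommRing T] {M : Ideal T} [M.IsMaximal] (s : Finset (Ideal T))
    (hs : ∀ J ∈ s, J.IsMaximal ∧ J ≠ M) (a : T) :
    ∃ t, t - a ∈ M ^ 2 ∧ ∀ J ∈ s, t - 1 ∈ J := by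
  classical
  have hcop : M ⊔ ∏ J ∈ s, J = ⊤ := by
    refine Ideal.sup_prod_eq_top fun J hJ => ?_
    obtain ⟨hJm, hJM⟩ := hs J hJ
    exact Ideal.IsMaximal.coprime_of_ne inferInstance hJm (Ne.symm hJM)
  obtain ⟨m, hm, j, hj, hmj⟩ := Submodule.mem_sup.mp (hcop ▸ Submodule.mem_top (x := (1 : T)))
  have hj' : ∀ J ∈ s, j ∈ J := fun J hJ => (Ideal.prod_le_inf.trans (Finset.inf_le hJ)) hj
  refine ⟨a * (2 * m * j + j ^ 2) + m ^ 2, ?_, fun J hJ => ?_⟩
  · have : a * (2 * m * j + j ^ 2) + m ^ 2 - a = (1 - a) * m ^ 2 := by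
      linear_combination (a * (m + j) + a) * hmj
    rw [this]
    exact Ideal.mul_mem_left _ _ (Ideal.pow_mem_pow hm 2)
  · have : a * (2 * m * j + j ^ 2) + m ^ 2 - 1 = (a - 1) * (2 * m * j + j ^ 2) := by
      linear_combination (m + j + 1) * hmj
    rw [this]
    refine Ideal.mul_mem_left _ _ (add_mem ?_ ?_)
    · exact Ideal.mul_mem_left _ _ (hj' J hJ)
    · rw [sq]; exact Ideal.mul_mem_left _ _ (hj' J hJ)

theorem exists_crt {T : Type*} [CommRing T] {M : Ideal T} [M.IsMaximal] (s : Finset (Ideal T))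
    (hs : ∀ J ∈ s, J.IsMaximal ∧ J ≠ M) : ∃ t, t ∈ M ∧ ∀ J ∈ s, t - 1 ∈ J := by
  obtain ⟨t, ht, hts⟩ := exists_crt_sq s hs 0
  exact ⟨t, Ideal.pow_le_self two_ne_zero (by simpa using ht), hts⟩

/-- A subalgebra which is locally dense is everything. -/
theorem forall_mem_of_forall_sub_mem {R B : Type*} [CommRing R] [CommRing B] [Algebra R B]
    [Module.Finite R B] (C : Subalgebra R B)
    (h : ∀ y : Ideal C, y.IsMaximal → ∀ b : B, ∃ c : C, b - (c : B) ∈ y.map C.val.toRingHom) :
    ∀ b, b ∈ C := by
  letI : CommRing C := Subalgebra.toCommRing C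
  haveI : Module.Finite C B := Module.Finite.of_restrictScalars_finite R C B
  set W : Submodule C B := LinearMap.range (Algebra.linearMap C B) with hW
  have hann : (⊤ : Ideal C) ≤ (⊤ : Submodule C (B ⧸ W)).annihilator := by
    by_contra hcon
    obtain ⟨y, hy, hle⟩ := Ideal.exists_le_maximal _ fun h => hcon (h ▸ le_rfl)
    have hle' : (⊤ : Submodule C (B ⧸ W)) ≤ y • ⊤ := by
      intro q _
      obtain ⟨b, rfl⟩ := Submodule.Quotient.mk_surjective W q
      obtain ⟨c, hc⟩ := h y hy b
      have hmem : b - (c : B) ∈ y • (⊤ : Submodule C B) := by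
        rw [Ideal.smul_top_eq_map]; exact hc
      have := Submodule.mem_map_of_mem (f := W.mkQ) hmem
      rw [Submodule.map_smul'', Submodule.map_top, Submodule.range_mkQ, Submodule.mkQ_apply,
        Submodule.Quotient.mk_sub,
        (Submodule.Quotient.mk_eq_zero W (x := (c : B))).mpr ⟨c, rfl⟩, sub_zero] at this
      exact this
    obtain ⟨r, hr, hr0⟩ := Submodule.exists_sub_one_mem_and_smul_eq_zero_of_fg_of_le_smul y ⊤
      Module.Finite.fg_top hle'
    have : r ∈ y := hle (Submodule.mem_annihilator.mpr fun q _ => hr0 q Submodule.mem_top)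
    exact (Ideal.ne_top_iff_one y).mp hy.ne_top (by simpa using sub_mem this hr)
  intro b
  have h1 := Submodule.mem_annihilator.mp (hann (Submodule.mem_top (x := (1 : C))))
    (Submodule.Quotient.mk b) Submodule.mem_top
  rw [one_smul, Submodule.Quotient.mk_eq_zero] at h1
  obtain ⟨c, rfl⟩ := h1
  exact c.2

variable {k : Type*} [Field k] {E : Type*} [Field E]
variable [Algebra (RatFunc k) E] [Algebra k[X] E] [IsScalarTower k[X] (RatFunc k) E]
variable {K : Type*} [Field K]
variable [Algebra (RatFunc k) K] [Algebra k[X] K] [IsScalarTower k[X] (RatFunc k) K]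

/-- The inclusion of integral closures along `f`. -/
def closureIncl (f : K →ₐ[RatFunc k] E) : ClosureRing k K →ₐ[k[X]] ClosureRing k E :=
  (f.restrictScalars k[X]).mapIntegralClosure

theorem coe_closureIncl (f : K →ₐ[RatFunc k] E) (b : ClosureRing k K) :
    (closureIncl f b : E) = f (b : K) := rfl

theorem closureIncl_injective (f : K →ₐ[RatFunc k] E) : Function.Injective (closureIncl f) :=
  fun a b h => Subtype.ext (f.injective ((coe_closureIncl f a).symm.trans
    ((congrArg Subtype.val h).trans (coe_closureIncl f b))))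

theorem exists_closureIncl_eq (f : K →ₐ[RatFunc k] E) {b : ClosureRing k E}
    (hb : ∃ w, f w = (b : E)) : ∃ c, closureIncl f c = b := by
  obtain ⟨w, hw⟩ := hb
  refine ⟨⟨w, ?_⟩, Subtype.ext hw⟩
  refine (isIntegral_algHom_iff (f.restrictScalars k[X]) f.injective).mp ?_
  rw [AlgHom.restrictScalars_apply, hw]
  exact b.2

variable [IsAlgClosed k]
variable [FiniteDimensional (RatFunc k) E] [Algebra.IsSeparable (RatFunc k) E]
variable [FiniteDimensional (RatFunc k) K] [Algebra.IsSeparable (RatFunc k) K]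

theorem ne_bot_of_isMaximal_closureRing {x : Ideal (ClosureRing k K)} (hx : x.IsMaximal) :
    x ≠ ⊥ := by
  refine Ring.ne_bot_of_isMaximal_of_not_isField hx fun hf => ?_
  refine Polynomial.not_isField k (isField_of_isIntegral_of_isField (fun p q h => ?_) hf)
  have h' : algebraMap k[X] K p = algebraMap k[X] K q :=
    congrArg (fun w : ClosureRing k K => (w : K)) h
  rw [← sub_eq_zero (a := p)]
  by_contra hne
  exact algebraMap_closure_ne_zero (E := K) hne (by rw [map_sub, h', sub_self])

/-- Primes lift along the inclusion. -/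
theorem exists_maximal_over (f : K →ₐ[RatFunc k] E) {x : Ideal (ClosureRing k K)}
    (hx : x.IsMaximal) : ∃ X : Ideal (ClosureRing k E),
      X.IsMaximal ∧ X ≠ ⊥ ∧ ∀ c, closureIncl f c ∈ X ↔ c ∈ x := by
  letI := (closureIncl f).toRingHom.toAlgebra
  haveI : IsScalarTower k[X] (ClosureRing k K) (ClosureRing k E) :=
    IsScalarTower.of_algebraMap_eq fun p => ((closureIncl f).commutes p).symm
  haveI : Module.Finite (ClosureRing k K) (ClosureRing k E) :=
    Module.Finite.of_restrictScalars_finite k[X] _ _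
  have hker : RingHom.ker (algebraMap (ClosureRing k K) (ClosureRing k E)) = ⊥ :=
    (RingHom.injective_iff_ker_eq_bot _).mp (closureIncl_injective f)
  obtain ⟨X, hXm, hXx⟩ := Ideal.exists_ideal_over_maximal_of_isIntegral
    (S := ClosureRing k E) x (by rw [hker]; exact bot_le)
  refine ⟨X, hXm, fun h0 => ne_bot_of_isMaximal_closureRing hx ?_, fun c => by
    rw [← hXx]; exact Iff.rfl⟩
  rw [← hXx, h0]
  exact le_bot_iff.mp fun c hc => closureIncl_injective f (by
    rw [map_zero]; exact hc)

end FermatLib.Igusa
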