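import Fermat.Agent.Igusa.LatticeHyp

/-!
Shortcuts for slow instance searches on subfields of `K((q))`.
-/

set_option autoImplicit false

noncomputable section

namespace FermatLib.Igusa

section Shortcuts

-- Shortcuts for slow instance searches on subfields of `K((q))`; all are the default instances.

variable {K : Type*} [Field K] (G : IntermediateField K (LaurentSeries K))

scoped instance (priority := high) laurentSubfieldAlgebra : Algebra K G := SubalgebraClass.toAlgebra G

scoped instance (priority := high) laurentSubfieldSMul : SMul K G :=
  (SubalgebraClass.toAlgebra G).toSMul

scoped instance (priority := high) laurentSubfieldModule : Module K G := Algebra.toModule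

scoped instance (priority := high) laurentSubfieldMulAction : MulAction K G :=
  Algebra.toModule.toMulAction

scoped instance (priority := high) laurentSubfieldDistribSMul : DistribSMul K G :=
  DistribMulAction.toDistribSMul

scoped instance (priority := high) laurentSelfAlgebra : Algebra K (LaurentSeries K) :=
  HahnSeries.powerSeriesAlgebra ℤ K

end Shortcuts

end FermatLib.Igusa
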