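import Fermat.Agent.Igusa.LatticeHyp
import Fermat.Agent.Igusa.LaurentShortcuts

/-!
Elementary facts on divisors: push-forward along a map, degrees of effective divisors, the divisor
of a function.
-/

set_option autoImplicit false

noncomputable section

open AlgebraicCurve

namespace FermatLib.Igusa.LatAux

section MapDomain

variable {α β : Type*}

theorem mapDomain_apply_nonneg (f : α → β) {E : α →₀ ℤ} (hE : 0 ≤ E) (b : β) :
    0 ≤ Finsupp.mapDomain f E b := by
  classical
  rw [Finsupp.mapDomain, Finsupp.sum_apply]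
  refine Finset.sum_nonneg fun a _ => ?_
  show 0 ≤ Finsupp.single (f a) (E a) b
  rw [Finsupp.single_apply]
  split_ifs
  · exact hE a
  · exact le_rfl

theorem erase_nonneg {E : α →₀ ℤ} (hE : 0 ≤ E) (a : α) : 0 ≤ E.erase a := fun x => by
  classical
  rw [Finsupp.erase_apply]
  split_ifs
  · exact le_rfl
  · exact hE x

theorem le_mapDomain_apply (f : α → β) {E : α →₀ ℤ} (hE : 0 ≤ E) (a : α) :
    E a ≤ Finsupp.mapDomain f E (f a) := by
  conv_rhs => rw [← Finsupp.single_add_erase a E]
  rw [Finsupp.mapDomain_add, Finsupp.mapDomain_single, Finsupp.add_apply,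
    Finsupp.single_eq_same]
  have := mapDomain_apply_nonneg f (erase_nonneg hE a) (f a)
  linarith

theorem add_le_mapDomain_apply (f : α → β) {E : α →₀ ℤ} (hE : 0 ≤ E) {a a' : α} (h : a ≠ a')
    (hf : f a = f a') : E a + E a' ≤ Finsupp.mapDomain f E (f a) := by
  conv_rhs => rw [← Finsupp.single_add_erase a E]
  rw [Finsupp.mapDomain_add, Finsupp.mapDomain_single, Finsupp.add_apply,
    Finsupp.single_eq_same]
  have := le_mapDomain_apply f (erase_nonneg hE a) a'
  rw [Finsupp.erase_ne (Ne.symm h), ← hf] at this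
  linarith

theorem mapDomain_apply_eq_zero (f : α → β) (E : α →₀ ℤ) {b : β}
    (h : ∀ a, E a ≠ 0 → f a ≠ b) : Finsupp.mapDomain f E b = 0 := by
  classical
  rw [Finsupp.mapDomain, Finsupp.sum_apply]
  refine Finset.sum_eq_zero fun a ha => ?_
  show Finsupp.single (f a) (E a) b = 0
  rw [Finsupp.single_eq_of_ne (Ne.symm (h a (Finsupp.mem_support_iff.mp ha)))]

theorem mapDomain_apply_mono (f : α → β) {E E' : α →₀ ℤ} (h : E ≤ E') (b : β) :
    Finsupp.mapDomain f E b ≤ Finsupp.mapDomain f E' b := by
  have h0 : (0 : α →₀ ℤ) ≤ E' - E := fun x => by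
    simpa using h x
  have := mapDomain_apply_nonneg f h0 b
  rw [Finsupp.mapDomain_sub, Finsupp.sub_apply] at this
  linarith

end MapDomain

section Degree

variable {K F : Type*} [Field K] [Field F] [Algebra K F]

theorem degree_eq_sum (E : Divisor K F) :
    Divisor.degree E = E.sum fun P n => n * (P.deg : ℤ) := by
  induction E using Finsupp.induction with
  | zero => simp
  | single_add P n E hP hn ih =>
    rw [map_add, ih, Divisor.degree_single,
      Finsupp.sum_add_index' (fun a => by simp) (fun a b c => by ring),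
      Finsupp.sum_single_index (by simp)]

theorem degree_nonneg {E : Divisor K F} (hE : 0 ≤ E) : 0 ≤ Divisor.degree E := by
  rw [degree_eq_sum]
  exact Finset.sum_nonneg fun P _ => mul_nonneg (hE P) (Int.natCast_nonneg _)

theorem degree_pos_of_pos {E : Divisor K F} (hE : 0 ≤ E) {P : Place K F} (hP : 0 < E P)
    (hdeg : P.deg = 1) : 0 < Divisor.degree E := by
  rw [← Finsupp.single_add_erase P E, map_add, Divisor.degree_single, hdeg]
  have := degree_nonneg (erase_nonneg hE P)
  push_cast
  linarith

theorem eq_zero_of_nonneg_of_degree_eq_zero {E : Divisor K F} (hE : 0 ≤ E)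
    (hdeg : ∀ P : Place K F, P.deg = 1) (h0 : Divisor.degree E = 0) : E = 0 := by
  ext P
  by_contra hP
  have := degree_pos_of_pos hE (lt_of_le_of_ne (hE P) (Ne.symm hP)) (hdeg P)
  omega

theorem degree_mapDomain {K' F' : Type*} [Field K'] [Field F'] [Algebra K' F']
    (r : Place K F → Place K' F') (hr : ∀ P, (r P).deg = P.deg) (E : Divisor K F) :
    Divisor.degree (Finsupp.mapDomain r E) = Divisor.degree E := by
  induction E using Finsupp.induction with
  | zero => simp
  | single_add P n E _ _ ih =>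
    rw [Finsupp.mapDomain_add, map_add, map_add, ih, Finsupp.mapDomain_single,
      Divisor.degree_single, Divisor.degree_single, hr]

variable [HasPrincipalDivisors K F]

open Classical in
/-- The divisor of a function (zero for the zero function). -/
def divOf (f : F) : Divisor K F :=
  if h : f ≠ 0 then (HasPrincipalDivisors.exists_divisor (K := K) f h).choose else 0

theorem divOf_apply (f : F) (P : Place K F) : divOf (K := K) f P = P.ord f := by
  rcases eq_or_ne f 0 with rfl | hf
  · simp [divOf]
  · rw [divOf, dif_pos hf]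
    exact (HasPrincipalDivisors.exists_divisor (K := K) f hf).choose_spec.1 P

theorem degree_divOf (f : F) : Divisor.degree (divOf (K := K) f) = 0 := by
  rcases eq_or_ne f 0 with rfl | hf
  · simp [divOf]
  · rw [divOf, dif_pos hf]
    exact (HasPrincipalDivisors.exists_divisor (K := K) f hf).choose_spec.2

theorem divOf_mem_principal {f : F} (hf : f ≠ 0) :
    divOf (K := K) f ∈ Divisor.principal (K := K) (F := F) :=
  ⟨f, hf, fun P => divOf_apply f P⟩

theorem degree_eq_zero_of_mem_principal {D : Divisor K F}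
    (hD : D ∈ Divisor.principal (K := K) (F := F)) : Divisor.degree D = 0 := by
  obtain ⟨f, hf, hD⟩ := hD
  have : D = divOf f := by ext P; rw [hD P, divOf_apply]
  rw [this, degree_divOf]

end Degree

section PoleSpace

open FermatLib.Curve

variable {K F : Type*} [Field K] [Field F] [Algebra K F] {P₀ : Place K F} {n : ℕ}

theorem mem_poleSpace_iff {x : F} :
    x ∈ poleSpace P₀ n ↔ x = 0 ∨ (-(n : ℤ) ≤ P₀.ord x ∧ ∀ P ≠ P₀, 0 ≤ P.ord x) := by
  rw [poleSpace, mem_riemannRochSpace_iff]
  rcases eq_or_ne x 0 with rfl | hx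
  · simp
  simp only [hx, false_or]
  constructor
  · intro h
    refine ⟨by simpa using h P₀, fun P hP => ?_⟩
    simpa [Finsupp.single_eq_of_ne hP] using h P
  · rintro ⟨h0, h⟩ P
    rcases eq_or_ne P P₀ with rfl | hP
    · simpa using h0
    · simpa [Finsupp.single_eq_of_ne hP] using h P hP

theorem poleSpace_mono {m : ℕ} (h : n ≤ m) : poleSpace P₀ n ≤ poleSpace P₀ m := fun x hx => by
  rw [mem_poleSpace_iff] at hx ⊢
  exact hx.imp id fun ⟨h0, h1⟩ => ⟨by omega, h1⟩

theorem ord_nonneg_of_mem_poleSpace {x : F} (hx : x ∈ poleSpace P₀ n) {P : Place K F}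
    (hP : P ≠ P₀) : 0 ≤ P.ord x := by
  rcases mem_poleSpace_iff.mp hx with rfl | h
  · simp
  · exact h.2 P hP

theorem neg_le_ord_of_mem_poleSpace {x : F} (hx : x ∈ poleSpace P₀ n) :
    -(n : ℤ) ≤ P₀.ord x := by
  rcases mem_poleSpace_iff.mp hx with rfl | h
  · simp
  · exact h.1

theorem algebraMap_mem_poleSpace (a : K) : algebraMap K F a ∈ poleSpace P₀ n :=
  mem_poleSpace_iff.mpr (Or.inr ⟨by simp, fun P _ => by simp⟩)

theorem divOf_add_single_nonneg [HasPrincipalDivisors K F] {x : F} (hx : x ∈ poleSpace P₀ n) :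
    (0 : Divisor K F) ≤ divOf (K := K) x + Finsupp.single P₀ (n : ℤ) := fun P => by
  rw [Finsupp.zero_apply, Finsupp.add_apply, divOf_apply]
  rcases eq_or_ne P P₀ with rfl | hP
  · have := neg_le_ord_of_mem_poleSpace hx
    simp only [Finsupp.single_eq_same]
    omega
  · simpa [Finsupp.single_eq_of_ne hP] using ord_nonneg_of_mem_poleSpace hx hP

/-- At a place of degree one, a function regular there has a value. -/
theorem exists_value {P : Place K F} (hdeg : P.deg = 1) {x : F} (hx : 0 ≤ P.ord x) :
    ∃ a : K, x - algebraMap K F a = 0 ∨ 0 < P.ord (x - algebraMap K F a) := by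
  have hfr : Module.finrank K P.ResidueField = 1 := hdeg
  have hx0 : x ∈ ordGE P 0 := mem_ordGE_of_le hx
  have h10 : (1 : F) ∈ ordGE P 0 := one_mem_ordGE
  obtain ⟨a, ha⟩ := (finrank_eq_one_iff_of_nonzero' (1 : P.ResidueField) one_ne_zero).mp hfr
    (residueAt P ⟨x, hx0⟩)
  refine ⟨a, ?_⟩
  have h1 : residueAt P (⟨x, hx0⟩ - a • ⟨1, h10⟩) = 0 := by
    rw [map_sub, map_smul, ← ha, sub_eq_zero]
    congr 1
  rw [residueAt_eq_zero_iff] at h1
  have he : x - algebraMap K F a =
      ((⟨x, hx0⟩ - a • ⟨1, h10⟩ : ↥(ordGE P 0)) : F) := by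
    simp [Algebra.smul_def]
  rw [← he, mem_ordGE] at h1
  exact h1.imp id fun h => by omega

end PoleSpace

end FermatLib.Igusa.LatAux
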