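import Fermat.Prelude.Def_AlgebraicCurve_DivisorClassGroup
import Mathlib.Tactic

/-!
Rigidity: a bounded function on the places of a curve whose linear extension to divisors
kills all principal divisors kills all divisors of degree zero.
-/

set_option autoImplicit false

noncomputable section

open AlgebraicCurve

namespace FermatLib.Igusa

variable {K F : Type*} [Field K] [Field F] [Algebra K F]

/-- The weak form of the Riemann inequality used here. -/
def RiemannInequalityAt (K F : Type*) [Field K] [Field F] [Algebra K F] (g : ℕ) : Prop :=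
  ∀ D : Divisor K F, (g : ℤ) ≤ Divisor.degree D →
    ∃ E : Divisor K F, E ∈ Divisor.principal (K := K) (F := F) ∧ ∀ v, 0 ≤ E v + D v

/-- Linear extension of a function on places. -/
def placeSum (w : Place K F → ℤ) : Divisor K F →+ ℤ :=
  Finsupp.liftAddHom fun v => AddMonoidHom.mulRight (w v)

theorem placeSum_single (w : Place K F → ℤ) (v : Place K F) (n : ℤ) :
    placeSum w (Finsupp.single v n) = n * w v := by
  simp [placeSum]

theorem placeSum_const (c : ℤ) (hdeg : ∀ v : Place K F, v.deg = 1) (D : Divisor K F) :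
    placeSum (fun _ => c) D = Divisor.degree D * c := by
  induction D using Finsupp.induction with
  | zero => simp
  | single_add v n D _ _ ih =>
    rw [map_add, map_add, ih, placeSum_single, Divisor.degree_single, hdeg, Nat.cast_one]
    ring

theorem abs_placeSum_le (w : Place K F → ℤ) (B : ℤ) (hB : ∀ v, |w v| ≤ B)
    (hdeg : ∀ v : Place K F, v.deg = 1) {E : Divisor K F} (hE : ∀ v, 0 ≤ E v) :
    |placeSum w E| ≤ B * Divisor.degree E := by
  have h1 : placeSum w E = ∑ v ∈ E.support, E v * w v := by
    simp [placeSum, Finsupp.liftAddHom_apply, Finsupp.sum]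
  have h2 : Divisor.degree E = ∑ v ∈ E.support, E v := by
    simp [Divisor.degree, Finsupp.liftAddHom_apply, Finsupp.sum, hdeg]
  rw [h1, h2, Finset.mul_sum]
  refine (Finset.abs_sum_le_sum_abs _ _).trans (Finset.sum_le_sum fun v _ => ?_)
  rw [abs_mul, abs_of_nonneg (hE v), mul_comm B]
  exact mul_le_mul_of_nonneg_left (hB v) (hE v)

theorem eq_of_bounded_of_principal (w : Place K F → ℤ) (B : ℤ) (hB : ∀ v, |w v| ≤ B)
    (hdeg : ∀ v : Place K F, v.deg = 1) {g : ℕ} (hR : RiemannInequalityAt K F g)
    (hprin : ∀ E ∈ Divisor.principal (K := K) (F := F), Divisor.degree E = 0 ∧ placeSum w E = 0)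
    (P R : Place K F) : w P = w R := by
  by_contra hne
  set n : ℕ := (2 * (g : ℤ) * B).toNat + 1 with hn
  set D : Divisor K F := Finsupp.single P (n : ℤ) - Finsupp.single R ((n : ℤ) - g) with hD
  have hdegD : Divisor.degree D = g := by
    rw [hD, map_sub, Divisor.degree_single, Divisor.degree_single, hdeg, hdeg]
    ring
  obtain ⟨E, hE, hEpos⟩ := hR D (le_of_eq hdegD.symm)
  obtain ⟨hE0, hEw⟩ := hprin E hE
  have hpos : ∀ v, 0 ≤ (E + D) v := fun v => by rw [Finsupp.add_apply]; exact hEpos v
  have hbd := abs_placeSum_le w B hB hdeg hpos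
  rw [map_add, map_add, hE0, hEw, zero_add, zero_add, hdegD, hD, map_sub, placeSum_single,
    placeSum_single] at hbd
  have hw : (1 : ℤ) ≤ |w P - w R| := Int.one_le_abs (sub_ne_zero.mpr hne)
  have hn1 : (n : ℤ) ≤ |(n : ℤ) * (w P - w R)| := by
    rw [abs_mul, Nat.abs_cast]
    exact le_mul_of_one_le_right (Int.natCast_nonneg n) hw
  have h3 : |(n : ℤ) * (w P - w R)| ≤ B * g + g * B := by
    have heq : (n : ℤ) * (w P - w R)
        = ((n : ℤ) * w P - ((n : ℤ) - g) * w R) + (-((g : ℤ) * w R)) := by ring
    rw [heq]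
    refine (abs_add_le _ _).trans (add_le_add hbd ?_)
    rw [abs_neg, abs_mul, Nat.abs_cast]
    exact mul_le_mul_of_nonneg_left (hB R) (Int.natCast_nonneg g)
  have h4 : 2 * (g : ℤ) * B ≤ ((2 * (g : ℤ) * B).toNat : ℤ) := Int.self_le_toNat _
  have h5 : B * (g : ℤ) + g * B = 2 * g * B := by ring
  omega

/-- A homomorphism on divisors, bounded on places (coefficientwise), killing principal divisors,
kills all divisors of degree zero. -/
theorem apply_eq_zero_of_degree_eq_zero {S : Type*} (δ : Divisor K F →+ (S →₀ ℤ))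
    (B : ℤ) (hB : ∀ v s, |δ (Finsupp.single v 1) s| ≤ B)
    (hdeg : ∀ v : Place K F, v.deg = 1) {g : ℕ} (hR : RiemannInequalityAt K F g)
    (hdeg0 : ∀ E ∈ Divisor.principal (K := K) (F := F), Divisor.degree E = 0)
    (hprin : ∀ E ∈ Divisor.principal (K := K) (F := F), δ E = 0)
    (D : Divisor K F) (hD : Divisor.degree D = 0) : δ D = 0 := by
  ext s
  set w : Place K F → ℤ := fun v => δ (Finsupp.single v 1) s with hw
  have hsum : (Finsupp.applyAddHom s).comp δ = placeSum w := by
    refine Finsupp.addHom_ext fun v n => ?_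
    rw [placeSum_single, AddMonoidHom.comp_apply, ← smul_eq_mul, hw,
      ← Finsupp.smul_apply, ← map_zsmul, Finsupp.smul_single, smul_eq_mul, mul_one]
    rfl
  have hP : ∀ D', δ D' s = placeSum w D' := fun D' => DFunLike.congr_fun hsum D'
  rw [Finsupp.zero_apply, hP]
  rcases isEmpty_or_nonempty (Place K F) with hemp | ⟨⟨P₀⟩⟩
  · rw [Subsingleton.elim D 0, map_zero]
  · have hc : w = fun _ => w P₀ := funext fun v =>
      eq_of_bounded_of_principal w B (fun v => hB v s) hdeg hR
        (fun E hE => ⟨hdeg0 E hE, by rw [← hP, hprin E hE, Finsupp.zero_apply]⟩) v P₀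
    rw [hc, placeSum_const _ hdeg, hD, zero_mul]

end FermatLib.Igusa
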