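import Fermat.Agent.Igusa.GaussPlaces
import Fermat.Agent.Igusa.LaurentLattice
import Fermat.Agent.Curve.PlaceConstruction
import Fermat.Agent.Modular.LaurentInstances

/-!
Gauss-integral functions without poles outside the poles of `j` have expansions with coefficients
in `A`.
-/

set_option autoImplicit false
set_option synthInstance.maxHeartbeats 400000

noncomputable section

open AlgebraicCurve ModularCurve IntermediateField

namespace FermatLib.Igusa

open scoped FermatLib.LaurentInstances

variable {L : Type*} [Field L] [Algebra ℚ L] {A : ValuationSubring L}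
variable {k : Type*} [Field k] {π : A →+* k} {N M : ℕ}

theorem isFunctionField_baseChange (hd : DegreeInput A π N M) :
    FermatLib.Curve.IsFunctionField L (laurentBaseChange L (modularFunctionFieldFull N)) := by
  haveI : FiniteDimensional (IntermediateField.adjoin L {genericFun A π N (jInt A π N)})
      (laurentBaseChange L (modularFunctionFieldFull N)) :=
    Module.finite_of_finrank_pos (by rw [hd.finrank_generic]; exact hd.pos)
  exact .of_transcendental (transcendental_genericFun_jInt A π N)

/-- A function regular wherever `x` is regular is integral over `L[x]`. -/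
theorem isIntegral_of_forall_pole (hd : DegreeInput A π N M)
    (x : laurentBaseChange L (modularFunctionFieldFull N))
    {f : laurentBaseChange L (modularFunctionFieldFull N)}
    (hf : ∀ v : Place L (laurentBaseChange L (modularFunctionFieldFull N)), v.ord f < 0 →
      v.ord x < 0) :
    IsIntegral (Algebra.adjoin L {x}) f := by
  haveI := isFunctionField_baseChange hd
  have hmem : f ∈ (integralClosure
      (Subring.closure (SetLike.coe (Algebra.adjoin L ({x} : Set _))))
      (laurentBaseChange L (modularFunctionFieldFull N))).toSubring := by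
    rw [← iInf_valuationSubring_superset, Subring.mem_iInf]
    rintro ⟨W, hW⟩
    rcases eq_or_ne W ⊤ with rfl | hne
    · exact trivial
    rcases eq_or_ne f 0 with rfl | hf0
    · exact zero_mem _
    have hxW : x ∈ W := hW (Algebra.self_mem_adjoin_singleton L x)
    let v := Curve.placeOfValuationSubring W (fun a => hW (Subalgebra.algebraMap_mem _ a)) hne
    show f ∈ v.toValuationSubring
    rw [Curve.mem_iff_ord_nonneg v hf0]
    by_contra hneg
    have hv := hf v (not_le.mp hneg)
    have hx0 : x ≠ 0 := fun h0 => by simp [h0] at hv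
    have := (Curve.mem_iff_ord_nonneg v hx0).mp (show x ∈ v.toValuationSubring from hxW)
    omega
  obtain ⟨p, hp, hpf⟩ := hmem
  have hcl : Subring.closure (SetLike.coe (Algebra.adjoin L ({x} : Set _))) ≤
      (Algebra.adjoin L {x}).toSubring := Subring.closure_le.mpr fun _ h => h
  exact ⟨p.map (Subring.inclusion hcl), hp.map _, by rw [Polynomial.eval₂_map]; exact hpf⟩

/-- Powers of a Gauss-integral function integral over `L[gf jj]` share an integral denominator
with nonzero reduction. -/
theorem exists_denominator (hres : ∀ a : A, ¬ IsUnit a → π a = 0) (hπ : Function.Surjective π)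
    {jj : integralSeries A π N} (htL : Transcendental L (genericFun A π N jj))
    (htk : Transcendental k (specialFun A π N jj)) (hM : 0 < M)
    (hL : Module.finrank (IntermediateField.adjoin L {genericFun A π N jj})
      (laurentBaseChange L (modularFunctionFieldFull N)) = M)
    (hk : Module.finrank (IntermediateField.adjoin k {specialFun A π N jj})
      (modularFunctionFieldFullC k N) = M)
    (h : gaussRing A π N)
    (hint' : IsIntegral (Algebra.adjoin L {genericFun A π N jj})
      (h : laurentBaseChange L (modularFunctionFieldFull N))) :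
    ∃ (u : integralSeries A π N) (m : Fin M → integralSeries A π N),
      specialFun A π N u ≠ 0 ∧ ∀ n : ℕ, ∃ y : integralSeries A π N,
        genericFun A π N y =
            genericFun A π N u * (h : laurentBaseChange L (modularFunctionFieldFull N)) ^ n ∧
        specialFun A π N y ∈ Submodule.span k (Set.range fun q : ℕ × Fin M =>
          specialFun A π N jj ^ q.1 * specialFun A π N (m q.2)) := by
  classical
  set gf := genericFun A π N with hgf
  set sf := specialFun A π N with hsf
  have hgc := fun a : A => (algebraMap_eq_genericFun A π N a).symm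
  have hsc := specialFun_single A π N
  have hsurj : ∀ x, ∃ y z, sf z ≠ 0 ∧ x = sf y / sf z := by
    intro x
    obtain ⟨f, rfl⟩ := gaussRed_surjective A π N hπ x
    obtain ⟨y, z, hz, he⟩ := f.2
    exact ⟨y, z, hz, gaussRed_eq A π N f hz he⟩
  obtain ⟨m, hpi, hspan⟩ := exists_integral_basis gf sf _ hgc hsc
    (genericFun_injective A π N) hsurj htL htk hM hL hk
  set x := gf jj with hx
  set e : ℕ × Fin M → integralSeries A π N := fun q => jj ^ q.1 * m q.2
  have hli : LinearIndependent k fun q => sf (e q) := by
    simpa [e, map_mul, map_pow, PolyIndependent] using hpi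
  set V := Submodule.span L (Set.range fun q => gf (e q))
  have hmulx : ∀ w ∈ V, x * w ∈ V := by
    intro w hw
    induction hw using Submodule.span_induction with
    | mem z hz =>
      obtain ⟨q, rfl⟩ := hz
      refine Submodule.subset_span ⟨(q.1 + 1, q.2), ?_⟩
      simp only [e, map_mul, map_pow, ← hx]
      ring
    | zero => simp
    | add a b _ _ ha hb => rw [mul_add]; exact add_mem ha hb
    | smul c a _ ha => rw [mul_smul_comm]; exact V.smul_mem c ha
  have hmulR : ∀ r ∈ Algebra.adjoin L {x}, ∀ w ∈ V, r * w ∈ V := by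
    intro r hr
    induction hr using Algebra.adjoin_induction with
    | mem z hz =>
      obtain rfl := Set.mem_singleton_iff.mp hz
      exact hmulx
    | algebraMap c => exact fun w hw => by rw [← Algebra.smul_def]; exact V.smul_mem c hw
    | add a b _ _ ha hb => exact fun w hw => by rw [add_mul]; exact add_mem (ha w hw) (hb w hw)
    | mul a b _ _ ha hb => exact fun w hw => by rw [mul_assoc]; exact ha _ (hb w hw)
  obtain ⟨s, hs⟩ := hint'.fg_adjoin_singleton
  choose c hc using fun f : {f // f ∈ s} => (Submodule.mem_span_range_iff_exists_fun _).mp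
    (hspan.ge (Submodule.mem_top
      (x := (f : laurentBaseChange L (modularFunctionFieldFull N)))))
  obtain ⟨b, p, hb, hbp⟩ := exists_common_denom htL
    fun q : {f // f ∈ s} × Fin M => c q.1 q.2
  have hin : ∀ r : Polynomial L, Polynomial.aeval x r ∈ Algebra.adjoin L {x} := fun r =>
    Polynomial.aeval_mem_adjoin_singleton L x
  have hVm : ∀ i, gf (m i) ∈ V := fun i => Submodule.subset_span ⟨(0, i), by simp [e]⟩
  have hsV : ∀ f ∈ s, Polynomial.aeval x b * f ∈ V := by
    intro f hf
    rw [show f = ∑ i, c ⟨f, hf⟩ i • gf (m i) from (hc ⟨f, hf⟩).symm, Finset.mul_sum]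
    refine Submodule.sum_mem _ fun i _ => ?_
    rw [show (c ⟨f, hf⟩ i • gf (m i)) = (c ⟨f, hf⟩ i : laurentBaseChange L _) * gf (m i) from rfl,
      ← mul_assoc, hbp (⟨f, hf⟩, i)]
    exact hmulR _ (hin _) _ (hVm i)
  -- all powers have the denominator `b`
  have hpow : ∀ n : ℕ, Polynomial.aeval x b *
      (h : laurentBaseChange L (modularFunctionFieldFull N)) ^ n ∈ V := by
    intro n
    have hm' : (h : laurentBaseChange L (modularFunctionFieldFull N)) ^ n ∈
        Subalgebra.toSubmodule (Algebra.adjoin (Algebra.adjoin L {x})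
          {(h : laurentBaseChange L (modularFunctionFieldFull N))}) :=
      pow_mem (Algebra.self_mem_adjoin_singleton _ _) n
    rw [← hs] at hm'
    generalize (h : laurentBaseChange L (modularFunctionFieldFull N)) ^ n = g at hm' ⊢
    induction hm' using Submodule.span_induction with
    | mem f hf => exact hsV f hf
    | zero => simp
    | add a a' _ _ ha hb => rw [mul_add]; exact add_mem ha hb
    | smul r a _ ha =>
      rw [Algebra.smul_def, mul_left_comm]
      exact hmulR _ r.2 _ ha
  obtain ⟨i₀, hi₀, hA₀⟩ := ConstantReduction.exists_scale_coeffs A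
    (c := fun i : Fin (b.natDegree + 1) => b.coeff i)
    ⟨Fin.last _, by simpa using Polynomial.leadingCoeff_ne_zero.mpr hb⟩
  set u : integralSeries A π N := ∑ i : Fin (b.natDegree + 1),
    ⟨HahnSeries.single 0 ⟨_, hA₀ i⟩, single_zero_mem A π N _⟩ * jj ^ (i : ℕ) with hu
  have huF : gf u = algebraMap L _ (b.coeff i₀)⁻¹ * Polynomial.aeval x b := by
    rw [Polynomial.aeval_eq_sum_range, Finset.mul_sum, ← Fin.sum_univ_eq_sum_range
      (fun i => algebraMap L _ (b.coeff i₀)⁻¹ * (b.coeff i • x ^ i)), hu, map_sum]
    refine Finset.sum_congr rfl fun i _ => ?_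
    rw [map_mul, map_pow, hgc, map_mul, Algebra.smul_def, mul_assoc]
  have hu0 : gf u ≠ 0 := by
    rw [huF]
    refine mul_ne_zero (by simpa using hi₀) fun h0 => hb ?_
    exact transcendental_iff.mp htL b h0
  -- the bound on the coefficients
  have hint : ∀ w ∈ V, w ∈ gaussRing A π N → ∃ y, gf y = w ∧
      sf y ∈ Submodule.span k (Set.range fun q => sf (e q)) := by
    intro w hw hwR
    obtain ⟨a, ha⟩ := Finsupp.mem_span_range_iff_exists_finsupp.mp hw
    rw [Finsupp.sum] at ha
    set T := a.support
    by_cases hall : ∀ q ∈ T, a q ∈ A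
    · refine ⟨∑ q ∈ T.attach,
        ⟨HahnSeries.single 0 ⟨a q, hall q q.2⟩, single_zero_mem A π N _⟩ * e q, ?_, ?_⟩
      · rw [map_sum, ← ha, ← Finset.sum_attach T]
        refine Finset.sum_congr rfl fun q _ => ?_
        rw [map_mul, hgc, Algebra.smul_def]
      · rw [map_sum]
        refine Submodule.sum_mem _ fun q _ => ?_
        rw [map_mul, hsc, ← Algebra.smul_def]
        exact Submodule.smul_mem _ _ (Submodule.subset_span ⟨q, rfl⟩)
    · exfalso
      push Not at hall
      obtain ⟨q, hq, hqA⟩ := hall
      obtain ⟨q₀, hq₀, hqs⟩ := ConstantReduction.exists_scale_coeffs A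
        (c := fun q : T => a q) ⟨⟨q, hq⟩, fun h0 => hqA (h0 ▸ A.zero_mem)⟩
      have hinvA : (a q₀)⁻¹ ∈ A := by
        by_contra hni
        have h2 := mul_mem ((A.mem_or_inv_mem (a q₀)⁻¹).resolve_left hni) (hqs ⟨q, hq⟩)
        rw [inv_inv, ← mul_assoc, mul_inv_cancel₀ hq₀, one_mul] at h2
        exact hqA h2
      have hnu : ¬ IsUnit (⟨_, hinvA⟩ : A) := by
        intro hu'
        obtain ⟨v, hv⟩ := hu'.exists_right_inv
        have h1 := congrArg Subtype.val hv
        have hq0A : a q₀ ∈ A := by
          rw [← inv_inv (a q₀), ← eq_inv_of_mul_eq_one_right h1]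
          exact v.2
        refine hqA ?_
        have := mul_mem hq0A (hqs ⟨q, hq⟩)
        rwa [← mul_assoc, mul_inv_cancel₀ hq₀, one_mul] at this
      set cst : A → integralSeries A π N :=
        fun t => ⟨HahnSeries.single 0 t, single_zero_mem A π N t⟩
      have heq : (⟨_, genericFun_mem_gaussRing A π N (cst ⟨_, hinvA⟩)⟩ : gaussRing A π N) *
          ⟨w, hwR⟩ = ⟨_, genericFun_mem_gaussRing A π N
            (∑ q' : T, cst ⟨_, hqs q'⟩ * e q')⟩ := by
        refine Subtype.ext ?_
        show gf (cst _) * w = gf _
        rw [hgc, map_sum, ← ha, Finset.mul_sum, ← Finset.sum_coe_sort T]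
        refine Finset.sum_congr rfl fun q' _ => ?_
        simp only [e, cst, map_mul, hgc, hgf, Algebra.smul_def, map_pow]
        ring
      have hred := congrArg (gaussRed A π N) heq
      rw [map_mul, gaussRed_genericFun, gaussRed_genericFun, hsc, hres _ hnu, map_zero, zero_mul]
        at hred
      have h3 := linearIndependent_iff'.mp
        (hli.comp (Subtype.val : T → ℕ × Fin M) Subtype.val_injective) Finset.univ
        (fun q' => π ⟨_, hqs q'⟩) (by
          rw [hred, map_sum]
          refine Finset.sum_congr rfl fun q' _ => ?_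
          rw [map_mul, hsc, Algebra.smul_def]
          rfl) q₀ (Finset.mem_univ _)
      rw [show (⟨_, hqs q₀⟩ : A) = 1 from Subtype.ext (inv_mul_cancel₀ hq₀), map_one] at h3
      exact one_ne_zero h3
  have hsu : sf u ≠ 0 := by
    intro h0
    rw [hu, map_sum] at h0
    simp only [map_mul, map_pow, hsc, hsf, ← Algebra.smul_def] at h0
    have h1 := transcendental_iff.mp htk
      (∑ i : Fin (b.natDegree + 1), Polynomial.C (π ⟨_, hA₀ i⟩) * Polynomial.X ^ (i : ℕ))
      (by rw [map_sum]; simpa [Algebra.smul_def] using h0)
    have h2 := congrArg (fun q : Polynomial k => q.coeff (i₀ : ℕ)) h1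
    simp only [Polynomial.finsetSum_coeff, Polynomial.coeff_C_mul_X_pow,
      Polynomial.coeff_zero] at h2
    rw [Finset.sum_eq_single i₀ (fun j _ hj => if_neg fun h => hj (Fin.ext h.symm))
      (fun h => absurd (Finset.mem_univ _) h), if_pos rfl,
      show (⟨_, hA₀ i₀⟩ : A) = 1 from Subtype.ext (inv_mul_cancel₀ hi₀), map_one] at h2
    exact one_ne_zero h2
  refine ⟨u, m, hsu, fun n => ?_⟩
  obtain ⟨y, hy, hys⟩ := hint (gf u * (h : laurentBaseChange L (modularFunctionFieldFull N)) ^ n)
    (by rw [huF, mul_assoc, ← Algebra.smul_def]; exact V.smul_mem _ (hpow n))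
    (mul_mem (genericFun_mem_gaussRing A π N u) (pow_mem h.2 n))
  refine ⟨y, hy, ?_⟩
  simpa [e, hsf, map_mul, map_pow] using hys

/-- Reduction keeps a function regular where the coordinate is regular. -/
theorem ord_gaussRed_nonneg (hres : ∀ a : A, ¬ IsUnit a → π a = 0) (hπ : Function.Surjective π)
    {jj : integralSeries A π N} (htL : Transcendental L (genericFun A π N jj))
    (htk : Transcendental k (specialFun A π N jj)) (hM : 0 < M)
    (hL : Module.finrank (IntermediateField.adjoin L {genericFun A π N jj})
      (laurentBaseChange L (modularFunctionFieldFull N)) = M)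
    (hk : Module.finrank (IntermediateField.adjoin k {specialFun A π N jj})
      (modularFunctionFieldFullC k N) = M)
    (h : gaussRing A π N)
    (hint' : IsIntegral (Algebra.adjoin L {genericFun A π N jj})
      (h : laurentBaseChange L (modularFunctionFieldFull N)))
    (v : Place k (modularFunctionFieldFullC k N)) (hv : 0 ≤ v.ord (specialFun A π N jj)) :
    0 ≤ v.ord (gaussRed A π N h) := by
  classical
  rcases eq_or_ne (gaussRed A π N h) 0 with h0 | h0
  · simp [h0]
  obtain ⟨u, m, hu, hn⟩ := exists_denominator hres hπ htL htk hM hL hk h hint'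
  obtain ⟨d, hd'⟩ : ∃ d : ℤ, ∀ i, d ≤ v.ord (specialFun A π N (m i)) :=
    ⟨-∑ i, |v.ord (specialFun A π N (m i))|, fun i => by
      have := Finset.single_le_sum (f := fun i => |v.ord (specialFun A π N (m i))|)
        (fun _ _ => abs_nonneg _) (Finset.mem_univ i)
      have := neg_abs_le (v.ord (specialFun A π N (m i)))
      omega⟩
  by_contra hneg
  obtain ⟨n, hn'⟩ : ∃ n : ℕ, v.ord (specialFun A π N u) + n * v.ord (gaussRed A π N h) < d := by
    refine ⟨(v.ord (specialFun A π N u) - d).toNat + 1, ?_⟩
    push_cast
    nlinarith [Int.self_le_toNat (v.ord (specialFun A π N u) - d),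
      Int.natCast_nonneg (v.ord (specialFun A π N u) - d).toNat]
  obtain ⟨y, hy, hys⟩ := hn n
  have hred : specialFun A π N y = specialFun A π N u * gaussRed A π N h ^ n := by
    rw [← gaussRed_genericFun, ← gaussRed_genericFun A π N u, ← map_pow, ← map_mul]
    exact congrArg _ (Subtype.ext hy)
  have hge : specialFun A π N y ∈ Curve.ordGE v d := by
    refine (Submodule.span_le.mpr ?_) hys
    rintro _ ⟨q, rfl⟩
    have h1 : specialFun A π N jj ^ q.1 ∈ Curve.ordGE v 0 :=
      Curve.mem_ordGE_of_le (by rw [Curve.ord_pow]; positivity)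
    have h2 : specialFun A π N (m q.2) ∈ Curve.ordGE v d := Curve.mem_ordGE_of_le (hd' q.2)
    simpa using Curve.mul_mem_ordGE h1 h2
  have hne : specialFun A π N u * gaussRed A π N h ^ n ≠ 0 := mul_ne_zero hu (pow_ne_zero _ h0)
  rw [hred] at hge
  have h3 := Curve.le_ord_of_mem hge hne
  rw [v.ord_mul hu (pow_ne_zero _ h0), Curve.ord_pow] at h3
  omega

end FermatLib.Igusa
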