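import Fermat.Agent.Igusa.LatticeFunctions

/-!
Every divisor class is represented by `E - d ∞` with `E` effective and no point of `E` reducing
to `∞`.
-/

set_option autoImplicit false

noncomputable section

open AlgebraicCurve IsLocalRing HahnSeries
open FermatLib.Igusa.LatAux

namespace FermatLib.Igusa

variable {L : Type*} [Field L] {k : Type*} [Field k] {A : ValuationSubring L} {π : A →+* k}
  {F : IntermediateField L (LaurentSeries L)} {Fk : IntermediateField k (LaurentSeries k)}
  {Pinf : Place L F} {Qinf : Place k Fk} {n₀ : ℕ} {r : Place L F → Place k Fk}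

/-- Effective and supported at places not reducing to `Qinf`. -/
def IsOutEff (r : Place L F → Place k Fk) (Qinf : Place k Fk) (E : Divisor L F) : Prop :=
  0 ≤ E ∧ ∀ P, E P ≠ 0 → r P ≠ Qinf

/-- Linearly equivalent to an effective divisor away from `Qinf` plus a multiple of `Pinf`. -/
def IsGoodClass (r : Place L F → Place k Fk) (Qinf : Place k Fk) (Pinf : Place L F)
    (D : Divisor L F) : Prop :=
  ∃ (E : Divisor L F) (e : ℤ), IsOutEff r Qinf E ∧
    D - (E + Finsupp.single Pinf e) ∈ Divisor.principal (K := L) (F := F)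

theorem isOutEff_zero : IsOutEff r Qinf (0 : Divisor L F) :=
  ⟨le_rfl, fun P h => absurd rfl h⟩

theorem IsOutEff.add {E E' : Divisor L F} (h : IsOutEff r Qinf E) (h' : IsOutEff r Qinf E') :
    IsOutEff r Qinf (E + E') := by
  refine ⟨fun P => by
    have := h.1 P; have := h'.1 P
    simp only [Finsupp.zero_apply, Finsupp.add_apply] at *
    omega, fun P hP => ?_⟩
  rw [Finsupp.add_apply] at hP
  rcases ne_or_eq (E P) 0 with hE | hE
  · exact h.2 P hE
  · exact h'.2 P (by rw [hE, zero_add] at hP; exact hP)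

theorem IsOutEff.map_eq_zero {E : Divisor L F} (h : IsOutEff r Qinf E) :
    Finsupp.mapDomain r E Qinf = 0 :=
  mapDomain_apply_eq_zero r E h.2

namespace IsGoodClass

theorem of_outEff {D E : Divisor L F} (e : ℤ) (hE : IsOutEff r Qinf E)
    (h : D = E + Finsupp.single Pinf e) : IsGoodClass r Qinf Pinf D :=
  ⟨E, e, hE, by rw [h, sub_self]; exact zero_mem _⟩

theorem zero : IsGoodClass r Qinf Pinf (0 : Divisor L F) :=
  of_outEff 0 isOutEff_zero (by simp)

theorem add {D D' : Divisor L F} (h : IsGoodClass r Qinf Pinf D)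
    (h' : IsGoodClass r Qinf Pinf D') : IsGoodClass r Qinf Pinf (D + D') := by
  obtain ⟨E, e, hE, hD⟩ := h
  obtain ⟨E', e', hE', hD'⟩ := h'
  refine ⟨E + E', e + e', hE.add hE', ?_⟩
  convert add_mem hD hD' using 1
  rw [Finsupp.single_add]
  abel

theorem of_principal {D D' : Divisor L F} (h : IsGoodClass r Qinf Pinf D')
    (hp : D - D' ∈ Divisor.principal (K := L) (F := F)) : IsGoodClass r Qinf Pinf D := by
  obtain ⟨E, e, hE, hD⟩ := h
  refine ⟨E, e, hE, ?_⟩
  convert add_mem hp hD using 1
  abel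

theorem sum {ι : Type*} (s : Finset ι) (f : ι → Divisor L F)
    (h : ∀ i ∈ s, IsGoodClass r Qinf Pinf (f i)) : IsGoodClass r Qinf Pinf (∑ i ∈ s, f i) :=
  Finset.sum_induction f _ (fun _ _ ha hb => ha.add hb) zero h

theorem nsmul {D : Divisor L F} (h : IsGoodClass r Qinf Pinf D) (n : ℕ) :
    IsGoodClass r Qinf Pinf (n • D) := by
  induction n with
  | zero => rw [zero_smul]; exact zero
  | succ n ih => rw [succ_nsmul]; exact ih.add h

end IsGoodClass

namespace LatticeReduction

variable [HasPrincipalDivisors L F] (H : LatticeReduction π F Fk Pinf Qinf n₀ r)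
include H

theorem ne_Pinf_of_map_ne {P : Place L F} (hP : r P ≠ Qinf) : P ≠ Pinf := fun h =>
  hP (h ▸ H.map_inf)

/-- At a place not reducing to `∞`, lattice functions take values in `A`. -/
theorem exists_value_mem {n : ℕ} {x : F} {y : LaurentSeries A} (hx : x ∈ poleSpace Pinf n)
    (hxy : latVal A y = (x : LaurentSeries L)) {P : Place L F} (hP : r P ≠ Qinf) :
    ∃ a : A, x - algebraMap L F (a : L) = 0 ∨ 0 < P.ord (x - algebraMap L F (a : L)) := by
  have hPinf := H.ne_Pinf_of_map_ne hP
  obtain ⟨a, ha⟩ := exists_value (H.deg_one P) (ord_nonneg_of_mem_poleSpace hx hPinf)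
  by_cases haA : a ∈ A
  · exact ⟨⟨a, haA⟩, ha⟩
  exfalso
  have ha0 : a ≠ 0 := fun h => haA (h ▸ A.zero_mem)
  rcases ha with ha | ha
  · apply haA
    have hc := congrArg (fun z : F => (z : LaurentSeries L).coeff 0) (sub_eq_zero.mp ha)
    simp only [coe_algebraMap_field, ModularCurve.algebraMap_laurentSeries_eq_single,
      coeff_single_same] at hc
    rw [← hc, ← hxy, latVal_coeff]
    exact (y.coeff 0).2
  have hai : a⁻¹ ∈ A := (A.mem_or_inv_mem a).resolve_left haA
  have hm : π ⟨a⁻¹, hai⟩ = 0 := by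
    rw [map_eq_zero_iff_mem_maximalIdeal H.surj, IsLocalRing.mem_maximalIdeal, mem_nonunits_iff]
    intro hu
    obtain ⟨b, hb⟩ := hu.exists_right_inv
    have hb' : a⁻¹ * (b : L) = 1 := congrArg Subtype.val hb
    exact haA (by
      rw [show a = (b : L) from by field_simp at hb'; exact hb'.symm]
      exact b.2)
  set z : LaurentSeries A := single (0 : ℤ) (⟨a⁻¹, hai⟩ : A) * y - 1 with hz
  set w : F := a⁻¹ • (x - algebraMap L F a) with hw
  have hzw : latVal A z = (w : LaurentSeries L) := by
    have hw' : w = a⁻¹ • x - 1 := by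
      rw [hw, smul_sub, Algebra.smul_def a⁻¹ (algebraMap L F a), ← map_mul, inv_mul_cancel₀ ha0,
        map_one]
    rw [hz, hw', map_sub, latVal_single_mul hxy, map_one, AddSubgroupClass.coe_sub]
    rfl
  have hwmem : w ∈ poleSpace Pinf n :=
    Submodule.smul_mem _ _ (algebraMap_mem_poleSpace_sub hx a)
  have hred : latRed π z = -1 := by
    rw [hz, map_sub, map_mul, latRed_single, hm, map_zero, zero_mul, map_one, zero_sub]
  have hred0 : latRed π z ≠ 0 := by rw [hred]; exact neg_ne_zero.mpr one_ne_zero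
  have hordw : 0 < P.ord w := by
    rw [hw, Algebra.smul_def, P.ord_mul (by simpa using ha0)
      (fun h => by rw [h, P.ord_zero] at ha; exact lt_irrefl _ ha)]
    rw [FermatLib.Curve.ord_algebraMap, zero_add]
    exact ha
  have h1 := le_mapDomain_apply r (divOf_add_single_nonneg hwmem) P
  rw [Finsupp.mapDomain_add, Finsupp.mapDomain_single, Finsupp.add_apply, Finsupp.add_apply,
    H.ord_red hwmem hzw hred0, divOf_apply, H.map_inf, Finsupp.single_eq_of_ne hPinf,
    Finsupp.single_eq_of_ne hP] at h1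
  have he : (⟨latRed π z, H.red_mem hwmem hzw⟩ : Fk) = algebraMap k Fk (-1) :=
    Subtype.ext (by simp [hred])
  rw [he, FermatLib.Curve.ord_algebraMap] at h1
  omega

/-- The zeros of a function with unit top coefficient form an effective divisor away from `∞`. -/
theorem exists_zeros {n : ℕ} {x : F} {y : LaurentSeries A} (hx : x ∈ poleSpace Pinf n)
    (hxy : latVal A y = (x : LaurentSeries L)) (hu : IsUnit (y.coeff (-(n : ℤ)))) :
    IsOutEff r Qinf (divOf x + Finsupp.single Pinf (n : ℤ)) := by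
  refine ⟨divOf_add_single_nonneg hx, fun P hP => ?_⟩
  have h0 := divOf_add_single_nonneg hx P
  rw [Finsupp.zero_apply, Finsupp.add_apply, divOf_apply] at h0
  rw [Finsupp.add_apply, divOf_apply] at hP
  have hPinf : P ≠ Pinf := by
    rintro rfl
    rw [Finsupp.single_eq_same, (H.ord_eq_of_isUnit hx hxy hu).1] at hP
    omega
  rw [Finsupp.single_eq_of_ne hPinf] at h0 hP
  exact H.map_ne_of_ord_pos hx hxy hu (by omega)

theorem isGoodClass_neg_single_of_map_ne {P : Place L F} (hP : r P ≠ Qinf) :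
    IsGoodClass r Qinf Pinf (-Finsupp.single P (1 : ℤ)) := by
  have hn1 : 0 < n₀ + 1 := by omega
  obtain ⟨x, y, hx, hxy, hu⟩ := H.exists_top_lift (n₀ + 1) (by omega)
  obtain ⟨a, ha⟩ := H.exists_value_mem hx hxy hP
  set w : F := x - algebraMap L F (a : L) with hw
  set z : LaurentSeries A := y - single (0 : ℤ) a with hz
  have hwm : w ∈ poleSpace Pinf (n₀ + 1) := algebraMap_mem_poleSpace_sub hx _
  have hzw : latVal A z = (w : LaurentSeries L) := by
    rw [hz, hw, map_sub, latVal_single_zero_eq_algebraMap, hxy, AddSubgroupClass.coe_sub,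
      coe_algebraMap_field]
  have huz : IsUnit (z.coeff (-((n₀ + 1 : ℕ) : ℤ))) := by
    rw [hz, coeff_sub, coeff_single_of_ne (by omega), sub_zero]
    exact hu
  have hpos : 0 < P.ord w := by
    refine ha.resolve_left fun h0 => ?_
    have := (H.ord_eq_of_isUnit hwm hzw huz).1
    rw [h0, Place.ord_zero] at this
    omega
  obtain ⟨hE0, hEout⟩ := H.exists_zeros hwm hzw huz
  have hPinf := H.ne_Pinf_of_map_ne hP
  refine ⟨divOf w + Finsupp.single Pinf ((n₀ + 1 : ℕ) : ℤ) - Finsupp.single P 1,
    -((n₀ + 1 : ℕ) : ℤ), ⟨fun Q => ?_, fun Q hQ => ?_⟩, ?_⟩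
  · have := hE0 Q
    rw [Finsupp.zero_apply] at this ⊢
    rw [Finsupp.sub_apply]
    rcases eq_or_ne Q P with rfl | hQP
    · rw [Finsupp.add_apply, divOf_apply, Finsupp.single_eq_of_ne hPinf,
        Finsupp.single_eq_same]
      omega
    · rw [Finsupp.single_eq_of_ne hQP, sub_zero]
      exact this
  · rcases eq_or_ne Q P with rfl | hQP
    · exact hP
    · rw [Finsupp.sub_apply, Finsupp.single_eq_of_ne hQP, sub_zero] at hQ
      exact hEout Q hQ
  · have h2 : w ≠ 0 := fun e => by rw [e, P.ord_zero] at hpos; exact lt_irrefl _ hpos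
    convert neg_mem (divOf_mem_principal (K := L) h2) using 1
    rw [Finsupp.single_neg]
    abel

theorem isGoodClass_neg {E : Divisor L F} (hE : IsOutEff r Qinf E) :
    IsGoodClass r Qinf Pinf (-E) := by
  rw [← Finsupp.sum_single E, Finsupp.sum, ← Finset.sum_neg_distrib]
  refine IsGoodClass.sum _ _ fun P hP => ?_
  have hP0 : 0 ≤ E P := hE.1 P
  obtain ⟨j, hj⟩ := Int.eq_ofNat_of_zero_le hP0
  have := (H.isGoodClass_neg_single_of_map_ne (hE.2 P (Finsupp.mem_support_iff.mp hP))).nsmul j
  convert this using 1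
  rw [smul_neg, Finsupp.smul_single, hj]
  simp

omit [HasPrincipalDivisors L F] H in
/-- A combination with vanishing value vanishes at the place. -/
theorem comb_eq_zero_or_ord_pos {P : Place L F} {u v : F} {a b c d : L}
    (ha : u - algebraMap L F a = 0 ∨ 0 < P.ord (u - algebraMap L F a))
    (hb : v - algebraMap L F b = 0 ∨ 0 < P.ord (v - algebraMap L F b))
    (hcd : c * a + d * b = 0) :
    c • u + d • v = 0 ∨ 0 < P.ord (c • u + d • v) := by
  have he : c • u + d • v = c • (u - algebraMap L F a) + d • (v - algebraMap L F b) := by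
    simp only [Algebra.smul_def]
    have h0 : algebraMap L F c * algebraMap L F a + algebraMap L F d * algebraMap L F b = 0 := by
      rw [← map_mul, ← map_mul, ← map_add, hcd, map_zero]
    linear_combination h0
  have h1 : c • u + d • v ∈ FermatLib.Curve.ordGE P 1 := by
    rw [he]
    refine add_mem (Submodule.smul_mem _ _ ?_) (Submodule.smul_mem _ _ ?_) <;>
      rw [FermatLib.Curve.mem_ordGE]
    · exact ha.imp id fun h => by omega
    · exact hb.imp id fun h => by omega
  exact (FermatLib.Curve.mem_ordGE.mp h1).imp id fun h => by omega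

/-- A function with unit top coefficient does not vanish at a place reducing to `∞`. -/
theorem not_vanish_of_isUnit {n : ℕ} (hn : 0 < n) {x : F} {y : LaurentSeries A}
    (hx : x ∈ poleSpace Pinf n) (hxy : latVal A y = (x : LaurentSeries L))
    (hu : IsUnit (y.coeff (-(n : ℤ)))) {P : Place L F} (hP : r P = Qinf) :
    ¬ (x = 0 ∨ 0 < P.ord x) := by
  rintro (h0 | hpos)
  · have h := (H.ord_eq_of_isUnit hx hxy hu).1
    rw [h0, Place.ord_zero] at h
    omega
  · exact H.map_ne_of_ord_pos hx hxy hu hpos hP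

theorem value_not_mem {n : ℕ} (hn : 0 < n) {u : F} {yu : LaurentSeries A}
    (hu : u ∈ poleSpace Pinf n) (huy : latVal A yu = (u : LaurentSeries L))
    (huu : IsUnit (yu.coeff (-(n : ℤ)))) {P : Place L F} (hP : r P = Qinf) {a : L}
    (ha : u - algebraMap L F a = 0 ∨ 0 < P.ord (u - algebraMap L F a)) : a ∉ A := by
  intro haA
  refine H.not_vanish_of_isUnit hn (y := yu - single (0 : ℤ) (⟨a, haA⟩ : A))
    (algebraMap_mem_poleSpace_sub hu a) ?_ ?_ hP ha
  · rw [map_sub, latVal_single_zero_eq_algebraMap, huy, AddSubgroupClass.coe_sub,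
      coe_algebraMap_field]
  · rw [coeff_sub, coeff_single_of_ne (by omega), sub_zero]
    exact huu

theorem value_div_not_mem {n : ℕ} {u v : F} {yu yv : LaurentSeries A}
    (hu : u ∈ poleSpace Pinf n) (huy : latVal A yu = (u : LaurentSeries L))
    (hv : v ∈ poleSpace Pinf (n + 1)) (hvy : latVal A yv = (v : LaurentSeries L))
    (hvu : IsUnit (yv.coeff (-((n + 1 : ℕ) : ℤ)))) {P : Place L F} (hP : r P = Qinf) {a b : L}
    (ha0 : a ≠ 0) (ha : u - algebraMap L F a = 0 ∨ 0 < P.ord (u - algebraMap L F a))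
    (hb : v - algebraMap L F b = 0 ∨ 0 < P.ord (v - algebraMap L F b)) : b / a ∉ A := by
  intro hc
  have hcoeff0 : yu.coeff (-((n + 1 : ℕ) : ℤ)) = 0 := by
    have := coeff_eq_zero_of_mem_poleSpace H.orderL hu
      (i := -((n + 1 : ℕ) : ℤ)) (by push_cast; omega)
    rw [← huy, latVal_coeff] at this
    exact_mod_cast this
  refine H.not_vanish_of_isUnit (Nat.succ_pos n)
    (y := yv + single (0 : ℤ) (-(⟨b / a, hc⟩ : A)) * yu)
    (add_mem (Submodule.smul_mem _ (-(b / a)) (poleSpace_mono (Nat.le_succ n) hu))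
      (Submodule.smul_mem _ (1 : L) hv)) ?_ ?_ hP
    (comb_eq_zero_or_ord_pos ha hb (by field_simp; ring))
  · rw [map_add, latVal_single_mul huy, hvy, one_smul, AddMemClass.coe_add, add_comm]
    rfl
  · rw [coeff_add, HahnSeries.coeff_single_mul, sub_zero, hcoeff0, mul_zero, add_zero]
    exact hvu

theorem exists_disc_function {P : Place L F} (hP : r P = Qinf) (hPinf : P ≠ Pinf) :
    ∃ (Z : Divisor L F) (e : ℤ), IsOutEff r Qinf Z ∧
      Finsupp.single P (1 : ℤ) + Z + Finsupp.single Pinf e ∈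
        Divisor.principal (K := L) (F := F) := by
  obtain ⟨u, yu, hu, huy, huu⟩ := H.exists_top_lift (n₀ + 1) (by omega)
  obtain ⟨v, yv, hv, hvy, hvu⟩ := H.exists_top_lift (n₀ + 1 + 1) (by omega)
  obtain ⟨a, ha⟩ := exists_value (H.deg_one P) (ord_nonneg_of_mem_poleSpace hu hPinf)
  obtain ⟨b, hb⟩ := exists_value (H.deg_one P) (ord_nonneg_of_mem_poleSpace hv hPinf)
  have haA : a ∉ A := H.value_not_mem (Nat.succ_pos _) hu huy huu hP ha
  have ha0 : a ≠ 0 := fun h => haA (h ▸ A.zero_mem)
  have hbaA : b / a ∉ A := H.value_div_not_mem hu huy hv hvy hvu hP ha0 ha hb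
  have hb0 : b ≠ 0 := fun h => hbaA (by rw [h, zero_div]; exact A.zero_mem)
  have habA : a / b ∈ A := by
    have := (A.mem_or_inv_mem (b / a)).resolve_left hbaA
    rwa [inv_div] at this
  have hm : π (-(⟨a / b, habA⟩ : A)) = 0 := by
    rw [map_neg, neg_eq_zero]
    rw [map_eq_zero_iff_mem_maximalIdeal H.surj, IsLocalRing.mem_maximalIdeal, mem_nonunits_iff]
    intro hu1
    obtain ⟨e, he⟩ := hu1.exists_right_inv
    have he' : a / b * (e : L) = 1 := congrArg Subtype.val he
    exact hbaA (by
      rw [show b / a = (e : L) from by field_simp at he' ⊢; linear_combination -he']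
      exact e.2)
  obtain ⟨w, hw⟩ : ∃ w : F, w = (1 : L) • u + (-(a / b)) • v := ⟨_, rfl⟩
  set z : LaurentSeries A := yu + single (0 : ℤ) (-(⟨a / b, habA⟩ : A)) * yv with hz
  have hwm : w ∈ poleSpace Pinf (n₀ + 1 + 1) := hw ▸
    add_mem (Submodule.smul_mem _ _ (poleSpace_mono (Nat.le_succ _) hu))
      (Submodule.smul_mem _ _ hv)
  have hzw : latVal A z = (w : LaurentSeries L) := by
    rw [hz, hw, map_add, latVal_single_mul hvy, huy, one_smul, AddMemClass.coe_add]
    rfl
  have hred : latRed π z = latRed π yu := by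
    rw [hz, map_add, map_mul, latRed_single, hm, map_zero, zero_mul, add_zero]
  obtain ⟨-, hu0, hordK⟩ := H.ord_eq_of_isUnit hu huy huu
  have hz0 : latRed π z ≠ 0 := hred ▸ hu0
  have hcoeff0 : yu.coeff (-((n₀ + 1 + 1 : ℕ) : ℤ)) = 0 := by
    have := coeff_eq_zero_of_mem_poleSpace H.orderL hu
      (i := -((n₀ + 1 + 1 : ℕ) : ℤ)) (by push_cast; omega)
    rw [← huy, latVal_coeff] at this
    exact_mod_cast this
  have hordw : Pinf.ord w = -((n₀ + 1 + 1 : ℕ) : ℤ) := by
    rw [H.orderL w, ← hzw]
    refine order_eq_of_coeff (fun i hi => ?_) ?_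
    · rw [hzw]
      exact coeff_eq_zero_of_mem_poleSpace H.orderL hwm hi
    · rw [latVal_coeff, hz, coeff_add, HahnSeries.coeff_single_mul, sub_zero, hcoeff0, zero_add]
      intro h0
      have h1 : -(a / b) * (yv.coeff (-((n₀ + 1 + 1 : ℕ) : ℤ)) : L) = 0 := h0
      exact mul_ne_zero (neg_ne_zero.mpr (div_ne_zero ha0 hb0))
        (by simpa using hvu.ne_zero) h1
  set E := divOf w + Finsupp.single Pinf ((n₀ + 1 + 1 : ℕ) : ℤ) with hE
  have hE0 : (0 : Divisor L F) ≤ E := divOf_add_single_nonneg hwm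
  have hEinf : Finsupp.mapDomain r E Qinf = 1 := by
    rw [hE, Finsupp.mapDomain_add, Finsupp.mapDomain_single, Finsupp.add_apply, H.map_inf,
      Finsupp.single_eq_same, H.ord_red hwm hzw hz0, H.orderK]
    simp only [hred, hordK]
    omega
  have hw0 : w ≠ 0 := fun h => by
    rw [h, Place.ord_zero] at hordw
    omega
  have hwP : 0 < P.ord w := by
    refine Or.resolve_left ?_ hw0
    rw [hw]
    exact comb_eq_zero_or_ord_pos ha hb (by field_simp; ring)
  have hEP : E P = 1 := by
    have h1 : 1 ≤ E P := by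
      rw [hE, Finsupp.add_apply, divOf_apply, Finsupp.single_eq_of_ne hPinf, add_zero]
      exact hwP
    have h2 := le_mapDomain_apply r hE0 P
    rw [hP, hEinf] at h2
    omega
  refine ⟨E.erase P, -((n₀ + 1 + 1 : ℕ) : ℤ), ⟨erase_nonneg hE0 P, fun Q hQ => ?_⟩, ?_⟩
  · rcases eq_or_ne Q P with rfl | hQP
    · exact absurd Finsupp.erase_same hQ
    rw [Finsupp.erase_ne hQP] at hQ
    intro hrQ
    have h2 := add_le_mapDomain_apply r hE0 (Ne.symm hQP) (hP.trans hrQ.symm)
    rw [hP, hEinf, hEP] at h2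
    have := hE0 Q
    rw [Finsupp.zero_apply] at this
    omega
  · convert divOf_mem_principal (K := L) hw0 using 1
    have he := Finsupp.single_add_erase P E
    rw [hEP] at he
    rw [he, hE, Finsupp.single_neg]
    abel

theorem isGoodClass_single (P : Place L F) :
    IsGoodClass r Qinf Pinf (Finsupp.single P (1 : ℤ)) ∧
      IsGoodClass r Qinf Pinf (-Finsupp.single P (1 : ℤ)) := by
  by_cases hPinf : P = Pinf
  · subst hPinf
    exact ⟨IsGoodClass.of_outEff 1 isOutEff_zero (zero_add _).symm,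
      IsGoodClass.of_outEff (-1) isOutEff_zero (by simp)⟩
  by_cases hP : r P = Qinf
  · obtain ⟨Z, e, hZ, hp⟩ := H.exists_disc_function hP hPinf
    constructor
    · refine ((H.isGoodClass_neg hZ).add
        (IsGoodClass.of_outEff (-e) isOutEff_zero (zero_add _).symm)).of_principal ?_
      convert hp using 1
      rw [Finsupp.single_neg]
      abel
    · refine (IsGoodClass.of_outEff e hZ rfl).of_principal ?_
      convert neg_mem hp using 1
      abel
  · refine ⟨IsGoodClass.of_outEff (E := Finsupp.single P 1) 0 ⟨fun Q => ?_, fun Q hQ => ?_⟩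
      (by simp), H.isGoodClass_neg_single_of_map_ne hP⟩
    · rw [Finsupp.zero_apply]
      rcases eq_or_ne Q P with rfl | hQP
      · simp
      · simp [Finsupp.single_eq_of_ne hQP]
    · rcases eq_or_ne Q P with rfl | hQP
      · exact hP
      · exact absurd (Finsupp.single_eq_of_ne hQP) hQ

theorem exists_good_rep {D : Divisor L F} (hD : Divisor.degree D = 0) :
    ∃ (E : Divisor L F) (d : ℕ), IsOutEff r Qinf E ∧ Divisor.degree E = d ∧
      D - (E - Finsupp.single Pinf (d : ℤ)) ∈ Divisor.principal (K := L) (F := F) := by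
  have hg : IsGoodClass r Qinf Pinf D := by
    rw [← Finsupp.sum_single D]
    refine IsGoodClass.sum _ _ fun P _ => ?_
    obtain ⟨h1, h2⟩ := H.isGoodClass_single P
    rcases Int.eq_nat_or_neg (D P) with ⟨j, hj | hj⟩
    · convert h1.nsmul j using 1
      simp [hj]
    · convert h2.nsmul j using 1
      simp [hj]
  obtain ⟨E, e, hE, hp⟩ := hg
  obtain ⟨d, hd⟩ := Int.eq_ofNat_of_zero_le (degree_nonneg hE.1)
  have hdeg := degree_eq_zero_of_mem_principal hp
  rw [map_sub, map_add, Divisor.degree_single, H.deg_one, hD, hd] at hdeg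
  refine ⟨E, d, hE, hd, ?_⟩
  convert hp using 1
  have he : e = -(d : ℤ) := by omega
  rw [he, Finsupp.single_neg]
  abel

end LatticeReduction

end FermatLib.Igusa
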