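import Fermat.Agent.Igusa.LatticeFunctions

/-!
Coordinates on the lattices `L(n ∞) ∩ A((q))` and dimension counts.
-/

set_option autoImplicit false

noncomputable section

open AlgebraicCurve IsLocalRing HahnSeries
open FermatLib.Igusa.LatAux

namespace FermatLib.Igusa

theorem laurent_smul_coeff {K : Type*} [Field K] (c : K) (z : LaurentSeries K) (i : ℤ) :
    (c • z).coeff i = c * z.coeff i := by
  rw [laurent_smul_eq, HahnSeries.coeff_single_mul, sub_zero]

theorem coe_smul_coeff {K : Type*} [Field K] (G : IntermediateField K (LaurentSeries K)) (c : K)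
    (x : G) (i : ℤ) :
    ((c • x : G) : LaurentSeries K).coeff i = c * (x : LaurentSeries K).coeff i := by
  rw [Algebra.smul_def, MulMemClass.coe_mul, coe_algebraMap_field,
    ModularCurve.algebraMap_laurentSeries_eq_single, HahnSeries.coeff_single_mul, sub_zero]

/-- The coefficients of `q^i`, `-n ≤ i ≤ 0`, of elements of a subfield of `K((q))`. -/
def windowMap {K : Type*} [Field K] (G : IntermediateField K (LaurentSeries K)) (n : ℕ) :
    G →ₗ[K] (Fin (n + 1) → K) where
  toFun x j := (x : LaurentSeries K).coeff ((j : ℤ) - n)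
  map_add' x y := by ext j; simp
  map_smul' c x := by
    ext j
    show ((c • x : G) : LaurentSeries K).coeff ((j : ℤ) - n) = c * _
    rw [coe_smul_coeff]

theorem windowMap_apply {K : Type*} [Field K] (G : IntermediateField K (LaurentSeries K)) (n : ℕ)
    (x : G) (j : Fin (n + 1)) : windowMap G n x j = (x : LaurentSeries K).coeff ((j : ℤ) - n) :=
  rfl

theorem ord_pos_of_window {K : Type*} [Field K] {G : IntermediateField K (LaurentSeries K)}
    {P : Place K G} (hP : IsOrderPlace G P) {n : ℕ} {x : G} (hx : x ∈ poleSpace P n)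
    (h0 : windowMap G n x = 0) : (∀ Q : Place K G, 0 ≤ Q.ord x) ∧ (x = 0 ∨ 0 < P.ord x) := by
  rcases eq_or_ne x 0 with rfl | hx0
  · simp
  have hpos : 0 < P.ord x := by
    by_contra hle
    have hlow := neg_le_ord_of_mem_poleSpace hx
    obtain ⟨j, hj⟩ : ∃ j : ℕ, P.ord x + n = j := ⟨(P.ord x + n).toNat, by omega⟩
    have hc := congrFun h0 ⟨j, by omega⟩
    rw [windowMap_apply, Pi.zero_apply, show ((j : ℕ) : ℤ) - n = (x : LaurentSeries K).order by
      rw [← hP x]; omega] at hc
    exact hx0 (Subtype.ext (HahnSeries.coeff_order_eq_zero.mp hc))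
  refine ⟨fun Q => ?_, Or.inr hpos⟩
  rcases eq_or_ne Q P with rfl | hQ
  · omega
  · exact ord_nonneg_of_mem_poleSpace hx hQ

/-- A subspace of `L^ι` has a basis of integral vectors with independent reductions. -/
theorem lat_exists_reduced_family {L : Type*} [Field L] {k : Type*} [Field k] {A : ValuationSubring L}
    (π : A →+* k) {ι : Type*} [Fintype ι] (e : ℕ) (W : Submodule L (ι → L))
    (hW : Module.finrank L W = e) :
    ∃ v : Fin e → ι → A, (∀ j, (fun i => (v j i : L)) ∈ W) ∧
      LinearIndependent k (fun j i => π (v j i)) := by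
  induction e generalizing W with
  | zero => exact ⟨Fin.elim0, fun j => j.elim0, linearIndependent_empty_type⟩
  | succ e ih =>
    have hne : W ≠ ⊥ := by
      rintro rfl
      rw [finrank_bot] at hW
      exact Nat.succ_ne_zero e hW.symm
    obtain ⟨w, hw, hw0⟩ := W.exists_mem_ne_zero_of_ne_bot hne
    obtain ⟨i, hi⟩ := Function.ne_iff.mp hw0
    obtain ⟨i₀, -, hmax⟩ := Finset.exists_max_image Finset.univ (fun j => A.valuation (w j))
      ⟨i, Finset.mem_univ i⟩
    have hi0 : w i₀ ≠ 0 := by
      intro h
      have := hmax i (Finset.mem_univ i)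
      rw [h, map_zero, le_zero_iff, map_eq_zero] at this
      exact hi this
    have hint : ∀ j, (w i₀)⁻¹ * w j ∈ A := fun j => by
      rw [← A.valuation_le_one_iff, map_mul, map_inv₀]
      exact (inv_mul_le_one₀ (zero_lt_iff.mpr ((A.valuation.ne_zero_iff).mpr hi0))).mpr
        (hmax j (Finset.mem_univ j))
    set f : W →ₗ[L] L := (LinearMap.proj i₀).comp W.subtype with hf
    have hsurj : LinearMap.range f = ⊤ := by
      rw [LinearMap.range_eq_top]
      intro c
      refine ⟨(c * (w i₀)⁻¹) • ⟨w, hw⟩, ?_⟩
      show c * (w i₀)⁻¹ * w i₀ = c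
      rw [mul_assoc, inv_mul_cancel₀ hi0, mul_one]
    have hker : (LinearMap.ker f).map W.subtype = W ⊓ LinearMap.ker (LinearMap.proj i₀) := by
      rw [hf, LinearMap.ker_comp, Submodule.map_comap_subtype]
    have hrank : Module.finrank L ↥(W ⊓ LinearMap.ker (LinearMap.proj i₀ : (ι → L) →ₗ[L] L)) = e := by
      rw [← hker, Submodule.finrank_map_subtype_eq]
      have := f.finrank_range_add_finrank_ker
      rw [hsurj, finrank_top, Module.finrank_self, hW] at this
      omega
    obtain ⟨v, hv, hli⟩ := ih _ hrank
    refine ⟨Fin.cons (fun j => ⟨(w i₀)⁻¹ * w j, hint j⟩) v, ?_, ?_⟩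
    · intro j
      refine Fin.cases ?_ (fun l => ?_) j
      · simp only [Fin.cons_zero]
        exact W.smul_mem (w i₀)⁻¹ hw
      · simp only [Fin.cons_succ]
        exact (hv l).1
    · have hcons : (fun (j : Fin (e + 1)) i =>
          π ((Fin.cons (fun j => ⟨(w i₀)⁻¹ * w j, hint j⟩) v : Fin (e + 1) → ι → A) j i)) =
          Fin.cons (fun i => π ⟨(w i₀)⁻¹ * w i, hint i⟩) (fun j i => π (v j i)) := by
        funext j
        refine Fin.cases ?_ (fun l => ?_) j <;> simp
      rw [hcons, linearIndependent_finCons]
      refine ⟨hli, fun hmem => ?_⟩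
      have hle : Submodule.span k (Set.range fun j i => π (v j i)) ≤
          LinearMap.ker (LinearMap.proj i₀ : (ι → k) →ₗ[k] k) := by
        rw [Submodule.span_le]
        rintro _ ⟨j, rfl⟩
        have h0 : v j i₀ = 0 := Subtype.ext (hv j).2
        show π (v j i₀) = 0
        rw [h0, map_zero]
      have := hle hmem
      rw [LinearMap.mem_ker, LinearMap.proj_apply] at this
      have hone : (⟨(w i₀)⁻¹ * w i₀, hint i₀⟩ : A) = 1 := Subtype.ext (inv_mul_cancel₀ hi0)
      rw [hone, map_one] at this
      exact one_ne_zero this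

section Codim

open FermatLib.Curve

variable {K F : Type*} [Field K] [Field F] [Algebra K F]

theorem lat_riemannRochSpace_mono {D D' : Divisor K F} (h : D ≤ D') :
    riemannRochSpace D ≤ riemannRochSpace D' := fun x hx => by
  rw [mem_riemannRochSpace_iff] at hx ⊢
  exact fun P => (hx P).imp id fun hP => by have := h P; omega

theorem lat_finrank_le_sub_single {D : Divisor K F} [FiniteDimensional K (riemannRochSpace D)]
    {P : Place K F} (hdeg : P.deg = 1) :
    Module.finrank K (riemannRochSpace D) ≤
      Module.finrank K (riemannRochSpace (D - Finsupp.single P 1)) + 1 := by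
  have hfr : Module.finrank K P.ResidueField = 1 := hdeg
  haveI : FiniteDimensional K P.ResidueField := Module.finite_of_finrank_eq_succ hfr
  set f : riemannRochSpace D →ₗ[K] P.ResidueField :=
    (leadCoeff P (-D P)).comp (Submodule.inclusion fun x hx => mem_riemannRochSpace.mp hx P)
    with hf
  have hle : riemannRochSpace (D - Finsupp.single P 1) ≤ riemannRochSpace D :=
    lat_riemannRochSpace_mono fun Q => by
      classical
      rw [Finsupp.sub_apply, Finsupp.single_apply]
      split_ifs <;> omega
  haveI : FiniteDimensional K (riemannRochSpace (D - Finsupp.single P 1)) :=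
    Submodule.finiteDimensional_of_le hle
  have hker : Module.finrank K (LinearMap.ker f) ≤
      Module.finrank K (riemannRochSpace (D - Finsupp.single P 1)) := by
    let g : LinearMap.ker f →ₗ[K] riemannRochSpace (D - Finsupp.single P 1) :=
      ((riemannRochSpace D).subtype.comp (LinearMap.ker f).subtype).codRestrict _ fun x => by
        rw [mem_riemannRochSpace]
        intro Q
        obtain ⟨⟨x₀, hxD⟩, hxk⟩ := x
        rw [LinearMap.mem_ker, hf, LinearMap.comp_apply, leadCoeff_eq_zero_iff] at hxk
        have hx : x₀ ∈ ordGE P (-D P + 1) := hxk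
        simp only [LinearMap.comp_apply, Submodule.subtype_apply]
        rcases eq_or_ne Q P with rfl | hQ
        · rw [Finsupp.sub_apply, Finsupp.single_eq_same, show -(D Q - 1) = -D Q + 1 by ring]
          exact hx
        · rw [Finsupp.sub_apply, Finsupp.single_eq_of_ne hQ, sub_zero]
          exact mem_riemannRochSpace.mp hxD Q
    refine LinearMap.finrank_le_finrank_of_injective (f := g) fun a b hab => ?_
    have h : ((g a : F)) = ((g b : F)) := by rw [hab]
    exact Subtype.ext (Subtype.ext h)
  have h1 := f.finrank_range_add_finrank_ker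
  have h2 := Submodule.finrank_le (LinearMap.range f)
  omega

theorem lat_finrank_le_sub {E : Divisor K F} (hE : 0 ≤ E) (hdeg : ∀ P : Place K F, P.deg = 1) :
    ∀ (D : Divisor K F) [FiniteDimensional K (riemannRochSpace D)],
      (Module.finrank K (riemannRochSpace D) : ℤ) ≤
        Module.finrank K (riemannRochSpace (D - E)) + Divisor.degree E := by
  obtain ⟨j, hj⟩ := Int.eq_ofNat_of_zero_le (degree_nonneg hE)
  induction j generalizing E with
  | zero =>
    intro D _
    rw [eq_zero_of_nonneg_of_degree_eq_zero hE hdeg (by simpa using hj), map_zero, add_zero,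
      sub_zero]
  | succ j ih =>
    intro D _
    obtain ⟨P, hP⟩ : ∃ P, E P ≠ 0 := by
      by_contra h
      push Not at h
      have h0 : E = 0 := Finsupp.ext h
      rw [h0, map_zero] at hj
      omega
    set E' := E - Finsupp.single P 1 with hE'
    have hE'0 : 0 ≤ E' := fun Q => by
      have := hE Q
      rw [Finsupp.zero_apply] at this ⊢
      rw [hE', Finsupp.sub_apply]
      rcases eq_or_ne Q P with rfl | hQ
      · rw [Finsupp.single_eq_same]; omega
      · rw [Finsupp.single_eq_of_ne hQ]; omega
    have hdE' : Divisor.degree E' = (j : ℤ) := by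
      rw [hE', map_sub, Divisor.degree_single, hdeg, hj]
      push_cast
      ring
    have h1 := ih hE'0 hdE' D
    haveI : FiniteDimensional K (riemannRochSpace (D - E')) :=
      Submodule.finiteDimensional_of_le (lat_riemannRochSpace_mono fun Q => by
        have := hE'0 Q
        rw [Finsupp.zero_apply] at this
        rw [Finsupp.sub_apply]
        omega : riemannRochSpace (D - E') ≤ riemannRochSpace D)
    have h2 := lat_finrank_le_sub_single (D := D - E') (hdeg P)
    have he : D - E' - Finsupp.single P 1 = D - E := by rw [hE']; abel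
    rw [he] at h2
    rw [hdE'] at h1
    omega

end Codim

variable {L : Type*} [Field L] {k : Type*} [Field k] {A : ValuationSubring L} {π : A →+* k}
  {F : IntermediateField L (LaurentSeries L)} {Fk : IntermediateField k (LaurentSeries k)}
  {Pinf : Place L F} {Qinf : Place k Fk} {n₀ : ℕ} {r : Place L F → Place k Fk}

namespace LatticeReduction

variable [HasPrincipalDivisors L F] (H : LatticeReduction π F Fk Pinf Qinf n₀ r)
include H

theorem eq_zero_of_window {n : ℕ} {x : F} (hx : x ∈ poleSpace Pinf n)
    (h0 : windowMap F n x = 0) : x = 0 := by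
  obtain ⟨h1, h2⟩ := ord_pos_of_window H.orderL hx h0
  exact eq_zero_of_ord_nonneg (H.deg_one _) h1 h2

theorem eq_zero_of_window_red {n : ℕ} {h : Fk} (hh : h ∈ poleSpace Qinf n)
    (h0 : windowMap Fk n h = 0) : h = 0 := by
  obtain ⟨h1, h2⟩ := ord_pos_of_window H.orderK hh h0
  exact H.eq_zero_of_ord_nonneg_red h1 h2

theorem finite_poleSpace (n : ℕ) : FiniteDimensional L (poleSpace Pinf n) :=
  FiniteDimensional.of_injective ((windowMap F n).comp (poleSpace Pinf n).subtype)
    ((injective_iff_map_eq_zero _).mpr fun x hx => Subtype.ext (H.eq_zero_of_window x.2 hx))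

theorem finite_poleSpace_red (n : ℕ) : FiniteDimensional k (poleSpace Qinf n) :=
  FiniteDimensional.of_injective ((windowMap Fk n).comp (poleSpace Qinf n).subtype)
    ((injective_iff_map_eq_zero _).mpr fun x hx => Subtype.ext (H.eq_zero_of_window_red x.2 hx))

theorem integral_of_window {n : ℕ} {x : F} (hx : x ∈ poleSpace Pinf n)
    (hw : ∀ j, windowMap F n x j ∈ A) :
    ∃ y : LaurentSeries A, latVal A y = (x : LaurentSeries L) := by
  rcases eq_or_ne x 0 with rfl | hx0
  · exact ⟨0, by rw [map_zero]; rfl⟩
  obtain ⟨c, y, hy, hy0, hyF⟩ := H.bounded n x hx hx0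
  refine exists_latVal_eq fun i => ?_
  have hc0 : c ≠ 0 := by
    rintro rfl
    rw [zero_smul] at hy
    exact hy0 (by rw [latVal_injective (hy.trans (map_zero _).symm), map_zero])
  have hcx : latVal A y = ((c • x : F) : LaurentSeries L) := by
    rw [hy]
    ext l
    rw [coe_smul_coeff]
    simp
  have hwin : ∃ j, windowMap Fk n ⟨latRed π y, hyF⟩ j ≠ 0 := by
    by_contra h
    push Not at h
    have hmem : (⟨latRed π y, hyF⟩ : Fk) ∈ poleSpace Qinf n :=
      H.red_mem_poleSpace (Submodule.smul_mem _ c hx) hcx
    exact hy0 (congrArg Subtype.val (H.eq_zero_of_window_red hmem (funext h)))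
  obtain ⟨j, hj⟩ := hwin
  rw [windowMap_apply, latRed_coeff] at hj
  obtain ⟨u, hu⟩ : IsUnit (y.coeff ((j : ℤ) - n)) := by
    by_contra h
    exact hj ((map_eq_zero_iff_mem_maximalIdeal H.surj _).mpr h)
  have hcw : c * windowMap F n x j = ((u : A) : L) := by
    rw [windowMap_apply, ← coe_smul_coeff, ← hcx, latVal_coeff, hu]
  have hci : c⁻¹ ∈ A := by
    have he : c⁻¹ = windowMap F n x j * ((↑u⁻¹ : A) : L) := by
      have h1 : ((u : A) : L) * ((↑u⁻¹ : A) : L) = 1 := by
        rw [← MulMemClass.coe_mul, Units.mul_inv]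
        rfl
      rw [← hcw] at h1
      field_simp
      linear_combination -h1
    rw [he]
    exact A.mul_mem _ _ (hw j) (Subtype.mem _)
  have hi : (x : LaurentSeries L).coeff i = c⁻¹ * (y.coeff i : L) := by
    rw [← latVal_coeff, hcx, coe_smul_coeff, ← mul_assoc, inv_mul_cancel₀ hc0, one_mul]
  rw [hi]
  exact A.mul_mem _ _ hci (Subtype.mem _)

theorem finrank_red_le (n : ℕ) (hn : n₀ ≤ n) :
    Module.finrank k (poleSpace Qinf n) ≤ Module.finrank L (poleSpace Pinf n) := by
  haveI := H.finite_poleSpace n
  haveI := H.finite_poleSpace_red n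
  haveI : Module.Free k (poleSpace Qinf n) := Module.Free.of_divisionRing k _
  let b := Module.finBasis k (poleSpace Qinf n)
  choose x y hx hxy hy using fun j => H.lift n hn (b j : Fk) (b j).2
  have hli : LinearIndependent L fun j => (⟨x j, hx j⟩ : poleSpace Pinf n) := by
    rw [Fintype.linearIndependent_iff]
    intro c hc
    by_contra hne
    push Not at hne
    obtain ⟨i, hi⟩ := hne
    obtain ⟨i₀, -, hmax⟩ := Finset.exists_max_image Finset.univ (fun j => A.valuation (c j))
      ⟨i, Finset.mem_univ i⟩
    have hi0 : c i₀ ≠ 0 := by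
      intro h
      have := hmax i (Finset.mem_univ i)
      rw [h, map_zero, le_zero_iff, map_eq_zero] at this
      exact hi this
    have hint : ∀ j, (c i₀)⁻¹ * c j ∈ A := fun j => by
      rw [← A.valuation_le_one_iff, map_mul, map_inv₀]
      exact (inv_mul_le_one₀ (zero_lt_iff.mpr ((A.valuation.ne_zero_iff).mpr hi0))).mpr
        (hmax j (Finset.mem_univ j))
    have hsum : ∑ j, single (0 : ℤ) (⟨(c i₀)⁻¹ * c j, hint j⟩ : A) * y j = 0 := by
      refine latVal_injective ?_
      ext l
      have hc' := congrArg ((poleSpace Pinf n).subtype) hc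
      rw [map_sum, map_zero] at hc'
      simp only [map_smul, Submodule.subtype_apply] at hc'
      have h := congrArg (fun z : F => (z : LaurentSeries L).coeff l) hc'
      rw [AddSubmonoidClass.coe_finsetSum, HahnSeries.coeff_sum] at h
      simp_rw [coe_smul_coeff] at h
      simp only [ZeroMemClass.coe_zero, coeff_zero] at h
      simp only [map_sum, map_mul, map_zero, latVal_single, hxy, HahnSeries.coeff_sum,
        HahnSeries.coeff_single_mul, sub_zero, coeff_zero]
      simp only [mul_assoc]
      rw [← Finset.mul_sum, h, mul_zero]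
    have hred : ∑ j, π ⟨(c i₀)⁻¹ * c j, hint j⟩ • b j = 0 := by
      refine Subtype.ext (Subtype.ext ?_)
      have h := congrArg (latRed π) hsum
      simp only [map_sum, map_mul, latRed_single, hy, map_zero] at h
      simp only [AddSubmonoidClass.coe_finsetSum, SetLike.val_smul, ZeroMemClass.coe_zero]
      refine (Finset.sum_congr rfl fun j _ => ?_).trans h
      rw [← ModularCurve.algebraMap_laurentSeries_eq_single, Algebra.smul_def]
    have := Fintype.linearIndependent_iff.mp b.linearIndependent _ hred i₀
    rw [show (⟨(c i₀)⁻¹ * c i₀, hint i₀⟩ : A) = 1 from Subtype.ext (inv_mul_cancel₀ hi0),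
      map_one] at this
    exact one_ne_zero this
  simpa using hli.fintype_card_le_finrank

omit [HasPrincipalDivisors L F] in
theorem poleSpace_lt_succ {n : ℕ} (hn : n₀ ≤ n + 1) :
    poleSpace Pinf n < poleSpace Pinf (n + 1) := by
  refine lt_of_le_of_ne (poleSpace_mono (Nat.le_succ n)) fun he => ?_
  obtain ⟨x, y, hx, hxy, hu⟩ := H.exists_top_lift (n + 1) hn
  have h1 : x ∈ poleSpace Pinf n := he ▸ hx
  have := neg_le_ord_of_mem_poleSpace h1
  rw [(H.ord_eq_of_isUnit hx hxy hu).1] at this
  omega

theorem finrank_add_le (n : ℕ) (hn : n₀ ≤ n) (d : ℕ) :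
    Module.finrank L (poleSpace Pinf n) + d ≤ Module.finrank L (poleSpace Pinf (n + d)) := by
  induction d with
  | zero => simp
  | succ d ih =>
    haveI := H.finite_poleSpace (n + d + 1)
    have := Submodule.finrank_lt_finrank_of_lt (H.poleSpace_lt_succ (n := n + d) (by omega))
    rw [← add_assoc n d 1]
    omega

/-- Integral elements of a subspace of `L(n ∞)` with independent reductions. -/
theorem exists_integral_family {n : ℕ} {V : Submodule L F} (hV : V ≤ poleSpace Pinf n) :
    ∃ (x : Fin (Module.finrank L V) → F) (y : Fin (Module.finrank L V) → LaurentSeries A)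
      (h : Fin (Module.finrank L V) → Fk), (∀ j, x j ∈ V) ∧
        (∀ j, latVal A (y j) = (x j : LaurentSeries L)) ∧
        (∀ j, latRed π (y j) = (h j : LaurentSeries k)) ∧ LinearIndependent k h := by
  set f : V →ₗ[L] (Fin (n + 1) → L) := (windowMap F n).comp V.subtype with hf
  have hinj : Function.Injective f :=
    (injective_iff_map_eq_zero _).mpr fun x hx => Subtype.ext (H.eq_zero_of_window (hV x.2) hx)
  obtain ⟨v, hv, hli⟩ := lat_exists_reduced_family π (Module.finrank L V) (LinearMap.range f)
    (LinearMap.finrank_range_of_inj hinj)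
  choose x hx using hv
  have hint : ∀ j, ∃ y : LaurentSeries A, latVal A y = ((x j : F) : LaurentSeries L) := fun j =>
    H.integral_of_window (hV (x j).2) fun i => by
      have := congrFun (hx j) i
      rw [show windowMap F n (x j : F) i = (v j i : L) from this]
      exact Subtype.mem _
  choose y hy using hint
  refine ⟨fun j => x j, y, fun j => ⟨latRed π (y j), H.red_mem (hV (x j).2) (hy j)⟩,
    fun j => (x j).2, hy, fun j => rfl, ?_⟩
  refine LinearIndependent.of_comp (windowMap Fk n) ?_
  convert hli using 1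
  funext j i
  show π ((y j).coeff ((i : ℤ) - n)) = π (v j i)
  congr 1
  refine Subtype.ext ?_
  rw [← latVal_coeff, hy, ← windowMap_apply F n]
  exact congrFun (hx j) i

/-- Lifting a function with prescribed divisor `r(E) - d ∞` to a lattice element of
`L(n ∞ - E)`. -/
theorem exists_lift_vanishing {E : Divisor L F} (hE : 0 ≤ E) {d : ℕ}
    (hd : Divisor.degree E = d) {G : Fk} (hG0 : G ≠ 0)
    (hG : ∀ Q, Q.ord G = Finsupp.mapDomain r (E - Finsupp.single Pinf (d : ℤ)) Q)
    {n : ℕ} (hn : n₀ + d ≤ n) :
    ∃ (x : F) (y : LaurentSeries A),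
      x ∈ riemannRochSpace (Finsupp.single Pinf (n : ℤ) - E) ∧
      latVal A y = (x : LaurentSeries L) ∧ latRed π y = (G : LaurentSeries k) := by
  obtain ⟨m, rfl⟩ : ∃ m, n = m + d := ⟨n - d, by omega⟩
  set V := riemannRochSpace (Finsupp.single Pinf ((m + d : ℕ) : ℤ) - E) with hVdef
  have hV : V ≤ poleSpace Pinf (m + d) := lat_riemannRochSpace_mono fun P => by
    have := hE P
    rw [Finsupp.zero_apply] at this
    rw [Finsupp.sub_apply]
    omega
  obtain ⟨x, y, h, hxV, hxy, hh, hli⟩ := H.exists_integral_family hV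
  haveI := H.finite_poleSpace (m + d)
  haveI := H.finite_poleSpace_red m
  have hmem : ∀ j, h j / G ∈ poleSpace Qinf m := fun j => by
    rcases eq_or_ne (h j) 0 with h0 | h0
    · rw [h0, zero_div]; exact zero_mem _
    have hord : ∀ Q : Place k Fk,
        Finsupp.mapDomain r (E - Finsupp.single Pinf ((m + d : ℕ) : ℤ)) Q ≤ Q.ord (h j) := by
      intro Q
      have hne : latRed π (y j) ≠ 0 := fun e => h0 (Subtype.ext ((hh j).symm.trans e))
      have he : (⟨latRed π (y j), H.red_mem (hV (hxV j)) (hxy j)⟩ : Fk) = h j := Subtype.ext (hh j)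
      rw [← he, ← H.ord_red (hV (hxV j)) (hxy j) hne Q]
      refine mapDomain_apply_mono r (fun P => ?_) Q
      rw [divOf_apply, Finsupp.sub_apply]
      rcases mem_riemannRochSpace_iff.mp (hxV j) P with hz | hz
      · exact absurd (Subtype.ext ((hh j).symm.trans (by
          rw [(latVal_eq_zero_iff (hxy j)).mp hz, map_zero]; rfl))) h0
      · rw [Finsupp.sub_apply] at hz
        omega
    refine mem_poleSpace_iff.mpr (Or.inr ⟨?_, fun Q hQ => ?_⟩)
    · rw [FermatLib.Curve.ord_div Qinf h0 hG0, hG]
      have := hord Qinf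
      simp only [Finsupp.mapDomain_sub, Finsupp.mapDomain_single, Finsupp.sub_apply, H.map_inf,
        Finsupp.single_eq_same] at this ⊢
      push_cast at this
      omega
    · rw [FermatLib.Curve.ord_div Q h0 hG0, hG]
      have := hord Q
      simp only [Finsupp.mapDomain_sub, Finsupp.mapDomain_single, Finsupp.sub_apply, H.map_inf,
        Finsupp.single_eq_of_ne hQ] at this ⊢
      omega
  have hli' : LinearIndependent k (fun j => (⟨h j / G, hmem j⟩ : poleSpace Qinf m)) := by
    refine LinearIndependent.of_comp (poleSpace Qinf m).subtype ?_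
    have := hli.map' (LinearMap.mulRight k G⁻¹)
      (LinearMap.ker_eq_bot.mpr (mul_left_injective₀ (inv_ne_zero hG0)))
    rw [show ((poleSpace Qinf m).subtype ∘ fun j => (⟨h j / G, hmem j⟩ : poleSpace Qinf m)) =
        (LinearMap.mulRight k G⁻¹ ∘ h) from funext fun j => div_eq_mul_inv (h j) G]
    exact this
  have hcard : Module.finrank L V = Module.finrank k (poleSpace Qinf m) := by
    refine le_antisymm (by simpa using hli'.fintype_card_le_finrank) ?_
    have h1 := H.finrank_red_le m (by omega)
    have h2 := H.finrank_add_le m (by omega) d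
    haveI : FiniteDimensional L (riemannRochSpace (Finsupp.single Pinf ((m + d : ℕ) : ℤ))) :=
      H.finite_poleSpace (m + d)
    have h3 : (Module.finrank L (poleSpace Pinf (m + d)) : ℤ) ≤
        Module.finrank L V + Divisor.degree E :=
      lat_finrank_le_sub hE H.deg_one (Finsupp.single Pinf ((m + d : ℕ) : ℤ))
    omega
  have hspan := hli'.span_eq_top_of_card_eq_finrank' (by simpa using hcard)
  have hone : (⟨1, (mem_poleSpace_iff (P₀ := Qinf) (n := m)).mpr
      (Or.inr ⟨by simp, fun P _ => by simp⟩)⟩ : poleSpace Qinf m) ∈ Submodule.span k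
      (Set.range fun j => (⟨h j / G, hmem j⟩ : poleSpace Qinf m)) := by
    rw [hspan]; trivial
  obtain ⟨a, ha⟩ := (Submodule.mem_span_range_iff_exists_fun k).mp hone
  choose b hb using fun j => H.surj (a j)
  refine ⟨∑ j, (b j : L) • x j, ∑ j, single (0 : ℤ) (b j) * y j,
    Submodule.sum_mem _ fun j _ => Submodule.smul_mem _ _ (hxV j), ?_, ?_⟩
  · rw [map_sum, AddSubmonoidClass.coe_finsetSum]
    refine Finset.sum_congr rfl fun j _ => ?_
    exact latVal_single_mul (hxy j)
  · have ha' := congrArg (fun z : poleSpace Qinf m => (z : Fk) * G) ha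
    simp only [AddSubmonoidClass.coe_finsetSum, SetLike.val_smul, one_mul, Finset.sum_mul,
      smul_mul_assoc, div_mul_cancel₀ _ hG0] at ha'
    rw [← ha', AddSubmonoidClass.coe_finsetSum, map_sum]
    refine Finset.sum_congr rfl fun j _ => ?_
    rw [map_mul, latRed_single, hb, hh, Algebra.smul_def, MulMemClass.coe_mul,
      ← ModularCurve.algebraMap_laurentSeries_eq_single]
    rfl

end LatticeReduction

end FermatLib.Igusa
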