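import Fermat.Agent.Igusa.DivisorBasics

/-!
Functions in the lattices `L(n ∞) ∩ A((q))`: their reductions and the reduction of their divisors.
-/

set_option autoImplicit false

noncomputable section

open AlgebraicCurve IsLocalRing HahnSeries
open FermatLib.Igusa.LatAux

namespace FermatLib.Igusa

theorem order_eq_of_coeff {R : Type*} [Zero R] {x : HahnSeries ℤ R} {n : ℤ}
    (hlt : ∀ i < n, x.coeff i = 0) (hn : x.coeff n ≠ 0) : x.order = n := by
  have hx : x ≠ 0 := fun h => hn (by rw [h]; rfl)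
  refine le_antisymm (HahnSeries.order_le_of_coeff_ne_zero hn) ?_
  by_contra h
  exact hx (HahnSeries.coeff_order_eq_zero.mp (hlt _ (not_le.mp h)))

variable {L : Type*} [Field L] {k : Type*} [Field k] {A : ValuationSubring L} {π : A →+* k}
  {F : IntermediateField L (LaurentSeries L)} {Fk : IntermediateField k (LaurentSeries k)}
  {Pinf : Place L F} {Qinf : Place k Fk} {n₀ : ℕ} {r : Place L F → Place k Fk}

theorem latVal_single_zero_eq_algebraMap (a : A) :
    latVal A (single (0 : ℤ) a) = algebraMap L (LaurentSeries L) (a : L) := by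
  rw [latVal_single, ModularCurve.algebraMap_laurentSeries_eq_single]

theorem coe_algebraMap_field {K : Type*} [Field K] (G : IntermediateField K (LaurentSeries K))
    (a : K) : ((algebraMap K G a : G) : LaurentSeries K) = algebraMap K (LaurentSeries K) a :=
  rfl

theorem latVal_eq_zero_iff {y : LaurentSeries A} {x : F} (hxy : latVal A y = (x : LaurentSeries L)) :
    x = 0 ↔ y = 0 := by
  constructor
  · rintro rfl
    exact latVal_injective (by rw [hxy, map_zero]; rfl)
  · rintro rfl
    exact Subtype.ext (by rw [← hxy, map_zero]; rfl)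

theorem coeff_eq_zero_of_mem_poleSpace (hP : IsOrderPlace F Pinf) {n : ℕ} {x : F}
    (hx : x ∈ poleSpace Pinf n) {i : ℤ} (hi : i < -(n : ℤ)) :
    (x : LaurentSeries L).coeff i = 0 := by
  refine HahnSeries.coeff_eq_zero_of_lt_order ?_
  have := neg_le_ord_of_mem_poleSpace hx
  rw [← hP x]
  omega

theorem mem_poleSpace_pred (hP : IsOrderPlace F Pinf) {n : ℕ} {x : F}
    (hx : x ∈ poleSpace Pinf (n + 1))
    (h0 : (x : LaurentSeries L).coeff (-((n + 1 : ℕ) : ℤ)) = 0) : x ∈ poleSpace Pinf n := by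
  rcases eq_or_ne x 0 with rfl | hx0
  · exact zero_mem _
  refine mem_poleSpace_iff.mpr (Or.inr ⟨?_, fun P hPne => ord_nonneg_of_mem_poleSpace hx hPne⟩)
  have h1 := neg_le_ord_of_mem_poleSpace hx
  have hne : Pinf.ord x ≠ -((n + 1 : ℕ) : ℤ) := by
    intro he
    rw [hP x] at he
    have hx0' : (x : LaurentSeries L) ≠ 0 := fun h => hx0 (Subtype.ext h)
    rw [← he] at h0
    exact hx0' (HahnSeries.coeff_order_eq_zero.mp h0)
  push_cast at h1 hne ⊢
  omega

theorem algebraMap_mem_poleSpace_sub {n : ℕ} {x : F} (hx : x ∈ poleSpace Pinf n) (a : L) :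
    x - algebraMap L F a ∈ poleSpace Pinf n :=
  sub_mem hx (algebraMap_mem_poleSpace a)

theorem latVal_single_mul {x : F} {y : LaurentSeries A}
    (hxy : latVal A y = (x : LaurentSeries L)) {a : A} :
    latVal A (single (0 : ℤ) a * y) = (((a : L) • x : F) : LaurentSeries L) := by
  rw [map_mul, latVal_single_zero_eq_algebraMap, hxy, Algebra.smul_def, MulMemClass.coe_mul]
  rfl

namespace SmoothLattice

variable (H : SmoothLattice π F Fk Pinf Qinf n₀)
include H

theorem red_mem {n : ℕ} {x : F} {y : LaurentSeries A} (hx : x ∈ poleSpace Pinf n)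
    (hxy : latVal A y = (x : LaurentSeries L)) : latRed π y ∈ Fk := by
  rcases eq_or_ne x 0 with hx0 | hx0
  · rw [(latVal_eq_zero_iff hxy).mp hx0, map_zero]
    exact zero_mem _
  obtain ⟨c, y', hy', hy'0, hy'F⟩ := H.bounded n x hx hx0
  rw [← hxy] at hy'
  by_cases hc : c ∈ A
  · have he : y' = single (0 : ℤ) (⟨c, hc⟩ : A) * y :=
      latVal_injective (by rw [hy', ← smul_latVal])
    rw [he, map_mul, latRed_single] at hy'0 hy'F
    have hc0 : π ⟨c, hc⟩ ≠ 0 := fun h => by simp [h] at hy'0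
    have h1 : single (0 : ℤ) ((π ⟨c, hc⟩)⁻¹) ∈ Fk := by
      rw [← ModularCurve.algebraMap_laurentSeries_eq_single]
      exact Fk.algebraMap_mem _
    have := mul_mem h1 hy'F
    rwa [← mul_assoc, single_mul_single, inv_mul_cancel₀ hc0, add_zero, single_zero_one,
      one_mul] at this
  · have hc0 : c ≠ 0 := fun h => hc (h ▸ A.zero_mem)
    have hci : c⁻¹ ∈ A := (A.mem_or_inv_mem c).resolve_left hc
    have hm : π ⟨c⁻¹, hci⟩ = 0 := by
      rw [map_eq_zero_iff_mem_maximalIdeal H.surj, IsLocalRing.mem_maximalIdeal, mem_nonunits_iff]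
      intro hu
      obtain ⟨b, hb⟩ := hu.exists_right_inv
      have hb' : c⁻¹ * (b : L) = 1 := congrArg Subtype.val hb
      exact hc (by
        rw [show c = (b : L) from by field_simp at hb'; exact hb'.symm]
        exact b.2)
    have he : y = single (0 : ℤ) (⟨c⁻¹, hci⟩ : A) * y' :=
      latVal_injective (by
        rw [← smul_latVal, hy', ← mul_smul, inv_mul_cancel₀ hc0, one_smul])
    rw [he, map_mul, latRed_single, hm, map_zero, zero_mul]
    exact zero_mem _

end SmoothLattice

namespace LatticeReduction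

variable [HasPrincipalDivisors L F] (H : LatticeReduction π F Fk Pinf Qinf n₀ r)
include H

theorem ord_red {n : ℕ} {x : F} {y : LaurentSeries A} (hx : x ∈ poleSpace Pinf n)
    (hxy : latVal A y = (x : LaurentSeries L)) (h0 : latRed π y ≠ 0) (Q : Place k Fk) :
    Finsupp.mapDomain r (divOf x) Q = Q.ord (⟨latRed π y, H.red_mem hx hxy⟩ : Fk) := by
  refine H.map_div y (hxy ▸ x.2) (H.red_mem hx hxy) h0 _ (fun P => ?_) Q
  rw [divOf_apply]
  congr 1
  exact Subtype.ext hxy.symm

omit [HasPrincipalDivisors L F] in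
theorem exists_top_lift (n : ℕ) (hn : n₀ ≤ n) :
    ∃ (x : F) (y : LaurentSeries A), x ∈ poleSpace Pinf n ∧ latVal A y = (x : LaurentSeries L) ∧
      IsUnit (y.coeff (-(n : ℤ))) := by
  obtain ⟨h, hh, hc⟩ := H.top n hn
  obtain ⟨x, y, hx, hxy, hy⟩ := H.lift n hn h hh
  refine ⟨x, y, hx, hxy, ?_⟩
  rw [← hy, latRed_coeff, ne_eq, map_eq_zero_iff_mem_maximalIdeal H.surj] at hc
  simpa [IsLocalRing.mem_maximalIdeal, mem_nonunits_iff] using hc

omit [HasPrincipalDivisors L F] in
theorem ord_eq_of_isUnit {n : ℕ} {x : F} {y : LaurentSeries A} (hx : x ∈ poleSpace Pinf n)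
    (hxy : latVal A y = (x : LaurentSeries L)) (hu : IsUnit (y.coeff (-(n : ℤ)))) :
    Pinf.ord x = -(n : ℤ) ∧ latRed π y ≠ 0 ∧ (latRed π y).order = -(n : ℤ) := by
  have hlt : ∀ i < -(n : ℤ), y.coeff i = 0 := fun i hi => by
    have := coeff_eq_zero_of_mem_poleSpace H.orderL hx hi
    rw [← hxy, latVal_coeff] at this
    exact_mod_cast this
  have hne : π (y.coeff (-(n : ℤ))) ≠ 0 := (hu.map π).ne_zero
  refine ⟨?_, fun h => hne (by rw [← latRed_coeff, h]; rfl), ?_⟩
  · rw [H.orderL x, ← hxy]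
    exact order_eq_of_coeff (fun i hi => by simp [hlt i hi]) (by simpa using hu.ne_zero)
  · exact order_eq_of_coeff (fun i hi => by simp [hlt i hi]) (by simpa using hne)

theorem red_nonneg {n : ℕ} {x : F} {y : LaurentSeries A} (hx : x ∈ poleSpace Pinf n)
    (hxy : latVal A y = (x : LaurentSeries L)) (h0 : latRed π y ≠ 0) (Q : Place k Fk) :
    0 ≤ Q.ord (⟨latRed π y, H.red_mem hx hxy⟩ : Fk) +
      Finsupp.single (r Pinf) (n : ℤ) Q := by
  rw [← H.ord_red hx hxy h0 Q, ← Finsupp.mapDomain_single, ← Finsupp.add_apply,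
    ← Finsupp.mapDomain_add]
  exact mapDomain_apply_nonneg r (divOf_add_single_nonneg hx) Q

theorem map_inf : r Pinf = Qinf := by
  obtain ⟨x, y, hx, hxy, hu⟩ := H.exists_top_lift (n₀ + 1) (by omega)
  obtain ⟨-, h0, hord⟩ := H.ord_eq_of_isUnit hx hxy hu
  by_contra hne
  have := H.red_nonneg hx hxy h0 Qinf
  rw [H.orderK, Finsupp.single_eq_of_ne (Ne.symm hne)] at this
  simp only [hord] at this
  omega

theorem deg_Qinf : Qinf.deg = 1 := by
  rw [← H.map_inf, H.map_deg, H.deg_one]

theorem red_mem_poleSpace {n : ℕ} {x : F} {y : LaurentSeries A} (hx : x ∈ poleSpace Pinf n)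
    (hxy : latVal A y = (x : LaurentSeries L)) :
    (⟨latRed π y, H.red_mem hx hxy⟩ : Fk) ∈ poleSpace Qinf n := by
  rw [mem_poleSpace_iff]
  by_cases h0 : latRed π y = 0
  · exact Or.inl (Subtype.ext h0)
  have hr := H.map_inf
  refine Or.inr ⟨?_, fun Q hQ => ?_⟩
  · have := H.red_nonneg hx hxy h0 Qinf
    rw [hr, Finsupp.single_eq_same] at this
    omega
  · have := H.red_nonneg hx hxy h0 Q
    rw [hr, Finsupp.single_eq_of_ne hQ] at this
    omega

omit H in
theorem eq_zero_of_ord_nonneg (hdeg : Pinf.deg = 1) {x : F} (h : ∀ P : Place L F, 0 ≤ P.ord x)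
    (hinf : x = 0 ∨ 0 < Pinf.ord x) : x = 0 := by
  by_contra hx
  have hpos : (0 : Divisor L F) ≤ divOf x := fun P => by
    simpa [divOf_apply] using h P
  have := degree_pos_of_pos hpos (P := Pinf) (by
    rw [divOf_apply]; exact hinf.resolve_left hx) hdeg
  rw [degree_divOf] at this
  exact lt_irrefl _ this

/-- A function of the special field without poles and vanishing at `∞` is zero. -/
theorem eq_zero_of_ord_nonneg_red {h : Fk} (hpos : ∀ Q : Place k Fk, 0 ≤ Q.ord h)
    (hinf : h = 0 ∨ 0 < Qinf.ord h) : h = 0 := by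
  by_contra hh
  have hmem : h ∈ poleSpace Qinf n₀ := by
    rw [mem_poleSpace_iff]
    exact Or.inr ⟨by have := hpos Qinf; omega, fun Q _ => hpos Q⟩
  obtain ⟨x, y, hx, hxy, hy⟩ := H.lift n₀ le_rfl h hmem
  have hhs : (⟨latRed π y, H.red_mem hx hxy⟩ : Fk) = h := Subtype.ext hy
  have h0 : latRed π y ≠ 0 := fun e => hh (Subtype.ext (hy ▸ e))
  have hmap : ∀ Q, Finsupp.mapDomain r (divOf x) Q = Q.ord h := fun Q => by
    rw [H.ord_red hx hxy h0 Q, hhs]
  have := degree_pos_of_pos (E := Finsupp.mapDomain r (divOf x))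
    (fun Q => by rw [Finsupp.zero_apply, hmap]; exact hpos Q) (P := Qinf)
    (by rw [hmap]; exact hinf.resolve_left hh) H.deg_Qinf
  rw [degree_mapDomain r H.map_deg, degree_divOf] at this
  exact lt_irrefl _ this

/-- Zeros of a function with unit coefficient at its maximal pole do not reduce to `∞`. -/
theorem map_ne_of_ord_pos {n : ℕ} {x : F} {y : LaurentSeries A} (hx : x ∈ poleSpace Pinf n)
    (hxy : latVal A y = (x : LaurentSeries L)) (hu : IsUnit (y.coeff (-(n : ℤ))))
    {P : Place L F} (hP : 0 < P.ord x) : r P ≠ Qinf := by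
  obtain ⟨hordL, h0, hordK⟩ := H.ord_eq_of_isUnit hx hxy hu
  intro hr
  have hPinf : P ≠ Pinf := by
    rintro rfl
    omega
  set E := divOf x + Finsupp.single Pinf (n : ℤ) with hE
  have hE0 : Finsupp.mapDomain r E (r P) = 0 := by
    rw [hr, hE, Finsupp.mapDomain_add, Finsupp.mapDomain_single, Finsupp.add_apply, H.map_inf,
      Finsupp.single_eq_same, H.ord_red hx hxy h0, H.orderK]
    simp only [hordK]
    omega
  have := le_mapDomain_apply r (divOf_add_single_nonneg hx) P
  rw [hE0, Finsupp.add_apply, divOf_apply, Finsupp.single_eq_of_ne hPinf] at this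
  omega

end LatticeReduction

end FermatLib.Igusa
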