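import Fermat.Agent.Igusa.LaurentLattice
import Fermat.Agent.Curve.PlaceBasics

/-!
Hypotheses packaging good reduction of a function field inside Laurent series, in terms of the
lattices `L(n ∞) ∩ A((q))`.
-/

set_option autoImplicit false

noncomputable section

open AlgebraicCurve IsLocalRing HahnSeries

namespace FermatLib.Igusa

/-- `P` is the place of `F ⊆ K((q))` given by the order in `q`. -/
def IsOrderPlace {K : Type*} [Field K] (F : IntermediateField K (LaurentSeries K))
    (P : Place K F) : Prop :=
  ∀ x : F, P.ord x = (x : LaurentSeries K).order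

/-- The Riemann-Roch space of `n • P`. -/
def poleSpace {K F : Type*} [Field K] [Field F] [Algebra K F] (P : Place K F) (n : ℕ) :
    Submodule K F :=
  riemannRochSpace (Finsupp.single P (n : ℤ))

variable {L : Type*} [Field L] {k : Type*} [Field k]

/-- The lattices `L(n ∞) ∩ A((q))` are bounded and, for `n ≥ n₀`, reduce onto the spaces of the
special field, which contain functions of exact pole order `n` at `∞`. -/
structure SmoothLattice {A : ValuationSubring L} (π : A →+* k) (F : IntermediateField L (LaurentSeries L))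
    (Fk : IntermediateField k (LaurentSeries k))
    (Pinf : Place L F) (Qinf : Place k Fk) (n₀ : ℕ) : Prop where
  surj : Function.Surjective π
  orderL : IsOrderPlace F Pinf
  orderK : IsOrderPlace Fk Qinf
  bounded : ∀ n : ℕ, ∀ x : F, x ∈ poleSpace Pinf n → x ≠ 0 →
    ∃ (c : L) (y : LaurentSeries A), latVal A y = c • (x : LaurentSeries L) ∧
      latRed π y ≠ 0 ∧ latRed π y ∈ Fk
  lift : ∀ n : ℕ, n₀ ≤ n → ∀ h : Fk, h ∈ poleSpace Qinf n →
    ∃ (x : F) (y : LaurentSeries A), x ∈ poleSpace Pinf n ∧
      latVal A y = (x : LaurentSeries L) ∧ latRed π y = (h : LaurentSeries k)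
  top : ∀ n : ℕ, n₀ ≤ n → ∃ h : Fk, h ∈ poleSpace Qinf n ∧
    (h : LaurentSeries k).coeff (-(n : ℤ)) ≠ 0

/-- A smooth lattice together with a map of places compatible with reduction of functions. -/
structure LatticeReduction {A : ValuationSubring L} (π : A →+* k) (F : IntermediateField L (LaurentSeries L))
    (Fk : IntermediateField k (LaurentSeries k))
    (Pinf : Place L F) (Qinf : Place k Fk) (n₀ : ℕ)
    (r : Place L F → Place k Fk) : Prop
    extends SmoothLattice π F Fk Pinf Qinf n₀ where
  deg_one : ∀ P : Place L F, P.deg = 1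
  map_deg : ∀ P, (r P).deg = P.deg
  map_div : ∀ (y : LaurentSeries A) (hy : latVal A y ∈ F) (hyk : latRed π y ∈ Fk),
    latRed π y ≠ 0 → ∀ D : Divisor L F, (∀ P, D P = P.ord (⟨latVal A y, hy⟩ : F)) →
      ∀ Q, Finsupp.mapDomain r D Q = Q.ord (⟨latRed π y, hyk⟩ : Fk)
  map_principal : ∀ D : Divisor L F, D ∈ Divisor.principal (K := L) (F := F) →
    Divisor.IsPrincipal (Finsupp.mapDomain r D)

end FermatLib.Igusa
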