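import Mathlib

/-!
# Subfields of `k((u))` are separable over `k(x)` when `ℓ ∤ ord x`

`k` is perfect of characteristic `ℓ`. If the order of `x` is prime to `ℓ`, the powers `x ^ i`,
`i < ℓ`, are independent over `k((u)) ^ ℓ`, so raising to the power `ℓ` does not lower degrees over
`k(x)`.
-/

set_option autoImplicit false
set_option linter.style.haveILetI false
set_option maxHeartbeats 400000

noncomputable section

open Polynomial

namespace FermatLib.Igusa

variable {k : Type*} [Field k] (ℓ : ℕ) [Fact ℓ.Prime] [CharP k ℓ]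

/-- `1, x, …, x ^ (ℓ - 1)` are independent over `ℓ`-th powers. -/
theorem eq_zero_of_sum_pow_mul_pow {x : LaurentSeries k} (hx0 : x ≠ 0)
    (hx : ¬ (ℓ : ℤ) ∣ x.order) (z : Fin ℓ → LaurentSeries k)
    (h : ∑ i : Fin ℓ, x ^ (i : ℕ) * z i ^ ℓ = 0) (i : Fin ℓ) : z i = 0 := by
  classical
  by_contra hne
  set s := Finset.univ.filter fun i => z i ≠ 0 with hs
  have hs0 : s.Nonempty := ⟨i, Finset.mem_filter.mpr ⟨Finset.mem_univ i, hne⟩⟩
  obtain ⟨i₀, hi₀, hmin⟩ := s.exists_min_image
    (fun i : Fin ℓ => (i : ℤ) * x.order + (ℓ : ℤ) * (z i).order) hs0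
  have hz₀ := (Finset.mem_filter.mp hi₀).2
  have hord : ∀ i, z i ≠ 0 →
      (x ^ (i : ℕ) * z i ^ ℓ).order = (i : ℤ) * x.order + (ℓ : ℤ) * (z i).order := fun i hi => by
    rw [HahnSeries.order_mul (pow_ne_zero _ hx0) (pow_ne_zero _ hi), HahnSeries.order_pow,
      HahnSeries.order_pow, nsmul_eq_mul, nsmul_eq_mul]
  have h1 := congrArg
    (fun F : LaurentSeries k => F.coeff ((i₀ : ℤ) * x.order + (ℓ : ℤ) * (z i₀).order)) h
  simp only [HahnSeries.coeff_sum, HahnSeries.coeff_zero] at h1
  rw [Finset.sum_eq_single i₀] at h1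
  · exact HahnSeries.coeff_order_eq_zero.not.mpr
      (mul_ne_zero (pow_ne_zero _ hx0) (pow_ne_zero _ hz₀)) (by rw [hord i₀ hz₀]; exact h1)
  · intro j _ hj
    rcases eq_or_ne (z j) 0 with hzj | hzj
    · rw [hzj, zero_pow (Fact.out : ℓ.Prime).ne_zero, mul_zero, HahnSeries.coeff_zero]
    refine HahnSeries.coeff_eq_zero_of_lt_order ?_
    rw [hord j hzj]
    refine lt_of_le_of_ne (hmin j (Finset.mem_filter.mpr ⟨Finset.mem_univ j, hzj⟩)) fun heq => ?_
    have hd : (ℓ : ℤ) ∣ ((i₀ : ℤ) - (j : ℤ)) * x.order :=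
      ⟨(z j).order - (z i₀).order, by linear_combination heq⟩
    rcases (Nat.prime_iff_prime_int.mp (Fact.out : ℓ.Prime)).dvd_or_dvd hd with h2 | h2
    · refine hj (Fin.ext ?_)
      have hi₀lt := i₀.2
      have hjlt := j.2
      rcases h2 with ⟨q, hq⟩
      have hq0 : q = 0 := by nlinarith
      rw [hq0, mul_zero, sub_eq_zero] at hq
      exact_mod_cast hq.symm
    · exact hx h2
  · exact fun h => absurd (Finset.mem_univ _) h

variable [PerfectRing k ℓ]

/-- A polynomial splits into `ℓ`-th powers. -/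
theorem exists_decomp_pow_char (p : k[X]) :
    ∃ r : Fin ℓ → k[X], p = ∑ i : Fin ℓ, X ^ (i : ℕ) * r i ^ ℓ := by
  classical
  induction p using Polynomial.induction_on' with
  | add p q hp hq =>
    obtain ⟨r, hr⟩ := hp
    obtain ⟨s, hs⟩ := hq
    refine ⟨r + s, ?_⟩
    rw [hr, hs, ← Finset.sum_add_distrib]
    refine Finset.sum_congr rfl fun i _ => ?_
    rw [Pi.add_apply, add_pow_char, mul_add]
  | monomial e c =>
    have hl : 0 < ℓ := (Fact.out : ℓ.Prime).pos
    obtain ⟨d, rfl⟩ := (PerfectRing.bijective_frobenius (R := k) (p := ℓ)).2 c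
    refine ⟨Pi.single ⟨e % ℓ, Nat.mod_lt e hl⟩ (C d * X ^ (e / ℓ)), ?_⟩
    rw [Finset.sum_eq_single (⟨e % ℓ, Nat.mod_lt e hl⟩ : Fin ℓ), Pi.single_eq_same]
    · rw [← C_mul_X_pow_eq_monomial]
      dsimp only
      rw [C_pow, mul_pow, ← pow_mul, mul_left_comm,
        ← pow_add, mul_comm (e / ℓ) ℓ, Nat.mod_add_div]
    · intro i _ hi
      rw [Pi.single_eq_of_ne hi, zero_pow hl.ne', mul_zero]
    · exact fun h => absurd (Finset.mem_univ _) h

variable {F : Type*} [Field F] [Algebra (RatFunc k) F] (ι : F →+* LaurentSeries k)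
  {x : LaurentSeries k}

/-- Taking `ℓ`-th powers does not lower the degree over `k(x)`. -/
theorem natDegree_minpoly_le_pow_char (hx0 : x ≠ 0) (hx : ¬ (ℓ : ℤ) ∣ x.order)
    (hX : ι (algebraMap (RatFunc k) F RatFunc.X) = x) {y : F}
    (hy : IsIntegral (RatFunc k) y) :
    (minpoly (RatFunc k) y).natDegree ≤ (minpoly (RatFunc k) (y ^ ℓ)).natDegree := by
  classical
  set g : k[X] →+* F := (algebraMap (RatFunc k) F).comp (algebraMap k[X] (RatFunc k)) with hg
  set P := minpoly (RatFunc k) (y ^ ℓ) with hP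
  set d := P.natDegree with hd
  obtain ⟨b, hb, hmap⟩ :
      ∃ b : k[X], b ≠ 0 ∧ (IsLocalization.integerNormalization (nonZeroDivisors k[X]) P).map
        (algebraMap k[X] (RatFunc k)) = b • P := by
    obtain ⟨b, hbM, hb⟩ := IsLocalization.integerNormalization_spec (nonZeroDivisors k[X]) P
    exact ⟨b, nonZeroDivisors.ne_zero hbM, hb⟩
  set p := IsLocalization.integerNormalization (nonZeroDivisors k[X]) P with hp
  have hPne : P ≠ 0 := minpoly.ne_zero (hy.pow ℓ)
  have hbP : b • P = C (algebraMap k[X] (RatFunc k) b) * P := by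
    rw [← smul_eq_C_mul]
    exact (IsScalarTower.algebraMap_smul (RatFunc k) b P).symm
  have hb' : algebraMap k[X] (RatFunc k) b ≠ 0 :=
    (map_ne_zero_iff _ (IsFractionRing.injective k[X] (RatFunc k))).mpr hb
  have hdeg : p.natDegree = d := by
    rw [← natDegree_map_eq_of_injective (IsFractionRing.injective k[X] (RatFunc k)) p, hmap, hbP,
      natDegree_C_mul hb']
  have hp0 : p ≠ 0 := fun h0 => by
    rw [h0, Polynomial.map_zero, hbP, eq_comm, mul_eq_zero, C_eq_zero] at hmap
    exact hmap.elim hb' hPne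
  have hpy : ∑ a ∈ Finset.range (d + 1), g (p.coeff a) * (y ^ ℓ) ^ a = 0 := by
    have h1 : eval₂ g (y ^ ℓ) p = 0 := by
      rw [hg, ← eval₂_map, hmap, hbP, ← aeval_def, map_mul, hP, minpoly.aeval, mul_zero]
    rwa [eval₂_eq_sum_range, hdeg] at h1
  choose r hr using fun a => exists_decomp_pow_char ℓ (p.coeff a)
  set w : Fin ℓ → F := fun i => ∑ a ∈ Finset.range (d + 1), g (r a i) * y ^ a with hw
  haveI : CharP F ℓ := charP_of_injective_ringHom
    ((algebraMap (RatFunc k) F).comp (RatFunc.C (K := k))).injective ℓ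
  have hsum : ∑ i : Fin ℓ, algebraMap (RatFunc k) F RatFunc.X ^ (i : ℕ) * w i ^ ℓ = 0 := by
    refine Eq.trans ?_ hpy
    simp only [hw, sum_pow_char, mul_pow, Finset.mul_sum]
    rw [Finset.sum_comm]
    refine Finset.sum_congr rfl fun a _ => ?_
    conv_rhs => rw [hr a, map_sum, Finset.sum_mul]
    refine Finset.sum_congr rfl fun i _ => ?_
    rw [map_mul, map_pow, map_pow, ← pow_mul, ← pow_mul, mul_comm a ℓ]
    simp only [hg, RingHom.comp_apply, RatFunc.algebraMap_X, mul_assoc]
  have hι := congrArg ι hsum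
  rw [map_sum, map_zero] at hι
  simp only [map_mul, map_pow, hX] at hι
  have hzero : ∀ i, w i = 0 := fun i => by
    have := eq_zero_of_sum_pow_mul_pow ℓ hx0 hx (fun i => ι (w i)) hι i
    exact (map_eq_zero ι).mp this
  obtain ⟨a₀, ha₀⟩ : ∃ a, p.coeff a ≠ 0 := ⟨_, leadingCoeff_ne_zero.mpr hp0⟩
  have ha₀d : a₀ < d + 1 := by
    have := le_natDegree_of_ne_zero ha₀
    omega
  obtain ⟨i₀, hi₀⟩ : ∃ i, r a₀ i ≠ 0 := by
    by_contra h
    push Not at h
    refine ha₀ ((hr a₀).trans (Finset.sum_eq_zero fun i _ => ?_))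
    rw [h i, zero_pow (Fact.out : ℓ.Prime).ne_zero, mul_zero]
  set Q : (RatFunc k)[X] :=
    ∑ a ∈ Finset.range (d + 1), C (algebraMap k[X] (RatFunc k) (r a i₀)) * X ^ a with hQ
  have hQ0 : Q ≠ 0 := fun h => hi₀ <| IsFractionRing.injective k[X] (RatFunc k) <| by
    have := congrArg (fun q : (RatFunc k)[X] => q.coeff a₀) h
    simpa [hQ, finsetSum_coeff, ha₀d] using this
  have hQy : aeval y Q = 0 := by
    rw [hQ, map_sum, ← hzero i₀, hw]
    refine Finset.sum_congr rfl fun a _ => ?_
    rw [map_mul, aeval_C, map_pow, aeval_X, hg, RingHom.comp_apply]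
  refine (natDegree_le_natDegree (minpoly.degree_le_of_ne_zero _ _ hQ0 hQy)).trans ?_
  refine natDegree_sum_le_of_forall_le _ _ fun a ha => ?_
  exact (natDegree_C_mul_X_pow_le _ _).trans (Nat.lt_succ_iff.mp (Finset.mem_range.mp ha))

include ℓ in
/-- Algebraic subfields of `k((u))` over `k(x)` are separable. -/
theorem isSeparable_of_order (hx0 : x ≠ 0) (hx : ¬ (ℓ : ℤ) ∣ x.order)
    (hX : ι (algebraMap (RatFunc k) F RatFunc.X) = x) [Algebra.IsAlgebraic (RatFunc k) F] :
    Algebra.IsSeparable (RatFunc k) F := by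
  haveI : CharP (RatFunc k) ℓ := charP_of_injective_ringHom (RatFunc.C (K := k)).injective ℓ
  haveI : ExpChar (RatFunc k) ℓ := ExpChar.prime (Fact.out)
  haveI := separableClosure.isPurelyInseparable (RatFunc k) F
  haveI : ExpChar (separableClosure (RatFunc k) F) ℓ :=
    expChar_of_injective_ringHom (algebraMap (RatFunc k) (separableClosure (RatFunc k) F)).injective ℓ
  have hstep : ∀ (r : ℕ) (y : F),
      IntermediateField.adjoin (RatFunc k) {y ^ ℓ ^ r} = IntermediateField.adjoin (RatFunc k) {y} := by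
    intro r y
    induction r with
    | zero => rw [pow_zero, pow_one]
    | succ r ih =>
      rw [← ih]
      set z := y ^ ℓ ^ r
      have hz : IsIntegral (RatFunc k) z := Algebra.IsIntegral.isIntegral z
      haveI := IntermediateField.adjoin.finiteDimensional hz
      rw [show y ^ ℓ ^ (r + 1) = z ^ ℓ by rw [pow_succ, pow_mul]]
      refine IntermediateField.eq_of_le_of_finrank_le ?_ ?_
      · rw [IntermediateField.adjoin_simple_le_iff]
        exact pow_mem (IntermediateField.mem_adjoin_simple_self _ z) ℓ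
      · rw [IntermediateField.adjoin.finrank hz, IntermediateField.adjoin.finrank (hz.pow ℓ)]
        exact natDegree_minpoly_le_pow_char ℓ ι hx0 hx hX hz
  refine ⟨fun y => ?_⟩
  obtain ⟨r, c, hc⟩ := IsPurelyInseparable.pow_mem (separableClosure (RatFunc k) F) ℓ y
  refine mem_separableClosure_iff.mp ?_
  have h1 : y ∈ IntermediateField.adjoin (RatFunc k) {y ^ ℓ ^ r} := by
    rw [hstep]; exact IntermediateField.mem_adjoin_simple_self _ y
  refine IntermediateField.adjoin_simple_le_iff.mpr ?_ h1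
  rw [← hc]
  exact c.2

/-- A separable extension with bounded degrees of elements is finite. -/
theorem finiteDimensional_of_degree_le {K E : Type*} [Field K] [Field E] [Algebra K E]
    [Algebra.IsSeparable K E] (D : ℕ) (h : ∀ y : E, (minpoly K y).natDegree ≤ D) :
    FiniteDimensional K E := by
  classical
  have hne : ∃ d, ∃ y : E, (minpoly K y).natDegree = d := ⟨_, 0, rfl⟩
  set d := Nat.findGreatest (fun d => ∃ y : E, (minpoly K y).natDegree = d) D with hd
  obtain ⟨θ, hθ⟩ : ∃ y : E, (minpoly K y).natDegree = d :=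
    Nat.findGreatest_spec (P := fun d => ∃ y : E, (minpoly K y).natDegree = d) (h 0) ⟨0, rfl⟩
  have hmax : ∀ y : E, (minpoly K y).natDegree ≤ d := fun y =>
    Nat.le_findGreatest (h y) ⟨y, rfl⟩
  have hint : ∀ y : E, IsIntegral K y := Algebra.IsSeparable.isIntegral K
  haveI := IntermediateField.adjoin.finiteDimensional (hint θ)
  suffices htop : ∀ y, y ∈ IntermediateField.adjoin K {θ} by
    have : IntermediateField.adjoin K {θ} = ⊤ := eq_top_iff.mpr fun y _ => htop y
    exact Module.Finite.equiv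
      ((IntermediateField.equivOfEq this).trans IntermediateField.topEquiv).toLinearEquiv
  intro y
  haveI := IntermediateField.adjoin.finiteDimensional (hint y)
  obtain ⟨η, hη⟩ := Field.exists_primitive_element K
    ↥(IntermediateField.adjoin K {θ} ⊔ IntermediateField.adjoin K {y})
  have hη' : IntermediateField.adjoin K {(η : E)} =
      IntermediateField.adjoin K {θ} ⊔ IntermediateField.adjoin K {y} := by
    have := congrArg IntermediateField.lift hη
    rwa [IntermediateField.lift_adjoin, Set.image_singleton, IntermediateField.lift_top] at this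
  have heq : IntermediateField.adjoin K {θ} = IntermediateField.adjoin K {(η : E)} := by
    haveI := IntermediateField.adjoin.finiteDimensional (hint (η : E))
    refine IntermediateField.eq_of_le_of_finrank_le (le_sup_left.trans (le_of_eq hη'.symm)) ?_
    rw [IntermediateField.adjoin.finrank (hint θ), IntermediateField.adjoin.finrank (hint _), hθ]
    exact hmax _
  rw [heq, hη']
  exact (le_sup_right : IntermediateField.adjoin K {y} ≤ _)
    (IntermediateField.mem_adjoin_simple_self K y)

end FermatLib.Igusa
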