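import Fermat.Agent.Igusa.LevelFun

/-!
# The functions of the auxiliary level `m ∈ {2, 3}`

For `n = m * k` the division points `k u` cut out `X(m)`, a curve of genus zero; the ratios of their
division values have at most one pole class, and every `Γ(m)`-invariant element of the level ring
becomes a polynomial in one of them after multiplication with a unit.
-/

set_option autoImplicit false

noncomputable section

open Complex UpperHalfPlane Function ModularCurve CongruenceSubgroup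
open scoped MatrixGroups

namespace FermatLib.Igusa

/-- An auxiliary level `m ∈ {2, 3}` with cofactor `k > 1`. -/
structure AuxLevel (n m k : ℕ) : Prop where
  eq : n = m * k
  two_le : 2 ≤ m
  le_three : m ≤ 3
  one_lt : 1 < k

/-- The division point `k u`. -/
def auxPt (k : ℕ) (u : ℤ × ℤ) : ℤ × ℤ := ((k : ℤ) * u.1, (k : ℤ) * u.2)

theorem vecMulSL_auxPt (k : ℕ) (u : ℤ × ℤ) (γ : SL(2, ℤ)) :
    vecMulSL (auxPt k u) γ = auxPt k (vecMulSL u γ) := by
  simp only [vecMulSL, auxPt, Prod.mk.injEq]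
  constructor <;> ring

/-- The point class vanishing at the cusp `γ ∞`. -/
def cuspClass (γ : SL(2, ℤ)) : ℤ × ℤ := vecMulSL (0, 1) γ⁻¹

theorem cuspClass_eq (γ : SL(2, ℤ)) : cuspClass γ = (-γ 1 0, γ 0 0) := by
  simp [cuspClass, vecMulSL, Matrix.SpecialLinearGroup.coe_inv, Matrix.adjugate_fin_two]

theorem absMod_eq_of_natAbs {n : ℕ} [NeZero n] {x : ℤ} {j : ℕ} (hj : 2 * j ≤ n)
    (h : (n : ℤ) ∣ x - j ∨ (n : ℤ) ∣ x + j) : absMod n x = j := by
  have key : ((j : ℤ) : ZMod n).valMinAbs.natAbs = j := by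
    rw [Int.cast_natCast, ZMod.valMinAbs_natCast_of_le_half (by omega)]
    rfl
  rcases h with h | h
  · rw [absMod, show ((x : ℤ) : ZMod n) = ((j : ℤ) : ZMod n) by
      rw [← sub_eq_zero, ← Int.cast_sub, ZMod.intCast_zmod_eq_zero_iff_dvd]; exact h]
    exact key
  · rw [absMod, show ((x : ℤ) : ZMod n) = -((j : ℤ) : ZMod n) by
      rw [eq_neg_iff_add_eq_zero, ← Int.cast_add, ZMod.intCast_zmod_eq_zero_iff_dvd]; exact h]
    rw [ZMod.natAbs_valMinAbs_neg]
    exact key

theorem absMod_eq_zero_iff {n : ℕ} [NeZero n] {x : ℤ} : absMod n x = 0 ↔ (n : ℤ) ∣ x := by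
  rw [absMod, Int.natAbs_eq_zero, ZMod.valMinAbs_eq_zero, ZMod.intCast_zmod_eq_zero_iff_dvd]

theorem dvd_sub_or_add_one {m : ℕ} (h2 : 2 ≤ m) (h3 : m ≤ 3) {x : ℤ} (h : ¬ (m : ℤ) ∣ x) :
    (m : ℤ) ∣ x - 1 ∨ (m : ℤ) ∣ x + 1 := by
  interval_cases m <;> omega

namespace AuxLevel

variable {n m k : ℕ} (L : AuxLevel n m k)
include L

theorem three_le : 3 ≤ n := by
  have := L.two_le
  have := L.one_lt
  rw [L.eq]
  nlinarith

theorem dvd_auxPt_iff (x : ℤ) : (n : ℤ) ∣ (k : ℤ) * x ↔ (m : ℤ) ∣ x := by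
  rw [L.eq, Nat.cast_mul, mul_comm (m : ℤ) (k : ℤ),
    mul_dvd_mul_iff_left (by exact_mod_cast (zero_lt_one.trans L.one_lt).ne')]

theorem sameUpToSign_auxPt {u v : ℤ × ℤ} :
    SameUpToSign n (auxPt k u) (auxPt k v) ↔ SameUpToSign m u v := by
  simp only [SameUpToSign, auxPt, ← mul_sub, ← mul_add, L.dvd_auxPt_iff]

theorem isUnitPair_auxPt {u v : ℤ × ℤ} :
    IsUnitPair n (auxPt k u) (auxPt k v) ↔ IsUnitPair m u v := by
  have h : ((0 : ℤ), (0 : ℤ)) = auxPt k (0, 0) := by simp [auxPt]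
  simp only [IsUnitPair]
  conv_lhs => rw [h]
  simp only [L.sameUpToSign_auxPt]

/-- A primitive point is no division point of the auxiliary level. -/
theorem not_sameUpToSign_of_not_dvd {a : ℤ × ℤ} (h : ¬ ((k : ℤ) ∣ a.1 ∧ (k : ℤ) ∣ a.2))
    (u : ℤ × ℤ) : ¬ SameUpToSign n a (auxPt k u) := by
  have hk : (k : ℤ) ∣ (n : ℤ) := by rw [L.eq, Nat.cast_mul]; exact dvd_mul_left _ _
  rintro (⟨h1, h2⟩ | ⟨h1, h2⟩)
  · exact h ⟨(dvd_sub_left (dvd_mul_right _ _)).mp (hk.trans h1),
      (dvd_sub_left (dvd_mul_right _ _)).mp (hk.trans h2)⟩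
  · exact h ⟨(dvd_add_left (dvd_mul_right _ _)).mp (hk.trans h1),
      (dvd_add_left (dvd_mul_right _ _)).mp (hk.trans h2)⟩

theorem absMod_auxPt [NeZero n] (x : ℤ) :
    absMod n ((k : ℤ) * x) = if (m : ℤ) ∣ x then 0 else k := by
  split_ifs with h
  · exact absMod_eq_zero_iff.mpr ((L.dvd_auxPt_iff x).mpr h)
  · have h2 : 2 * k ≤ n := by rw [L.eq]; exact Nat.mul_le_mul_right k L.two_le
    refine absMod_eq_of_natAbs h2 ?_
    rcases dvd_sub_or_add_one L.two_le L.le_three h with h1 | h1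
    · left
      rw [show (k : ℤ) * x - k = k * (x - 1) by ring]
      exact (L.dvd_auxPt_iff _).mpr h1
    · right
      rw [show (k : ℤ) * x + k = k * (x + 1) by ring]
      exact (L.dvd_auxPt_iff _).mpr h1

theorem dvd_fst_iff {u : ℤ × ℤ} (hu : ¬ SameUpToSign m u (0, 0)) (γ : SL(2, ℤ)) :
    (m : ℤ) ∣ (vecMulSL u γ).1 ↔ SameUpToSign m u (cuspClass γ) := by
  constructor
  · intro h
    have h0 : ¬ SameUpToSign m (vecMulSL u γ) (0, 0) := fun h' =>
      hu ((sameUpToSign_vecMulSL_iff γ).mp (by rwa [vecMulSL_zero]))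
    have h2 : ¬ (m : ℤ) ∣ (vecMulSL u γ).2 := fun h2 =>
      h0 (Or.inl ⟨by simpa using h, by simpa using h2⟩)
    have hw : SameUpToSign m (vecMulSL u γ) (0, 1) := by
      rcases dvd_sub_or_add_one L.two_le L.le_three h2 with h1 | h1
      · exact Or.inl ⟨by simpa using h, h1⟩
      · exact Or.inr ⟨by simpa using h, h1⟩
    have := hw.vecMulSL γ⁻¹
    rwa [vecMulSL_mul, mul_inv_cancel, vecMulSL_one] at this
  · intro h
    have := h.vecMulSL γ
    rw [cuspClass, vecMulSL_mul, inv_mul_cancel, vecMulSL_one] at this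
    rcases this with ⟨h1, -⟩ | ⟨h1, -⟩ <;> simpa using h1

open scoped Classical in
theorem torsOrd_auxPt [NeZero n] {u v : ℤ × ℤ} (h : IsUnitPair m u v) (γ : SL(2, ℤ)) :
    torsOrd n (vecMulSL (auxPt k u) γ) (vecMulSL (auxPt k v) γ) =
      if SameUpToSign m u (cuspClass γ) ∨ SameUpToSign m v (cuspClass γ) then 0 else (k : ℤ) := by
  rw [torsOrd, vecMulSL_auxPt, vecMulSL_auxPt]
  simp only [auxPt, L.absMod_auxPt, L.dvd_fst_iff h.1, L.dvd_fst_iff h.2.1]
  by_cases hu : SameUpToSign m u (cuspClass γ) <;> by_cases hv : SameUpToSign m v (cuspClass γ) <;>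
    simp [hu, hv]

theorem not_sameUpToSign_one_zero_one (j : ℤ) : ¬ SameUpToSign m (1, j) (0, 1) := by
  have := L.two_le
  rintro (⟨h, -⟩ | ⟨h, -⟩) <;>
  · have := Int.le_of_dvd (by norm_num) (by simpa using h : (m : ℤ) ∣ 1)
    omega

theorem isUnitPair_num (j : ℤ) : IsUnitPair m (1, j) (0, 1) := by
  have := L.two_le
  refine ⟨fun h => ?_, fun h => ?_, L.not_sameUpToSign_one_zero_one j⟩
  · rcases h with ⟨h, -⟩ | ⟨h, -⟩ <;>
    · have := Int.le_of_dvd (by norm_num) (by simpa using h : (m : ℤ) ∣ 1)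
      omega
  · rcases h with ⟨-, h⟩ | ⟨-, h⟩ <;>
    · have := Int.le_of_dvd (by norm_num) (by simpa using h : (m : ℤ) ∣ 1)
      omega

theorem isUnitPair_den (j : ℤ) : IsUnitPair m (1, j + 1) (1, j) := by
  refine ⟨(L.isUnitPair_num (j + 1)).1, (L.isUnitPair_num j).1, ?_⟩
  have := L.two_le
  have := L.le_three
  rintro (⟨-, h⟩ | ⟨h1, h2⟩)
  · simp only [add_sub_cancel_left] at h
    have := Int.le_of_dvd (by norm_num) h
    omega
  · norm_num at h1
    have := Int.le_of_dvd (by norm_num) h1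
    obtain rfl : m = 2 := by omega
    simp only at h2
    omega

/-- Every cusp class other than `(0, 1)` is one of `(1, 0), (1, 1), (1, 2)`. -/
theorem exists_class {γ : SL(2, ℤ)} (h : ¬ SameUpToSign m (0, 1) (cuspClass γ)) :
    ∃ j : ℕ, j < 3 ∧ SameUpToSign m (1, (j : ℤ)) (cuspClass γ) := by
  have hu : ¬ SameUpToSign m ((0 : ℤ), (1 : ℤ)) (0, 0) := (L.isUnitPair_num 0).2.1
  have hx : ¬ (m : ℤ) ∣ (cuspClass γ).1 := fun hx => h <| by
    rw [← L.dvd_fst_iff hu]
    rw [cuspClass_eq] at hx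
    simpa [vecMulSL] using hx
  clear h
  generalize cuspClass γ = w at hx ⊢
  obtain ⟨x, y⟩ := w
  have := L.two_le
  have := L.le_three
  rcases dvd_sub_or_add_one L.two_le L.le_three hx with h1 | h1
  · refine ⟨(y % m).toNat, ?_, Or.inl ⟨?_, ?_⟩⟩
    · have := Int.emod_lt_of_pos y (show (0 : ℤ) < m by omega)
      omega
    · simpa using (dvd_neg.mpr h1)
    · rw [Int.toNat_of_nonneg (Int.emod_nonneg _ (by omega))]
      simpa [dvd_sub_comm] using (Int.dvd_self_sub_emod (x := y) (m := m))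
  · refine ⟨((-y) % m).toNat, ?_, Or.inr ⟨?_, ?_⟩⟩
    · have := Int.emod_lt_of_pos (-y) (show (0 : ℤ) < m by omega)
      omega
    · simpa [add_comm] using h1
    · rw [Int.toNat_of_nonneg (Int.emod_nonneg _ (by omega))]
      have := (Int.dvd_self_sub_emod (x := -y) (m := m))
      rw [show (-y) % (m : ℤ) + y = -(-y - (-y) % m) by ring]
      exact dvd_neg.mpr this

end AuxLevel

variable {R : Type*} [CommRing R] {φ : R →+* ℂ} {n : ℕ} [NeZero n] (hR : IsLevelCoeff φ n)
variable {m k : ℕ} (L : AuxLevel n m k)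

/-- The coordinate with its pole at the class `(0, 1)` and its zero at `(1, j)`. -/
def auxCoord (j : ℤ) : levelRing φ n :=
  torsRatio hR (L.isUnitPair_auxPt.mpr (L.isUnitPair_num (j + 1)))
    (L.isUnitPair_auxPt.mpr (L.isUnitPair_den j))

theorem isUnit_auxCoord (j : ℤ) : IsUnit (auxCoord hR L j) := isUnit_torsRatio hR _ _

theorem smul_auxCoord {δ : SL(2, ℤ)} (hδ : δ ∈ CongruenceSubgroup.Gamma m) (j : ℤ) :
    δ • auxCoord hR L j = auxCoord hR L j := by
  rw [auxCoord, smul_torsRatio]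
  refine torsRatio_congr hR _ _ _ _ ?_ ?_ ?_ ?_ <;>
  · rw [vecMulSL_auxPt, L.sameUpToSign_auxPt]
    exact sameUpToSign_vecMulSL_of_mem_Gamma _ (inv_mem hδ)

open scoped Classical in
theorem unitLead_auxCoord (j : ℤ) (γ : SL(2, ℤ)) :
    UnitLead (levelExp hR.injective γ (auxCoord hR L j))
      (if SameUpToSign m (0, 1) (cuspClass γ) then -(k : ℤ)
        else if SameUpToSign m (1, j) (cuspClass γ) then (k : ℤ) else 0) := by
  have h := unitLead_torsRatio hR (L.isUnitPair_auxPt.mpr (L.isUnitPair_num (j + 1)))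
    (L.isUnitPair_auxPt.mpr (L.isUnitPair_den j)) γ
  rw [L.torsOrd_auxPt (L.isUnitPair_num _), L.torsOrd_auxPt (L.isUnitPair_den _)] at h
  have key : ∀ {u v : ℤ × ℤ}, SameUpToSign m u (cuspClass γ) → SameUpToSign m v (cuspClass γ) →
      SameUpToSign m u v := fun hu hv => hu.trans' hv.symm'
  suffices hord : (if SameUpToSign m (0, 1) (cuspClass γ) then -(k : ℤ)
        else if SameUpToSign m (1, j) (cuspClass γ) then (k : ℤ) else 0) =
      (if SameUpToSign m (1, j + 1) (cuspClass γ) ∨ SameUpToSign m (0, 1) (cuspClass γ) then 0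
        else (k : ℤ)) -
      (if SameUpToSign m (1, j + 1) (cuspClass γ) ∨ SameUpToSign m (1, j) (cuspClass γ) then 0
        else (k : ℤ)) by
    rw [hord]; exact h
  have hp := L.not_sameUpToSign_one_zero_one (j + 1)
  have hr := L.not_sameUpToSign_one_zero_one j
  have hpr := (L.isUnitPair_den j).2.2
  by_cases hq : SameUpToSign m (0, 1) (cuspClass γ)
  · have h1 : ¬ SameUpToSign m (1, j + 1) (cuspClass γ) := fun h1 => hp (key h1 hq)
    have h2 : ¬ SameUpToSign m (1, j) (cuspClass γ) := fun h2 => hr (key h2 hq)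
    rw [if_pos hq, if_pos (Or.inr hq), if_neg (not_or.mpr ⟨h1, h2⟩), zero_sub]
  · rw [if_neg hq]
    by_cases h1 : SameUpToSign m (1, j + 1) (cuspClass γ)
    · have h2 : ¬ SameUpToSign m (1, j) (cuspClass γ) := fun h2 => hpr (key h1 h2)
      rw [if_neg h2, if_pos (Or.inl h1), if_pos (Or.inl h1), sub_zero]
    · by_cases h2 : SameUpToSign m (1, j) (cuspClass γ)
      · rw [if_pos h2, if_neg (not_or.mpr ⟨h1, hq⟩), if_pos (Or.inr h2), sub_zero]
      · rw [if_neg h2, if_neg (not_or.mpr ⟨h1, hq⟩), if_neg (not_or.mpr ⟨h1, h2⟩), sub_self]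

theorem coeff_auxCoord_eq_zero {j : ℤ} {γ : SL(2, ℤ)}
    (hγ : ¬ SameUpToSign m (0, 1) (cuspClass γ)) {i : ℤ} (hi : i < 0) :
    (levelExp hR.injective γ (auxCoord hR L j)).coeff i = 0 := by
  classical
  refine (unitLead_auxCoord hR L j γ).1 i (hi.trans_le ?_)
  rw [if_neg hγ]
  split_ifs <;> omega

variable (m) in
/-- Invariance under `Γ(m)`. -/
def IsAuxInvariant (f : levelRing φ n) : Prop :=
  ∀ δ ∈ CongruenceSubgroup.Gamma m, δ • f = f

include L in
theorem dvd_of_coeff_ne_zero {f : levelRing φ n} (hf : IsAuxInvariant m f) {i : ℤ}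
    (hi : (levelExp hR.injective 1 f).coeff i ≠ 0) : (k : ℤ) ∣ i := by
  have hT : ModularGroup.T ^ (m : ℤ) ∈ CongruenceSubgroup.Gamma m := by
    simpa [zpow_natCast] using CongruenceSubgroup.ModularGroup_T_pow_mem_Gamma m m (dvd_refl _)
  have h1 : levelExp hR.injective (1 * ModularGroup.T ^ (m : ℤ)) f = levelExp hR.injective 1 f := by
    rw [one_mul, ← levelExp_one_smul hR.injective, hf _ (inv_mem hT)]
  have h2 := levelExp_mul_T_coeff hR.injective 1 (m : ℤ) f i
  rw [h1] at h2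
  have hne : φ ((levelExp hR.injective 1 f).coeff i) ≠ 0 :=
    (map_ne_zero_iff φ hR.injective).mpr hi
  have h3 : zetaU n ^ ((m : ℤ) * i) = 1 := mul_left_cancel₀ hne (by rw [mul_one]; exact h2.symm)
  have h4 := ((isPrimitiveRoot_zetaU n).zpow_eq_one_iff_dvd _).mp h3
  rw [L.eq, Nat.cast_mul] at h4
  exact (mul_dvd_mul_iff_left (by have := L.two_le; omega)).mp h4

include L in
theorem coeff_eq_zero_of_class {f : levelRing φ n} (hf : IsAuxInvariant m f) {γ : SL(2, ℤ)}
    (hγ : SameUpToSign m (0, 1) (cuspClass γ)) {i : ℤ}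
    (hi : (levelExp hR.injective 1 f).coeff i = 0) :
    (levelExp hR.injective γ f).coeff i = 0 := by
  suffices h : ∀ γ : SL(2, ℤ), (m : ℤ) ∣ γ 1 0 → (m : ℤ) ∣ γ 0 0 - 1 →
      (levelExp hR.injective γ f).coeff i = 0 by
    rw [cuspClass_eq] at hγ
    rcases hγ with ⟨h1, h2⟩ | ⟨h1, h2⟩
    · exact h γ (by simpa using h1) (by simpa [dvd_sub_comm] using h2)
    · rw [← levelExp_neg]
      refine h (-γ) (by simpa using h1) ?_
      have : (m : ℤ) ∣ -(1 + γ 0 0) := dvd_neg.mpr h2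
      simpa [neg_add, sub_eq_add_neg, add_comm] using this
  clear hγ
  intro γ h10 h00
  have h11 : (m : ℤ) ∣ γ 1 1 - 1 := by
    have hdet := γ.2
    rw [Matrix.det_fin_two] at hdet
    have : (m : ℤ) ∣ γ 0 1 * γ 1 0 - γ 1 1 * (γ 0 0 - 1) :=
      dvd_sub (h10.mul_left _) (h00.mul_left _)
    rwa [show γ 0 1 * γ 1 0 - γ 1 1 * (γ 0 0 - 1) = γ 1 1 - 1 by linear_combination -hdet] at this
  set δ := γ * ModularGroup.T ^ (-γ 0 1) with hδ
  have hδm : δ ∈ CongruenceSubgroup.Gamma m := by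
    rw [← ZMod.intCast_zmod_eq_zero_iff_dvd] at h10 h00 h11
    push_cast at h10 h00 h11
    rw [sub_eq_zero] at h00 h11
    simp [hδ, CongruenceSubgroup.Gamma_mem, Matrix.SpecialLinearGroup.coe_mul,
      ModularGroup.coe_T_zpow, Matrix.mul_apply, Fin.sum_univ_two, h10, h00, h11]
  have h1 : levelExp hR.injective δ f = levelExp hR.injective 1 f := by
    rw [← levelExp_one_smul hR.injective, hf _ (inv_mem hδm)]
  have h2 := levelExp_mul_T_coeff hR.injective γ (-γ 0 1) f i
  rw [← hδ, h1, hi, map_zero, eq_comm, mul_eq_zero] at h2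
  apply hR.injective
  rw [map_zero]
  exact h2.resolve_right (zpow_ne_zero _ (zetaU_ne_zero n))

theorem levelExp_levelC_mul (γ : SL(2, ℤ)) (c : R) (f : levelRing φ n) (i : ℤ) :
    (levelExp hR.injective γ (levelC φ n c * f)).coeff i =
      c * (levelExp hR.injective γ f).coeff i := by
  rw [map_mul, levelExp_levelC, HahnSeries.coeff_single_mul, sub_zero]

/-- An invariant function with poles only at the class `(0, 1)` is a polynomial in the coordinate. -/
theorem exists_polynomial_auxCoord (f : levelRing φ n) (hf : IsAuxInvariant m f)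
    (hpole : ∀ γ : SL(2, ℤ), ¬ SameUpToSign m (0, 1) (cuspClass γ) →
      ∀ i < 0, (levelExp hR.injective γ f).coeff i = 0) :
    ∃ Q : Polynomial R, f = Q.eval₂ (levelC φ n) (auxCoord hR L 0) := by
  suffices h : ∀ (e : ℕ) (f : levelRing φ n), IsAuxInvariant m f →
      (∀ γ : SL(2, ℤ), ¬ SameUpToSign m (0, 1) (cuspClass γ) →
        ∀ i < 0, (levelExp hR.injective γ f).coeff i = 0) →
      (∀ i : ℤ, i < -((k : ℤ) * e) → (levelExp hR.injective 1 f).coeff i = 0) →
      ∃ Q : Polynomial R, f = Q.eval₂ (levelC φ n) (auxCoord hR L 0) by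
    refine h (levelExp hR.injective 1 f).order.natAbs f hf hpole fun i hi =>
      HahnSeries.coeff_eq_zero_of_lt_order ?_
    have hk : (1 : ℤ) < k := by exact_mod_cast L.one_lt
    have h0 := Int.le_natAbs (a := -(levelExp hR.injective 1 f).order)
    rw [Int.natAbs_neg] at h0
    nlinarith [Int.natCast_nonneg (levelExp hR.injective 1 f).order.natAbs]
  intro e
  induction e with
  | zero =>
    intro f hf hpole h
    obtain ⟨r, hr⟩ := exists_eq_levelC_of_forall_coeff_eq_zero hR.injective f fun γ i hi => by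
      by_cases hγ : SameUpToSign m (0, 1) (cuspClass γ)
      · exact coeff_eq_zero_of_class hR L hf hγ (h i (by simpa using hi))
      · exact hpole γ hγ i hi
    exact ⟨Polynomial.C r, by rw [Polynomial.eval₂_C, hr]⟩
  | succ e ih =>
    intro f hf hpole h
    set H := auxCoord hR L 0 ^ (e + 1) with hH
    have hH1 : UnitLead (levelExp hR.injective 1 H) (-((k : ℤ) * (e + 1 : ℕ))) := by
      classical
      rw [hH, map_pow, show -((k : ℤ) * (e + 1 : ℕ)) = ((e + 1 : ℕ) : ℤ) * -(k : ℤ) by ring]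
      have h1 := (unitLead_auxCoord hR L 0 1).pow (e + 1)
      rwa [if_pos (show SameUpToSign m (0, 1) (cuspClass 1) by
        rw [cuspClass, inv_one, vecMulSL_one]; exact SameUpToSign.refl _)] at h1
    set c := (levelExp hR.injective 1 f).coeff (-((k : ℤ) * (e + 1 : ℕ))) *
      ((hH1.2.unit⁻¹ : Rˣ) : R) with hc
    set g := f - levelC φ n c * H with hg
    have hginv : IsAuxInvariant m g := fun δ hδ => by
      rw [hg, smul_sub, smul_mul', hH, smul_pow', hf δ hδ, smul_levelC, smul_auxCoord hR L hδ]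
    have hgpole : ∀ γ : SL(2, ℤ), ¬ SameUpToSign m (0, 1) (cuspClass γ) →
        ∀ i < 0, (levelExp hR.injective γ g).coeff i = 0 := fun γ hγ i hi => by
      rw [hg, map_sub, HahnSeries.coeff_sub, hpole γ hγ i hi, levelExp_levelC_mul hR, zero_sub,
        neg_eq_zero]
      refine mul_eq_zero_of_right _ ?_
      rw [hH, map_pow]
      induction e + 1 generalizing i with
      | zero => simp [HahnSeries.coeff_one, hi.ne]
      | succ s ihs =>
        rw [pow_succ]
        exact coeff_mul_of_lt (m := 0) (m' := 0) ihs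
          (fun i hi => coeff_auxCoord_eq_zero hR L hγ hi) (by simpa using hi)
    obtain ⟨Q, hQ⟩ := ih g hginv hgpole fun i hi => by
      by_cases hd : (k : ℤ) ∣ i
      · obtain ⟨i', rfl⟩ := hd
        rw [hg, map_sub, HahnSeries.coeff_sub, levelExp_levelC_mul hR]
        have hlt : i' < -(e : ℤ) := lt_of_mul_lt_mul_left (by linarith) (Int.natCast_nonneg k)
        rcases (show i' ≤ -((e + 1 : ℕ) : ℤ) by push_cast; omega).lt_or_eq with h1 | h1
        · have h2 : (k : ℤ) * i' < -((k : ℤ) * (e + 1 : ℕ)) := by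
            have hk : (1 : ℤ) < k := by exact_mod_cast L.one_lt
            nlinarith
          rw [h _ h2, hH1.1 _ (by linarith), mul_zero, sub_zero]
        · subst h1
          rw [show (k : ℤ) * -((e + 1 : ℕ) : ℤ) = -((k : ℤ) * (e + 1 : ℕ)) by ring,
            hc, mul_assoc, mul_comm ((hH1.2.unit⁻¹ : Rˣ) : R),
            IsUnit.mul_val_inv hH1.2, mul_one, sub_self]
      · by_contra hne
        exact hd (dvd_of_coeff_ne_zero hR L hginv hne)
    refine ⟨Q + Polynomial.C c * Polynomial.X ^ (e + 1), ?_⟩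
    rw [Polynomial.eval₂_add, ← hQ, Polynomial.eval₂_mul, Polynomial.eval₂_C,
      Polynomial.eval₂_X_pow, hg, hH, sub_add_cancel]

/-- Every invariant function is a polynomial in the coordinate up to a unit. -/
theorem exists_unit_mul_eq_polynomial (f : levelRing φ n) (hf : IsAuxInvariant m f) :
    ∃ (U : levelRing φ n) (Q : Polynomial R), IsUnit U ∧ IsAuxInvariant m U ∧
      f * U = Q.eval₂ (levelC φ n) (auxCoord hR L 0) := by
  classical
  haveI := Fintype.ofFinite (levelGroup φ n)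
  obtain ⟨K, hK⟩ : ∃ K : ℕ, ∀ γ : SL(2, ℤ), ∀ i : ℤ, i < -(K : ℤ) →
      (levelExp hR.injective γ f).coeff i = 0 := by
    refine ⟨Finset.univ.sup fun g : levelGroup φ n =>
      (levelExp hR.injective 1 (g • f)).order.natAbs, fun γ i hi => ?_⟩
    rw [← levelExp_one_smul hR.injective, ← toLevelGroup_smul]
    refine HahnSeries.coeff_eq_zero_of_lt_order (lt_of_lt_of_le hi ?_)
    have h1 := Finset.le_sup (f := fun g : levelGroup φ n =>
      (levelExp hR.injective 1 (g • f)).order.natAbs)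
      (Finset.mem_univ (toLevelGroup φ n γ⁻¹))
    omega
  set U := ∏ j ∈ Finset.range 3, auxCoord hR L (j : ℕ) ^ K with hU
  have hUi : IsAuxInvariant m U := fun δ hδ => by
    rw [hU, Finset.smul_prod']
    exact Finset.prod_congr rfl fun j _ => by rw [smul_pow', smul_auxCoord hR L hδ]
  refine ⟨U, ?_⟩
  have hfUi : IsAuxInvariant m (f * U) := fun δ hδ => by rw [smul_mul', hf δ hδ, hUi δ hδ]
  obtain ⟨Q, hQ⟩ := exists_polynomial_auxCoord hR L (f * U) hfUi fun γ hγ i hi => by
    obtain ⟨j, hj, hjγ⟩ := L.exists_class hγ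
    have hj' : j ∈ Finset.range 3 := Finset.mem_range.mpr hj
    rw [hU, ← Finset.mul_prod_erase _ _ hj', map_mul, map_mul, ← mul_assoc]
    have h1 : ∀ i < (0 : ℤ), (levelExp hR.injective γ f *
        levelExp hR.injective γ (auxCoord hR L (j : ℕ) ^ K)).coeff i = 0 := fun i hi => by
      rw [map_pow]
      have h2 := (unitLead_auxCoord hR L (j : ℕ) γ).pow K
      rw [if_neg hγ, if_pos hjγ] at h2
      refine coeff_mul_of_lt (hK γ) h2.1 (hi.trans_le ?_)
      have hk : (1 : ℤ) < k := by exact_mod_cast L.one_lt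
      nlinarith
    refine coeff_mul_of_lt (m := 0) (m' := 0) h1 ?_ (by simpa using hi)
    clear hi i
    rw [map_prod]
    refine Finset.prod_induction _ (fun F : LaurentSeries R => ∀ i < (0 : ℤ), F.coeff i = 0)
      (fun a b ha hb i hi => coeff_mul_of_lt ha hb (by simpa using hi))
      (fun i hi => by simp [HahnSeries.coeff_one, hi.ne]) fun l _ i hi => ?_
    rw [map_pow]
    have h2 := (unitLead_auxCoord hR L (l : ℕ) γ).pow K
    refine h2.1 i (hi.trans_le (mul_nonneg (Int.natCast_nonneg _) ?_))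
    rw [if_neg hγ]
    split_ifs <;> omega
  exact ⟨Q, IsUnit.prod_iff.mpr fun j _ => (isUnit_auxCoord hR L _).pow K, hUi, hQ⟩

end FermatLib.Igusa
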