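import Fermat.Prelude.Def_ModularCurve_LaurentCoeff
import Mathlib.NumberTheory.ModularForms.QExpansion

/-!
# Laurent expansions in `u = exp (2 π i τ / n)` of functions on the upper half plane

`HasExp n f F` says that the Laurent series `F` converges to `f` everywhere on the upper half
plane. This implies holomorphy and `n`-periodicity and is stable under the ring operations.
-/

set_option autoImplicit false

noncomputable section

open Complex UpperHalfPlane Function Filter Topology
open scoped Manifold Real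

namespace FermatLib.Igusa

variable {n : ℕ}

/-- The local parameter `exp (2 π i τ / n)`. -/
def uParam (n : ℕ) (τ : ℍ) : ℂ := Periodic.qParam (n : ℝ) (τ : ℂ)

theorem uParam_ne_zero (n : ℕ) (τ : ℍ) : uParam n τ ≠ 0 := Periodic.qParam_ne_zero _

theorem norm_uParam_lt_one [NeZero n] (τ : ℍ) : ‖uParam n τ‖ < 1 :=
  Periodic.norm_qParam_lt_one (by exact_mod_cast Nat.pos_of_ne_zero (NeZero.ne n)) τ.im_pos

theorem tendsto_uParam_atImInfty [NeZero n] :
    Tendsto (uParam n) atImInfty (𝓝[≠] 0) := by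
  have hn : (0 : ℝ) < n := by exact_mod_cast Nat.pos_of_ne_zero (NeZero.ne n)
  exact tendsto_nhdsWithin_iff.mpr
    ⟨qParam_tendsto_atImInfty hn, Eventually.of_forall (uParam_ne_zero n)⟩

theorem exists_uParam_eq [NeZero n] {q : ℂ} (hq : ‖q‖ < 1) (hq0 : q ≠ 0) :
    ∃ τ : ℍ, uParam n τ = q := by
  have hn : (0 : ℝ) < n := by exact_mod_cast Nat.pos_of_ne_zero (NeZero.ne n)
  exact ⟨⟨_, Periodic.im_invQParam_pos_of_norm_lt_one hn hq hq0⟩,
    Periodic.qParam_right_inv hn.ne' hq0⟩

/-- `F` is a Laurent expansion of `f` in `uParam n`, valid on the whole upper half plane. -/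
def HasExp (n : ℕ) (f : ℍ → ℂ) (F : LaurentSeries ℂ) : Prop :=
  ∀ τ : ℍ, HasSum (fun k : ℤ => F.coeff k * uParam n τ ^ k) (f τ)

/-- An expansion of the form `u ^ m * p` is an ordinary power series identity. -/
theorem hasExp_single_mul_iff {f : ℍ → ℂ} {m : ℤ} {p : PowerSeries ℂ} :
    HasExp n f (HahnSeries.single m 1 * HahnSeries.ofPowerSeries ℤ ℂ p) ↔
      ∀ τ : ℍ, HasSum (fun i : ℕ => p.coeff i * uParam n τ ^ i) (f τ * uParam n τ ^ (-m)) := by
  refine forall_congr' fun τ => ?_
  have hu : uParam n τ ≠ 0 := uParam_ne_zero n τ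
  have hinj : Injective fun i : ℕ => (i : ℤ) + m := fun a b h => by simpa using h
  have hsupp : ∀ k : ℤ, k ∉ Set.range (fun i : ℕ => (i : ℤ) + m) →
      (HahnSeries.single m (1 : ℂ) * HahnSeries.ofPowerSeries ℤ ℂ p).coeff k * uParam n τ ^ k
        = 0 := by
    intro k hk
    rw [HahnSeries.coeff_single_mul, one_mul, mul_eq_zero]
    refine Or.inl ?_
    rw [HahnSeries.ofPowerSeries_apply]
    refine HahnSeries.embDomain_of_notMem_range ?_
    rintro ⟨i, hi⟩
    exact hk ⟨i, by simp at hi ⊢; omega⟩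
  rw [← hinj.hasSum_iff hsupp]
  have : (fun k : ℤ => (HahnSeries.single m (1 : ℂ) * HahnSeries.ofPowerSeries ℤ ℂ p).coeff k *
      uParam n τ ^ k) ∘ (fun i : ℕ => (i : ℤ) + m) =
        fun i : ℕ => p.coeff i * uParam n τ ^ i * uParam n τ ^ m := by
    funext i
    simp only [comp_apply, HahnSeries.coeff_single_mul, add_sub_cancel_right,
      HahnSeries.ofPowerSeries_apply_coeff, one_mul]
    rw [zpow_add₀ hu, zpow_natCast, mul_assoc]
  rw [this]
  constructor
  · intro h
    simpa [mul_assoc, ← zpow_neg, ← zpow_add₀ hu] using h.mul_right (uParam n τ ^ (-m))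
  · intro h
    have := h.mul_right (uParam n τ ^ m)
    rwa [mul_assoc (f τ), ← zpow_add₀ hu, neg_add_cancel, zpow_zero, mul_one] at this

/-- The coefficients below `m` shifted to an ordinary power series. -/
theorem eq_single_mul_mk {R : Type*} [CommRing R] (F : LaurentSeries R) {m : ℤ}
    (h : ∀ k < m, F.coeff k = 0) :
    F = HahnSeries.single m 1 *
      HahnSeries.ofPowerSeries ℤ R (PowerSeries.mk fun i : ℕ => F.coeff (i + m)) := by
  ext k
  rw [HahnSeries.coeff_single_mul, one_mul]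
  rcases lt_or_ge k m with hk | hk
  · rw [h k hk, HahnSeries.ofPowerSeries_apply]
    refine (HahnSeries.embDomain_of_notMem_range ?_).symm
    rintro ⟨i, hi⟩
    simp at hi
    omega
  · obtain ⟨i, rfl⟩ : ∃ i : ℕ, k = i + m := ⟨(k - m).toNat, by omega⟩
    rw [add_sub_cancel_right, HahnSeries.ofPowerSeries_apply_coeff, PowerSeries.coeff_mk]

theorem exists_eq_single_mul {R : Type*} [CommRing R] (F : LaurentSeries R) :
    ∃ (m : ℤ) (p : PowerSeries R),
      F = HahnSeries.single m 1 * HahnSeries.ofPowerSeries ℤ R p :=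
  ⟨_, _, eq_single_mul_mk F (m := F.order) fun _ hk => HahnSeries.coeff_eq_zero_of_lt_order hk⟩

namespace HasExp

variable {f g : ℍ → ℂ} {F G : LaurentSeries ℂ}

theorem congr (h : HasExp n f F) (hfg : ∀ τ, f τ = g τ) : HasExp n g F :=
  fun τ => hfg τ ▸ h τ

theorem eq_fun (hf : HasExp n f F) (hg : HasExp n g F) : f = g :=
  funext fun τ => (hf τ).unique (hg τ)

theorem zero : HasExp n (0 : ℍ → ℂ) 0 := fun τ => by simpa using hasSum_zero

theorem monomial (k : ℤ) (c : ℂ) :
    HasExp n (fun τ => c * uParam n τ ^ k) (HahnSeries.single k c) := fun τ => by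
  convert hasSum_ite_eq k (c * uParam n τ ^ k) using 1
  funext i
  rcases eq_or_ne i k with rfl | h
  · simp [HahnSeries.coeff_single_same]
  · simp [HahnSeries.coeff_single_of_ne h, h]

theorem const (c : ℂ) : HasExp n (fun _ => c) (HahnSeries.C c) :=
  (monomial (n := n) 0 c).congr fun τ => by simp

theorem one : HasExp n (1 : ℍ → ℂ) 1 := by
  have := const (n := n) 1
  rwa [map_one] at this

theorem neg (hf : HasExp n f F) : HasExp n (-f) (-F) := fun τ => by
  simpa using (hf τ).neg

theorem add (hf : HasExp n f F) (hg : HasExp n g G) : HasExp n (f + g) (F + G) := fun τ => by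
  simpa [add_mul] using (hf τ).add (hg τ)

theorem sub (hf : HasExp n f F) (hg : HasExp n g G) : HasExp n (f - g) (F - G) := by
  simpa [sub_eq_add_neg] using hf.add hg.neg

theorem mul (hf : HasExp n f F) (hg : HasExp n g G) : HasExp n (f * g) (F * G) := by
  obtain ⟨a, p, rfl⟩ := exists_eq_single_mul F
  obtain ⟨b, r, rfl⟩ := exists_eq_single_mul G
  rw [mul_mul_mul_comm, HahnSeries.single_mul_single, one_mul, ← map_mul]
  rw [hasExp_single_mul_iff] at hf hg ⊢
  intro τ
  have hu : uParam n τ ≠ 0 := uParam_ne_zero n τ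
  have h1 := (hf τ).summable.norm
  have h2 := (hg τ).summable.norm
  have hval : (f * g) τ * uParam n τ ^ (-(a + b))
      = (f τ * uParam n τ ^ (-a)) * (g τ * uParam n τ ^ (-b)) := by
    rw [neg_add, zpow_add₀ hu, Pi.mul_apply]
    ring
  have hsum := (summable_norm_sum_mul_antidiagonal_of_summable_norm h1 h2).of_norm
  rw [← (hf τ).tsum_eq, ← (hg τ).tsum_eq,
    tsum_mul_tsum_eq_tsum_sum_antidiagonal_of_summable_norm h1 h2] at hval
  rw [hval]
  refine hsum.hasSum.congr_fun fun i => ?_
  rw [PowerSeries.coeff_mul, Finset.sum_mul]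
  refine Finset.sum_congr rfl fun kl hkl => ?_
  rw [← (Finset.HasAntidiagonal.mem_antidiagonal.mp hkl), pow_add]
  ring

theorem const_mul (c : ℂ) (hf : HasExp n f F) :
    HasExp n (fun τ => c * f τ) (HahnSeries.C c * F) :=
  (const c).mul hf

theorem pow (hf : HasExp n f F) : ∀ k : ℕ, HasExp n (f ^ k) (F ^ k)
  | 0 => by simpa using one
  | k + 1 => by simpa [pow_succ] using (pow hf k).mul hf

theorem prod {ι : Type*} (s : Finset ι) {f : ι → ℍ → ℂ} {F : ι → LaurentSeries ℂ}
    (h : ∀ i ∈ s, HasExp n (f i) (F i)) : HasExp n (∏ i ∈ s, f i) (∏ i ∈ s, F i) := by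
  induction s using Finset.cons_induction with
  | empty => simpa using one
  | cons i s hi ih =>
    rw [Finset.prod_cons, Finset.prod_cons]
    exact (h i (Finset.mem_cons_self i s)).mul
      (ih fun j hj => h j (Finset.mem_cons_of_mem hj))

theorem sum {ι : Type*} (s : Finset ι) {f : ι → ℍ → ℂ} {F : ι → LaurentSeries ℂ}
    (h : ∀ i ∈ s, HasExp n (f i) (F i)) : HasExp n (∑ i ∈ s, f i) (∑ i ∈ s, F i) := by
  induction s using Finset.cons_induction with
  | empty => simpa using zero
  | cons i s hi ih =>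
    rw [Finset.sum_cons, Finset.sum_cons]
    exact (h i (Finset.mem_cons_self i s)).add
      (ih fun j hj => h j (Finset.mem_cons_of_mem hj))

theorem periodic [NeZero n] (hf : HasExp n f F) {τ τ' : ℍ} (h : (τ' : ℂ) = τ + n) :
    f τ' = f τ := by
  have hu : uParam n τ' = uParam n τ := by
    have hn : (n : ℂ) ≠ 0 := by exact_mod_cast NeZero.ne n
    rw [uParam, uParam, h, Periodic.qParam, Periodic.qParam, Complex.exp_eq_exp_iff_exists_int]
    exact ⟨1, by push_cast; field_simp⟩
  have := hf τ'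
  rw [hu] at this
  exact this.unique (hf τ)

end HasExp

section Analytic

variable [NeZero n]

/-- The function of the disc defined by a power series. -/
def discFun (p : PowerSeries ℂ) (q : ℂ) : ℂ := ∑' i : ℕ, p.coeff i * q ^ i

theorem hasFPowerSeriesOnBall_discFun {f : ℍ → ℂ} {m : ℤ} {p : PowerSeries ℂ}
    (h : HasExp n f (HahnSeries.single m 1 * HahnSeries.ofPowerSeries ℤ ℂ p)) :
    HasFPowerSeriesOnBall (discFun p) (FormalMultilinearSeries.ofScalars ℂ fun i => p.coeff i)
      0 1 := by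
  rw [hasExp_single_mul_iff] at h
  have hs : ∀ q : ℂ, ‖q‖ < 1 → Summable fun i : ℕ => p.coeff i * q ^ i := by
    intro q hq
    rcases eq_or_ne q 0 with rfl | h0
    · refine summable_of_ne_finset_zero (s := {0}) fun b hb => ?_
      simp [Finset.mem_singleton.not.mp hb]
    · obtain ⟨τ, rfl⟩ := exists_uParam_eq (n := n) hq h0
      exact (h τ).summable
  refine ⟨?_, zero_lt_one, fun {q} hq => ?_⟩
  · refine le_of_forall_lt_imp_le_of_dense fun r hr => ?_
    lift r to NNReal using hr.ne_top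
    apply FormalMultilinearSeries.le_radius_of_summable
    simpa [norm_mul] using (hs (r : ℂ) (by simpa using hr)).norm
  · rw [← ENNReal.coe_one, Metric.eball_coe, NNReal.coe_one, mem_ball_zero_iff] at hq
    simpa [discFun, FormalMultilinearSeries.ofScalars_apply_eq, mul_comm] using (hs q hq).hasSum

omit [NeZero n] in
theorem eq_discFun_mul {f : ℍ → ℂ} {m : ℤ} {p : PowerSeries ℂ}
    (h : HasExp n f (HahnSeries.single m 1 * HahnSeries.ofPowerSeries ℤ ℂ p)) (τ : ℍ) :
    f τ = discFun p (uParam n τ) * uParam n τ ^ m := by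
  rw [hasExp_single_mul_iff] at h
  rw [discFun, (h τ).tsum_eq, mul_assoc, ← zpow_add₀ (uParam_ne_zero n τ)]
  simp

theorem tendsto_mul_zpow_neg {f : ℍ → ℂ} {m : ℤ} {p : PowerSeries ℂ}
    (h : HasExp n f (HahnSeries.single m 1 * HahnSeries.ofPowerSeries ℤ ℂ p)) :
    Tendsto (fun τ => f τ * uParam n τ ^ (-m)) atImInfty (𝓝 (p.coeff 0)) := by
  have h0 : discFun p 0 = p.coeff 0 := by
    rw [discFun, tsum_eq_single 0 fun b hb => by simp [hb]]
    simp
  have h1 := ((hasFPowerSeriesOnBall_discFun h).continuousOn.continuousAt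
    (Metric.eball_mem_nhds 0 zero_lt_one)).tendsto
  rw [h0] at h1
  refine (h1.comp ((tendsto_uParam_atImInfty (n := n)).mono_right nhdsWithin_le_nhds)).congr fun τ => ?_
  rw [comp_apply, eq_discFun_mul h τ, mul_assoc, ← zpow_add₀ (uParam_ne_zero n τ)]
  simp

theorem HasExp.eq_zero_of_zero {F : LaurentSeries ℂ} (h : HasExp n (0 : ℍ → ℂ) F) : F = 0 := by
  obtain ⟨m, p, rfl⟩ := exists_eq_single_mul F
  have hball := hasFPowerSeriesOnBall_discFun h
  have hev : ∀ᶠ q in 𝓝 (0 : ℂ), discFun p q = 0 := by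
    have hne : ∀ᶠ q in 𝓝[≠] (0 : ℂ), discFun p q = 0 := by
      filter_upwards [nhdsWithin_le_nhds (Metric.ball_mem_nhds (0 : ℂ) one_pos),
        self_mem_nhdsWithin] with q hq hq0
      obtain ⟨τ, rfl⟩ := exists_uParam_eq (n := n) (by simpa using hq) hq0
      have := (eq_discFun_mul h τ).symm
      simpa [uParam_ne_zero, zpow_ne_zero] using this
    exact (hball.hasFPowerSeriesAt.continuousAt.eventuallyEq_nhds_iff_eventuallyEq_nhdsNE (g := fun _ => (0:ℂ))
      continuousAt_const).mp hne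
  have hp : p = 0 := by
    ext i
    have := hball.hasFPowerSeriesAt.congr hev
    have := congrArg (fun s => FormalMultilinearSeries.coeff s i) this.eq_zero
    simpa [FormalMultilinearSeries.coeff_ofScalars] using! this
  simp [hp]

theorem HasExp.unique {f : ℍ → ℂ} {F G : LaurentSeries ℂ} (hF : HasExp n f F)
    (hG : HasExp n f G) : F = G :=
  sub_eq_zero.mp (HasExp.eq_zero_of_zero (n := n) (by simpa using hF.sub hG))

omit [NeZero n] in
theorem mdifferentiable_uParam : MDiff (uParam n) := fun _ =>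
  (Periodic.differentiable_qParam (h := (n : ℝ))).differentiableAt.mdifferentiableAt.comp _
    (UpperHalfPlane.mdifferentiable_coe _)

theorem HasExp.mdifferentiable {f : ℍ → ℂ} {F : LaurentSeries ℂ} (h : HasExp n f F) :
    MDiff f := by
  obtain ⟨m, p, rfl⟩ := exists_eq_single_mul F
  have h1 : MDiff fun τ => discFun p (uParam n τ) * uParam n τ ^ m := by
    intro τ
    have hu : MDiffAt (uParam n) τ := mdifferentiable_uParam τ
    have hd : DifferentiableAt ℂ (fun q => discFun p q * q ^ m) (uParam n τ) :=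
      ((hasFPowerSeriesOnBall_discFun h).analyticAt_of_mem
        (by simpa [← ofReal_norm] using norm_uParam_lt_one τ)).differentiableAt.mul
        (differentiableAt_zpow.mpr (Or.inl (uParam_ne_zero n τ)))
    exact hd.mdifferentiableAt.comp τ hu
  exact (funext (eq_discFun_mul h) : f = _) ▸ h1

theorem HasExp.isBoundedAtImInfty {f : ℍ → ℂ} {F : LaurentSeries ℂ} (h : HasExp n f F)
    (h0 : ∀ k < 0, F.coeff k = 0) : IsBoundedAtImInfty f := by
  rw [eq_single_mul_mk F h0] at h
  have := (tendsto_mul_zpow_neg h).isBigO_one ℝ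
  simp only [neg_zero, zpow_zero, mul_one] at this
  exact this

theorem exists_hasExp_of_isBoundedAtImInfty {f : ℍ → ℂ} (hf : MDiff f)
    (hper : ∀ τ τ' : ℍ, (τ' : ℂ) = τ + n → f τ' = f τ) (m : ℤ)
    (hbd : IsBoundedAtImInfty fun τ => f τ * uParam n τ ^ (-m)) :
    ∃ F : LaurentSeries ℂ, HasExp n f F ∧ ∀ k < m, F.coeff k = 0 := by
  have hn : (0 : ℝ) < n := by exact_mod_cast Nat.pos_of_ne_zero (NeZero.ne n)
  set g : ℍ → ℂ := fun τ => f τ * uParam n τ ^ (-m) with hg
  have hgd : MDiff g := by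
    intro τ
    have hd : DifferentiableAt ℂ (fun q : ℂ => q ^ (-m)) (uParam n τ) :=
      differentiableAt_zpow.mpr (Or.inl (uParam_ne_zero n τ))
    exact (hf τ).mul (hd.mdifferentiableAt.comp τ (mdifferentiable_uParam τ))
  have hgper : Periodic (g ∘ ofComplex) (n : ℝ) := by
    intro w
    by_cases hw : 0 < w.im
    · have hw' : 0 < (w + (n : ℝ)).im := by simpa using hw
      simp only [comp_apply, ofComplex_apply_of_im_pos hw, ofComplex_apply_of_im_pos hw', hg]
      rw [hper ⟨w, hw⟩ ⟨w + (n : ℝ), hw'⟩ (by simp)]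
      congr 2
      rw [uParam, uParam, Periodic.qParam, Periodic.qParam, Complex.exp_eq_exp_iff_exists_int]
      have hn' : ((n : ℝ) : ℂ) ≠ 0 := by exact_mod_cast hn.ne'
      exact ⟨1, by simp only [Int.cast_one]; field_simp⟩
    · have hw' : (w + (n : ℝ)).im ≤ 0 := by simpa using hw
      simp only [comp_apply, ofComplex_apply_of_im_nonpos (not_lt.mp hw),
        ofComplex_apply_of_im_nonpos hw']
  refine ⟨HahnSeries.single m 1 * HahnSeries.ofPowerSeries ℤ ℂ
    (UpperHalfPlane.qExpansion (n : ℝ) g), ?_, fun k hk => ?_⟩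
  · rw [hasExp_single_mul_iff]
    intro τ
    simpa [smul_eq_mul, uParam, hg] using
      UpperHalfPlane.hasSum_qExpansion hn hgper hgd hbd τ
  · rw [HahnSeries.coeff_single_mul, one_mul, HahnSeries.ofPowerSeries_apply]
    refine HahnSeries.embDomain_of_notMem_range ?_
    rintro ⟨i, hi⟩
    simp at hi
    omega

theorem HasExp.inv {f : ℍ → ℂ} {F : LaurentSeries ℂ} (h : HasExp n f F)
    (hne : ∀ τ, f τ ≠ 0) : HasExp n (fun τ => (f τ)⁻¹) F⁻¹ := by
  have hF : F ≠ 0 := by
    rintro rfl
    exact hne UpperHalfPlane.I (congrFun (HasExp.eq_fun h HasExp.zero) _)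
  set m := F.order with hm
  have hc : F.coeff m ≠ 0 := by simpa [hm, ← HahnSeries.coeff_order_eq_zero] using hF
  have hexp := eq_single_mul_mk F (m := m) fun k hk => HahnSeries.coeff_eq_zero_of_lt_order hk
  have ht := tendsto_mul_zpow_neg (n := n) (f := f) (hexp ▸ h)
  simp only [PowerSeries.coeff_mk, Nat.cast_zero, zero_add] at ht
  have hbd : IsBoundedAtImInfty fun τ => (f τ)⁻¹ * uParam n τ ^ (-(-m)) := by
    refine Filter.Tendsto.isBigO_one ℝ (c := (F.coeff m)⁻¹) ((ht.inv₀ hc).congr fun τ => ?_)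
    rw [mul_inv, zpow_neg, inv_inv, neg_neg]
  have hper : ∀ τ τ' : ℍ, (τ' : ℂ) = τ + n → (f τ')⁻¹ = (f τ)⁻¹ :=
    fun τ τ' hτ => by rw [h.periodic hτ]
  have hd : MDiff fun τ => (f τ)⁻¹ := by
    intro τ
    exact (differentiableAt_inv (hne τ)).mdifferentiableAt.comp τ (h.mdifferentiable τ)
  obtain ⟨G, hG, -⟩ := exists_hasExp_of_isBoundedAtImInfty hd hper (-m) hbd
  have h1 : F * G = 1 := by
    refine (h.mul hG).unique (HasExp.one.congr fun τ => ?_)
    simp [hne τ]
  rwa [inv_eq_of_mul_eq_one_right h1]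

end Analytic

end FermatLib.Igusa
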