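import Fermat.Agent.Igusa.LevelJ
import Fermat.Agent.Igusa.DegreeUnits
import Fermat.Agent.Igusa.LevelUnits

/-!
# Level `n` functions built from division values, and their orders at the cusps
-/

set_option autoImplicit false

noncomputable section

open Complex UpperHalfPlane Function ModularCurve CongruenceSubgroup
open scoped MatrixGroups ModularForm

namespace FermatLib.Igusa

/-- All coefficients below `m` vanish and the one at `m` is a unit. -/
def UnitLead {R : Type*} [CommRing R] (F : LaurentSeries R) (m : ℤ) : Prop :=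
  (∀ i < m, F.coeff i = 0) ∧ IsUnit (F.coeff m)

section UnitLead

variable {R S : Type*} [CommRing R] [CommRing S]

theorem unitLead_iff {F : LaurentSeries R} {m : ℤ} :
    UnitLead F m ↔ ∃ p : PowerSeries R, IsUnit p ∧
      F = HahnSeries.single m 1 * HahnSeries.ofPowerSeries ℤ R p := by
  constructor
  · rintro ⟨h, hu⟩
    refine ⟨PowerSeries.mk fun i : ℕ => F.coeff (i + m), ?_, eq_single_mul_mk F h⟩
    rw [PowerSeries.isUnit_iff_constantCoeff, ← PowerSeries.coeff_zero_eq_constantCoeff,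
      PowerSeries.coeff_mk]
    simpa using hu
  · rintro ⟨p, hp, rfl⟩
    refine ⟨fun i hi => ?_, ?_⟩
    · rw [HahnSeries.coeff_single_mul, one_mul]
      exact ofPowerSeries_coeff_of_neg _ (by omega)
    · rw [HahnSeries.coeff_single_mul, one_mul, sub_self, show (0 : ℤ) = ((0 : ℕ) : ℤ) from rfl,
        HahnSeries.ofPowerSeries_apply_coeff, PowerSeries.coeff_zero_eq_constantCoeff]
      exact hp.map _

theorem coeff_mul_of_lt {F G : LaurentSeries R} {m m' : ℤ} (hF : ∀ i < m, F.coeff i = 0)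
    (hG : ∀ i < m', G.coeff i = 0) {i : ℤ} (hi : i < m + m') : (F * G).coeff i = 0 := by
  rw [eq_single_mul_mk F hF, eq_single_mul_mk G hG, mul_mul_mul_comm,
    HahnSeries.single_mul_single, ← map_mul, HahnSeries.coeff_single_mul, one_mul, one_mul]
  exact ofPowerSeries_coeff_of_neg _ (by omega)

theorem coeff_mul_top {F G : LaurentSeries R} {m m' : ℤ} (hF : ∀ i < m, F.coeff i = 0)
    (hG : ∀ i < m', G.coeff i = 0) :
    (F * G).coeff (m + m') = F.coeff m * G.coeff m' := by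
  conv_lhs => rw [eq_single_mul_mk F hF, eq_single_mul_mk G hG, mul_mul_mul_comm,
    HahnSeries.single_mul_single, ← map_mul, HahnSeries.coeff_single_mul, one_mul, one_mul,
    sub_self, show (0 : ℤ) = ((0 : ℕ) : ℤ) from rfl, HahnSeries.ofPowerSeries_apply_coeff,
    PowerSeries.coeff_zero_eq_constantCoeff, map_mul]
  simp

theorem UnitLead.mul {F G : LaurentSeries R} {m m' : ℤ} (hF : UnitLead F m) (hG : UnitLead G m') :
    UnitLead (F * G) (m + m') :=
  ⟨fun _ hi => coeff_mul_of_lt hF.1 hG.1 hi, by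
    rw [coeff_mul_top hF.1 hG.1]; exact hF.2.mul hG.2⟩

theorem unitLead_one : UnitLead (1 : LaurentSeries R) 0 :=
  ⟨fun i hi => by simp [HahnSeries.coeff_one, ne_of_lt hi], by simp⟩

theorem UnitLead.pow {F : LaurentSeries R} {m : ℤ} (hF : UnitLead F m) :
    ∀ e : ℕ, UnitLead (F ^ e) (e * m)
  | 0 => by simpa using unitLead_one (R := R)
  | e + 1 => by
    rw [pow_succ, show ((e + 1 : ℕ) : ℤ) * m = e * m + m by push_cast; ring]
    exact (hF.pow e).mul hF

theorem UnitLead.exists_inv {F : LaurentSeries R} {m : ℤ} (hF : UnitLead F m) :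
    ∃ G, F * G = 1 ∧ UnitLead G (-m) := by
  obtain ⟨p, hp, rfl⟩ := unitLead_iff.mp hF
  obtain ⟨u, rfl⟩ := hp
  refine ⟨HahnSeries.single (-m) 1 * HahnSeries.ofPowerSeries ℤ R (↑u⁻¹), ?_,
    unitLead_iff.mpr ⟨_, u⁻¹.isUnit, rfl⟩⟩
  rw [mul_mul_mul_comm, HahnSeries.single_mul_single, ← map_mul, Units.mul_inv, map_one,
    add_neg_cancel, mul_one, mul_one]
  rfl

theorem UnitLead.map (f : R →+* S) {F : LaurentSeries R} {m : ℤ} (hF : UnitLead F m) :
    UnitLead (coeffMap f F) m :=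
  ⟨fun i hi => by simp [hF.1 i hi], by simpa using hF.2.map f⟩

theorem UnitLead.order_eq [Nontrivial R] {F : LaurentSeries R} {m : ℤ} (hF : UnitLead F m) :
    F ≠ 0 ∧ F.order = m :=
  LeadsWith.order_eq ⟨hF.1, rfl⟩ hF.2.ne_zero

end UnitLead

section Vec

variable {n : ℕ}

theorem SameUpToSign.vecMulSL {a b : ℤ × ℤ} (h : SameUpToSign n a b) (γ : SL(2, ℤ)) :
    SameUpToSign n (FermatLib.Igusa.vecMulSL a γ) (FermatLib.Igusa.vecMulSL b γ) := by
  rcases h with ⟨h1, h2⟩ | ⟨h1, h2⟩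
  · left
    constructor <;> simp only [FermatLib.Igusa.vecMulSL]
    · rw [show a.1 * γ 0 0 + a.2 * γ 1 0 - (b.1 * γ 0 0 + b.2 * γ 1 0) =
        (a.1 - b.1) * γ 0 0 + (a.2 - b.2) * γ 1 0 by ring]
      exact dvd_add (h1.mul_right _) (h2.mul_right _)
    · rw [show a.1 * γ 0 1 + a.2 * γ 1 1 - (b.1 * γ 0 1 + b.2 * γ 1 1) =
        (a.1 - b.1) * γ 0 1 + (a.2 - b.2) * γ 1 1 by ring]
      exact dvd_add (h1.mul_right _) (h2.mul_right _)
  · right
    constructor <;> simp only [FermatLib.Igusa.vecMulSL]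
    · rw [show a.1 * γ 0 0 + a.2 * γ 1 0 + (b.1 * γ 0 0 + b.2 * γ 1 0) =
        (a.1 + b.1) * γ 0 0 + (a.2 + b.2) * γ 1 0 by ring]
      exact dvd_add (h1.mul_right _) (h2.mul_right _)
    · rw [show a.1 * γ 0 1 + a.2 * γ 1 1 + (b.1 * γ 0 1 + b.2 * γ 1 1) =
        (a.1 + b.1) * γ 0 1 + (a.2 + b.2) * γ 1 1 by ring]
      exact dvd_add (h1.mul_right _) (h2.mul_right _)

theorem sameUpToSign_vecMulSL_iff {a b : ℤ × ℤ} (γ : SL(2, ℤ)) :
    SameUpToSign n (vecMulSL a γ) (vecMulSL b γ) ↔ SameUpToSign n a b := by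
  refine ⟨fun h => ?_, fun h => h.vecMulSL γ⟩
  have := h.vecMulSL γ⁻¹
  rwa [vecMulSL_mul, vecMulSL_mul, mul_inv_cancel, vecMulSL_one, vecMulSL_one] at this

theorem vecMulSL_zero (γ : SL(2, ℤ)) : vecMulSL (0, 0) γ = (0, 0) := by simp [vecMulSL]

theorem IsUnitPair.vecMulSL {a b : ℤ × ℤ} (h : IsUnitPair n a b) (γ : SL(2, ℤ)) :
    IsUnitPair n (FermatLib.Igusa.vecMulSL a γ) (FermatLib.Igusa.vecMulSL b γ) := by
  obtain ⟨h1, h2, h3⟩ := h
  exact ⟨fun h => h1 ((sameUpToSign_vecMulSL_iff γ).mp (by rwa [vecMulSL_zero])),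
    fun h => h2 ((sameUpToSign_vecMulSL_iff γ).mp (by rwa [vecMulSL_zero])),
    fun h => h3 ((sameUpToSign_vecMulSL_iff γ).mp h)⟩

theorem sameUpToSign_vecMulSL_of_mem_Gamma (a : ℤ × ℤ) {γ : SL(2, ℤ)} (hγ : γ ∈ CongruenceSubgroup.Gamma n) :
    SameUpToSign n (vecMulSL a γ) a := by
  obtain ⟨h00, h01, h10, h11⟩ := Gamma_mem.mp hγ
  refine Or.inl ⟨?_, ?_⟩ <;> rw [← ZMod.intCast_zmod_eq_zero_iff_dvd] <;>
    simp [vecMulSL, h00, h01, h10, h11]

end Vec

variable {R : Type*} [CommRing R] {φ : R →+* ℂ} {n : ℕ} [NeZero n]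

section Torsion

variable (hR : IsLevelCoeff φ n)
include hR

theorem exists_unitLead_torsionDiff {a b : ℤ × ℤ} (h : IsUnitPair n a b) :
    ∃ F : LaurentSeries R, HasExp n (torsionDiff n a b) (coeffMap φ F) ∧
      UnitLead F (torsOrd n a b) := by
  obtain ⟨F, h1, h2, h3⟩ := exists_hasExp_torsionDiff hR h
  exact ⟨F, h1, h2, h3⟩

theorem exists_hasExp_torsRatio {a b c d : ℤ × ℤ} (h : IsUnitPair n a b) (h' : IsUnitPair n c d) :
    ∃ F : LaurentSeries R,
      HasExp n (fun τ => torsionDiff n a b τ / torsionDiff n c d τ) (coeffMap φ F) ∧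
        UnitLead F (torsOrd n a b - torsOrd n c d) := by
  obtain ⟨F, hF, hFu⟩ := exists_unitLead_torsionDiff hR h
  obtain ⟨G, hG, hGu⟩ := exists_unitLead_torsionDiff hR h'
  obtain ⟨G', hGG', hGu'⟩ := hGu.exists_inv
  refine ⟨F * G', ?_, hFu.mul hGu'⟩
  have hinv : (coeffMap φ G)⁻¹ = coeffMap φ G' :=
    inv_eq_of_mul_eq_one_right (by rw [← map_mul, hGG', map_one])
  rw [map_mul, ← hinv]
  exact (hF.mul (hG.inv fun τ => torsionDiff_ne_zero h' τ)).congr fun τ => by
    simp [div_eq_mul_inv]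

end Torsion

theorem torsRatioFun_smul (a b c d : ℤ × ℤ) (γ : SL(2, ℤ)) (τ : ℍ) :
    torsionDiff n a b (γ • τ) / torsionDiff n c d (γ • τ) =
      torsionDiff n (vecMulSL a γ) (vecMulSL b γ) τ /
        torsionDiff n (vecMulSL c γ) (vecMulSL d γ) τ := by
  rw [torsionDiff_smul, torsionDiff_smul,
    mul_div_mul_left _ _ (pow_ne_zero 2 (UpperHalfPlane.denom_ne_zero γ τ))]

variable (hR : IsLevelCoeff φ n)

/-- The unit `(℘(a) - ℘(b)) / (℘(c) - ℘(d))`. -/
def torsRatio {a b c d : ℤ × ℤ} (h : IsUnitPair n a b) (h' : IsUnitPair n c d) :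
    levelRing φ n :=
  ⟨fun τ => torsionDiff n a b τ / torsionDiff n c d τ, fun γ hγ τ => by
    dsimp only
    rw [torsRatioFun_smul,
      torsionDiff_congr (sameUpToSign_vecMulSL_of_mem_Gamma a hγ)
        (sameUpToSign_vecMulSL_of_mem_Gamma b hγ),
      torsionDiff_congr (sameUpToSign_vecMulSL_of_mem_Gamma c hγ)
        (sameUpToSign_vecMulSL_of_mem_Gamma d hγ)],
    fun γ => ⟨_, (exists_hasExp_torsRatio hR (h.vecMulSL γ) (h'.vecMulSL γ)).choose_spec.1.congr
      fun τ => (torsRatioFun_smul a b c d γ τ).symm⟩⟩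

theorem coe_torsRatio {a b c d : ℤ × ℤ} (h : IsUnitPair n a b) (h' : IsUnitPair n c d) (τ : ℍ) :
    (torsRatio hR h h' : ℍ → ℂ) τ = torsionDiff n a b τ / torsionDiff n c d τ := rfl

theorem unitLead_torsRatio {a b c d : ℤ × ℤ} (h : IsUnitPair n a b) (h' : IsUnitPair n c d)
    (γ : SL(2, ℤ)) :
    UnitLead (levelExp hR.injective γ (torsRatio hR h h'))
      (torsOrd n (vecMulSL a γ) (vecMulSL b γ) - torsOrd n (vecMulSL c γ) (vecMulSL d γ)) := by
  obtain ⟨F, hF, hFu⟩ := exists_hasExp_torsRatio hR (h.vecMulSL γ) (h'.vecMulSL γ)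
  rwa [levelExp_eq hR.injective (F := F)
    (hF.congr fun τ => (torsRatioFun_smul a b c d γ τ).symm)]

theorem torsRatio_mul_swap {a b c d : ℤ × ℤ} (h : IsUnitPair n a b) (h' : IsUnitPair n c d) :
    torsRatio hR h h' * torsRatio hR h' h = 1 :=
  Subtype.ext (funext fun τ => by
    show torsionDiff n a b τ / torsionDiff n c d τ *
      (torsionDiff n c d τ / torsionDiff n a b τ) = 1
    field_simp [torsionDiff_ne_zero h τ, torsionDiff_ne_zero h' τ])

theorem isUnit_torsRatio {a b c d : ℤ × ℤ} (h : IsUnitPair n a b) (h' : IsUnitPair n c d) :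
    IsUnit (torsRatio hR h h') :=
  IsUnit.of_mul_eq_one _ (torsRatio_mul_swap hR h h')

/-- Two ratios with a common denominator differ by a ratio. -/
theorem torsRatio_sub {a a' c d e : ℤ × ℤ} (h : IsUnitPair n a c) (h' : IsUnitPair n a' c)
    (h'' : IsUnitPair n a a') (hd : IsUnitPair n d e) :
    torsRatio hR h hd - torsRatio hR h' hd = torsRatio hR h'' hd :=
  Subtype.ext (funext fun τ => by
    show torsionDiff n a c τ / torsionDiff n d e τ - torsionDiff n a' c τ / torsionDiff n d e τ =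
      torsionDiff n a a' τ / torsionDiff n d e τ
    simp only [torsionDiff, ← sub_div]
    congr 1
    ring)

theorem smul_torsRatio {a b c d : ℤ × ℤ} (h : IsUnitPair n a b) (h' : IsUnitPair n c d)
    (γ : SL(2, ℤ)) :
    γ • torsRatio hR h h' = torsRatio hR (h.vecMulSL γ⁻¹) (h'.vecMulSL γ⁻¹) :=
  Subtype.ext (funext fun τ => by
    rw [coe_levelSmul, coe_torsRatio, coe_torsRatio, torsRatioFun_smul])

theorem torsRatio_congr {a b c d a' b' c' d' : ℤ × ℤ} (h : IsUnitPair n a b)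
    (h' : IsUnitPair n c d) (hh : IsUnitPair n a' b') (hh' : IsUnitPair n c' d')
    (ha : SameUpToSign n a a') (hb : SameUpToSign n b b') (hc : SameUpToSign n c c')
    (hd : SameUpToSign n d d') : torsRatio hR h h' = torsRatio hR hh hh' :=
  Subtype.ext (funext fun τ => by
    rw [coe_torsRatio, coe_torsRatio, torsionDiff_congr ha hb, torsionDiff_congr hc hd])

section Discriminant

include hR in
theorem exists_hasExp_sixth {a b : ℤ × ℤ} (h : IsUnitPair n a b) :
    ∃ F : LaurentSeries R,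
      HasExp n (fun τ => torsionDiff n a b τ ^ 6 / ModularForm.discriminant τ) (coeffMap φ F) ∧
        UnitLead F (6 * torsOrd n a b - n) := by
  obtain ⟨F, hF, hFu⟩ := exists_unitLead_torsionDiff hR h
  obtain ⟨D, hD, hD0, hD1⟩ := exists_hasExp_discriminant_level φ n
  obtain ⟨D', hDD', hDu'⟩ :=
    (show UnitLead D n from ⟨hD0, hD1.symm ▸ isUnit_one⟩).exists_inv
  refine ⟨F ^ 6 * D', ?_, by
    simpa [sub_eq_add_neg] using (hFu.pow 6).mul hDu'⟩
  have hinv : (coeffMap φ D)⁻¹ = coeffMap φ D' :=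
    inv_eq_of_mul_eq_one_right (by rw [← map_mul, hDD', map_one])
  rw [map_mul, map_pow, ← hinv]
  exact ((hF.pow 6).mul (hD.inv ModularForm.discriminant_ne_zero)).congr fun τ => by
    simp [div_eq_mul_inv]

theorem sixthFun_smul (a b : ℤ × ℤ) (γ : SL(2, ℤ)) (τ : ℍ) :
    torsionDiff n a b (γ • τ) ^ 6 / ModularForm.discriminant (γ • τ) =
      torsionDiff n (vecMulSL a γ) (vecMulSL b γ) τ ^ 6 / ModularForm.discriminant τ := by
  rw [torsionDiff_smul, discriminant_smul, mul_pow, ← pow_mul,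
    mul_div_mul_left _ _ (pow_ne_zero _ (UpperHalfPlane.denom_ne_zero γ τ))]

/-- The function `(℘(a) - ℘(b)) ^ 6 / Δ`. -/
def sixthQuot {a b : ℤ × ℤ} (h : IsUnitPair n a b) : levelRing φ n :=
  ⟨fun τ => torsionDiff n a b τ ^ 6 / ModularForm.discriminant τ, fun γ hγ τ => by
    dsimp only
    rw [sixthFun_smul, torsionDiff_congr (sameUpToSign_vecMulSL_of_mem_Gamma a hγ)
      (sameUpToSign_vecMulSL_of_mem_Gamma b hγ)],
    fun γ => ⟨_, (exists_hasExp_sixth hR (h.vecMulSL γ)).choose_spec.1.congr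
      fun τ => (sixthFun_smul a b γ τ).symm⟩⟩

theorem unitLead_sixthQuot {a b : ℤ × ℤ} (h : IsUnitPair n a b) (γ : SL(2, ℤ)) :
    UnitLead (levelExp hR.injective γ (sixthQuot hR h))
      (6 * torsOrd n (vecMulSL a γ) (vecMulSL b γ) - n) := by
  obtain ⟨F, hF, hFu⟩ := exists_hasExp_sixth hR (h.vecMulSL γ)
  rwa [levelExp_eq hR.injective (F := F) (hF.congr fun τ => (sixthFun_smul a b γ τ).symm)]

end Discriminant

end FermatLib.Igusa
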