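import Fermat.Agent.Igusa.LevelInterpolation
import Fermat.Agent.Igusa.GaussReduction
import Fermat.Agent.Igusa.LaurentLattice
import Fermat.Prelude.Def_ModularCurve_ArithmeticGalois

/-!
# Invariants of `Γ₀(N)` as functions on the generic fibre
-/

set_option autoImplicit false
set_option linter.style.haveILetI false
set_option synthInstance.maxHeartbeats 400000

noncomputable section

open Function ModularCurve
open Polynomial hiding C

namespace FermatLib.Igusa

/-- The roots of unity of `ℚ̄` lie in every valuation ring. -/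
theorem hasLevelZeta_valuationSubring (A : ValuationSubring (AlgebraicClosure ℚ))
    (ι : AlgebraicClosure ℚ →+* ℂ) (n : ℕ) [NeZero n] :
    HasLevelZeta (ι.comp A.subtype) n := by
  refine ⟨ι.injective.comp Subtype.val_injective, ?_⟩
  haveI : NeZero (n : AlgebraicClosure ℚ) := ⟨Nat.cast_ne_zero.mpr (NeZero.ne n)⟩
  obtain ⟨z, hz⟩ := HasEnoughRootsOfUnity.exists_primitiveRoot (AlgebraicClosure ℚ) n
  obtain ⟨i, -, hi⟩ := (hz.map_of_injective ι.injective).eq_pow_of_pow_eq_one
    (isPrimitiveRoot_zetaU n).pow_eq_one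
  have hzA : z ∈ A := by
    have hint : IsIntegral A z := ⟨X ^ n - 1,
      by simpa using monic_X_pow_sub_C (1 : A) (NeZero.ne n),
      by simp [hz.pow_eq_one]⟩
    obtain ⟨a, ha⟩ := IsIntegrallyClosed.isIntegral_iff.mp hint
    exact ha ▸ a.2
  exact ⟨⟨z, hzA⟩ ^ i, by rw [map_pow]; exact hi⟩

section CharPoly

variable {R : Type*} [CommRing R] {φ : R →+* ℂ} {n : ℕ} [NeZero n]
variable {L : Type*} [Field L] (ι : R →+* L)

/-- `P ↦ P (j)` on expansions over `L`. -/
def evalJ : Polynomial R →+* LaurentSeries L :=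
  (aeval (R := L) (jqModC L)).toRingHom.comp (mapRingHom ι)

theorem evalJ_mem (P : Polynomial R) : evalJ ι P ∈ Algebra.adjoin L {jqModC L} :=
  aeval_mem_adjoin_singleton L _

theorem eval₂_charpoly_eq_zero (hφ : Injective φ) [Fintype (levelGroup φ n)] {f : levelRing φ n}
    {Q : Polynomial (Polynomial R)}
    (hQ : Q.map (levelPoly φ n) = MulSemiringAction.charpoly (levelGroup φ n) f)
    {y : LaurentSeries R} (hy : levelExp hφ 1 f = qExpand R n y) :
    Q.eval₂ (evalJ ι) (coeffMap ι y) = 0 := by
  apply qExpand_injective (R := L) n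
  rw [map_zero, hom_eval₂, ← coeffMap_qExpand, ← hy,
    show (qExpand L n).comp (evalJ ι) =
      ((coeffMap ι).comp (levelExp hφ 1)).comp (levelPoly φ n) from RingHom.ext fun P =>
        (coeffMap_levelExp_levelPoly ι hφ P).symm,
    ← RingHom.comp_apply (coeffMap ι), ← hom_eval₂, ← eval_map, hQ,
    MulSemiringAction.eval_charpoly (levelGroup φ n) f, map_zero]

theorem isIntegral_jqModC_of_levelExp (hφ : Injective φ) {f : levelRing φ n}
    {y : LaurentSeries R} (hy : levelExp hφ 1 f = qExpand R n y) :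
    IsIntegral (Algebra.adjoin L {jqModC L}) (coeffMap ι y) := by
  haveI := Fintype.ofFinite (levelGroup φ n)
  obtain ⟨Q, hQm, hQ⟩ := exists_charpoly hφ f
  refine ⟨Q.map ((evalJ ι).codRestrict _ (evalJ_mem ι)), hQm.map _, ?_⟩
  rw [eval₂_map]
  exact eval₂_charpoly_eq_zero ι hφ hQ hy

/-- The coefficients of a product of linear factors have poles bounded by their codegree. -/
theorem coeff_prod_bound {T : Type*} [CommRing T] (E : T →+* LaurentSeries R) {κ : Type*}
    (s : Finset κ) (a : κ → T) (B : ℤ) (ha : ∀ g ∈ s, ∀ k < -B, (E (a g)).coeff k = 0) :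
    ∀ (i : ℕ) (k : ℤ), k < B * ((i : ℤ) - s.card) →
      (E ((∏ g ∈ s, (X - Polynomial.C (a g))).coeff i)).coeff k = 0 := by
  classical
  induction s using Finset.induction with
  | empty =>
    intro i k hk
    rcases i with _ | i
    · simp at hk
      simp [HahnSeries.coeff_one, hk.ne]
    · simp [Polynomial.coeff_one]
  | insert g s hg ih =>
    intro i k hk
    rw [Finset.prod_insert hg, sub_mul, coeff_sub, coeff_C_mul, map_sub, HahnSeries.coeff_sub,
      map_mul]
    have ih' := ih fun g hg => ha g (Finset.mem_insert_of_mem hg)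
    rw [Finset.card_insert_of_notMem hg] at hk
    push_cast at hk
    rw [coeff_mul_of_lt (ha g (Finset.mem_insert_self g s)) (ih' i)
      (show k < -B + B * ((i : ℤ) - s.card) by linarith), sub_zero]
    rcases i with _ | i
    · simp
    · rw [coeff_X_mul]
      exact ih' i k (by push_cast at hk; linarith)

theorem coeff_aeval_jqModC_natDegree (p : Polynomial L) :
    (aeval (jqModC L) p).coeff (-(p.natDegree : ℤ)) = p.leadingCoeff := by
  rw [aeval_eq_sum_range, HahnSeries.coeff_sum, Finset.sum_range_succ, Finset.sum_eq_zero,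
    zero_add, Algebra.smul_def, algebraMap_laurentSeries_eq_single, HahnSeries.coeff_single_mul,
    sub_zero, coeff_jqModC_pow_self, mul_one, leadingCoeff]
  intro i hi
  rw [Algebra.smul_def, algebraMap_laurentSeries_eq_single, HahnSeries.coeff_single_mul, sub_zero,
    coeff_jqModC_pow_of_lt L (by
      have := Finset.mem_range.mp hi
      omega), mul_zero]

theorem natDegree_le_of_pole_bound (hφ : Injective φ) (hι : Injective ι) {P : Polynomial R} {e : ℕ}
    (h : ∀ k < -((n : ℤ) * e), (levelExp hφ 1 (levelPoly φ n P)).coeff k = 0) :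
    P.natDegree ≤ e := by
  by_contra hlt
  have hP : (P.map ι).leadingCoeff ≠ 0 :=
    leadingCoeff_ne_zero.mpr ((Polynomial.map_ne_zero_iff hι).mpr fun h0 => hlt (by simp [h0]))
  have hk : (n : ℤ) * (-(P.natDegree : ℤ)) < -((n : ℤ) * e) := by
    have hn : (0 : ℤ) < n := by exact_mod_cast Nat.pos_of_ne_zero (NeZero.ne n)
    have : (e : ℤ) < P.natDegree := by exact_mod_cast not_le.mp hlt
    nlinarith
  refine hP ?_
  rw [← coeff_aeval_jqModC_natDegree, ← qExpand_coeff_mul n, natDegree_map_eq_of_injective hι,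
    ← coeffMap_levelExp_levelPoly ι hφ, coeffMap_coeff, h _ hk, map_zero]

theorem aeval_div_pow_mem {p : Polynomial L} {e : ℕ} (hp : p.natDegree ≤ e) :
    aeval (jqModC L) p / jqModC L ^ e ∈ Algebra.adjoin L {(jqModC L)⁻¹} := by
  have hj : jqModC L ≠ 0 := fun h0 => transcendental_jqModC L (h0 ▸ isAlgebraic_zero)
  rw [aeval_eq_sum_range' (Nat.lt_succ_of_le hp), Finset.sum_div]
  refine sum_mem fun i hi => ?_
  have hi' : i ≤ e := Nat.le_of_lt_succ (Finset.mem_range.mp hi)
  rw [Algebra.smul_def, mul_div_assoc, show jqModC L ^ i / jqModC L ^ e = (jqModC L)⁻¹ ^ (e - i) by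
    rw [inv_pow, ← one_div, div_eq_div_iff (pow_ne_zero _ hj) (pow_ne_zero _ hj), one_mul,
      ← pow_add]
    congr 1
    omega]
  exact mul_mem (Subalgebra.algebraMap_mem _ _) (pow_mem (Algebra.self_mem_adjoin_singleton L _) _)

theorem isIntegral_inv_jqModC_of_bound (hφ : Injective φ) (hι : Injective ι) {f : levelRing φ n}
    {m : ℕ} (hbound : ∀ (γ : Matrix.SpecialLinearGroup (Fin 2) ℤ) (i : ℤ),
      i < -((n * m : ℕ) : ℤ) → (levelExp hφ γ f).coeff i = 0)
    {y : LaurentSeries R} (hy : levelExp hφ 1 f = qExpand R n y) :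
    IsIntegral (Algebra.adjoin L {(jqModC L)⁻¹}) (coeffMap ι y / jqModC L ^ m) := by
  haveI := Fintype.ofFinite (levelGroup φ n)
  haveI : Nontrivial R := ι.domain_nontrivial
  haveI := (isDomain_levelRing (n := n) hφ).toNontrivial
  obtain ⟨Q, hQm, hQ⟩ := exists_charpoly hφ f
  set d := Q.natDegree with hd
  have hdeg : d = Fintype.card (levelGroup φ n) := by
    rw [hd, ← hQm.natDegree_map (levelPoly φ n), hQ, MulSemiringAction.charpoly_eq,
      natDegree_prod_of_monic _ _ fun g _ => monic_X_sub_C _,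
      Finset.sum_congr rfl fun g _ => natDegree_X_sub_C _, Finset.sum_const, Finset.card_univ,
      smul_eq_mul, mul_one]
  have hcoef : ∀ i, (Q.coeff i).natDegree ≤ (d - i) * m := fun i => by
    refine natDegree_le_of_pole_bound (φ := φ) (n := n) ι hφ hι fun k hk => ?_
    rw [← Polynomial.coeff_map, hQ, MulSemiringAction.charpoly_eq]
    refine coeff_prod_bound (levelExp (φ := φ) (n := n) hφ 1) Finset.univ (fun g : levelGroup φ n => g • f)
      ((n * m : ℕ) : ℤ) (fun g _ j hj => ?_) i k ?_
    · obtain ⟨γ, rfl⟩ := toLevelGroup_surjective φ n g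
      rw [toLevelGroup_smul, levelExp_smul, mul_one]
      exact hbound _ j hj
    · rw [Finset.card_univ, ← hdeg]
      push_cast at hk ⊢
      rcases le_or_gt i d with hid | hid
      · push_cast [Nat.cast_sub hid] at hk
        linarith
      · rw [Nat.sub_eq_zero_of_le hid.le] at hk
        push_cast at hk
        have : (0 : ℤ) ≤ (n : ℤ) * m * ((i : ℤ) - d) := mul_nonneg (by positivity) (by omega)
        linarith
  have hj : jqModC L ≠ 0 := fun h0 => transcendental_jqModC L (h0 ▸ isAlgebraic_zero)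
  let c : ℕ → Algebra.adjoin L {(jqModC L)⁻¹} := fun i =>
    ⟨evalJ ι (Q.coeff i) / jqModC L ^ ((d - i) * m),
      aeval_div_pow_mem (natDegree_map_le.trans (hcoef i))⟩
  have hc : c d = 1 := Subtype.ext (by
    simp only [c, hd, coeff_natDegree, hQm.leadingCoeff, map_one, Nat.sub_self, zero_mul, pow_zero,
      div_one, OneMemClass.coe_one])
  refine ⟨∑ i ∈ Finset.range (d + 1), Polynomial.C (c i) * X ^ i, ?_, ?_⟩
  · rw [Finset.sum_range_succ, hc, map_one, one_mul, add_comm]
    exact monic_X_pow_add ((degree_sum_le _ _).trans_lt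
      ((Finset.sup_lt_iff (WithBot.bot_lt_coe d)).mpr fun i hi =>
        (degree_C_mul_X_pow_le i _).trans_lt (WithBot.coe_lt_coe.mpr (Finset.mem_range.mp hi))))
  · rw [eval₂_finsetSum]
    have h0 := eval₂_charpoly_eq_zero ι hφ hQ hy
    rw [eval₂_eq_sum_range, ← hd] at h0
    calc ∑ i ∈ Finset.range (d + 1), _
        = ∑ i ∈ Finset.range (d + 1),
          evalJ ι (Q.coeff i) * coeffMap ι y ^ i / jqModC L ^ (d * m) := by
          refine Finset.sum_congr rfl fun i hi => ?_
          have hi' : i ≤ d := Nat.le_of_lt_succ (Finset.mem_range.mp hi)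
          rw [eval₂_mul, eval₂_C, eval₂_X_pow, div_pow, ← pow_mul,
            show d * m = (d - i) * m + m * i by
              rw [mul_comm m i, ← add_mul, Nat.sub_add_cancel hi'],
            pow_add, ← div_mul_div_comm]
          rfl
      _ = 0 := by rw [← Finset.sum_div, h0, zero_div]

end CharPoly

variable (A : ValuationSubring (AlgebraicClosure ℚ)) (ι : AlgebraicClosure ℚ →+* ℂ)
variable (n N : ℕ) [NeZero n] [NeZero N] (hN : N ∣ n)
variable (hφ : Injective (ι.comp A.subtype))

include hN in
/-- The expansion of an invariant element is a modular function integral over `ℚ̄[j]`. -/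
theorem exists_series_of_fixed {f : levelRing (ι.comp A.subtype) n}
    (hf : ∀ h ∈ (CongruenceSubgroup.Gamma0 N).map (toLevelGroup (ι.comp A.subtype) n), h • f = f) :
    ∃ y : LaurentSeries A, levelExp hφ 1 f = qExpand A n y ∧
      latVal A y ∈ modularFunctionFieldBar N ∧
      IsIntegral (Algebra.adjoin (AlgebraicClosure ℚ) {jqModC (AlgebraicClosure ℚ)})
        (latVal A y) := by
  have hR := hasLevelZeta_valuationSubring A ι n
  have hf' : ∀ γ ∈ CongruenceSubgroup.Gamma0 N, γ • f = f := fun γ hγ => by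
    rw [← toLevelGroup_smul]
    exact hf _ (Subgroup.mem_map_of_mem _ hγ)
  obtain ⟨y, hy⟩ := exists_levelExp_eq_qExpand hR hf'
  refine ⟨y, hy, ?_, isIntegral_jqModC_of_levelExp A.subtype hφ hy⟩
  have h := coeffMap_levelExp_mem hR hN A.subtype hf'
  rw [hy, coeffMap_qExpand] at h
  obtain ⟨z, hz, hze⟩ := h
  show latVal A y ∈ laurentBaseChange (AlgebraicClosure ℚ) (modularFunctionFieldFull N)
  rw [laurentBaseChange_full_eq]
  exact qExpand_injective n hze ▸ hz

omit [NeZero N] in
/-- Bounded poles at all cusps give integrality at infinity. -/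
theorem isIntegral_div_of_bound {f : levelRing (ι.comp A.subtype) n} {m : ℕ}
    (hbound : ∀ (γ : Matrix.SpecialLinearGroup (Fin 2) ℤ) (i : ℤ), i < -((n * m : ℕ) : ℤ) →
      (levelExp hφ γ f).coeff i = 0)
    {y : LaurentSeries A} (hy : levelExp hφ 1 f = qExpand A n y) :
    IsIntegral (Algebra.adjoin (AlgebraicClosure ℚ) {(jqModC (AlgebraicClosure ℚ))⁻¹})
      (latVal A y / jqModC (AlgebraicClosure ℚ) ^ m) :=
  isIntegral_inv_jqModC_of_bound A.subtype hφ Subtype.val_injective hbound hy

end FermatLib.Igusa
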