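import Fermat.Agent.Igusa.LevelJ
import Mathlib.FieldTheory.IsAlgClosed.Basic
import Mathlib.RingTheory.Ideal.GoingUp

/-!
# The level ring is integral over `R[j]`, and its residue fields
-/

set_option autoImplicit false
set_option linter.style.haveILetI false

noncomputable section

open Function Polynomial
open scoped MatrixGroups

namespace FermatLib.Igusa

variable {R : Type*} [CommRing R] {φ : R →+* ℂ} {n : ℕ} [NeZero n]

variable (φ n) in
/-- `P ↦ P (j)`. -/
def levelPoly : R[X] →+* levelRing φ n := eval₂RingHom (levelC φ n) (levelJ φ n)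

theorem levelPoly_C (r : R) : levelPoly φ n (C r) = levelC φ n r := eval₂_C _ _

theorem levelPoly_X : levelPoly φ n X = levelJ φ n := eval₂_X _ _

theorem smul_levelPoly (g : levelGroup φ n) (P : R[X]) :
    g • levelPoly φ n P = levelPoly φ n P := by
  obtain ⟨γ, rfl⟩ := toLevelGroup_surjective φ n g
  rw [toLevelGroup_smul]
  induction P using Polynomial.induction_on with
  | C r => rw [levelPoly_C, smul_levelC]
  | add p q hp hq => rw [map_add, smul_add, hp, hq]
  | monomial e r _ =>
    rw [map_mul, map_pow, levelPoly_C, levelPoly_X, smul_mul', smul_pow', smul_levelJ, smul_levelC]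

theorem exists_levelPoly_eq (hφ : Injective φ) {f : levelRing φ n}
    (hf : ∀ g : levelGroup φ n, g • f = f) : ∃ P, levelPoly φ n P = f := by
  obtain ⟨P, hP⟩ := exists_polynomial_levelJ hφ f fun γ => by
    rw [← toLevelGroup_smul]; exact hf _
  exact ⟨P, hP.symm⟩

theorem exists_charpoly (hφ : Injective φ) [Fintype (levelGroup φ n)] (f : levelRing φ n) :
    ∃ Q : R[X][X], Q.Monic ∧ Q.map (levelPoly φ n) = MulSemiringAction.charpoly (levelGroup φ n) f :=
  by
  have hl : MulSemiringAction.charpoly (levelGroup φ n) f ∈ lifts (levelPoly φ n) :=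
    (lifts_iff_coeff_lifts _).mpr fun i =>
      exists_levelPoly_eq hφ fun g => MulSemiringAction.smul_coeff_charpoly f i g
  obtain ⟨Q, hQ, -, hQm⟩ := lifts_and_natDegree_eq_and_monic hl
    (MulSemiringAction.monic_charpoly (levelGroup φ n) f)
  exact ⟨Q, hQm, hQ⟩

theorem isIntegral_levelPoly (hφ : Injective φ) : (levelPoly φ n).IsIntegral := fun f => by
  haveI := Fintype.ofFinite (levelGroup φ n)
  obtain ⟨Q, hQ, hQf⟩ := exists_charpoly hφ f
  refine ⟨Q, hQ, ?_⟩
  rw [← eval_map, hQf, MulSemiringAction.eval_charpoly (levelGroup φ n) f]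

/-- Residue fields at maximal ideals over the special fibre are the algebraically closed `k`. -/
theorem exists_sub_levelC_mem {k : Type*} [Field k] [IsAlgClosed k] (hφ : Injective φ)
    {red : R →+* k} (hred : Surjective red) (P : Ideal (levelRing φ n)) [hP : P.IsMaximal]
    (hker : ∀ r, red r = 0 → levelC φ n r ∈ P) (f : levelRing φ n) :
    ∃ r : R, f - levelC φ n r ∈ P := by
  letI := Ideal.Quotient.field P
  let h : R →+* levelRing φ n ⧸ P := (Ideal.Quotient.mk P).comp (levelC φ n)
  have hle : RingHom.ker red ≤ RingHom.ker h := fun r hr =>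
    Ideal.Quotient.eq_zero_iff_mem.mpr (hker r (RingHom.mem_ker.mp hr))
  let ψ : k →+* levelRing φ n ⧸ P := red.liftOfSurjective hred ⟨h, hle⟩
  have hψ : ∀ r, ψ (red r) = h r := fun r => RingHom.liftOfRightInverse_comp_apply _ _ _ _ r
  letI : Algebra k (levelRing φ n ⧸ P) := ψ.toAlgebra
  have hcomp : ψ.comp red = h := RingHom.ext hψ
  have hψk : ∀ q : R[X], (Ideal.Quotient.mk P) (levelPoly φ n q) =
      aeval (Ideal.Quotient.mk P (levelJ φ n)) (q.map red) := fun q => by
    rw [aeval_def, eval₂_map, RingHom.algebraMap_toAlgebra, hcomp, levelPoly, coe_eval₂RingHom,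
      hom_eval₂]
  -- the image of `j` is algebraic
  set J : Ideal R[X] := P.comap (levelPoly φ n) with hJ
  haveI hJmax : J.IsMaximal :=
    Ideal.isMaximal_comap_of_isIntegral_of_isMaximal' _ (isIntegral_levelPoly hφ) P
  have hj : IsIntegral k (Ideal.Quotient.mk P (levelJ φ n)) := by
    rw [← isAlgebraic_iff_isIntegral]
    by_contra ht
    have hinj : Injective (aeval (R := k) (Ideal.Quotient.mk P (levelJ φ n))) :=
      transcendental_iff_injective.mp ht
    have hJker : J = RingHom.ker (mapRingHom red) := by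
      ext q
      rw [hJ, Ideal.mem_comap, ← Ideal.Quotient.eq_zero_iff_mem, hψk, RingHom.mem_ker,
        coe_mapRingHom, map_eq_zero_iff _ hinj]
    have hmax : (RingHom.ker (mapRingHom red)).IsMaximal := hJker ▸ hJmax
    exact Polynomial.not_isField k ((RingHom.quotientKerEquivOfSurjective
      (map_surjective red hred)).symm.toMulEquiv.isField
      ((Ideal.Quotient.maximal_ideal_iff_isField_quotient _).mp hmax))
  have hrange : ∀ x : levelRing φ n ⧸ P, IsIntegral k x → ∃ c, ψ c = x := fun x hx =>
    minpoly.mem_range_of_degree_eq_one k x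
      (IsAlgClosed.degree_eq_one_of_irreducible k (minpoly.irreducible hx))
  obtain ⟨c₀, hc₀⟩ := hrange _ hj
  have hint : IsIntegral k (Ideal.Quotient.mk P f) := by
    obtain ⟨Q, hQ, hQf⟩ := isIntegral_levelPoly hφ f
    refine ⟨Q.map ((evalRingHom c₀).comp (mapRingHom red)), hQ.map _, ?_⟩
    rw [eval₂_map, show (algebraMap k (levelRing φ n ⧸ P)).comp
        ((evalRingHom c₀).comp (mapRingHom red)) = (Ideal.Quotient.mk P).comp (levelPoly φ n) from
      RingHom.ext fun q => by
        rw [RingHom.comp_apply, RingHom.comp_apply, RingHom.comp_apply, coe_mapRingHom, hψk,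
          ← hc₀, coe_evalRingHom, ← coe_aeval_eq_eval]
        exact (aeval_algebraMap_apply _ c₀ _).symm,
      ← hom_eval₂, hQf, map_zero]
  obtain ⟨c, hc⟩ := hrange _ hint
  obtain ⟨r, rfl⟩ := hred c
  exact ⟨r, Ideal.Quotient.eq.mp (hc.symm.trans (hψ r))⟩

end FermatLib.Igusa
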