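import Fermat.Prelude.Def_ModularCurve_X0ModL
import Fermat.Prelude.Thm_ModularCurve_coeff_jqModC_neg_one
import Fermat.Agent.Igusa.LevelFun
import Fermat.Agent.Igusa.LevelIntegral

/-!
# Invariants of `Γ₀(N)` in the level ring as modular functions

For `N ∣ n` the expansion at `∞` of a `Γ₀(N)`-invariant element of the level ring is a series in
`q = u ^ n` lying, in every field receiving the coefficients, in the field generated by the
`j (q ^ d)`; it is integral over the polynomials in `j`, and bounds on its poles at all cusps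
give integrality at infinity.
-/

set_option autoImplicit false
set_option linter.style.haveILetI false

noncomputable section

open Function Polynomial ModularCurve CongruenceSubgroup
open scoped MatrixGroups

namespace FermatLib.Igusa

/-- A series in powers of `u ^ n` is an expansion in `q = u ^ n`. -/
theorem exists_qExpand_eq {R : Type*} [CommRing R] (n : ℕ) [NeZero n] (F : LaurentSeries R)
    (h : ∀ k : ℤ, ¬ (n : ℤ) ∣ k → F.coeff k = 0) : ∃ y, qExpand R n y = F := by
  have hbdd : BddBelow (Function.support fun k : ℤ => F.coeff ((n : ℤ) * k)) :=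
    ⟨min 0 F.order, fun k hk => by
      by_contra hlt
      rw [not_le, lt_min_iff] at hlt
      refine hk (HahnSeries.coeff_eq_zero_of_lt_order ?_)
      have hn : (1 : ℤ) ≤ n := by exact_mod_cast Nat.pos_of_ne_zero (NeZero.ne n)
      nlinarith [hlt.1, hlt.2]⟩
  refine ⟨HahnSeries.ofSuppBddBelow _ hbdd, ?_⟩
  ext k
  by_cases hd : (n : ℤ) ∣ k
  · obtain ⟨k', rfl⟩ := hd
    rw [qExpand_coeff_mul]
    rfl
  · rw [qExpand_coeff_of_not_dvd n _ hd, h k hd]

variable {R : Type*} [CommRing R] {φ : R →+* ℂ} {n : ℕ} [NeZero n] (hR : HasLevelZeta φ n)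
variable {N : ℕ}

include hR in
/-- The expansion of a `Γ₀(N)`-invariant element is a series in `q`. -/
theorem exists_levelExp_eq_qExpand {f : levelRing φ n} (hf : ∀ γ ∈ Gamma0 N, γ • f = f) :
    ∃ y, levelExp hR.injective 1 f = qExpand R n y := by
  obtain ⟨y, hy⟩ := exists_qExpand_eq n (levelExp hR.injective 1 f) fun k hk => by
    have h1 : levelExp hR.injective (1 * ModularGroup.T ^ (1 : ℤ)) f =
        levelExp hR.injective 1 f := by
      rw [one_mul, ← levelExp_one_smul hR.injective, hf _ (inv_mem (by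
        simp [Gamma0_mem]))]
    have h2 := levelExp_mul_T_coeff hR.injective 1 1 f k
    rw [h1, one_mul] at h2
    apply hR.injective
    rw [map_zero]
    by_contra h0
    exact hk (((isPrimitiveRoot_zetaU n).zpow_eq_one_iff_dvd k).mp
      (mul_left_cancel₀ h0 (by rw [mul_one]; exact h2.symm)))
  exact ⟨y, hy.symm⟩

variable [NeZero N] (hN : N ∣ n)
variable {L : Type*} [Field L] (ι : R →+* L)

include hN in
/-- Conjugates of `j (N τ)` outside `Γ₀(N)` have different expansions over every field. -/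
theorem coeffMap_levelExp_jLevel_ne {γ : SL(2, ℤ)} (hγ : γ ∉ Gamma0 N) :
    coeffMap ι (levelExp hR.injective 1 (γ • jLevel hR N hN)) ≠
      coeffMap ι (levelExp hR.injective 1 (jLevel hR N hN)) := by
  obtain ⟨i, hi⟩ := exists_levelExp_jLevel hR hN γ⁻¹
  haveI := NeZero.mk (triM_ne_zero (N := n) hN γ⁻¹)
  haveI : NeZero (n * N) := ⟨mul_ne_zero (NeZero.ne n) (NeZero.ne N)⟩
  rw [levelExp_smul, mul_one, hi, levelExp_one_jLevel hR hN, coeffMap_qExpand, coeffMap_qExpand]
  intro h
  have haN : triA N γ⁻¹ < N :=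
    lt_of_le_of_ne (Nat.le_of_dvd (Nat.pos_of_ne_zero (NeZero.ne N)) (triA_dvd N γ⁻¹)) fun he => by
      refine hγ (inv_mem_iff.mp (Modular.Gamma0_mem_iff_dvd.mpr ?_))
      have h2 : (triA N γ⁻¹ : ℤ) ∣ lowerLeft γ⁻¹ := Int.gcd_dvd_right _ _
      rwa [he] at h2
  have hlt : triM n N γ⁻¹ < n * N := by
    obtain ⟨c, hc⟩ := hN
    have hc0 : 0 < c := Nat.pos_of_ne_zero fun h0 => NeZero.ne n (by rw [hc, h0, mul_zero])
    have hsq : triA N γ⁻¹ * triA N γ⁻¹ < N * N := Nat.mul_self_lt_mul_self haN
    calc triM n N γ⁻¹ = c * (triA N γ⁻¹ * triA N γ⁻¹) := by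
          rw [triM, hc, Nat.mul_div_cancel_left c (Nat.pos_of_ne_zero (NeZero.ne N)), mul_assoc]
      _ < c * (N * N) := Nat.mul_lt_mul_of_pos_left hsq hc0
      _ = n * N := by rw [hc]; ring
  have hne : ¬ ((n * N : ℕ) : ℤ) ∣ ((triM n N γ⁻¹ : ℕ) : ℤ) * (-1) := fun hd => by
    rw [mul_neg_one, dvd_neg, Int.natCast_dvd_natCast] at hd
    exact absurd (Nat.le_of_dvd (Nat.pos_of_ne_zero (NeZero.ne _)) hd) (not_le.mpr hlt)
  have h2 := congrArg (fun F : LaurentSeries L => F.coeff (((triM n N γ⁻¹ : ℕ) : ℤ) * (-1))) h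
  simp only [qExpand_coeff_mul, qExpand_coeff_of_not_dvd _ _ hne, coeffMap_coeff,
    twistUnit_coeff, coeff_jqModC_neg_one, one_mul] at h2
  exact ((Units.isUnit _).map ι).ne_zero h2

include hN in
theorem smul_jLevel_of_dvd {γ : SL(2, ℤ)} (hγ : γ ∈ Gamma0 N) :
    γ • jLevel hR N hN = jLevel hR N hN :=
  Subtype.ext (funext fun τ => by
    rw [coe_levelSmul, coe_jLevel,
      Modular.jScaleFun_smul_of_mem (Modular.Gamma0_mem_iff_dvd.mp (inv_mem hγ))])

/-- The field generated by the `j (q ^ d)`, written in `u`. -/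
def levelSubfield (n N : ℕ) [NeZero n] (L : Type*) [Field L] : Subfield (LaurentSeries L) :=
  (IntermediateField.adjoin L (divisorExpansionsC L N)).toSubfield.map (qExpand L n)

omit [NeZero N] in
theorem qExpand_mem_levelSubfield {z : LaurentSeries L}
    (hz : z ∈ IntermediateField.adjoin L (divisorExpansionsC L N)) :
    qExpand L n z ∈ levelSubfield n N L :=
  ⟨z, hz, rfl⟩

theorem coeffMap_levelExp_levelPoly (hφ : Injective φ) (P : R[X]) :
    coeffMap ι (levelExp hφ 1 (levelPoly φ n P)) = qExpand L n (aeval (jqModC L) (P.map ι)) := by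
  induction P using Polynomial.induction_on' with
  | add p q hp hq => rw [map_add, map_add, map_add, hp, hq, Polynomial.map_add, map_add, map_add]
  | monomial e r =>
    rw [← C_mul_X_pow_eq_monomial, map_mul, map_pow, levelPoly_C, levelPoly_X, map_mul, map_pow,
      levelExp_levelC, levelExp_levelJ, map_mul, map_pow, coeffMap_single, coeffMap_qExpand,
      coeffMap_jqModC, Polynomial.map_mul, Polynomial.map_pow, Polynomial.map_C, Polynomial.map_X,
      map_mul, map_pow, aeval_C, aeval_X, map_mul, map_pow, algebraMap_laurentSeries_eq_single,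
      qExpand_single, mul_zero]

theorem levelExp_levelPoly_mem (hφ : Injective φ) {f : levelRing φ n}
    (hf : ∀ g : levelGroup φ n, g • f = f) :
    coeffMap ι (levelExp hφ 1 f) ∈ levelSubfield n N L := by
  obtain ⟨P, rfl⟩ := exists_levelPoly_eq hφ hf
  rw [coeffMap_levelExp_levelPoly]
  refine qExpand_mem_levelSubfield ?_
  have hj : jqModC L ∈ IntermediateField.adjoin L (divisorExpansionsC L N) :=
    IntermediateField.subset_adjoin L _
      ⟨1, inferInstance, one_dvd N, (qExpand_one_apply _).symm⟩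
  exact Algebra.adjoin_le (S := (IntermediateField.adjoin L (divisorExpansionsC L N)).toSubalgebra)
    (Set.singleton_subset_iff.mpr hj) (aeval_mem_adjoin_singleton L _)

include hR hN in
/-- Interpolation: the expansion of an invariant element is rational in `j` and `j (q ^ N)`. -/
theorem coeffMap_levelExp_mem {f : levelRing φ n} (hf : ∀ γ ∈ Gamma0 N, γ • f = f) :
    coeffMap ι (levelExp hR.injective 1 f) ∈ levelSubfield n N L := by
  classical
  haveI := Fintype.ofFinite (levelGroup φ n)
  set θ := jLevel hR N hN with hθ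
  set Φ := (coeffMap ι).comp (levelExp (φ := φ) (n := n) hR.injective (1 : SL(2, ℤ))) with hΦ
  have hθΦ : Φ θ ∈ levelSubfield n N L := by
    haveI : NeZero (n * N) := ⟨mul_ne_zero (NeZero.ne n) (NeZero.ne N)⟩
    rw [hΦ, RingHom.comp_apply, levelExp_one_jLevel hR hN, coeffMap_qExpand, coeffMap_jqModC,
      ← qExpand_qExpand N n (jqModC L)]
    exact qExpand_mem_levelSubfield
      (IntermediateField.subset_adjoin L _ ⟨N, inferInstance, dvd_rfl, rfl⟩)
  set O := (Finset.univ : Finset (levelGroup φ n)).image (fun g => g • θ) with hO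
  have hmemO : ∀ g : levelGroup φ n, g • θ ∈ O := fun g =>
    Finset.mem_image_of_mem _ (Finset.mem_univ g)
  have hθO : θ ∈ O := by simpa using hmemO 1
  have hOiff : ∀ (h : levelGroup φ n) v, h • v ∈ O ↔ v ∈ O := by
    intro h v
    simp only [hO, Finset.mem_image, Finset.mem_univ, true_and]
    constructor
    · rintro ⟨g, hg⟩
      exact ⟨h⁻¹ * g, by rw [mul_smul, hg, inv_smul_smul]⟩
    · rintro ⟨g, rfl⟩
      exact ⟨h * g, mul_smul _ _ _⟩
  choose gOf hgOf using fun v : O => (Finset.mem_image.mp v.2)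
  have hfix : ∀ g g' : levelGroup φ n, g • θ = g' • θ → ∀ f : levelRing φ n,
      (∀ γ ∈ Gamma0 N, γ • f = f) → g • f = g' • f := by
    intro g g' he f hf
    obtain ⟨γ, hγ⟩ := toLevelGroup_surjective φ n (g⁻¹ * g')
    have hθγ : γ • θ = θ := by rw [← toLevelGroup_smul, hγ, mul_smul, ← he, inv_smul_smul]
    have hmem : γ ∈ Gamma0 N := by
      by_contra hc
      exact coeffMap_levelExp_jLevel_ne hR hN ι hc (by rw [hθγ])
    have := hf γ hmem
    rw [← toLevelGroup_smul, hγ, mul_smul, inv_smul_eq_iff] at this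
    exact this.symm
  -- `∑_v w(v) ∏_{v' ≠ v} (X - v')` is invariant, for `w(g θ) = g f`
  have key : ∀ f : levelRing φ n, (∀ γ ∈ Gamma0 N, γ • f = f) →
      Φ (f * ∏ v ∈ O.erase θ, (θ - v)) ∈ levelSubfield n N L := by
    intro f hf
    let w : levelRing φ n → levelRing φ n :=
      fun v => if h : v ∈ O then gOf ⟨v, h⟩ • f else 0
    have hw : ∀ g : levelGroup φ n, w (g • θ) = g • f := fun g => by
      simp only [w, dif_pos (hmemO g)]
      exact hfix _ _ (hgOf ⟨_, hmemO g⟩).2 f hf
    set F : (levelRing φ n)[X] := ∑ v ∈ O, C (w v) * ∏ v' ∈ O.erase v, (X - C v') with hF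
    have hFfix : ∀ h : levelGroup φ n,
        F.map (MulSemiringAction.toRingHom (levelGroup φ n) (levelRing φ n) h) = F := by
      intro h
      rw [hF, Polynomial.map_sum]
      refine Finset.sum_nbij' (fun v => h • v) (fun v => h⁻¹ • v)
        (fun v hv => (hOiff h v).mpr hv) (fun v hv => (hOiff h⁻¹ v).mpr hv)
        (fun v _ => inv_smul_smul h v) (fun v _ => smul_inv_smul h v) fun v hv => ?_
      obtain ⟨g, -, rfl⟩ := Finset.mem_image.mp hv
      rw [Polynomial.map_mul, Polynomial.map_C, MulSemiringAction.toRingHom_apply, hw,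
        ← mul_smul h g θ, hw, mul_smul, Polynomial.map_prod]
      congr 1
      refine Finset.prod_nbij' (fun v => h • v) (fun v => h⁻¹ • v) (fun v hv => ?_)
        (fun v hv => ?_) (fun v _ => inv_smul_smul h v) (fun v _ => smul_inv_smul h v)
        fun v _ => by
          rw [Polynomial.map_sub, Polynomial.map_X, Polynomial.map_C,
            MulSemiringAction.toRingHom_apply]
      · rw [Finset.mem_erase] at hv ⊢
        exact ⟨by rw [mul_smul]; exact fun he => hv.1 (smul_left_cancel h he),
          (hOiff h v).mpr hv.2⟩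
      · rw [Finset.mem_erase] at hv ⊢
        exact ⟨fun he => hv.1 (by rw [mul_smul, ← he, smul_inv_smul]), (hOiff h⁻¹ v).mpr hv.2⟩
    have hcoeff : ∀ i, Φ (F.coeff i) ∈ levelSubfield n N L := fun i =>
      levelExp_levelPoly_mem ι hR.injective fun g => by
        conv_rhs => rw [← hFfix g]
        rw [Polynomial.coeff_map, MulSemiringAction.toRingHom_apply]
    have hev : F.eval θ = f * ∏ v ∈ O.erase θ, (θ - v) := by
      rw [hF, eval_finsetSum, Finset.sum_eq_single θ]
      · rw [eval_mul, eval_C, eval_prod, show w θ = f by simpa using hw 1]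
        simp
      · intro v hv hne
        rw [eval_mul, eval_prod,
          Finset.prod_eq_zero (Finset.mem_erase.mpr ⟨Ne.symm hne, hθO⟩) (by simp), mul_zero]
      · exact fun h => absurd hθO h
    rw [← hev, eval_eq_sum_range, map_sum]
    exact sum_mem fun i _ => by rw [map_mul, map_pow]; exact mul_mem (hcoeff i) (pow_mem hθΦ i)
  have hprod : Φ (∏ v ∈ O.erase θ, (θ - v)) ≠ 0 := by
    rw [map_prod, Finset.prod_ne_zero_iff]
    intro v hv
    obtain ⟨hne, hvO⟩ := Finset.mem_erase.mp hv
    obtain ⟨g, -, rfl⟩ := Finset.mem_image.mp hvO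
    obtain ⟨γ, rfl⟩ := toLevelGroup_surjective φ n g
    rw [toLevelGroup_smul] at hne ⊢
    rw [map_sub, sub_ne_zero]
    exact (coeffMap_levelExp_jLevel_ne hR hN ι fun hγ => hne (smul_jLevel_of_dvd hR hN hγ)).symm
  have h1 := key 1 fun γ _ => smul_one γ
  rw [one_mul] at h1
  have h2 := div_mem (key f hf) h1
  rwa [map_mul, mul_div_cancel_right₀ _ hprod] at h2

end FermatLib.Igusa
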