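import Fermat.Agent.Igusa.LevelAux
import Fermat.Agent.Igusa.LevelIntegral

/-!
# Maximal ideals over the special fibre are principal modulo the special fibre

`Γ(m)`, `m ∈ {2, 3}`, acts freely on the level ring, and its invariants are, up to units, the
polynomials in one coordinate. So at a maximal ideal `P` over `ker red` the ideal `P` is generated
locally by one element and the constants killed by the reduction.
-/

set_option autoImplicit false
set_option linter.style.haveILetI false

noncomputable section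

open Function Polynomial
open scoped MatrixGroups

namespace FermatLib.Igusa

variable {R : Type*} [CommRing R] {φ : R →+* ℂ} {n : ℕ} [NeZero n] (hR : IsLevelCoeff φ n)
variable {m k : ℕ} (L : AuxLevel n m k)

theorem neg_one_le_ker_toLevelGroup : (-1 : SL(2, ℤ)) ∈ (toLevelGroup φ n).ker :=
  MonoidHom.mem_ker.mpr <| Subtype.ext <| RingEquiv.ext fun f => neg_one_smul_levelRing φ n f

theorem toLevelGroup_eq_one_of_mem {γ : SL(2, ℤ)}
    (h : γ ∈ CongruenceSubgroup.Gamma n ∨ -γ ∈ CongruenceSubgroup.Gamma n) :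
    toLevelGroup φ n γ = 1 := by
  rcases h with h | h
  · exact MonoidHom.mem_ker.mp (Gamma_le_ker_toLevelGroup φ n h)
  · rw [show γ = (-1 : SL(2, ℤ)) * -γ by simp, map_mul,
      MonoidHom.mem_ker.mp neg_one_le_ker_toLevelGroup,
      MonoidHom.mem_ker.mp (Gamma_le_ker_toLevelGroup φ n h), one_mul]

include L in
/-- A matrix fixing three points up to sign is `± 1`. -/
theorem mem_Gamma_of_forall_sameUpToSign {γ : SL(2, ℤ)}
    (h1 : SameUpToSign n (vecMulSL (1, 0) γ) (1, 0))
    (h2 : SameUpToSign n (vecMulSL (0, 1) γ) (0, 1))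
    (h3 : SameUpToSign n (vecMulSL (1, 1) γ) (1, 1)) :
    γ ∈ CongruenceSubgroup.Gamma n ∨ -γ ∈ CongruenceSubgroup.Gamma n := by
  haveI : Fact (2 < n) := ⟨L.three_le⟩
  simp only [SameUpToSign, ← ZMod.intCast_zmod_eq_zero_iff_dvd, vecMulSL, Int.cast_sub,
    Int.cast_add, Int.cast_one, one_mul, zero_mul, add_zero, zero_add,
    sub_zero] at h1 h2 h3
  have h2ne : (2 : ZMod n) ≠ 0 := by
    intro h
    have : n ∣ 2 := (ZMod.natCast_eq_zero_iff _ n).mp (by exact_mod_cast h)
    have := Nat.le_of_dvd (by norm_num) this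
    have := L.three_le
    omega
  simp only [CongruenceSubgroup.Gamma_mem, Matrix.SpecialLinearGroup.coe_neg, Matrix.neg_apply,
    Int.cast_neg]
  rcases h1 with ⟨a1, a2⟩ | ⟨a1, a2⟩ <;> rcases h2 with ⟨b1, b2⟩ | ⟨b1, b2⟩
  · exact Or.inl ⟨sub_eq_zero.mp a1, a2, b1, sub_eq_zero.mp b2⟩
  · exfalso
    rcases h3 with ⟨c1, c2⟩ | ⟨c1, c2⟩
    · exact h2ne (by linear_combination a2 + b2 - c2)
    · exact h2ne (by linear_combination c1 - a1 - b1)
  · exfalso
    rcases h3 with ⟨c1, c2⟩ | ⟨c1, c2⟩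
    · exact h2ne (by linear_combination a1 + b1 - c1)
    · exact h2ne (by linear_combination c2 - a2 - b2)
  · exact Or.inr ⟨neg_eq_iff_eq_neg.mpr (eq_neg_of_add_eq_zero_left a1), by rw [a2, neg_zero],
      by rw [b1, neg_zero], neg_eq_iff_eq_neg.mpr (eq_neg_of_add_eq_zero_left b2)⟩

include hR L in
/-- `Γ(m)` acts without inertia. -/
theorem exists_isUnit_smul_sub {δ : SL(2, ℤ)} (hδ : δ ∈ CongruenceSubgroup.Gamma m)
    (hne : toLevelGroup φ n δ ≠ 1) : ∃ ρ : levelRing φ n, IsUnit (δ • ρ - ρ) := by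
  obtain ⟨a, hprim, hmove⟩ : ∃ a : ℤ × ℤ, ¬ ((k : ℤ) ∣ a.1 ∧ (k : ℤ) ∣ a.2) ∧
      ¬ SameUpToSign n (vecMulSL a δ⁻¹) a := by
    have hk : ¬ (k : ℤ) ∣ 1 := fun h => by
      have := Int.le_of_dvd (by norm_num) h
      have := L.one_lt
      omega
    by_contra h
    push Not at h
    refine hne (inv_eq_one.mp ?_)
    rw [← map_inv]
    exact toLevelGroup_eq_one_of_mem (mem_Gamma_of_forall_sameUpToSign L
      (h (1, 0) fun h' => absurd h' hk) (h (0, 1) fun _ => hk) (h (1, 1) fun h' => absurd h' hk))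
  set c := auxPt k (0, 1) with hc
  set d := auxPt k (1, 0) with hd
  have hfix : ∀ u, SameUpToSign n (vecMulSL (auxPt k u) δ⁻¹) (auxPt k u) := fun u => by
    rw [vecMulSL_auxPt, L.sameUpToSign_auxPt]
    exact sameUpToSign_vecMulSL_of_mem_Gamma _ (inv_mem hδ)
  have ha0 : ¬ SameUpToSign n a (0, 0) := by
    simpa [auxPt] using L.not_sameUpToSign_of_not_dvd hprim (0, 0)
  have hdc : IsUnitPair n d c := L.isUnitPair_auxPt.mpr (L.isUnitPair_num 0)
  have hac : IsUnitPair n a c := ⟨ha0, hdc.2.1, L.not_sameUpToSign_of_not_dvd hprim _⟩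
  have hac' : IsUnitPair n (vecMulSL a δ⁻¹) c :=
    (hac.vecMulSL δ⁻¹).congr' (SameUpToSign.refl _) (hfix _)
  have haa : IsUnitPair n (vecMulSL a δ⁻¹) a := ⟨hac'.1, ha0, hmove⟩
  refine ⟨torsRatio hR hac hdc, ?_⟩
  rw [smul_torsRatio, torsRatio_congr hR _ _ hac' hdc (SameUpToSign.refl _) (hfix _) (hfix _)
    (hfix _), torsRatio_sub hR hac' hac haa hdc]
  exact isUnit_torsRatio hR _ _

variable {K : Type*} [Field K] [IsAlgClosed K]

include hR L in
theorem exists_local_generator {red : R →+* K} (hred : Surjective red) (P : Ideal (levelRing φ n))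
    [hP : P.IsMaximal] (hker : ∀ r, red r = 0 → levelC φ n r ∈ P) :
    ∃ a ∈ P, ∀ x ∈ P, ∃ e y i, e ∉ P ∧ x * e = a * y + i ∧
      i ∈ (RingHom.ker red).map (levelC φ n) := by
  classical
  haveI := Fintype.ofFinite (levelGroup φ n)
  set H := (CongruenceSubgroup.Gamma m).map (toLevelGroup φ n) with hH
  set J := (RingHom.ker red).map (levelC φ n) with hJ
  have hinv : ∀ f : levelRing φ n, (∀ g : H, (g : levelGroup φ n) • f = f) →
      IsAuxInvariant m f := fun f hf δ hδ => by
    rw [← toLevelGroup_smul]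
    exact hf ⟨_, Subgroup.mem_map_of_mem _ hδ⟩
  obtain ⟨α, hα⟩ := exists_sub_levelC_mem hR.injective hred P hker (auxCoord hR L 0)
  set a := auxCoord hR L 0 - levelC φ n α with ha
  -- invariant elements of `P`
  have hfixed : ∀ f ∈ P, IsAuxInvariant m f → f ∈ Ideal.span {a} ⊔ J := fun f hfP hf => by
    obtain ⟨U, Q, hU, -, hQ⟩ := exists_unit_mul_eq_polynomial hR L f hf
    obtain ⟨q, hq⟩ := sub_dvd_eval_sub (auxCoord hR L 0) (levelC φ n α)
      (Q.map (levelC φ n))
    rw [eval_map, eval_map, ← hQ, eval₂_at_apply] at hq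
    have hcP : levelC φ n (Q.eval α) ∈ P := by
      rw [show levelC φ n (Q.eval α) = f * U - a * q by rw [← hq]; ring]
      exact sub_mem (P.mul_mem_right _ hfP) (P.mul_mem_right _ hα)
    have hcJ : levelC φ n (Q.eval α) ∈ J := by
      refine Ideal.mem_map_of_mem _ (RingHom.mem_ker.mpr ?_)
      by_contra hne
      obtain ⟨r, hr⟩ := hred (red (Q.eval α))⁻¹
      have h1 : levelC φ n (Q.eval α * r - 1) ∈ P :=
        hker _ (by rw [map_sub, map_mul, hr, mul_inv_cancel₀ hne, map_one, sub_self])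
      rw [map_sub, map_mul, map_one] at h1
      exact hP.ne_top ((Ideal.eq_top_iff_one P).mpr
        (by simpa using sub_mem (P.mul_mem_right (levelC φ n r) hcP) h1))
    have hfU : f * U ∈ Ideal.span {a} ⊔ J := by
      rw [show f * U = a * q + levelC φ n (Q.eval α) by rw [← hq]; ring]
      exact Submodule.add_mem_sup (Ideal.mul_mem_right _ _ (Ideal.mem_span_singleton_self a)) hcJ
    rwa [Ideal.mul_unit_mem_iff_mem _ hU] at hfU
  -- a separating product
  have hmove : ∀ g ∈ (Finset.univ : Finset H).erase 1,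
      ∃ ρ : levelRing φ n, IsUnit ((g : levelGroup φ n) • ρ - ρ) := fun g hg => by
    obtain ⟨δ, hδ, hδg⟩ := g.2
    obtain ⟨ρ, hρ⟩ := exists_isUnit_smul_sub hR L hδ (fun h => (Finset.mem_erase.mp hg).1
      (Subtype.ext (hδg.symm.trans h)))
    exact ⟨ρ, by rwa [← hδg, toLevelGroup_smul]⟩
  choose! ρ hρ using hmove
  choose r hr using fun g : H => exists_sub_levelC_mem hR.injective hred P hker (ρ g)
  set eg : H → levelRing φ n := fun g => (g : levelGroup φ n)⁻¹ • (ρ g - levelC φ n (r g)) with heg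
  set e₁ := ∏ g ∈ (Finset.univ : Finset H).erase 1, eg g with he₁
  have hsmulC : ∀ (g : levelGroup φ n) (s : R), g • levelC φ n s = levelC φ n s := fun g s => by
    obtain ⟨γ, rfl⟩ := toLevelGroup_surjective φ n g
    rw [toLevelGroup_smul, smul_levelC]
  have he₁P : e₁ ∉ P := fun h => by
    obtain ⟨g, hg, hgP⟩ := hP.isPrime.prod_mem_iff.mp h
    simp only [heg, smul_sub, hsmulC] at hgP
    have h1 := sub_mem hgP (hr g)
    rw [sub_sub_sub_cancel_right] at h1
    refine hP.ne_top (P.eq_top_of_isUnit_mem h1 ?_)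
    have h2 := ((hρ g hg).map
      (MulSemiringAction.toRingHom (levelGroup φ n) (levelRing φ n) (g : levelGroup φ n)⁻¹)).neg
    rwa [MulSemiringAction.toRingHom_apply, smul_sub, inv_smul_smul, neg_sub] at h2
  set F : H → levelRing φ n := fun h =>
    ∏ g ∈ (Finset.univ : Finset H).erase 1,
      ((h : levelGroup φ n) • ρ g - (g : levelGroup φ n) • ρ g) with hF
  -- a trace identity
  set V : Submodule (levelRing φ n) (H → levelRing φ n) :=
    Submodule.span _ (Set.range fun v h => (h : H).1 • v) with hV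
  have hmul : ∀ f₁ ∈ V, ∀ f₂ ∈ V, f₁ * f₂ ∈ V := fun f₁ h₁ f₂ h₂ => by
    refine Submodule.span_induction (fun f₁ hf₁ => ?_) (by simp) (fun x y _ _ hx hy => ?_)
      (fun c x _ hx => ?_) h₁
    · obtain ⟨v, rfl⟩ := hf₁
      refine Submodule.span_induction (fun f₂ hf₂ => ?_) (by simp) (fun x y _ _ hx hy => ?_)
        (fun c x _ hx => ?_) h₂
      · obtain ⟨w, rfl⟩ := hf₂
        exact Submodule.subset_span ⟨v * w, funext fun h => smul_mul' _ _ _⟩
      · rw [mul_add]; exact add_mem hx hy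
      · rw [mul_smul_comm]; exact V.smul_mem c hx
    · rw [add_mul]; exact add_mem hx hy
    · rw [smul_mul_assoc]; exact V.smul_mem c hx
  have hone : (1 : H → levelRing φ n) ∈ V :=
    Submodule.subset_span ⟨1, funext fun h => smul_one _⟩
  have hFV : F ∈ V := by
    rw [show F = ∏ g ∈ (Finset.univ : Finset H).erase 1,
      fun h : H => (h : levelGroup φ n) • ρ g - (g : levelGroup φ n) • ρ g from funext fun h => by
        rw [Finset.prod_apply]]
    refine Finset.prod_induction _ (· ∈ V) (fun a b ha hb => hmul a ha b hb) hone fun g _ => ?_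
    have h1 : (fun h : H => (h : levelGroup φ n) • ρ g) ∈ V := Submodule.subset_span ⟨ρ g, rfl⟩
    have h2 : (fun h : H => (g : levelGroup φ n) • ρ g) ∈ V := by
      have h3 := V.smul_mem ((g : levelGroup φ n) • ρ g) hone
      rwa [show (((g : levelGroup φ n) • ρ g) • (1 : H → levelRing φ n)) =
        fun _ => (g : levelGroup φ n) • ρ g from funext fun _ => mul_one _] at h3
    exact V.sub_mem h1 h2
  have hF1 : IsUnit (F 1) :=
    IsUnit.prod_iff.mpr fun g hg => by
      simpa [Subgroup.coe_one] using (hρ g hg).neg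
  have htr : ∀ x ∈ P, ∀ f ∈ V,
      ∑ h : H, f h * ((h : levelGroup φ n) • (x * e₁)) ∈ Ideal.span {a} ⊔ J := fun x hx f hf => by
    induction hf using Submodule.span_induction with
    | mem f hf =>
      obtain ⟨v, rfl⟩ := hf
      refine hfixed _ (Ideal.sum_mem _ fun h _ => ?_) (hinv _ fun g => ?_)
      · rw [← smul_mul']
        rcases eq_or_ne h 1 with rfl | hne
        · rw [Subgroup.coe_one, one_smul]
          exact P.mul_mem_left _ (P.mul_mem_right _ hx)
        · rw [he₁, ← Finset.mul_prod_erase _ _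
            (Finset.mem_erase.mpr ⟨hne, Finset.mem_univ h⟩), ← mul_assoc, ← mul_assoc, smul_mul']
          refine P.mul_mem_right _ ?_
          rw [smul_mul']
          refine P.mul_mem_left _ ?_
          rw [heg, smul_inv_smul]
          exact hr h
      · rw [Finset.smul_sum]
        refine Fintype.sum_equiv (Equiv.mulLeft g) _ _ fun h => ?_
        rw [← smul_mul', ← smul_mul', Equiv.coe_mulLeft, Subgroup.coe_mul, mul_smul]
    | zero => simp
    | add f₁ f₂ _ _ h₁ h₂ =>
      simp only [Pi.add_apply, add_mul, Finset.sum_add_distrib]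
      exact add_mem h₁ h₂
    | smul c f _ hf =>
      simp only [Pi.smul_apply, smul_eq_mul, mul_assoc, ← Finset.mul_sum]
      exact Ideal.mul_mem_left _ c hf
  -- conclusion
  refine ⟨a, hα, fun x hx => ?_⟩
  have h1 := htr x hx F hFV
  rw [Finset.sum_eq_single (1 : H) (fun h _ hne => mul_eq_zero_of_left
      (Finset.prod_eq_zero (Finset.mem_erase.mpr ⟨hne, Finset.mem_univ h⟩) (sub_self _)) _)
    (fun h => absurd (Finset.mem_univ _) h), Subgroup.coe_one, one_smul,
    mul_left_comm] at h1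
  obtain ⟨s, hs, i, hi, hsum⟩ := Submodule.mem_sup.mp h1
  obtain ⟨y, rfl⟩ := Ideal.mem_span_singleton'.mp hs
  refine ⟨F 1 * e₁, y, i, fun h => he₁P ?_, by rw [← hsum, mul_comm y a], hi⟩
  exact (Ideal.unit_mul_mem_iff_mem _ hF1).mp h

end FermatLib.Igusa
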