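import Fermat.Agent.Igusa.LevelExp
import Fermat.Prelude.Def_ModularCurve_X0
import Mathlib.RingTheory.RootsOfUnity.Complex
import Mathlib.NumberTheory.ModularForms.LevelOne.Basic

/-!
# Translations, scaling and constant functions
-/

set_option autoImplicit false

noncomputable section

open Complex UpperHalfPlane Function ModularCurve
open scoped Manifold Real MatrixGroups ModularForm

namespace FermatLib.Igusa

/-- The root of unity `exp (2 π i / n)`. -/
def zetaU (n : ℕ) : ℂ := Complex.exp (2 * π * Complex.I / n)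

theorem isPrimitiveRoot_zetaU (n : ℕ) [NeZero n] : IsPrimitiveRoot (zetaU n) n :=
  Complex.isPrimitiveRoot_exp n (NeZero.ne n)

theorem zetaU_ne_zero (n : ℕ) : zetaU n ≠ 0 := Complex.exp_ne_zero _

theorem uParam_T_zpow (n : ℕ) (b : ℤ) (τ : ℍ) :
    uParam n (ModularGroup.T ^ b • τ) = zetaU n ^ b * uParam n τ := by
  rw [uParam, uParam, ModularGroup.coe_T_zpow_smul_eq, Periodic.qParam, Periodic.qParam, zetaU,
    ← Complex.exp_int_mul, ← Complex.exp_add]
  congr 1
  push_cast
  ring

theorem uParam_pow_self (n : ℕ) [NeZero n] (τ : ℍ) : uParam n τ ^ n = uParam 1 τ := by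
  rw [uParam, uParam, Periodic.qParam, Periodic.qParam, ← Complex.exp_nat_mul]
  congr 1
  have hn : (n : ℂ) ≠ 0 := by exact_mod_cast NeZero.ne n
  push_cast
  field_simp

/-- Multiply the `k`-th coefficient by `z ^ (b * k)`. -/
def twistSeries {R : Type*} [Field R] (z : R) (b : ℤ) (F : LaurentSeries R) : LaurentSeries R where
  coeff k := F.coeff k * z ^ (b * k)
  isPWO_support' := F.isPWO_support.mono fun k hk => by
    rw [HahnSeries.mem_support]
    intro h
    exact hk (by simp [h])

@[simp]
theorem twistSeries_coeff {R : Type*} [Field R] (z : R) (b : ℤ) (F : LaurentSeries R) (k : ℤ) :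
    (twistSeries z b F).coeff k = F.coeff k * z ^ (b * k) := rfl

theorem HasExp.translate {n : ℕ} {f : ℍ → ℂ} {F : LaurentSeries ℂ} (h : HasExp n f F) (b : ℤ) :
    HasExp n (fun τ => f (ModularGroup.T ^ b • τ)) (twistSeries (zetaU n) b F) := fun τ => by
  refine (h (ModularGroup.T ^ b • τ)).congr_fun fun k => ?_
  rw [twistSeries_coeff, uParam_T_zpow, mul_zpow, ← zpow_mul, mul_assoc]

theorem HasExp.scale {n : ℕ} [NeZero n] {f : ℍ → ℂ} {F : LaurentSeries ℂ} (h : HasExp 1 f F) :
    HasExp n f (qExpand ℂ n F) := fun τ => by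
  have hinj : Injective fun k : ℤ => (n : ℤ) * k :=
    mul_right_injective₀ (by exact_mod_cast NeZero.ne n)
  rw [← hinj.hasSum_iff]
  · refine (h τ).congr_fun fun k => ?_
    simp only [comp_apply, qExpand_coeff_mul]
    rw [zpow_mul, zpow_natCast, uParam_pow_self]
  · intro k hk
    rw [qExpand_coeff_of_not_dvd n F fun ⟨c, hc⟩ => hk ⟨c, hc.symm⟩, zero_mul]

/-- A level one invariant holomorphic function bounded at `i ∞` is constant. -/
theorem eq_const_of_SL_invariant {f : ℍ → ℂ} (hd : MDiff f)
    (hinv : ∀ (γ : SL(2, ℤ)) (τ : ℍ), f (γ • τ) = f τ) (hb : IsBoundedAtImInfty f) :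
    f = fun _ => f UpperHalfPlane.I := by
  have hsl : ∀ γ : SL(2, ℤ), f ∣[(0 : ℤ)] γ = f := fun γ => by
    funext τ
    rw [ModularForm.SL_slash_apply, hinv]
    simp
  let F : ModularForm 𝒮ℒ 0 :=
    { toFun := f
      slash_action_eq' := by
        rintro _ ⟨γ, rfl⟩
        exact hsl γ
      holo' := hd
      bdd_at_cusps' := fun hc => by
        rw [OnePoint.isBoundedAt_iff_forall_SL2Z hc]
        exact fun γ _ => (hsl γ).symm ▸ hb }
  obtain ⟨c, hc⟩ := ModularFormClass.levelOne_weight_zero_const F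
  have hfc : f = Function.const ℍ c := hc
  funext τ
  rw [hfc]
  rfl

end FermatLib.Igusa
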