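import Fermat.Agent.Igusa.DescentMain
import Fermat.Agent.Igusa.LaurentSeparable
import Fermat.Agent.Igusa.LevelCusp
import Fermat.Agent.Igusa.LevelLocalGen
import Fermat.Agent.Igusa.GaussReduction

/-!
# The reduced level ring

The reductions of the expansions at `∞` of the level ring generate a finite separable extension of
`k(j)`; the invariants of a group of symmetries reduce onto the whole integral closure of `k[j]` in
the field they generate.
-/

set_option autoImplicit false
set_option linter.style.haveILetI false
set_option maxHeartbeats 400000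

noncomputable section

open Function Polynomial ModularCurve

namespace FermatLib.Igusa

/-- An algebraic subalgebra containing generators of a field is the whole field. -/
theorem mem_of_adjoin {k₀ L₀ K₀ : Type*} [Field k₀] [Field L₀] [Algebra k₀ L₀] [Field K₀]
    {E : IntermediateField k₀ L₀} {s : Set L₀} (hE : E = IntermediateField.adjoin k₀ s)
    [Algebra K₀ E] (S : Subalgebra K₀ E) (hC : ∀ c, algebraMap k₀ E c ∈ S)
    (hs : ∀ (y : L₀) (hy : y ∈ E), y ∈ s → (⟨y, hy⟩ : E) ∈ S)
    (halg : ∀ w ∈ S, IsAlgebraic K₀ w) (z : E) : z ∈ S := by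
  subst hE
  obtain ⟨y, hy⟩ := z
  induction hy using IntermediateField.adjoin_induction with
  | mem y hy => exact hs y _ hy
  | algebraMap c => exact hC c
  | add u v _ _ hu hv => exact add_mem hu hv
  | mul u v _ _ hu hv => exact mul_mem hu hv
  | inv u hu' hu => exact S.inv_mem_of_algebraic (x := ⟨_, hu⟩) (halg _ hu)

/-- A subfield containing the generators contains the field they generate. -/
theorem mem_subfield_of_adjoin {k₀ L₀ : Type*} [Field k₀] [Field L₀] [Algebra k₀ L₀]
    {E : IntermediateField k₀ L₀} {s : Set L₀} (hsE : IntermediateField.adjoin k₀ s ≤ E)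
    (S : Subfield E) (hC : ∀ c, algebraMap k₀ E c ∈ S)
    (hs : ∀ (y : L₀) (hy : y ∈ E), y ∈ s → (⟨y, hy⟩ : E) ∈ S)
    (y : L₀) (hy : y ∈ IntermediateField.adjoin k₀ s) : (⟨y, hsE hy⟩ : E) ∈ S := by
  induction hy using IntermediateField.adjoin_induction with
  | mem y hy => exact hs y _ hy
  | algebraMap c => exact hC c
  | add u v _ _ hu hv => exact add_mem hu hv
  | mul u v _ _ hu hv => exact mul_mem hu hv
  | inv u _ hu => exact inv_mem hu

variable {k : Type*} [Field k] (n : ℕ) [NeZero n]

variable (k) in
/-- `j (u ^ n)` over `k`. -/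
def jSpecial : LaurentSeries k := qExpand k n (jqModC k)

theorem aeval_jSpecial (p : k[X]) :
    aeval (jSpecial k n) p = qExpand k n (aeval (jqModC k) p) := by
  rw [jSpecial, ← qExpandAlgHomC_apply, aeval_algHom_apply, qExpandAlgHomC_apply]

theorem jSpecial_injective : Injective (aeval (R := k) (jSpecial k n)) := by
  intro p q h
  rw [aeval_jSpecial, aeval_jSpecial] at h
  exact transcendental_iff_injective.mp (transcendental_jqModC k) (qExpand_injective n h)

theorem order_jSpecial : jSpecial k n ≠ 0 ∧ (jSpecial k n).order = -(n : ℤ) := by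
  have h := ((leadsWith_jqModC k).expand n).order_eq one_ne_zero
  rwa [mul_neg, mul_one] at h

variable {n} {R : Type*} [CommRing R] {φ : R →+* ℂ} (hφ : Injective φ) (red : R →+* k)

/-- The reduced expansion at `∞`. -/
def specialRed : levelRing φ n →+* LaurentSeries k := (coeffMap red).comp (levelExp hφ 1)

theorem specialRed_levelC (r : R) : specialRed hφ red (levelC φ n r) = HahnSeries.C (red r) := by
  rw [specialRed, RingHom.comp_apply, levelExp_levelC, coeffMap_single, HahnSeries.C_apply]

theorem specialRed_levelJ : specialRed hφ red (levelJ φ n) = jSpecial k n := by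
  rw [specialRed, RingHom.comp_apply, levelExp_levelJ, coeffMap_qExpand, coeffMap_jqModC', jSpecial]

theorem specialRed_levelPoly (P : R[X]) :
    specialRed hφ red (levelPoly φ n P) = aeval (jSpecial k n) (P.map red) := by
  rw [levelPoly, coe_eval₂RingHom, hom_eval₂, specialRed_levelJ, aeval_def, eval₂_map]
  congr 1
  ext1 r
  rw [RingHom.comp_apply, RingHom.comp_apply, specialRed_levelC]
  ext i
  simp [algebraMap_laurentSeries_eq_single, HahnSeries.C_apply]

/-- The field generated by the reduced expansions. -/
def SpecialField : IntermediateField k (LaurentSeries k) :=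
  IntermediateField.adjoin k (Set.range (specialRed (n := n) hφ red))

/-- `j`, in the reduced field. -/
def jLevelField : SpecialField (n := n) hφ red :=
  ⟨jSpecial k n, IntermediateField.subset_adjoin k _ ⟨levelJ φ n, specialRed_levelJ hφ red⟩⟩

theorem coe_aeval_jLevelField (p : k[X]) :
    ((aeval (jLevelField (n := n) hφ red) p : SpecialField (n := n) hφ red) : LaurentSeries k) =
      aeval (jSpecial k n) p :=
  (aeval_algHom_apply (SpecialField (n := n) hφ red).val _ _).symm

theorem jLevelField_injective : Injective (aeval (R := k) (jLevelField (n := n) hφ red)) :=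
  fun p q h =>
  jSpecial_injective n (by rw [← coe_aeval_jLevelField hφ red, h, coe_aeval_jLevelField])

instance specialPolyAlgebra : Algebra k[X] (SpecialField (n := n) hφ red) :=
  (aeval (R := k) (jLevelField (n := n) hφ red)).toRingHom.toAlgebra

instance specialRatAlgebra : Algebra (RatFunc k) (SpecialField (n := n) hφ red) :=
  (IsFractionRing.lift (K := RatFunc k) (jLevelField_injective (n := n) hφ red)).toAlgebra

instance specialTower : IsScalarTower k[X] (RatFunc k) (SpecialField (n := n) hφ red) :=
  IsScalarTower.of_algebraMap_eq fun p =>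
    (IsFractionRing.lift_algebraMap (jLevelField_injective (n := n) hφ red) p).symm

theorem algebraMap_specialPoly (p : k[X]) :
    (algebraMap k[X] (SpecialField (n := n) hφ red) p : LaurentSeries k) =
      aeval (jSpecial k n) p :=
  coe_aeval_jLevelField hφ red p

theorem algebraMap_specialPoly_ne_zero {P : k[X]} (hP : P ≠ 0) :
    algebraMap k[X] (SpecialField (n := n) hφ red) P ≠ 0 := fun h =>
  hP (jLevelField_injective hφ red (h.trans (map_zero (algebraMap k[X] _)).symm))

/-- The reduced expansion, in the reduced field. -/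
def specialHom : levelRing φ n →+* SpecialField (n := n) hφ red :=
  (specialRed hφ red).codRestrict _ fun t => IntermediateField.subset_adjoin k _ ⟨t, rfl⟩

theorem coe_specialHom (t : levelRing φ n) :
    (specialHom hφ red t : LaurentSeries k) = specialRed hφ red t := rfl

theorem specialHom_comp_levelPoly :
    (specialHom hφ red).comp (levelPoly φ n) =
      (algebraMap k[X] (SpecialField (n := n) hφ red)).comp (mapRingHom red) :=
  RingHom.ext fun P => Subtype.ext <| by
    rw [RingHom.comp_apply, RingHom.comp_apply, coe_specialHom, specialRed_levelPoly,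
      algebraMap_specialPoly, coe_mapRingHom]

theorem isIntegral_specialHom (t : levelRing φ n) : IsIntegral k[X] (specialHom hφ red t) := by
  haveI := Fintype.ofFinite (levelGroup φ n)
  obtain ⟨Q, hQ, hQt⟩ := exists_charpoly hφ t
  refine ⟨Q.map (mapRingHom red), hQ.map _, ?_⟩
  rw [eval₂_map, ← specialHom_comp_levelPoly, ← hom_eval₂, ← eval_map, hQt,
    MulSemiringAction.eval_charpoly (levelGroup φ n) t, map_zero]

theorem natDegree_minpoly_specialHom_le (t : levelRing φ n) :
    (minpoly (RatFunc k) (specialHom hφ red t)).natDegree ≤ Nat.card (levelGroup φ n) := by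
  haveI := Fintype.ofFinite (levelGroup φ n)
  haveI := (isDomain_levelRing (n := n) hφ).toNontrivial
  obtain ⟨Q, hQ, hQt⟩ := exists_charpoly hφ t
  set Q' := (Q.map (mapRingHom red)).map (algebraMap k[X] (RatFunc k)) with hQ'
  have hQ't : aeval (specialHom hφ red t) Q' = 0 := by
    rw [hQ', aeval_map_algebraMap, aeval_def, eval₂_map, ← specialHom_comp_levelPoly, ← hom_eval₂,
      ← eval_map, hQt, MulSemiringAction.eval_charpoly (levelGroup φ n) t, map_zero]
  have hQm : Q'.Monic := (hQ.map _).map _
  haveI : Nontrivial R := red.domain_nontrivial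
  have hdeg : Q.natDegree = Nat.card (levelGroup φ n) := by
    rw [← hQ.natDegree_map (levelPoly φ n), hQt, MulSemiringAction.charpoly_eq,
      natDegree_prod_of_monic _ _ fun g _ => monic_X_sub_C _,
      Finset.sum_congr rfl fun g _ => natDegree_X_sub_C _, Finset.sum_const, Finset.card_univ,
      Nat.card_eq_fintype_card, smul_eq_mul, mul_one]
  refine le_trans (natDegree_le_natDegree (minpoly.degree_le_of_ne_zero _ _ hQm.ne_zero hQ't)) ?_
  rw [hQ', (hQ.map _).natDegree_map, hQ.natDegree_map, hdeg]

variable {red}

theorem exists_mul_eq_specialHom (hred : Surjective red) (z : SpecialField (n := n) hφ red) :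
    ∃ (P : k[X]) (a : levelRing φ n), P ≠ 0 ∧
      z * algebraMap k[X] _ P = specialHom hφ red a := by
  have hpoly : ∀ P : k[X], ∃ a : levelRing φ n,
      algebraMap k[X] (SpecialField (n := n) hφ red) P = specialHom hφ red a := fun P => by
    obtain ⟨Q, rfl⟩ := map_surjective red hred P
    exact ⟨levelPoly φ n Q, ((RingHom.congr_fun (specialHom_comp_levelPoly hφ red) Q)).symm⟩
  obtain ⟨S, hS⟩ : ∃ S : Subalgebra (RatFunc k) (SpecialField (n := n) hφ red),
      ∀ z, z ∈ S ↔ ∃ (P : k[X]) (a : levelRing φ n), P ≠ 0 ∧
        z * algebraMap k[X] _ P = specialHom hφ red a :=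
   ⟨{ carrier := {z | ∃ (P : k[X]) (a : levelRing φ n), P ≠ 0 ∧
        z * algebraMap k[X] _ P = specialHom hφ red a}
      mul_mem' := by
        rintro z w ⟨P, a, hP, hz⟩ ⟨Q, b, hQ, hw⟩
        exact ⟨P * Q, a * b, mul_ne_zero hP hQ, by rw [map_mul, map_mul, ← hz, ← hw]; ring⟩
      add_mem' := by
        rintro z w ⟨P, a, hP, hz⟩ ⟨Q, b, hQ, hw⟩
        obtain ⟨p, hp⟩ := hpoly P
        obtain ⟨q, hq⟩ := hpoly Q
        refine ⟨P * Q, a * q + b * p, mul_ne_zero hP hQ, ?_⟩
        rw [map_mul, map_add, map_mul, map_mul, ← hz, ← hw, ← hp, ← hq]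
        ring
      algebraMap_mem' := fun c => by
        obtain ⟨P, Q, hQ, rfl⟩ := IsFractionRing.div_surjective (A := k[X]) c
        obtain ⟨p, hp⟩ := hpoly P
        refine ⟨Q, p, nonZeroDivisors.ne_zero hQ, ?_⟩
        rw [map_div₀, ← IsScalarTower.algebraMap_apply, ← IsScalarTower.algebraMap_apply,
          div_mul_cancel₀ _ (algebraMap_specialPoly_ne_zero hφ red (nonZeroDivisors.ne_zero hQ)),
          hp] }, fun _ => Iff.rfl⟩
  have halg : ∀ w ∈ S, IsAlgebraic (RatFunc k) w := by
    intro w hwS
    obtain ⟨P, a, hP, hw⟩ := (hS w).mp hwS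
    have ha : IsIntegral (RatFunc k) (specialHom hφ red a) :=
      (isIntegral_specialHom hφ red a).tower_top
    have hP' : IsIntegral (RatFunc k)
        (algebraMap k[X] (SpecialField (n := n) hφ red) P)⁻¹ := by
      rw [IsScalarTower.algebraMap_apply k[X] (RatFunc k), ← map_inv₀]
      exact isIntegral_algebraMap
    have := ha.mul hP'
    rw [← hw, mul_assoc, mul_inv_cancel₀ (algebraMap_specialPoly_ne_zero hφ red hP),
      mul_one] at this
    exact this.isAlgebraic
  have hC : ∀ (c : k), algebraMap k (SpecialField (n := n) hφ red) c ∈ S := fun c => by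
    obtain ⟨a, ha⟩ := hpoly (C c)
    refine (hS _).mpr ⟨1, a, one_ne_zero, ?_⟩
    rw [map_one, mul_one, ← ha]
    exact (aeval_C (jLevelField (n := n) hφ red) c).symm
  refine (hS z).mp (mem_of_adjoin (E := SpecialField (n := n) hφ red) (s := Set.range (specialRed (n := n) hφ red)) rfl S hC ?_ halg z)
  rintro _ _ ⟨a, rfl⟩
  exact (hS _).mpr ⟨1, a, one_ne_zero, by rw [map_one, mul_one]; rfl⟩

theorem isAlgebraic_specialField (hred : Surjective red) :
    Algebra.IsAlgebraic (RatFunc k) (SpecialField (n := n) hφ red) ∧
      ∀ z : SpecialField (n := n) hφ red,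
        (minpoly (RatFunc k) z).natDegree ≤ Nat.card (levelGroup φ n) := by
  have key : ∀ z : SpecialField (n := n) hφ red, IsIntegral (RatFunc k) z ∧
      (minpoly (RatFunc k) z).natDegree ≤ Nat.card (levelGroup φ n) := fun z => by
    obtain ⟨P, a, hP, hz⟩ := exists_mul_eq_specialHom hφ hred z
    have ha : IsIntegral (RatFunc k) (specialHom hφ red a) :=
      (isIntegral_specialHom hφ red a).tower_top
    haveI := IntermediateField.adjoin.finiteDimensional ha
    have hmem : z ∈ IntermediateField.adjoin (RatFunc k) {specialHom hφ red a} := by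
      rw [show z = specialHom hφ red a * (algebraMap k[X] _ P)⁻¹ by
        rw [← hz, mul_assoc, mul_inv_cancel₀ (algebraMap_specialPoly_ne_zero hφ red hP),
          mul_one], IsScalarTower.algebraMap_apply k[X] (RatFunc k)]
      exact mul_mem (IntermediateField.mem_adjoin_simple_self _ _)
        (inv_mem (IntermediateField.algebraMap_mem _ _))
    have hzint : IsIntegral (RatFunc k) z :=
      (IntermediateField.isIntegral_iff (x := ⟨z, hmem⟩)).mp (Algebra.IsIntegral.isIntegral _)
    refine ⟨hzint, ?_⟩
    rw [← IntermediateField.adjoin.finrank hzint]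
    refine le_trans (LinearMap.finrank_le_finrank_of_injective
      (f := (IntermediateField.inclusion
        (IntermediateField.adjoin_simple_le_iff.mpr hmem)).toLinearMap)
      (IntermediateField.inclusion_injective (IntermediateField.adjoin_simple_le_iff.mpr hmem))) ?_
    exact (IntermediateField.adjoin.finrank ha).le.trans (natDegree_minpoly_specialHom_le hφ red a)
  exact ⟨⟨fun z => (key z).1.isAlgebraic⟩, fun z => (key z).2⟩

variable [IsAlgClosed k] {ℓ : ℕ} [Fact ℓ.Prime] [CharP k ℓ]

include ℓ in
theorem specialField_separable (hred : Surjective red) (hℓn : ¬ ℓ ∣ n) :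
    Algebra.IsSeparable (RatFunc k) (SpecialField (n := n) hφ red) := by
  haveI := (isAlgebraic_specialField (n := n) hφ hred).1
  haveI : PerfectRing k ℓ := PerfectField.toPerfectRing ℓ
  obtain ⟨h0, hord⟩ := order_jSpecial (k := k) n
  refine isSeparable_of_order ℓ (SpecialField (n := n) hφ red).val.toRingHom h0
    (by rwa [hord, dvd_neg, Int.natCast_dvd_natCast]) ?_
  show ((algebraMap (RatFunc k) (SpecialField (n := n) hφ red) RatFunc.X :
    SpecialField (n := n) hφ red) : LaurentSeries k) = jSpecial k n
  rw [← RatFunc.algebraMap_X, ← IsScalarTower.algebraMap_apply, algebraMap_specialPoly, aeval_X]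

include ℓ in
theorem specialField_finiteDimensional (hred : Surjective red) (hℓn : ¬ ℓ ∣ n) :
    FiniteDimensional (RatFunc k) (SpecialField (n := n) hφ red) :=
  haveI := specialField_separable hφ hred hℓn
  finiteDimensional_of_degree_le _ (isAlgebraic_specialField (n := n) hφ hred).2

/-- The reduced expansion, into the integral closure of `k[j]`. -/
def specialClosureHom (red : R →+* k) :
    levelRing φ n →+* ClosureRing k (SpecialField (n := n) hφ red) :=
  (specialHom hφ red).codRestrict (integralClosure k[X] (SpecialField (n := n) hφ red))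
    fun t => isIntegral_specialHom hφ red t

theorem coe_specialClosureHom (t : levelRing φ n) :
    ((specialClosureHom hφ red t : SpecialField (n := n) hφ red) : LaurentSeries k) =
      specialRed hφ red t := rfl

include ℓ in
/-- The descent hypotheses hold. -/
theorem descentData_special (hR : IsLevelCoeff φ n) {m m' : ℕ} (L : AuxLevel n m m') {κ : ℤ}
    (C' : CuspParam n κ) (hred : Surjective red) (hℓn : ¬ ℓ ∣ n) :
    haveI := specialField_separable hR.injective hred hℓn
    haveI := specialField_finiteDimensional hR.injective hred hℓn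
    DescentData (levelGroup φ n) (specialClosureHom (n := n) hR.injective red) := by
  haveI := specialField_separable hR.injective hred hℓn
  haveI := specialField_finiteDimensional hR.injective hred hℓn
  refine ⟨fun p => ?_, fun y => ?_, fun P hP hle => ?_, fun g hg => ?_⟩
  · obtain ⟨Q, rfl⟩ := map_surjective red hred p
    exact ⟨levelPoly φ n Q, fun g => smul_levelPoly g Q,
      Subtype.ext (RingHom.congr_fun (specialHom_comp_levelPoly hR.injective red) Q)⟩
  · obtain ⟨p, a, hp, hpa⟩ := exists_mul_eq_specialHom hR.injective hred y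
    obtain ⟨Q, rfl⟩ := map_surjective red hred p
    have hQ : (specialClosureHom hR.injective red (levelPoly φ n Q) :
        SpecialField (n := n) hR.injective red) =
        algebraMap k[X] _ (mapRingHom red Q) :=
      RingHom.congr_fun (specialHom_comp_levelPoly hR.injective red) Q
    refine ⟨a, levelPoly φ n Q, fun h0 => ?_, by rw [hQ]; exact hpa⟩
    rw [h0] at hQ
    exact algebraMap_specialPoly_ne_zero hR.injective red hp hQ.symm
  · have hker : ∀ r, red r = 0 → levelC φ n r ∈ P := fun r hr =>
      hle (RingHom.mem_ker.mpr (Subtype.ext (Subtype.ext (by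
        rw [coe_specialClosureHom, specialRed_levelC, hr, map_zero]; rfl))))
    haveI := hP
    obtain ⟨a, ha, hloc⟩ := exists_local_generator hR L hred P hker
    refine ⟨a, ha, fun x hx => ?_⟩
    obtain ⟨e, y, i, he, hxe, hi⟩ := hloc x hx
    refine ⟨e, y, i, he, hxe, fun g => ?_⟩
    have hJ : (RingHom.ker red).map (levelC φ n) ≤
        RingHom.ker ((specialClosureHom hR.injective red).comp
          (MulSemiringAction.toRingHom (levelGroup φ n) (levelRing φ n) g)) :=
      Ideal.map_le_iff_le_comap.mpr fun r hr => by
        obtain ⟨γ, rfl⟩ := toLevelGroup_surjective φ n g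
        rw [Ideal.mem_comap, RingHom.mem_ker, RingHom.comp_apply,
          MulSemiringAction.toRingHom_apply, toLevelGroup_smul, smul_levelC]
        exact Subtype.ext (Subtype.ext (by
          rw [coe_specialClosureHom, specialRed_levelC, RingHom.mem_ker.mp hr, map_zero]; rfl))
    simpa using hJ hi
  · refine eq_one_of_forall_red_eq hR C' red g fun (x : levelRing φ n) => ?_
    exact congrArg (fun z : ClosureRing k (SpecialField (n := n) hR.injective red) =>
      ((z : SpecialField (n := n) hR.injective red) : LaurentSeries k)) (hg x)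

include ℓ in
/-- Invariants reduce onto the integral closure of `k[j]` in the field they generate. -/
theorem exists_fixed_specialRed_eq (hR : IsLevelCoeff φ n) {m m' : ℕ} (L : AuxLevel n m m')
    {κ : ℤ} (C' : CuspParam n κ) (hred : Surjective red) (hℓn : ¬ ℓ ∣ n)
    (H : Subgroup (levelGroup φ n)) {z : LaurentSeries k}
    (hz : z ∈ IntermediateField.adjoin k
      (specialRed (n := n) hR.injective red '' {t : levelRing φ n | ∀ h ∈ H, h • t = t}))
    (hint : IsIntegral (Algebra.adjoin k {jSpecial k n}) z) :
    ∃ t : levelRing φ n, (∀ h ∈ H, h • t = t) ∧ specialRed hR.injective red t = z := by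
  haveI := specialField_separable hR.injective hred hℓn
  haveI := specialField_finiteDimensional hR.injective hred hℓn
  set E := SpecialField (n := n) hR.injective red with hE
  have hsub : IntermediateField.adjoin k (specialRed (n := n) hR.injective red '' {t : levelRing φ n | ∀ h ∈ H, h • t = t})
      ≤ E := IntermediateField.adjoin.mono k _ _ (Set.image_subset_range _ _)
  set z' : E := ⟨z, hsub hz⟩
  have hz'int : IsIntegral k[X] z' := by
    let f : k[X] →+* Algebra.adjoin k {jSpecial k n} :=
      ((aeval (⟨_, Algebra.self_mem_adjoin_singleton k _⟩ :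
        Algebra.adjoin k {jSpecial k n})).toRingHom)
    have hf : Surjective f := by
      rintro ⟨w, hw⟩
      rw [Algebra.adjoin_singleton_eq_range_aeval] at hw
      obtain ⟨p, rfl⟩ := hw
      exact ⟨p, Subtype.ext ((aeval_algHom_apply (Subalgebra.val _) _ _).symm)⟩
    obtain ⟨q, hq, hqz⟩ := hint
    obtain ⟨Q, hQ, -, hQm⟩ :=
      lifts_and_natDegree_eq_and_monic (map_surjective f hf q) hq
    refine ⟨Q, hQm, ?_⟩
    apply Subtype.val_injective
    show E.val (eval₂ (algebraMap k[X] E) z' Q) = ((0 : E) : LaurentSeries k)
    rw [show E.val (eval₂ (algebraMap k[X] E) z' Q) =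
      eval₂ ((E.val : E →+* LaurentSeries k).comp (algebraMap k[X] E)) z Q from
        hom_eval₂ _ _ (E.val : E →+* LaurentSeries k) _]
    rw [show ((E.val : E →+* LaurentSeries k)).comp (algebraMap k[X] E) =
      (algebraMap (Algebra.adjoin k {jSpecial k n}) (LaurentSeries k)).comp f from
        RingHom.ext fun p => by
          rw [RingHom.comp_apply, RingHom.comp_apply]
          exact (algebraMap_specialPoly hR.injective red p).trans
            (aeval_algHom_apply (Subalgebra.val (Algebra.adjoin k {jSpecial k n}))
              ⟨_, Algebra.self_mem_adjoin_singleton k _⟩ p), ← eval₂_map, hQ, hqz]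
    rfl
  have key : ∀ (y : LaurentSeries k) (hy : y ∈ IntermediateField.adjoin k
      (specialRed (n := n) hR.injective red '' {t : levelRing φ n | ∀ h ∈ H, h • t = t})),
      (⟨y, hsub hy⟩ : E) ∈ Subfield.closure
        ((fun x => ((specialClosureHom hR.injective red x : ClosureRing k E) : E)) '' {x | ∀ h ∈ H, h • x = x}) := by
    refine mem_subfield_of_adjoin hsub _ (fun c => ?_) ?_
    · obtain ⟨r, rfl⟩ := hred c
      refine Subfield.subset_closure ⟨levelC φ n r, fun h _ => ?_, Subtype.ext ?_⟩
      · obtain ⟨γ, rfl⟩ := toLevelGroup_surjective φ n h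
        rw [toLevelGroup_smul, smul_levelC]
      · rw [coe_specialClosureHom, specialRed_levelC]
        ext i
        simp [algebraMap_laurentSeries_eq_single, HahnSeries.C_apply]
    · rintro _ _ ⟨t, ht, rfl⟩
      exact Subfield.subset_closure ⟨t, ht, rfl⟩
  obtain ⟨t, ht, htz⟩ := (descentData_special hR L C' hred hℓn).exists_fixed_map_eq H
    (z := ⟨z', hz'int⟩) (key z hz)
  exact ⟨t, ht, congrArg (fun w : ClosureRing k E => ((w : E) : LaurentSeries k)) htz⟩

end FermatLib.Igusa
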