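import Fermat.Agent.Igusa.LevelUnitsDefs
import Fermat.Agent.Mazur.Uniformization.Ode

/-!
# Lattice properties of the differences of division values of `℘`

Transformation under `SL(2, ℤ)`, dependence on the index only up to sign modulo `n`, and
non-vanishing.
-/

set_option autoImplicit false

noncomputable section

open Complex UpperHalfPlane
open scoped MatrixGroups Real

namespace FermatLib.Igusa

variable {n : ℕ} [NeZero n]

/-- The point `(a₁ τ + a₂) / n`. -/
def torsPt (n : ℕ) (a : ℤ × ℤ) (τ : ℍ) : ℂ := (a.1 * (τ : ℂ) + a.2) / n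

omit [NeZero n] in
theorem wpValue_eq (a : ℤ × ℤ) (τ : ℍ) :
    wpValue n a τ = (tauPair τ).weierstrassP (torsPt n a τ) := rfl

omit [NeZero n] in
theorem hasSum_wpValue_sub (a b : ℤ × ℤ) (τ : ℍ) :
    HasSum (fun p : ℤ × ℤ => 1 / (torsPt n a τ - (p.1 * (τ : ℂ) + p.2)) ^ 2
      - 1 / (torsPt n b τ - (p.1 * (τ : ℂ) + p.2)) ^ 2) (wpValue n a τ - wpValue n b τ) := by
  have h := ((tauPair τ).hasSum_weierstrassP (torsPt n a τ)).sub
    ((tauPair τ).hasSum_weierstrassP (torsPt n b τ))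
  rw [← (tauPair τ).latticeEquivProd.symm.toEquiv.hasSum_iff] at h
  refine h.congr_fun fun p => ?_
  have hp : ((tauPair τ).latticeEquivProd.symm.toEquiv p : ℂ) = p.1 * (τ : ℂ) + p.2 := by
    rw [LinearEquiv.coe_toEquiv, PeriodPair.latticeEquiv_symm_apply]
    simp [tauPair]
  simp only [Function.comp_apply, hp]
  ring

theorem vecMulSL_mul (a : ℤ × ℤ) (γ δ : SL(2, ℤ)) :
    vecMulSL (vecMulSL a γ) δ = vecMulSL a (γ * δ) := by
  simp only [vecMulSL, Matrix.SpecialLinearGroup.coe_mul, Matrix.mul_apply, Fin.sum_univ_two,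
    Prod.mk.injEq]
  exact ⟨by ring, by ring⟩

theorem vecMulSL_one (a : ℤ × ℤ) : vecMulSL a 1 = a := by simp [vecMulSL]

/-- Right multiplication on `ℤ × ℤ`. -/
def vecMulSLEquiv (γ : SL(2, ℤ)) : ℤ × ℤ ≃ ℤ × ℤ where
  toFun a := vecMulSL a γ
  invFun a := vecMulSL a γ⁻¹
  left_inv a := by simp [vecMulSL_mul, vecMulSL_one]
  right_inv a := by simp [vecMulSL_mul, vecMulSL_one]

theorem lin_smul_eq_div_denom (γ : SL(2, ℤ)) (a : ℤ × ℤ) (τ : ℍ) :
    (a.1 : ℂ) * ((γ • τ : ℍ) : ℂ) + a.2 =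
      ((vecMulSL a γ).1 * (τ : ℂ) + (vecMulSL a γ).2) / UpperHalfPlane.denom γ τ := by
  have h : (γ 1 0 : ℂ) * τ + γ 1 1 ≠ 0 := by
    simpa [ModularGroup.denom_apply] using UpperHalfPlane.denom_ne_zero γ τ
  rw [eq_div_iff (UpperHalfPlane.denom_ne_zero γ τ), UpperHalfPlane.coe_specialLinearGroup_apply]
  simp only [vecMulSL, ModularGroup.denom_apply, eq_intCast]
  push_cast
  rw [add_mul, mul_assoc, div_mul_cancel₀ _ h]
  ring

omit [NeZero n] in
theorem torsionDiff_smul' (γ : SL(2, ℤ)) (a b : ℤ × ℤ) (τ : ℍ) :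
    torsionDiff n a b (γ • τ) =
      UpperHalfPlane.denom γ τ ^ 2 * torsionDiff n (vecMulSL a γ) (vecMulSL b γ) τ := by
  have h1 := hasSum_wpValue_sub (n := n) a b (γ • τ)
  have h2 := ((vecMulSLEquiv γ).hasSum_iff.mpr
    (hasSum_wpValue_sub (n := n) (vecMulSL a γ) (vecMulSL b γ) τ)).mul_left
      (UpperHalfPlane.denom γ τ ^ 2)
  have key : wpValue n a (γ • τ) - wpValue n b (γ • τ) = UpperHalfPlane.denom γ τ ^ 2 *
      (wpValue n (vecMulSL a γ) τ - wpValue n (vecMulSL b γ) τ) := by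
    refine h1.unique (h2.congr_fun fun p => ?_)
    have hpt : ∀ c : ℤ × ℤ, torsPt n c (γ • τ) =
        torsPt n (vecMulSL c γ) τ / UpperHalfPlane.denom γ τ := fun c => by
      rw [torsPt, torsPt, lin_smul_eq_div_denom, div_right_comm]
    simp only [Function.comp_apply, vecMulSLEquiv, Equiv.coe_fn_mk, hpt, lin_smul_eq_div_denom,
      ← sub_div, div_pow, one_div_div]
    ring
  simp only [torsionDiff, key, mul_div_assoc]

omit [NeZero n] in
theorem SameUpToSign.refl (a : ℤ × ℤ) : SameUpToSign n a a := Or.inl ⟨by simp, by simp⟩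

theorem wpValue_congr {a a' : ℤ × ℤ} (h : SameUpToSign n a a') :
    wpValue n a = wpValue n a' := by
  have hn : (n : ℂ) ≠ 0 := by exact_mod_cast NeZero.ne n
  funext τ
  rw [wpValue_eq, wpValue_eq]
  rcases h with ⟨⟨x, hx⟩, ⟨y, hy⟩⟩ | ⟨⟨x, hx⟩, ⟨y, hy⟩⟩
  · have hl : (x : ℂ) * (τ : ℂ) + y ∈ (tauPair τ).lattice :=
      PeriodPair.mem_lattice.mpr ⟨x, y, by simp [tauPair]⟩
    rw [← (tauPair τ).weierstrassP_add_coe (torsPt n a' τ) ⟨_, hl⟩]
    congr 1
    rw [sub_eq_iff_eq_add] at hx hy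
    simp only [torsPt, hx, hy]
    push_cast
    field_simp
    ring
  · have hl : (x : ℂ) * (τ : ℂ) + y ∈ (tauPair τ).lattice :=
      PeriodPair.mem_lattice.mpr ⟨x, y, by simp [tauPair]⟩
    rw [← (tauPair τ).weierstrassP_neg (torsPt n a' τ),
      ← (tauPair τ).weierstrassP_add_coe (-torsPt n a' τ) ⟨_, hl⟩]
    congr 1
    rw [← eq_sub_iff_add_eq] at hx hy
    simp only [torsPt, hx, hy]
    push_cast
    field_simp
    ring

theorem torsionDiff_congr' {a a' b b' : ℤ × ℤ} (ha : SameUpToSign n a a')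
    (hb : SameUpToSign n b b') : torsionDiff n a b = torsionDiff n a' b' := by
  funext τ
  simp only [torsionDiff, wpValue_congr ha, wpValue_congr hb]

omit [NeZero n] in
theorem torsionDiff_swap (a b : ℤ × ℤ) : torsionDiff n b a = -torsionDiff n a b := by
  funext τ
  simp only [torsionDiff, Pi.neg_apply, ← neg_div, neg_sub]

theorem torsPt_mem_lattice_iff (a : ℤ × ℤ) (τ : ℍ) :
    torsPt n a τ ∈ (tauPair τ).lattice ↔ (n : ℤ) ∣ a.1 ∧ (n : ℤ) ∣ a.2 := by
  have hn : (n : ℂ) ≠ 0 := by exact_mod_cast NeZero.ne n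
  constructor
  · intro h
    obtain ⟨x, y, e⟩ := PeriodPair.mem_lattice.mp h
    simp only [tauPair, torsPt, mul_one] at e
    rw [eq_div_iff hn] at e
    have := LinearIndependent.pair_iff.mp (tauPair τ).indep ((x * n - a.1 : ℤ) : ℝ)
      ((y * n - a.2 : ℤ) : ℝ) (by
        simp only [tauPair, Complex.real_smul, Complex.ofReal_intCast, mul_one]
        push_cast
        linear_combination e)
    simp only [Int.cast_eq_zero, sub_eq_zero] at this
    exact ⟨⟨x, by rw [← this.1, mul_comm]⟩, ⟨y, by rw [← this.2, mul_comm]⟩⟩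
  · rintro ⟨⟨x, hx⟩, ⟨y, hy⟩⟩
    refine PeriodPair.mem_lattice.mpr ⟨x, y, ?_⟩
    simp only [tauPair, torsPt, hx, hy, mul_one]
    push_cast
    field_simp

theorem torsionDiff_ne_zero' {a b : ℤ × ℤ} (h : IsUnitPair n a b) (τ : ℍ) :
    torsionDiff n a b τ ≠ 0 := by
  obtain ⟨ha, hb, hab⟩ := h
  refine div_ne_zero (fun h0 => ?_) (pow_ne_zero 2 Complex.two_pi_I_ne_zero)
  have hza : torsPt n a τ ∉ (tauPair τ).lattice := fun hm =>
    ha (Or.inl (by simpa using (torsPt_mem_lattice_iff a τ).1 hm))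
  have hzb : torsPt n b τ ∉ (tauPair τ).lattice := fun hm =>
    hb (Or.inl (by simpa using (torsPt_mem_lattice_iff b τ).1 hm))
  have e0 : (tauPair τ).weierstrassP (torsPt n a τ) = (tauPair τ).weierstrassP (torsPt n b τ) :=
    sub_eq_zero.1 h0
  have e1 : ((tauPair τ).derivWeierstrassP (torsPt n a τ)) ^ 2 =
      ((tauPair τ).derivWeierstrassP (torsPt n b τ)) ^ 2 := by
    rw [(tauPair τ).derivWeierstrassP_sq _ hza, (tauPair τ).derivWeierstrassP_sq _ hzb, e0]
  rcases sq_eq_sq_iff_eq_or_eq_neg.1 e1 with e1 | e1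
  · refine hab (Or.inl ((torsPt_mem_lattice_iff (n := n) (a.1 - b.1, a.2 - b.2) τ).1 ?_))
    convert! Mazur.Uniformization.sub_mem_lattice_of_eq _ hza hzb e0 e1 using 1
    simp only [torsPt, Int.cast_sub]
    ring
  · refine hab (Or.inr ((torsPt_mem_lattice_iff (n := n) (a.1 + b.1, a.2 + b.2) τ).1 ?_))
    have hzb' : -torsPt n b τ ∉ (tauPair τ).lattice := by rwa [neg_mem_iff]
    convert! Mazur.Uniformization.sub_mem_lattice_of_eq _ hza hzb'
      (by rwa [PeriodPair.weierstrassP_neg]) (by rwa [PeriodPair.derivWeierstrassP_neg]) using 1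
    simp only [torsPt, Int.cast_add]
    ring

end FermatLib.Igusa
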