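import Fermat.Agent.Igusa.LevelUnitsLattice
import Mathlib.NumberTheory.ModularForms.EisensteinSeries.QExpansion

/-!
# Row sums of the lattice sum of `℘`

`∑_k (z + k)⁻² = (2 π i)² w / (1 - w)²` with `w = exp (2 π i z)`, and the resulting single sum
for `℘(a) - ℘(b)`.
-/

set_option autoImplicit false

noncomputable section

open Complex UpperHalfPlane Filter Topology

local notation "Ci" => Complex.I
open scoped Real

namespace FermatLib.Igusa

/-- The function `w / (1 - w)²`. -/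
def rowFun (w : ℂ) : ℂ := w / (1 - w) ^ 2

theorem rowFun_inv {w : ℂ} (hw : w ≠ 0) : rowFun w⁻¹ = rowFun w := by
  rcases eq_or_ne w 1 with rfl | h1
  · simp [rowFun]
  have h2 : (1 : ℂ) - w ≠ 0 := sub_ne_zero.2 h1.symm
  have h3 : (1 : ℂ) - w⁻¹ = -(1 - w) / w := by field_simp; ring
  rw [rowFun, rowFun, h3]
  field_simp

theorem summable_one_div_add_int_sq (z : ℂ) :
    Summable fun k : ℤ => 1 / (z + k) ^ 2 := by
  refine (EisensteinSeries.linear_right_summable z 1 (k := 2) le_rfl).congr fun k => ?_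
  simp [zpow_ofNat]

theorem cexp_two_pi_I_mul_ne_one {z : ℂ} (hz : ∀ k : ℤ, z ≠ k) : cexp (2 * π * Ci * z) ≠ 1 := by
  intro h
  obtain ⟨k, hk⟩ := Complex.exp_eq_one_iff.1 h
  refine hz k (mul_left_cancel₀ Complex.two_pi_I_ne_zero ?_)
  rw [hk]
  ring

theorem tsum_one_div_add_int_sq_of_im_pos {z : ℂ} (hz : 0 < z.im) :
    ∑' k : ℤ, 1 / (z + k) ^ 2 = (2 * π * Ci) ^ 2 * rowFun (cexp (2 * π * Ci * z)) := by
  have h := EisensteinSeries.qExpansion_identity (k := 1) le_rfl ⟨z, hz⟩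
  have hw : ‖cexp (2 * π * Ci * z)‖ < 1 := UpperHalfPlane.norm_exp_two_pi_I_lt_one ⟨z, hz⟩
  simp only [Nat.factorial_one, Nat.cast_one, div_one, pow_one,
    tsum_coe_mul_geometric_of_norm_lt_one hw] at h
  rw [h, rowFun]
  ring

theorem continuousAt_tsum_one_div_add_int_sq {x : ℂ} (hx : ∀ k : ℤ, x ≠ k) :
    ContinuousAt (fun z : ℂ => ∑' k : ℤ, 1 / (z + k) ^ 2) x := by
  obtain ⟨δ, hδ, hδx⟩ : ∃ δ > 0, ∀ k : ℤ, δ ≤ ‖x + k‖ := by
    have hclosed : IsClosed (Set.range ((↑) : ℤ → ℂ)) :=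
      Complex.isOpen_compl_range_intCast.isClosed_compl |> fun h => by simpa using h
    obtain ⟨δ, hδ, hball⟩ := Metric.isOpen_iff.1 hclosed.isOpen_compl (-x) (by
      rintro ⟨k, hk⟩
      exact hx (-k) (by push_cast; linear_combination hk))
    refine ⟨δ, hδ, fun k => not_lt.1 fun hlt => hball ?_ ⟨k, rfl⟩⟩
    rw [Metric.mem_ball, dist_eq_norm, sub_neg_eq_add, add_comm]
    exact hlt
  have hne : ∀ z ∈ Metric.ball x (δ / 2), ∀ k : ℤ, ‖x + k‖ / 2 ≤ ‖z + k‖ := by
    intro z hz k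
    rw [Metric.mem_ball, dist_eq_norm] at hz
    have h1 : ‖x + k‖ ≤ ‖z + k‖ + ‖z - x‖ := by
      calc ‖x + k‖ = ‖(z + k) - (z - x)‖ := by ring_nf
        _ ≤ _ := norm_sub_le _ _
    linarith [hδx k]
  refine (continuousOn_tsum (u := fun k : ℤ => 4 * ‖1 / (x + k) ^ 2‖) (fun k => ?_)
    ((summable_one_div_add_int_sq x).norm.mul_left 4) fun k z hz => ?_).continuousAt
    (Metric.ball_mem_nhds x (half_pos hδ))
  · refine continuousOn_const.div (by fun_prop) fun z hz h0 => ?_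
    have := hne z hz k
    rw [sq_eq_zero_iff] at h0
    rw [h0, norm_zero] at this
    linarith [hδx k]
  · simp only [norm_div, norm_one, norm_pow]
    have hxk : 0 < ‖x + k‖ := hδ.trans_le (hδx k)
    have hzk : 0 < ‖z + k‖ := lt_of_lt_of_le (by positivity) (hne z hz k)
    rw [mul_one_div, div_le_div_iff₀ (pow_pos hzk 2) (pow_pos hxk 2)]
    nlinarith [hne z hz k, hxk, hzk]

theorem tsum_one_div_add_int_sq {z : ℂ} (hz : ∀ k : ℤ, z ≠ k) :
    ∑' k : ℤ, 1 / (z + k) ^ 2 = (2 * π * Ci) ^ 2 * rowFun (cexp (2 * π * Ci * z)) := by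
  rcases lt_trichotomy z.im 0 with him | him | him
  · have h := tsum_one_div_add_int_sq_of_im_pos (z := -z) (by simpa using him)
    rw [mul_neg, Complex.exp_neg, rowFun_inv (Complex.exp_ne_zero _)] at h
    rw [← h, ← (Equiv.neg ℤ).tsum_eq fun k : ℤ => 1 / (-z + k) ^ 2]
    refine tsum_congr fun k => ?_
    rw [Equiv.neg_apply]
    push_cast
    ring
  · -- the real case follows by continuity from the upper half plane
    have hden : (1 - cexp (2 * π * Ci * z)) ^ 2 ≠ 0 :=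
      pow_ne_zero 2 (sub_ne_zero.2 (cexp_two_pi_I_mul_ne_one hz).symm)
    have hR : ContinuousAt (fun u => (2 * π * Ci) ^ 2 * rowFun (cexp (2 * π * Ci * u))) z := by
      have hnum : ContinuousAt (fun u => cexp (2 * π * Ci * u)) z := by fun_prop
      exact ((hnum.div ((continuousAt_const.sub hnum).pow 2) hden).const_mul ((2 * π * Ci) ^ 2) :)
    have hp : Tendsto (fun t : ℝ => z + t * Ci) (𝓝[>] 0) (𝓝 z) :=
      ((Continuous.tendsto' (by fun_prop) _ _ (by simp)).mono_left nhdsWithin_le_nhds)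
    refine tendsto_nhds_unique ((continuousAt_tsum_one_div_add_int_sq hz).tendsto.comp hp)
      ((hR.tendsto.comp hp).congr' ?_)
    filter_upwards [self_mem_nhdsWithin] with t ht
    exact (tsum_one_div_add_int_sq_of_im_pos (by simpa [him] using ht)).symm
  · exact tsum_one_div_add_int_sq_of_im_pos him

variable {n : ℕ} [NeZero n]

/-- `exp (2 π i ((a₁ + m n) τ + a₂) / n)`. -/
def rowPt (n : ℕ) (a : ℤ × ℤ) (τ : ℍ) (m : ℤ) : ℂ :=
  zetaU n ^ a.2 * uParam n τ ^ (a.1 + m * n)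

theorem cexp_row (a : ℤ × ℤ) (τ : ℍ) (m : ℤ) :
    cexp (2 * π * Ci * (torsPt n a τ + m * (τ : ℂ))) = rowPt n a τ m := by
  have hn : (n : ℂ) ≠ 0 := by exact_mod_cast NeZero.ne n
  rw [rowPt, zetaU, uParam, Function.Periodic.qParam, ← Complex.exp_int_mul, ← Complex.exp_int_mul,
    ← Complex.exp_add]
  congr 1
  simp only [torsPt]
  push_cast
  field_simp
  ring

theorem torsPt_add_ne_int {a : ℤ × ℤ} (ha : ¬ SameUpToSign n a (0, 0)) (τ : ℍ) (m k : ℤ) :
    torsPt n a τ + m * (τ : ℂ) ≠ k := by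
  intro h
  have hmem : torsPt n a τ ∈ (tauPair τ).lattice := by
    refine PeriodPair.mem_lattice.mpr ⟨-m, k, ?_⟩
    simp only [tauPair]
    push_cast
    linear_combination -h
  exact ha (Or.inl (by simpa using (torsPt_mem_lattice_iff a τ).1 hmem))

/-- `℘(a) - ℘(b)` as a single sum over the rows. -/
theorem hasSum_torsionDiff {a b : ℤ × ℤ} (ha : ¬ SameUpToSign n a (0, 0))
    (hb : ¬ SameUpToSign n b (0, 0)) (τ : ℍ) :
    HasSum (fun m : ℤ => rowFun (rowPt n a τ m) - rowFun (rowPt n b τ m))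
      (torsionDiff n a b τ) := by
  have h := (hasSum_wpValue_sub (n := n) a b τ)
  rw [← ((Equiv.neg ℤ).prodCongr (Equiv.neg ℤ)).hasSum_iff] at h
  have hrow : ∀ (c : ℤ × ℤ), ¬ SameUpToSign n c (0, 0) → ∀ m : ℤ,
      HasSum (fun k : ℤ => 1 / (torsPt n c τ + m * (τ : ℂ) + k) ^ 2)
        ((2 * π * Ci) ^ 2 * rowFun (rowPt n c τ m)) := by
    intro c hc m
    rw [← cexp_row, ← tsum_one_div_add_int_sq (torsPt_add_ne_int hc τ m)]
    exact (summable_one_div_add_int_sq _).hasSum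
  have h2 := HasSum.prod_fiberwise h fun m => by
    refine ((hrow a ha m).sub (hrow b hb m)).congr_fun fun k => ?_
    simp only [Function.comp_apply, Equiv.prodCongr_apply, Prod.map_fst, Prod.map_snd,
      Equiv.neg_apply, Int.cast_neg]
    ring
  refine (h2.div_const ((2 * π * Ci) ^ 2)).congr_fun fun m => ?_
  rw [← mul_sub, mul_div_cancel_left₀ _ (pow_ne_zero 2 Complex.two_pi_I_ne_zero)]

end FermatLib.Igusa
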