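import Fermat.Agent.Igusa.LevelUnitsRow

/-!
# The integral series attached to the rows of a division value

`rowSeries z a` has coefficients in the coefficient ring; its value at `u = exp (2 π i τ / n)` is
`∑_m w_m / (1 - w_m)²` with `w_m = ζ ^ a₂ * u ^ (a₁ + m n)`.
-/

set_option autoImplicit false

noncomputable section

open Complex UpperHalfPlane Filter Topology

namespace FermatLib.Igusa

variable {R : Type*} [CommRing R] {φ : R →+* ℂ} {n : ℕ} [NeZero n]

/-- The exponent of `u` attached to row `m` and repetition `k`. -/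
def rowExpo (n : ℕ) (a : ℤ × ℤ) (p : ℤ × ℕ) : ℕ := (a.1 + p.1 * n).natAbs * p.2

/-- The coefficient attached to row `m` and repetition `k`. -/
def rowCoeff (n : ℕ) (z : Rˣ) (a : ℤ × ℤ) (p : ℤ × ℕ) : R :=
  if a.1 + p.1 * n = 0 then
    if p.2 = 0 then ((z ^ a.2 : Rˣ) : R) * Ring.inverse (((1 : R) - ((z ^ a.2 : Rˣ) : R)) ^ 2) else 0
  else (p.2 : R) * ((z ^ ((p.2 : ℤ) * ((a.1 + p.1 * n).sign * a.2)) : Rˣ) : R)

/-- A finite set of indices containing all the nonzero contributions to the exponent `N`. -/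
def rowBox (a : ℤ × ℤ) (N : ℕ) : Finset (ℤ × ℕ) :=
  Finset.Icc (-((N : ℤ) + a.1.natAbs)) (N + a.1.natAbs) ×ˢ Finset.range (N + 1)

/-- The series of a division value. -/
def rowSeries (n : ℕ) (z : Rˣ) (a : ℤ × ℤ) : PowerSeries R :=
  PowerSeries.mk fun N => ∑ p ∈ rowBox a N with rowExpo n a p = N, rowCoeff n z a p

theorem mem_rowBox_of_rowCoeff_ne_zero {z : Rˣ} {a : ℤ × ℤ} {p : ℤ × ℕ}
    (h : rowCoeff n z a p ≠ 0) : p ∈ rowBox a (rowExpo n a p) := by
  have hn : (1 : ℤ) ≤ n := by exact_mod_cast Nat.pos_of_ne_zero (NeZero.ne n)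
  have hmn : |p.1| ≤ |p.1 * n| := by
    rw [abs_mul, abs_of_nonneg (by omega : (0 : ℤ) ≤ n)]
    exact le_mul_of_one_le_right (abs_nonneg _) hn
  have h1 : |p.1 * n| ≤ |a.1 + p.1 * n| + |a.1| := by
    calc |p.1 * n| = |(a.1 + p.1 * n) - a.1| := by ring_nf
      _ ≤ _ := abs_sub _ _
  simp only [rowBox, Finset.mem_product, Finset.mem_Icc, Finset.mem_range, ← abs_le]
  by_cases ht : a.1 + p.1 * n = 0
  · have hk : p.2 = 0 := by
      by_contra hk
      exact h (by simp [rowCoeff, ht, hk])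
    refine ⟨?_, by simp [hk]⟩
    rw [ht, abs_zero] at h1
    simp only [Int.natCast_natAbs]
    linarith
  · have hk : p.2 ≠ 0 := fun hk => h (by simp [rowCoeff, ht, hk])
    have he : (a.1 + p.1 * n).natAbs ≤ rowExpo n a p :=
      Nat.le_mul_of_pos_right _ (Nat.pos_of_ne_zero hk)
    refine ⟨?_, Nat.lt_succ_of_le (Nat.le_mul_of_pos_left _ (Int.natAbs_pos.2 ht))⟩
    have he' : |a.1 + p.1 * n| ≤ (rowExpo n a p : ℤ) := by
      rw [← Int.natCast_natAbs]
      exact_mod_cast he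
    simp only [Int.natCast_natAbs]
    linarith

theorem summable_pow_natAbs {r : ℝ} (h0 : 0 ≤ r) (h1 : r < 1) (a : ℤ) :
    Summable fun m : ℤ => r ^ (a + m * n).natAbs := by
  have hs : Summable fun t : ℤ => r ^ t.natAbs := by
    refine Summable.of_nat_of_neg ?_ ?_ <;>
      simpa using summable_geometric_of_lt_one h0 h1
  refine hs.comp_injective (i := fun m : ℤ => a + m * n) fun x y h => ?_
  exact Int.eq_of_mul_eq_mul_right (by exact_mod_cast NeZero.ne n) (add_left_cancel h)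

theorem summable_rowTerm {z : Rˣ} (hz : φ z = zetaU n) (a : ℤ × ℤ) (τ : ℍ) :
    Summable fun p : ℤ × ℕ => φ (rowCoeff n z a p) * uParam n τ ^ rowExpo n a p := by
  set σ : ℝ := Real.sqrt ‖uParam n τ‖ with hσ
  have hσ0 : 0 ≤ σ := Real.sqrt_nonneg _
  have hσ1 : σ < 1 := by
    rw [hσ, ← Real.sqrt_one]
    exact Real.sqrt_lt_sqrt (norm_nonneg _) (norm_uParam_lt_one τ)
  have hσ2 : σ ^ 2 = ‖uParam n τ‖ := Real.sq_sqrt (norm_nonneg _)
  have hgeo : Summable fun k : ℕ => (k : ℝ) * σ ^ k := by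
    simpa using summable_pow_mul_geometric_of_norm_lt_one 1 (by
      rwa [Real.norm_eq_abs, abs_of_nonneg hσ0])
  refine Summable.of_norm_bounded_eventually
    ((summable_pow_natAbs (n := n) hσ0 hσ1 a.1).mul_of_nonneg hgeo (fun m => by positivity)
      fun k => by positivity) ?_
  rw [Filter.eventually_cofinite]
  refine (Set.finite_singleton ((-(a.1 / n) : ℤ), 0)).subset fun p hp => ?_
  by_contra hne
  refine hp ?_
  by_cases ht : a.1 + p.1 * n = 0
  · rcases eq_or_ne p.2 0 with hk | hk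
    · refine absurd (Prod.ext ?_ hk) hne
      have hn : (n : ℤ) ≠ 0 := by exact_mod_cast NeZero.ne n
      rw [show a.1 = -p.1 * n by linarith, Int.mul_ediv_cancel _ hn]
      ring
    · simp only [rowCoeff, if_pos ht, if_neg hk, map_zero, zero_mul, norm_zero]
      positivity
  · have hz1 : ∀ x : ℤ, ‖φ ↑(z ^ x)‖ = 1 := by
      intro x
      rw [← MonoidHom.coe_coe, ← Units.coe_map, map_zpow, Units.val_zpow_eq_zpow_val,
        Units.coe_map, MonoidHom.coe_coe, hz, norm_zpow,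
        (isPrimitiveRoot_zetaU n).norm'_eq_one (NeZero.ne n), one_zpow]
    rw [norm_mul, norm_pow]
    simp only [rowCoeff, if_neg ht, map_mul, map_natCast, norm_mul, Complex.norm_natCast, hz1,
      mul_one, ← hσ2, ← pow_mul, rowExpo]
    rcases Nat.eq_zero_or_pos p.2 with hk | hk
    · simp [hk]
    rw [mul_left_comm (σ ^ _) (p.2 : ℝ)]
    refine mul_le_mul_of_nonneg_left ?_ (Nat.cast_nonneg _)
    rw [← pow_add]
    refine pow_le_pow_of_le_one hσ0 hσ1.le ?_
    have ht' : 0 < (a.1 + p.1 * n).natAbs := Int.natAbs_pos.2 ht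
    nlinarith

omit [NeZero n] in
theorem map_units_zpow {z : Rˣ} (hz : φ z = zetaU n) (x : ℤ) :
    φ ↑(z ^ x) = zetaU n ^ x := by
  rw [← MonoidHom.coe_coe, ← Units.coe_map, map_zpow, Units.val_zpow_eq_zpow_val, Units.coe_map,
    MonoidHom.coe_coe, hz]

theorem hasSum_row {z : Rˣ} (hz : φ z = zetaU n) {a : ℤ × ℤ}
    (hunit : (n : ℤ) ∣ a.1 → IsUnit ((1 : R) - ↑(z ^ a.2))) (τ : ℍ) (m : ℤ) :
    HasSum (fun k : ℕ => φ (rowCoeff n z a (m, k)) * uParam n τ ^ rowExpo n a (m, k))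
      (rowFun (rowPt n a τ m)) := by
  have hu : uParam n τ ≠ 0 := uParam_ne_zero n τ
  by_cases ht : a.1 + m * n = 0
  · have hU := hunit ⟨-m, by linarith⟩
    have h1 : φ (Ring.inverse ((1 - ↑(z ^ a.2)) ^ 2)) = ((1 - zetaU n ^ a.2) ^ 2)⁻¹ := by
      have h2 := congrArg φ (Ring.inverse_mul_cancel _ (hU.pow 2))
      rw [map_mul, map_one, map_pow, map_sub, map_one, map_units_zpow hz] at h2
      exact eq_inv_of_mul_eq_one_left h2
    convert hasSum_single 0 (fun k hk => ?_) using 1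
    · simp [rowCoeff, rowExpo, rowPt, ht, rowFun, h1, map_units_zpow hz, div_eq_mul_inv]
    · simp [rowCoeff, ht, hk]
  · -- the geometric series in `w` or in `w⁻¹`
    set w : ℂ := zetaU n ^ ((a.1 + m * n).sign * a.2) * uParam n τ ^ (a.1 + m * n).natAbs with hw
    have hw1 : ‖w‖ < 1 := by
      rw [hw, norm_mul, norm_zpow, (isPrimitiveRoot_zetaU n).norm'_eq_one (NeZero.ne n), one_zpow,
        one_mul, norm_pow]
      exact pow_lt_one₀ (norm_nonneg _) (norm_uParam_lt_one τ) (Int.natAbs_ne_zero.2 ht)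
    have hval : rowFun (rowPt n a τ m) = rowFun w := by
      rcases lt_or_gt_of_ne ht with hlt | hgt
      · rw [← rowFun_inv (show rowPt n a τ m ≠ 0 from
          mul_ne_zero (zpow_ne_zero _ (zetaU_ne_zero n)) (zpow_ne_zero _ hu))]
        congr 1
        rw [hw, rowPt, Int.sign_eq_neg_one_of_neg hlt, neg_one_mul, zpow_neg, mul_inv,
          ← zpow_natCast, Int.natCast_natAbs, abs_of_neg hlt, zpow_neg]
      · congr 1
        rw [hw, rowPt, Int.sign_eq_one_of_pos hgt, one_mul, ← zpow_natCast, Int.natCast_natAbs,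
          abs_of_pos hgt]
    rw [hval]
    refine ((hasSum_coe_mul_geometric_of_norm_lt_one hw1).congr_fun fun k => ?_)
    simp only [rowCoeff, if_neg ht, map_mul, map_natCast, map_units_zpow hz, rowExpo, hw,
      mul_pow, ← pow_mul]
    rw [← zpow_natCast (zetaU n ^ _) k, ← zpow_mul, mul_comm (k : ℤ), mul_assoc]

/-- The rows of `a` sum to the value of `rowSeries z a`. -/
theorem exists_hasSum_rows {z : Rˣ} (hz : φ z = zetaU n) {a : ℤ × ℤ}
    (hunit : (n : ℤ) ∣ a.1 → IsUnit ((1 : R) - ↑(z ^ a.2))) (τ : ℍ) :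
    ∃ T : ℂ, HasSum (fun m : ℤ => rowFun (rowPt n a τ m)) T ∧
      HasSum (fun N : ℕ => φ ((rowSeries n z a).coeff N) * uParam n τ ^ N) T := by
  obtain ⟨T, hT⟩ := summable_rowTerm hz a τ
  refine ⟨T, hT.prod_fiberwise fun m => hasSum_row hz hunit τ m, ?_⟩
  rw [← (Equiv.sigmaFiberEquiv (rowExpo n a)).hasSum_iff] at hT
  refine hT.sigma fun N => ?_
  change HasSum ((fun p : ℤ × ℕ => φ (rowCoeff n z a p) * uParam n τ ^ rowExpo n a p) ∘
    ((↑) : {p : ℤ × ℕ // rowExpo n a p = N} → ℤ × ℕ)) _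
  refine (hasSum_subtype_iff_indicator (s := {p : ℤ × ℕ | rowExpo n a p = N})).2 ?_
  rw [rowSeries, PowerSeries.coeff_mk, map_sum, Finset.sum_mul]
  convert hasSum_sum_of_ne_finset_zero (s := {p ∈ rowBox a N | rowExpo n a p = N})
    (fun p hp => ?_) using 1
  · refine Finset.sum_congr rfl fun p hp => ?_
    have hp' : rowExpo n a p = N := (Finset.mem_filter.1 hp).2
    simp [hp']
  · rw [Set.indicator_apply_eq_zero]
    intro hpN
    by_cases hc : rowCoeff n z a p = 0
    · simp [hc]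
    refine absurd (Finset.mem_filter.2 ⟨?_, hpN⟩) hp
    simpa only [show rowExpo n a p = N from hpN] using mem_rowBox_of_rowCoeff_ne_zero hc
  · exact inferInstance

omit [NeZero n] in
theorem coeff_rowSeries_eq_zero (z : Rˣ) {a : ℤ × ℤ} (h0 : 0 ≤ a.1) (h2 : 2 * a.1 ≤ n) {N : ℕ}
    (hN : (N : ℤ) < a.1) : (rowSeries n z a).coeff N = 0 := by
  rw [rowSeries, PowerSeries.coeff_mk]
  refine Finset.sum_eq_zero fun p hp => ?_
  obtain ⟨-, hpN⟩ := Finset.mem_filter.1 hp
  have ht : a.1 ≤ |a.1 + p.1 * n| := by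
    rcases le_or_gt 0 p.1 with hm | hm
    · rw [abs_of_nonneg (by positivity)]
      nlinarith
    · have : a.1 + p.1 * n ≤ -a.1 := by nlinarith [(Int.natCast_nonneg n)]
      rw [abs_of_nonpos (by linarith)]
      linarith
  have ht0 : a.1 + p.1 * n ≠ 0 := fun h => by
    rw [h, abs_zero] at ht
    omega
  rcases Nat.eq_zero_or_pos p.2 with hk | hk
  · simp [rowCoeff, ht0, hk]
  · exfalso
    have : (a.1 + p.1 * n).natAbs ≤ N := hpN ▸ Nat.le_mul_of_pos_right _ hk
    rw [← Int.natCast_natAbs] at ht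
    omega

omit [NeZero n] in
theorem coeff_rowSeries_zero (z : Rˣ) {a : ℤ × ℤ} (h : a.1 = 0) :
    (rowSeries n z a).coeff 0 =
      ((z ^ a.2 : Rˣ) : R) * Ring.inverse (((1 : R) - ((z ^ a.2 : Rˣ) : R)) ^ 2) := by
  simp [rowSeries, rowBox, h, rowExpo, rowCoeff, Finset.sum_filter]

theorem coeff_rowSeries_self (z : Rˣ) {a : ℤ × ℤ} (h0 : 0 < a.1) (h2 : 2 * a.1 ≤ n) :
    (rowSeries n z a).coeff a.1.toNat =
      ↑(z ^ a.2) + if 2 * a.1 = n then ↑(z ^ (-a.2)) else 0 := by
  have hn : (0 : ℤ) < n := by exact_mod_cast Nat.pos_of_ne_zero (NeZero.ne n)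
  have hc1 : rowCoeff n z a (0, 1) = ↑(z ^ a.2) := by
    simp [rowCoeff, h0.ne', Int.sign_eq_one_of_pos h0]
  have hmem1 : ((0, 1) : ℤ × ℕ) ∈ {p ∈ rowBox a a.1.toNat | rowExpo n a p = a.1.toNat} := by
    refine Finset.mem_filter.2 ⟨?_, ?_⟩
    · simp only [rowBox, Finset.mem_product, Finset.mem_Icc, Finset.mem_range]
      omega
    · simp only [rowExpo, zero_mul, add_zero, mul_one]
      omega
  have hrest : ∀ p ∈ {p ∈ rowBox a a.1.toNat | rowExpo n a p = a.1.toNat},
      rowCoeff n z a p ≠ 0 → p = (0, 1) ∨ (p = (-1, 1) ∧ 2 * a.1 = n) := by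
    intro p hp hc
    obtain ⟨-, hpN⟩ := Finset.mem_filter.1 hp
    rw [rowExpo] at hpN
    have hpos : 0 < (a.1 + p.1 * n).natAbs * p.2 := by rw [hpN]; omega
    have ht : 0 < (a.1 + p.1 * n).natAbs := Nat.pos_of_mul_pos_right hpos
    have hk : 1 ≤ p.2 := Nat.pos_of_mul_pos_left hpos
    have hle : (a.1 + p.1 * n).natAbs ≤ a.1.toNat := hpN ▸ Nat.le_mul_of_pos_right _ hk
    have hle' : |a.1 + p.1 * n| ≤ a.1 := by
      rw [← Int.natCast_natAbs]
      omega
    rw [abs_le] at hle'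
    rcases le_or_gt 0 p.1 with hm | hm
    · have hm0 : p.1 = 0 := by nlinarith
      refine Or.inl (Prod.ext hm0 ?_)
      rw [hm0, zero_mul, add_zero] at hpN
      exact Nat.eq_of_mul_eq_mul_left (n := a.1.natAbs) (m := p.2) (k := 1) (by omega) (by omega)
    · have hm1 : p.1 = -1 := by nlinarith
      have h2' : 2 * a.1 = n := by rw [hm1] at hle'; linarith
      refine Or.inr ⟨Prod.ext hm1 ?_, h2'⟩
      rw [hm1] at hpN
      exact Nat.eq_of_mul_eq_mul_left (n := a.1.natAbs) (m := p.2) (k := 1) (by omega) (by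
        rw [mul_one, show a.1.natAbs = (a.1 + -1 * n).natAbs by omega, hpN]
        omega)
  rw [rowSeries, PowerSeries.coeff_mk]
  by_cases h : 2 * a.1 = n
  · have hc2 : rowCoeff n z a (-1, 1) = ↑(z ^ (-a.2)) := by
      have : a.1 + (-1 : ℤ) * n < 0 := by linarith
      simp [rowCoeff, show a.1 + -(n : ℤ) ≠ 0 by linarith,
        Int.sign_eq_neg_one_of_neg (show a.1 + -(n : ℤ) < 0 by linarith)]
    rw [if_pos h, Finset.sum_eq_add (0, 1) (-1, 1) (by simp), hc1, hc2]
    · intro p hp hne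
      by_contra hc
      rcases hrest p hp hc with h' | ⟨h', -⟩
      exacts [hne.1 h', hne.2 h']
    · exact fun hn => absurd hmem1 hn
    · intro hn'
      refine absurd ?_ hn'
      refine Finset.mem_filter.2 ⟨?_, ?_⟩
      · simp only [rowBox, Finset.mem_product, Finset.mem_Icc, Finset.mem_range]
        omega
      · simp only [rowExpo, neg_one_mul, mul_one]
        omega
  · rw [if_neg h, add_zero, Finset.sum_eq_single (0, 1)]
    · exact hc1
    · intro p hp hne
      by_contra hc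
      rcases hrest p hp hc with h' | ⟨-, h'⟩
      exacts [hne h', h h']
    · exact fun hn => absurd hmem1 hn

end FermatLib.Igusa
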