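import Fermat.Agent.Igusa.MonoSheet

/-!
The abstract datum of two sheets of reduction of a function field `F` onto one special function
field `Kb`, and the glued functions on the two sheets.
-/

set_option autoImplicit false
set_option linter.style.haveILetI false

noncomputable section

open AlgebraicCurve

namespace FermatLib.Igusa.Mono

universe uL uF uk uKb

/-- Two sheets of reduction of `(F, x)` onto `Kb`, glued along the graphs of `Φ`. -/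
structure MonoDatum {L : Type uL} {k : Type uk} [Field L] [Field k] {A : ValuationSubring L}
    (π : A →+* k) (F : Type uF) (Kb : Type uKb) [Field F] [Algebra L F] [Field Kb] [Algebra k Kb]
    (q : ℕ) where
  s₁ : Sheet π F Kb
  s₂ : Sheet π F Kb
  π_surjective : Function.Surjective π
  π_eq_zero : ∀ a : A, π a = 0 ↔ ¬ IsUnit a
  gF : ℕ
  gK : ℕ
  rrF : RRField L F gF
  rrK : RRField k Kb gK
  two_le : 2 ≤ q
  x : F
  x_integral : Integral₂ s₁ s₂ x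
  Px : Divisor L F
  Px_apply : ∀ v, Px v = max (-v.ord x) 0
  P₁ : Divisor k Kb
  P₁_apply : ∀ v, P₁ v = max (-v.ord (s₁.rd x)) 0
  P₁_ne_zero : P₁ ≠ 0
  P₂ : Divisor k Kb
  P₂_apply : ∀ v, P₂ v = max (-v.ord (s₂.rd x)) 0
  supp : ∀ v, P₁ v = 0 ↔ P₂ v = 0
  degree_le : Divisor.degree Px ≤ Divisor.degree P₁ + Divisor.degree P₂
  orth : ∀ V : Submodule L F, FiniteDimensional L V →
    Module.finrank k (redSpace s₁ s₂ π_surjective V) = Module.finrank L V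
  scale₁ : ∀ f : F, f ≠ 0 → ∃ c : L, c • f ∈ s₁.W ∧ s₁.rd (c • f) ≠ 0
  scale₂ : ∀ f : F, f ≠ 0 → ∃ c : L, c • f ∈ s₂.W ∧ s₂.rd (c • f) ≠ 0
  Φ : Kb →ₐ[k] Kb
  Φ_reg : ∀ c, c ∈ Reg P₁ → Φ c ∈ Reg P₁
  Φ_ord : ∀ c, c ∈ Reg P₁ → ∀ v : Place k Kb, (q : ℤ) ∣ v.ord (Φ c)
  Φ_moves : ∃ c, c ∈ Reg P₁ ∧ Φ (Φ c) ≠ c
  lift : ∀ c, c ∈ Reg P₁ → ∃ N : ℕ,
    ((c, Φ c) : Kb × Kb) ∈ redSpace s₁ s₂ π_surjective (riemannRochSpace (N • Px)) ∧
    ((Φ c, c) : Kb × Kb) ∈ redSpace s₁ s₂ π_surjective (riemannRochSpace (N • Px))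
  top : ∃ n₀ : ℕ, ∀ n, n₀ ≤ n →
    (∀ f ∈ riemannRochSpace (n • P₁), ∃ r : Kb,
      ((r, 0) : Kb × Kb) ∈ redSpace s₁ s₂ π_surjective (riemannRochSpace (n • Px)) ∧
        f - r ∈ riemannRochSpace ((n - 1) • P₁)) ∧
    (∀ f ∈ riemannRochSpace (n • P₂), ∃ r : Kb,
      ((0, r) : Kb × Kb) ∈ redSpace s₁ s₂ π_surjective (riemannRochSpace (n • Px)) ∧
        f - r ∈ riemannRochSpace ((n - 1) • P₂))

namespace MonoDatum

variable {L : Type uL} {k : Type uk} [Field L] [Field k] {A : ValuationSubring L} {π : A →+* k}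
  {F : Type uF} {Kb : Type uKb} [Field F] [Algebra L F] [Field Kb] [Algebra k Kb] {q : ℕ}
  (M : MonoDatum π F Kb q)

/-- The reduction of a subspace. -/
abbrev red (V : Submodule L F) : Submodule k (Kb × Kb) :=
  redSpace M.s₁ M.s₂ M.π_surjective V

/-- Reductions of `L(n Px)`. -/
def redLevel (n : ℕ) : Submodule k (Kb × Kb) := M.red (riemannRochSpace (n • M.Px))

theorem Px_nonneg : 0 ≤ M.Px := by
  rw [Finsupp.le_def]
  intro v
  rw [M.Px_apply]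
  exact le_max_right _ _

theorem P₁_nonneg : 0 ≤ M.P₁ := by
  rw [Finsupp.le_def]
  intro v
  rw [M.P₁_apply]
  exact le_max_right _ _

theorem P₂_nonneg : 0 ≤ M.P₂ := by
  rw [Finsupp.le_def]
  intro v
  rw [M.P₂_apply]
  exact le_max_right _ _

theorem P₂_ne_zero : M.P₂ ≠ 0 := by
  intro h
  exact M.P₁_ne_zero (Finsupp.ext fun v => (M.supp v).mpr (by simp [h]))

theorem reg_P₂ : Reg M.P₂ = Reg M.P₁ := reg_congr fun v => (M.supp v).symm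

theorem redLevel_mono {n m : ℕ} (h : n ≤ m) : M.redLevel n ≤ M.redLevel m :=
  redSpace_mono M.π_surjective (riemannRochSpace_mono (nsmul_le_nsmul_left M.Px_nonneg h))

theorem one_mem_redLevel (n : ℕ) : (1 : Kb × Kb) ∈ M.redLevel n :=
  ⟨1, one_mem_riemannRochSpace (nsmul_nonneg M.Px_nonneg n), integral₂_one, rd₂_one⟩

theorem mul_mem_redLevel {n m : ℕ} {f h : Kb × Kb} (hf : f ∈ M.redLevel n)
    (hh : h ∈ M.redLevel m) : f * h ∈ M.redLevel (n + m) := by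
  obtain ⟨a, ha, hai, rfl⟩ := hf
  obtain ⟨b, hb, hbi, rfl⟩ := hh
  refine ⟨a * b, ?_, hai.mul hbi, rd₂_mul hai hbi⟩
  rw [add_nsmul]
  exact mul_mem_riemannRochSpace ha hb

theorem x_mem_rr : M.x ∈ riemannRochSpace (1 • M.Px) := by
  rw [mem_riemannRochSpace_iff]
  intro v
  right
  rw [one_nsmul, M.Px_apply]
  omega

/-- The affine part of the ring of glued reductions. -/
def U : Submodule k (Kb × Kb) where
  carrier := {f | f.1 ∈ Reg M.P₁ ∧ f.2 ∈ Reg M.P₁ ∧ ∃ N, f ∈ M.redLevel N}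
  zero_mem' := ⟨(Reg M.P₁).zero_mem, (Reg M.P₁).zero_mem, 0, Submodule.zero_mem _⟩
  add_mem' := by
    rintro f h ⟨hf1, hf2, N, hN⟩ ⟨hh1, hh2, N', hN'⟩
    exact ⟨(Reg M.P₁).add_mem hf1 hh1, (Reg M.P₁).add_mem hf2 hh2, max N N',
      Submodule.add_mem _ (M.redLevel_mono (le_max_left _ _) hN)
        (M.redLevel_mono (le_max_right _ _) hN')⟩
  smul_mem' := by
    rintro c f ⟨hf1, hf2, N, hN⟩
    exact ⟨(Reg M.P₁).smul_mem c hf1, (Reg M.P₁).smul_mem c hf2, N, Submodule.smul_mem _ c hN⟩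

theorem mem_U {f : Kb × Kb} :
    f ∈ M.U ↔ f.1 ∈ Reg M.P₁ ∧ f.2 ∈ Reg M.P₁ ∧ ∃ N, f ∈ M.redLevel N := Iff.rfl

theorem mul_mem_U {f h : Kb × Kb} (hf : f ∈ M.U) (hh : h ∈ M.U) : f * h ∈ M.U := by
  obtain ⟨hf1, hf2, N, hN⟩ := hf
  obtain ⟨hh1, hh2, N', hN'⟩ := hh
  exact ⟨mul_mem_reg hf1 hh1, mul_mem_reg hf2 hh2, N + N', M.mul_mem_redLevel hN hN'⟩

theorem one_mem_U : (1 : Kb × Kb) ∈ M.U :=
  ⟨one_mem_reg _, one_mem_reg _, 0, M.one_mem_redLevel 0⟩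

theorem pair_mem_U {c : Kb} (hc : c ∈ Reg M.P₁) : ((c, M.Φ c) : Kb × Kb) ∈ M.U := by
  obtain ⟨N, h1, -⟩ := M.lift c hc
  exact ⟨hc, M.Φ_reg c hc, N, h1⟩

theorem pair'_mem_U {c : Kb} (hc : c ∈ Reg M.P₁) : ((M.Φ c, c) : Kb × Kb) ∈ M.U := by
  obtain ⟨N, -, h2⟩ := M.lift c hc
  exact ⟨M.Φ_reg c hc, hc, N, h2⟩

/-- The possible places where the sheets can meet. -/
def Z : Set (Place k Kb) :=
  {v | M.P₁ v = 0 ∧ ∀ c, c ∈ Reg M.P₁ → valAt v (M.Φ (M.Φ c) - c) = 0}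

/-- The glued pairs of places. -/
def nodes : Set (Place k Kb × Place k Kb) :=
  {z | z.1 ∈ M.Z ∧ z.2 ∈ M.Z ∧ ∀ f ∈ M.U, valAt z.1 f.1 = valAt z.2 f.2}

theorem P₁_of_node {z : Place k Kb × Place k Kb} (hz : z ∈ M.nodes) :
    M.P₁ z.1 = 0 ∧ M.P₁ z.2 = 0 := ⟨hz.1.1, hz.2.1.1⟩

theorem rd_x_mem_reg₁ : M.s₁.rd M.x ∈ Reg M.P₁ := fun v hv => by
  right
  rw [M.P₁_apply] at hv
  omega

theorem rd_x_mem_reg₂ : M.s₂.rd M.x ∈ Reg M.P₁ := fun v hv => by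
  right
  rw [M.supp, M.P₂_apply] at hv
  omega

theorem rd_x_mem_U : rd₂ M.s₁ M.s₂ M.x ∈ M.U :=
  ⟨M.rd_x_mem_reg₁, M.rd_x_mem_reg₂, 1, rd₂_mem_redSpace M.π_surjective M.x_mem_rr M.x_integral⟩

theorem valAt_x_node {z : Place k Kb × Place k Kb} (hz : z ∈ M.nodes) :
    valAt z.1 (M.s₁.rd M.x) = valAt z.2 (M.s₂.rd M.x) := hz.2.2 _ M.rd_x_mem_U

theorem finite_Z : M.Z.Finite := by
  obtain ⟨c, hc, hne⟩ := M.Φ_moves
  obtain ⟨D, hD, -⟩ := M.rrK.exists_div (sub_ne_zero.mpr hne)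
  refine D.support.finite_toSet.subset fun v hv => ?_
  rw [Finset.mem_coe, Finsupp.mem_support_iff, hD]
  have hreg : M.Φ (M.Φ c) - c ∈ Reg M.P₁ := (Reg M.P₁).sub_mem (M.Φ_reg _ (M.Φ_reg _ hc)) hc
  have h0 := (valAt_eq_zero_iff (M.rrK.deg_one v) (hreg v hv.1)).mp (hv.2 c hc)
  have := h0.resolve_left (sub_ne_zero.mpr hne)
  omega

theorem finite_nodes : M.nodes.Finite :=
  (M.finite_Z.prod M.finite_Z).subset fun _ hz => ⟨hz.1, hz.2.1⟩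

/-- Linear condition: on every node the second value is `l` times the first. -/
def gl (l : Place k Kb × Place k Kb → k) (n : ℕ) : Submodule k (Kb × Kb) where
  carrier := {f | f.1 ∈ riemannRochSpace (n • M.P₁) ∧ f.2 ∈ riemannRochSpace (n • M.P₂) ∧
    ∀ z ∈ M.nodes, valAt z.2 f.2 = l z * valAt z.1 f.1}
  zero_mem' := ⟨Submodule.zero_mem _, Submodule.zero_mem _, fun z _ => by simp⟩
  add_mem' := by
    rintro f h ⟨hf1, hf2, hf⟩ ⟨hh1, hh2, hh⟩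
    refine ⟨Submodule.add_mem _ hf1 hh1, Submodule.add_mem _ hf2 hh2, fun z hz => ?_⟩
    have e1 := valAt_add_reg M.rrK.deg_one (rrSpace_nsmul_le_reg M.P₁ n hf1)
      (rrSpace_nsmul_le_reg M.P₁ n hh1) (M.P₁_of_node hz).1
    have e2 := valAt_add_reg M.rrK.deg_one (rrSpace_nsmul_le_reg M.P₂ n hf2)
      (rrSpace_nsmul_le_reg M.P₂ n hh2) ((M.supp _).mp (M.P₁_of_node hz).2)
    rw [Prod.fst_add, Prod.snd_add, e1, e2, hf z hz, hh z hz, mul_add]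
  smul_mem' := by
    rintro c f ⟨hf1, hf2, hf⟩
    refine ⟨Submodule.smul_mem _ c hf1, Submodule.smul_mem _ c hf2, fun z hz => ?_⟩
    have e1 := valAt_smul_reg M.rrK.deg_one c (rrSpace_nsmul_le_reg M.P₁ n hf1)
      (M.P₁_of_node hz).1
    have e2 := valAt_smul_reg M.rrK.deg_one c (rrSpace_nsmul_le_reg M.P₂ n hf2)
      ((M.supp _).mp (M.P₁_of_node hz).2)
    rw [Prod.smul_fst, Prod.smul_snd, e1, e2, hf z hz]
    ring

theorem mem_gl {l : Place k Kb × Place k Kb → k} {n : ℕ} {f : Kb × Kb} :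
    f ∈ M.gl l n ↔ f.1 ∈ riemannRochSpace (n • M.P₁) ∧ f.2 ∈ riemannRochSpace (n • M.P₂) ∧
      ∀ z ∈ M.nodes, valAt z.2 f.2 = l z * valAt z.1 f.1 := Iff.rfl

theorem gl_mono (l : Place k Kb × Place k Kb → k) {n m : ℕ} (h : n ≤ m) :
    M.gl l n ≤ M.gl l m := fun _ ⟨h1, h2, h3⟩ =>
  ⟨riemannRochSpace_mono (nsmul_le_nsmul_left M.P₁_nonneg h) h1,
    riemannRochSpace_mono (nsmul_le_nsmul_left M.P₂_nonneg h) h2, h3⟩

theorem gl_le_reg (l : Place k Kb × Place k Kb → k) {n : ℕ} {f : Kb × Kb} (hf : f ∈ M.gl l n) :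
    f.1 ∈ Reg M.P₁ ∧ f.2 ∈ Reg M.P₁ :=
  ⟨rrSpace_nsmul_le_reg _ n hf.1, M.reg_P₂ ▸ rrSpace_nsmul_le_reg _ n hf.2.1⟩

theorem finite_gl (l : Place k Kb × Place k Kb → k) (n : ℕ) : Module.Finite k (M.gl l n) := by
  haveI := M.rrK.finite_space (n • M.P₁)
  haveI := M.rrK.finite_space (n • M.P₂)
  have hle : M.gl l n ≤ (riemannRochSpace (n • M.P₁)).prod (riemannRochSpace (n • M.P₂)) :=
    fun f hf => ⟨hf.1, hf.2.1⟩
  haveI : Module.Finite k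
      ↥((riemannRochSpace (n • M.P₁)).prod (riemannRochSpace (n • M.P₂))) :=
    Module.Finite.of_surjective
      (M := ↥(riemannRochSpace (n • M.P₁)) × ↥(riemannRochSpace (n • M.P₂)))
      (LinearMap.prod ((riemannRochSpace (n • M.P₁)).subtype ∘ₗ LinearMap.fst k _ _)
        ((riemannRochSpace (n • M.P₂)).subtype ∘ₗ LinearMap.snd k _ _) |>.codRestrict _
          fun f => ⟨f.1.2, f.2.2⟩)
      fun f => ⟨⟨⟨f.1.1, f.2.1⟩, ⟨f.1.2, f.2.2⟩⟩, Subtype.ext rfl⟩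
  exact Submodule.finiteDimensional_of_le hle

end MonoDatum

end FermatLib.Igusa.Mono
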