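import Fermat.Agent.Igusa.MonoSwap
import Fermat.Agent.Igusa.MonoSeriesSheet
import Fermat.Agent.Igusa.GaussBasis
import Fermat.Agent.Igusa.DegreeModL
import Fermat.Agent.Igusa.MonoNewScale
import Fermat.Agent.Modular.CorrDegree
import Fermat.Agent.Galois.PlaceBasic

/-!
The two Gauss valuations of `ℚ̄(X₀(q M))` over a place `A` above `q ∤ M`: a basis over `ℚ̄(j)`
whose pairs of reductions are independent over `k[j]`, and the fields of residues.
-/

set_option autoImplicit false
set_option linter.style.haveILetI false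
set_option synthInstance.maxHeartbeats 400000

noncomputable section

open AlgebraicCurve ModularCurve IntermediateField

namespace FermatLib.Igusa.Mono

attribute [local instance 100000] monoLaurentModule monoLaurentSMul

local notation "Qb" => AlgebraicClosure ℚ

variable {q : ℕ} [Fact q.Prime] {M : ℕ} [NeZero M] (hqM : ¬ q ∣ M)
  {A : ValuationSubring (AlgebraicClosure ℚ)}

local notation "kA" => IsLocalRing.ResidueField A
local notation "FqM" => modularFunctionFieldBar (q * M)

variable (hA : A.LiesOverPrime q)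

include hA in
theorem monoResidue_charP : CharP kA q :=
  Galois.charP_residueField (Fact.out : q.Prime) hA

include hA in
theorem monoResidue_natCast : (q : kA) = 0 :=
  haveI := monoResidue_charP hA
  CharP.cast_eq_zero _ q

theorem monoResidue_eq_zero_iff (a : A) : IsLocalRing.residue A a = 0 ↔ ¬ IsUnit a := by
  rw [IsLocalRing.residue_eq_zero_iff, IsLocalRing.mem_maximalIdeal, mem_nonunits_iff]

include hA in
/-- Every element of `ℚ̄` becomes integral at `A` after multiplication by a power of `q`. -/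
theorem exists_pow_mul_mem (c : Qb) : ∃ n : ℕ, (q : Qb) ^ n * c ∈ A := by
  haveI := monoResidue_charP hA
  have hq := (Fact.out : q.Prime)
  haveI : Algebra.IsAlgebraic ℚ Qb := AlgebraicClosure.isAlgebraic ℚ
  obtain ⟨m, hm, hint⟩ := IsAlgebraic.exists_integral_multiple
    ((IsFractionRing.isAlgebraic_iff ℤ ℚ Qb).mpr (Algebra.IsAlgebraic.isAlgebraic (R := ℚ) c))
  rw [zsmul_eq_mul] at hint
  have hmem := Basic.valuationSubring_mem_of_isIntegral A hint
  have hfin : FiniteMultiplicity (q : ℤ) m :=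
    Int.finiteMultiplicity_iff.mpr ⟨by simpa using hq.ne_one, hm⟩
  obtain ⟨m', hm', hm'q⟩ := hfin.exists_eq_pow_mul_and_not_dvd
  have hu : IsUnit ((m' : ℤ) : A) := by
    by_contra h
    exact monoInt_map_ne_zero hq (monoResidue_natCast hA) hm'q (by
      rw [← (monoResidue_eq_zero_iff _).mpr h, map_intCast])
  obtain ⟨u, hu'⟩ := hu.exists_left_inv
  refine ⟨multiplicity (q : ℤ) m, ?_⟩
  have h1 : (q : Qb) ^ multiplicity (q : ℤ) m * c = (u : Qb) * ((m : Qb) * c) := by
    have hu'' := congrArg Subtype.val hu'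
    simp only [MulMemClass.coe_mul, OneMemClass.coe_one] at hu''
    rw [show ((m : ℤ) : Qb) = (q : Qb) ^ multiplicity (q : ℤ) m * (((m' : ℤ) : A) : Qb) by
      conv_lhs => rw [hm']
      push_cast
      simp]
    linear_combination (-((q : Qb) ^ multiplicity (q : ℤ) m * c)) * hu''
  rw [h1]
  exact mul_mem u.2 hmem

variable (q M) in
/-- The expansion at infinity. -/
abbrev iotaInf : FqM →ₐ[Qb] LaurentSeries Qb := (FqM).val

/-- The expansion at the other cusp: `ι₂ = ι₁ ∘ w_q`. -/
abbrev iotaZero : FqM →ₐ[Qb] LaurentSeries Qb :=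
  (FqM).val.comp (monoSwap hqM).toAlgHom

theorem levelGen_mem_intSpan (e : LevelDiv q M) : levelGen q M e ∈ intSpan Qb := by
  rw [levelGen, ← coeffMap_jqModC (Int.castRingHom Qb), ← coeffMap_qExpand]
  exact coeffMap_mem_intSpan _

theorem aeval_levelGen_mem_intSpan (r : LevelDiv q M → LevelDiv q M)
    (P : MvPolynomial (LevelDiv q M) Qb) :
    MvPolynomial.aeval (fun e => levelGen q M (r e)) P ∈ intSpan Qb := by
  induction P using MvPolynomial.induction_on with
  | C a => rw [MvPolynomial.aeval_C]; exact Subalgebra.algebraMap_mem _ _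
  | add p p' hp hp' => rw [map_add]; exact add_mem hp hp'
  | mul_X p i hp => rw [map_mul, MvPolynomial.aeval_X]; exact mul_mem hp (levelGen_mem_intSpan _)

include hqM in
/-- Every function is a ratio of two functions with integral series at both cusps. -/
theorem exists_integral_fraction (f : FqM) : ∃ z : FqM, z ≠ 0 ∧
    iotaInf q M z ∈ intSpan Qb ∧ iotaZero hqM z ∈ intSpan Qb ∧
    iotaInf q M (f * z) ∈ intSpan Qb ∧ iotaZero hqM (f * z) ∈ intSpan Qb := by
  obtain ⟨⟨r, s⟩, hs, hrs⟩ := exists_isRep f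
  have key : ∀ (P : MvPolynomial (LevelDiv q M) Qb) (g : FqM),
      (g : LaurentSeries Qb) = MvPolynomial.aeval (levelGen q M) P →
        iotaInf q M g ∈ intSpan Qb ∧ iotaZero hqM g ∈ intSpan Qb := by
    intro P g hg
    refine ⟨?_, ?_⟩
    · show (g : LaurentSeries Qb) ∈ intSpan Qb
      rw [hg]; exact aeval_levelGen_mem_intSpan id P
    · show (swapFun hqM g : LaurentSeries Qb) ∈ intSpan Qb
      rw [coe_swapFun hqM (rs := (P, 1)) ⟨by simp, by rw [hg, map_one, mul_one]⟩]
      simp only [swapVal, map_one, div_one]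
      exact aeval_levelGen_mem_intSpan _ P
  set z : FqM := ⟨_, aeval_levelGen_mem id s⟩
  have h1 := key s z rfl
  have h2 := key r (f * z) (by rw [IntermediateField.coe_mul]; exact hrs)
  exact ⟨z, fun h => hs (congrArg Subtype.val h), h1.1, h1.2, h2.1, h2.2⟩

include hqM in
theorem exists_fraction_inf (f : FqM) : ∃ z : FqM, z ≠ 0 ∧
    iotaInf q M z ∈ intSpan Qb ∧ iotaInf q M (f * z) ∈ intSpan Qb := by
  obtain ⟨z, h0, h1, -, h3, -⟩ := exists_integral_fraction hqM f
  exact ⟨z, h0, h1, h3⟩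

theorem exists_fraction_zero (f : FqM) : ∃ z : FqM, z ≠ 0 ∧
    iotaZero hqM z ∈ intSpan Qb ∧ iotaZero hqM (f * z) ∈ intSpan Qb := by
  obtain ⟨z, h0, -, h2, -, h4⟩ := exists_integral_fraction hqM f
  exact ⟨z, h0, h2, h4⟩

/-- The Gauss valuation at infinity, with residues in Laurent series. -/
def rawInf : Sheet (IsLocalRing.residue A) FqM (LaurentSeries kA) :=
  seriesSheet (iotaInf q M) monoResidue_eq_zero_iff (Fact.out : q.Prime) (monoResidue_natCast hA)
    (exists_fraction_inf hqM)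

/-- The Gauss valuation at the other cusp, with residues in Laurent series. -/
def rawZero : Sheet (IsLocalRing.residue A) FqM (LaurentSeries kA) :=
  seriesSheet (iotaZero hqM) monoResidue_eq_zero_iff (Fact.out : q.Prime) (monoResidue_natCast hA)
    (exists_fraction_zero hqM)

theorem rawZero_mem_iff (f : FqM) :
    f ∈ (rawZero hqM hA).W ↔ monoSwap hqM f ∈ (rawInf hqM hA).W :=
  ⟨fun ⟨y, z, h⟩ => ⟨y, z, h.red_ne, h.eq⟩, fun ⟨y, z, h⟩ => ⟨y, z, h.red_ne, h.eq⟩⟩

/-- The second reduction is the first one after `w_q`. -/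
theorem rawZero_rd (f : FqM) :
    (rawZero hqM hA).rd f = (rawInf hqM hA).rd (monoSwap hqM f) := by
  by_cases h : f ∈ (rawZero hqM hA).W
  · obtain ⟨y, z, hr⟩ := h
    rw [rawZero, (seriesSheet_rd _ _ _ _ hr).2, rawInf,
      (seriesSheet_rd (ι := iotaInf q M) _ _ _ _ (f := monoSwap hqM f) (y := y) (z := z)
        ⟨hr.red_ne, hr.eq⟩).2]
  · rw [Sheet.rd, Sheet.rd, dif_neg h, dif_neg ((rawZero_mem_iff hqM hA f).not.mp h)]

/-- Functions with integer series reduce modulo `q`. -/
theorem rawInf_of_int {f : FqM} {Y : LaurentSeries ℤ}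
    (h : (f : LaurentSeries Qb) = coeffMap (Int.castRingHom Qb) Y) :
    f ∈ (rawInf hqM hA).W ∧ (rawInf hqM hA).rd f = coeffMap (Int.castRingHom kA) Y := by
  obtain ⟨hm, hr⟩ := seriesSheet_rd_of_eq (ι := iotaInf q M) (π := IsLocalRing.residue A)
    monoResidue_eq_zero_iff (Fact.out : q.Prime) (monoResidue_natCast hA) (exists_fraction_inf hqM)
    (f := f) (y := coeffMap (Int.castRingHom A) Y) (by
      show (f : LaurentSeries Qb) = _
      rw [h, coeffMap_coeffMap]
      exact coeffMap_congr (Subsingleton.elim _ _) Y)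
  refine ⟨hm, hr.trans ?_⟩
  rw [coeffMap_coeffMap]
  exact coeffMap_congr (Subsingleton.elim _ _) Y

variable (q M) in
/-- A generator as a function. -/
def genFun (e : LevelDiv q M) : FqM := ⟨levelGen q M e, levelGen_mem e⟩

theorem monoSwap_genFun (e : LevelDiv q M) :
    monoSwap hqM (genFun q M e) = genFun q M (swapDiv hqM e) :=
  Subtype.ext (coe_monoSwap_of_eq hqM rfl)

theorem rawInf_genFun (e : LevelDiv q M) :
    genFun q M e ∈ (rawInf hqM hA).W ∧
      (rawInf hqM hA).rd (genFun q M e) = qExpand kA (e : ℕ) (jqModC kA) := by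
  have h := rawInf_of_int hqM hA (f := genFun q M e) (Y := qExpand ℤ (e : ℕ) (jqModC ℤ))
    (by rw [coeffMap_qExpand, coeffMap_jqModC]; rfl)
  rwa [coeffMap_qExpand, coeffMap_jqModC] at h

theorem rawZero_genFun (e : LevelDiv q M) :
    genFun q M e ∈ (rawZero hqM hA).W ∧ (rawZero hqM hA).rd (genFun q M e) =
      qExpand kA ((swapDiv hqM e : LevelDiv q M) : ℕ) (jqModC kA) := by
  rw [rawZero_mem_iff, rawZero_rd, monoSwap_genFun]
  exact rawInf_genFun hqM hA _

include hA in
/-- In characteristic `q`, `j(u ^ (q d)) = j(u ^ d) ^ q`. -/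
theorem qExpand_jqModC_mul (d : ℕ) [NeZero d] [NeZero (q * d)] :
    qExpand kA (q * d) (jqModC kA) = qExpand kA d (jqModC kA) ^ q := by
  haveI := monoResidue_charP hA
  haveI : NeZero q := ⟨(Fact.out : q.Prime).ne_zero⟩
  haveI : NeZero (d * q) := ⟨Nat.mul_ne_zero (NeZero.ne d) (NeZero.ne q)⟩
  rw [← map_pow, monoNew_pow_char q (jqModC kA), coeffMap_jqModC, qExpand_qExpand]
  exact qExpand_congr (mul_comm q d) _

variable (q M) in
/-- The index of `d ∣ q M`. -/
def divIdx (d : ℕ) (hd : d ∣ q * M) : LevelDiv q M :=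
  ⟨d, Nat.mem_divisors.mpr ⟨hd, monoLevel_ne_zero⟩⟩

variable (q M) in
/-- The function `j`. -/
def jFq : FqM := genFun q M (divIdx q M 1 (one_dvd _))

variable (q M) in
/-- The function `j(q τ)`. -/
def jqFq : FqM := genFun q M (divIdx q M q (dvd_mul_right q M))

variable (q M) in
/-- The function `j(M τ)`. -/
def jMFq : FqM := genFun q M (divIdx q M M (dvd_mul_left M q))

variable (q M) in
@[simp] theorem coe_jFq : (jFq q M : LaurentSeries Qb) = jqModC Qb :=
  qExpand_one_apply _

theorem monoSwap_jFq : monoSwap hqM (jFq q M) = jqFq q M := by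
  rw [jFq, monoSwap_genFun]
  refine congrArg (genFun q M) (Subtype.ext ?_)
  rcases monoLevel_cases hqM (divIdx q M 1 (one_dvd _)) with ⟨-, -, hs⟩ | ⟨d, -, h, -⟩
  · rw [hs]; exact mul_one q
  · exact absurd (Nat.eq_one_of_mul_eq_one_right h.symm) (Fact.out : q.Prime).ne_one

theorem monoSwap_jqFq : monoSwap hqM (jqFq q M) = jFq q M := by
  rw [← monoSwap_jFq hqM, monoSwap_monoSwap]

theorem linearIndependent_mul_right {K R ι : Type*} [Field K] [Field R] [Algebra K R] {v : ι → R}
    (h : LinearIndependent K v) {c : R} (hc : c ≠ 0) : LinearIndependent K fun i => v i * c :=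
  h.map' (LinearMap.mulRight K c)
    (LinearMap.ker_eq_bot.mpr fun _ _ hab => mul_right_cancel₀ hc hab)

/-- Independent families in either component give an independent family of pairs. -/
theorem linearIndependent_pairs {K R α β : Type*} [Field K] [Field R] [Algebra K R]
    {v : ℕ × α → R} {w : ℕ × β → R} (hv : LinearIndependent K v) (hw : LinearIndependent K w) :
    LinearIndependent K fun p : ℕ × (α ⊕ β) =>
      Sum.elim (fun l => ((v (p.1, l), 0) : R × R)) (fun r => (0, w (p.1, r))) p.2 := by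
  have h := (linearIndependent_inl_union_inr' hv hw).comp (Equiv.prodSumDistrib ℕ α β)
    (Equiv.injective _)
  have heq : (fun p : ℕ × (α ⊕ β) =>
      Sum.elim (fun l => ((v (p.1, l), 0) : R × R)) (fun r => (0, w (p.1, r))) p.2) =
      Sum.elim (LinearMap.inl K R R ∘ v) (LinearMap.inr K R R ∘ w) ∘
        Equiv.prodSumDistrib ℕ α β := by
    funext ⟨a, i⟩
    rcases i with l | r <;> rfl
  rw [heq]
  exact h

variable (q M) in
/-- The separating function `j - j(q τ) ^ q`. -/
def sepFun : FqM := jFq q M - jqFq q M ^ q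

theorem monoSwap_sepFun : monoSwap hqM (sepFun q M) = jqFq q M - jFq q M ^ q := by
  rw [sepFun, map_sub, map_pow, monoSwap_jFq, monoSwap_jqFq]

/-- `j - j ^ (q²)`, the reduction of `sepFun` at infinity. -/
def sepRed (k : Type*) [Field k] (q : ℕ) : LaurentSeries k := jqModC k - jqModC k ^ (q * q)

theorem sepRed_ne_zero (k : Type*) [Field k] {q : ℕ} (hq : 2 ≤ q) : sepRed k q ≠ 0 := by
  intro h
  have h2 := transcendental_iff.mp (transcendental_jqModC k)
    (Polynomial.X - Polynomial.X ^ (q * q)) (by simpa [sepRed] using h)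
  have h3 := congrArg (fun p : Polynomial k => p.coeff 1) h2
  have : ¬ 1 = q * q := by nlinarith
  simp [Polynomial.coeff_X_pow, this] at h3

theorem rawInf_jFq : jFq q M ∈ (rawInf hqM hA).W ∧ (rawInf hqM hA).rd (jFq q M) = jqModC kA := by
  refine ⟨(rawInf_genFun hqM hA _).1, ?_⟩
  rw [jFq, (rawInf_genFun hqM hA _).2]
  exact qExpand_one_apply _

theorem rawInf_jqFq :
    jqFq q M ∈ (rawInf hqM hA).W ∧ (rawInf hqM hA).rd (jqFq q M) = jqModC kA ^ q := by
  refine ⟨(rawInf_genFun hqM hA _).1, ?_⟩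
  rw [jqFq, (rawInf_genFun hqM hA _).2]
  haveI : NeZero (q * 1) := ⟨by simp [(Fact.out : q.Prime).ne_zero]⟩
  have h := qExpand_jqModC_mul hA 1
  rw [qExpand_one_apply] at h
  rw [← h]
  exact qExpand_congr (mul_one q).symm _

theorem rawZero_jFq :
    jFq q M ∈ (rawZero hqM hA).W ∧ (rawZero hqM hA).rd (jFq q M) = jqModC kA ^ q := by
  rw [rawZero_mem_iff, rawZero_rd, monoSwap_jFq]
  exact rawInf_jqFq hqM hA

theorem rawZero_jqFq :
    jqFq q M ∈ (rawZero hqM hA).W ∧ (rawZero hqM hA).rd (jqFq q M) = jqModC kA := by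
  rw [rawZero_mem_iff, rawZero_rd, monoSwap_jqFq]
  exact rawInf_jFq hqM hA

theorem rawInf_sepFun :
    sepFun q M ∈ (rawInf hqM hA).W ∧ (rawInf hqM hA).rd (sepFun q M) = sepRed kA q := by
  obtain ⟨h1, r1⟩ := rawInf_jFq hqM hA
  obtain ⟨h2, r2⟩ := rawInf_jqFq hqM hA
  refine ⟨sub_mem h1 (pow_mem h2 _), ?_⟩
  rw [sepFun, Sheet.rd_sub h1 (pow_mem h2 _), Sheet.rd_pow h2, r1, r2, sepRed, ← pow_mul]

theorem rawZero_sepFun :
    sepFun q M ∈ (rawZero hqM hA).W ∧ (rawZero hqM hA).rd (sepFun q M) = 0 := by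
  obtain ⟨h1, r1⟩ := rawZero_jFq hqM hA
  obtain ⟨h2, r2⟩ := rawZero_jqFq hqM hA
  refine ⟨sub_mem h1 (pow_mem h2 _), ?_⟩
  rw [sepFun, Sheet.rd_sub h1 (pow_mem h2 _), Sheet.rd_pow h2, r1, r2, sub_self]

/-- `sepFun` is divisible by `q` at the second cusp. -/
theorem inv_smul_sepFun_mem :
    ((q : Qb)⁻¹ • sepFun q M) ∈ (rawZero hqM hA).W := by
  have hq := (Fact.out : q.Prime)
  haveI : NeZero q := ⟨hq.ne_zero⟩
  set Y : LaurentSeries ℤ := qExpand ℤ q (jqModC ℤ) - jqModC ℤ ^ q with hY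
  have hYz : coeffMap (Int.castRingHom (ZMod q)) Y = 0 := by
    rw [hY, map_sub, map_pow, coeffMap_qExpand, coeffMap_jqModC, sub_eq_zero,
      monoNew_pow_char q (jqModC (ZMod q)), coeffMap_jqModC]
  have hdvd : ∀ i, (q : ℤ) ∣ Y.coeff i := fun i => by
    rw [← ZMod.intCast_zmod_eq_zero_iff_dvd]
    exact congrArg (fun z : LaurentSeries (ZMod q) => z.coeff i) hYz
  choose c hc using hdvd
  let Y' : LaurentSeries ℤ := ⟨c, Y.isPWO_support.mono fun i hi h0 => hi (by
    rw [hc i] at h0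
    exact (mul_eq_zero.mp h0).resolve_left (by exact_mod_cast hq.ne_zero))⟩
  rw [rawZero_mem_iff, Algebra.smul_def, map_mul, AlgEquiv.commutes, monoSwap_sepFun]
  refine (rawInf_of_int hqM hA (Y := Y') ?_).1
  have hqQ : (q : Qb) ≠ 0 := Nat.cast_ne_zero.mpr hq.ne_zero
  have h1 : ((jqFq q M - jFq q M ^ q : FqM) : LaurentSeries Qb) =
      coeffMap (Int.castRingHom Qb) Y := by
    rw [hY, map_sub, map_pow, coeffMap_qExpand, coeffMap_jqModC]
    show (genFun q M _ : LaurentSeries Qb) - ((jFq q M ^ q : FqM) : LaurentSeries Qb) = _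
    rw [IntermediateField.coe_pow, coe_jFq]
    rfl
  rw [IntermediateField.coe_mul, h1]
  ext i
  show ((algebraMap Qb (LaurentSeries Qb) (q : Qb)⁻¹) * _).coeff i = _
  rw [algebraMap_laurentSeries_eq_single, HahnSeries.coeff_single_zero_mul, coeffMap_coeff,
    coeffMap_coeff, hc i]
  simp only [eq_intCast, Int.cast_mul, Int.cast_natCast]
  rw [inv_mul_cancel_left₀ hqQ]

/-- The joint family: `dedekindPsi M` functions for each layer. -/
def jointFamily : Fin (dedekindPsi M) ⊕ (Fin (dedekindPsi M) × Fin q) → FqM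
  | Sum.inl l => jMFq q M ^ (l : ℕ) * sepFun q M
  | Sum.inr p => monoSwap hqM (jMFq q M ^ (p.1 : ℕ) * (jFq q M ^ (p.2 : ℕ) * sepFun q M))

theorem rawInf_jMFq :
    jMFq q M ∈ (rawInf hqM hA).W ∧ (rawInf hqM hA).rd (jMFq q M) = jqNModC kA M :=
  rawInf_genFun hqM hA _

set_option maxHeartbeats 1600000 in
/-- The reductions of `j ^ a` times the joint family. -/
theorem jointFamily_rd (a : ℕ) (i : Fin (dedekindPsi M) ⊕ (Fin (dedekindPsi M) × Fin q)) :
    Integral₂ (rawInf hqM hA) (rawZero hqM hA) (jFq q M ^ a * jointFamily hqM i) ∧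
    rd₂ (rawInf hqM hA) (rawZero hqM hA) (jFq q M ^ a * jointFamily hqM i) =
      Sum.elim (fun l : Fin (dedekindPsi M) =>
          ((jqModC kA ^ a * jqNModC kA M ^ (l : ℕ) * sepRed kA q, 0) :
            LaurentSeries kA × LaurentSeries kA))
        (fun p : Fin (dedekindPsi M) × Fin q =>
          (0, jqModC kA ^ (q * a + p.2) * jqNModC kA M ^ (p.1 : ℕ) * sepRed kA q)) i := by
  obtain ⟨hj, rj⟩ := rawInf_jFq hqM hA
  obtain ⟨hj2, rj2⟩ := rawZero_jFq hqM hA
  obtain ⟨hs, rs⟩ := rawInf_sepFun hqM hA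
  obtain ⟨hs2, rs2⟩ := rawZero_sepFun hqM hA
  obtain ⟨hM, rM⟩ := rawInf_jMFq hqM hA
  have hM2 : jMFq q M ∈ (rawZero hqM hA).W := (rawZero_genFun hqM hA _).1
  rcases i with l | ⟨l, i⟩
  · have hT : jointFamily hqM (Sum.inl l) = jMFq q M ^ (l : ℕ) * sepFun q M := rfl
    rw [hT, Sum.elim_inl]
    refine ⟨⟨mul_mem (pow_mem hj a) (mul_mem (pow_mem hM _) hs),
      mul_mem (pow_mem hj2 a) (mul_mem (pow_mem hM2 _) hs2)⟩, Prod.ext ?_ ?_⟩
    · show (rawInf hqM hA).rd _ = _
      rw [Sheet.rd_mul (pow_mem hj a) (mul_mem (pow_mem hM _) hs),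
        Sheet.rd_mul (pow_mem hM _) hs, Sheet.rd_pow hj, Sheet.rd_pow hM, rj, rM, rs, mul_assoc]
    · show (rawZero hqM hA).rd _ = _
      rw [Sheet.rd_mul (pow_mem hj2 a) (mul_mem (pow_mem hM2 _) hs2),
        Sheet.rd_mul (pow_mem hM2 _) hs2, rs2, mul_zero, mul_zero]
  · set g := jMFq q M ^ (l : ℕ) * (jFq q M ^ (i : ℕ) * sepFun q M) with hg
    have hT : jointFamily hqM (Sum.inr (l, i)) = monoSwap hqM g := rfl
    rw [hT, Sum.elim_inr]
    have hgi : g ∈ (rawInf hqM hA).W := mul_mem (pow_mem hM _) (mul_mem (pow_mem hj _) hs)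
    have hgz : g ∈ (rawZero hqM hA).W := mul_mem (pow_mem hM2 _) (mul_mem (pow_mem hj2 _) hs2)
    have h1 : monoSwap hqM g ∈ (rawInf hqM hA).W := (rawZero_mem_iff hqM hA g).mp hgz
    have h2 : monoSwap hqM g ∈ (rawZero hqM hA).W := by
      rw [rawZero_mem_iff, monoSwap_monoSwap]; exact hgi
    refine ⟨⟨mul_mem (pow_mem hj a) h1, mul_mem (pow_mem hj2 a) h2⟩, Prod.ext ?_ ?_⟩
    · show (rawInf hqM hA).rd _ = _
      rw [Sheet.rd_mul (pow_mem hj a) h1, ← rawZero_rd, hg,
        Sheet.rd_mul (pow_mem hM2 _) (mul_mem (pow_mem hj2 _) hs2),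
        Sheet.rd_mul (pow_mem hj2 _) hs2, rs2, mul_zero, mul_zero, mul_zero]
    · show (rawZero hqM hA).rd _ = _
      rw [Sheet.rd_mul (pow_mem hj2 a) h2, Sheet.rd_pow hj2, rj2, rawZero_rd, monoSwap_monoSwap,
        hg, Sheet.rd_mul (pow_mem hM _) (mul_mem (pow_mem hj _) hs),
        Sheet.rd_mul (pow_mem hj _) hs, Sheet.rd_pow hM, Sheet.rd_pow hj, rj, rM, rs, ← pow_mul,
        pow_add]
      ring

set_option maxHeartbeats 1600000 in
include hqM hA in
theorem polyIndependent_special :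
    LinearIndependent kA fun p : ℕ × Fin (dedekindPsi M) =>
      jqModC kA ^ p.1 * jqNModC kA M ^ (p.2 : ℕ) * sepRed kA q := by
  have hk : (M : kA) ≠ 0 := fun h => hqM ((monoResidue_charP hA).cast_eq_zero_iff M |>.mp h)
  have h := polyIndependent_of_linearIndependent_adjoin (transcendental_jqModC kA)
    (linearIndependent_jqNModC_pow kA M hk)
  exact linearIndependent_mul_right h (sepRed_ne_zero kA (Fact.out : q.Prime).two_le)

set_option maxHeartbeats 1600000 in
/-- The pairs of reductions of the joint family are independent over `k[j]`. -/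
theorem linearIndependent_jointFamily :
    LinearIndependent kA fun p : ℕ × (Fin (dedekindPsi M) ⊕ (Fin (dedekindPsi M) × Fin q)) =>
      rd₂ (rawInf hqM hA) (rawZero hqM hA) (jFq q M ^ p.1 * jointFamily hqM p.2) := by
  have heq : (fun p : ℕ × (Fin (dedekindPsi M) ⊕ (Fin (dedekindPsi M) × Fin q)) =>
      rd₂ (rawInf hqM hA) (rawZero hqM hA) (jFq q M ^ p.1 * jointFamily hqM p.2)) = fun p =>
      Sum.elim (fun l : Fin (dedekindPsi M) =>
          ((jqModC kA ^ p.1 * jqNModC kA M ^ (l : ℕ) * sepRed kA q, 0) :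
            LaurentSeries kA × LaurentSeries kA))
        (fun r : Fin (dedekindPsi M) × Fin q =>
          (0, jqModC kA ^ (q * p.1 + r.2) * jqNModC kA M ^ (r.1 : ℕ) * sepRed kA q)) p.2 :=
    funext fun p => (jointFamily_rd hqM hA p.1 p.2).2
  rw [heq]
  have hv := polyIndependent_special hqM hA
  have hv' : LinearIndependent kA fun p : ℕ × (Fin (dedekindPsi M) × Fin q) =>
      jqModC kA ^ (q * p.1 + p.2.2) * jqNModC kA M ^ (p.2.1 : ℕ) * sepRed kA q := by
    refine hv.comp (fun p : ℕ × (Fin (dedekindPsi M) × Fin q) =>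
      ((q * p.1 + (p.2.2 : ℕ) : ℕ), p.2.1)) ?_
    rintro ⟨a, l, i⟩ ⟨b, m, j⟩ h
    simp only [Prod.mk.injEq] at h
    obtain ⟨h1, rfl⟩ := h
    have hq0 := (Fact.out : q.Prime).pos
    have h2 : a = b := by
      have := congrArg (· / q) h1
      simpa [Nat.mul_add_div hq0, Nat.div_eq_of_lt i.2, Nat.div_eq_of_lt j.2] using this
    subst h2
    rw [show i = j from Fin.ext (by omega)]
  exact linearIndependent_pairs
    (v := fun p : ℕ × Fin (dedekindPsi M) =>
      jqModC kA ^ p.1 * jqNModC kA M ^ (p.2 : ℕ) * sepRed kA q)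
    (w := fun p : ℕ × (Fin (dedekindPsi M) × Fin q) =>
      jqModC kA ^ (q * p.1 + p.2.2) * jqNModC kA M ^ (p.2.1 : ℕ) * sepRed kA q) hv hv'

include hqM in
theorem finrank_adjoin_jFq :
    Module.finrank (adjoin Qb {jFq q M}) FqM = (q + 1) * dedekindPsi M := by
  have hq := (Fact.out : q.Prime)
  haveI : NeZero (q * M) := ⟨monoLevel_ne_zero⟩
  have hx : jFq q M = FermatLib.Modular.jElem Qb (q * M) := Subtype.ext (by
    rw [coe_jFq, FermatLib.Modular.coe_jElem, ← jqModC_rat, coeffEmb, coeffMap_jqModC])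
  rw [hx, FermatLib.Modular.finrank_adjoin_jElem, mul_comm q M,
    FermatLib.Modular.Corr.dedekindPsi_mul_prime M hq, if_neg hqM]

theorem transcendental_jFq : Transcendental Qb (jFq q M) := by
  rw [← transcendental_algebraMap_iff (A := LaurentSeries Qb) Subtype.val_injective]
  show Transcendental Qb (jFq q M : LaurentSeries Qb)
  rw [coe_jFq]
  exact transcendental_jqModC Qb

include hA in
/-- The joint family is independent over `ℚ̄[j]`. -/
theorem polyIndependent_jointFamily :
    PolyIndependent Qb (jFq q M) (jointFamily hqM) := by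
  unfold PolyIndependent
  rw [linearIndependent_iff_finset_linearIndependent]
  intro s
  refine linearIndependent_of_rd₂ (s₁ := rawInf hqM hA) (s₂ := rawZero hqM hA)
    monoResidue_eq_zero_iff (fun i => (jointFamily_rd hqM hA _ _).1) ?_
  exact (linearIndependent_jointFamily hqM hA).comp _ Subtype.val_injective

include hA in
/-- The joint family spans over `ℚ̄(j)`. -/
theorem span_jointFamily :
    Submodule.span (adjoin Qb {jFq q M}) (Set.range (jointFamily hqM)) = ⊤ := by
  have hind := linearIndependent_adjoin_of_polyIndependent transcendental_jFq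
    (polyIndependent_jointFamily hqM hA)
  haveI : Nonempty (Fin (dedekindPsi M) ⊕ (Fin (dedekindPsi M) × Fin q)) :=
    ⟨Sum.inl ⟨0, FermatLib.Modular.dedekindPsi_pos⟩⟩
  refine hind.span_eq_top_of_card_eq_finrank ?_
  rw [finrank_adjoin_jFq hqM, Fintype.card_sum, Fintype.card_prod, Fintype.card_fin,
    Fintype.card_fin]
  ring

end FermatLib.Igusa.Mono
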