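import Fermat.Agent.Igusa.MonoDatum

/-!
The affine ring of reductions is exactly the ring of glued functions.
-/

set_option autoImplicit false
set_option linter.style.haveILetI false

noncomputable section

open AlgebraicCurve

namespace FermatLib.Igusa.Mono

universe uL uF uk uKb

namespace MonoDatum

variable {L : Type uL} {k : Type uk} [Field L] [Field k] {A : ValuationSubring L} {π : A →+* k}
  {F : Type uF} {Kb : Type uKb} [Field F] [Algebra L F] [Field Kb] [Algebra k Kb] {q : ℕ}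
  (M : MonoDatum π F Kb q)

/-- The trivial node condition. -/
def one' : Place k Kb × Place k Kb → k := fun _ => 1

theorem mem_gl_one {n : ℕ} {f : Kb × Kb} :
    f ∈ M.gl one' n ↔ f.1 ∈ riemannRochSpace (n • M.P₁) ∧ f.2 ∈ riemannRochSpace (n • M.P₂) ∧
      ∀ z ∈ M.nodes, valAt z.1 f.1 = valAt z.2 f.2 := by
  rw [mem_gl]
  refine and_congr_right fun _ => and_congr_right fun _ => forall₂_congr fun z _ => ?_
  simp [one', eq_comm]

theorem mem_gl_one_of_mem_U {n : ℕ} {f : Kb × Kb} (hf : f ∈ M.U)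
    (h1 : f.1 ∈ riemannRochSpace (n • M.P₁)) (h2 : f.2 ∈ riemannRochSpace (n • M.P₂)) :
    f ∈ M.gl one' n :=
  M.mem_gl_one.mpr ⟨h1, h2, fun _ hz => hz.2.2 f hf⟩

/-- Regular functions on one sheet occurring with zero on the other sheet. -/
def I₁ : Submodule k Kb := M.U.comap (LinearMap.inl k Kb Kb)

/-- Regular functions on the second sheet occurring with zero on the first. -/
def I₂ : Submodule k Kb := M.U.comap (LinearMap.inr k Kb Kb)

theorem mem_of_ideal {I : Submodule k Kb} (hImul : ∀ c ∈ Reg M.P₁, ∀ i ∈ I, c * i ∈ I)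
    (hIle : I ≤ Reg M.P₁) (hgen : ∀ c ∈ Reg M.P₁, M.Φ (M.Φ c) - c ∈ I) {f : Kb}
    (hf : f ∈ Reg M.P₁) (hZ : ∀ v ∈ M.Z, valAt v f = 0) : f ∈ I := by
  obtain ⟨c₀, hc₀, hne⟩ := M.Φ_moves
  refine mem_ideal_of_forall_ord M.rrK M.P₁_nonneg M.P₁_ne_zero hImul hIle (hgen c₀ hc₀)
    (sub_ne_zero.mpr hne) hf fun hf0 R hR => ?_
  have hfR := (hf R hR).resolve_left hf0
  by_cases hRZ : R ∈ M.Z
  · obtain ⟨n, hn⟩ := exists_reg_ord M.rrK M.P₁_nonneg M.P₁_ne_zero (Finsupp.single R 1)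
      (by simp)
    obtain ⟨t, ht, ht0, htR, -⟩ := hn n le_rfl R hR
    rw [Finsupp.single_eq_same] at htR
    have htreg := rrSpace_nsmul_le_reg M.P₁ n ht
    have hΦt := M.Φ_reg _ (M.Φ_reg _ htreg)
    have hireg : M.Φ (M.Φ t) - t ∈ Reg M.P₁ := (Reg M.P₁).sub_mem hΦt htreg
    have hval : valAt R (M.Φ (M.Φ t)) = 0 := by
      have h := valAt_add_reg M.rrK.deg_one hireg htreg hR
      rw [sub_add_cancel, hRZ.2 t htreg,
        (valAt_eq_zero_iff (M.rrK.deg_one R) (htreg R hR)).mpr (Or.inr htR.ge)] at h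
      rw [h, add_zero]
    have h2 : M.Φ (M.Φ t) = 0 ∨ 2 ≤ R.ord (M.Φ (M.Φ t)) := by
      refine ((valAt_eq_zero_iff (M.rrK.deg_one R) (hΦt R hR)).mp hval).imp id fun h1 => ?_
      obtain ⟨e, he⟩ := M.Φ_ord _ (M.Φ_reg _ htreg) R
      have hq : (2 : ℤ) ≤ q := by exact_mod_cast M.two_le
      rcases le_or_gt e 0 with h | h
      · nlinarith
      · nlinarith
    have hfR1 : 1 ≤ R.ord f :=
      ((valAt_eq_zero_iff (M.rrK.deg_one R) (hf R hR)).mp (hZ R hRZ)).resolve_left hf0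
    refine ⟨_, hgen t htreg, ?_, ?_⟩
    · intro h
      rw [sub_eq_zero] at h
      have := h2.resolve_left (by rw [h]; exact ht0)
      rw [h, htR] at this
      omega
    · by_contra hlt
      push Not at hlt
      have h3 : -(M.Φ (M.Φ t) - t) = 0 ∨ 2 ≤ R.ord (-(M.Φ (M.Φ t) - t)) :=
        Or.inr (by rw [ord_neg]; omega)
      have h4 := ord_add_ge R h2 h3
      rw [neg_sub, add_sub_cancel] at h4
      have := h4.resolve_left ht0
      omega
  · simp only [Z, Set.mem_ofPred_eq, not_and, not_forall] at hRZ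
    obtain ⟨c, hc, hval⟩ := hRZ hR
    have hireg : M.Φ (M.Φ c) - c ∈ Reg M.P₁ :=
      (Reg M.P₁).sub_mem (M.Φ_reg _ (M.Φ_reg _ hc)) hc
    have hi0 : M.Φ (M.Φ c) - c ≠ 0 := fun h => hval (by rw [h, valAt_zero])
    refine ⟨_, hgen c hc, hi0, ?_⟩
    have := (hireg R hR).resolve_left hi0
    rcases lt_or_eq_of_le this with h | h
    · exact absurd ((valAt_eq_zero_iff (M.rrK.deg_one R) (hireg R hR)).mpr (Or.inr (by omega))) hval
    · omega

theorem pair_zero_mem_U {f : Kb} (hf : f ∈ Reg M.P₁) (hZ : ∀ v ∈ M.Z, valAt v f = 0) :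
    ((f, 0) : Kb × Kb) ∈ M.U := by
  refine M.mem_of_ideal (I := M.I₁) (fun c hc i hi => ?_) (fun i hi => hi.1) (fun c hc => ?_) hf hZ
  · have := M.mul_mem_U (M.pair_mem_U hc) hi
    simpa [I₁] using this
  · have := M.U.sub_mem (M.pair'_mem_U (M.Φ_reg c hc)) (M.pair_mem_U hc)
    simpa [I₁] using this

theorem zero_pair_mem_U {f : Kb} (hf : f ∈ Reg M.P₁) (hZ : ∀ v ∈ M.Z, valAt v f = 0) :
    ((0, f) : Kb × Kb) ∈ M.U := by
  refine M.mem_of_ideal (I := M.I₂) (fun c hc i hi => ?_) (fun i hi => hi.2.1) (fun c hc => ?_) hf hZ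
  · have := M.mul_mem_U (M.pair'_mem_U hc) hi
    simpa [I₂] using this
  · have := M.U.sub_mem (M.pair_mem_U (M.Φ_reg c hc)) (M.pair'_mem_U hc)
    simpa [I₂] using this

/-- Evaluation at a place of one of the two sheets. -/
def pv (a : Bool × Place k Kb) (f : Kb × Kb) : k :=
  if a.1 then valAt a.2 f.1 else valAt a.2 f.2

theorem pv_mul {a : Bool × Place k Kb} (ha : M.P₁ a.2 = 0) {f h : Kb × Kb} (hf : f ∈ M.U)
    (hh : h ∈ M.U) : pv a (f * h) = pv a f * pv a h := by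
  unfold pv
  split_ifs
  · exact valAt_mul_reg M.rrK.deg_one hf.1 hh.1 ha
  · exact valAt_mul_reg M.rrK.deg_one hf.2.1 hh.2.1 ha

theorem pv_sub {a : Bool × Place k Kb} (ha : M.P₁ a.2 = 0) {f h : Kb × Kb}
    (hf1 : f.1 ∈ Reg M.P₁) (hf2 : f.2 ∈ Reg M.P₁) (hh1 : h.1 ∈ Reg M.P₁) (hh2 : h.2 ∈ Reg M.P₁) :
    pv a (f - h) = pv a f - pv a h := by
  unfold pv
  split_ifs
  · have := valAt_add_reg M.rrK.deg_one ((Reg M.P₁).sub_mem hf1 hh1) hh1 ha
    rw [sub_add_cancel] at this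
    rw [this, Prod.fst_sub, add_sub_cancel_right]
  · have := valAt_add_reg M.rrK.deg_one ((Reg M.P₁).sub_mem hf2 hh2) hh2 ha
    rw [sub_add_cancel] at this
    rw [this, Prod.snd_sub, add_sub_cancel_right]

theorem pv_smul {a : Bool × Place k Kb} (ha : M.P₁ a.2 = 0) (c : k) {f : Kb × Kb}
    (hf : f ∈ M.U) : pv a (c • f) = c * pv a f := by
  unfold pv
  split_ifs
  · exact valAt_smul_reg M.rrK.deg_one c hf.1 ha
  · exact valAt_smul_reg M.rrK.deg_one c hf.2.1 ha

@[simp] theorem pv_one (a : Bool × Place k Kb) : pv a (1 : Kb × Kb) = 1 := by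
  simp [pv]

open Classical in
theorem exists_indicator_U (S : Finset (Bool × Place k Kb)) (hS : ∀ a ∈ S, M.P₁ a.2 = 0)
    {a : Bool × Place k Kb} (ha : a ∈ S) (T : Finset (Bool × Place k Kb)) (hT : T ⊆ S)
    (hsep : ∀ b ∈ T, ∃ u ∈ M.U, pv a u ≠ pv b u) :
    ∃ e ∈ M.U, pv a e = 1 ∧ ∀ b ∈ T, pv b e = 0 := by
  induction T using Finset.induction_on with
  | empty => exact ⟨1, M.one_mem_U, pv_one a, by simp⟩
  | insert b T hb ih =>
    rw [Finset.insert_subset_iff] at hT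
    obtain ⟨e, he, hea, heT⟩ := ih hT.2 fun c hc => hsep c (Finset.mem_insert_of_mem hc)
    obtain ⟨u, hu, hne⟩ := hsep b (Finset.mem_insert_self b T)
    set v := (pv a u - pv b u)⁻¹ • (u - pv b u • (1 : Kb × Kb)) with hv
    have h1 := M.U.smul_mem (pv b u) M.one_mem_U
    have hsub : u - pv b u • (1 : Kb × Kb) ∈ M.U := M.U.sub_mem hu h1
    have hvU : v ∈ M.U := M.U.smul_mem _ hsub
    have hval : ∀ c, M.P₁ c.2 = 0 → pv c v = (pv a u - pv b u)⁻¹ * (pv c u - pv b u) := by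
      intro c hc
      rw [hv, M.pv_smul hc _ hsub, M.pv_sub hc hu.1 hu.2.1 h1.1 h1.2.1,
        M.pv_smul hc _ M.one_mem_U, pv_one, mul_one]
    refine ⟨e * v, M.mul_mem_U he hvU, ?_, fun c hc => ?_⟩
    · rw [M.pv_mul (hS a ha) he hvU, hea, hval a (hS a ha),
        inv_mul_cancel₀ (sub_ne_zero.mpr hne), one_mul]
    · have hcS : c ∈ S := by
        rcases Finset.mem_insert.mp hc with rfl | hc
        exacts [hT.1, hT.2 hc]
      rw [M.pv_mul (hS c hcS) he hvU]
      rcases Finset.mem_insert.mp hc with rfl | hc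
      · rw [hval c (hS c hcS), sub_self, mul_zero, mul_zero]
      · rw [heT c hc, zero_mul]

/-- Glued regular pairs belong to `U`. -/
theorem gl_one_le_U (n : ℕ) : M.gl one' n ≤ M.U := by
  classical
  intro f₀ hf₀
  obtain ⟨hf1, hf2⟩ := M.gl_le_reg one' hf₀
  set T := M.finite_Z.toFinset
  set S : Finset (Bool × Place k Kb) := Finset.univ ×ˢ T with hS
  have hmemS : ∀ a : Bool × Place k Kb, a ∈ S ↔ a.2 ∈ M.Z := fun a => by simp [hS, T]
  have hSP : ∀ a ∈ S, M.P₁ a.2 = 0 := fun a ha => ((hmemS a).mp ha).1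
  have hagree : ∀ a ∈ S, ∀ b ∈ S, (∀ u ∈ M.U, pv a u = pv b u) → pv a f₀ = pv b f₀ := by
    rintro ⟨ba, va⟩ ha ⟨bb, vb⟩ hb hall
    rw [hmemS] at ha hb
    have hsame : ba = bb → va = vb := by
      rintro rfl
      by_contra hne
      obtain ⟨c, hc, hcne⟩ :=
        exists_separate M.rrK M.P₁_nonneg M.P₁_ne_zero ha.1 hb.1 hne
      cases ba
      · exact hcne (by simpa [pv] using hall _ (M.pair'_mem_U hc))
      · exact hcne (by simpa [pv] using hall _ (M.pair_mem_U hc))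
    cases ba <;> cases bb
    · rw [hsame rfl]
    · have hz : (vb, va) ∈ M.nodes := ⟨hb, ha, fun u hu => by simpa [pv] using (hall u hu).symm⟩
      simpa [pv] using ((M.mem_gl_one.mp hf₀).2.2 _ hz).symm
    · have hz : (va, vb) ∈ M.nodes := ⟨ha, hb, fun u hu => by simpa [pv] using hall u hu⟩
      simpa [pv] using (M.mem_gl_one.mp hf₀).2.2 _ hz
    · rw [hsame rfl]
  suffices key : ∀ (m : ℕ) (f : Kb × Kb), f.1 ∈ Reg M.P₁ → f.2 ∈ Reg M.P₁ →
      (∀ a ∈ S, ∀ b ∈ S, (∀ u ∈ M.U, pv a u = pv b u) → pv a f = pv b f) →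
      (S.filter fun a => pv a f ≠ 0).card ≤ m → f ∈ M.U from key _ f₀ hf1 hf2 hagree le_rfl
  intro m
  induction m with
  | zero =>
    intro f hf1 hf2 hag hm
    have h0 : ∀ a ∈ S, pv a f = 0 := by simpa using hm
    have h1 := M.pair_zero_mem_U hf1 fun v hv =>
      by simpa [pv] using h0 (true, v) ((hmemS _).mpr hv)
    have h2 := M.zero_pair_mem_U hf2 fun v hv =>
      by simpa [pv] using h0 (false, v) ((hmemS _).mpr hv)
    simpa using M.U.add_mem h1 h2
  | succ m ih =>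
    intro f hf1 hf2 hag hm
    by_cases hall : ∀ a ∈ S, pv a f = 0
    · exact ih f hf1 hf2 hag (by
        rw [Finset.filter_false_of_mem fun a ha => not_not_intro (hall a ha)]
        simp)
    push Not at hall
    obtain ⟨a, ha, hne⟩ := hall
    obtain ⟨e, he, hea, heT⟩ := M.exists_indicator_U S hSP ha
      (S.filter fun b => ∃ u ∈ M.U, pv a u ≠ pv b u) (Finset.filter_subset _ _)
      (fun b hb => (Finset.mem_filter.mp hb).2)
    have hce := M.U.smul_mem (pv a f) he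
    suffices hf' : f - pv a f • e ∈ M.U by simpa using M.U.add_mem hf' hce
    have hval : ∀ b ∈ S, pv b (f - pv a f • e) = pv b f - pv a f * pv b e := fun b hb => by
      rw [M.pv_sub (hSP b hb) hf1 hf2 hce.1 hce.2.1, M.pv_smul (hSP b hb) _ he]
    refine ih _ ((Reg M.P₁).sub_mem hf1 hce.1) ((Reg M.P₁).sub_mem hf2 hce.2.1)
      (fun b hb c hc hbc => by rw [hval b hb, hval c hc, hag b hb c hc hbc, hbc e he]) ?_
    have hlt : (S.filter fun b => pv b (f - pv a f • e) ≠ 0) ⊂ S.filter fun b => pv b f ≠ 0 := by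
      rw [Finset.ssubset_iff_of_subset]
      · exact ⟨a, by simp [ha, hne], by simp [ha, hval a ha, hea]⟩
      · intro b hb
        rw [Finset.mem_filter] at hb ⊢
        refine ⟨hb.1, fun h0 => hb.2 ?_⟩
        rw [hval b hb.1, h0]
        by_cases hsep : ∃ u ∈ M.U, pv a u ≠ pv b u
        · rw [heT b (Finset.mem_filter.mpr ⟨hb.1, hsep⟩)]
          ring
        · push Not at hsep
          exact absurd (h0 ▸ hag a ha b hb.1 hsep) hne
    have := Finset.card_lt_card hlt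
    omega

theorem node_fst_injective {z w : Place k Kb × Place k Kb} (hz : z ∈ M.nodes) (hw : w ∈ M.nodes)
    (h : z.1 = w.1) : z = w := by
  refine Prod.ext h ?_
  by_contra hne
  obtain ⟨c, hc, hcne⟩ := exists_separate M.rrK M.P₁_nonneg M.P₁_ne_zero
    (M.P₁_of_node hz).2 (M.P₁_of_node hw).2 hne
  have h1 := hz.2.2 _ (M.pair'_mem_U hc)
  have h2 := hw.2.2 _ (M.pair'_mem_U hc)
  exact hcne (h1.symm.trans (by rw [h]; exact h2))

theorem node_snd_injective {z w : Place k Kb × Place k Kb} (hz : z ∈ M.nodes) (hw : w ∈ M.nodes)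
    (h : z.2 = w.2) : z = w := by
  refine Prod.ext ?_ h
  by_contra hne
  obtain ⟨c, hc, hcne⟩ := exists_separate M.rrK M.P₁_nonneg M.P₁_ne_zero
    (M.P₁_of_node hz).1 (M.P₁_of_node hw).1 hne
  have h1 := hz.2.2 _ (M.pair_mem_U hc)
  have h2 := hw.2.2 _ (M.pair_mem_U hc)
  exact hcne (h1.trans (by rw [h]; exact h2.symm))

end MonoDatum

end FermatLib.Igusa.Mono
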