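import Fermat.Agent.Igusa.MonoGlue

/-!
In large level the reductions of `L(n Px)` are exactly the glued functions.
-/

set_option autoImplicit false
set_option linter.style.haveILetI false

noncomputable section

open AlgebraicCurve

namespace FermatLib.Igusa.Mono

universe uL uF uk uKb

namespace MonoDatum

variable {L : Type uL} {k : Type uk} [Field L] [Field k] [IsAlgClosed k] {A : ValuationSubring L}
  {π : A →+* k}
  {F : Type uF} {Kb : Type uKb} [Field F] [Algebra L F] [Field Kb] [Algebra k Kb] {q : ℕ}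
  (M : MonoDatum π F Kb q)

omit [IsAlgClosed k] in
theorem one_le_degree_Px : 1 ≤ Divisor.degree M.Px := by
  refine one_le_degree_of_ne_zero M.rrF.deg_one M.Px_nonneg fun h => ?_
  have hx : M.x ∈ riemannRochSpace (0 : Divisor L F) := by
    have := M.x_mem_rr
    rwa [h, smul_zero] at this
  obtain ⟨c, hc⟩ := M.rrF.exists_eq_algebraMap hx
  have hcA : c ∈ A := Sheet.mem_of_algebraMap_mem (s := M.s₁) M.π_eq_zero (hc ▸ M.x_integral.1)
  apply M.P₁_ne_zero
  ext v
  rw [M.P₁_apply, hc, Sheet.rd_algebraMap hcA, ord_algebraMap]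
  simp

omit [IsAlgClosed k] in
theorem one_le_degree_P₁ : 1 ≤ Divisor.degree M.P₁ :=
  one_le_degree_of_ne_zero M.rrK.deg_one M.P₁_nonneg M.P₁_ne_zero

omit [IsAlgClosed k] in
theorem one_le_degree_P₂ : 1 ≤ Divisor.degree M.P₂ :=
  one_le_degree_of_ne_zero M.rrK.deg_one M.P₂_nonneg M.P₂_ne_zero

/-- The number of nodes. -/
def nodeCount : ℕ := Nat.card M.nodes

omit [IsAlgClosed k] in
/-- The dimension of the spaces of glued functions in large degree. -/
theorem exists_finrank_gl : ∃ N : ℕ, ∀ n, N ≤ n → ∀ l : Place k Kb × Place k Kb → k,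
    (Module.finrank k (M.gl l n) : ℤ) =
      n * (Divisor.degree M.P₁ + Divisor.degree M.P₂) + 2 - 2 * M.gK - M.nodeCount := by
  classical
  haveI : Fintype ↥M.nodes := M.finite_nodes.fintype
  set S := M.nodes.toFinset.image Prod.snd with hS
  have hSP : ∀ v ∈ S, M.P₂ v = 0 := by
    intro v hv
    obtain ⟨z, hz, rfl⟩ := Finset.mem_image.mp hv
    exact (M.supp _).mp (M.P₁_of_node (Set.mem_toFinset.mp hz)).2
  obtain ⟨N₀, hN₀⟩ := exists_indicator M.rrK M.P₂_nonneg M.P₂_ne_zero S hSP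
  refine ⟨N₀ + 2 * M.gK, fun n hn l => ?_⟩
  haveI := M.rrK.finite_space (n • M.P₁)
  haveI := M.rrK.finite_space (n • M.P₂)
  have hd : ∀ v : Place k Kb, v.deg = 1 := M.rrK.deg_one
  let ψ : (↥(riemannRochSpace (n • M.P₁)) × ↥(riemannRochSpace (n • M.P₂))) →ₗ[k]
      (↥M.nodes → k) :=
    { toFun := fun f z => valAt (z : Place k Kb × Place k Kb).2 (f.2 : Kb) -
        l z * valAt (z : Place k Kb × Place k Kb).1 (f.1 : Kb)
      map_add' := fun f h => by
        funext z
        have e1 := valAt_add_reg hd (rrSpace_nsmul_le_reg M.P₁ n f.1.2)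
          (rrSpace_nsmul_le_reg M.P₁ n h.1.2) (M.P₁_of_node z.2).1
        have e2 := valAt_add_reg hd (rrSpace_nsmul_le_reg M.P₂ n f.2.2)
          (rrSpace_nsmul_le_reg M.P₂ n h.2.2) ((M.supp _).mp (M.P₁_of_node z.2).2)
        simp only [Prod.fst_add, Prod.snd_add, Submodule.coe_add, Pi.add_apply, e1, e2]
        ring
      map_smul' := fun c f => by
        funext z
        have e1 := valAt_smul_reg hd c (rrSpace_nsmul_le_reg M.P₁ n f.1.2) (M.P₁_of_node z.2).1
        have e2 := valAt_smul_reg hd c (rrSpace_nsmul_le_reg M.P₂ n f.2.2)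
          ((M.supp _).mp (M.P₁_of_node z.2).2)
        simp only [Prod.smul_fst, Prod.smul_snd, Submodule.coe_smul, Pi.smul_apply, e1, e2,
          RingHom.id_apply, smul_eq_mul]
        ring }
  have hsurj : Function.Surjective ψ := by
    rw [← LinearMap.range_eq_top, eq_top_iff, ← (Pi.basisFun k ↥M.nodes).span_eq,
      Submodule.span_le]
    rintro _ ⟨z, rfl⟩
    have hzS : (z : Place k Kb × Place k Kb).2 ∈ S :=
      Finset.mem_image.mpr ⟨_, Set.mem_toFinset.mpr z.2, rfl⟩
    obtain ⟨f, hf, h1, h0⟩ := hN₀ n (by omega) _ hzS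
    refine ⟨(0, ⟨f, hf⟩), ?_⟩
    funext w
    show valAt (w : Place k Kb × Place k Kb).2 f - l w * valAt (w : Place k Kb × Place k Kb).1
      (0 : Kb) = _
    rw [valAt_zero, mul_zero, sub_zero, Pi.basisFun_apply]
    rcases eq_or_ne w z with rfl | hwz
    · rw [h1, Pi.single_eq_same]
    · rw [Pi.single_eq_of_ne hwz, h0 _ (Finset.mem_image.mpr ⟨_, Set.mem_toFinset.mpr w.2, rfl⟩)
        fun h => hwz (Subtype.ext (M.node_snd_injective w.2 z.2 h))]
  let e : ↥(LinearMap.ker ψ) ≃ₗ[k] ↥(M.gl l n) :=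
    { toFun := fun f => ⟨((f.1.1 : Kb), (f.1.2 : Kb)), f.1.1.2, f.1.2.2, fun z hz =>
        sub_eq_zero.mp (congrFun (LinearMap.mem_ker.mp f.2) ⟨z, hz⟩)⟩
      map_add' := fun _ _ => rfl
      map_smul' := fun _ _ => rfl
      invFun := fun f => ⟨(⟨f.1.1, f.2.1⟩, ⟨f.1.2, f.2.2.1⟩), LinearMap.mem_ker.mpr
        (funext fun z => sub_eq_zero.mpr (f.2.2.2 z z.2))⟩
      left_inv := fun _ => rfl
      right_inv := fun _ => rfl }
  have h1 := LinearMap.finrank_range_add_finrank_ker ψ
  rw [LinearMap.range_eq_top.mpr hsurj, finrank_top, Module.finrank_pi,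
    show Module.finrank k ↥(LinearMap.ker ψ) = Module.finrank k ↥(M.gl l n) from e.finrank_eq,
    Module.finrank_prod] at h1
  have hdeg1 := M.one_le_degree_P₁
  have hdeg2 := M.one_le_degree_P₂
  have hn' : (2 * M.gK : ℤ) ≤ n := by
    have : 2 * M.gK ≤ n := by omega
    exact_mod_cast this
  have h2 := M.rrK.finrank_space (n • M.P₁) (by rw [map_nsmul, nsmul_eq_mul]; nlinarith)
  have h3 := M.rrK.finrank_space (n • M.P₂) (by rw [map_nsmul, nsmul_eq_mul]; nlinarith)
  rw [map_nsmul, nsmul_eq_mul] at h2 h3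
  have hcard : Fintype.card ↥M.nodes = M.nodeCount := Nat.card_eq_fintype_card.symm
  rw [hcard] at h1
  rw [mul_add]
  omega

omit [IsAlgClosed k] in
theorem finrank_red {V : Submodule L F} (hV : FiniteDimensional L V) :
    FiniteDimensional k (M.red V) ∧ Module.finrank k (M.red V) = Module.finrank L V :=
  ⟨(finite_redSpace M.π_surjective M.π_eq_zero V).1, M.orth V hV⟩

omit [IsAlgClosed k] in
theorem exists_finrank_redLevel : ∃ N : ℕ, ∀ n, N ≤ n →
    FiniteDimensional k (M.redLevel n) ∧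
      (Module.finrank k (M.redLevel n) : ℤ) = n * Divisor.degree M.Px + 1 - M.gF := by
  refine ⟨2 * M.gF, fun n hn => ?_⟩
  obtain ⟨h1, h2⟩ := M.finrank_red (M.rrF.finite_space (n • M.Px))
  refine ⟨h1, ?_⟩
  have hdeg := M.one_le_degree_Px
  have hn' : (2 * M.gF : ℤ) ≤ n := by exact_mod_cast hn
  have h3 := M.rrF.finrank_space (n • M.Px) (by rw [map_nsmul, nsmul_eq_mul]; nlinarith)
  rw [map_nsmul, nsmul_eq_mul] at h3
  exact (congrArg (Nat.cast : ℕ → ℤ) h2).trans h3

omit [IsAlgClosed k] in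
theorem exists_gl_one_le_redLevel : ∃ N : ℕ, ∀ n, N ≤ n → M.gl one' n ≤ M.redLevel n := by
  obtain ⟨n₀, htop⟩ := M.top
  obtain ⟨N, hN⟩ : ∃ N, M.gl one' n₀ ≤ M.redLevel N := by
    haveI := M.finite_gl one' n₀
    obtain ⟨t, ht⟩ := (Module.Finite.iff_fg (N := M.gl one' n₀)).mp this
    have hmem : ∀ f ∈ t, ∃ N, f ∈ M.redLevel N := fun f hf =>
      (M.gl_one_le_U n₀ (by rw [← ht]; exact Submodule.subset_span hf)).2.2
    choose! N hN using hmem
    refine ⟨t.sup N, ?_⟩
    rw [← ht, Submodule.span_le]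
    exact fun f hf => M.redLevel_mono (Finset.le_sup hf) (hN f hf)
  have key : ∀ n, n₀ ≤ n → ∀ m, n ≤ m → N ≤ m → M.gl one' n ≤ M.redLevel m := by
    intro n hn
    induction n, hn using Nat.le_induction with
    | base => exact fun m _ hm => hN.trans (M.redLevel_mono hm)
    | succ n hn ih =>
      intro m hnm hm f hf
      obtain ⟨hf1, hf2, -⟩ := id hf
      obtain ⟨t1, t2⟩ := htop (n + 1) (by omega)
      obtain ⟨r₁, hr₁, hfr₁⟩ := t1 f.1 hf1
      obtain ⟨r₂, hr₂, hfr₂⟩ := t2 f.2 hf2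
      rw [Nat.add_sub_cancel] at hfr₁ hfr₂
      have hr₁' : r₁ ∈ riemannRochSpace ((n + 1) • M.P₁) := by
        have := Submodule.sub_mem _ hf1 (riemannRochSpace_mono
          (nsmul_le_nsmul_left M.P₁_nonneg (Nat.le_succ n)) hfr₁)
        rwa [sub_sub_cancel] at this
      have hr₂' : r₂ ∈ riemannRochSpace ((n + 1) • M.P₂) := by
        have := Submodule.sub_mem _ hf2 (riemannRochSpace_mono
          (nsmul_le_nsmul_left M.P₂_nonneg (Nat.le_succ n)) hfr₂)
        rwa [sub_sub_cancel] at this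
      have hrred : ((r₁, r₂) : Kb × Kb) ∈ M.redLevel (n + 1) := by
        simpa [redLevel] using Submodule.add_mem _ hr₁ hr₂
      have hrU : ((r₁, r₂) : Kb × Kb) ∈ M.U :=
        ⟨rrSpace_nsmul_le_reg _ _ hr₁', M.reg_P₂ ▸ rrSpace_nsmul_le_reg _ _ hr₂',
          n + 1, hrred⟩
      have hrgl := M.mem_gl_one_of_mem_U (n := n + 1) hrU hr₁' hr₂'
      have hdiff : f - (r₁, r₂) ∈ M.gl one' n :=
        ⟨hfr₁, hfr₂, (Submodule.sub_mem _ hf hrgl).2.2⟩
      have := Submodule.add_mem _ (ih m (by omega) hm hdiff) (M.redLevel_mono hnm hrred)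
      simpa using this
  refine ⟨max N n₀, fun n hn => key n ?_ n le_rfl ?_⟩
  · exact le_of_max_le_right hn
  · exact le_of_max_le_left hn

omit [IsAlgClosed k] in
theorem exists_excess : ∃ N E : ℕ, ∀ n, N ≤ n → M.gl one' n ≤ M.redLevel n ∧
    FiniteDimensional k (M.redLevel n) ∧
    Module.finrank k (M.redLevel n) ≤ Module.finrank k (M.gl one' n) + E := by
  obtain ⟨N₁, h₁⟩ := M.exists_gl_one_le_redLevel
  obtain ⟨N₂, h₂⟩ := M.exists_finrank_redLevel
  obtain ⟨N₃, h₃⟩ := M.exists_finrank_gl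
  refine ⟨max N₁ (max N₂ N₃), 2 * M.gK + M.nodeCount, fun n hn => ?_⟩
  simp only [max_le_iff] at hn
  refine ⟨h₁ n hn.1, (h₂ n hn.2.1).1, ?_⟩
  have e2 := (h₂ n hn.2.1).2
  have e3 := h₃ n hn.2.2 one'
  have hle : (n : ℤ) * Divisor.degree M.Px ≤
      n * (Divisor.degree M.P₁ + Divisor.degree M.P₂) :=
    mul_le_mul_of_nonneg_left M.degree_le (Int.natCast_nonneg n)
  omega

omit [IsAlgClosed k] in
/-- A combination of functions of strictly decreasing order has the order of its last term. -/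
theorem eq_zero_of_ord_strictAnti {v : Place k Kb} {I : ℕ} (w : Fin I → Kb) (o : Fin I → ℤ)
    (hw : ∀ i, w i ≠ 0 ∧ v.ord (w i) = o i) (ho : ∀ i j, i < j → o j < o i) (b : ℤ)
    (hb : ∀ i, o i < b) (c : Fin I → k)
    (hsum : ∑ i, c i • w i = 0 ∨ b ≤ v.ord (∑ i, c i • w i)) : c = 0 := by
  classical
  by_contra hc
  obtain ⟨i₁, hi₁⟩ := Function.ne_iff.mp hc
  set j := (Finset.univ.filter fun i => c i ≠ 0).max' ⟨i₁, by simpa using hi₁⟩ with hj
  have hjmem := (Finset.univ.filter fun i => c i ≠ 0).max'_mem ⟨i₁, by simpa using hi₁⟩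
  rw [← hj, Finset.mem_filter] at hjmem
  have hterm : c j • w j ≠ 0 ∧ v.ord (c j • w j) = o j := by
    rw [Algebra.smul_def]
    have h0 : algebraMap k Kb (c j) ≠ 0 := by simpa using hjmem.2
    exact ⟨mul_ne_zero h0 (hw j).1, by
      rw [v.ord_mul h0 (hw j).1, ord_algebraMap, zero_add, (hw j).2]⟩
  have hrest : ∀ s : Finset (Fin I), j ∉ s →
      (∑ i ∈ s, c i • w i) = 0 ∨ o j + 1 ≤ v.ord (∑ i ∈ s, c i • w i) := by
    intro s
    induction s using Finset.induction_on with
    | empty => simp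
    | insert a s ha ih =>
      intro hjs
      rw [Finset.mem_insert, not_or] at hjs
      rw [Finset.sum_insert ha]
      refine ord_add_ge v ?_ (ih hjs.2)
      rcases eq_or_ne (c a) 0 with h0 | h0
      · left; rw [h0, zero_smul]
      right
      have haj : a < j := lt_of_le_of_ne
        (Finset.le_max' _ a (by simpa using h0)) (Ne.symm hjs.1)
      rw [Algebra.smul_def, v.ord_mul (by simpa using h0) (hw a).1, ord_algebraMap, zero_add,
        (hw a).2]
      have := ho a j haj
      omega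
  have htot := hsum
  rw [← Finset.add_sum_erase Finset.univ _ (Finset.mem_univ j)] at htot
  set R := ∑ i ∈ Finset.univ.erase j, c i • w i with hR
  have hR' : R = 0 ∨ o j + 1 ≤ v.ord R := hrest _ (Finset.notMem_erase _ _)
  have hbj := hb j
  have h1 : c j • w j + R = 0 ∨ o j + 1 ≤ v.ord (c j • w j + R) :=
    htot.imp id fun h => by omega
  have h2 : -R = 0 ∨ o j + 1 ≤ v.ord (-R) := by rwa [neg_eq_zero, ord_neg]
  have h3 := ord_add_ge v h1 h2
  rw [add_neg_cancel_right] at h3
  have := h3.resolve_left hterm.1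
  omega

/-- Pole bound for reductions on one sheet (`pr` is the projection, `P` its pole divisor). -/
theorem pole_bound {n : ℕ} (hn : 1 ≤ n) (P : Divisor k Kb) (hP : 0 ≤ P)
    (pr : (Kb × Kb) →ₐ[k] Kb)
    (hPx : ∀ v, P v = max (-v.ord (pr (rd₂ M.s₁ M.s₂ M.x))) 0)
    (hgl : ∀ m, ∀ f ∈ M.gl one' m, pr f ∈ riemannRochSpace (m • P))
    {f : Kb × Kb} (hf : f ∈ M.redLevel n) :
    pr f ∈ riemannRochSpace (n • P) := by
  classical
  rw [mem_riemannRochSpace_iff]
  intro v
  rcases eq_or_ne (pr f) 0 with h0 | h0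
  · exact Or.inl h0
  right
  by_contra hlt
  push Not at hlt
  rw [Finsupp.smul_apply, nsmul_eq_mul] at hlt
  have hPv : 0 ≤ P v := by
    have := Finsupp.le_def.mp hP v
    simpa using this
  set X := rd₂ M.s₁ M.s₂ M.x with hX
  obtain ⟨c, hc0, hc⟩ : ∃ c : k, pr X - algebraMap k Kb c ≠ 0 ∧
      v.ord (pr X - algebraMap k Kb c) = -P v := by
    by_cases hv : P v = 0
    · have hreg : pr X = 0 ∨ 0 ≤ v.ord (pr X) := by
        right
        have := hPx v
        omega
      obtain ⟨a, ha⟩ := exists_hasValueAt (M.rrK.deg_one v) hreg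
      obtain ⟨c, hc⟩ := exists_ne a
      have hne : algebraMap k Kb (a - c) ≠ 0 := by
        rw [map_ne_zero]; exact sub_ne_zero.mpr hc.symm
      have h0a : pr X - algebraMap k Kb a = 0 ∨ 1 ≤ v.ord (pr X - algebraMap k Kb a) :=
        hasValueAt_iff.mp ha
      refine ⟨c, ?_, ?_⟩
      · intro h
        have e : pr X - algebraMap k Kb a = -algebraMap k Kb (a - c) := by
          rw [sub_eq_zero] at h; rw [h, map_sub]; ring
        rcases h0a with h' | h'
        · rw [e, neg_eq_zero] at h'; exact hne h'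
        · rw [e, ord_neg, ord_algebraMap] at h'; omega
      · rw [hv, neg_zero]
        have h1 := ord_add_ge v (n := 0) (h0a.imp id fun h => by omega)
          (Or.inr (ord_algebraMap v (a - c)).ge)
        rw [show pr X - algebraMap k Kb a + algebraMap k Kb (a - c)
          = pr X - algebraMap k Kb c by rw [map_sub]; ring] at h1
        rcases h1 with h1 | h1
        · rw [h1, Place.ord_zero]
        · by_contra hne'
          have h2 := ord_add_ge v (n := 1)
            (Or.inr (by omega : (1 : ℤ) ≤ v.ord (pr X - algebraMap k Kb c)))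
            (f := pr X - algebraMap k Kb c) (h := -(pr X - algebraMap k Kb a))
            (by rw [neg_eq_zero, ord_neg]; exact h0a)
          rw [show pr X - algebraMap k Kb c + -(pr X - algebraMap k Kb a)
            = algebraMap k Kb (a - c) by rw [map_sub]; ring] at h2
          have h3 := h2.resolve_left hne
          rw [ord_algebraMap] at h3
          omega
    · refine ⟨0, ?_, ?_⟩
      · rw [map_zero, sub_zero]
        intro h
        have := hPx v
        rw [h, Place.ord_zero] at this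
        simp at this
        exact hv this
      · rw [map_zero, sub_zero]
        have := hPx v
        omega
  obtain ⟨N, E, hE⟩ := M.exists_excess
  set I := max (E + 1) N with hI
  have hxc : X - c • (1 : Kb × Kb) ∈ M.redLevel 1 :=
    Submodule.sub_mem _ (rd₂_mem_redSpace M.π_surjective M.x_mem_rr M.x_integral)
      (Submodule.smul_mem _ c (M.one_mem_redLevel 1))
  have hpow : ∀ {g : Kb × Kb} {a : ℕ}, g ∈ M.redLevel a → ∀ i : ℕ, g ^ i ∈ M.redLevel (i * a) := by
    intro g a hg i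
    induction i with
    | zero => simpa using M.one_mem_redLevel 0
    | succ i ih => rw [pow_succ, Nat.succ_mul]; exact M.mul_mem_redLevel ih hg
  let e : Fin I → Kb × Kb := fun i =>
    f ^ ((i : ℕ) + 1) * (X - c • (1 : Kb × Kb)) ^ ((I - ((i : ℕ) + 1)) * n)
  have he : ∀ i, e i ∈ M.redLevel (I * n) := by
    intro i
    have h1 := M.mul_mem_redLevel (hpow hf ((i : ℕ) + 1)) (hpow hxc ((I - ((i : ℕ) + 1)) * n))
    rwa [mul_one, ← Nat.add_mul, Nat.add_sub_cancel' (by omega)] at h1
  set o : Fin I → ℤ := fun i =>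
    ((i : ℕ) + 1 : ℤ) * v.ord (pr f) + ((I : ℤ) - ((i : ℕ) + 1)) * n * (-P v) with ho
  have hord : ∀ i, pr (e i) ≠ 0 ∧ v.ord (pr (e i)) = o i := by
    intro i
    have hpre : pr (e i) = pr f ^ ((i : ℕ) + 1) *
        (pr X - algebraMap k Kb c) ^ ((I - ((i : ℕ) + 1)) * n) := by
      simp only [e, map_mul, map_pow, map_sub, ← Algebra.algebraMap_eq_smul_one, AlgHom.commutes]
    refine ⟨by rw [hpre]; exact mul_ne_zero (pow_ne_zero _ h0) (pow_ne_zero _ hc0), ?_⟩
    rw [hpre, v.ord_mul (pow_ne_zero _ h0) (pow_ne_zero _ hc0), ord_pow, ord_pow, hc, ho,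
      Nat.cast_mul, Nat.cast_sub (by omega : (i : ℕ) + 1 ≤ I)]
    push_cast
    ring
  have hanti : ∀ i j, i < j → o j < o i := by
    intro i j hij
    have : ((i : ℕ) : ℤ) < (j : ℕ) := by exact_mod_cast hij
    simp only [ho]
    nlinarith
  have hIn : N ≤ I * n := le_trans (le_max_right _ _) (Nat.le_mul_of_pos_right _ hn)
  have hbound : ∀ i, o i < -((I * n : ℕ) : ℤ) * P v := by
    intro i
    simp only [ho]
    have : (0 : ℤ) < (i : ℕ) + 1 := by positivity
    push_cast
    nlinarith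
  obtain ⟨hglle, hfin, hrk⟩ := hE (I * n) hIn
  haveI := hfin
  haveI := M.finite_gl one' (I * n)
  let θ : (Fin I → k) × ↥(M.gl one' (I * n)) →ₗ[k] ↥(M.redLevel (I * n)) :=
    LinearMap.coprod (Fintype.linearCombination k fun i => (⟨e i, he i⟩ : M.redLevel (I * n)))
      (Submodule.inclusion hglle)
  have hθ : Function.Injective θ := by
    rw [← LinearMap.ker_eq_bot, LinearMap.ker_eq_bot']
    rintro ⟨a, g⟩ hag
    have hval : (∑ i, a i • e i) + (g : Kb × Kb) = 0 := by
      have := congrArg Subtype.val hag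
      simpa [θ, Fintype.linearCombination_apply] using this
    have hpr : ∑ i, a i • pr (e i) = -pr (g : Kb × Kb) := by
      have := congrArg pr hval
      rw [map_add, map_zero, map_sum] at this
      simp only [map_smul] at this
      exact eq_neg_of_add_eq_zero_left this
    have hg := (mem_riemannRochSpace_iff.mp (hgl _ _ g.2)) v
    have ha : a = 0 := eq_zero_of_ord_strictAnti (fun i => pr (e i)) o hord hanti
      (-((I * n : ℕ) : ℤ) * P v) hbound a (by
        rw [hpr, neg_eq_zero, ord_neg]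
        refine hg.imp id fun h => ?_
        rw [Finsupp.smul_apply, nsmul_eq_mul] at h
        rw [neg_mul]
        exact h)
    rw [ha] at hval
    simp only [Pi.zero_apply, zero_smul, Finset.sum_const_zero, zero_add] at hval
    exact Prod.ext ha (Subtype.ext hval)
  have h1 := LinearMap.finrank_le_finrank_of_injective hθ
  rw [Module.finrank_prod, Module.finrank_fin_fun] at h1
  omega

theorem redLevel_le_gl_one {n : ℕ} (hn : 1 ≤ n) : M.redLevel n ≤ M.gl one' n := by
  intro f hf
  have h1 : f.1 ∈ riemannRochSpace (n • M.P₁) :=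
    M.pole_bound hn M.P₁ M.P₁_nonneg (AlgHom.fst k Kb Kb) M.P₁_apply (fun m g hg => hg.1) hf
  have h2 : f.2 ∈ riemannRochSpace (n • M.P₂) :=
    M.pole_bound hn M.P₂ M.P₂_nonneg (AlgHom.snd k Kb Kb) M.P₂_apply (fun m g hg => hg.2.1) hf
  exact M.mem_gl_one_of_mem_U ⟨rrSpace_nsmul_le_reg _ _ h1,
    M.reg_P₂ ▸ rrSpace_nsmul_le_reg _ _ h2, n, hf⟩ h1 h2

/-- In large level: reductions are exactly glued functions, and all glued spaces have the
dimension of the generic Riemann–Roch spaces. -/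
theorem exists_level : ∃ N : ℕ, 1 ≤ N ∧ ∀ n, N ≤ n →
    M.redLevel n = M.gl one' n ∧ 2 * (M.gF : ℤ) ≤ n * Divisor.degree M.Px ∧
      ∀ l, (Module.finrank k (M.gl l n) : ℤ) = n * Divisor.degree M.Px + 1 - M.gF := by
  obtain ⟨N₁, h₁⟩ := M.exists_gl_one_le_redLevel
  obtain ⟨N₂, h₂⟩ := M.exists_finrank_redLevel
  obtain ⟨N₃, h₃⟩ := M.exists_finrank_gl
  refine ⟨N₁ + N₂ + N₃ + 2 * M.gF + 1, by omega, fun n hn => ?_⟩
  have heq : ∀ m, N₁ + N₂ + N₃ + 2 * M.gF + 1 ≤ m →
      M.redLevel m = M.gl one' m ∧ (m : ℤ) * Divisor.degree M.Px + 1 - M.gF =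
        m * (Divisor.degree M.P₁ + Divisor.degree M.P₂) + 2 - 2 * M.gK - M.nodeCount := by
    intro m hm
    have hle := le_antisymm (M.redLevel_le_gl_one (n := m) (by omega)) (h₁ m (by omega))
    refine ⟨hle, ?_⟩
    have e2 := (h₂ m (by omega)).2
    have e3 := h₃ m (by omega) one'
    rw [hle] at e2
    omega
  refine ⟨(heq n hn).1, ?_, fun l => ?_⟩
  · have hdeg := M.one_le_degree_Px
    have : (2 * M.gF : ℤ) ≤ n := by
      have : 2 * M.gF ≤ n := by omega
      exact_mod_cast this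
    nlinarith
  · rw [h₃ n (by omega) l]
    exact (heq n hn).2.symm

end MonoDatum

end FermatLib.Igusa.Mono
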