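import Fermat.Agent.Igusa.MonoCurve

/-!
Valuation rings of a function field with a residue map to a special function field ("sheets"),
reductions of subspaces, and orthogonality.
-/

set_option autoImplicit false
set_option linter.style.haveILetI false

noncomputable section

open AlgebraicCurve

namespace FermatLib.Igusa.Mono

variable {L F k Kb : Type*} [Field L] [Field F] [Algebra L F] [Field k] [Field Kb] [Algebra k Kb]
  {A : ValuationSubring L}

/-- A valuation ring of `F` above `A` with residue map into `Kb`, compatible with `π : A →+* k`. -/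
structure Sheet (π : A →+* k) (F Kb : Type*) [Field F] [Algebra L F] [Field Kb] [Algebra k Kb] where
  W : ValuationSubring F
  red : W →+* Kb
  mem_algebraMap : ∀ a : A, algebraMap L F (a : L) ∈ W
  red_algebraMap : ∀ a : A, red ⟨algebraMap L F (a : L), mem_algebraMap a⟩ = algebraMap k Kb (π a)
  isUnit_of_red_ne : ∀ a : W, red a ≠ 0 → IsUnit a

namespace Sheet

variable {π : A →+* k} (s : Sheet π F Kb)

open Classical in
/-- The residue map extended by zero. -/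
def rd (f : F) : Kb := if h : f ∈ s.W then s.red ⟨f, h⟩ else 0

variable {s}

theorem rd_of_mem {f : F} (h : f ∈ s.W) : s.rd f = s.red ⟨f, h⟩ := dif_pos h

@[simp] theorem rd_zero : s.rd 0 = 0 := by
  rw [rd_of_mem (zero_mem _)]; exact map_zero s.red

@[simp] theorem rd_one : s.rd 1 = 1 := by
  rw [rd_of_mem (one_mem _)]; exact map_one s.red

theorem rd_add {f g : F} (hf : f ∈ s.W) (hg : g ∈ s.W) : s.rd (f + g) = s.rd f + s.rd g := by
  rw [rd_of_mem (add_mem hf hg), rd_of_mem hf, rd_of_mem hg, ← map_add]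
  rfl

theorem rd_mul {f g : F} (hf : f ∈ s.W) (hg : g ∈ s.W) : s.rd (f * g) = s.rd f * s.rd g := by
  rw [rd_of_mem (mul_mem hf hg), rd_of_mem hf, rd_of_mem hg, ← map_mul]
  rfl

theorem rd_sub {f g : F} (hf : f ∈ s.W) (hg : g ∈ s.W) : s.rd (f - g) = s.rd f - s.rd g := by
  rw [rd_of_mem (sub_mem hf hg), rd_of_mem hf, rd_of_mem hg, ← map_sub]
  rfl

theorem rd_pow {f : F} (hf : f ∈ s.W) (n : ℕ) : s.rd (f ^ n) = s.rd f ^ n := by
  induction n with
  | zero => simp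
  | succ n ih => rw [pow_succ, rd_mul (pow_mem hf n) hf, ih, pow_succ]

theorem rd_sum {ι : Type*} (t : Finset ι) (f : ι → F) (hf : ∀ i ∈ t, f i ∈ s.W) :
    s.rd (∑ i ∈ t, f i) = ∑ i ∈ t, s.rd (f i) := by
  classical
  induction t using Finset.induction_on with
  | empty => simp
  | insert a t ha ih =>
    have hft : ∀ i ∈ t, f i ∈ s.W := fun i hi => hf i (Finset.mem_insert_of_mem hi)
    rw [Finset.sum_insert ha, Finset.sum_insert ha,
      rd_add (hf a (Finset.mem_insert_self _ _)) (sum_mem hft), ih hft]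

theorem algebraMap_mem {c : L} (hc : c ∈ A) : algebraMap L F c ∈ s.W := s.mem_algebraMap ⟨c, hc⟩

theorem smul_mem {c : L} (hc : c ∈ A) {f : F} (hf : f ∈ s.W) : c • f ∈ s.W := by
  rw [Algebra.smul_def]
  exact mul_mem (algebraMap_mem hc) hf

theorem rd_algebraMap {c : L} (hc : c ∈ A) :
    s.rd (algebraMap L F c) = algebraMap k Kb (π ⟨c, hc⟩) := by
  rw [rd_of_mem (algebraMap_mem hc)]
  exact s.red_algebraMap ⟨c, hc⟩

theorem rd_smul {c : L} (hc : c ∈ A) {f : F} (hf : f ∈ s.W) :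
    s.rd (c • f) = π ⟨c, hc⟩ • s.rd f := by
  rw [Algebra.smul_def, rd_mul (algebraMap_mem hc) hf, rd_algebraMap hc, Algebra.smul_def]

theorem inv_mem_of_rd_ne {f : F} (hf : f ∈ s.W) (h : s.rd f ≠ 0) : f⁻¹ ∈ s.W := by
  rw [rd_of_mem hf] at h
  obtain ⟨u, hu⟩ := s.isUnit_of_red_ne _ h
  have h1 : ((u.inv : s.W) : F) * f = 1 := by
    have h2 := congrArg (Subtype.val) u.inv_val
    rw [hu] at h2
    simpa using h2
  rw [← eq_inv_of_mul_eq_one_left h1]
  exact (u.inv).2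

theorem rd_ne_zero_of_inv_mem {f : F} (hf : f ∈ s.W) (hf0 : f ≠ 0) (h : f⁻¹ ∈ s.W) :
    s.rd f ≠ 0 := by
  intro h0
  have := rd_mul hf h
  rw [mul_inv_cancel₀ hf0, rd_one, h0, zero_mul] at this
  exact one_ne_zero this

theorem rd_inv {f : F} (hf : f ∈ s.W) (h : s.rd f ≠ 0) : s.rd f⁻¹ = (s.rd f)⁻¹ := by
  have hf0 : f ≠ 0 := by rintro rfl; simp at h
  apply eq_inv_of_mul_eq_one_left
  rw [← rd_mul (inv_mem_of_rd_ne hf h) hf, inv_mul_cancel₀ hf0, rd_one]

/-- `A` consists of the constants lying in `W`. -/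
theorem mem_of_algebraMap_mem (hπ : ∀ a : A, π a = 0 ↔ ¬ IsUnit a) {c : L}
    (h : algebraMap L F c ∈ s.W) : c ∈ A := by
  rcases A.mem_or_inv_mem c with hc | hc
  · exact hc
  by_contra hcA
  have hc0 : c ≠ 0 := fun e => hcA (e ▸ A.zero_mem)
  have hu : π ⟨c⁻¹, hc⟩ = 0 := by
    rw [hπ]
    rintro ⟨u, hu⟩
    apply hcA
    have h1 : ((u.inv : A) : L) * c⁻¹ = 1 := by
      have h2 := congrArg (Subtype.val) u.inv_val
      rw [hu] at h2
      simpa using h2
    rw [← inv_inv c, ← eq_inv_of_mul_eq_one_left h1]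
    exact (u.inv).2
  refine rd_ne_zero_of_inv_mem (s := s) (f := algebraMap L F c⁻¹) (algebraMap_mem hc) (by simpa using hc0)
    (by rwa [map_inv₀, inv_inv]) ?_
  rw [rd_algebraMap hc, hu, map_zero]

end Sheet

section Pair

variable {π : A →+* k} (s₁ s₂ : Sheet π F Kb)

/-- Elements integral on both sheets. -/
def Integral₂ (f : F) : Prop := f ∈ s₁.W ∧ f ∈ s₂.W

/-- The pair of reductions. -/
def rd₂ (f : F) : Kb × Kb := (s₁.rd f, s₂.rd f)

variable {s₁ s₂}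

theorem Integral₂.add {f g : F} (hf : Integral₂ s₁ s₂ f) (hg : Integral₂ s₁ s₂ g) :
    Integral₂ s₁ s₂ (f + g) := ⟨add_mem hf.1 hg.1, add_mem hf.2 hg.2⟩

theorem Integral₂.sub {f g : F} (hf : Integral₂ s₁ s₂ f) (hg : Integral₂ s₁ s₂ g) :
    Integral₂ s₁ s₂ (f - g) := ⟨sub_mem hf.1 hg.1, sub_mem hf.2 hg.2⟩

theorem Integral₂.mul {f g : F} (hf : Integral₂ s₁ s₂ f) (hg : Integral₂ s₁ s₂ g) :
    Integral₂ s₁ s₂ (f * g) := ⟨mul_mem hf.1 hg.1, mul_mem hf.2 hg.2⟩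

theorem Integral₂.pow {f : F} (hf : Integral₂ s₁ s₂ f) (n : ℕ) :
    Integral₂ s₁ s₂ (f ^ n) := ⟨pow_mem hf.1 n, pow_mem hf.2 n⟩

theorem Integral₂.smul {c : L} (hc : c ∈ A) {f : F} (hf : Integral₂ s₁ s₂ f) :
    Integral₂ s₁ s₂ (c • f) := ⟨Sheet.smul_mem hc hf.1, Sheet.smul_mem hc hf.2⟩

theorem Integral₂.sum {ι : Type*} (t : Finset ι) {f : ι → F}
    (hf : ∀ i ∈ t, Integral₂ s₁ s₂ (f i)) : Integral₂ s₁ s₂ (∑ i ∈ t, f i) :=
  ⟨sum_mem fun i hi => (hf i hi).1, sum_mem fun i hi => (hf i hi).2⟩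

theorem integral₂_zero : Integral₂ s₁ s₂ (0 : F) := ⟨zero_mem _, zero_mem _⟩

theorem integral₂_one : Integral₂ s₁ s₂ (1 : F) := ⟨one_mem _, one_mem _⟩

theorem integral₂_algebraMap {c : L} (hc : c ∈ A) : Integral₂ s₁ s₂ (algebraMap L F c) :=
  ⟨Sheet.algebraMap_mem hc, Sheet.algebraMap_mem hc⟩

@[simp] theorem rd₂_zero : rd₂ s₁ s₂ (0 : F) = 0 := by simp [rd₂]

@[simp] theorem rd₂_one : rd₂ s₁ s₂ (1 : F) = 1 := by simp [rd₂, Prod.ext_iff]

theorem rd₂_add {f g : F} (hf : Integral₂ s₁ s₂ f) (hg : Integral₂ s₁ s₂ g) :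
    rd₂ s₁ s₂ (f + g) = rd₂ s₁ s₂ f + rd₂ s₁ s₂ g :=
  Prod.ext (Sheet.rd_add hf.1 hg.1) (Sheet.rd_add hf.2 hg.2)

theorem rd₂_sub {f g : F} (hf : Integral₂ s₁ s₂ f) (hg : Integral₂ s₁ s₂ g) :
    rd₂ s₁ s₂ (f - g) = rd₂ s₁ s₂ f - rd₂ s₁ s₂ g :=
  Prod.ext (Sheet.rd_sub hf.1 hg.1) (Sheet.rd_sub hf.2 hg.2)

theorem rd₂_mul {f g : F} (hf : Integral₂ s₁ s₂ f) (hg : Integral₂ s₁ s₂ g) :
    rd₂ s₁ s₂ (f * g) = rd₂ s₁ s₂ f * rd₂ s₁ s₂ g :=
  Prod.ext (Sheet.rd_mul hf.1 hg.1) (Sheet.rd_mul hf.2 hg.2)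

theorem rd₂_pow {f : F} (hf : Integral₂ s₁ s₂ f) (n : ℕ) :
    rd₂ s₁ s₂ (f ^ n) = rd₂ s₁ s₂ f ^ n :=
  Prod.ext (Sheet.rd_pow hf.1 n) (Sheet.rd_pow hf.2 n)

theorem rd₂_smul {c : L} (hc : c ∈ A) {f : F} (hf : Integral₂ s₁ s₂ f) :
    rd₂ s₁ s₂ (c • f) = π ⟨c, hc⟩ • rd₂ s₁ s₂ f :=
  Prod.ext (Sheet.rd_smul hc hf.1) (Sheet.rd_smul hc hf.2)

theorem rd₂_sum {ι : Type*} (t : Finset ι) (f : ι → F) (hf : ∀ i ∈ t, Integral₂ s₁ s₂ (f i)) :
    rd₂ s₁ s₂ (∑ i ∈ t, f i) = ∑ i ∈ t, rd₂ s₁ s₂ (f i) :=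
  Prod.ext (by rw [Prod.fst_sum]; exact Sheet.rd_sum t f fun i hi => (hf i hi).1)
    (by rw [Prod.snd_sum]; exact Sheet.rd_sum t f fun i hi => (hf i hi).2)

variable (s₁ s₂) in
/-- Reductions of the integral elements of a subspace. -/
def redSpace (hπ : Function.Surjective π) (V : Submodule L F) : Submodule k (Kb × Kb) where
  carrier := {p | ∃ f ∈ V, Integral₂ s₁ s₂ f ∧ rd₂ s₁ s₂ f = p}
  zero_mem' := ⟨0, V.zero_mem, integral₂_zero, rd₂_zero⟩
  add_mem' := by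
    rintro _ _ ⟨f, hf, hfi, rfl⟩ ⟨g, hg, hgi, rfl⟩
    exact ⟨f + g, V.add_mem hf hg, hfi.add hgi, rd₂_add hfi hgi⟩
  smul_mem' := by
    rintro c _ ⟨f, hf, hfi, rfl⟩
    obtain ⟨a, rfl⟩ := hπ c
    exact ⟨(a : L) • f, V.smul_mem _ hf, hfi.smul a.2, rd₂_smul a.2 hfi⟩

theorem redSpace_mono (hπ : Function.Surjective π) {V V' : Submodule L F} (h : V ≤ V') :
    redSpace s₁ s₂ hπ V ≤ redSpace s₁ s₂ hπ V' := fun _ ⟨f, hf, hfi, hp⟩ => ⟨f, h hf, hfi, hp⟩

theorem rd₂_mem_redSpace (hπ : Function.Surjective π) {V : Submodule L F} {f : F} (hf : f ∈ V)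
    (hfi : Integral₂ s₁ s₂ f) : rd₂ s₁ s₂ f ∈ redSpace s₁ s₂ hπ V := ⟨f, hf, hfi, rfl⟩

/-- A combination of integral elements with independent reductions is integral only if its
coefficients are. -/
theorem coeff_mem_of_integral (hπ : ∀ a : A, π a = 0 ↔ ¬ IsUnit a) {ι : Type*} [Fintype ι]
    {e : ι → F} (he : ∀ i, Integral₂ s₁ s₂ (e i))
    (hli : LinearIndependent k fun i => rd₂ s₁ s₂ (e i)) (c : ι → L)
    (hc : Integral₂ s₁ s₂ (∑ i, c i • e i)) : ∀ i, c i ∈ A := by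
  classical
  intro i
  by_contra hi
  obtain ⟨j, -, hj⟩ := Finset.exists_max_image Finset.univ (fun l => A.valuation (c l))
    ⟨i, Finset.mem_univ i⟩
  have hjA : c j ∉ A := fun h => hi ((A.valuation_le_one_iff _).mp
    ((hj i (Finset.mem_univ i)).trans ((A.valuation_le_one_iff _).mpr h)))
  have hj0 : c j ≠ 0 := fun h => hjA (h ▸ A.zero_mem)
  have hinv : (c j)⁻¹ ∈ A := (A.mem_or_inv_mem (c j)).resolve_left hjA
  have hval : A.valuation (c j) ≠ 0 := (Valuation.ne_zero_iff _).mpr hj0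
  have hd : ∀ l, c l * (c j)⁻¹ ∈ A := fun l => by
    rw [← A.valuation_le_one_iff, map_mul, map_inv₀, mul_inv_le_iff₀ (zero_lt_iff.mpr hval), one_mul]
    exact hj l (Finset.mem_univ l)
  have hinv0 : π ⟨(c j)⁻¹, hinv⟩ = 0 := by
    rw [hπ]
    rintro ⟨u, hu⟩
    apply hjA
    have h1 : ((u.inv : A) : L) * (c j)⁻¹ = 1 := by
      have h2 := congrArg (Subtype.val) u.inv_val
      rw [hu] at h2
      simpa using h2
    rw [← inv_inv (c j), ← eq_inv_of_mul_eq_one_left h1]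
    exact (u.inv).2
  have hsum : ((c j)⁻¹) • (∑ l, c l • e l) = ∑ l, (c l * (c j)⁻¹) • e l := by
    rw [Finset.smul_sum]
    exact Finset.sum_congr rfl fun l _ => by rw [smul_smul, mul_comm]
  have h := congrArg (rd₂ s₁ s₂) hsum
  rw [rd₂_smul hinv hc, hinv0, zero_smul,
    rd₂_sum _ _ fun l _ => (he l).smul (hd l)] at h
  simp only [fun l => rd₂_smul (hd l) (he l)] at h
  have h0 := Fintype.linearIndependent_iff.mp hli _ h.symm j
  have h1 : (⟨c j * (c j)⁻¹, hd j⟩ : A) = 1 := Subtype.ext (mul_inv_cancel₀ hj0)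
  rw [h1, map_one] at h0
  exact one_ne_zero h0

theorem linearIndependent_of_rd₂ (hπ : ∀ a : A, π a = 0 ↔ ¬ IsUnit a) {ι : Type*} [Fintype ι]
    {e : ι → F} (he : ∀ i, Integral₂ s₁ s₂ (e i))
    (hli : LinearIndependent k fun i => rd₂ s₁ s₂ (e i)) : LinearIndependent L e := by
  classical
  rw [Fintype.linearIndependent_iff]
  intro c hc i
  by_contra hi
  -- scale so that the coefficient `i` is not integral
  obtain ⟨b, hb⟩ : ∃ b : L, b * c i ∉ A := by
    by_contra hall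
    push Not at hall
    have htop : A = ⊤ := by
      refine SetLike.ext fun a => ⟨fun _ => ValuationSubring.mem_top a, fun _ => ?_⟩
      have := hall (a * (c i)⁻¹)
      rwa [inv_mul_cancel_right₀ hi] at this
    -- then `π` is injective and reduction is linear
    subst htop
    have hu : IsUnit (⟨c i, ValuationSubring.mem_top _⟩ : (⊤ : ValuationSubring L)) :=
      isUnit_iff_exists.mpr ⟨⟨(c i)⁻¹, ValuationSubring.mem_top _⟩,
        Subtype.ext (mul_inv_cancel₀ hi), Subtype.ext (inv_mul_cancel₀ hi)⟩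
    have hm : ∀ l, c l ∈ (⊤ : ValuationSubring L) := fun l => ValuationSubring.mem_top _
    have h := congrArg (rd₂ s₁ s₂) hc
    rw [rd₂_sum _ _ fun l _ => (he l).smul (hm l), rd₂_zero] at h
    simp only [fun l => rd₂_smul (hm l) (he l)] at h
    exact (hπ _).mp (Fintype.linearIndependent_iff.mp hli _ h i) hu
  have hint : Integral₂ s₁ s₂ (∑ l, (b * c l) • e l) := by
    simp only [← smul_smul, ← Finset.smul_sum, hc, smul_zero]
    exact integral₂_zero
  exact hb (coeff_mem_of_integral hπ he hli _ hint i)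

theorem finite_redSpace (hπs : Function.Surjective π) (hπ : ∀ a : A, π a = 0 ↔ ¬ IsUnit a)
    (V : Submodule L F) [FiniteDimensional L V] :
    FiniteDimensional k (redSpace s₁ s₂ hπs V) ∧
      Module.finrank k (redSpace s₁ s₂ hπs V) ≤ Module.finrank L V := by
  have key : ∀ t : Finset ↥(redSpace s₁ s₂ hπs V),
      LinearIndependent k (fun i : t => (i : ↥(redSpace s₁ s₂ hπs V))) →
        t.card ≤ Module.finrank L V := by
    intro t ht
    choose e heV hei her using fun i : t => (i : ↥(redSpace s₁ s₂ hπs V)).2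
    have h1 : LinearIndependent k fun i : t => rd₂ s₁ s₂ (e i) := by
      simp only [her]
      exact ht.map' (Submodule.subtype _) (Submodule.ker_subtype _)
    have h2 : LinearIndependent L fun i : t => (⟨e i, heV i⟩ : V) :=
      LinearIndependent.of_comp V.subtype (linearIndependent_of_rd₂ hπ hei h1)
    simpa using h2.fintype_card_le_finrank
  have hrk := rank_le key
  have hfin : FiniteDimensional k (redSpace s₁ s₂ hπs V) :=
    Module.rank_lt_aleph0_iff.mp (hrk.trans_lt Cardinal.natCast_lt_aleph0)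
  exact ⟨hfin, Module.finrank_le_of_rank_le hrk⟩

end Pair

end FermatLib.Igusa.Mono
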