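/-
The strict reduction kernel at level `q M` from a two-sheet datum given by expansions.
-/
import Fermat.Agent.Galois.Ordinary.Strict
import Fermat.Agent.Igusa.SqFrobSheets

/-!
# The strict reduction kernel

The classes of twists of `q`-power exponent also contain `F² x - x`, for `F` a Frobenius at `q` and
`x` of `q`-power order killed by both push-forwards.
-/

set_option autoImplicit false
set_option linter.style.haveILetI false
set_option synthInstance.maxHeartbeats 400000

noncomputable section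

open AlgebraicCurve ModularCurve

namespace FermatLib.Igusa.Mono

open FermatLib.Modular.Corr

attribute [local instance] LevelDatum.fieldKb LevelDatum.algebraKb neZero_mul'
attribute [local instance 100000] monoLaurentModule monoLaurentSMul

local notation "Qb" => AlgebraicClosure ℚ
local notation "Γℚ" => (AlgebraicClosure ℚ ≃ₐ[ℚ] AlgebraicClosure ℚ)

/-- The square of a Frobenius moves `q`-power torsion killed by both push-forwards by a twist
class. -/
theorem LevelDatum.sq_smul_sub_mem {q M : ℕ} [Fact q.Prime] [NeZero q] [NeZero M] {hqM : ¬ q ∣ M}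
    {A : ValuationSubring Qb} (X : LevelDatum hqM A)
    (hΦ : ∀ c, X.emb (X.D.Φ c) = qExpand (IsLocalRing.ResidueField A) q (X.emb c))
    (hsemi : ∀ θ : IsLocalRing.ResidueField A ≃+* IsLocalRing.ResidueField A,
      ∃ γ : SemilinearAut (IsLocalRing.ResidueField A) X.Kb, ∀ c, X.emb (γ • c) =
        coeffMap (θ : IsLocalRing.ResidueField A →+* IsLocalRing.ResidueField A) (X.emb c))
    (hA : A.LiesOverPrime q) {σ : Γℚ} (hσ : A.IsFrobeniusAt σ q) {j : ℕ}
    (x : JZero (q * M)) (hx : q ^ j • x = 0) (hx₁ : pushAlpha q M x = 0)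
    (hx₂ : pushBeta q M x = 0) :
    σ • σ • x - x ∈ X.D.twistClasses q := by
  haveI := FermatLib.Galois.isAlgClosed_residueField A
  haveI := charP_residueField_of_lies A hA
  haveI : ExpChar (IsLocalRing.ResidueField A) q := ExpChar.prime Fact.out
  haveI : Algebra.IsAlgebraic ℚ Qb := AlgebraicClosure.isAlgebraic ℚ
  obtain ⟨z, hz⟩ : ∃ z : Qb, IsPrimitiveRoot z q := by
    haveI : NeZero (q : Qb) := ⟨Nat.cast_ne_zero.mpr (NeZero.ne q)⟩
    exact HasEnoughRootsOfUnity.exists_primitiveRoot _ _
  have hzu := hz.isUnit (NeZero.ne q)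
  obtain ⟨γ, hγ⟩ := hsemi (frobeniusEquiv (IsLocalRing.ResidueField A) q)
  set G := degenData hqM X.D X.emb X.x_eq X.ratios₁ X.ratios₂
  set g := arithmeticGalois (modularFunctionFieldFull (q * M)) σ with hg
  have hgx : g • X.D.x = X.D.x := by
    refine arithmeticGalois_smul_of_coeffEmb σ (y := jq) ?_
    rw [X.x_eq, coe_barIncl]
    rfl
  obtain ⟨-, T, hT⟩ := G.exists_sqFrobenius_twist (ζ := hzu.unit)
    (IsPrimitiveRoot.coe_units_iff.mp (by rwa [IsUnit.unit_spec]))
    (σ := (σ : Qb →+* Qb)) (frobenius_residue hσ)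
    (g := g) (fun f => coe_arithmeticGalois_smul _ σ f) (monoSwap_arithmeticGalois hqM σ) hgx
    (fun c => exists_iterate_eq_self σ c) hΦ
    (γ := γ) (fun c => by rw [show G.emb = X.emb from rfl, hγ]; rfl)
    (ψ := betaMap q M) (monoSwap_alphaMap hqM) (finiteAlong_betaMap q M)
    ((curveFacts Qb).normFormula M (q * M) _ _) x (d := q ^ j) (by rw [natCast_zsmul]; exact hx)
    hx₁ hx₂
  refine ⟨j, T, ?_⟩
  show Pic0.mk _ = _
  rw [hT, mul_smul]
  rfl

/-- **The strict reduction kernel at level `q M`.** -/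
theorem hasStrictReductionKernel_of_datum {q M : ℕ} [Fact q.Prime] [NeZero q] [NeZero M]
    (hqM : ¬ q ∣ M)
    (h : ∀ A : ValuationSubring Qb, A.LiesOverPrime q → ∃ Z : LevelDatum hqM A,
      (∀ c, Z.emb (Z.D.Φ c) = qExpand (IsLocalRing.ResidueField A) q (Z.emb c)) ∧
      ∀ θ : IsLocalRing.ResidueField A ≃+* IsLocalRing.ResidueField A,
        ∃ γ : SemilinearAut (IsLocalRing.ResidueField A) Z.Kb, ∀ c, Z.emb (γ • c) =
          coeffMap (θ : IsLocalRing.ResidueField A →+* IsLocalRing.ResidueField A) (Z.emb c)) :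
    Galois.Ordinary.HasStrictReductionKernel q M := by
  intro A hA
  obtain ⟨Z, hΦ, hsemi⟩ := h A hA
  obtain ⟨h1, h2, h3⟩ := Z.twistClasses_kernel hA
  refine ⟨Z.D.twistClasses q, h1, h2, h3, fun F hF x hx hα hβ => ?_⟩
  obtain ⟨j, hj⟩ := hx
  exact Z.sq_smul_sub_mem hΦ hsemi hA hF x hj hα hβ

/-- The strict reduction kernel from data on the two modular sheets. -/
theorem hasStrictReductionKernel_of_sheets {q M : ℕ} [Fact q.Prime] [NeZero q] [NeZero M]
    (hqM : ¬ q ∣ M)
    (X : ∀ (A : ValuationSubring Qb) (hA : A.LiesOverPrime q),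
      ∃ D : MonoDatum (IsLocalRing.residue A) (fieldBar Qb (q * M))
        (modularFunctionFieldFullC (IsLocalRing.ResidueField A) M) q,
        D.s₁ = monoSheetInf hqM hA ∧ D.s₂ = monoSheetZero hqM hA ∧ D.x = jFq q M ∧
        ∀ c, (D.Φ c : LaurentSeries (IsLocalRing.ResidueField A)) =
          qExpand (IsLocalRing.ResidueField A) q (c : LaurentSeries (IsLocalRing.ResidueField A))) :
    Galois.Ordinary.HasStrictReductionKernel q M :=
  hasStrictReductionKernel_of_datum hqM fun A hA => by
    obtain ⟨D, h₁, h₂, hx, hΦ⟩ := X A hA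
    exact ⟨LevelDatum.ofSheets D h₁ h₂ hx, hΦ, semilinear_fullC M⟩

end FermatLib.Igusa.Mono
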