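import Fermat.Agent.Igusa.MonoLevel

/-!
Reductions of twisted Riemann–Roch spaces, for a divisor class killed by `d` whose function has
constant reductions on both sheets.
-/

set_option autoImplicit false
set_option linter.style.haveILetI false

noncomputable section

open AlgebraicCurve

namespace FermatLib.Igusa.Mono

universe uL uF uk uKb

namespace MonoDatum

variable {L : Type uL} {k : Type uk} [Field L] [Field k] [IsAlgClosed k] {A : ValuationSubring L}
  {π : A →+* k}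
  {F : Type uF} {Kb : Type uKb} [Field F] [Algebra L F] [Field Kb] [Algebra k Kb] {q : ℕ}
  (M : MonoDatum π F Kb q)

/-- A divisor of degree zero whose `d`-th multiple is principal, with a function reducing to
nonzero constants on both sheets. -/
structure Twist (d : ℕ) where
  D : Divisor L F
  g : F
  g_ne : g ≠ 0
  div : ∀ v, (d : ℤ) * D v = v.ord g
  degree_D : Divisor.degree D = 0
  g_int : Integral₂ M.s₁ M.s₂ g
  c₁ : k
  c₂ : k
  c₁_ne : c₁ ≠ 0
  c₂_ne : c₂ ≠ 0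
  rd_g : rd₂ M.s₁ M.s₂ g = (algebraMap k Kb c₁, algebraMap k Kb c₂)

/-- Reductions of `L(D + n Px)`. -/
def twistLevel (D : Divisor L F) (n : ℕ) : Submodule k (Kb × Kb) :=
  M.red (riemannRochSpace (D + n • M.Px))

omit [IsAlgClosed k] in
theorem twistLevel_mono (D : Divisor L F) {n m : ℕ} (h : n ≤ m) :
    M.twistLevel D n ≤ M.twistLevel D m :=
  redSpace_mono M.π_surjective (riemannRochSpace_mono
    (add_le_add le_rfl (nsmul_le_nsmul_left M.Px_nonneg h)))

variable {M} {d : ℕ} (T : M.Twist d)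

omit [IsAlgClosed k] in
theorem Twist.pow_mul_mem {n : ℕ} {a : F} (ha : a ∈ riemannRochSpace (T.D + n • M.Px)) :
    a ^ d * T.g ∈ riemannRochSpace ((d * n) • M.Px) := by
  rcases eq_or_ne a 0 with rfl | ha0
  · rcases Nat.eq_zero_or_pos d with hd | hd
    · subst hd
      rw [pow_zero, one_mul, mem_riemannRochSpace_iff]
      intro v
      right
      have h1 := T.div v
      have h2 := Finsupp.le_def.mp M.Px_nonneg v
      simp only [Nat.cast_zero, zero_mul] at h1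
      simp [← h1]
    · rw [zero_pow hd.ne', zero_mul]
      exact Submodule.zero_mem _
  rw [mem_riemannRochSpace_iff]
  intro v
  right
  have h1 := ((mem_riemannRochSpace_iff.mp ha) v).resolve_left ha0
  rw [v.ord_mul (pow_ne_zero _ ha0) T.g_ne, ord_pow, ← T.div v]
  rw [Finsupp.add_apply, Finsupp.smul_apply, nsmul_eq_mul] at h1
  rw [Finsupp.smul_apply, nsmul_eq_mul, Nat.cast_mul]
  have h3 : (0 : ℤ) ≤ d := Int.natCast_nonneg d
  nlinarith

theorem Twist.pow_smul_mem_gl (hd : 1 ≤ d) {n : ℕ} (hn : 1 ≤ n) {f : Kb × Kb}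
    (hf : f ∈ M.twistLevel T.D n) :
    (T.c₁ • f.1 ^ d, T.c₂ • f.2 ^ d) ∈ M.gl one' (d * n) := by
  obtain ⟨a, ha, hai, rfl⟩ := hf
  have h := M.redLevel_le_gl_one (n := d * n) (Nat.mul_pos hd hn)
    (rd₂_mem_redSpace M.π_surjective (T.pow_mul_mem ha) ((hai.pow d).mul T.g_int))
  rw [rd₂_mul (hai.pow d) T.g_int, rd₂_pow hai, T.rd_g] at h
  convert h using 1
  simp [Algebra.smul_def, mul_comm, Prod.ext_iff]

theorem Twist.mem_rr (hd : 1 ≤ d) {n : ℕ} (hn : 1 ≤ n) {f : Kb × Kb}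
    (hf : f ∈ M.twistLevel T.D n) :
    f.1 ∈ riemannRochSpace (n • M.P₁) ∧ f.2 ∈ riemannRochSpace (n • M.P₂) := by
  have h := T.pow_smul_mem_gl hd hn hf
  have aux : ∀ (c : k) (u : Kb) (P : Divisor k Kb), c ≠ 0 →
      c • u ^ d ∈ riemannRochSpace ((d * n) • P) → u ∈ riemannRochSpace (n • P) := by
    intro c u P hc hu
    rw [Submodule.smul_mem_iff _ hc] at hu
    rw [mem_riemannRochSpace_iff] at hu ⊢
    intro v
    rcases eq_or_ne u 0 with h0 | h0
    · exact Or.inl h0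
    right
    have h1 := (hu v).resolve_left (pow_ne_zero _ h0)
    rw [ord_pow, Finsupp.smul_apply, nsmul_eq_mul, Nat.cast_mul, mul_assoc,
      ← mul_neg] at h1
    rw [Finsupp.smul_apply, nsmul_eq_mul]
    exact le_of_mul_le_mul_left h1 (by exact_mod_cast hd)
  exact ⟨aux _ _ _ T.c₁_ne h.1, aux _ _ _ T.c₂_ne h.2.1⟩

theorem Twist.valAt_eq_zero_iff (hd : 1 ≤ d) {n : ℕ} (hn : 1 ≤ n) {f : Kb × Kb}
    (hf : f ∈ M.twistLevel T.D n) {z : Place k Kb × Place k Kb} (hz : z ∈ M.nodes) :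
    valAt z.1 f.1 = 0 ↔ valAt z.2 f.2 = 0 := by
  obtain ⟨h1, h2⟩ := T.mem_rr hd hn hf
  have hr1 := rrSpace_nsmul_le_reg M.P₁ n h1
  have hr2 := rrSpace_nsmul_le_reg M.P₂ n h2
  have hz1 := (M.P₁_of_node hz).1
  have hz2 := (M.supp _).mp (M.P₁_of_node hz).2
  have h := (M.mem_gl_one.mp (T.pow_smul_mem_gl hd hn hf)).2.2 z hz
  have hpow : ∀ {P : Divisor k Kb} {u : Kb}, u ∈ Reg P → ∀ j : ℕ, u ^ j ∈ Reg P := by
    intro P u hu j
    induction j with
    | zero => simpa using one_mem_reg P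
    | succ j ih => rw [pow_succ]; exact mul_mem_reg ih hu
  rw [valAt_smul_reg M.rrK.deg_one T.c₁ (hpow hr1 d) hz1,
    valAt_smul_reg M.rrK.deg_one T.c₂ (hpow hr2 d) hz2,
    valAt_pow_reg M.rrK.deg_one hr1 hz1, valAt_pow_reg M.rrK.deg_one hr2 hz2] at h
  constructor
  · intro h0
    rw [h0, zero_pow (by omega), mul_zero, eq_comm, mul_eq_zero] at h
    exact eq_zero_of_pow_eq_zero (h.resolve_left T.c₂_ne)
  · intro h0
    rw [h0, zero_pow (by omega), mul_zero, mul_eq_zero] at h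
    exact eq_zero_of_pow_eq_zero (h.resolve_left T.c₁_ne)

/-- At every node the values of twisted reductions lie on one line. -/
theorem Twist.proportional (hd : 1 ≤ d) {n : ℕ} (hn : 1 ≤ n) {f h : Kb × Kb}
    (hf : f ∈ M.twistLevel T.D n) (hh : h ∈ M.twistLevel T.D n)
    {z : Place k Kb × Place k Kb} (hz : z ∈ M.nodes) :
    valAt z.1 h.1 * valAt z.2 f.2 = valAt z.1 f.1 * valAt z.2 h.2 := by
  have hz1 := (M.P₁_of_node hz).1
  have hz2 := (M.supp _).mp (M.P₁_of_node hz).2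
  obtain ⟨f1, f2⟩ := T.mem_rr hd hn hf
  obtain ⟨h1, h2⟩ := T.mem_rr hd hn hh
  set a := valAt z.1 h.1
  set b := -valAt z.1 f.1 with hb
  have he : a • f + b • h ∈ M.twistLevel T.D n :=
    Submodule.add_mem _ (Submodule.smul_mem _ _ hf) (Submodule.smul_mem _ _ hh)
  have hval : ∀ {v : Place k Kb} {P : Divisor k Kb} {u w : Kb}, P v = 0 →
      u ∈ riemannRochSpace (n • P) → w ∈ riemannRochSpace (n • P) →
      valAt v (a • u + b • w) = a * valAt v u + b * valAt v w := by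
    intro v P u w hv hu hw
    rw [valAt_add_reg M.rrK.deg_one ((Reg P).smul_mem a (rrSpace_nsmul_le_reg P n hu))
        ((Reg P).smul_mem b (rrSpace_nsmul_le_reg P n hw)) hv,
      valAt_smul_reg M.rrK.deg_one a (rrSpace_nsmul_le_reg P n hu) hv,
      valAt_smul_reg M.rrK.deg_one b (rrSpace_nsmul_le_reg P n hw) hv]
  have h0 : valAt z.1 (a • f + b • h).1 = 0 := by
    rw [Prod.fst_add, Prod.smul_fst, Prod.smul_fst, hval hz1 f1 h1, hb]
    ring
  have h0' := (T.valAt_eq_zero_iff hd hn he hz).mp h0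
  rw [Prod.snd_add, Prod.smul_snd, Prod.smul_snd, hval hz2 f2 h2, hb] at h0'
  linear_combination h0'

theorem exists_twist_level (hd : 1 ≤ d) :
    ∃ N : ℕ, 1 ≤ N ∧ ∀ n, N ≤ n → ∃ l : Place k Kb × Place k Kb → k,
      M.twistLevel T.D n = M.gl l n ∧
      ∀ z ∈ M.nodes, ∃ f ∈ M.twistLevel T.D n, valAt z.1 f.1 ≠ 0 := by
  classical
  obtain ⟨N₁, hN₁, hlev⟩ := M.exists_level
  obtain ⟨N₂, hind⟩ := exists_indicator M.rrK M.P₁_nonneg M.P₁_ne_zero
    (M.finite_nodes.toFinset.image Prod.fst) (fun v hv => by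
      obtain ⟨z, hz, rfl⟩ := Finset.mem_image.mp hv
      exact (M.P₁_of_node (M.finite_nodes.mem_toFinset.mp hz)).1)
  refine ⟨max N₁ N₂, hN₁.trans (le_max_left _ _), fun n hn => ?_⟩
  rw [max_le_iff] at hn
  have hn1 : 1 ≤ n := hN₁.trans hn.1
  obtain ⟨-, hdeg, hdim⟩ := hlev n hn.1
  obtain ⟨hfin, hrk⟩ := M.finrank_red (M.rrF.finite_space (T.D + n • M.Px))
  have hrkF := M.rrF.finrank_space (T.D + n • M.Px) (by
    rw [map_add, T.degree_D, map_nsmul, nsmul_eq_mul]; omega)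
  rw [map_add, T.degree_D, map_nsmul, nsmul_eq_mul, zero_add] at hrkF
  have key : ∀ l : Place k Kb × Place k Kb → k,
      (∀ f ∈ M.twistLevel T.D n, ∀ z ∈ M.nodes, valAt z.2 f.2 = l z * valAt z.1 f.1) →
        M.twistLevel T.D n = M.gl l n := by
    intro l hl
    haveI := M.finite_gl l n
    refine Submodule.eq_of_le_of_finrank_eq (fun f hf =>
      ⟨(T.mem_rr hd hn1 hf).1, (T.mem_rr hd hn1 hf).2, hl f hf⟩) ?_
    have h1 := hdim l
    have h2 : Module.finrank k ↥(M.twistLevel T.D n) =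
        Module.finrank L ↥(riemannRochSpace (T.D + n • M.Px)) := hrk
    omega
  let l₀ : Place k Kb × Place k Kb → k := fun z =>
    if h : ∃ f ∈ M.twistLevel T.D n, valAt z.1 f.1 ≠ 0 then
      valAt z.2 h.choose.2 / valAt z.1 h.choose.1 else 0
  have hrel : ∀ l : Place k Kb × Place k Kb → k,
      (∀ z, (∃ f ∈ M.twistLevel T.D n, valAt z.1 f.1 ≠ 0) → l z = l₀ z) →
      ∀ f ∈ M.twistLevel T.D n, ∀ z ∈ M.nodes, valAt z.2 f.2 = l z * valAt z.1 f.1 := by
    intro l hl f hf z hz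
    by_cases h : ∃ f ∈ M.twistLevel T.D n, valAt z.1 f.1 ≠ 0
    · rw [hl z h]
      simp only [l₀, dif_pos h]
      obtain ⟨hc, hne⟩ := h.choose_spec
      rw [div_mul_eq_mul_div, eq_div_iff hne]
      linear_combination T.proportional hd hn1 hf hc hz
    · push Not at h
      rw [h f hf, mul_zero]
      exact (T.valAt_eq_zero_iff hd hn1 hf hz).mp (h f hf)
  refine ⟨l₀, key l₀ (hrel l₀ fun _ _ => rfl), fun z hz => ?_⟩
  by_contra hz0
  have hL : ∀ t : k, M.twistLevel T.D n = M.gl (Function.update l₀ z t) n := fun t =>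
    key _ (hrel _ fun w hw => by
      rcases eq_or_ne w z with rfl | hne
      · exact absurd hw hz0
      · rw [Function.update_of_ne hne])
  have hzS : z.1 ∈ M.finite_nodes.toFinset.image Prod.fst :=
    Finset.mem_image.mpr ⟨z, M.finite_nodes.mem_toFinset.mpr hz, rfl⟩
  obtain ⟨u, hu, hu1, hu0⟩ := hind n hn.2 _ hzS
  have hmem : ((u, 0) : Kb × Kb) ∈ M.gl (Function.update l₀ z 0) n := by
    refine ⟨hu, Submodule.zero_mem _, fun w hw => ?_⟩
    rw [valAt_zero]
    rcases eq_or_ne w z with rfl | hne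
    · rw [Function.update_self, zero_mul]
    · have hw1 : w.1 ≠ z.1 := fun h => hne (M.node_fst_injective hw hz h)
      rw [hu0 w.1 (Finset.mem_image.mpr ⟨w, M.finite_nodes.mem_toFinset.mpr hw, rfl⟩) hw1,
        mul_zero]
  exact hz0 ⟨(u, 0), (hL 0).symm ▸ hmem, by rw [hu1]; exact one_ne_zero⟩

/-- If at every node some twisted reduction takes the same nonzero value on both sides, the
twisted reductions are the glued functions. -/
theorem exists_twist_level_eq_one (hd : 1 ≤ d)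
    (hdiag : ∀ z ∈ M.nodes, ∃ m, ∃ f ∈ M.twistLevel T.D m,
      valAt z.1 f.1 ≠ 0 ∧ valAt z.1 f.1 = valAt z.2 f.2) :
    ∃ N : ℕ, 1 ≤ N ∧ ∀ n, N ≤ n → M.twistLevel T.D n = M.gl one' n := by
  obtain ⟨N, hN, h⟩ := exists_twist_level T hd
  refine ⟨N, hN, fun n hn => ?_⟩
  obtain ⟨l, hl, -⟩ := h n hn
  have hn1 : 1 ≤ n := hN.trans hn
  have heq : ∀ f ∈ M.twistLevel T.D n, ∀ z ∈ M.nodes, valAt z.1 f.1 = valAt z.2 f.2 := by
    intro f hf z hz
    obtain ⟨m, b, hb, hb0, hb1⟩ := hdiag z hz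
    have h1 := T.proportional hd (hn1.trans (le_max_left n m))
      (M.twistLevel_mono T.D (le_max_left n m) hf) (M.twistLevel_mono T.D (le_max_right n m) hb) hz
    rw [← hb1, mul_comm (valAt z.1 f.1)] at h1
    exact (mul_left_cancel₀ hb0 h1).symm
  obtain ⟨N₁, -, hlev⟩ := M.exists_level
  obtain ⟨hfin, hrk⟩ := M.finrank_red (M.rrF.finite_space (T.D + n • M.Px))
  haveI := M.finite_gl one' n
  refine le_antisymm (fun f hf => M.mem_gl_one.mpr
    ⟨(T.mem_rr hd hn1 hf).1, (T.mem_rr hd hn1 hf).2, heq f hf⟩) ?_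
  rw [hl]
  intro f hf
  refine ⟨hf.1, hf.2.1, fun z hz => ?_⟩
  have hf2 := (M.mem_gl_one.mp hf).2.2 z hz
  obtain ⟨l', hl', hex⟩ := h n hn
  obtain ⟨b, hb, hb0⟩ := hex z hz
  have hlz : l z = 1 := by
    have h3 := (hl ▸ hb : b ∈ M.gl l n).2.2 z hz
    rw [← heq b hb z hz] at h3
    exact mul_right_cancel₀ hb0 (h3.symm.trans (one_mul _).symm)
  rw [hlz, one_mul, hf2]

end MonoDatum

end FermatLib.Igusa.Mono
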