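import Fermat.Agent.Igusa.QSeriesFrobenius
import Fermat.Prelude.Def_ModularCurve_HeckeOperator
import Fermat.Prelude.Def_ModularCurve_JqCoeff

/-!
The norm along the first degeneracy map of the pull-back along the second, on `q`-expansions,
and its reduction modulo `ℓ` (the Eichler-Shimura congruence on functions).
-/

set_option autoImplicit false

noncomputable section

open HahnSeries ModularCurve AlgebraicCurve

namespace FermatLib.Igusa

variable {L : Type*} [Field L] [Algebra ℚ L]

/-- An Atkin-Lehner swap at `ℓ` on level `N ℓ`, viewed in Laurent series. -/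
structure HeckeSwap (L : Type*) [Field L] [Algebra ℚ L] (N ℓ : ℕ) [NeZero N] [NeZero ℓ] where
  toHom : laurentBaseChange L (modularFunctionFieldFull (N * ℓ)) →ₐ[L] LaurentSeries L
  apply_alpha : ∀ f, toHom (heckeAlphaBar L N ℓ f) = qExpand L ℓ (f : LaurentSeries L)
  apply_beta : ∀ f, toHom (heckeBetaBar L N ℓ f) = (f : LaurentSeries L)

variable {N ℓ : ℕ} [NeZero N]

/-- `j` as an element of level `N`. -/
def jElemBar (L : Type*) [Field L] [Algebra ℚ L] (N : ℕ) [NeZero N] :
    laurentBaseChange L (modularFunctionFieldFull N) :=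
  ⟨coeffEmb L jq, coeffEmb_mem_laurentBaseChange L
    (modularFunctionField_le_full N (jq_mem N))⟩

variable [Fact ℓ.Prime]

/-- The norm as a product over a full set of distinct embeddings into any field. -/
theorem ringHom_norm_eq_prod {F F' E T : Type*} [Field F] [Field F'] [Field E] [Fintype T]
    [Algebra F F'] [Module.Finite F F'] [CharZero F] (ι : F →+* E) (e : T → F' →+* E)
    (he : ∀ o g, e o (algebraMap F F' g) = ι g) (x₀ : F')
    (hinj : Function.Injective fun o => e o x₀) (hcard : Fintype.card T = Module.finrank F F')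
    (x : F') : ι (Algebra.norm F x) = ∏ o, e o x := by
  let Ω := AlgebraicClosure E
  let j : E →+* Ω := algebraMap E Ω
  letI : Algebra F Ω := (j.comp ι).toAlgebra
  let e' : T → (F' →ₐ[F] Ω) := fun o =>
    { __ := j.comp (e o)
      commutes' := fun g => congrArg j (he o g) }
  have hinj' : Function.Injective e' := fun o o' h =>
    hinj (j.injective (DFunLike.congr_fun h x₀))
  have hcard' : Fintype.card T = Fintype.card (F' →ₐ[F] Ω) := by rw [AlgHom.card, hcard]
  have hbij : Function.Bijective e' :=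
    (Fintype.bijective_iff_injective_and_card e').mpr ⟨hinj', hcard'⟩
  apply j.injective
  show algebraMap F Ω (Algebra.norm F x) = _
  rw [Algebra.norm_eq_prod_embeddings F Ω, ← Equiv.prod_comp (Equiv.ofBijective e' hbij), map_prod]
  rfl

theorem norm_heckeBeta_expansion [CharZero L] [IsAlgClosed L] (W : HeckeSwap L N ℓ)
    (hfin : FiniteAlong L (heckeAlphaBar L N ℓ))
    (hn : finrankAlong L (heckeAlphaBar L N ℓ) = ℓ + 1)
    (ζ : Lˣ) (hζ : IsPrimitiveRoot ζ ℓ)
    (f : laurentBaseChange L (modularFunctionFieldFull N)) :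
    qExpand L ℓ
      (((letI := algebraAlong (heckeAlphaBar L N ℓ);
        Algebra.norm (laurentBaseChange L (modularFunctionFieldFull N))
          (heckeBetaBar L N ℓ f)) : laurentBaseChange L (modularFunctionFieldFull N)) :
          LaurentSeries L)
      = qExpand L ℓ (qExpand L ℓ (f : LaurentSeries L))
          * ∏ i : Fin ℓ, qTwist (ζ ^ (i : ℕ)) (f : LaurentSeries L) := by
  let F := laurentBaseChange L (modularFunctionFieldFull N)
  let F' := laurentBaseChange L (modularFunctionFieldFull (N * ℓ))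
  letI : Algebra F F' := algebraAlong (heckeAlphaBar L N ℓ)
  haveI : Module.Finite F F' := hfin
  haveI : CharZero F := charZero_of_injective_algebraMap (algebraMap L F).injective
  let e : Option (Fin ℓ) → (F' →+* LaurentSeries L) := fun o => o.elim
    ((qExpand L ℓ).comp (algebraMap F' (LaurentSeries L)))
    (fun i => (qTwist (ζ ^ (i : ℕ))).comp W.toHom.toRingHom)
  have hu : ∀ i : ℕ, (ζ ^ i) ^ ℓ = 1 := fun i => by
    rw [← pow_mul, mul_comm, pow_mul, hζ.pow_eq_one, one_pow]
  have halg : ∀ g, algebraMap F F' g = heckeAlphaBar L N ℓ g := fun _ => rfl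
  have hF : ∀ g : F, algebraMap F (LaurentSeries L) g = (g : LaurentSeries L) := fun _ => rfl
  have hF' : ∀ g : F', algebraMap F' (LaurentSeries L) g = (g : LaurentSeries L) := fun _ => rfl
  have he : ∀ o g, e o (algebraMap F F' g)
      = ((qExpand L ℓ).comp (algebraMap F (LaurentSeries L))) g := by
    rintro (_ | i) g
    · simp only [e, Option.elim_none, RingHom.comp_apply, halg, hF, hF']
      exact congrArg _ (coe_heckeAlphaBar N ℓ g)
    · simp only [e, Option.elim_some, RingHom.comp_apply, halg, hF, AlgHom.toRingHom_eq_coe,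
        RingHom.coe_coe]
      rw [W.apply_alpha, qTwist_qExpand _ _ (hu i)]
  have hei : ∀ i g, e (some i) (heckeBetaBar L N ℓ g)
      = qTwist (ζ ^ (i : ℕ)) (g : LaurentSeries L) := fun i g => by
    simp only [e, Option.elim_some, RingHom.comp_apply, AlgHom.toRingHom_eq_coe, RingHom.coe_coe]
    rw [W.apply_beta]
  have key : ∀ o, (e o (heckeBetaBar L N ℓ (jElemBar L N))).coeff (-1)
      = o.elim 0 (fun i : Fin ℓ => (((ζ ^ (i : ℕ)) ^ (-1 : ℤ) : Lˣ) : L)) := by
    rintro (_ | i)
    · show (qExpand L ℓ (qExpand L ℓ (coeffEmb L jq))).coeff (-1) = 0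
      refine qExpand_coeff_of_not_dvd ℓ _ ?_
      rw [Int.dvd_neg]
      exact_mod_cast fun hd => (Fact.out : ℓ.Prime).ne_one (Nat.dvd_one.mp hd)
    · rw [hei]
      show (qTwist _ (coeffEmb L jq)).coeff (-1) = _
      rw [qTwist_coeff, coeffEmb_coeff, coeff_jq_neg_one, map_one, mul_one]
      rfl
  have hinj : Function.Injective fun o => e o (heckeBetaBar L N ℓ (jElemBar L N)) := by
    intro o o' h
    have hcc := congrArg (fun z : LaurentSeries L => z.coeff (-1)) h
    simp only [key] at hcc
    rcases o with _ | i <;> rcases o' with _ | i' <;>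
      simp only [Option.elim_none, Option.elim_some] at hcc
    · rfl
    · exact absurd hcc.symm (Units.ne_zero _)
    · exact absurd hcc (Units.ne_zero _)
    · refine congrArg some (Fin.ext (hζ.pow_inj i.isLt i'.isLt ?_))
      have := Units.ext hcc
      rwa [zpow_neg_one, zpow_neg_one, inv_inj] at this
  have hcard : Fintype.card (Option (Fin ℓ)) = Module.finrank F F' := by
    rw [Fintype.card_option, Fintype.card_fin]
    exact hn.symm
  have h := ringHom_norm_eq_prod ((qExpand L ℓ).comp (algebraMap F (LaurentSeries L))) e he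
    (heckeBetaBar L N ℓ (jElemBar L N)) hinj hcard (heckeBetaBar L N ℓ f)
  rw [Fintype.prod_option] at h
  exact h.trans (congrArg₂ _ rfl (Finset.prod_congr rfl fun i _ => hei i f))

/-- The Eichler-Shimura congruence for the norm of an integral function. -/
theorem exists_norm_heckeBeta_reduction [CharZero L] [IsAlgClosed L] (W : HeckeSwap L N ℓ)
    (hfin : FiniteAlong L (heckeAlphaBar L N ℓ))
    (hn : finrankAlong L (heckeAlphaBar L N ℓ) = ℓ + 1)
    (A : ValuationSubring L) {k : Type*} [Field k] [CharP k ℓ] (π : A →+* k)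
    (y : LaurentSeries A)
    (hy : coeffMap A.subtype y ∈ laurentBaseChange L (modularFunctionFieldFull N)) :
    ∃ M : LaurentSeries A,
      coeffMap A.subtype M =
        (((letI := algebraAlong (heckeAlphaBar L N ℓ);
          Algebra.norm (laurentBaseChange L (modularFunctionFieldFull N))
            (heckeBetaBar L N ℓ ⟨coeffMap A.subtype y, hy⟩)) :
              laurentBaseChange L (modularFunctionFieldFull N)) : LaurentSeries L) ∧
      coeffMap π M =
        qExpand k ℓ (coeffMap π y) * coeffMap (frobenius k ℓ) (coeffMap π y) := by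
  obtain ⟨ζ₀, hζ₀⟩ := HasEnoughRootsOfUnity.exists_primitiveRoot L ℓ
  have hmem : ζ₀ ∈ A := by
    rcases A.mem_or_inv_mem ζ₀ with h | h
    · exact h
    · rw [← inv_inv ζ₀, inv_eq_of_mul_eq_one_left (b := ζ₀⁻¹) (a := (ζ₀⁻¹) ^ (ℓ - 1))
        (by rw [← pow_succ, Nat.sub_add_cancel (Fact.out : ℓ.Prime).pos, inv_pow,
              hζ₀.pow_eq_one, inv_one])]
      exact pow_mem h _
  obtain ⟨u, hu⟩ : IsUnit (⟨ζ₀, hmem⟩ : A) :=
    IsUnit.of_pow_eq_one (n := ℓ) (Subtype.ext hζ₀.pow_eq_one) (Fact.out : ℓ.Prime).ne_zero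
  set ζ : Lˣ := Units.map A.subtype.toMonoidHom u with hζdef
  have hζ : IsPrimitiveRoot ζ ℓ := by
    rw [← IsPrimitiveRoot.coe_units_iff]
    show IsPrimitiveRoot (((u : A) : L)) ℓ
    rw [hu]
    exact hζ₀
  have hπu : Units.map π.toMonoidHom u = 1 := by
    ext
    show π (u : A) = 1
    have h1 : π (u : A) ^ ℓ = 1 := by
      rw [← map_pow, hu]
      rw [show (⟨ζ₀, hmem⟩ : A) ^ ℓ = 1 from Subtype.ext hζ₀.pow_eq_one, map_one]
    refine sub_eq_zero.mp (pow_eq_zero_iff (Fact.out : ℓ.Prime).ne_zero |>.mp ?_)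
    rw [sub_pow_char, h1, one_pow, sub_self]
  have hsub : Function.Injective A.subtype := Subtype.val_injective
  have hexp := norm_heckeBeta_expansion W hfin hn ζ hζ ⟨coeffMap A.subtype y, hy⟩
  set Y : LaurentSeries A := qExpand A ℓ (qExpand A ℓ y) * ∏ i : Fin ℓ, qTwist (u ^ (i : ℕ)) y
    with hY
  have hYL : coeffMap A.subtype Y = qExpand L ℓ (qExpand L ℓ (coeffMap A.subtype y))
      * ∏ i : Fin ℓ, qTwist (ζ ^ (i : ℕ)) (coeffMap A.subtype y) := by
    rw [hY, map_mul, map_prod, coeffMap_qExpand, coeffMap_qExpand]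
    refine congrArg _ (Finset.prod_congr rfl fun i _ => ?_)
    rw [coeffMap_qTwist, map_pow]
  obtain ⟨M, hM, hMY⟩ := exists_coeffMap_eq_of_qExpand A.subtype hsub ℓ _ Y (hYL.trans hexp.symm)
  refine ⟨M, hM, qExpand_injective ℓ ?_⟩
  rw [← coeffMap_qExpand, hMY, hY, map_mul, map_prod, coeffMap_qExpand, coeffMap_qExpand]
  have : ∀ i : Fin ℓ, coeffMap π (qTwist (u ^ (i : ℕ)) y) = coeffMap π y := fun i => by
    rw [coeffMap_qTwist, map_pow, hπu, one_pow, qTwist_one]
  rw [Finset.prod_congr rfl fun i _ => this i, Finset.prod_const, Finset.card_univ,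
    Fintype.card_fin, pow_char_eq_qExpand, map_mul]

end FermatLib.Igusa
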