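import Fermat.Agent.Igusa.DivisorRigidity
import Fermat.Agent.Curve.FiniteExtension
import Fermat.Agent.Curve.RiemannRoch
import Fermat.Agent.Modular.CorrBaseChange

/-!
# Reductions of places commute with degeneracy maps

Two maps of places `r : F → F̄`, `r' : F' → F̄'` and two embeddings `φ : F → F'`, `φ̄ : F̄ → F̄'` of
the same degree such that `r'_* φ^* = φ̄^* r_*` on principal divisors. Then the same holds on all
divisors, the places commute with restriction, and `r_* φ_* = φ̄_* r'_*`.

Nothing is assumed on where `r` comes from, so this applies to any reduction of places (good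
reduction, or the component of a Gauss valuation).
-/

set_option autoImplicit false
set_option linter.style.haveILetI false

noncomputable section

open AlgebraicCurve

namespace FermatLib.Igusa.PlaceFunctorial

section Generic

variable {K F : Type*} [Field K] [Field F] [Algebra K F]

theorem effective_eq_zero_of_degree (hdeg : ∀ v : Place K F, v.deg = 1) {D : Divisor K F}
    (hD : ∀ v, 0 ≤ D v) (h0 : Divisor.degree D = 0) : D = 0 := by
  have hsum : Divisor.degree D = ∑ v ∈ D.support, D v := by
    simp [Divisor.degree, Finsupp.liftAddHom_apply, Finsupp.sum, hdeg]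
  rw [hsum, Finset.sum_eq_zero_iff_of_nonneg fun v _ => hD v] at h0
  ext v
  by_contra hv
  exact hv (h0 v (Finsupp.mem_support_iff.mpr hv))

theorem apply_le_degree (hdeg : ∀ v : Place K F, v.deg = 1) {D : Divisor K F}
    (hD : ∀ v, 0 ≤ D v) (v : Place K F) : D v ≤ Divisor.degree D := by
  have hsum : Divisor.degree D = ∑ w ∈ D.support, D w := by
    simp [Divisor.degree, Finsupp.liftAddHom_apply, Finsupp.sum, hdeg]
  rw [hsum]
  by_cases hv : v ∈ D.support
  · exact Finset.single_le_sum (fun w _ => hD w) hv
  · rw [Finsupp.notMem_support_iff.mp hv]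
    exact Finset.sum_nonneg fun w _ => hD w

theorem mapDomain_nonneg {α β : Type*} (r : α → β) {D : α →₀ ℤ} (hD : ∀ a, 0 ≤ D a) (b : β) :
    0 ≤ Finsupp.mapDomain r D b := by
  classical
  rw [Finsupp.mapDomain, Finsupp.sum_apply, Finsupp.sum]
  refine Finset.sum_nonneg fun a _ => ?_
  rw [Finsupp.single_apply]
  split_ifs
  · exact hD a
  · exact le_rfl

theorem apply_le_mapDomain {α β : Type*} (r : α → β) {D : α →₀ ℤ} (hD : ∀ a, 0 ≤ D a) (a : α) :
    D a ≤ Finsupp.mapDomain r D (r a) := by
  classical
  rcases eq_or_ne (D a) 0 with h | h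
  · rw [h]
    exact mapDomain_nonneg r hD _
  rw [Finsupp.mapDomain, Finsupp.sum_apply, Finsupp.sum]
  refine le_trans (le_of_eq ?_) (Finset.single_le_sum (fun x _ => ?_)
    (Finsupp.mem_support_iff.mpr h))
  · rw [Finsupp.single_apply, if_pos rfl]
  · rw [Finsupp.single_apply]
    split_ifs
    · exact hD x
    · exact le_rfl

theorem degree_mapDomain {k Fb : Type*} [Field k] [Field Fb] [Algebra k Fb]
    (hdeg : ∀ v : Place K F, v.deg = 1) (hdegb : ∀ v : Place k Fb, v.deg = 1)
    (r : Place K F → Place k Fb) (D : Divisor K F) :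
    Divisor.degree (Finsupp.mapDomain r D : Divisor k Fb) = Divisor.degree D := by
  induction D using Finsupp.induction with
  | zero => simp
  | single_add v n D _ _ ih =>
    rw [Finsupp.mapDomain_add, map_add, map_add, ih, Finsupp.mapDomain_single,
      Divisor.degree_single, Divisor.degree_single, hdeg, hdegb]

end Generic

variable {L F F' : Type*} [Field L] [IsAlgClosed L] [Field F] [Field F'] [Algebra L F]
  [Algebra L F'] [FermatLib.Curve.IsFunctionField L F] [FermatLib.Curve.IsFunctionField L F']
variable {k Fb Fb' : Type*} [Field k] [IsAlgClosed k] [Field Fb] [Field Fb'] [Algebra k Fb]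
  [Algebra k Fb'] [FermatLib.Curve.IsFunctionField k Fb] [FermatLib.Curve.IsFunctionField k Fb']
variable {r : Place L F → Place k Fb} {r' : Place L F' → Place k Fb'}
variable {φ : F →ₐ[L] F'} {φb : Fb →ₐ[k] Fb'}
variable (hφ : φ.toRingHom.IsIntegral) (hφb : φb.toRingHom.IsIntegral)
variable (hfin : FiniteAlong L φ) (hfinb : FiniteAlong k φb)

omit [IsAlgClosed L] [IsAlgClosed k] [FermatLib.Curve.IsFunctionField L F]
  [FermatLib.Curve.IsFunctionField k Fb] in
/-- The hypothesis on functions: reduction commutes with pull back on principal divisors. -/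
def CompatOnPrincipal (r : Place L F → Place k Fb) (r' : Place L F' → Place k Fb') : Prop :=
  ∀ D ∈ Divisor.principal (K := L) (F := F),
    Finsupp.mapDomain r' (Divisor.pullbackAlong φ hφ D) =
      Divisor.pullbackAlong φb hφb (Finsupp.mapDomain r D)

variable (hp : CompatOnPrincipal hφ hφb r r')

include hfin hfinb hp in
/-- Pull back commutes with reduction in degree zero. -/
theorem mapDomain_pullbackAlong_degZero {D : Divisor L F} (hD : Divisor.degree D = 0) :
    Finsupp.mapDomain r' (Divisor.pullbackAlong φ hφ D) =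
      Divisor.pullbackAlong φb hφb (Finsupp.mapDomain r D) := by
  set δ : Divisor L F →+ Divisor k Fb' :=
    (Finsupp.mapDomain.addMonoidHom r').comp (Divisor.pullbackAlong φ hφ)
      - (Divisor.pullbackAlong φb hφb).comp (Finsupp.mapDomain.addMonoidHom r) with hδ
  have hδapp : ∀ E, δ E = Finsupp.mapDomain r' (Divisor.pullbackAlong φ hφ E) -
      Divisor.pullbackAlong φb hφb (Finsupp.mapDomain r E) := fun E => rfl
  have hdeg : ∀ v : Place L F, v.deg = 1 := FermatLib.Curve.deg_eq_one
  have hdeg' : ∀ v : Place L F', v.deg = 1 := FermatLib.Curve.deg_eq_one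
  have hdegb : ∀ v : Place k Fb, v.deg = 1 := FermatLib.Curve.deg_eq_one
  have hdegb' : ∀ v : Place k Fb', v.deg = 1 := FermatLib.Curve.deg_eq_one
  have hFI := FermatLib.Curve.fundamentalIdentityAlong φ hfin hφ
  have hFIb := FermatLib.Curve.fundamentalIdentityAlong φb hfinb hφb
  have hnn : ∀ v : Place L F, ∀ W, 0 ≤ Divisor.pullbackAlong φ hφ (Finsupp.single v 1) W :=
    fun v W => by
      rw [Divisor.pullbackAlong_apply]
      classical
      rw [Finsupp.single_apply]
      split_ifs <;> simp
  have hnnb : ∀ v : Place k Fb, ∀ W, 0 ≤ Divisor.pullbackAlong φb hφb (Finsupp.single v 1) W :=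
    fun v W => by
      rw [Divisor.pullbackAlong_apply]
      classical
      rw [Finsupp.single_apply]
      split_ifs <;> simp
  have hd : ∀ v : Place L F,
      Divisor.degree (Divisor.pullbackAlong φ hφ (Finsupp.single v 1)) = finrankAlong L φ :=
    fun v => by
      rw [Divisor.degree_pullbackAlong φ hφ hFI, Divisor.degree_single, hdeg]; simp
  have hdb : ∀ v : Place k Fb,
      Divisor.degree (Divisor.pullbackAlong φb hφb (Finsupp.single v 1)) = finrankAlong k φb :=
    fun v => by
      rw [Divisor.degree_pullbackAlong φb hφb hFIb, Divisor.degree_single, hdegb]; simp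
  have hB : ∀ v Q, |δ (Finsupp.single v 1) Q| ≤
      (finrankAlong L φ : ℤ) + finrankAlong k φb := fun v Q => by
    rw [hδapp, Finsupp.sub_apply, Finsupp.mapDomain_single]
    refine (abs_sub _ _).trans (add_le_add ?_ ?_)
    · rw [abs_of_nonneg (mapDomain_nonneg r' (hnn v) Q), ← hd v, ← degree_mapDomain hdeg' hdegb' r']
      exact apply_le_degree hdegb' (mapDomain_nonneg r' (hnn v)) Q
    · rw [abs_of_nonneg (hnnb _ Q), ← hdb (r v)]
      exact apply_le_degree hdegb' (hnnb _) Q
  have hR : RiemannInequalityAt L F (genusFF L F) := by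
    intro E hE
    have h := FermatLib.Curve.riemannEquation L F
    haveI := h.finite_space E
    have hpos : 0 < Module.finrank L ↥(riemannRochSpace E) := by
      have := h.eq E
      omega
    haveI := Module.nontrivial_of_finrank_pos hpos
    obtain ⟨⟨f, hf⟩, hne⟩ := exists_ne (0 : ↥(riemannRochSpace E))
    have hf0 : f ≠ 0 := fun h0 => hne (Subtype.ext h0)
    refine ⟨FermatLib.Curve.divOf f, ⟨f, hf0, fun v => FermatLib.Curve.divOf_apply f v⟩,
      fun v => ?_⟩
    have := FermatLib.Curve.le_ord_of_mem (FermatLib.Curve.mem_riemannRochSpace.mp hf v) hf0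
    rw [FermatLib.Curve.divOf_apply]
    omega
  have h0 : δ D = 0 := by
    refine apply_eq_zero_of_degree_eq_zero δ _ hB hdeg hR (fun E hE => ?_) (fun E hE => ?_) D hD
    · obtain ⟨f, hf, hEf⟩ := hE
      rw [show E = FermatLib.Curve.divOf f from
        Finsupp.ext fun v => (hEf v).trans (FermatLib.Curve.divOf_apply f v).symm]
      exact FermatLib.Curve.degree_divOf f
    · rw [hδapp, hp E hE, sub_self]
  rwa [hδapp, sub_eq_zero] at h0

variable (hn : finrankAlong L φ = finrankAlong k φb) (hnc : ∀ Q, ∃ P, r P ≠ Q)

include hfin hfinb hp hn hnc in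
/-- Pull back commutes with reduction on all divisors. -/
theorem mapDomain_pullbackAlong (D : Divisor L F) :
    Finsupp.mapDomain r' (Divisor.pullbackAlong φ hφ D) =
      Divisor.pullbackAlong φb hφb (Finsupp.mapDomain r D) := by
  classical
  have hdeg : ∀ v : Place L F, v.deg = 1 := FermatLib.Curve.deg_eq_one
  have hdeg' : ∀ v : Place L F', v.deg = 1 := FermatLib.Curve.deg_eq_one
  have hdegb : ∀ v : Place k Fb, v.deg = 1 := FermatLib.Curve.deg_eq_one
  have hdegb' : ∀ v : Place k Fb', v.deg = 1 := FermatLib.Curve.deg_eq_one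
  have hFI := FermatLib.Curve.fundamentalIdentityAlong φ hfin hφ
  have hFIb := FermatLib.Curve.fundamentalIdentityAlong φb hfinb hφb
  set δ : Divisor L F →+ Divisor k Fb' :=
    (Finsupp.mapDomain.addMonoidHom r').comp (Divisor.pullbackAlong φ hφ)
      - (Divisor.pullbackAlong φb hφb).comp (Finsupp.mapDomain.addMonoidHom r) with hδ
  have hδapp : ∀ E, δ E = Finsupp.mapDomain r' (Divisor.pullbackAlong φ hφ E) -
      Divisor.pullbackAlong φb hφb (Finsupp.mapDomain r E) := fun E => rfl
  have key : ∀ P, δ (Finsupp.single P 1) = 0 := fun P => by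
    refine effective_eq_zero_of_degree hdegb' (fun Q => ?_) ?_
    · obtain ⟨P', hP'⟩ := hnc (Q.restrictAlong φb hφb)
      have hPP' : δ (Finsupp.single P 1) = δ (Finsupp.single P' 1) := by
        rw [← sub_eq_zero, ← map_sub, hδapp,
          mapDomain_pullbackAlong_degZero hφ hφb hfin hfinb hp
            (by rw [map_sub, Divisor.degree_single, Divisor.degree_single, hdeg, hdeg, sub_self]),
          sub_self]
      rw [hPP', hδapp, Finsupp.sub_apply, Finsupp.mapDomain_single,
        Divisor.pullbackAlong_apply φb, Finsupp.single_eq_of_ne (Ne.symm hP'), mul_zero, sub_zero]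
      refine mapDomain_nonneg r' (fun W => ?_) Q
      rw [Divisor.pullbackAlong_apply, Finsupp.single_apply]
      split_ifs <;> simp
    · rw [hδapp, map_sub, degree_mapDomain hdeg' hdegb', Divisor.degree_pullbackAlong φ hφ hFI,
        Finsupp.mapDomain_single, Divisor.degree_pullbackAlong φb hφb hFIb, Divisor.degree_single,
        Divisor.degree_single, hdeg, hdegb, hn, sub_self]
  have h0 : δ = 0 := Finsupp.addHom_ext fun P n => by
    rw [← Finsupp.smul_single_one, map_zsmul, key, smul_zero, AddMonoidHom.zero_apply]
  have := DFunLike.congr_fun h0 D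
  rwa [hδapp, AddMonoidHom.zero_apply, sub_eq_zero] at this

include hfin hfinb hp hn hnc in
/-- Reduction of places commutes with restriction. -/
theorem restrictAlong_reduce (W : Place L F') :
    (r' W).restrictAlong φb hφb = r (W.restrictAlong φ hφ) := by
  classical
  have h := DFunLike.congr_fun (mapDomain_pullbackAlong hφ hφb hfin hfinb hp hn hnc
    (Finsupp.single (W.restrictAlong φ hφ) 1)) (r' W)
  rw [Finsupp.mapDomain_single, Divisor.pullbackAlong_apply φb, Finsupp.single_apply] at h
  by_contra hne
  rw [if_neg (fun e => hne e.symm), mul_zero] at h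
  have hle := apply_le_mapDomain r' (D := Divisor.pullbackAlong φ hφ
    (Finsupp.single (W.restrictAlong φ hφ) 1)) (fun V => by
      rw [Divisor.pullbackAlong_apply, Finsupp.single_apply]
      split_ifs <;> simp) W
  rw [h, Divisor.pullbackAlong_apply, Finsupp.single_eq_same, mul_one] at hle
  have hpos : 0 < W.ramificationIndexAlong φ := by
    letI := algebraAlong φ
    haveI := isScalarTower_along φ
    haveI := isIntegral_along φ hφ
    exact W.ramificationIndex_pos
  omega

include hfin hfinb hp hn hnc in
/-- Push forward commutes with reduction. -/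
theorem mapDomain_pushforwardAlong (E : Divisor L F') :
    Finsupp.mapDomain r (Divisor.pushforwardAlong φ hφ E) =
      Divisor.pushforwardAlong φb hφb (Finsupp.mapDomain r' E) := by
  have h : (Finsupp.mapDomain.addMonoidHom r).comp (Divisor.pushforwardAlong φ hφ) =
      (Divisor.pushforwardAlong φb hφb).comp (Finsupp.mapDomain.addMonoidHom r') :=
    Finsupp.addHom_ext fun W n => by
      show Finsupp.mapDomain r (Divisor.pushforwardAlong φ hφ (Finsupp.single W n)) =
        Divisor.pushforwardAlong φb hφb (Finsupp.mapDomain r' (Finsupp.single W n))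
      rw [Modular.Corr.pushforwardAlong_single_of_deg hφ (FermatLib.Curve.deg_eq_one W),
        Finsupp.mapDomain_single, Finsupp.mapDomain_single,
        Modular.Corr.pushforwardAlong_single_of_deg hφb (FermatLib.Curve.deg_eq_one (r' W)),
        restrictAlong_reduce hφ hφb hfin hfinb hp hn hnc]
  exact DFunLike.congr_fun h E

end FermatLib.Igusa.PlaceFunctorial
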