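import Fermat.Prelude.Def_ModularCurve_LaurentCoeff
import Fermat.Prelude.Def_ModularCurve_X0
import Fermat.Prelude.Thm_ModularCurve_coeffMap_qExpand
import Mathlib

/-!
Laurent series in characteristic `ℓ`: the `ℓ`th power, twists `q ↦ uq`, and integrality.
-/

set_option autoImplicit false

noncomputable section

open HahnSeries ModularCurve

namespace FermatLib.Igusa

section Twist

variable {R S : Type*} [CommRing R] [CommRing S]

/-- The substitution `q ↦ u q`. -/
def qTwist (u : Rˣ) : LaurentSeries R →+* LaurentSeries R where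
  toFun x :=
    { coeff := fun n => ((u ^ n : Rˣ) : R) * x.coeff n
      isPWO_support' := x.isPWO_support.mono fun n hn h => hn (by simp [h]) }
  map_zero' := by ext n; simp
  map_one' := by
    ext n
    rcases eq_or_ne n 0 with rfl | hn
    · simp [HahnSeries.coeff_one]
    · simp [HahnSeries.coeff_one, hn]
  map_add' x y := by ext n; simp [mul_add]
  map_mul' x y := by
    ext n
    simp only
    rw [HahnSeries.coeff_mul, HahnSeries.coeff_mul, Finset.mul_sum]
    refine (Finset.sum_congr ?_ fun ij hij => ?_)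
    · ext ij
      simp [Finset.mem_antidiagonal]
    · obtain ⟨-, -, h⟩ := Finset.mem_antidiagonal.mp hij
      rw [← h, zpow_add, Units.val_mul]
      ring

@[simp]
theorem qTwist_coeff (u : Rˣ) (x : LaurentSeries R) (n : ℤ) :
    (qTwist u x).coeff n = ((u ^ n : Rˣ) : R) * x.coeff n := rfl

theorem qTwist_qExpand (u : Rˣ) (m : ℕ) [NeZero m] (hu : u ^ m = 1) (x : LaurentSeries R) :
    qTwist u (qExpand R m x) = qExpand R m x := by
  ext n
  rw [qTwist_coeff]
  by_cases hn : (m : ℤ) ∣ n
  · obtain ⟨c, rfl⟩ := hn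
    rw [zpow_mul, zpow_natCast, hu, one_zpow, Units.val_one, one_mul]
  · rw [qExpand_coeff_of_not_dvd m x hn, mul_zero]

theorem qTwist_one (x : LaurentSeries R) : qTwist 1 x = x := by
  ext n
  simp

theorem coeffMap_qTwist (f : R →+* S) (u : Rˣ) (x : LaurentSeries R) :
    coeffMap f (qTwist u x) = qTwist (Units.map f.toMonoidHom u) (coeffMap f x) := by
  ext n
  rw [coeffMap_coeff, qTwist_coeff, qTwist_coeff, coeffMap_coeff, map_mul, ← map_zpow]
  rfl

end Twist

section Frobenius

variable {k : Type*} [CommRing k] (ℓ : ℕ) [Fact ℓ.Prime] [CharP k ℓ]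

theorem ofPowerSeries_expand {R : Type*} [CommRing R] (m : ℕ) [NeZero m] (g : PowerSeries R) :
    HahnSeries.ofPowerSeries ℤ R (PowerSeries.expand m (NeZero.ne m) g)
      = qExpand R m (HahnSeries.ofPowerSeries ℤ R g) := by
  ext n
  rcases le_or_gt 0 n with hn | hn
  · lift n to ℕ using hn
    rw [HahnSeries.ofPowerSeries_apply_coeff, PowerSeries.coeff_expand]
    split_ifs with h
    · obtain ⟨c, rfl⟩ := h
      rw [Nat.mul_div_cancel_left _ (Nat.pos_of_ne_zero (NeZero.ne m)), Nat.cast_mul,
        qExpand_coeff_mul, HahnSeries.ofPowerSeries_apply_coeff]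
    · rw [qExpand_coeff_of_not_dvd m _ (by exact_mod_cast h)]
  · rw [ofPowerSeries_coeff_of_neg _ hn]
    by_cases hd : (m : ℤ) ∣ n
    · obtain ⟨c, rfl⟩ := hd
      rw [qExpand_coeff_mul, ofPowerSeries_coeff_of_neg _ (by
        by_contra hc
        exact absurd hn (not_lt.mpr (mul_nonneg (Int.natCast_nonneg m) (not_lt.mp hc))))]
    · rw [qExpand_coeff_of_not_dvd m _ hd]

theorem pow_char_eq_qExpand (x : LaurentSeries k) :
    x ^ ℓ = qExpand k ℓ (coeffMap (frobenius k ℓ) x) := by
  have h1 : ∀ (n : ℤ) (g : PowerSeries k),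
      (HahnSeries.single n 1 * HahnSeries.ofPowerSeries ℤ k g) ^ ℓ
        = qExpand k ℓ (coeffMap (frobenius k ℓ)
            (HahnSeries.single n 1 * HahnSeries.ofPowerSeries ℤ k g)) := by
    intro n g
    rw [mul_pow, map_mul, map_mul, coeffMap_single, map_one (frobenius k ℓ), qExpand_single,
      HahnSeries.single_pow, one_pow, nsmul_eq_mul]
    refine congrArg _ ?_
    have hp : (PowerSeries.expand ℓ (NeZero.ne ℓ) g).map (frobenius k ℓ) = g ^ ℓ :=
      MvPowerSeries.map_frobenius_expand (p := ℓ) (hp := NeZero.ne ℓ) (f := g)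
    rw [← map_pow, ← hp, PowerSeries.map_expand, ofPowerSeries_expand]
    refine congrArg _ ?_
    ext m
    rw [coeffMap_coeff]
    rcases le_or_gt 0 m with hm | hm
    · lift m to ℕ using hm
      rw [HahnSeries.ofPowerSeries_apply_coeff, HahnSeries.ofPowerSeries_apply_coeff,
        PowerSeries.coeff_map]
    · rw [ofPowerSeries_coeff_of_neg _ hm, ofPowerSeries_coeff_of_neg _ hm, map_zero]
  have h2 := h1 x.order x.powerSeriesPart
  have h3 : HahnSeries.single x.order 1 * HahnSeries.ofPowerSeries ℤ k x.powerSeriesPart = x :=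
    LaurentSeries.single_order_mul_powerSeriesPart x
  rwa [h3] at h2

end Frobenius

section Integral

variable {R S : Type*} [CommRing R] [CommRing S]

/-- A series all of whose coefficients lie in the image of an injective `f` lifts uniquely. -/
theorem exists_coeffMap_eq (f : R →+* S) (hf : Function.Injective f) (x : LaurentSeries S)
    (hx : ∀ n, x.coeff n ∈ Set.range f) : ∃ y : LaurentSeries R, coeffMap f y = x := by
  choose g hg using hx
  refine ⟨⟨g, x.isPWO_support.mono fun n hn h => hn (hf ?_)⟩, ?_⟩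
  · rw [hg n, h, map_zero]
  · ext n
    exact hg n

theorem qsCoeffMap_injective (f : R →+* S) (hf : Function.Injective f) :
    Function.Injective (coeffMap f) := fun x y h => by
  ext n
  exact hf (by simpa using congrArg (fun z : LaurentSeries S => z.coeff n) h)

theorem exists_coeffMap_eq_of_qExpand (f : R →+* S) (hf : Function.Injective f) (m : ℕ) [NeZero m]
    (x : LaurentSeries S) (y : LaurentSeries R) (h : coeffMap f y = qExpand S m x) :
    ∃ z : LaurentSeries R, coeffMap f z = x ∧ qExpand R m z = y := by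
  obtain ⟨z, hz⟩ := exists_coeffMap_eq f hf x fun n =>
    ⟨y.coeff (m * n), by rw [← coeffMap_coeff f y, h, qExpand_coeff_mul]⟩
  refine ⟨z, hz, qsCoeffMap_injective f hf ?_⟩
  rw [coeffMap_qExpand, hz, h]

end Integral

end FermatLib.Igusa
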