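import Fermat.Agent.Igusa.LaurentLattice

/-!
Roots of power series over a valuation ring of an algebraically closed field, and Laurent series
with a bounded pole written as shifted power series.
-/

set_option autoImplicit false

noncomputable section

open HahnSeries IsLocalRing

namespace FermatLib.Igusa.LatAux

theorem exists_eq_single_mul {R : Type*} [CommRing R] {x : LaurentSeries R} {e : ℤ}
    (h : ∀ i < e, x.coeff i = 0) :
    ∃ U : PowerSeries R, x = single e 1 * HahnSeries.ofPowerSeries ℤ R U ∧
      PowerSeries.constantCoeff U = x.coeff e := by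
  refine ⟨PowerSeries.mk fun i => x.coeff (e + i), ?_, ?_⟩
  · ext i
    rw [HahnSeries.coeff_single_mul, one_mul]
    rcases lt_or_ge i e with hi | hi
    · rw [h i hi, ModularCurve.ofPowerSeries_coeff_of_neg _ (by omega)]
    · obtain ⟨j, hj⟩ : ∃ j : ℕ, i - e = j := ⟨(i - e).toNat, by omega⟩
      rw [hj, HahnSeries.ofPowerSeries_apply_coeff, PowerSeries.coeff_mk]
      congr 1
      omega
  · rw [← PowerSeries.coeff_zero_eq_constantCoeff, PowerSeries.coeff_mk]
    congr 1
    omega

theorem coeff_single_mul_ofPowerSeries_of_lt {R : Type*} [CommRing R] (e : ℤ) (U : PowerSeries R)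
    {i : ℤ} (hi : i < e) : (single e 1 * HahnSeries.ofPowerSeries ℤ R U).coeff i = 0 := by
  rw [HahnSeries.coeff_single_mul, one_mul, ModularCurve.ofPowerSeries_coeff_of_neg _ (by omega)]

theorem coeff_single_mul_ofPowerSeries_self {R : Type*} [CommRing R] (e : ℤ) (U : PowerSeries R) :
    (single e 1 * HahnSeries.ofPowerSeries ℤ R U).coeff e = PowerSeries.constantCoeff U := by
  rw [HahnSeries.coeff_single_mul, one_mul, sub_self, ← Nat.cast_zero,
    HahnSeries.ofPowerSeries_apply_coeff, PowerSeries.coeff_zero_eq_constantCoeff]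

theorem isUnit_single_mul_ofPowerSeries {R : Type*} [CommRing R] (e : ℤ) {U : PowerSeries R}
    (hU : IsUnit (PowerSeries.constantCoeff U)) :
    IsUnit (single e 1 * HahnSeries.ofPowerSeries ℤ R U) := by
  refine IsUnit.mul ⟨⟨single e 1, single (-e) 1, ?_, ?_⟩, rfl⟩
    ((PowerSeries.isUnit_iff_constantCoeff.mpr hU).map _) <;>
    simp [single_mul_single]

variable {L : Type*} [Field L] [IsAlgClosed L] {A : ValuationSubring L}

theorem exists_root_powerSeries {m : ℕ} (hm0 : m ≠ 0) (hm : IsUnit (m : A)) (U : PowerSeries A)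
    (hU : IsUnit (PowerSeries.constantCoeff U)) :
    ∃ W : PowerSeries A, W ^ m = U ∧ IsUnit (PowerSeries.constantCoeff W) := by
  obtain ⟨z, hz⟩ := IsAlgClosed.exists_pow_nat_eq ((PowerSeries.constantCoeff U : A) : L)
    (Nat.pos_of_ne_zero hm0)
  have hzA : z ∈ A := by
    rw [← A.valuation_le_one_iff]
    by_contra h
    rw [not_le] at h
    have h1 := one_lt_pow₀ h hm0
    rw [← map_pow, hz] at h1
    exact absurd (A.valuation_le_one _) (not_le.mpr h1)
  set w₀ : A := ⟨z, hzA⟩ with hw₀
  have hw : w₀ ^ m = PowerSeries.constantCoeff U := Subtype.ext hz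
  have hwu : IsUnit w₀ := (isUnit_pow_iff hm0).mp (hw ▸ hU)
  obtain ⟨W, hW, hW0⟩ := HenselianRing.is_henselian (I := Ideal.span {PowerSeries.X})
    ((Polynomial.X : Polynomial (PowerSeries A)) ^ m - Polynomial.C U)
    (Polynomial.monic_X_pow_sub_C U hm0) (PowerSeries.C w₀)
    (by
      rw [Ideal.mem_span_singleton, PowerSeries.X_dvd_iff]
      simp [hw])
    (by
      refine IsUnit.map _ ?_
      rw [PowerSeries.isUnit_iff_constantCoeff]
      simpa [Polynomial.derivative_X_pow] using hm.mul (hwu.pow (m - 1)))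
  refine ⟨W, ?_, ?_⟩
  · rw [Polynomial.IsRoot, Polynomial.eval_sub, Polynomial.eval_pow, Polynomial.eval_X,
      Polynomial.eval_C, sub_eq_zero] at hW
    exact hW
  · rw [Ideal.mem_span_singleton, PowerSeries.X_dvd_iff, map_sub, PowerSeries.constantCoeff_C,
      sub_eq_zero] at hW0
    rwa [hW0]

/-- The residue field of a valuation ring of an algebraically closed field is algebraically
closed. -/
theorem isAlgClosed_of_surjective {k : Type*} [Field k] {π : A →+* k}
    (hπ : Function.Surjective π) : IsAlgClosed k := by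
  refine IsAlgClosed.of_exists_root k fun p hp hirr => ?_
  obtain ⟨q, hq, hdeg, hqm⟩ :=
    Polynomial.lifts_and_natDegree_eq_and_monic
      ((Polynomial.mem_lifts p).mpr (Polynomial.map_surjective π hπ p)) hp
  have hd : q.degree ≠ 0 := by
    rw [Polynomial.degree_eq_natDegree hqm.ne_zero, hdeg]
    have := hirr.natDegree_pos
    exact_mod_cast this.ne'
  obtain ⟨z, hz⟩ := IsAlgClosed.exists_root (q.map A.subtype)
    (by rwa [Polynomial.degree_map_eq_of_injective (fun a b h => Subtype.ext h)])
  have hint : IsIntegral A z := ⟨q, hqm, by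
    rw [Polynomial.IsRoot, Polynomial.eval_map] at hz
    exact hz⟩
  obtain ⟨y, hy⟩ := IsIntegrallyClosed.isIntegral_iff.mp hint
  refine ⟨π y, ?_⟩
  rw [← hq, Polynomial.eval_map, Polynomial.eval₂_at_apply]
  have h0 : Polynomial.eval y q = 0 := by
    refine Subtype.ext ?_
    have hy' : ((y : A) : L) = z := hy
    have := Polynomial.eval₂_at_apply (p := q) A.subtype y
    rw [Polynomial.IsRoot, Polynomial.eval_map, ← hy'] at hz
    rw [show (A.subtype y) = (y : L) from rfl] at this
    rw [hz] at this
    exact this.symm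
  rw [h0, map_zero]

/-- A root of a constant in `k((q))` is constant when `k` is algebraically closed. -/
theorem exists_eq_algebraMap_of_pow_eq {k : Type*} [Field k] [IsAlgClosed k]
    (t : LaurentSeries k) {m : ℕ} (hm : m ≠ 0) {c : k}
    (h : t ^ m = algebraMap k (LaurentSeries k) c) :
    ∃ a : k, t = algebraMap k (LaurentSeries k) a := by
  have hint : IsIntegral k t := IsIntegral.of_pow (Nat.pos_of_ne_zero hm) (h ▸ isIntegral_algebraMap)
  have hdeg := IsAlgClosed.degree_eq_one_of_irreducible k (minpoly.irreducible hint)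
  obtain ⟨a, ha⟩ := minpoly.mem_range_of_degree_eq_one k t hdeg
  exact ⟨a, ha.symm⟩

end FermatLib.Igusa.LatAux
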