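import Fermat.Agent.Igusa.ChartSeries
import Mathlib.RingTheory.TensorProduct.Maps
import Mathlib.Algebra.Algebra.ZMod
import Mathlib.LinearAlgebra.Basis.VectorSpace

/-!
# The charts of the Igusa model modulo `ℓ`, after extension of scalars

If the `q`-expansion detects divisibility by `ℓ` on a chart, then the chart tensored with any
field of characteristic `ℓ` is a domain.
-/

set_option autoImplicit false

noncomputable section

open ModularCurve ModularCurve.IgusaScheme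
open scoped TensorProduct

namespace FermatLib.Igusa

variable {ℓ : ℕ} [Fact ℓ.Prime]

section Base

variable {K : Type} [Field K] [CharP K ℓ] [Algebra ↥(GaloisRep.ratLocalizedAt ℓ) K]

theorem den_cast_ne_zero (F : Type*) [Field F] [CharP F ℓ]
    (r : ↥(GaloisRep.ratLocalizedAt ℓ)) : (((r : ℚ).den : ℕ) : F) ≠ 0 := by
  rw [Ne, CharP.cast_eq_zero_iff F ℓ]
  intro h
  have hp := Fact.out (p := ℓ.Prime)
  exact hp.coprime_iff_not_dvd.mp (Nat.Coprime.symm (show (r : ℚ).den.Coprime ℓ from r.2)) h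

theorem algebraMap_eq_castHom (r : ↥(GaloisRep.ratLocalizedAt ℓ)) :
    algebraMap ↥(GaloisRep.ratLocalizedAt ℓ) K r =
      ZMod.castHom (dvd_refl ℓ) K (((r : ℚ).num : ZMod ℓ) / ((r : ℚ).den : ZMod ℓ)) := by
  rw [map_div₀, map_intCast, map_natCast, eq_div_iff (den_cast_ne_zero K r),
    ← map_natCast (algebraMap ↥(GaloisRep.ratLocalizedAt ℓ) K), ← map_mul,
    ← map_intCast (algebraMap ↥(GaloisRep.ratLocalizedAt ℓ) K)]
  congr 1
  exact Subtype.ext (by simpa using Rat.mul_den_eq_num (r : ℚ))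

theorem exists_eq_natCast_mul_of_map_eq_zero (r : ↥(GaloisRep.ratLocalizedAt ℓ))
    (h : algebraMap ↥(GaloisRep.ratLocalizedAt ℓ) K r = 0) :
    ∃ c : ↥(GaloisRep.ratLocalizedAt ℓ), r = (ℓ : ↥(GaloisRep.ratLocalizedAt ℓ)) * c := by
  rw [algebraMap_eq_castHom, map_div₀, div_eq_zero_iff] at h
  have hnum : (ℓ : ℤ) ∣ (r : ℚ).num := by
    rw [← CharP.intCast_eq_zero_iff K ℓ]
    simpa using h.resolve_right (by simpa using den_cast_ne_zero K r)
  obtain ⟨n, hn⟩ := hnum
  have hmem : ((r : ℚ).den : ℚ)⁻¹ ∈ GaloisRep.ratLocalizedAt ℓ := by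
    show ((r : ℚ).den : ℚ)⁻¹.den.Coprime ℓ
    rw [Rat.inv_natCast_den, if_neg (r : ℚ).den_nz]
    exact r.2
  refine ⟨(n : ↥(GaloisRep.ratLocalizedAt ℓ)) * ⟨_, hmem⟩, Subtype.ext ?_⟩
  have : (r : ℚ) = (ℓ : ℚ) * (n : ℚ) * ((r : ℚ).den : ℚ)⁻¹ := by
    rw [← div_eq_mul_inv, eq_div_iff (Nat.cast_ne_zero.mpr (r : ℚ).den_nz), Rat.mul_den_eq_num, hn]
    push_cast
    ring
  simpa [mul_assoc] using this

theorem isUnit_of_map_ne_zero (r : ↥(GaloisRep.ratLocalizedAt ℓ))
    (h : algebraMap ↥(GaloisRep.ratLocalizedAt ℓ) K r ≠ 0) : IsUnit r := by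
  have hnum : ¬ (ℓ : ℤ) ∣ (r : ℚ).num := by
    intro hd
    apply h
    rw [algebraMap_eq_castHom, map_div₀, map_intCast, (CharP.intCast_eq_zero_iff K ℓ _).mpr hd,
      zero_div]
  have hr : (r : ℚ) ≠ 0 := fun h0 => hnum (by rw [Rat.num_eq_zero.mpr h0]; exact dvd_zero _)
  have hmem : (r : ℚ)⁻¹ ∈ GaloisRep.ratLocalizedAt ℓ := by
    show ((r : ℚ)⁻¹).den.Coprime ℓ
    rw [Rat.den_inv, if_neg (Rat.num_ne_zero.mpr hr)]
    exact ((Fact.out (p := ℓ.Prime)).coprime_iff_not_dvd.mpr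
      (fun hd => hnum (Int.natCast_dvd.mpr hd))).symm
  exact IsUnit.of_mul_eq_one (⟨_, hmem⟩ : ↥(GaloisRep.ratLocalizedAt ℓ))
    (Subtype.ext (mul_inv_cancel₀ hr))

end Base

section Tensor

variable {K : Type} [Field K] [CharP K ℓ] [Algebra ↥(GaloisRep.ratLocalizedAt ℓ) K]

/-- Every tensor is a combination along a basis of `K` over its prime field. -/
theorem exists_tensor_eq_sum {M : Type} [AddCommGroup M]
    [Module ↥(GaloisRep.ratLocalizedAt ℓ) M] {ι : Type} [Algebra (ZMod ℓ) K]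
    (b : Module.Basis ι (ZMod ℓ) K) (x : M ⊗[↥(GaloisRep.ratLocalizedAt ℓ)] K) :
    ∃ c : ι →₀ M, x = ∑ i ∈ c.support, c i ⊗ₜ[↥(GaloisRep.ratLocalizedAt ℓ)] b i := by
  suffices h : ∃ c : ι →₀ M, x = c.sum fun i a => a ⊗ₜ[↥(GaloisRep.ratLocalizedAt ℓ)] b i from h
  induction x with
  | zero => exact ⟨0, by simp⟩
  | add x y hx hy =>
    obtain ⟨c, rfl⟩ := hx
    obtain ⟨d, rfl⟩ := hy
    exact ⟨c + d, (Finsupp.sum_add_index'
      (h := fun i (a : M) => a ⊗ₜ[↥(GaloisRep.ratLocalizedAt ℓ)] b i)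
      (fun i => TensorProduct.zero_tmul _ _) (fun i a a' => TensorProduct.add_tmul a a' _)).symm⟩
  | tmul a k =>
    refine ⟨(b.repr k).mapRange (fun z : ZMod ℓ => z.val • a)
      (by rw [ZMod.val_zero, zero_smul]), ?_⟩
    rw [Finsupp.sum_mapRange_index (h := fun i (m : M) => m ⊗ₜ[↥(GaloisRep.ratLocalizedAt ℓ)] b i)
      (fun i => TensorProduct.zero_tmul _ _)]
    conv_lhs => rw [← b.linearCombination_repr k, Finsupp.linearCombination_apply, Finsupp.sum,
      TensorProduct.tmul_sum]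
    refine Finset.sum_congr rfl fun i _ => ?_
    have hv : ((b.repr k) i) • b i = ((b.repr k) i).val • b i := by
      rw [Algebra.smul_def, nsmul_eq_mul]
      congr 1
      conv_lhs => rw [← ZMod.natCast_zmod_val ((b.repr k) i)]
      exact map_natCast _ _
    simp only [hv]
    exact (TensorProduct.smul_tmul _ _ _).symm

/-- An algebra with an expansion detecting divisibility by `ℓ` stays a domain over any field of
characteristic `ℓ`. -/
theorem isDomain_tensor_of_series {A : Type} [CommRing A]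
    [Algebra ↥(GaloisRep.ratLocalizedAt ℓ) A]
    (s : A →+* LaurentSeries ↥(GaloisRep.ratLocalizedAt ℓ))
    (hs : ∀ r, s (algebraMap ↥(GaloisRep.ratLocalizedAt ℓ) A r) = HahnSeries.C r)
    (hd : ∀ a : A, (∀ i : ℤ, algebraMap ↥(GaloisRep.ratLocalizedAt ℓ) K ((s a).coeff i) = 0) →
      ∃ y : A, a = (ℓ : ↥(GaloisRep.ratLocalizedAt ℓ)) • y) :
    IsDomain (A ⊗[↥(GaloisRep.ratLocalizedAt ℓ)] K) := by
  let φ : ↥(GaloisRep.ratLocalizedAt ℓ) →+* K := algebraMap _ K
  let algL : Algebra ↥(GaloisRep.ratLocalizedAt ℓ) (LaurentSeries K) :=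
    ((HahnSeries.C : K →+* LaurentSeries K).comp φ).toAlgebra
  let f : A →ₐ[↥(GaloisRep.ratLocalizedAt ℓ)] LaurentSeries K :=
    { (coeffMap φ).comp s with
      commutes' := fun r => by
        show coeffMap φ (s (algebraMap _ A r)) = HahnSeries.C (φ r)
        rw [hs, HahnSeries.C_apply, HahnSeries.C_apply, coeffMap_single] }
  let g : K →ₐ[↥(GaloisRep.ratLocalizedAt ℓ)] LaurentSeries K :=
    { (HahnSeries.C : K →+* LaurentSeries K) with commutes' := fun r => rfl }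
  let Θ := Algebra.TensorProduct.productMap f g
  suffices hinj : Function.Injective Θ by
    exact hinj.isDomain Θ.toRingHom
  let _ : Algebra (ZMod ℓ) K := ZMod.algebra K ℓ
  let b := Module.Basis.ofVectorSpace (ZMod ℓ) K
  rw [injective_iff_map_eq_zero]
  intro x hx
  obtain ⟨c, rfl⟩ := exists_tensor_eq_sum b x
  refine Finset.sum_eq_zero fun i hi => ?_
  have hzero : ∀ m : ℤ, φ ((s (c i)).coeff m) = 0 := by
    intro m
    have hm := congrArg (fun t : LaurentSeries K => t.coeff m) hx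
    simp only [map_sum, Θ, Algebra.TensorProduct.productMap_apply_tmul, HahnSeries.coeff_sum,
      HahnSeries.coeff_zero] at hm
    let q : _ → ZMod ℓ := fun j =>
      ((((s (c j)).coeff m : ↥(GaloisRep.ratLocalizedAt ℓ)) : ℚ).num : ZMod ℓ) /
        (((((s (c j)).coeff m : ↥(GaloisRep.ratLocalizedAt ℓ)) : ℚ).den) : ZMod ℓ)
    have hq : ∀ j, φ ((s (c j)).coeff m) = algebraMap (ZMod ℓ) K (q j) :=
      fun j => (algebraMap_eq_castHom _).trans rfl
    have hm' : ∑ j ∈ c.support, q j • b j = 0 := by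
      rw [← hm]
      refine Finset.sum_congr rfl fun j _ => ?_
      rw [Algebra.smul_def, ← hq]
      show _ = (coeffMap φ (s (c j)) * HahnSeries.C (b j)).coeff m
      rw [mul_comm (coeffMap φ _), HahnSeries.C_mul_eq_smul, HahnSeries.coeff_smul, coeffMap_coeff,
        smul_eq_mul, mul_comm]
    rw [hq, linearIndependent_iff'.mp b.linearIndependent _ _ hm' i hi, map_zero]
  obtain ⟨y, hy⟩ := hd (c i) hzero
  rw [hy, TensorProduct.smul_tmul, Algebra.smul_def, map_natCast, CharP.cast_eq_zero, zero_mul,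
    TensorProduct.tmul_zero]

end Tensor

variable {N : ℕ} [NeZero N]

/-- A chart on which divisibility by `ℓ` is read off the expansion is geometrically integral
modulo `ℓ`. -/
theorem isDomain_chart_tensor {S : Set ↥(modularFunctionFieldFull N)} (hS : IsChartSet N S)
    (hdvd : ∀ x : chartAlg N ℓ S, (∀ i : ℤ, ∃ c : ↥(GaloisRep.ratLocalizedAt ℓ),
      ((x : ↥(modularFunctionFieldFull N)) : LaurentSeries ℚ).coeff i = ℓ * (c : ℚ)) →
      ∃ y : chartAlg N ℓ S, x = (ℓ : ↥(GaloisRep.ratLocalizedAt ℓ)) • y)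
    (K : Type) [Field K] [CharP K ℓ] [Algebra ↥(GaloisRep.ratLocalizedAt ℓ) K] :
    IsDomain ((chartAlg N ℓ S) ⊗[↥(GaloisRep.ratLocalizedAt ℓ)] K) := by
  refine isDomain_tensor_of_series (chartSeries N ℓ hS) (fun r => ?_) fun a ha => ?_
  · ext i
    rw [coe_chartSeries_coeff]
    have h1 : ((algebraMap ↥(GaloisRep.ratLocalizedAt ℓ) (chartAlg N ℓ S) r :
        ↥(modularFunctionFieldFull N)) : LaurentSeries ℚ) = HahnSeries.single 0 (r : ℚ) := by
      rw [Subalgebra.coe_algebraMap, IsScalarTower.algebraMap_apply ↥(GaloisRep.ratLocalizedAt ℓ) ℚ,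
        ← algebraMap_apply_eq_single]
      exact RingHom.congr_fun (Subsingleton.elim
        ((algebraMap ↥(modularFunctionFieldFull N) (LaurentSeries ℚ)).comp
          (algebraMap ℚ ↥(modularFunctionFieldFull N))) (algebraMap ℚ (LaurentSeries ℚ))) _
    rw [h1]
    rcases eq_or_ne i 0 with rfl | hi
    · simp
    · simp [HahnSeries.coeff_single_of_ne hi]
  · refine hdvd a fun i => ?_
    obtain ⟨d, hd⟩ := exists_eq_natCast_mul_of_map_eq_zero _ (ha i)
    exact ⟨d, by rw [← coe_chartSeries_coeff N ℓ hS, hd]; simp⟩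

/-- `ℓ` is not a unit on the chart of the punctured `j`-line. -/
theorem not_isUnit_chartAlgMid :
    ¬ IsUnit (algebraMap ↥(GaloisRep.ratLocalizedAt ℓ) (chartAlgMid N ℓ) ℓ) := by
  intro hu
  obtain ⟨z, hz⟩ := hu.exists_left_inv
  have hz' : ((z : ↥(modularFunctionFieldFull N)) : LaurentSeries ℚ) * (ℓ : LaurentSeries ℚ) = 1 := by
    have := congrArg (fun w : chartAlgMid N ℓ => ((w : ↥(modularFunctionFieldFull N)) : LaurentSeries ℚ)) hz
    simpa using this
  have hmem : (z : ↥(modularFunctionFieldFull N)) ∈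
      chartAlg N ℓ (insert (jFull N)⁻¹ ({jFull N} : Set ↥(modularFunctionFieldFull N))) := by
    rw [show insert (jFull N)⁻¹ ({jFull N} : Set ↥(modularFunctionFieldFull N))
      = {jFull N, (jFull N)⁻¹} from Set.pair_comm _ _]
    exact z.2
  obtain ⟨n, hn⟩ := exists_pow_mul_mem_chartAlg (Set.mem_singleton _) (jFull_ne_zero N) hmem
  have hc := coeff_mem_ratLocalizedAt N ℓ (S := {jFull N}) (sFin_subset N) ⟨_, hn⟩ (-(n : ℤ))
  have hℓ : (ℓ : ℚ) ≠ 0 := Nat.cast_ne_zero.mpr (Fact.out (p := ℓ.Prime)).ne_zero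
  have hzs : ((z : ↥(modularFunctionFieldFull N)) : LaurentSeries ℚ)
      = HahnSeries.C ((ℓ : ℚ)⁻¹) := by
    rw [map_inv₀, map_natCast]
    exact eq_inv_of_mul_eq_one_left hz'
  have hval : (((jFull N) ^ n * z : ↥(modularFunctionFieldFull N)) : LaurentSeries ℚ).coeff (-(n : ℤ))
      = (ℓ : ℚ)⁻¹ := by
    push_cast
    rw [hzs, coe_jFull, mul_comm, HahnSeries.C_mul_eq_smul, HahnSeries.coeff_smul,
      coeff_jq_pow_self, smul_eq_mul, mul_one]
  rw [hval] at hc
  have hden : ((ℓ : ℚ)⁻¹).den.Coprime ℓ := hc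
  rw [Rat.inv_natCast_den, if_neg (Fact.out (p := ℓ.Prime)).ne_zero] at hden
  exact (Fact.out (p := ℓ.Prime)).ne_one ((Nat.coprime_self ℓ).mp hden)

end FermatLib.Igusa

end
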