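import Fermat.Agent.Igusa.S28Charts
import Mathlib.AlgebraicGeometry.Pullbacks
import Mathlib.AlgebraicGeometry.Properties

/-!
# The base change of the Igusa model to a field of characteristic `ℓ` is integral
-/

set_option autoImplicit false

noncomputable section

open AlgebraicGeometry CategoryTheory CategoryTheory.Limits ModularCurve ModularCurve.IgusaScheme
open scoped TensorProduct

namespace FermatLib.Igusa

theorem irreducibleSpace_of_two_opens {X : Type*} [TopologicalSpace X] (U V : Set X)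
    (hU : IsIrreducible U) (hV : IsIrreducible V) (hUo : IsOpen U)
    (hcov : U ∪ V = Set.univ) (hne : (U ∩ V).Nonempty) : IrreducibleSpace X := by
  have hVc : V ⊆ closure U :=
    (subset_closure_inter_of_isPreirreducible_of_isOpen hV.isPreirreducible hUo
      (by rwa [Set.inter_comm])).trans (closure_mono Set.inter_subset_right)
  have huniv : closure U = Set.univ :=
    Set.eq_univ_of_univ_subset (hcov ▸ Set.union_subset subset_closure hVc)
  refine (irreducibleSpace_def _).mpr ?_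
  show IsIrreducible (Set.univ : Set X)
  rw [← huniv]
  exact hU.closure

variable (N : ℕ) [NeZero N] (ℓ : ℕ) [Fact ℓ.Prime]
  (K : Type) [Field K] [CharP K ℓ] [Algebra ↥(GaloisRep.ratLocalizedAt ℓ) K]

set_option quotPrecheck false in
local notation "Pig" => pullback (igusaTo N ℓ)
  (Spec.map (CommRingCat.ofHom (algebraMap ↥(GaloisRep.ratLocalizedAt ℓ) K)))

omit [CharP K ℓ] in
set_option synthInstance.maxHeartbeats 400000 in
/-- The part of the base change over an affine chart. -/
theorem exists_chart_openImmersion {S : Set ↥(modularFunctionFieldFull N)}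
    (ι : Spec (CommRingCat.of (chartAlg N ℓ S)) ⟶ ModularCurve.IgusaScheme N ℓ) [IsOpenImmersion ι]
    (hι : ι ≫ igusaTo N ℓ =
      Spec.map (CommRingCat.ofHom (algebraMap ↥(GaloisRep.ratLocalizedAt ℓ) (chartAlg N ℓ S))))
    [IsDomain ((chartAlg N ℓ S) ⊗[↥(GaloisRep.ratLocalizedAt ℓ)] K)] :
    ∃ (W : Scheme.{0}) (j : W ⟶ Pig), IsOpenImmersion j ∧ IsIntegral W ∧
      Set.range j.base = (pullback.fst (igusaTo N ℓ)
        (Spec.map (CommRingCat.ofHom (algebraMap ↥(GaloisRep.ratLocalizedAt ℓ) K)))).base ⁻¹'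
          Set.range ι.base := by
  set g := Spec.map (CommRingCat.ofHom (algebraMap ↥(GaloisRep.ratLocalizedAt ℓ) K))
  refine ⟨pullback (pullback.fst (igusaTo N ℓ) g) ι, pullback.fst _ _, inferInstance, ?_,
    IsOpenImmersion.range_pullbackFst ι _⟩
  let e : pullback (pullback.fst (igusaTo N ℓ) g) ι ≅
      Spec (CommRingCat.of ((chartAlg N ℓ S) ⊗[↥(GaloisRep.ratLocalizedAt ℓ)] K)) :=
    pullbackSymmetry _ _ ≪≫ pullbackRightPullbackFstIso (igusaTo N ℓ) g ι ≪≫
      pullback.congrHom hι rfl ≪≫ pullbackSpecIso ↥(GaloisRep.ratLocalizedAt ℓ) (chartAlg N ℓ S) K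
  have : Nonempty ↥(pullback (pullback.fst (igusaTo N ℓ) g) ι) :=
    ⟨e.inv.base (Classical.arbitrary _)⟩
  exact isIntegral_of_isOpenImmersion e.hom

set_option maxHeartbeats 800000 in
/-- The base change of the Igusa model is integral as soon as the charts detect divisibility by
`ℓ` on `q`-expansions. -/
theorem isIntegral_pullback_igusaTo (hℓN : ¬ ℓ ∣ N) :
    IsIntegral ↑(pullback (igusaTo N ℓ)
      (Spec.map (CommRingCat.ofHom (algebraMap ↥(GaloisRep.ratLocalizedAt ℓ) K)))) := by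
  set g := Spec.map (CommRingCat.ofHom (algebraMap ↥(GaloisRep.ratLocalizedAt ℓ) K)) with hg
  have : IsDomain ((chartAlgFin N ℓ) ⊗[↥(GaloisRep.ratLocalizedAt ℓ)] K) :=
    isDomain_chart_tensor (sFin_subset N) (exists_eq_smul_of_coeff_dvd_fin N ℓ hℓN) K
  have : IsDomain ((chartAlgInf N ℓ) ⊗[↥(GaloisRep.ratLocalizedAt ℓ)] K) :=
    isDomain_chart_tensor (sInf_subset N) (exists_eq_smul_of_coeff_dvd_inf N ℓ hℓN) K
  obtain ⟨W₁, j₁, hj₁, hW₁, hr₁⟩ := exists_chart_openImmersion N ℓ K (ιFin N ℓ) (ιFin_igusaTo N ℓ)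
  obtain ⟨W₂, j₂, hj₂, hW₂, hr₂⟩ := exists_chart_openImmersion N ℓ K (ιInf N ℓ) (ιInf_igusaTo N ℓ)
  have hcov : Set.range j₁.base ∪ Set.range j₂.base = Set.univ := by
    rw [hr₁, hr₂, ← Set.preimage_union]
    refine Set.eq_univ_of_forall fun x => ?_
    exact mem_range_ιFin_or_mem_range_ιInf N ℓ _
  -- a point over both charts
  have hne : (Set.range j₁.base ∩ Set.range j₂.base).Nonempty := by
    obtain ⟨P, hP, hPℓ⟩ := Ideal.exists_le_maximal
      (Ideal.span {algebraMap ↥(GaloisRep.ratLocalizedAt ℓ) (chartAlgMid N ℓ) ℓ})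
      (fun h => not_isUnit_chartAlgMid (N := N) (Ideal.span_singleton_eq_top.mp h))
    let p : XMid N ℓ := ⟨P, hP.isPrime⟩
    let x : ModularCurve.IgusaScheme N ℓ := (ιFin N ℓ).base ((fFin N ℓ).base p)
    have hx₂ : x ∈ Set.range (ιInf N ℓ).base := by
      refine ⟨(fInf N ℓ).base p, ?_⟩
      exact (congrArg (fun f : XMid N ℓ ⟶ _ => f.base p) (glue_condition N ℓ)).symm
    let k₀ : Spec (CommRingCat.of K) := ⟨⊥, Ideal.isPrime_bot⟩
    have hxk : (igusaTo N ℓ).base x = g.base k₀ := by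
      have h1 : (igusaTo N ℓ).base x = (fFin N ℓ ≫ ιFin N ℓ ≫ igusaTo N ℓ).base p := rfl
      rw [h1, ιFin_igusaTo, hg, ← Spec.map_comp, ← CommRingCat.ofHom_comp]
      refine PrimeSpectrum.ext (Ideal.ext fun r => ?_)
      show (inclFin N ℓ).toRingHom.comp (algebraMap _ (chartAlgFin N ℓ)) r ∈ P ↔
        algebraMap ↥(GaloisRep.ratLocalizedAt ℓ) K r ∈ (⊥ : Ideal K)
      rw [Ideal.mem_bot]
      constructor
      · intro hr
        by_contra hne
        exact hP.ne_top (Ideal.eq_top_of_isUnit_mem _ hr ((isUnit_of_map_ne_zero r hne).map _))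
      · intro hr
        obtain ⟨c, rfl⟩ := exists_eq_natCast_mul_of_map_eq_zero r hr
        rw [map_mul]
        refine P.mul_mem_right _ (hPℓ (Ideal.mem_span_singleton.mpr (dvd_of_eq ?_)))
        rw [map_natCast, map_natCast]
    obtain ⟨z, hz, -⟩ := Scheme.Pullback.exists_preimage_pullback x k₀ hxk
    refine ⟨z, hr₁ ▸ ?_, hr₂ ▸ ?_⟩
    · show _ ∈ Set.range (ιFin N ℓ).base
      exact hz ▸ Set.mem_range_self _
    · show _ ∈ Set.range (ιInf N ℓ).base
      exact hz ▸ hx₂
  have hirr : ∀ {W : Scheme.{0}} (j : W ⟶ Pig), IsIntegral W → IsIrreducible (Set.range j.base) := by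
    intro W j hW
    rw [← Set.image_univ]
    exact (IrreducibleSpace.isIrreducible_univ W).image _ j.base.hom.continuous.continuousOn
  have : IrreducibleSpace ↥(pullback (igusaTo N ℓ) g) :=
    irreducibleSpace_of_two_opens _ _ (hirr j₁ hW₁) (hirr j₂ hW₂)
      j₁.isOpenEmbedding.isOpen_range hcov hne
  have hred : ∀ x : ↥(pullback (igusaTo N ℓ) g),
      _root_.IsReduced ((pullback (igusaTo N ℓ) g).presheaf.stalk x) := by
    intro x
    rcases (hcov ▸ Set.mem_univ x : x ∈ Set.range j₁.base ∪ Set.range j₂.base) with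
      ⟨y, rfl⟩ | ⟨y, rfl⟩
    · exact isReduced_of_injective (j₁.stalkMap y).hom
        (asIso (j₁.stalkMap y)).commRingCatIsoToRingEquiv.injective
    · exact isReduced_of_injective (j₂.stalkMap y).hom
        (asIso (j₂.stalkMap y)).commRingCatIsoToRingEquiv.injective
  have : IsReduced (pullback (igusaTo N ℓ) g) := isReduced_of_isReduced_stalk _
  exact isIntegral_of_irreducibleSpace_of_isReduced _

end FermatLib.Igusa

end
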