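import Fermat.Agent.Igusa.LatticeDims
import Fermat.Agent.Igusa.RootSeries

/-!
The Newton iteration inside the lattices `L(n ∞ - E) ∩ A((q))` for the `m`-th root of a function.
-/

set_option autoImplicit false

noncomputable section

open AlgebraicCurve IsLocalRing HahnSeries
open FermatLib.Igusa.LatAux

namespace FermatLib.Igusa

theorem exists_newton_identity {R : Type*} [CommRing R] (F e finv mi : R) (m : ℕ)
    (hf : F ^ m * finv = 1) (hmi : (m : R) * mi = 1) :
    ∃ w, F + e + mi * (F + e - (F + e) ^ (m + 1) * finv) - F = w * e ^ 2 := by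
  obtain ⟨w, hw⟩ := Polynomial.powAddExpansion F e (m + 1)
  refine ⟨-(mi * finv * w), ?_⟩
  rw [hw, Nat.add_sub_cancel, pow_succ]
  push_cast
  linear_combination (-mi * F - mi * ((m : R) + 1) * e) * hf - e * hmi

variable {L : Type*} [Field L] {k : Type*} [Field k] {A : ValuationSubring L} {π : A →+* k}
  {F : IntermediateField L (LaurentSeries L)} {Fk : IntermediateField k (LaurentSeries k)}
  {Pinf : Place L F} {Qinf : Place k Fk} {n₀ : ℕ} {r : Place L F → Place k Fk}

/-- `L(n ∞ - E)`. -/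
abbrev vanishSpace (Pinf : Place L F) (E : Divisor L F) (n : ℕ) : Submodule L F :=
  riemannRochSpace (Finsupp.single Pinf (n : ℤ) - E)

theorem mem_vanishSpace_iff {E : Divisor L F} (hEinf : E Pinf = 0) {n : ℕ} {x : F} :
    x ∈ vanishSpace Pinf E n ↔
      x = 0 ∨ (-(n : ℤ) ≤ Pinf.ord x ∧ ∀ P ≠ Pinf, E P ≤ P.ord x) := by
  rw [vanishSpace, mem_riemannRochSpace_iff]
  rcases eq_or_ne x 0 with rfl | hx
  · simp
  simp only [hx, false_or, Finsupp.sub_apply]
  constructor
  · intro h
    refine ⟨?_, fun P hP => ?_⟩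
    · have := h Pinf
      rw [Finsupp.single_eq_same, hEinf] at this
      omega
    · have := h P
      rw [Finsupp.single_eq_of_ne hP] at this
      omega
  · rintro ⟨h0, h⟩ P
    rcases eq_or_ne P Pinf with rfl | hP
    · rw [Finsupp.single_eq_same, hEinf]; omega
    · have := h P hP
      rw [Finsupp.single_eq_of_ne hP]; omega

theorem vanishSpace_le {E : Divisor L F} (hE : 0 ≤ E) (n : ℕ) :
    vanishSpace Pinf E n ≤ poleSpace Pinf n := lat_riemannRochSpace_mono fun P => by
  have := hE P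
  rw [Finsupp.zero_apply] at this
  rw [Finsupp.sub_apply]
  omega

/-- The data of the `m`-th root problem: `f` has divisor `m (E - d ∞)`, unit top coefficient, and
`root` is an `m`-th root in `A((q))`. -/
structure RootDatum (π : A →+* k) (Pinf : Place L F) (E : Divisor L F) (d m : ℕ) where
  fn : F
  series : LaurentSeries A
  root : LaurentSeries A
  series_val : latVal A series = (fn : LaurentSeries L)
  fn_ne_zero : fn ≠ 0
  ord_fn : ∀ P, P.ord fn = (m : ℤ) * (E P - Finsupp.single Pinf (d : ℤ) P)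
  root_pow : root ^ m = series
  root_lt : ∀ i < -(d : ℤ), root.coeff i = 0
  root_isUnit : IsUnit root
  root_coeff_isUnit : IsUnit (root.coeff (-(d : ℤ)))
  series_coeff_isUnit : IsUnit (series.coeff (-((m * d : ℕ) : ℤ)))

namespace LatticeReduction

variable [HasPrincipalDivisors L F] (H : LatticeReduction π F Fk Pinf Qinf n₀ r)
variable {E : Divisor L F} (hE : 0 ≤ E) (hEinf : E Pinf = 0) {d m : ℕ}
  (R : RootDatum π Pinf E d m)
include H hE hEinf

omit H hE [HasPrincipalDivisors L F] in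
theorem pow_div_fn_mem {n : ℕ} (hm : 0 < m) (hn : d ≤ n) {x : F}
    (hx : x ∈ vanishSpace Pinf E n) :
    x ^ (m + 1) * R.fn⁻¹ ∈ vanishSpace Pinf E ((m + 1) * n - m * d) ∧
      x ∈ vanishSpace Pinf E ((m + 1) * n - m * d) := by
  have hN : (((m + 1) * n - m * d : ℕ) : ℤ) = ((m : ℤ) + 1) * n - (m : ℤ) * d := by
    have : m * d ≤ (m + 1) * n := Nat.mul_le_mul (Nat.le_succ m) hn
    rw [Nat.cast_sub this]
    push_cast
    ring
  have hmn : (m : ℤ) * d ≤ m * n :=
    mul_le_mul_of_nonneg_left (by exact_mod_cast hn) (Int.natCast_nonneg m)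
  rw [mem_vanishSpace_iff hEinf] at hx
  rw [mem_vanishSpace_iff hEinf, mem_vanishSpace_iff hEinf]
  rcases eq_or_ne x 0 with rfl | hx0
  · simp
  obtain ⟨h0, h⟩ := hx.resolve_left hx0
  have hne := pow_ne_zero (m + 1) hx0
  have hord : ∀ P : Place L F, P.ord (x ^ (m + 1) * R.fn⁻¹) =
      ((m : ℤ) + 1) * P.ord x - (m : ℤ) * (E P - Finsupp.single Pinf (d : ℤ) P) := fun P => by
    rw [P.ord_mul hne (inv_ne_zero R.fn_ne_zero), P.ord_inv, FermatLib.Curve.ord_pow,
      R.ord_fn]
    push_cast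
    ring
  have hnn : ((0 : ℤ)) ≤ (m : ℤ) + 1 := by omega
  refine ⟨Or.inr ⟨?_, fun P hP => ?_⟩, Or.inr ⟨?_, h⟩⟩
  · rw [hord, Finsupp.single_eq_same, hEinf, hN]
    nlinarith [mul_le_mul_of_nonneg_left h0 hnn]
  · rw [hord, Finsupp.single_eq_of_ne hP, sub_zero]
    nlinarith [mul_le_mul_of_nonneg_left (h P hP) hnn]
  · rw [hN]
    nlinarith

/-- Lower the pole order at `∞` without leaving the congruence class of the root. -/
theorem exists_retract (hm : 0 < m) {n₁ : ℕ} (hn₁ : n₀ + m * d + d ≤ n₁) (p : A) :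
    ∀ (j : ℕ) (x : F) (y : LaurentSeries A), x ∈ vanishSpace Pinf E (n₁ + j) →
      latVal A y = (x : LaurentSeries L) → single (0 : ℤ) p ∣ y - R.root →
      ∃ (x' : F) (y' : LaurentSeries A), x' ∈ vanishSpace Pinf E n₁ ∧
        latVal A y' = (x' : LaurentSeries L) ∧ single (0 : ℤ) p ∣ y' - R.root := by
  intro j
  induction j with
  | zero => exact fun x y hx hxy hd => ⟨x, y, hx, hxy, hd⟩
  | succ j ih =>
    intro x y hx hxy hdvd
    obtain ⟨N, hN⟩ : ∃ N, n₁ + j + 1 = N + m * d := ⟨n₁ + j + 1 - m * d, by omega⟩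
    obtain ⟨t, yt, ht, hty, htu⟩ := H.exists_top_lift N (by omega)
    obtain ⟨hordt, -, -⟩ := H.ord_eq_of_isUnit ht hty htu
    obtain ⟨Ut, hUt, hUt0⟩ := exists_eq_single_mul (x := yt) (e := -(N : ℤ)) fun i hi => by
      have := coeff_eq_zero_of_mem_poleSpace H.orderL ht hi
      rw [← hty, latVal_coeff] at this
      exact_mod_cast this
    obtain ⟨Us, hUs, hUs0⟩ := exists_eq_single_mul (x := R.series)
      (e := -((m * d : ℕ) : ℤ)) fun i hi => by
      have h := HahnSeries.coeff_eq_zero_of_lt_order (x := (R.fn : LaurentSeries L)) (i := i) (by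
        rw [← H.orderL R.fn, R.ord_fn, Finsupp.single_eq_same, hEinf]
        push_cast at hi
        linarith)
      rw [← R.series_val, latVal_coeff] at h
      exact_mod_cast h
    set T := R.series * yt with hT
    set s : ℤ := -((n₁ + j + 1 : ℕ) : ℤ) with hs
    have hT' : T = single s 1 * HahnSeries.ofPowerSeries ℤ A (Us * Ut) := by
      rw [hT, hUs, hUt, map_mul, mul_mul_mul_comm, single_mul_single, mul_one]
      congr 3
      rw [hs, hN]
      push_cast
      ring
    have hTu : IsUnit (T.coeff s) := by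
      rw [hT', coeff_single_mul_ofPowerSeries_self, map_mul, hUs0, hUt0]
      exact R.series_coeff_isUnit.mul htu
    obtain ⟨u, hu⟩ := hTu
    have hpc : p ∣ y.coeff s := by
      have := (single_dvd_iff p _).mp hdvd s
      rwa [coeff_sub, R.root_lt s (by rw [hs]; omega), sub_zero] at this
    set c : A := y.coeff s * (↑u⁻¹ : A) with hc
    have hmem : R.fn * t ∈ vanishSpace Pinf E (n₁ + j + 1) := by
      rw [mem_vanishSpace_iff hEinf]
      have ht0 : t ≠ 0 := fun e => by
        have h0 := (latVal_eq_zero_iff hty).mp e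
        rw [h0] at htu
        exact not_isUnit_zero htu
      refine Or.inr ⟨?_, fun P hP => ?_⟩
      · rw [Pinf.ord_mul R.fn_ne_zero ht0, R.ord_fn, hordt, Finsupp.single_eq_same, hEinf, hN]
        push_cast
        linarith
      · rw [P.ord_mul R.fn_ne_zero ht0, R.ord_fn, Finsupp.single_eq_of_ne hP, sub_zero]
        have := ord_nonneg_of_mem_poleSpace ht hP
        have hP0 := hE P
        rw [Finsupp.zero_apply] at hP0
        have hm1 : (1 : ℤ) ≤ m := by exact_mod_cast hm
        nlinarith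
    have hTF : latVal A T = ((R.fn * t : F) : LaurentSeries L) := by
      rw [hT, map_mul, R.series_val, hty, MulMemClass.coe_mul]
    have hval : latVal A (y - single (0 : ℤ) c * T) =
        ((x - (c : L) • (R.fn * t) : F) : LaurentSeries L) := by
      rw [map_sub, latVal_single_mul hTF, hxy, AddSubgroupClass.coe_sub]
    refine ih _ (y - single (0 : ℤ) c * T) ?_ hval ?_
    · have h1 : x - (c : L) • (R.fn * t) ∈ vanishSpace Pinf E (n₁ + j + 1) :=
        sub_mem hx (Submodule.smul_mem _ _ hmem)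
      have hz : (y - single (0 : ℤ) c * T).coeff s = 0 := by
        rw [coeff_sub, HahnSeries.coeff_single_mul, sub_zero, hc, ← hu, mul_assoc, Units.inv_mul,
          mul_one, sub_self]
      have hz' : ((x - (c : L) • (R.fn * t) : F) : LaurentSeries L).coeff
          (-((n₁ + j + 1 : ℕ) : ℤ)) = 0 := by
        rw [← hval, latVal_coeff, ← hs, hz]
        rfl
      have h2 := mem_poleSpace_pred H.orderL (n := n₁ + j) (vanishSpace_le hE _ h1) hz'
      rw [mem_vanishSpace_iff hEinf] at h1 ⊢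
      rcases h1 with h1 | ⟨-, h1⟩
      · exact Or.inl h1
      · exact Or.inr ⟨neg_le_ord_of_mem_poleSpace h2, h1⟩
    · have : single (0 : ℤ) p ∣ single (0 : ℤ) c := by
        obtain ⟨b, hb⟩ := hpc
        refine ⟨single (0 : ℤ) (b * (↑u⁻¹ : A)), ?_⟩
        rw [single_mul_single, add_zero, hc, hb, mul_assoc]
      convert hdvd.sub (this.mul_right T) using 1
      ring

/-- Repeated Newton steps produce approximations modulo every power of `p`. -/
theorem exists_approx_root (hm : 0 < m) (hmu : IsUnit (m : A)) {n₁ : ℕ}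
    (hn₁ : n₀ + m * d + d ≤ n₁) {p : A} {x : F} {y : LaurentSeries A}
    (hx : x ∈ vanishSpace Pinf E n₁) (hxy : latVal A y = (x : LaurentSeries L))
    (hdvd : single (0 : ℤ) p ∣ y - R.root) (t : ℕ) :
    ∃ (x' : F) (y' : LaurentSeries A), x' ∈ vanishSpace Pinf E n₁ ∧
      latVal A y' = (x' : LaurentSeries L) ∧ single (0 : ℤ) (p ^ 2 ^ t) ∣ y' - R.root := by
  induction t with
  | zero => exact ⟨x, y, hx, hxy, by simpa using hdvd⟩
  | succ t ih =>
    obtain ⟨x₁, y₁, hx₁, hxy₁, hd₁⟩ := ih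
    obtain ⟨v, hv⟩ := (R.root_isUnit.pow m).exists_right_inv
    obtain ⟨mi, hmi⟩ := hmu.exists_right_inv
    have hdn : d ≤ n₁ := by omega
    obtain ⟨h1, h2⟩ := pow_div_fn_mem hEinf R hm hdn hx₁
    set N := (m + 1) * n₁ - m * d with hN
    set y₂ := y₁ + single (0 : ℤ) mi * (y₁ - y₁ ^ (m + 1) * v) with hy₂
    set x₂ : F := x₁ + (mi : L) • (x₁ - x₁ ^ (m + 1) * R.fn⁻¹) with hx₂
    have hx₂m : x₂ ∈ vanishSpace Pinf E N :=
      add_mem h2 (Submodule.smul_mem _ _ (sub_mem h2 h1))
    have hvF : latVal A v = ((R.fn⁻¹ : F) : LaurentSeries L) := by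
      rw [IntermediateField.coe_inv]
      refine eq_inv_of_mul_eq_one_right ?_
      rw [← R.series_val, ← map_mul, ← R.root_pow, hv, map_one]
    have hin : latVal A (y₁ - y₁ ^ (m + 1) * v) =
        ((x₁ - x₁ ^ (m + 1) * R.fn⁻¹ : F) : LaurentSeries L) := by
      rw [map_sub, map_mul, map_pow, hvF, hxy₁]
      rfl
    have hxy₂ : latVal A y₂ = (x₂ : LaurentSeries L) := by
      rw [hy₂, hx₂, map_add, hxy₁, latVal_single_mul hin, AddMemClass.coe_add]
    have hd₂ : single (0 : ℤ) (p ^ 2 ^ (t + 1)) ∣ y₂ - R.root := by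
      obtain ⟨w, hw⟩ := exists_newton_identity R.root (y₁ - R.root) v (single (0 : ℤ) mi) m hv (by
        have hc : (m : LaurentSeries A) = single (0 : ℤ) (m : A) :=
          (map_natCast (HahnSeries.C : A →+* LaurentSeries A) m).symm
        rw [hc, single_mul_single, add_zero, hmi, single_zero_one])
      rw [add_sub_cancel] at hw
      rw [hy₂, hw, pow_succ 2 t, pow_mul]
      have hsq : single (0 : ℤ) ((p ^ 2 ^ t) ^ 2) = (single (0 : ℤ) (p ^ 2 ^ t)) ^ 2 := by
        rw [single_pow, nsmul_zero]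
      rw [hsq]
      exact dvd_mul_of_dvd_right (pow_dvd_pow_of_dvd hd₁ 2) w
    obtain ⟨j, hj⟩ : ∃ j, N = n₁ + j := ⟨N - n₁, by
      have h3 : n₁ + m * d ≤ (m + 1) * n₁ := by
        have := Nat.mul_le_mul_left m hdn
        rw [add_mul, one_mul]
        omega
      omega⟩
    rw [hj] at hx₂m
    exact H.exists_retract hE hEinf R hm hn₁ _ j x₂ y₂ hx₂m hxy₂ hd₂

/-- A lift of the reduction of the root is congruent to it modulo some non-unit. -/
theorem exists_first_approx (hm : 0 < m) (hmk : (m : k) ≠ 0) {ε : A} (hε : ε ∈ maximalIdeal A)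
    (hε0 : ε ≠ 0) {n₁ : ℕ} (hn₁ : d ≤ n₁) {x : F} {y : LaurentSeries A}
    (hx : x ∈ vanishSpace Pinf E n₁) (hxy : latVal A y = (x : LaurentSeries L))
    (hred : latRed π y = latRed π R.root) :
    ∃ p : A, p ∈ maximalIdeal A ∧ p ≠ 0 ∧ single (0 : ℤ) p ∣ y - R.root := by
  classical
  have hxp := vanishSpace_le hE n₁ hx
  have hlow : ∀ i < -(n₁ : ℤ), y.coeff i = 0 := fun i hi => by
    have := coeff_eq_zero_of_mem_poleSpace H.orderL hxp hi
    rw [← hxy, latVal_coeff] at this
    exact_mod_cast this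
  have hΔ : x ^ m - R.fn ∈ poleSpace Pinf (m * n₁) := by
    have hmd : (m : ℤ) * d ≤ m * n₁ :=
      mul_le_mul_of_nonneg_left (by exact_mod_cast hn₁) (Int.natCast_nonneg m)
    refine sub_mem ?_ ?_ <;> rw [mem_poleSpace_iff]
    · rcases eq_or_ne x 0 with rfl | hx0
      · exact Or.inl (zero_pow hm.ne')
      refine Or.inr ⟨?_, fun P hP => ?_⟩
      · rw [FermatLib.Curve.ord_pow]
        have := mul_le_mul_of_nonneg_left (neg_le_ord_of_mem_poleSpace hxp)
          (Int.natCast_nonneg m)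
        push_cast
        linarith
      · rw [FermatLib.Curve.ord_pow]
        exact mul_nonneg (Int.natCast_nonneg m) (ord_nonneg_of_mem_poleSpace hxp hP)
    · refine Or.inr ⟨?_, fun P hP => ?_⟩
      · rw [R.ord_fn, Finsupp.single_eq_same, hEinf]
        push_cast
        linarith
      · rw [R.ord_fn, Finsupp.single_eq_of_ne hP, sub_zero]
        exact mul_nonneg (Int.natCast_nonneg m) (hE P)
  have hΔy : latVal A (y ^ m - R.series) = ((x ^ m - R.fn : F) : LaurentSeries L) := by
    rw [map_sub, map_pow, hxy, R.series_val]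
    rfl
  have hΔ0 : latRed π (y ^ m - R.series) = 0 := by
    rw [map_sub, map_pow, hred, ← map_pow, R.root_pow, sub_self]
  obtain ⟨q, hq, hq0, hqd⟩ : ∃ q : A, q ∈ maximalIdeal A ∧ q ≠ 0 ∧
      single (0 : ℤ) q ∣ y ^ m - R.series := by
    rcases eq_or_ne (x ^ m - R.fn) 0 with h | h
    · exact ⟨ε, hε, hε0, by rw [(latVal_eq_zero_iff hΔy).mp h]; exact dvd_zero _⟩
    obtain ⟨c, z, hz, hz0, -⟩ := H.bounded (m * n₁) _ hΔ h
    rw [← hΔy] at hz
    have hcA : c ∉ A := fun hc => by
      have he : z = single (0 : ℤ) (⟨c, hc⟩ : A) * (y ^ m - R.series) :=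
        latVal_injective (by rw [hz, ← smul_latVal])
      rw [he, map_mul, hΔ0, mul_zero] at hz0
      exact hz0 rfl
    have hc0 : c ≠ 0 := fun e => hcA (e ▸ A.zero_mem)
    have hci : c⁻¹ ∈ A := (A.mem_or_inv_mem c).resolve_left hcA
    refine ⟨⟨c⁻¹, hci⟩, ?_, fun e => inv_ne_zero hc0 (congrArg Subtype.val e), z, ?_⟩
    · rw [IsLocalRing.mem_maximalIdeal, mem_nonunits_iff]
      intro hu
      obtain ⟨b, hb⟩ := hu.exists_right_inv
      have hb' : c⁻¹ * (b : L) = 1 := congrArg Subtype.val hb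
      exact hcA (by
        rw [show c = (b : L) from by field_simp at hb'; exact hb'.symm]
        exact b.2)
    · exact latVal_injective (by
        rw [← smul_latVal, hz, ← mul_smul, inv_mul_cancel₀ hc0, one_smul])
  set S : Finset A := (Finset.Ico (-(n₁ : ℤ)) (-(d : ℤ))).image (fun i => y.coeff i) with hS
  obtain ⟨p, hp, hp0, hpq, hpS⟩ := exists_dvd_of_forall_mem_maximalIdeal S hq hq0 fun a ha => by
    obtain ⟨i, hi, rfl⟩ := Finset.mem_image.mp ha
    rw [← map_eq_zero_iff_mem_maximalIdeal H.surj, ← latRed_coeff, hred, latRed_coeff,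
      R.root_lt i (Finset.mem_Ico.mp hi).2, map_zero]
  refine ⟨p, hp, hp0, ?_⟩
  set ψ := ModularCurve.coeffMap (Ideal.Quotient.mk (Ideal.span {p})) with hψ
  have hψ0 : ∀ z : LaurentSeries A, ψ z = 0 ↔ single (0 : ℤ) p ∣ z := fun z => by
    rw [single_dvd_iff]
    constructor
    · intro h i
      rw [← Ideal.mem_span_singleton, ← Ideal.Quotient.eq_zero_iff_mem]
      exact congrArg (fun w => w.coeff i) h
    · intro h
      ext i
      show Ideal.Quotient.mk _ (z.coeff i) = 0
      rw [Ideal.Quotient.eq_zero_iff_mem, Ideal.mem_span_singleton]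
      exact h i
  rw [← hψ0, map_sub, sub_eq_zero]
  obtain ⟨X, hX, hX0⟩ := exists_eq_single_mul (x := ψ y) (e := -(d : ℤ)) fun i hi => by
    show Ideal.Quotient.mk _ (y.coeff i) = 0
    rw [Ideal.Quotient.eq_zero_iff_mem, Ideal.mem_span_singleton]
    rcases lt_or_ge i (-(n₁ : ℤ)) with h | h
    · rw [hlow i h]; exact dvd_zero _
    · exact hpS _ (Finset.mem_image.mpr ⟨i, Finset.mem_Ico.mpr ⟨h, hi⟩, rfl⟩)
  obtain ⟨W, hW, hW0⟩ := exists_eq_single_mul (x := ψ R.root) (e := -(d : ℤ)) fun i hi => by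
    show Ideal.Quotient.mk _ (R.root.coeff i) = 0
    rw [R.root_lt i hi, map_zero]
  have hXW : X ^ m = W ^ m := by
    have h1 : ψ (y ^ m) = ψ (R.root ^ m) := by
      rw [← sub_eq_zero, ← map_sub, hψ0, R.root_pow]
      obtain ⟨e, he⟩ := hpq
      refine Dvd.dvd.trans ⟨single (0 : ℤ) e, ?_⟩ hqd
      rw [single_mul_single, add_zero, ← he]
    rw [map_pow, map_pow, hX, hW, mul_pow, mul_pow, ← map_pow (HahnSeries.ofPowerSeries ℤ (A ⧸ Ideal.span {p})) X m, ← map_pow (HahnSeries.ofPowerSeries ℤ (A ⧸ Ideal.span {p})) W m] at h1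
    exact HahnSeries.ofPowerSeries_injective
      (((show IsUnit (single (-(d : ℤ)) (1 : A ⧸ Ideal.span {p}) : LaurentSeries _) from
        ⟨⟨_, single (d : ℤ) 1, by simp [single_mul_single], by simp [single_mul_single]⟩,
          rfl⟩).pow m).mul_left_cancel h1)
  set a : A := y.coeff (-(d : ℤ)) with ha
  set b : A := R.root.coeff (-(d : ℤ)) with hb
  have hab : π a = π b := by
    rw [ha, hb, ← latRed_coeff, hred, latRed_coeff]
  set σ : A := ∑ i ∈ Finset.range m, a ^ i * b ^ (m - 1 - i) with hσ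
  have hσu : IsUnit σ := by
    by_contra h
    have h0 := (map_eq_zero_iff_mem_maximalIdeal H.surj σ).mpr h
    rw [hσ, map_sum] at h0
    simp only [map_mul, map_pow, hab, ← _root_.pow_add] at h0
    rw [Finset.sum_congr rfl (fun i hi => by
      rw [show i + (m - 1 - i) = m - 1 by have := Finset.mem_range.mp hi; omega]),
      Finset.sum_const, Finset.card_range, nsmul_eq_mul] at h0
    exact mul_ne_zero hmk (pow_ne_zero _ (R.root_coeff_isUnit.map π).ne_zero) h0
  set S' := ∑ i ∈ Finset.range m, X ^ i * W ^ (m - 1 - i) with hS'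
  have hS'u : IsUnit S' := by
    rw [PowerSeries.isUnit_iff_constantCoeff, hS', map_sum]
    simp only [map_mul, map_pow, hX0, hW0]
    have := hσu.map (Ideal.Quotient.mk (Ideal.span {p}))
    rw [hσ, map_sum] at this
    simp only [map_mul, map_pow] at this
    exact this
  have hXW' : X = W := by
    have h := geom_sum₂_mul X W m
    rw [hXW, sub_self, ← hS'] at h
    exact sub_eq_zero.mp (hS'u.mul_right_eq_zero.mp h)
  rw [hX, hW, hXW']

/-- The Newton approximations force `L(d ∞ - E) ≠ 0`. -/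
theorem vanishSpace_ne_bot (hm : 0 < m) (hmu : IsUnit (m : A)) (hmk : (m : k) ≠ 0) {ε : A}
    (hε : ε ∈ maximalIdeal A) (hε0 : ε ≠ 0) (hrank : IsRankOneLike A)
    (hd : Divisor.degree E = d) {G : Fk} (hG0 : G ≠ 0)
    (hG : ∀ Q, Q.ord G = Finsupp.mapDomain r (E - Finsupp.single Pinf (d : ℤ)) Q)
    (hGroot : (G : LaurentSeries k) = latRed π R.root) :
    vanishSpace Pinf E d ≠ ⊥ := by
  intro hbot
  set n₁ := n₀ + m * d + d with hn₁
  obtain ⟨x₀, y₀, hx₀, hxy₀, hred₀⟩ := H.exists_lift_vanishing hE hd hG0 hG (n := n₁) (by omega)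
  obtain ⟨p, hp, hp0, hdvd⟩ :=
    H.exists_first_approx hE hEinf R hm hmk hε hε0 (by omega) hx₀ hxy₀ (hred₀.trans hGroot)
  set Ψ : vanishSpace Pinf E n₁ →ₗ[L] (Fin (n₁ - d) → L) :=
    (LinearMap.funLeft L L fun j : Fin (n₁ - d) => (⟨(j : ℕ), by omega⟩ : Fin (n₁ + 1))).comp
      ((windowMap F n₁).comp (vanishSpace Pinf E n₁).subtype) with hΨ
  have hΨapp : ∀ (x : vanishSpace Pinf E n₁) (j : Fin (n₁ - d)),
      Ψ x j = ((x : F) : LaurentSeries L).coeff ((j : ℤ) - n₁) := fun x j => rfl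
  have hinj : LinearMap.ker Ψ = ⊥ := by
    rw [Submodule.eq_bot_iff]
    intro x hx
    have hcoeff : ∀ i < -(d : ℤ), ((x : F) : LaurentSeries L).coeff i = 0 := by
      intro i hi
      rcases lt_or_ge i (-(n₁ : ℤ)) with h | h
      · exact coeff_eq_zero_of_mem_poleSpace H.orderL (vanishSpace_le hE _ x.2) h
      · obtain ⟨j, hj⟩ : ∃ j : ℕ, i + n₁ = j := ⟨(i + n₁).toNat, by omega⟩
        have := congrFun (LinearMap.mem_ker.mp hx) ⟨j, by omega⟩
        rw [hΨapp, Pi.zero_apply] at this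
        rwa [show ((j : ℕ) : ℤ) - n₁ = i by omega] at this
    have hxd : (x : F) ∈ vanishSpace Pinf E d := by
      have h2 := x.2
      rw [mem_vanishSpace_iff hEinf] at h2 ⊢
      rcases h2 with h2 | ⟨-, h2⟩
      · exact Or.inl h2
      rcases eq_or_ne (x : F) 0 with h0 | h0
      · exact Or.inl h0
      refine Or.inr ⟨?_, h2⟩
      rw [H.orderL]
      by_contra hlt
      exact h0 (Subtype.ext (HahnSeries.coeff_order_eq_zero.mp (hcoeff _ (not_le.mp hlt))))
    rw [hbot, Submodule.mem_bot] at hxd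
    exact Subtype.ext hxd
  obtain ⟨Q, hQ⟩ := LinearMap.exists_leftInverse_of_injective Ψ hinj
  have hscale : ∀ j : Fin (n₁ - d), ∃ (a : A) (z : LaurentSeries A), a ≠ 0 ∧
      latVal A z = (((a : L) • ((Q (Pi.single j 1) : vanishSpace Pinf E n₁) : F) : F) :
        LaurentSeries L) := by
    intro j
    set w : F := ((Q (Pi.single j 1) : vanishSpace Pinf E n₁) : F) with hw
    rcases eq_or_ne w 0 with h0 | h0
    · exact ⟨1, 0, one_ne_zero, by rw [h0, map_zero, smul_zero]; rfl⟩
    obtain ⟨c, z, hz, hz0, -⟩ := H.bounded n₁ w (vanishSpace_le hE _ (Subtype.mem _)) h0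
    have hc0 : c ≠ 0 := by
      rintro rfl
      rw [zero_smul] at hz
      exact hz0 (by rw [latVal_injective (hz.trans (map_zero _).symm), map_zero])
    have hz' : latVal A z = ((c • w : F) : LaurentSeries L) := by
      rw [hz]
      ext l
      rw [coe_smul_coeff, laurent_smul_coeff]
    by_cases hc : c ∈ A
    · exact ⟨⟨c, hc⟩, z, fun e => hc0 (congrArg Subtype.val e), hz'⟩
    · have hci : c⁻¹ ∈ A := (A.mem_or_inv_mem c).resolve_left hc
      refine ⟨1, single (0 : ℤ) (⟨c⁻¹, hci⟩ : A) * z, one_ne_zero, ?_⟩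
      rw [latVal_single_mul hz', ← mul_smul, inv_mul_cancel₀ hc0]
      rfl
  choose a z ha hz using hscale
  set c : A := ∏ j, a j with hc
  have hc0 : c ≠ 0 := Finset.prod_ne_zero_iff.mpr fun j _ => ha j
  obtain ⟨t, ht⟩ := hrank p hp hp0 c hc0
  obtain ⟨x, y, hx, hxy, hdy⟩ := H.exists_approx_root hE hEinf R hm hmu le_rfl hx₀ hxy₀ hdvd t
  set pt := p ^ 2 ^ t with hpt
  have hptd : p ^ t ∣ pt := pow_dvd_pow p (Nat.lt_two_pow_self).le
  have hco : ∀ j : Fin (n₁ - d), pt ∣ y.coeff ((j : ℤ) - n₁) := fun j => by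
    have := (single_dvd_iff pt _).mp hdy ((j : ℤ) - n₁)
    rwa [coeff_sub, R.root_lt _ (by omega), sub_zero] at this
  choose e he using hco
  choose b hb using fun j => Finset.dvd_prod_of_mem a (Finset.mem_univ j)
  have hxsum : (x : F) = ∑ j : Fin (n₁ - d), ((y.coeff ((j : ℤ) - n₁) : A) : L) •
      ((Q (Pi.single j 1) : vanishSpace Pinf E n₁) : F) := by
    have h1 : Q (Ψ ⟨x, hx⟩) = ⟨x, hx⟩ := LinearMap.congr_fun hQ _
    have h2 : Ψ ⟨x, hx⟩ = ∑ j : Fin (n₁ - d), ((y.coeff ((j : ℤ) - n₁) : A) : L) • (Pi.single j (1 : L)) := by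
      funext l
      rw [hΨapp, Finset.sum_apply, Finset.sum_eq_single l]
      · rw [Pi.smul_apply, Pi.single_eq_same, smul_eq_mul, mul_one, ← latVal_coeff, hxy]
      · intro j _ hj
        rw [Pi.smul_apply, Pi.single_eq_of_ne (Ne.symm hj), smul_zero]
      · intro h; exact absurd (Finset.mem_univ l) h
    rw [h2, map_sum] at h1
    have h3 := congrArg Subtype.val h1
    simp only [AddSubmonoidClass.coe_finsetSum, map_smul, SetLike.val_smul] at h3
    exact h3.symm
  have hkey : single (0 : ℤ) c * y =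
      ∑ j, single (0 : ℤ) (pt * e j * b j) * z j := by
    refine latVal_injective ?_
    rw [latVal_single_mul hxy, map_sum, hxsum, Finset.smul_sum, AddSubmonoidClass.coe_finsetSum]
    refine Finset.sum_congr rfl fun j _ => ?_
    rw [latVal_single_mul (hz j), ← mul_smul, ← mul_smul]
    congr 2
    have hb' : c = a j * b j := hb j
    rw [hb', he j]
    push_cast
    ring
  have hdd : pt ∣ c * y.coeff (-(d : ℤ)) := by
    have := congrArg (fun w => w.coeff (-(d : ℤ))) hkey
    simp only [HahnSeries.coeff_single_mul, sub_zero, HahnSeries.coeff_sum] at this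
    rw [this]
    exact Finset.dvd_sum fun j _ => ((dvd_mul_right pt _).mul_right _).mul_right _
  have hyu : IsUnit (y.coeff (-(d : ℤ))) := by
    have h := (single_dvd_iff pt _).mp hdy (-(d : ℤ))
    rw [coeff_sub] at h
    obtain ⟨g, hg⟩ := h
    by_contra hnu
    have hptm : π pt = 0 := by
      rw [hpt, map_pow, (map_eq_zero_iff_mem_maximalIdeal H.surj p).mpr hp,
        zero_pow (pow_ne_zero t two_ne_zero)]
    have h0 := congrArg π hg
    rw [map_sub, map_mul, hptm, zero_mul, (map_eq_zero_iff_mem_maximalIdeal H.surj _).mpr hnu,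
      zero_sub, neg_eq_zero] at h0
    exact (R.root_coeff_isUnit.map π).ne_zero h0
  exact ht (hptd.trans ((hyu.dvd_mul_right).mp hdd))

end LatticeReduction

end FermatLib.Igusa
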