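import Fermat.Agent.Igusa.LatticeClasses
import Fermat.Agent.Igusa.TorsionRoot

/-!
Good reduction, in the form of `LatticeReduction`, makes reduction injective on torsion of order
invertible in the residue field.
-/

set_option autoImplicit false

noncomputable section

open AlgebraicCurve IsLocalRing HahnSeries
open FermatLib.Igusa.LatAux

namespace FermatLib.Igusa

variable {L : Type*} [Field L] {k : Type*} [Field k] {A : ValuationSubring L} {π : A →+* k}
  {F : IntermediateField L (LaurentSeries L)} {Fk : IntermediateField k (LaurentSeries k)}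
  {Pinf : Place L F} {Qinf : Place k Fk} {n₀ : ℕ} {r : Place L F → Place k Fk}

namespace LatticeReduction

variable [HasPrincipalDivisors L F] (H : LatticeReduction π F Fk Pinf Qinf n₀ r)
include H

/-- In the special field, a function with trivial divisor is a constant. -/
theorem exists_eq_algebraMap_of_ord_eq_zero {h : Fk} (h0 : ∀ Q : Place k Fk, Q.ord h = 0) :
    ∃ a : k, h = algebraMap k Fk a := by
  refine ⟨(h : LaurentSeries k).coeff 0, ?_⟩
  rw [← sub_eq_zero]
  have hmem : h ∈ poleSpace Qinf 0 :=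
    mem_poleSpace_iff.mpr (Or.inr ⟨by simp [h0], fun Q _ => by simp [h0]⟩)
  refine H.eq_zero_of_window_red (sub_mem hmem (algebraMap_mem_poleSpace _)) (funext fun j => ?_)
  rw [windowMap_apply, Pi.zero_apply, AddSubgroupClass.coe_sub, coe_algebraMap_field,
    ModularCurve.algebraMap_laurentSeries_eq_single, coeff_sub]
  have hj : ((j : ℕ) : ℤ) - ((0 : ℕ) : ℤ) = 0 := by omega
  rw [hj, coeff_single_same, sub_self]

/-- A torsion divisor class of order invertible in `k` that reduces to zero is zero. -/
theorem isPrincipal_of_isPrincipal_map [IsAlgClosed L] {ε : A} (hε : ε ∈ maximalIdeal A)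
    (hε0 : ε ≠ 0) (hrank : IsRankOneLike A) {m : ℕ} (hmk : (m : k) ≠ 0) {D : Divisor L F}
    (hD : Divisor.degree D = 0) (hmD : Divisor.IsPrincipal (m • D))
    (hrD : Divisor.IsPrincipal (Finsupp.mapDomain r D)) : Divisor.IsPrincipal D := by
  have hm : 0 < m := Nat.pos_of_ne_zero fun h => hmk (by rw [h, Nat.cast_zero])
  have hmu : IsUnit (m : A) := by
    by_contra h
    exact hmk (by rw [← map_natCast π]; exact (map_eq_zero_iff_mem_maximalIdeal H.surj _).mpr h)
  obtain ⟨E, d, hE, hdeg, hp⟩ := H.exists_good_rep hD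
  set D' : Divisor L F := E - Finsupp.single Pinf (d : ℤ) with hD'
  suffices h : D' ∈ Divisor.principal (K := L) (F := F) by
    rw [← Divisor.mem_principal]
    simpa using add_mem hp h
  have hEinf : E Pinf = 0 := by
    by_contra h
    exact hE.2 Pinf h H.map_inf
  have hmD' : m • D' ∈ Divisor.principal (K := L) (F := F) := by
    have := sub_mem (Divisor.mem_principal.mpr hmD) (AddSubgroup.nsmul_mem _ hp m)
    rwa [← nsmul_sub, sub_sub_cancel] at this
  have hrD' : Divisor.IsPrincipal (Finsupp.mapDomain r D') := by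
    have h1 : Finsupp.mapDomain r D' = Finsupp.mapDomain r D - Finsupp.mapDomain r (D - D') := by
      rw [← Finsupp.mapDomain_sub, sub_sub_cancel]
    rw [h1, ← Divisor.mem_principal]
    exact sub_mem hrD (H.map_principal _ hp)
  obtain ⟨φ, hφ0, hφ⟩ := hmD'
  obtain ⟨g, hg0, hg⟩ := hrD'
  have hordφ : ∀ P, P.ord φ = (m : ℤ) * (E P - Finsupp.single Pinf (d : ℤ) P) := fun P => by
    rw [← hφ P, Finsupp.smul_apply, hD', Finsupp.sub_apply, nsmul_eq_mul]
  have hφmem : φ ∈ poleSpace Pinf (m * d) := by
    refine mem_poleSpace_iff.mpr (Or.inr ⟨?_, fun P hP => ?_⟩)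
    · rw [hordφ, Finsupp.single_eq_same, hEinf]
      push_cast
      linarith
    · rw [hordφ, Finsupp.single_eq_of_ne hP, sub_zero]
      exact mul_nonneg (Int.natCast_nonneg m) (hE.1 P)
  obtain ⟨c, s, hs, hs0, -⟩ := H.bounded (m * d) φ hφmem hφ0
  have hc0 : c ≠ 0 := by
    rintro rfl
    rw [zero_smul] at hs
    exact hs0 (by rw [latVal_injective (hs.trans (map_zero _).symm), map_zero])
  set f : F := c • φ with hfdef
  have hsf : latVal A s = (f : LaurentSeries L) := by
    rw [hs, hfdef]
    ext l
    rw [coe_smul_coeff, laurent_smul_coeff]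
  have hf0 : f ≠ 0 := by
    rw [hfdef, Algebra.smul_def]
    exact mul_ne_zero (by simpa using hc0) hφ0
  have hordf : ∀ P, P.ord f = (m : ℤ) * (E P - Finsupp.single Pinf (d : ℤ) P) := fun P => by
    rw [hfdef, Algebra.smul_def, P.ord_mul (by simpa using hc0) hφ0,
      FermatLib.Curve.ord_algebraMap, zero_add, hordφ]
  have hfmem : f ∈ poleSpace Pinf (m * d) := Submodule.smul_mem _ _ hφmem
  set sb : Fk := ⟨latRed π s, H.red_mem hfmem hsf⟩ with hsb
  have hordsb : ∀ Q, Q.ord sb = (m : ℤ) * Finsupp.mapDomain r D' Q := fun Q => by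
    have hdiv : divOf f = m • D' := by
      ext P
      rw [divOf_apply, hordf, Finsupp.smul_apply, hD', Finsupp.sub_apply, nsmul_eq_mul]
    rw [hsb, ← H.ord_red hfmem hsf hs0 Q, hdiv, Finsupp.mapDomain_smul, Finsupp.smul_apply,
      nsmul_eq_mul]
  have hinf : Finsupp.mapDomain r D' Qinf = -(d : ℤ) := by
    rw [hD', Finsupp.mapDomain_sub, Finsupp.sub_apply, hE.map_eq_zero, Finsupp.mapDomain_single,
      H.map_inf, Finsupp.single_eq_same, zero_sub]
  have hslt : ∀ i < -((m * d : ℕ) : ℤ), s.coeff i = 0 := fun i hi => by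
    have := coeff_eq_zero_of_mem_poleSpace H.orderL hfmem hi
    rw [← hsf, latVal_coeff] at this
    exact_mod_cast this
  have hsu : IsUnit (s.coeff (-((m * d : ℕ) : ℤ))) := by
    by_contra h
    have h0 := (map_eq_zero_iff_mem_maximalIdeal H.surj _).mpr h
    rw [← latRed_coeff] at h0
    have ho : (latRed π s).order = -((m * d : ℕ) : ℤ) := by
      have h1 := hordsb Qinf
      rw [H.orderK, hinf] at h1
      rw [show (sb : LaurentSeries k).order = (latRed π s).order from rfl] at h1
      push_cast
      linarith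
    rw [← ho] at h0
    exact hs0 (HahnSeries.coeff_order_eq_zero.mp h0)
  obtain ⟨U, hU, hU0⟩ := exists_eq_single_mul hslt
  obtain ⟨W, hW, hWu⟩ := exists_root_powerSeries hm.ne' hmu U (hU0 ▸ hsu)
  set Fq : LaurentSeries A := single (-(d : ℤ)) 1 * HahnSeries.ofPowerSeries ℤ A W with hFq
  have hFqpow : Fq ^ m = s := by
    rw [hFq, mul_pow, single_pow, one_pow, ← map_pow, hW, hU]
    congr 3
    push_cast
    ring
  -- the reduced root is a multiple of `g`
  have : IsAlgClosed k := isAlgClosed_of_surjective H.surj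
  obtain ⟨l, hl⟩ := H.exists_eq_algebraMap_of_ord_eq_zero (h := sb / g ^ m) fun Q => by
    rw [FermatLib.Curve.ord_div Q (fun e => hs0 (congrArg Subtype.val e)) (pow_ne_zero _ hg0),
      FermatLib.Curve.ord_pow, hordsb, ← hg Q, sub_self]
  have hgne : (g : LaurentSeries k) ≠ 0 := fun e => hg0 (Subtype.ext e)
  have htpow : (latRed π Fq / (g : LaurentSeries k)) ^ m = algebraMap k (LaurentSeries k) l := by
    rw [div_pow, ← map_pow, hFqpow]
    have := congrArg (fun z : Fk => (z : LaurentSeries k)) hl
    simpa [hsb] using this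
  obtain ⟨a, ha⟩ := exists_eq_algebraMap_of_pow_eq _ hm.ne' htpow
  have hFqu : IsUnit Fq := isUnit_single_mul_ofPowerSeries _ hWu
  have hFqc : IsUnit (Fq.coeff (-(d : ℤ))) := by
    rw [hFq, coeff_single_mul_ofPowerSeries_self]
    exact hWu
  set G : Fk := algebraMap k Fk a * g with hG
  have hGroot : (G : LaurentSeries k) = latRed π Fq := by
    rw [hG, MulMemClass.coe_mul, coe_algebraMap_field, ← ha, div_mul_cancel₀ _ hgne]
  have ha0 : a ≠ 0 := by
    rintro rfl
    rw [map_zero, div_eq_zero_iff, or_iff_left hgne] at ha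
    exact (hFqu.map (latRed π)).ne_zero ha
  let R : RootDatum π Pinf E d m :=
    { fn := f
      series := s
      root := Fq
      series_val := hsf
      fn_ne_zero := hf0
      ord_fn := hordf
      root_pow := hFqpow
      root_lt := fun i hi => coeff_single_mul_ofPowerSeries_of_lt _ _ hi
      root_isUnit := hFqu
      root_coeff_isUnit := hFqc
      series_coeff_isUnit := hsu }
  have hne := H.vanishSpace_ne_bot hE.1 hEinf R hm hmu hmk hε hε0 hrank hdeg
    (G := G) (mul_ne_zero (by simpa using ha0) hg0) (fun Q => by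
      rw [hG, Q.ord_mul (by simpa using ha0) hg0, FermatLib.Curve.ord_algebraMap, zero_add,
        ← hg Q]) hGroot
  obtain ⟨w, hw, hw0⟩ := Submodule.exists_mem_ne_zero_of_ne_bot hne
  obtain ⟨hwinf, hwoth⟩ := ((mem_vanishSpace_iff hEinf).mp hw).resolve_left hw0
  have hX : divOf w - D' = 0 := by
    refine eq_zero_of_nonneg_of_degree_eq_zero (fun P => ?_) H.deg_one ?_
    · rw [Finsupp.zero_apply, Finsupp.sub_apply, divOf_apply, hD', Finsupp.sub_apply]
      rcases eq_or_ne P Pinf with rfl | hP
      · rw [Finsupp.single_eq_same, hEinf]; omega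
      · rw [Finsupp.single_eq_of_ne hP]; have := hwoth P hP; omega
    · rw [map_sub, degree_divOf, hD', map_sub, Divisor.degree_single, H.deg_one, hdeg]
      simp
  rw [← sub_eq_zero.mp hX]
  exact divOf_mem_principal hw0

end LatticeReduction

end FermatLib.Igusa
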